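/-
S37x/BetaIntegral (helper76): S37 block [B2](b).

The second degeneracy map `β = heckeBetaBar Q̄ N ℓ : F_N → F_{Nℓ}` (`f(q) ↦ f(q^ℓ)`) is finite,
hence integral:

* `bt37_finite_of_coordinate` : generic.  If `φ : F →ₐ[K] F'` is a `K`-algebra map of fields,
  `t ∈ F` is transcendental over `K`, and `F'` has a coordinate (`S24x.IsCoordinate`), then `F'`
  is a finite module over `F` along `φ`.  (Exchange of coordinates: `φ t` is transcendental, hence
  a coordinate of `F'`, and `K(φ t) ⊆ φ(F)`.)
* `bt37_finiteAlong_of_coordinate`, `bt37_isIntegral_of_coordinate` : the same in the Prelude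
  `AlgebraicCurve.FiniteAlong` / `RingHom.IsIntegral` language.
* `bt37_finiteAlong_beta`  : `FiniteAlong Q̄ (heckeBetaBar Q̄ N ℓ)`.
* `bt37_betaIntegral`      : `HeckeBetaBarIntegral Q̄ N ℓ`.
* bonus `bt37_finiteAlong_alpha`, `bt37_alphaIntegral` : the same for `heckeAlphaBar` (same proof).
-/
import Mathlib
import Fermat.Prelude.Def_ModularCurve_HeckeOperator
import Fermat.Agent.S24x.AlgDefs
import Fermat.Agent.S24x.CoordExchange
import Fermat.Agent.S24x.FBarFinite

set_option autoImplicit false
set_option linter.style.haveILetI false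

namespace Fermat.Agent.S37x

open AlgebraicCurve ModularCurve IntermediateField Fermat.Agent.S24x

section Generic

variable {K F F' : Type*} [Field K] [Field F] [Field F'] [Algebra K F] [Algebra K F']

/-- Generic finiteness: a `K`-algebra map of function fields of one variable is finite as soon as
the source contains a transcendental element and the target has a coordinate. -/
theorem bt37_finite_of_coordinate (φ : F →ₐ[K] F') {t : F} (ht : Transcendental K t)
    {t' : F'} (ht' : IsCoordinate K F' t') :
    letI := algebraAlong φ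
    Module.Finite F F' := by
  letI := algebraAlong φ
  -- `φ t` is transcendental, hence a coordinate of `F'`
  have hinj : Function.Injective φ := φ.toRingHom.injective
  have hs : Transcendental K (φ t) := by
    intro halg
    exact ht ((isAlgebraic_algHom_iff φ hinj).mp halg)
  have hco : IsCoordinate K F' (φ t) := ht'.of_transcendental hs
  haveI : FiniteDimensional K⟮φ t⟯ F' := hco.finite
  -- `K(φ t) ⊆ φ(F)`
  have hle : K⟮φ t⟯ ≤ φ.fieldRange := by
    rw [adjoin_le_iff]
    rintro _ rfl
    exact ⟨t, rfl⟩
  obtain ⟨S, hS⟩ := (Module.finite_def (R := K⟮φ t⟯) (M := F')).mp inferInstance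
  refine ⟨⟨S, ?_⟩⟩
  rw [eq_top_iff]
  intro y hytop
  have hy : y ∈ Submodule.span K⟮φ t⟯ (S : Set F') := by rw [hS]; trivial
  clear hytop
  induction hy using Submodule.span_induction with
  | mem x hx => exact Submodule.subset_span hx
  | zero => exact zero_mem _
  | add x y _ _ hx hy => exact add_mem hx hy
  | smul c x _ hx =>
      obtain ⟨d, hd⟩ := hle c.2
      have : c • x = d • x := by
        rw [Algebra.smul_def, Algebra.smul_def]
        congr 1
        exact hd.symm
      rw [this]
      exact Submodule.smul_mem _ d hx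

/-- `FiniteAlong` form of `bt37_finite_of_coordinate`. -/
theorem bt37_finiteAlong_of_coordinate (φ : F →ₐ[K] F') {t : F} (ht : Transcendental K t)
    {t' : F'} (ht' : IsCoordinate K F' t') : FiniteAlong K φ :=
  bt37_finite_of_coordinate φ ht ht'

/-- Integrality form of `bt37_finite_of_coordinate`. -/
theorem bt37_isIntegral_of_coordinate (φ : F →ₐ[K] F') {t : F} (ht : Transcendental K t)
    {t' : F'} (ht' : IsCoordinate K F' t') : φ.toRingHom.IsIntegral := by
  letI := algebraAlong φ
  haveI : Module.Finite F F' := bt37_finite_of_coordinate φ ht ht'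
  have h : Algebra.IsIntegral F F' := Algebra.IsIntegral.of_finite F F'
  exact fun y => h.isIntegral y

end Generic

section Modular

variable (N ℓ : ℕ) [NeZero N] [NeZero ℓ]

/-- **[B2](b)** `β : F_N → F_{Nℓ}`, `f(q) ↦ f(q^ℓ)`, is finite. -/
theorem bt37_finiteAlong_beta : FiniteAlong Qbar (heckeBetaBar Qbar N ℓ) :=
  bt37_finiteAlong_of_coordinate (heckeBetaBar Qbar N ℓ)
    (fbf_isCoordinate_jBar N).transcendental (fbf_isCoordinate_jBar (N * ℓ))

/-- **[B2](b)** `β : F_N → F_{Nℓ}`, `f(q) ↦ f(q^ℓ)`, is integral. -/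
theorem bt37_betaIntegral : HeckeBetaBarIntegral Qbar N ℓ :=
  bt37_isIntegral_of_coordinate (heckeBetaBar Qbar N ℓ)
    (fbf_isCoordinate_jBar N).transcendental (fbf_isCoordinate_jBar (N * ℓ))

/-- bonus: `α : F_N → F_{Nℓ}` (inclusion) is finite. -/
theorem bt37_finiteAlong_alpha : FiniteAlong Qbar (heckeAlphaBar Qbar N ℓ) :=
  bt37_finiteAlong_of_coordinate (heckeAlphaBar Qbar N ℓ)
    (fbf_isCoordinate_jBar N).transcendental (fbf_isCoordinate_jBar (N * ℓ))

/-- bonus: `α : F_N → F_{Nℓ}` (inclusion) is integral. -/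
theorem bt37_alphaIntegral : HeckeAlphaBarIntegral Qbar N ℓ :=
  bt37_isIntegral_of_coordinate (heckeAlphaBar Qbar N ℓ)
    (fbf_isCoordinate_jBar N).transcendental (fbf_isCoordinate_jBar (N * ℓ))

end Modular

end Fermat.Agent.S37x
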