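/-
S37 prep, block [B2] (helper32): the **fundamental identity** `∑_{w | v} e(w|v) · deg w = [F' : F] · deg v`
for a finite extension `F'/F` of function fields over an algebraically closed field `K` of
characteristic zero, in the prelude's language (`AlgebraicCurve.FundamentalIdentity K F F'`), and the
`FundamentalIdentityAlong` form used by `ModularCurve.HeckeInputsAlong`.

Route: `S24x/FundIdentity.fid_sum_abstract` with `A = v.toValuationSubring` (a DVR with uniformizer `π`)
and `S =` the integral closure of `A` in `F'`; the places of `F'` over `v` are exactly the places
containing `A` at which `π` vanishes, and `e(w|v) = ord_w π`.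

All names carry the prefix `fia_`.
-/
import Mathlib
import Fermat.Prelude.Def_AlgebraicCurve_Correspondence
import Fermat.Agent.S24x.FundIdentity
import Fermat.Agent.S24x.LayerA

set_option autoImplicit false

namespace Fermat.Agent.S37x

open AlgebraicCurve IsDedekindDomain Fermat.Agent.S24x

section Bridge

variable {K F F' : Type*} [Field K] [Field F] [Field F']
  [Algebra K F] [Algebra K F'] [Algebra F F'] [IsScalarTower K F F']

omit [Algebra K F'] [IsScalarTower K F F'] in
theorem fia_algebraMap_apply (v : Place K F) (x : v.toValuationSubring) :
    algebraMap v.toValuationSubring F' x = algebraMap F F' (x : F) := rfl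

theorem fia_isScalarTower_K (v : Place K F) : IsScalarTower K v.toValuationSubring F' :=
  IsScalarTower.of_algebraMap_eq fun a => by
    rw [fia_algebraMap_apply, v.coe_algebraMap, ← IsScalarTower.algebraMap_apply]

/-- a place `w` of `F'` restricts to `v` iff its valuation ring contains (the image of) that of `v`
and a uniformizer of `v` vanishes at `w`. -/
theorem fia_restrict_eq_iff [Algebra.IsIntegral F F'] (v : Place K F) (w : Place K F')
    {π : v.toValuationSubring} (hπ : Irreducible π) :
    w.restrict F = v ↔
      (∀ x : v.toValuationSubring, algebraMap v.toValuationSubring F' x ∈ w.toValuationSubring) ∧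
        0 < w.ord (algebraMap v.toValuationSubring F' π) := by
  constructor
  · intro h
    refine ⟨fun x => ?_, ?_⟩
    · rw [fia_algebraMap_apply, ← Place.mem_restrict_iff, h]
      exact x.2
    · rw [fia_algebraMap_apply, w.ord_restrict, h, v.ord_coe_irreducible hπ, mul_one]
      exact_mod_cast w.ramificationIndex_pos (F := F)
  · rintro ⟨hA, -⟩
    apply Place.ext
    symm
    refine ValuationSubring.eq_of_le_of_ne_top _ ?_ (w.restrict F).ne_top'
    intro x hx
    rw [Place.mem_restrict_iff]
    exact hA ⟨x, hx⟩

/-- the ramification index is the order of a uniformizer of the place below. -/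
theorem fia_ramificationIndex_eq [Algebra.IsIntegral F F'] (v : Place K F) (w : Place K F')
    (hw : w.restrict F = v) {π : v.toValuationSubring} (hπ : Irreducible π) :
    (w.ramificationIndex F : ℤ) = w.ord (algebraMap v.toValuationSubring F' π) := by
  rw [fia_algebraMap_apply, w.ord_restrict, hw, v.ord_coe_irreducible hπ, mul_one]

end Bridge

section Main

variable {K F F' : Type*} [Field K] [Field F] [Field F']
  [Algebra K F] [Algebra K F'] [Algebra F F'] [IsScalarTower K F F']

omit [IsScalarTower K F F'] in
/-- the integral closure of `v.toValuationSubring` in `F'` lies in every valuation ring of `F'`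
containing `v.toValuationSubring`. -/
theorem fia_icl_le (v : Place K F) (w : Place K F')
    (hA : ∀ x : v.toValuationSubring, algebraMap v.toValuationSubring F' x ∈ w.toValuationSubring)
    (s : integralClosure v.toValuationSubring F') : (s : F') ∈ w.toValuationSubring := by
  obtain ⟨p, hp, hps⟩ := s.2
  let φ : v.toValuationSubring →+* w.toValuationSubring :=
    (algebraMap v.toValuationSubring F').codRestrict w.toValuationSubring.toSubring hA
  have hint : IsIntegral w.toValuationSubring (s : F') := by
    refine ⟨p.map φ, hp.map φ, ?_⟩
    rw [Polynomial.eval₂_map]
    exact hps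
  obtain ⟨y, hy⟩ := IsIntegrallyClosed.isIntegral_iff.mp hint
  rw [← hy]
  exact y.2

theorem fia_sum_ord [IsAlgClosed K] [CharZero K] [Module.Finite F F'] (v : Place K F)
    (hres : Function.Surjective (algebraMap K v.ResidueField))
    {π : v.toValuationSubring} (hπ : Irreducible π) :
    ∃ hfin : (fidZeros K (F := F') π).Finite,
      ∑ w ∈ hfin.toFinset, w.ord (algebraMap v.toValuationSubring F' π)
        = (Module.finrank F F' : ℤ) := by
  have : CharZero F := charZero_of_injective_algebraMap (algebraMap K F).injective
  have := fia_isScalarTower_K (F' := F') v
  let _ : Algebra K (integralClosure v.toValuationSubring F') :=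
    ((algebraMap v.toValuationSubring (integralClosure v.toValuationSubring F')).comp
      (algebraMap K v.toValuationSubring)).toAlgebra
  have : IsScalarTower K v.toValuationSubring (integralClosure v.toValuationSubring F') :=
    IsScalarTower.of_algebraMap_eq fun _ => rfl
  have : IsScalarTower K (integralClosure v.toValuationSubring F') F' :=
    IsScalarTower.of_algebraMap_eq fun a => by
      rw [IsScalarTower.algebraMap_apply K v.toValuationSubring F']
      rfl
  have : FaithfulSMul v.toValuationSubring (integralClosure v.toValuationSubring F') := by
    rw [faithfulSMul_iff_algebraMap_injective]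
    intro x y h
    have h2 := congrArg (algebraMap (integralClosure v.toValuationSubring F') F') h
    have h3 : algebraMap F F' (x : F) = algebraMap F F' (y : F) := h2
    exact Subtype.ext ((algebraMap F F').injective h3)
  have : IsDedekindDomain (integralClosure v.toValuationSubring F') :=
    integralClosure.isDedekindDomain v.toValuationSubring F F'
  have : IsFractionRing (integralClosure v.toValuationSubring F') F' :=
    integralClosure.isFractionRing_of_finite_extension F F'
  have : Module.Finite v.toValuationSubring (integralClosure v.toValuationSubring F') :=
    IsIntegralClosure.finite v.toValuationSubring F F' _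
  have : Module.Flat v.toValuationSubring (integralClosure v.toValuationSubring F') := inferInstance
  have hspan : Ideal.span {π} = IsLocalRing.maximalIdeal v.toValuationSubring :=
    hπ.maximalIdeal_eq.symm
  have hmax : (Ideal.span {π}).IsMaximal := by
    rw [hspan]; exact IsLocalRing.maximalIdeal.isMaximal _
  have hres' : Function.Surjective (algebraMap K (v.toValuationSubring ⧸ Ideal.span {π})) := by
    rw [hspan]; exact hres
  obtain ⟨hfin, hsum⟩ := fid_sum_abstract (K := K) (F := F') (A := v.toValuationSubring)
    (S := integralClosure v.toValuationSubring F')
    (fun w hw s => fia_icl_le v w hw s) π hπ.ne_zero hmax hres'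
  refine ⟨hfin, ?_⟩
  rw [IsFractionRing.finrank_eq v.toValuationSubring F
    (integralClosure v.toValuationSubring F') F']
  exact hsum

/-- **Fundamental identity** for a finite extension of function fields over an algebraically closed
field of characteristic zero all of whose places are rational. -/
theorem fia_fundamentalIdentity [IsAlgClosed K] [CharZero K] [Module.Finite F F']
    [Algebra.IsIntegral F F'] [HasPrincipalDivisors K F']
    (hresF : ∀ v : Place K F, Function.Surjective (algebraMap K v.ResidueField))
    (hresF' : ∀ w : Place K F', Function.Surjective (algebraMap K w.ResidueField)) :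
    FundamentalIdentity K F F' := by
  classical
  refine ⟨fun v => ?_⟩
  obtain ⟨π, hπ⟩ := IsDiscreteValuationRing.exists_irreducible v.toValuationSubring
  obtain ⟨hfin, hsum⟩ := fia_sum_ord (F' := F') v (hresF v) hπ
  have hfib : v.fiber F' = hfin.toFinset := by
    ext w
    rw [Place.mem_fiber, Set.Finite.mem_toFinset, fia_restrict_eq_iff v w hπ]
    rfl
  rw [hfib, la_deg_eq_one v (hresF v), ← hsum]
  simp only [Nat.cast_one, mul_one]
  refine Finset.sum_congr rfl fun w hw => ?_
  have hw' : w.restrict F = v := by
    rw [← Place.mem_fiber, hfib]; exact hw
  rw [la_deg_eq_one w (hresF' w), fia_ramificationIndex_eq v w hw' hπ]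
  simp

end Main

section Along

variable {K F F' : Type*} [Field K] [Field F] [Field F'] [Algebra K F] [Algebra K F']

/-- the `FundamentalIdentityAlong` form (the shape of `ModularCurve.HeckeInputsAlong`). -/
theorem fia_fundamentalIdentityAlong [IsAlgClosed K] [CharZero K] (φ : F →ₐ[K] F')
    (hφ : φ.toRingHom.IsIntegral) [HasPrincipalDivisors K F'] (hfin : FiniteAlong K φ)
    (hresF : ∀ v : Place K F, Function.Surjective (algebraMap K v.ResidueField))
    (hresF' : ∀ w : Place K F', Function.Surjective (algebraMap K w.ResidueField)) :
    FundamentalIdentityAlong K φ hφ := by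
  let _ := algebraAlong φ
  have := isScalarTower_along φ
  have := isIntegral_along φ hφ
  have : Module.Finite F F' := hfin
  exact fia_fundamentalIdentity hresF hresF'

end Along

end Fermat.Agent.S37x
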