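import Mathlib
import Fermat.Prelude.Def_ModularCurve_HeckeOperatorTotal
import Fermat.Agent.S37x.BetaIntegral
import Fermat.Agent.S37x.FundIdAlong
import Fermat.Agent.S24x.PlaceCenter
import Fermat.Agent.S18x.PlsTsFields
import Fermat.Agent.S18x.PlsDegree

/-!
# S37 block [B2], ASSEMBLY (helper14): `HeckeInputsAlong Q̄ N ℓ`

`hki_heckeInputsAlong_of_normFormula`: the Prelude proposition `ModularCurve.HeckeInputsAlong Q̄ N ℓ`
(needed so that `heckeOperatorAlong Q̄ N ℓ` is the true Hecke correspondence and not `0`) from the
ONE remaining input, the norm formula along `α` (s37_plan row 5).  Everything else is on main: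
integrality / finiteness of `α`, `β` (helper76 `bt37_`), the fundamental identity along `β`
(helper32 `fia_`), principal divisors and residue fields at level `N ℓ` (S24x / S18x place theory).
-/

set_option autoImplicit false

noncomputable section

namespace Fermat.Agent.S37x

open AlgebraicCurve ModularCurve Fermat.Agent.S24x Fermat.Agent.S18x

variable (N ℓ : ℕ) [NeZero N] [NeZero ℓ]

/-- principal divisors exist at every level. -/
theorem hki_hasPrincipalDivisors (M : ℕ) [NeZero M] : HasPrincipalDivisors Qbar (FBar M) :=
  pls_hasPrincipalDivisors (pls_isSepCoordinate_jBar M)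

/-- residue fields of places of `F_M` are `Q̄`. -/
theorem hki_residue_surjective (M : ℕ) [NeZero M] (v : Place Qbar (FBar M)) :
    Function.Surjective (algebraMap Qbar v.ResidueField) :=
  pc_place_residue_surjective (fbf_isCoordinate_jBar M) v

/-- the fundamental identity along `β` at `(N, ℓ)`. -/
theorem hki_fundamentalIdentityAlong_beta :
    haveI := hki_hasPrincipalDivisors (N * ℓ)
    FundamentalIdentityAlong Qbar (heckeBetaBar Qbar N ℓ) (bt37_betaIntegral N ℓ) :=
  haveI := hki_hasPrincipalDivisors (N * ℓ)
  fia_fundamentalIdentityAlong (heckeBetaBar Qbar N ℓ) (bt37_betaIntegral N ℓ)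
    (bt37_finiteAlong_beta N ℓ) (hki_residue_surjective N) (hki_residue_surjective (N * ℓ))

/-- **[B2] assembly**: `HeckeInputsAlong Q̄ N ℓ` from the norm formula along `α`. -/
theorem hki_heckeInputsAlong_of_normFormula
    (hNF : NormFormulaAlong Qbar (heckeAlphaBar Qbar N ℓ) (bt37_finiteAlong_alpha N ℓ)) :
    HeckeInputsAlong Qbar N ℓ :=
  haveI := hki_hasPrincipalDivisors (N * ℓ)
  heckeInputsAlong_intro (bt37_alphaIntegral N ℓ) (bt37_betaIntegral N ℓ)
    (hki_fundamentalIdentityAlong_beta N ℓ) (bt37_finiteAlong_alpha N ℓ) hNF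

end Fermat.Agent.S37x

end
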