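import Mathlib
import Fermat.Prelude.Def_ModularCurve_X0ModL
import Fermat.Prelude.Def_AlgebraicCurve_BaseChangeGalois
import Fermat.Prelude.Def_AlgebraicCurve_Repartitions

/-!
# S37 leaf "sigma": coefficientwise automorphisms of the characteristic-`ℓ` function field

For a field `k` and a ring automorphism `φ` of `k`, the coefficientwise action of `φ` on
`k((q))` preserves `modularFunctionFieldFullC k N` (its generators `j(q^d)` have integer
coefficients).  This gives a group homomorphism
`cfb_coeffAut k N : (k ≃+* k) →* SemilinearAut k (modularFunctionFieldFullC k N)`, hence (Prelude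
`SemilinearAut` machinery) actions on `Place`, `Divisor` and `Pic0 = JZeroC k N`.

For `k` perfect of characteristic `ℓ` we specialise to the Frobenius `cfb_frob k N ℓ`, prove the
identity `x ^ ℓ = qExpand k ℓ (coeffMap (frobenius k ℓ) x)` in `k((q))` and deduce that
`q ↦ q ^ ℓ` is the endomorphism `g ↦ (φ⁻¹ g) ^ ℓ` of the function field.

Generic value lemmas for `SemilinearAut` are also provided:
`(g • v).adicValuation (g • f) = v.adicValuation f`, and the value formula
`f(Q) = c  ⟹  (g • f)(g • Q) = baseAut g c`.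
-/

set_option autoImplicit false

noncomputable section

namespace Fermat.Agent.S37x

open ModularCurve AlgebraicCurve HahnSeries

/-! ### Generic `SemilinearAut` value lemmas -/

section Generic

variable {K F : Type*} [Field K] [Field F] [Algebra K F]

/-- The adic valuation is transported by a semilinear automorphism. -/
theorem cfb_adicValuation_smul (g : SemilinearAut K F) (v : Place K F) (f : F) :
    (g • v).adicValuation (g • f) = v.adicValuation f := by
  rcases eq_or_ne f 0 with rfl | hf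
  · rw [smul_zero, map_zero, map_zero]
  · have hgf : g • f ≠ 0 := by
      rw [SemilinearAut.smul_def]
      exact (map_ne_zero_iff _ (SemilinearAut.toRingAut g).injective).mpr hf
    rw [(g • v).adicValuation_eq_exp_neg_ord hgf, v.adicValuation_eq_exp_neg_ord hf,
      SemilinearAut.ord_smul]

/-- Variant with the inverse on the function. -/
theorem cfb_adicValuation_smul_place (g : SemilinearAut K F) (v : Place K F) (f : F) :
    (g • v).adicValuation f = v.adicValuation (g⁻¹ • f) := by
  have h := cfb_adicValuation_smul g v (g⁻¹ • f)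
  rwa [smul_inv_smul] at h

/-- Membership in the valuation ring of the translated place. -/
theorem cfb_mem_smul_place_iff (g : SemilinearAut K F) (v : Place K F) (f : F) :
    f ∈ (g • v).toValuationSubring ↔ g⁻¹ • f ∈ v.toValuationSubring := by
  rw [SemilinearAut.smul_toValuationSubring]
  exact ValuationSubring.mem_pointwise_smul_iff_inv_smul_mem

/-- **Value formula**: if `f` takes the value `c` at `v` then `g • f` takes the value
`baseAut g c` at `g • v`. -/
theorem cfb_value_smul (g : SemilinearAut K F) (v : Place K F) (f : F) (c : K)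
    (h : v.adicValuation (f - algebraMap K F c) < 1) :
    (g • v).adicValuation (g • f - algebraMap K F (SemilinearAut.baseAut g c)) < 1 := by
  rw [← SemilinearAut.smul_algebraMap, ← smul_sub, cfb_adicValuation_smul]
  exact h

/-- Value formula, place form: if `g⁻¹ • f` takes the value `c` at `v` then `f` takes the value
`baseAut g c` at `g • v`. -/
theorem cfb_value_smul_place (g : SemilinearAut K F) (v : Place K F) (f : F) (c : K)
    (h : v.adicValuation (g⁻¹ • f - algebraMap K F c) < 1) :
    (g • v).adicValuation (f - algebraMap K F (SemilinearAut.baseAut g c)) < 1 := by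
  have h1 := cfb_value_smul g v (g⁻¹ • f) c h
  rwa [smul_inv_smul] at h1

end Generic

/-! ### The coefficientwise action on `modularFunctionFieldFullC k N` -/

section CoeffAut

variable (k : Type*) [Field k] (N : ℕ)

/-- `coeffMap` of a ring endomorphism of `k` fixes the generators `j(q^d)`. -/
theorem cfb_coeffMap_jd (φ : k →+* k) (d : ℕ) [NeZero d] :
    coeffMap φ (qExpand k d (jqModC k)) = qExpand k d (jqModC k) := by
  rw [coeffMap_qExpand, coeffMap_jqModC]

variable {k N} in
/-- `coeffMap` of a ring endomorphism of `k` preserves `modularFunctionFieldFullC k N`. -/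
theorem cfb_coeffMap_mem (φ : k →+* k) {x : LaurentSeries k}
    (hx : x ∈ modularFunctionFieldFullC k N) :
    coeffMap φ x ∈ modularFunctionFieldFullC k N := by
  have hx' : x ∈ Subfield.closure
      (Set.range (algebraMap k (LaurentSeries k)) ∪ divisorExpansionsC k N) := hx
  clear hx
  induction hx' using Subfield.closure_induction with
  | mem y hy =>
      rcases hy with ⟨a, rfl⟩ | ⟨d, hd, hdN, rfl⟩
      · rw [coeffMap_algebraMap]
        exact (modularFunctionFieldFullC k N).algebraMap_mem _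
      · have := hd
        rw [cfb_coeffMap_jd]
        exact jqModCd_mem_full k N hdN
  | one => rw [map_one]; exact one_mem _
  | add a b _ _ ha hb => rw [map_add]; exact add_mem ha hb
  | neg a _ ha => rw [map_neg]; exact neg_mem ha
  | inv a _ ha => rw [map_inv₀]; exact inv_mem ha
  | mul a b _ _ ha hb => rw [map_mul]; exact mul_mem ha hb

/-- The coefficientwise ring automorphism of `modularFunctionFieldFullC k N` attached to a ring
automorphism of `k`. -/
def cfb_ringAut (φ : k ≃+* k) :
    modularFunctionFieldFullC k N ≃+* modularFunctionFieldFullC k N where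
  toFun x := ⟨coeffMap (φ : k →+* k) (x : LaurentSeries k), cfb_coeffMap_mem _ x.2⟩
  invFun x := ⟨coeffMap (φ.symm : k →+* k) (x : LaurentSeries k), cfb_coeffMap_mem _ x.2⟩
  left_inv x := Subtype.ext <| by
    show coeffMap (φ.symm : k →+* k) (coeffMap (φ : k →+* k) (x : LaurentSeries k))
      = (x : LaurentSeries k)
    rw [coeffMap_coeffMap,
      coeffMap_congr (g := RingHom.id k) (RingHom.ext fun a => φ.symm_apply_apply a)
        (x : LaurentSeries k),
      coeffMap_id]
  right_inv x := Subtype.ext <| by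
    show coeffMap (φ : k →+* k) (coeffMap (φ.symm : k →+* k) (x : LaurentSeries k))
      = (x : LaurentSeries k)
    rw [coeffMap_coeffMap,
      coeffMap_congr (g := RingHom.id k) (RingHom.ext fun a => φ.apply_symm_apply a)
        (x : LaurentSeries k),
      coeffMap_id]
  map_mul' x y :=
    Subtype.ext (map_mul (coeffMap (φ : k →+* k)) (x : LaurentSeries k) (y : LaurentSeries k))
  map_add' x y :=
    Subtype.ext (map_add (coeffMap (φ : k →+* k)) (x : LaurentSeries k) (y : LaurentSeries k))

@[simp]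
theorem cfb_coe_ringAut_apply (φ : k ≃+* k) (x : modularFunctionFieldFullC k N) :
    (cfb_ringAut k N φ x : LaurentSeries k) = coeffMap (φ : k →+* k) (x : LaurentSeries k) :=
  rfl

theorem cfb_ringAut_algebraMap (φ : k ≃+* k) (a : k) :
    cfb_ringAut k N φ (algebraMap k (modularFunctionFieldFullC k N) a)
      = algebraMap k (modularFunctionFieldFullC k N) (φ a) :=
  Subtype.ext (coeffMap_algebraMap (φ : k →+* k) a)

/-- The coefficientwise action as a homomorphism into the Prelude's group of semilinear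
automorphisms. -/
def cfb_coeffAut : (k ≃+* k) →* SemilinearAut k (modularFunctionFieldFullC k N) where
  toFun φ := ⟨(cfb_ringAut k N φ, φ), fun a => cfb_ringAut_algebraMap k N φ a⟩
  map_one' := by
    refine Subtype.ext (Prod.ext (RingEquiv.ext fun x => Subtype.ext ?_) rfl)
    show coeffMap ((1 : k ≃+* k) : k →+* k) (x : LaurentSeries k) = (x : LaurentSeries k)
    rw [show ((1 : k ≃+* k) : k →+* k) = RingHom.id k from RingHom.ext fun _ => rfl,
      coeffMap_id]
  map_mul' σ τ := by
    refine Subtype.ext (Prod.ext (RingEquiv.ext fun x => Subtype.ext ?_) rfl)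
    show coeffMap ((σ * τ : k ≃+* k) : k →+* k) (x : LaurentSeries k)
      = coeffMap (σ : k →+* k) (coeffMap (τ : k →+* k) (x : LaurentSeries k))
    rw [coeffMap_coeffMap]
    exact coeffMap_congr (RingHom.ext fun _ => rfl) _

@[simp]
theorem cfb_toRingAut_coeffAut (φ : k ≃+* k) :
    SemilinearAut.toRingAut (cfb_coeffAut k N φ) = cfb_ringAut k N φ :=
  rfl

@[simp]
theorem cfb_baseAut_coeffAut (φ : k ≃+* k) :
    SemilinearAut.baseAut (cfb_coeffAut k N φ) = φ :=
  rfl

theorem cfb_coe_coeffAut_smul (φ : k ≃+* k) (x : modularFunctionFieldFullC k N) :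
    ((cfb_coeffAut k N φ • x : modularFunctionFieldFullC k N) : LaurentSeries k)
      = coeffMap (φ : k →+* k) (x : LaurentSeries k) :=
  rfl

/-- The coefficientwise action fixes the generators `j(q^d)`, `d ∣ N`. -/
theorem cfb_coeffAut_smul_jd (φ : k ≃+* k) {d : ℕ} [NeZero d] (hd : d ∣ N) :
    cfb_coeffAut k N φ • (⟨qExpand k d (jqModC k), jqModCd_mem_full k N hd⟩ :
        modularFunctionFieldFullC k N)
      = ⟨qExpand k d (jqModC k), jqModCd_mem_full k N hd⟩ :=
  Subtype.ext (cfb_coeffMap_jd k (φ : k →+* k) d)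

/-- The coefficientwise action fixes `j`. -/
theorem cfb_coeffAut_smul_j (φ : k ≃+* k) :
    cfb_coeffAut k N φ • (⟨jqModC k, jqModC_mem_full k N⟩ : modularFunctionFieldFullC k N)
      = ⟨jqModC k, jqModC_mem_full k N⟩ :=
  Subtype.ext (coeffMap_jqModC (φ : k →+* k))

end CoeffAut

/-! ### Frobenius on Laurent series in characteristic `ℓ` -/

section PowChar

variable {k : Type*} [CommRing k] (ℓ : ℕ) [hℓ : Fact ℓ.Prime] [CharP k ℓ]

/-- Frobenius on power series in characteristic `ℓ`, coefficientwise. -/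
theorem cfb_powerSeries_coeff_pow_char (p : PowerSeries k) (n : ℕ) :
    PowerSeries.coeff n (p ^ ℓ) = if ℓ ∣ n then (PowerSeries.coeff (n / ℓ) p) ^ ℓ else 0 := by
  have hpos : 0 < ℓ := hℓ.out.pos
  set f : Polynomial k := PowerSeries.trunc (n + 1) p with hf
  have h1 : PowerSeries.coeff n (p ^ ℓ) = (f ^ ℓ).coeff n := by
    rw [← PowerSeries.coeff_coe_trunc_of_lt (Nat.lt_succ_self n) (f := p ^ ℓ),
      ← PowerSeries.trunc_trunc_pow, PowerSeries.coeff_coe_trunc_of_lt (Nat.lt_succ_self n),
      ← Polynomial.coe_pow, Polynomial.coeff_coe]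
  rw [h1, ← Polynomial.map_frobenius_expand ℓ f, Polynomial.coeff_map,
    Polynomial.coeff_expand hpos]
  split_ifs with hd
  · rw [frobenius_def, hf, PowerSeries.coeff_trunc, if_pos]
    exact lt_of_le_of_lt (Nat.div_le_self n ℓ) (Nat.lt_succ_self n)
  · rw [map_zero]

theorem cfb_powerSeries_pow_char (p : PowerSeries k) :
    p ^ ℓ = PowerSeries.expand ℓ hℓ.out.ne_zero (p.map (frobenius k ℓ)) := by
  ext n
  rw [cfb_powerSeries_coeff_pow_char, PowerSeries.coeff_expand]
  split_ifs with hd
  · rw [PowerSeries.coeff_map, frobenius_def]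
  · rfl

end PowChar

section QExpandPS

theorem cfb_qExpand_ofPowerSeries {R : Type*} [CommRing R] (p : ℕ) [NeZero p]
    (P : PowerSeries R) :
    qExpand R p (HahnSeries.ofPowerSeries ℤ R P) =
      HahnSeries.ofPowerSeries ℤ R (PowerSeries.expand p (NeZero.ne p) P) := by
  ext k
  by_cases hk : (p : ℤ) ∣ k
  · obtain ⟨m, rfl⟩ := hk
    rw [qExpand_coeff_mul]
    rcases le_or_gt 0 m with hm | hm
    · lift m to ℕ using hm
      rw [HahnSeries.ofPowerSeries_apply_coeff,
        show (p : ℤ) * (m : ℤ) = ((p * m : ℕ) : ℤ) by push_cast; ring,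
        HahnSeries.ofPowerSeries_apply_coeff, PowerSeries.coeff_expand_mul]
    · rw [ofPowerSeries_coeff_of_neg _ hm, ofPowerSeries_coeff_of_neg]
      exact mul_neg_of_pos_of_neg (by exact_mod_cast Nat.pos_of_ne_zero (NeZero.ne p)) hm
  · rw [qExpand_coeff_of_not_dvd p _ hk]
    rcases le_or_gt 0 k with hk0 | hk0
    · lift k to ℕ using hk0
      rw [HahnSeries.ofPowerSeries_apply_coeff, PowerSeries.coeff_expand_of_not_dvd]
      intro h
      exact hk (by exact_mod_cast h)
    · rw [ofPowerSeries_coeff_of_neg _ hk0]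

end QExpandPS

section LaurentPowChar

variable {k : Type*} [CommRing k] (ℓ : ℕ) [hℓ : Fact ℓ.Prime] [CharP k ℓ] [NeZero ℓ]

/-- **Frobenius on Laurent series** in characteristic `ℓ`:
`x ^ ℓ = (coefficientwise Frobenius of x)(q ^ ℓ)`. -/
theorem cfb_pow_char (x : LaurentSeries k) :
    x ^ ℓ = qExpand k ℓ (coeffMap (frobenius k ℓ) x) := by
  conv_lhs => rw [← LaurentSeries.single_order_mul_powerSeriesPart x]
  conv_rhs => rw [← LaurentSeries.single_order_mul_powerSeriesPart x]
  rw [mul_pow, map_mul, map_mul, coeffMap_single, RingHom.map_one (frobenius k ℓ), qExpand_single,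
    single_pow, one_pow, ← map_pow, cfb_powerSeries_pow_char ℓ, coeffMap_ofPowerSeries,
    cfb_qExpand_ofPowerSeries, nsmul_eq_mul]

/-- Coefficient form of `cfb_pow_char`. -/
theorem cfb_coeff_pow_char_mul (x : LaurentSeries k) (m : ℤ) :
    (x ^ ℓ).coeff ((ℓ : ℤ) * m) = (x.coeff m) ^ ℓ := by
  rw [cfb_pow_char ℓ x, qExpand_coeff_mul, coeffMap_coeff, frobenius_def]

theorem cfb_coeff_pow_char_of_not_dvd (x : LaurentSeries k) {m : ℤ} (hm : ¬ (ℓ : ℤ) ∣ m) :
    (x ^ ℓ).coeff m = 0 := by
  rw [cfb_pow_char ℓ x, qExpand_coeff_of_not_dvd ℓ _ hm]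

end LaurentPowChar

/-! ### The Frobenius semilinear automorphism of `modularFunctionFieldFullC k N` -/

section Frob

variable (k : Type*) [Field k] (N : ℕ) (ℓ : ℕ) [hℓ : Fact ℓ.Prime] [CharP k ℓ] [PerfectRing k ℓ]

/-- The coefficientwise Frobenius `Σ aₙ qⁿ ↦ Σ aₙ^ℓ qⁿ` as a semilinear automorphism of the
function field `modularFunctionFieldFullC k N` (`k` perfect of characteristic `ℓ`). -/
def cfb_frob : SemilinearAut k (modularFunctionFieldFullC k N) :=
  cfb_coeffAut k N (frobeniusEquiv k ℓ)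

@[simp]
theorem cfb_baseAut_frob : SemilinearAut.baseAut (cfb_frob k N ℓ) = frobeniusEquiv k ℓ :=
  rfl

theorem cfb_baseAut_frob_apply (c : k) : SemilinearAut.baseAut (cfb_frob k N ℓ) c = c ^ ℓ := by
  rw [cfb_baseAut_frob, frobeniusEquiv_apply, frobenius_def]

theorem cfb_baseAut_frob_inv_apply_pow (c : k) :
    (SemilinearAut.baseAut (cfb_frob k N ℓ)⁻¹ c) ^ ℓ = c := by
  rw [SemilinearAut.baseAut_inv, cfb_baseAut_frob]
  exact frobeniusEquiv_symm_pow_p k ℓ c

theorem cfb_coe_frob_smul (x : modularFunctionFieldFullC k N) :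
    ((cfb_frob k N ℓ • x : modularFunctionFieldFullC k N) : LaurentSeries k)
      = coeffMap (frobenius k ℓ) (x : LaurentSeries k) := by
  rw [cfb_frob, cfb_coe_coeffAut_smul]
  exact coeffMap_congr (RingHom.ext fun a => by simp) _

theorem cfb_coe_frob_inv_smul (x : modularFunctionFieldFullC k N) :
    (((cfb_frob k N ℓ)⁻¹ • x : modularFunctionFieldFullC k N) : LaurentSeries k)
      = coeffMap ((frobeniusEquiv k ℓ).symm : k →+* k) (x : LaurentSeries k) := by
  rw [cfb_frob, ← map_inv, cfb_coe_coeffAut_smul]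
  rfl

/-- Frobenius fixes the generators `j(q^d)`. -/
theorem cfb_frob_smul_jd {d : ℕ} [NeZero d] (hd : d ∣ N) :
    cfb_frob k N ℓ • (⟨qExpand k d (jqModC k), jqModCd_mem_full k N hd⟩ :
        modularFunctionFieldFullC k N)
      = ⟨qExpand k d (jqModC k), jqModCd_mem_full k N hd⟩ :=
  cfb_coeffAut_smul_jd k N _ hd

theorem cfb_frob_smul_j :
    cfb_frob k N ℓ • (⟨jqModC k, jqModC_mem_full k N⟩ : modularFunctionFieldFullC k N)
      = ⟨jqModC k, jqModC_mem_full k N⟩ :=
  cfb_coeffAut_smul_j k N _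

/-- **Value formula for Frobenius**: if `f` takes the value `c` at `Q` then `φ • f` takes the
value `c ^ ℓ` at `φ • Q`. -/
theorem cfb_value_frob (Q : Place k (modularFunctionFieldFullC k N))
    (f : modularFunctionFieldFullC k N) (c : k)
    (h : Q.adicValuation (f - algebraMap k _ c) < 1) :
    (cfb_frob k N ℓ • Q).adicValuation
      (cfb_frob k N ℓ • f - algebraMap k (modularFunctionFieldFullC k N) (c ^ ℓ)) < 1 := by
  have h1 := cfb_value_smul (cfb_frob k N ℓ) Q f c h
  rwa [cfb_baseAut_frob_apply] at h1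

variable [NeZero ℓ]

variable {k} in
/-- In characteristic `ℓ`: `x(q^ℓ) = (φ⁻¹ x)^ℓ` for every Laurent series `x`. -/
theorem cfb_qExpand_eq_pow (x : LaurentSeries k) :
    qExpand k ℓ x = (coeffMap ((frobeniusEquiv k ℓ).symm : k →+* k) x) ^ ℓ := by
  rw [cfb_pow_char ℓ, coeffMap_coeffMap,
    coeffMap_congr (g := RingHom.id k)
      (RingHom.ext fun a => by simp) x, coeffMap_id]

variable {k N} in
/-- `q ↦ q ^ ℓ` preserves `modularFunctionFieldFullC k N` in characteristic `ℓ`. -/
theorem cfb_qExpand_mem {x : LaurentSeries k} (hx : x ∈ modularFunctionFieldFullC k N) :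
    qExpand k ℓ x ∈ modularFunctionFieldFullC k N := by
  rw [cfb_qExpand_eq_pow ℓ x]
  exact pow_mem (cfb_coeffMap_mem _ hx) ℓ

/-- The endomorphism `g ↦ g(q^ℓ)` of the function field (the "relative Frobenius"): a
`k`-algebra endomorphism, equal to `g ↦ (φ⁻¹ g) ^ ℓ`. -/
def cfb_qPow : modularFunctionFieldFullC k N →ₐ[k] modularFunctionFieldFullC k N where
  toFun x := ⟨qExpand k ℓ (x : LaurentSeries k), cfb_qExpand_mem ℓ x.2⟩
  map_one' := Subtype.ext (map_one (qExpand k ℓ))
  map_mul' _ _ := Subtype.ext (map_mul (qExpand k ℓ) _ _)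
  map_zero' := Subtype.ext (map_zero (qExpand k ℓ))
  map_add' _ _ := Subtype.ext (map_add (qExpand k ℓ) _ _)
  commutes' a := Subtype.ext <| by
    show qExpand k ℓ (algebraMap k (LaurentSeries k) a) = algebraMap k (LaurentSeries k) a
    rw [algebraMap_laurentSeries_eq_single, qExpand_single, mul_zero]

@[simp]
theorem cfb_coe_qPow (x : modularFunctionFieldFullC k N) :
    (cfb_qPow k N ℓ x : LaurentSeries k) = qExpand k ℓ (x : LaurentSeries k) :=
  rfl

/-- `g(q^ℓ) = (φ⁻¹ g) ^ ℓ`. -/
theorem cfb_qPow_apply (x : modularFunctionFieldFullC k N) :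
    cfb_qPow k N ℓ x = ((cfb_frob k N ℓ)⁻¹ • x) ^ ℓ := by
  apply Subtype.ext
  rw [cfb_coe_qPow, cfb_qExpand_eq_pow]
  show _ = ((((cfb_frob k N ℓ)⁻¹ • x : modularFunctionFieldFullC k N)) : LaurentSeries k) ^ ℓ
  rw [cfb_coe_frob_inv_smul]

/-- `(φ g)(q^ℓ) = g ^ ℓ`. -/
theorem cfb_qPow_frob_smul (x : modularFunctionFieldFullC k N) :
    cfb_qPow k N ℓ (cfb_frob k N ℓ • x) = x ^ ℓ := by
  rw [cfb_qPow_apply, inv_smul_smul]

/-- `q ↦ q^ℓ` fixes the generators up to the `ℓ`-th power: `j_d(q^ℓ) = j_d ^ ℓ`. -/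
theorem cfb_qPow_jd {d : ℕ} [NeZero d] (hd : d ∣ N) :
    cfb_qPow k N ℓ (⟨qExpand k d (jqModC k), jqModCd_mem_full k N hd⟩ :
        modularFunctionFieldFullC k N)
      = (⟨qExpand k d (jqModC k), jqModCd_mem_full k N hd⟩ :
        modularFunctionFieldFullC k N) ^ ℓ := by
  conv_lhs => rw [← cfb_frob_smul_jd k N ℓ hd]
  exact cfb_qPow_frob_smul k N ℓ _

/-- **Value formula for `q ↦ q^ℓ`**: `g(q^ℓ)` takes at `Q` the value of `g` at `φ • Q`. -/
theorem cfb_value_qPow (Q : Place k (modularFunctionFieldFullC k N))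
    (g : modularFunctionFieldFullC k N) (c : k)
    (h : (cfb_frob k N ℓ • Q).adicValuation (g - algebraMap k _ c) < 1) :
    Q.adicValuation (cfb_qPow k N ℓ g - algebraMap k (modularFunctionFieldFullC k N) c) < 1 := by
  set φ := cfb_frob k N ℓ with hφ
  set c' : k := SemilinearAut.baseAut φ⁻¹ c with hc'
  have hc : c' ^ ℓ = c := cfb_baseAut_frob_inv_apply_pow k N ℓ c
  have h1 : Q.adicValuation (φ⁻¹ • g - algebraMap k _ c') < 1 := by
    rw [cfb_adicValuation_smul_place, smul_sub, SemilinearAut.smul_algebraMap] at h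
    exact h
  have h2 : cfb_qPow k N ℓ g - algebraMap k (modularFunctionFieldFullC k N) c
      = (φ⁻¹ • g - algebraMap k _ c') ^ ℓ := by
    have : CharP (modularFunctionFieldFullC k N) ℓ :=
      charP_of_injective_algebraMap (algebraMap k (modularFunctionFieldFullC k N)).injective ℓ
    rw [sub_pow_char, cfb_qPow_apply, ← map_pow, hc]
  rw [h2, map_pow]
  exact pow_lt_one₀ zero_le h1 (NeZero.ne ℓ)

/-- The place `φ • Q` is the restriction of `Q` along `q ↦ q ^ ℓ`. -/
theorem cfb_comap_qPow (Q : Place k (modularFunctionFieldFullC k N)) :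
    Q.toValuationSubring.comap (cfb_qPow k N ℓ : modularFunctionFieldFullC k N →+* _)
      = (cfb_frob k N ℓ • Q).toValuationSubring := by
  ext x
  rw [ValuationSubring.mem_comap, cfb_mem_smul_place_iff, RingHom.coe_coe, cfb_qPow_apply]
  constructor
  · intro h
    by_contra hx
    have hinv := (Q.toValuationSubring.mem_or_inv_mem ((cfb_frob k N ℓ)⁻¹ • x)).resolve_left hx
    have h0 : (cfb_frob k N ℓ)⁻¹ • x ≠ 0 := fun h0 => hx (h0 ▸ zero_mem _)
    -- `y⁻¹ ∈ O` and `y ^ ℓ ∈ O` give `y = y ^ ℓ * (y⁻¹) ^ (ℓ - 1) ∈ O`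
    apply hx
    have hpos : 0 < ℓ := Nat.pos_of_ne_zero (NeZero.ne ℓ)
    have : (cfb_frob k N ℓ)⁻¹ • x
        = ((cfb_frob k N ℓ)⁻¹ • x) ^ ℓ * (((cfb_frob k N ℓ)⁻¹ • x)⁻¹) ^ (ℓ - 1) := by
      rw [inv_pow, ← div_eq_mul_inv, eq_div_iff (pow_ne_zero _ h0), ← pow_succ',
        Nat.sub_add_cancel hpos]
    rw [this]
    exact mul_mem h (pow_mem hinv _)
  · intro h
    exact pow_mem h ℓ

end Frob

/-! ### The formal Eichler–Shimura relation from (ii) and (iii) -/

section Formal

variable {K F : Type*} [Field K] [Field F] [Algebra K F]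
variable {J : Type*} [AddCommGroup J]

/-- If `red ∘ σ = Φ ∘ red` and `red ∘ T = (Φ + ℓ Φ⁻¹) ∘ red` for a semilinear automorphism `Φ`
acting on `Pic0`, then `red ∘ (σ² - T σ + ℓ) = 0`: the shape of the hypothesis `hES` of
`sg37_exists_specialization`. -/
theorem cfb_es_relation (red : J →+ Pic0 K F) (σ T : J → J) (Φ : SemilinearAut K F) (ℓ : ℕ)
    (h2 : ∀ x, red (σ x) = Φ • red x)
    (h3 : ∀ x, red (T x) = Φ • red x + ℓ • (Φ⁻¹ • red x)) (y : J) :
    red (σ (σ y)) - red (T (σ y)) + ℓ • red y = 0 := by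
  rw [h3, h2, h2, inv_smul_smul]
  abel

/-- If `red ∘ σ = Φ ∘ red` then `ker red` is stable under `σ` (hypothesis `hF1` of the glue). -/
theorem cfb_ker_stable (red : J →+ Pic0 K F) (σ : J → J) (Φ : SemilinearAut K F)
    (h2 : ∀ x, red (σ x) = Φ • red x) (x : J) (hx : red x = 0) : red (σ x) = 0 := by
  rw [h2, hx]
  exact smul_zero (A := Pic0 K F) Φ

end Formal

end Fermat.Agent.S37x
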