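/-
S37 PREP, block [B2] (HeckeInputsAlong), leaf NORM FORMULA (helper25).  Prefix `nfa_`.

For a finite separable extension `F'/F` of function fields over an algebraically closed field `K` of
characteristic zero, all of whose places have degree one, the pushforward of a principal divisor is
the divisor of the norm:  `∑_{w ∣ v} ord_w(f) = ord_v(N_{F'/F} f)`, i.e. the Prelude's
`Divisor.PushforwardNormFormula K F F'`, and in the `Along` form `NormFormulaAlong K φ hfin`
consumed by `ModularCurve.HeckeInputsAlong`.

Proof: `A = 𝒪_v` (a DVR), `S` = integral closure of `A` in `F'` (Dedekind, finite over `A`); the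
places of `F'` over `v` are the maximal ideals of `S` (S24x dictionary); Mathlib's
`Ideal.relNorm_singleton`, multiplicativity of `Ideal.relNorm` and `Ideal.relNorm_eq_pow_of_isMaximal`
give `(N s) = 𝔪_v ^ #factors(s)` for `s ∈ S`.

* `nfa_span_intNorm_eq_pow`     : the ideal-theoretic core (Mathlib only);
* `nfa_restrict_eq_iff`         : `w.restrict F = v ↔ w` comes from a maximal ideal of `S`;
* `nfa_normFormula_abstract`    : the formula for any Dedekind model `S` of `F'` over `𝒪_v`;
* `nfa_pushforwardNormFormula`  : `Divisor.PushforwardNormFormula K F F'`;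
* `nfa_normFormulaAlong`        : `NormFormulaAlong K φ hfin`.
-/
import Mathlib
import Fermat.Prelude.Def_AlgebraicCurve_Correspondence
import Fermat.Agent.S24x.FundIdentity
import Fermat.Agent.S24x.PlaceDedekind

set_option autoImplicit false
set_option linter.unusedSectionVars false
set_option linter.style.haveILetI false

namespace Fermat.Agent.S37x

open AlgebraicCurve IsDedekindDomain UniqueFactorizationMonoid Fermat.Agent.S24x

/-- **Ideal-theoretic core.**  `A ⊆ S` Dedekind domains, `S` finite over `A`, `p` a maximal ideal
of `A` such that every maximal ideal of `S` lies over `p` with residue degree one.  Then the ideal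
generated by the norm of `s ≠ 0` is `p ^ (number of prime factors of (s), with multiplicity)`. -/
theorem nfa_span_intNorm_eq_pow {A S : Type*} [CommRing A] [IsDedekindDomain A]
    [CommRing S] [IsDedekindDomain S] [Algebra A S] [Module.Finite A S]
    [Module.IsTorsionFree A S] [PerfectField (FractionRing A)]
    (p : Ideal A) [p.IsMaximal]
    (hP : ∀ P : Ideal S, P.IsMaximal → P.LiesOver p ∧ P.inertiaDeg A = 1)
    (s : S) (hs : s ≠ 0) :
    Ideal.span {Algebra.intNorm A S s} =
      p ^ Multiset.card (normalizedFactors (Ideal.span {s})) := by
  classical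
  have h0 : Ideal.span {s} ≠ ⊥ := by
    rw [Ne, Ideal.span_singleton_eq_bot]; exact hs
  rw [← Ideal.relNorm_singleton A s]
  conv_lhs => rw [← Ideal.prod_normalizedFactors_eq_self h0]
  rw [map_multiset_prod]
  have hfac : ∀ P ∈ normalizedFactors (Ideal.span {s}), Ideal.relNorm A P = p := by
    intro P hPmem
    have hprime : Prime P := prime_of_normalized_factor P hPmem
    have hPne : P ≠ ⊥ := hprime.ne_zero
    have hPprime : P.IsPrime := Ideal.isPrime_of_prime hprime
    have hPmax : P.IsMaximal := hPprime.isMaximal hPne
    obtain ⟨hlo, hdeg⟩ := hP P hPmax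
    rw [Ideal.relNorm_eq_pow_of_isMaximal P p, hdeg, pow_one]
  rw [Multiset.map_congr rfl hfac, Multiset.map_const', Multiset.prod_replicate]


section Bridge

variable {K F F' : Type*} [Field K] [Field F] [Field F']
  [Algebra K F] [Algebra K F'] [Algebra F F'] [IsScalarTower K F F'] [Algebra.IsIntegral F F']
variable (v : Place K F)
variable {S : Type*} [CommRing S] [IsDedekindDomain S] [Algebra v.toValuationSubring S]
  [Algebra S F'] [IsScalarTower v.toValuationSubring S F'] [IsFractionRing S F']
  [Algebra K S] [IsScalarTower K S F']

omit [IsDedekindDomain S] [IsFractionRing S F'] [Algebra K S] [IsScalarTower K S F'] in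
/-- the elements of `S` are integral over `A = 𝒪_v`, hence lie in every valuation ring of `F'`
containing the image of `A`. -/
theorem nfa_mem_of_restrict_eq [Algebra.IsIntegral v.toValuationSubring S]
    (w : Place K F') (hw : w.restrict F = v) (s : S) :
    algebraMap S F' s ∈ w.toValuationSubring := by
  have hA : ∀ a : v.toValuationSubring, algebraMap v.toValuationSubring F' a ∈
      w.toValuationSubring := by
    intro a
    have h1 : (a : F) ∈ (w.restrict F).toValuationSubring := by rw [hw]; exact a.2
    exact (Place.mem_restrict_iff (w := w)).mp h1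
  let φ : v.toValuationSubring →+* w.toValuationSubring :=
    (algebraMap v.toValuationSubring F').codRestrict w.toValuationSubring.toSubring hA
  obtain ⟨p, hp, hps⟩ := Algebra.IsIntegral.isIntegral (R := v.toValuationSubring) s
  have hint : IsIntegral w.toValuationSubring (algebraMap S F' s) := by
    refine ⟨p.map φ, hp.map φ, ?_⟩
    rw [Polynomial.eval₂_map]
    have h2 : (algebraMap w.toValuationSubring F').comp φ =
        (algebraMap S F').comp (algebraMap v.toValuationSubring S) := by
      ext a
      show algebraMap v.toValuationSubring F' a = _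
      rw [IsScalarTower.algebraMap_apply v.toValuationSubring S F']
      rfl
    rw [h2, ← Polynomial.hom_eval₂, hps, map_zero]
  obtain ⟨y, hy⟩ := IsIntegrallyClosed.isIntegral_iff.mp hint
  rw [← hy]
  exact y.2

/-- the place of a maximal ideal of `S` restricts to `v`. -/
theorem nfa_restrict_ofHeightOneSpectrum (P : HeightOneSpectrum S) :
    (Place.ofHeightOneSpectrum (K := K) (F := F') P).restrict F = v := by
  apply Place.ext
  symm
  refine ValuationSubring.eq_of_le_of_ne_top _ ?_
    ((Place.ofHeightOneSpectrum (K := K) (F := F') P).restrict F).ne_top'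
  intro a ha
  rw [Place.restrict_toValuationSubring, ValuationSubring.mem_comap,
    Place.ofHeightOneSpectrum_toValuationSubring, Valuation.mem_valuationSubring_iff]
  have h1 : algebraMap F F' a = algebraMap S F'
      (algebraMap v.toValuationSubring S ⟨a, ha⟩) := by
    rw [← IsScalarTower.algebraMap_apply v.toValuationSubring S F']
    rfl
  rw [h1]
  exact P.valuation_le_one _

/-- the fibre of `v` = the places of the maximal ideals of `S`. -/
theorem nfa_restrict_eq_iff [Algebra.IsIntegral v.toValuationSubring S] (w : Place K F') :
    w.restrict F = v ↔ ∃ P : HeightOneSpectrum S,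
      Place.ofHeightOneSpectrum (K := K) (F := F') P = w := by
  constructor
  · intro hw
    exact fid_exists_heightOneSpectrum (K := K) (F := F') (S := S) w
      (nfa_mem_of_restrict_eq v w hw)
  · rintro ⟨P, rfl⟩
    exact nfa_restrict_ofHeightOneSpectrum v P

/-- `ord` at the place of `P` of an element of `S` = multiplicity of `P` in `(s)`. -/
theorem nfa_ord_ofHeightOneSpectrum (P : HeightOneSpectrum S) {s : S} (hs : s ≠ 0) :
    (Place.ofHeightOneSpectrum (K := K) (F := F') P).ord (algebraMap S F' s) =
      ((normalizedFactors (Ideal.span {s})).count P.asIdeal : ℤ) := by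
  have h0 : Ideal.span {s} ≠ 0 := by
    rw [Ne, Ideal.zero_eq_bot, Ideal.span_singleton_eq_bot]; exact hs
  rw [fid_ord_algebraMap (K := K) P hs,
    multiplicity_eq_count_normalizedFactors P.irreducible h0, normalize_eq]

omit [Algebra v.toValuationSubring S] [IsScalarTower v.toValuationSubring S F'] [Algebra S F']
  [IsFractionRing S F'] [Algebra K S] [IsScalarTower K S F'] in
/-- the counts of all maximal ideals in the factorisation of `I` add up to the number of
factors. -/
theorem nfa_sum_count [Fintype (HeightOneSpectrum S)] (I : Ideal S) :
    ∑ P : HeightOneSpectrum S, ((normalizedFactors I).count P.asIdeal : ℤ) =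
      (Multiset.card (normalizedFactors I) : ℤ) := by
  classical
  have hinj : Function.Injective (fun P : HeightOneSpectrum S => P.asIdeal) :=
    fun P Q h => HeightOneSpectrum.ext h
  have h1 : ∑ P : HeightOneSpectrum S, ((normalizedFactors I).count P.asIdeal : ℤ) =
      ∑ J ∈ (Finset.univ : Finset (HeightOneSpectrum S)).image (fun P => P.asIdeal),
        ((normalizedFactors I).count J : ℤ) := by
    rw [Finset.sum_image (fun P _ Q _ h => hinj h)]
  rw [h1]
  have hsub : (normalizedFactors I).toFinset ⊆
      (Finset.univ : Finset (HeightOneSpectrum S)).image (fun P => P.asIdeal) := by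
    intro J hJ
    rw [Multiset.mem_toFinset] at hJ
    have hprime : Prime J := prime_of_normalized_factor J hJ
    rw [Finset.mem_image]
    exact ⟨⟨J, Ideal.isPrime_of_prime hprime, hprime.ne_zero⟩, Finset.mem_univ _, rfl⟩
  rw [← Finset.sum_subset hsub]
  · rw [← Nat.cast_sum, Multiset.toFinset_sum_count_eq]
  · intro J _ hJ
    rw [Multiset.mem_toFinset] at hJ
    rw [Multiset.count_eq_zero_of_notMem hJ, Nat.cast_zero]

omit [Algebra.IsIntegral F F'] in
/-- `ord_v` of an element of `A = 𝒪_v` generating the `k`-th power of the maximal ideal. -/
theorem nfa_ord_coe (a : v.toValuationSubring) (k : ℕ)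
    (h : Ideal.span {a} = IsLocalRing.maximalIdeal v.toValuationSubring ^ k) :
    v.ord (a : F) = k := by
  have hm0 : IsLocalRing.maximalIdeal v.toValuationSubring ≠ ⊥ :=
    IsDiscreteValuationRing.not_a_field _
  have ha : a ≠ 0 := by
    rintro rfl
    rw [Ideal.span_singleton_eq_bot.mpr rfl] at h
    exact pow_ne_zero k hm0 h.symm
  have hirr : Irreducible (IsLocalRing.maximalIdeal v.toValuationSubring) :=
    v.heightOneSpectrum.irreducible
  rw [Place.ord, v.adicValuation_coe a,
    HeightOneSpectrum.intValuation_eq_exp_neg_multiplicity _ ha, WithZero.log_exp, neg_neg,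
    Place.heightOneSpectrum_asIdeal, h,
    multiplicity_pow_self hirr.ne_zero hirr.not_isUnit]

end Bridge

section Main

variable {K F F' : Type*} [Field K] [Field F] [Field F']
  [Algebra K F] [Algebra K F'] [Algebra F F'] [IsScalarTower K F F'] [Algebra.IsIntegral F F']
  [FiniteDimensional F F']
variable (v : Place K F)
variable {S : Type*} [CommRing S] [IsDedekindDomain S] [Algebra v.toValuationSubring S]
  [Algebra S F'] [IsScalarTower v.toValuationSubring S F'] [IsFractionRing S F']
  [Algebra K S] [IsScalarTower K S F']
  [Module.Finite v.toValuationSubring S] [Module.IsTorsionFree v.toValuationSubring S]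
  [IsIntegralClosure S v.toValuationSubring F']
  [PerfectField (FractionRing v.toValuationSubring)]

/-- `ord_v` of the norm of an element of `S`. -/
theorem nfa_ord_norm
    (hin : ∀ P : Ideal S, P.IsMaximal →
      P.LiesOver (IsLocalRing.maximalIdeal v.toValuationSubring) ∧
        P.inertiaDeg v.toValuationSubring = 1)
    {s : S} (hs : s ≠ 0) :
    v.ord (Algebra.norm F (algebraMap S F' s)) =
      (Multiset.card (normalizedFactors (Ideal.span {s})) : ℤ) := by
  have : Algebra.IsIntegral v.toValuationSubring S := Algebra.IsIntegral.of_finite _ _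
  rw [← Algebra.algebraMap_intNorm (A := v.toValuationSubring) (K := F) (L := F') (B := S) s]
  exact nfa_ord_coe v _ _
    (nfa_span_intNorm_eq_pow (IsLocalRing.maximalIdeal v.toValuationSubring) hin s hs)

/-- **Norm formula, abstract form**: `S` a Dedekind model of `F'` over `A = 𝒪_v`. -/
theorem nfa_normFormula_abstract [Fintype (HeightOneSpectrum S)]
    (hdeg : ∀ w : Place K F', w.restrict F = v → w.inertiaDeg F = 1)
    (hin : ∀ P : Ideal S, P.IsMaximal →
      P.LiesOver (IsLocalRing.maximalIdeal v.toValuationSubring) ∧
        P.inertiaDeg v.toValuationSubring = 1)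
    (f : F') (hf : f ≠ 0) (D : Divisor K F') (hD : ∀ w, D w = w.ord f) :
    Divisor.pushforward F D v = v.ord (Algebra.norm F f) := by
  classical
  have : Algebra.IsIntegral v.toValuationSubring S := Algebra.IsIntegral.of_finite _ _
  obtain ⟨s₁, s₂, hs₂, rfl⟩ := IsFractionRing.div_surjective (A := S) f
  have hs₂0 : s₂ ≠ 0 := nonZeroDivisors.ne_zero hs₂
  have hs₁0 : s₁ ≠ 0 := by
    rintro rfl
    simp at hf
  have hinjS : Function.Injective (algebraMap S F') := IsFractionRing.injective S F'
  have ha₁ : algebraMap S F' s₁ ≠ 0 := fun h => hs₁0 (hinjS (by rw [h, map_zero]))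
  have ha₂ : algebraMap S F' s₂ ≠ 0 := fun h => hs₂0 (hinjS (by rw [h, map_zero]))
  -- the right hand side
  have hn₁ : Algebra.norm F (algebraMap S F' s₁) ≠ 0 := by
    rw [Ne, Algebra.norm_eq_zero_iff]; exact ha₁
  have hn₂ : Algebra.norm F (algebraMap S F' s₂) ≠ 0 := by
    rw [Ne, Algebra.norm_eq_zero_iff]; exact ha₂
  have hR : v.ord (Algebra.norm F (algebraMap S F' s₁ / algebraMap S F' s₂)) =
      (Multiset.card (normalizedFactors (Ideal.span {s₁})) : ℤ) -
        (Multiset.card (normalizedFactors (Ideal.span {s₂})) : ℤ) := by
    have hinv : Algebra.norm F (algebraMap S F' s₂)⁻¹ =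
        (Algebra.norm F (algebraMap S F' s₂))⁻¹ := by
      apply eq_inv_of_mul_eq_one_left
      rw [← map_mul, inv_mul_cancel₀ ha₂, map_one]
    rw [div_eq_mul_inv, map_mul, hinv, v.ord_mul hn₁ (inv_ne_zero hn₂), v.ord_inv,
      nfa_ord_norm v hin hs₁0, nfa_ord_norm v hin hs₂0]
    ring
  -- the order function at the places of `S`
  have hord : ∀ P : HeightOneSpectrum S,
      (Place.ofHeightOneSpectrum (K := K) (F := F') P).ord
        (algebraMap S F' s₁ / algebraMap S F' s₂) =
      ((normalizedFactors (Ideal.span {s₁})).count P.asIdeal : ℤ) -
        ((normalizedFactors (Ideal.span {s₂})).count P.asIdeal : ℤ) := by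
    intro P
    rw [div_eq_mul_inv, Place.ord_mul _ ha₁ (inv_ne_zero ha₂), Place.ord_inv,
      nfa_ord_ofHeightOneSpectrum (K := K) P hs₁0,
      nfa_ord_ofHeightOneSpectrum (K := K) P hs₂0]
    ring
  -- the left hand side
  rw [hR, Divisor.pushforward_apply]
  have hL1 : ∑ w ∈ D.support, (if w.restrict F = v then D w * (w.inertiaDeg F : ℤ) else 0) =
      ∑ w ∈ D.support.filter (fun w => w.restrict F = v),
        w.ord (algebraMap S F' s₁ / algebraMap S F' s₂) := by
    rw [Finset.sum_filter]
    refine Finset.sum_congr rfl fun w _ => ?_
    split_ifs with hw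
    · rw [hdeg w hw, hD w, Nat.cast_one, mul_one]
    · rfl
  rw [hL1]
  have hinjP : Function.Injective
      (Place.ofHeightOneSpectrum (K := K) (F := F') (R := S)) :=
    fid_ofHeightOneSpectrum_injective (K := K)
  have hsub : D.support.filter (fun w => w.restrict F = v) ⊆
      (Finset.univ : Finset (HeightOneSpectrum S)).image
        (Place.ofHeightOneSpectrum (K := K) (F := F')) := by
    intro w hw
    rw [Finset.mem_filter] at hw
    obtain ⟨P, rfl⟩ := (nfa_restrict_eq_iff (S := S) v w).mp hw.2
    exact Finset.mem_image_of_mem _ (Finset.mem_univ P)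
  rw [Finset.sum_subset hsub, Finset.sum_image (fun P _ Q _ h => hinjP h)]
  · simp_rw [hord]
    rw [Finset.sum_sub_distrib, nfa_sum_count, nfa_sum_count]
  · intro w hw hnot
    rw [Finset.mem_image] at hw
    obtain ⟨P, -, rfl⟩ := hw
    have hres := nfa_restrict_ofHeightOneSpectrum (K := K) (F := F) (F' := F') v P
    have hns : Place.ofHeightOneSpectrum (K := K) (F := F') P ∉ D.support := by
      intro hmem
      exact hnot (Finset.mem_filter.mpr ⟨hmem, hres⟩)
    rw [Finsupp.notMem_support_iff, hD] at hns
    exact hns

end Main

section Concrete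

variable {K F F' : Type*} [Field K] [Field F] [Field F']
  [Algebra K F] [Algebra K F'] [Algebra F F'] [IsScalarTower K F F']
  [FiniteDimensional F F'] [Algebra.IsSeparable F F']

/-- the `K`-algebra structure on the integral closure of `𝒪_v` in `F'`. -/
@[reducible] noncomputable def nfa_algebraK (v : Place K F) :
    Algebra K (integralClosure v.toValuationSubring F') :=
  ((algebraMap v.toValuationSubring (integralClosure v.toValuationSubring F')).comp
    (algebraMap K v.toValuationSubring)).toAlgebra

/-- **Norm formula** for a finite separable extension `F'/F` of function fields over an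
algebraically closed field of characteristic zero all of whose places have degree one:
`∑_{w ∣ v} ord_w(f) = ord_v(N_{F'/F} f)` in the Prelude's form `PushforwardNormFormula`. -/
theorem nfa_pushforwardNormFormula [IsAlgClosed K] [CharZero K]
    (hdeg : ∀ v : Place K F, v.deg = 1) (hdeg' : ∀ w : Place K F', w.deg = 1) :
    haveI : Algebra.IsIntegral F F' := Algebra.IsIntegral.of_finite F F'
    Divisor.PushforwardNormFormula K F F' := by
  have : Algebra.IsIntegral F F' := Algebra.IsIntegral.of_finite F F'
  intro f hf D hD v
  classical
  -- the Dedekind model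
  letI : Algebra K (integralClosure v.toValuationSubring F') := nfa_algebraK v
  haveI : IsScalarTower K (integralClosure v.toValuationSubring F') F' := by
    refine IsScalarTower.of_algebraMap_eq fun a => ?_
    show algebraMap K F' a = algebraMap F F' (algebraMap K F a)
    rw [← IsScalarTower.algebraMap_apply]
  haveI : IsScalarTower K v.toValuationSubring (integralClosure v.toValuationSubring F') :=
    IsScalarTower.of_algebraMap_eq fun a => rfl
  haveI : IsDedekindDomain (integralClosure v.toValuationSubring F') :=
    integralClosure.isDedekindDomain v.toValuationSubring F F'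
  haveI : IsFractionRing (integralClosure v.toValuationSubring F') F' :=
    integralClosure.isFractionRing_of_finite_extension F F'
  haveI : Module.Finite v.toValuationSubring (integralClosure v.toValuationSubring F') :=
    IsIntegralClosure.finite v.toValuationSubring F F' _
  haveI : CharZero v.toValuationSubring :=
    charZero_of_injective_algebraMap (algebraMap K v.toValuationSubring).injective
  haveI : Algebra.IsIntegral v.toValuationSubring (integralClosure v.toValuationSubring F') :=
    Algebra.IsIntegral.of_finite _ _
  haveI : FaithfulSMul v.toValuationSubring (integralClosure v.toValuationSubring F') := by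
    rw [faithfulSMul_iff_algebraMap_injective]
    intro x y h
    have h1 : algebraMap F F' (x : F) = algebraMap F F' (y : F) :=
      congrArg (algebraMap (integralClosure v.toValuationSubring F') F') h
    exact Subtype.ext ((algebraMap F F').injective h1)
  -- residue fields
  have hres : Function.Surjective (algebraMap K
      (v.toValuationSubring ⧸ IsLocalRing.maximalIdeal v.toValuationSubring)) := by
    intro x
    have h1 := (finrank_eq_one_iff_of_nonzero' (K := K) (V := v.ResidueField) 1 one_ne_zero).mp
      (hdeg v) x
    obtain ⟨c, hc⟩ := h1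
    refine ⟨c, ?_⟩
    rw [← hc, Algebra.smul_def, mul_one]
    rfl
  have hin : ∀ P : Ideal (integralClosure v.toValuationSubring F'), P.IsMaximal →
      P.LiesOver (IsLocalRing.maximalIdeal v.toValuationSubring) ∧
        P.inertiaDeg v.toValuationSubring = 1 := by
    intro P hP
    have hmax : (P.under v.toValuationSubring).IsMaximal :=
      Ideal.isMaximal_comap_of_isIntegral_of_isMaximal P
    have hlo : P.LiesOver (IsLocalRing.maximalIdeal v.toValuationSubring) :=
      ⟨(IsLocalRing.eq_maximalIdeal hmax).symm⟩
    exact ⟨hlo, fid_inertiaDeg_eq_one (K := K) _ hres P⟩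
  -- finitely many maximal ideals
  haveI : Finite (HeightOneSpectrum (integralClosure v.toValuationSubring F')) := by
    have hfin := Algebra.QuasiFinite.finite_primesOver
      (S := integralClosure v.toValuationSubring F')
      (IsLocalRing.maximalIdeal v.toValuationSubring)
    haveI := hfin.to_subtype
    let g : HeightOneSpectrum (integralClosure v.toValuationSubring F') →
        (IsLocalRing.maximalIdeal v.toValuationSubring).primesOver
          (integralClosure v.toValuationSubring F') :=
      fun P => ⟨P.asIdeal, P.isPrime, (hin P.asIdeal (P.isPrime.isMaximal P.ne_bot)).1⟩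
    refine Finite.of_injective g ?_
    intro P Q h
    exact HeightOneSpectrum.ext (congrArg Subtype.val h)
  haveI : Fintype (HeightOneSpectrum (integralClosure v.toValuationSubring F')) :=
    Fintype.ofFinite _
  have hdegw : ∀ w : Place K F', w.restrict F = v → w.inertiaDeg F = 1 := by
    intro w _
    have h := w.deg_restrict_mul_inertiaDeg (F := F)
    rw [hdeg, hdeg', one_mul] at h
    exact h
  exact nfa_normFormula_abstract (S := integralClosure v.toValuationSubring F') v hdegw hin f hf
    D hD

end Concrete

section Along

variable {K F F' : Type*} [Field K] [Field F] [Field F'] [Algebra K F] [Algebra K F']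

/-- **`NormFormulaAlong`** for a finite `K`-embedding `φ : F → F'` of function fields over an
algebraically closed field of characteristic zero all of whose places have degree one. -/
theorem nfa_normFormulaAlong [IsAlgClosed K] [CharZero K] (φ : F →ₐ[K] F')
    (hfin : FiniteAlong K φ)
    (hdeg : ∀ v : Place K F, v.deg = 1) (hdeg' : ∀ w : Place K F', w.deg = 1) :
    NormFormulaAlong K φ hfin := by
  letI := algebraAlong φ
  haveI := isScalarTower_along φ
  haveI : Module.Finite F F' := hfin
  haveI : CharZero F := charZero_of_injective_algebraMap (algebraMap K F).injective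
  haveI : Algebra.IsSeparable F F' := inferInstance
  exact nfa_pushforwardNormFormula hdeg hdeg'

end Along

end Fermat.Agent.S37x
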