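import Mathlib
import Fermat.Prelude.Def_ModularCurve_HeckeOperatorTotal
import Fermat.Agent.S37x.HeckeInputs
import Fermat.Agent.S37x.NormFormula
import Fermat.Agent.S24x.LayerA

/-!
# S37 block [B2], FINAL (helper25): `HeckeInputsAlong Q̄ N ℓ` unconditionally

`hif_heckeInputsAlong N ℓ : HeckeInputsAlong Q̄ N ℓ` for all `N ℓ` (`[NeZero N] [NeZero ℓ]`):
the assembly `hki_heckeInputsAlong_of_normFormula` (helper14) fed with the norm formula along `α`
(`nfa_normFormulaAlong`, helper25), whose two degree-one hypotheses come from the fact that all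
residue fields of `F_M` over `Q̄` are `Q̄` (`hki_residue_surjective` + `la_deg_eq_one`).
-/

set_option autoImplicit false

noncomputable section

namespace Fermat.Agent.S37x

open AlgebraicCurve ModularCurve Fermat.Agent.S24x Fermat.Agent.S18x

/-- every place of `F_M` over `Q̄` has degree one. -/
theorem hif_deg_eq_one (M : ℕ) [NeZero M] (v : Place Qbar (FBar M)) : v.deg = 1 :=
  la_deg_eq_one v (hki_residue_surjective M v)

/-- the norm formula along `α : F_N → F_{Nℓ}`. -/
theorem hif_normFormulaAlong_alpha (N ℓ : ℕ) [NeZero N] [NeZero ℓ] :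
    NormFormulaAlong Qbar (heckeAlphaBar Qbar N ℓ) (bt37_finiteAlong_alpha N ℓ) :=
  nfa_normFormulaAlong (heckeAlphaBar Qbar N ℓ) (bt37_finiteAlong_alpha N ℓ)
    (hif_deg_eq_one N) (hif_deg_eq_one (N * ℓ))

/-- the norm formula along `β : F_N → F_{Nℓ}` (bonus). -/
theorem hif_normFormulaAlong_beta (N ℓ : ℕ) [NeZero N] [NeZero ℓ] :
    NormFormulaAlong Qbar (heckeBetaBar Qbar N ℓ) (bt37_finiteAlong_beta N ℓ) :=
  nfa_normFormulaAlong (heckeBetaBar Qbar N ℓ) (bt37_finiteAlong_beta N ℓ)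
    (hif_deg_eq_one N) (hif_deg_eq_one (N * ℓ))

/-- **[B2] closed**: `HeckeInputsAlong Q̄ N ℓ` holds for all levels `N` and all `ℓ`. -/
theorem hif_heckeInputsAlong (N ℓ : ℕ) [NeZero N] [NeZero ℓ] :
    HeckeInputsAlong (AlgebraicClosure ℚ) N ℓ :=
  hki_heckeInputsAlong_of_normFormula N ℓ (hif_normFormulaAlong_alpha N ℓ)

end Fermat.Agent.S37x

end

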