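/-
S37 block [B3], helper3 route, row 28 (ES-hL), sub-lemma (i) (helper54), prefix `es3ld_`.

**The divisor of the "multiplicative Hecke operator" on functions.**  For embeddings
`φ ψ : F →ₐ[K] F'` of function fields (for `T_ℓ`: `φ = β`, `ψ = α`), a function `u ≠ 0` of `F` with
`D = div u`, the correspondence `ψ_* φ^*` sends `D` to the divisor of
`h := N_{F'/ψF} (φ u)` (the norm being taken for the algebra structure `algebraAlong ψ`):
`(correspondence φ ψ D) P = ord_P h`.

Inputs: `Divisor.pullback_apply_eq_ord` (pull-back of a principal divisor) and the norm formula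
`NormFormulaAlong K ψ`.  The modular instance uses `hif_normFormulaAlong_alpha`.
-/
import Mathlib
import Fermat.Prelude.Def_AlgebraicCurve_Correspondence
import Fermat.Agent.S37x.HeckeInputsFinal

set_option autoImplicit false

namespace Fermat.Agent.S37x

open AlgebraicCurve Fermat.Agent.S24x Fermat.Agent.S18x

section Abstract

variable {K F F' : Type*} [Field K] [Field F] [Field F'] [Algebra K F] [Algebra K F']
  [HasPrincipalDivisors K F']

/-- pull-back of the divisor of `u` along `φ` is the divisor of `φ u`. -/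
theorem es3ld_pullbackAlong_apply (φ : F →ₐ[K] F') (hφ : φ.toRingHom.IsIntegral) {u : F}
    {D : Divisor K F} (hD : ∀ P, D P = P.ord u) (w : Place K F') :
    Divisor.pullbackAlong φ hφ D w = w.ord (φ u) := by
  letI := algebraAlong φ
  have := isScalarTower_along φ
  have := isIntegral_along φ hφ
  exact Divisor.pullback_apply_eq_ord hD w

omit [HasPrincipalDivisors K F'] in
/-- push-forward of the divisor of `x` along `ψ` is the divisor of the norm of `x`. -/
theorem es3ld_pushforwardAlong_apply (ψ : F →ₐ[K] F') (hψ : ψ.toRingHom.IsIntegral)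
    (hfin : FiniteAlong K ψ) (hN : NormFormulaAlong K ψ hfin) {x : F'} (hx : x ≠ 0)
    {D' : Divisor K F'} (hD' : ∀ w, D' w = w.ord x) (P : Place K F) :
    letI := algebraAlong ψ
    Divisor.pushforwardAlong ψ hψ D' P = P.ord (Algebra.norm F x) := by
  letI := algebraAlong ψ
  have := isScalarTower_along ψ
  have := isIntegral_along ψ hψ
  have : Module.Finite F F' := hfin
  exact hN x hx D' hD' P

/-- **(i) of row 28**: `T (div u) = div (N_ψ (φ u))` for `T = correspondence φ ψ = ψ_* φ^*`. -/
theorem es3ld_correspondence_apply (φ ψ : F →ₐ[K] F') (hφ : φ.toRingHom.IsIntegral)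
    (hψ : ψ.toRingHom.IsIntegral) (hfin : FiniteAlong K ψ) (hN : NormFormulaAlong K ψ hfin)
    {u : F} (hu : u ≠ 0) {D : Divisor K F} (hD : ∀ P, D P = P.ord u) (P : Place K F) :
    letI := algebraAlong ψ
    Divisor.correspondence φ ψ hφ hψ D P = P.ord (Algebra.norm F (φ u)) := by
  rw [Divisor.correspondence_apply]
  exact es3ld_pushforwardAlong_apply ψ hψ hfin hN ((map_ne_zero φ).mpr hu)
    (fun w => es3ld_pullbackAlong_apply φ hφ hD w) P

omit [HasPrincipalDivisors K F'] in
/-- the norm `N_ψ (φ u)` is nonzero. -/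
theorem es3ld_norm_ne_zero (φ ψ : F →ₐ[K] F') (hfin : FiniteAlong K ψ) {u : F} (hu : u ≠ 0) :
    letI := algebraAlong ψ
    Algebra.norm F (φ u) ≠ 0 := by
  letI := algebraAlong ψ
  have : Module.Finite F F' := hfin
  exact Algebra.norm_ne_zero_iff.mpr ((map_ne_zero φ).mpr hu)

end Abstract

section Modular

open ModularCurve

variable (N ℓ : ℕ) [NeZero N] [NeZero ℓ]

/-- **(i) of row 28 at level `N`**: for `u ≠ 0` in `F_N` over `Q̄` with `D = div u`,
`T_ℓ D = α_* β^* D` is the divisor of `h := N_{F_{Nℓ}/α F_N} (β u)`. -/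
theorem es3ld_hecke_apply
    [HasPrincipalDivisors Qbar (laurentBaseChange Qbar (modularFunctionFieldFull (N * ℓ)))]
    {u : FBar N} (hu : u ≠ 0) {D : Divisor Qbar (FBar N)} (hD : ∀ P, D P = P.ord u)
    (P : Place Qbar (FBar N)) :
    letI := algebraAlong (heckeAlphaBar Qbar N ℓ)
    Divisor.correspondence (heckeBetaBar Qbar N ℓ) (heckeAlphaBar Qbar N ℓ)
        (bt37_betaIntegral N ℓ) (bt37_alphaIntegral N ℓ) D P
      = P.ord (Algebra.norm (FBar N) (heckeBetaBar Qbar N ℓ u)) :=
  es3ld_correspondence_apply (heckeBetaBar Qbar N ℓ) (heckeAlphaBar Qbar N ℓ)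
    (bt37_betaIntegral N ℓ) (bt37_alphaIntegral N ℓ) (bt37_finiteAlong_alpha N ℓ)
    (hif_normFormulaAlong_alpha N ℓ) hu hD P

end Modular

end Fermat.Agent.S37x
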