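/-
S37 prep (own risk), block [B3] = Eichler–Shimura congruence at `ℓ`, STEP 2, leaf 1 (helper60).
Blueprint: docs `S37_B3_blueprint_helper60`.  Prefix `escf_`.  Mathlib + Prelude + S18x/PuiseuxSubst.

Generic facts on Laurent series over a field `L` containing a primitive `ℓ`-th root of unity `ζ`:
* `escf_mem_range_of_rescale_eq` : a series fixed by `q ↦ ζ q` lies in the range of `q ↦ q^ℓ`
  (`qExpand L ℓ`);
* `escf_rescale_qExpand_of_pow_eq_one` : conversely `q ↦ ζ q` fixes the range of `qExpand L ℓ`;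
* `escf_exists_last_embedding` : in a finite separable extension of degree `card ι + 1` with
  `card ι` known embeddings there is exactly one further embedding, and the norm is the product
  over all of them.
-/
import Mathlib
import Fermat.Agent.S18x.PuiseuxSubst

set_option autoImplicit false

namespace Fermat.Agent.S37x

open ModularCurve HahnSeries Module
open Fermat.Agent.S18x

section Fixed

variable {L : Type*} [Field L] (ℓ : ℕ) [NeZero ℓ]

/-- `q ↦ ζ q` fixes every series in `q^ℓ` when `ζ^ℓ = 1`. -/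
theorem escf_rescale_qExpand_of_pow_eq_one (ζ : Lˣ) (hζ : ζ ^ ℓ = 1) (f : LaurentSeries L) :
    pxs_rescale L ζ (qExpand L ℓ f) = qExpand L ℓ f := by
  rw [pxs_rescale_qExpand, hζ, pxs_rescale_one]

/-- the "`ℓ`-th root" series `∑ a_{ℓ n} qⁿ` -/
noncomputable def escf_contract (x : LaurentSeries L) : LaurentSeries L :=
  HahnSeries.ofSuppBddBelow (fun n : ℤ => x.coeff ((ℓ : ℤ) * n)) (by
    rcases eq_or_ne x 0 with rfl | hx
    · refine ⟨0, fun n hn => ?_⟩
      simp at hn
    · refine ⟨-|x.order|, fun n hn => ?_⟩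
      rw [Function.mem_support] at hn
      have h1 : x.order ≤ (ℓ : ℤ) * n := HahnSeries.order_le_of_coeff_ne_zero hn
      by_contra hlt
      rw [not_le] at hlt
      have hℓ : (1 : ℤ) ≤ (ℓ : ℤ) := by exact_mod_cast Nat.one_le_iff_ne_zero.mpr (NeZero.ne ℓ)
      have hn0 : n < 0 := lt_of_lt_of_le hlt (neg_nonpos.mpr (abs_nonneg _))
      have h2 : (ℓ : ℤ) * n ≤ n := by nlinarith
      have h3 : -|x.order| ≤ x.order := neg_abs_le _
      omega)

theorem escf_contract_coeff (x : LaurentSeries L) (n : ℤ) :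
    (escf_contract ℓ x).coeff n = x.coeff ((ℓ : ℤ) * n) := rfl

/-- a series supported on multiples of `ℓ` is in the range of `qExpand L ℓ` -/
theorem escf_qExpand_contract (x : LaurentSeries L)
    (hx : ∀ k : ℤ, ¬ (ℓ : ℤ) ∣ k → x.coeff k = 0) :
    qExpand L ℓ (escf_contract ℓ x) = x := by
  ext k
  by_cases hk : (ℓ : ℤ) ∣ k
  · obtain ⟨n, rfl⟩ := hk
    rw [qExpand_coeff_mul, escf_contract_coeff]
  · rw [qExpand_coeff_of_not_dvd ℓ _ hk, hx k hk]

/-- **fixed field of `q ↦ ζ q`**: a series fixed by `q ↦ ζ q`, `ζ` a primitive `ℓ`-th root of unity,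
is a series in `q^ℓ`. -/
theorem escf_mem_range_of_rescale_eq (ζ : Lˣ) (hζ : IsPrimitiveRoot ζ ℓ) (x : LaurentSeries L)
    (hx : pxs_rescale L ζ x = x) : x ∈ Set.range (qExpand L ℓ) := by
  refine ⟨escf_contract ℓ x, escf_qExpand_contract ℓ x fun k hk => ?_⟩
  have h1 := congrArg (fun y => y.coeff k) hx
  simp only [pxs_rescale_coeff] at h1
  by_contra hne
  have h2 : ((ζ ^ k : Lˣ) : L) = 1 := by
    have h3 : (((ζ ^ k : Lˣ) : L) - 1) * x.coeff k = 0 := by rw [sub_mul, h1, one_mul, sub_self]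
    rcases mul_eq_zero.mp h3 with h4 | h4
    · exact sub_eq_zero.mp h4
    · exact absurd h4 hne
  have h5 : ζ ^ k = 1 := Units.ext h2
  exact hk ((hζ.zpow_eq_one_iff_dvd k).mp h5)

/-- if `x ∉ range (qExpand L ℓ)` then `q ↦ ζ q` moves `x` (`ζ` primitive) -/
theorem escf_rescale_ne (ζ : Lˣ) (hζ : IsPrimitiveRoot ζ ℓ) (x : LaurentSeries L)
    (hx : x ∉ Set.range (qExpand L ℓ)) : pxs_rescale L ζ x ≠ x :=
  fun h => hx (escf_mem_range_of_rescale_eq ℓ ζ hζ x h)

/-- `q ↦ ζ q` preserves the complement of the range of `qExpand L ℓ` -/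
theorem escf_rescale_notMem_range (ζ : Lˣ) (hζ : ζ ^ ℓ = 1) (x : LaurentSeries L)
    (hx : x ∉ Set.range (qExpand L ℓ)) : pxs_rescale L ζ x ∉ Set.range (qExpand L ℓ) := by
  rintro ⟨y, hy⟩
  apply hx
  have h1 : pxs_rescale L ζ⁻¹ (pxs_rescale L ζ x) = x := by
    rw [pxs_rescale_rescale]
    simp [pxs_rescale_one]
  rw [← h1, ← hy, escf_rescale_qExpand_of_pow_eq_one ℓ ζ⁻¹ (by rw [inv_pow, hζ, inv_one])]
  exact ⟨y, rfl⟩

end Fixed

section LastEmbedding

/-- If `E/F` is finite separable of degree `card ι + 1` and `σ i` are pairwise distinct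
`F`-embeddings into an algebraically closed `Ω`, there is exactly one further embedding `σ'`,
and the norm is the product over all of them. -/
theorem escf_exists_last_embedding {F E Ω : Type*} [Field F] [Field E] [Field Ω] [Algebra F E]
    [Algebra F Ω] [FiniteDimensional F E] [Algebra.IsSeparable F E] [IsAlgClosed Ω]
    {ι : Type*} [Fintype ι] (σ : ι → (E →ₐ[F] Ω)) (hσ : Function.Injective σ)
    (hcard : finrank F E = Fintype.card ι + 1) :
    ∃ σ' : E →ₐ[F] Ω, (∀ i, σ' ≠ σ i) ∧ (∀ τ : E →ₐ[F] Ω, τ = σ' ∨ ∃ i, τ = σ i) ∧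
      ∀ x : E, algebraMap F Ω (Algebra.norm F x) = σ' x * ∏ i, σ i x := by
  classical
  have hc : Fintype.card (E →ₐ[F] Ω) = Fintype.card ι + 1 := by
    rw [← hcard]
    exact AlgHom.card F E Ω
  let S : Finset (E →ₐ[F] Ω) := Finset.univ.image σ
  have hS : S.card = Fintype.card ι := by
    rw [Finset.card_image_of_injective _ hσ, Finset.card_univ]
  have hcompl : (Sᶜ).card = 1 := by
    rw [Finset.card_compl, hc, hS]; omega
  obtain ⟨σ', hσ'⟩ := Finset.card_eq_one.mp hcompl
  have hmem : ∀ τ : E →ₐ[F] Ω, τ ∈ Sᶜ ↔ τ = σ' := by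
    intro τ; rw [hσ']; exact Finset.mem_singleton
  have hne : ∀ i, σ' ≠ σ i := by
    intro i h
    have h1 : σ' ∈ Sᶜ := (hmem σ').mpr rfl
    rw [Finset.mem_compl] at h1
    exact h1 (Finset.mem_image.mpr ⟨i, Finset.mem_univ i, h.symm⟩)
  refine ⟨σ', hne, ?_, ?_⟩
  · intro τ
    by_cases h : τ ∈ S
    · obtain ⟨i, -, hi⟩ := Finset.mem_image.mp h
      exact Or.inr ⟨i, hi.symm⟩
    · exact Or.inl ((hmem τ).mp (Finset.mem_compl.mpr h))
  · intro x
    rw [Algebra.norm_eq_prod_embeddings F Ω x]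
    have : (Finset.univ : Finset (E →ₐ[F] Ω)) = Sᶜ ∪ S := by
      rw [Finset.union_comm, Finset.union_compl]
    rw [this, Finset.prod_union (by rw [disjoint_comm]; exact disjoint_compl_right), hσ',
      Finset.prod_singleton, Finset.prod_image (fun i _ j _ h => hσ h)]

end LastEmbedding

end Fermat.Agent.S37x
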