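/-
S37 prep (own risk), block [B3] = Eichler–Shimura congruence at `ℓ`, STEP 2 (helper60).
Blueprint: docs `S37_B3_blueprint_helper60`.  Prefix `esc_`.

ABSTRACT FORM of "the `ℓ + 1` conjugates": `F ≤ E` intermediate fields of `L((q))`, `E` an `F`-algebra
through `β = (q ↦ q^ℓ)`, of degree `ℓ + 1`; `F = L(G)` where every generator `g ∈ G` is not a series
in `q^ℓ` and is, together with `g(q^{ℓ²})`, a root of a monic polynomial of degree `ℓ + 1` with
coefficients in `β(F)`.  Then for all `y ∈ F`, `c ∈ L`: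

  `β (N_{E/β F}(c - y)) = (c - y(q^{ℓ²})) * ∏_{i : ZMod ℓ} (c - y(ζ^i q))`      (`esc_norm_eq`).
-/
import Fermat.Agent.S37x.EsConjFixed

set_option autoImplicit false
set_option linter.unusedSectionVars false

namespace Fermat.Agent.S37x

open ModularCurve HahnSeries Module Polynomial
open Fermat.Agent.S18x

noncomputable section

variable {L : Type*} [Field L] [CharZero L] (ℓ : ℕ) [Fact ℓ.Prime]

local notation "𝓛" => LaurentSeries L

instance esc_neZero : NeZero ℓ := ⟨(Fact.out : ℓ.Prime).ne_zero⟩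

/-- `q ↦ ζ^i q`, `i : ZMod ℓ` -/
def esc_R (ζ : Lˣ) (i : ZMod ℓ) : 𝓛 →+* 𝓛 := pxs_rescale L (ζ ^ i.val)

theorem esc_R_comp (ζ : Lˣ) (hζ : ζ ^ ℓ = 1) (i : ZMod ℓ) (x : 𝓛) :
    pxs_rescale L ζ (esc_R ℓ ζ i x) = esc_R ℓ ζ (i + 1) x := by
  unfold esc_R
  rw [pxs_rescale_rescale]
  congr 2
  rw [← pow_succ]
  have h1 : (i + 1).val ≡ i.val + 1 [MOD ℓ] := by
    have h2 : ((i + 1).val : ZMod ℓ) = ((i.val + 1 : ℕ) : ZMod ℓ) := by
      rw [ZMod.natCast_zmod_val]
      push_cast
      rw [ZMod.natCast_zmod_val]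
    exact (ZMod.natCast_eq_natCast_iff _ _ _).mp h2
  have h3 : ζ ^ ((i + 1).val) = ζ ^ (i.val + 1) := by
    have := (pow_eq_pow_iff_modEq (x := ζ)).mpr (h1.of_dvd (orderOf_dvd_of_pow_eq_one hζ))
    exact this
  rw [h3]

theorem esc_R_fix (ζ : Lˣ) (hζ : ζ ^ ℓ = 1) (i : ZMod ℓ) (f : 𝓛) :
    esc_R ℓ ζ i (qExpand L ℓ f) = qExpand L ℓ f :=
  escf_rescale_qExpand_of_pow_eq_one ℓ _ (by rw [← pow_mul, mul_comm, pow_mul, hζ, one_pow]) f

theorem esc_R_injective (ζ : Lˣ) (i : ZMod ℓ) : Function.Injective (esc_R ℓ ζ i) :=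
  pxs_rescale_injective _

theorem esc_R_C (ζ : Lˣ) (i : ZMod ℓ) (c : L) : esc_R ℓ ζ i (HahnSeries.C c) = HahnSeries.C c :=
  pxs_rescale_C _ c

theorem esc_R_ne_aux (ζ : Lˣ) (hζ : IsPrimitiveRoot ζ ℓ) {g : 𝓛} (hg : g ∉ Set.range (qExpand L ℓ))
    {i i' : ZMod ℓ} (hlt : i'.val < i.val) : esc_R ℓ ζ i g ≠ esc_R ℓ ζ i' g := by
  intro h
  unfold esc_R at h
  set d := i.val - i'.val with hd
  have hd0 : 0 < d := by omega
  have hdℓ : d < ℓ := by have := ZMod.val_lt i; omega
  have hpow : ζ ^ i.val = ζ ^ d * ζ ^ i'.val := by rw [← _root_.pow_add]; congr 1; omega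
  rw [hpow, ← pxs_rescale_rescale] at h
  have h2 : pxs_rescale L (ζ ^ d) g = g := pxs_rescale_injective (ζ ^ i'.val) h
  have hcop : Nat.Coprime d ℓ := by
    rw [Nat.coprime_comm]
    exact (Nat.Prime.coprime_iff_not_dvd (Fact.out : ℓ.Prime)).mpr
      (fun hdvd => absurd (Nat.le_of_dvd hd0 hdvd) (not_le.mpr hdℓ))
  exact hg (escf_mem_range_of_rescale_eq ℓ (ζ ^ d) (hζ.pow_of_coprime d hcop) g h2)

/-- distinctness of the `ℓ` rescalings on a series which is not a series in `q^ℓ` -/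
theorem esc_R_ne (ζ : Lˣ) (hζ : IsPrimitiveRoot ζ ℓ) {g : 𝓛} (hg : g ∉ Set.range (qExpand L ℓ))
    {i i' : ZMod ℓ} (hii : i ≠ i') : esc_R ℓ ζ i g ≠ esc_R ℓ ζ i' g := by
  have hne : i.val ≠ i'.val := fun h => hii (ZMod.val_injective ℓ h)
  rcases lt_or_gt_of_ne hne with h | h
  · exact fun h' => esc_R_ne_aux ℓ ζ hζ hg h h'.symm
  · exact esc_R_ne_aux ℓ ζ hζ hg h


/-! ### the main statement -/

section Main

variable (ζ : Lˣ)

/-- `z ↦ z(q^ℓ)` as a ring hom `F → L((q))` -/
def esc_SF (F : IntermediateField L (LaurentSeries L)) : F →+* (LaurentSeries L) :=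
  (qExpand L ℓ).comp (algebraMap F (LaurentSeries L))

theorem esc_SF_apply (F : IntermediateField L (LaurentSeries L)) (z : F) :
    esc_SF ℓ F z = qExpand L ℓ (z : LaurentSeries L) := rfl

/-- the product `∏_i (c - y(ζ^i q))` -/
def esc_prod (c : L) (y : (LaurentSeries L)) : (LaurentSeries L) :=
  ∏ i : ZMod ℓ, (HahnSeries.C c - esc_R ℓ ζ i y)

theorem esc_prod_mem_range (hζ : IsPrimitiveRoot ζ ℓ) (c : L) (y : (LaurentSeries L)) :
    esc_prod ℓ ζ c y ∈ Set.range (qExpand L ℓ) := by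
  apply escf_mem_range_of_rescale_eq ℓ ζ hζ
  unfold esc_prod
  rw [map_prod]
  have h1 : ∀ i : ZMod ℓ, pxs_rescale L ζ (HahnSeries.C c - esc_R ℓ ζ i y) =
      HahnSeries.C c - esc_R ℓ ζ (i + 1) y := by
    intro i
    rw [map_sub, pxs_rescale_C, esc_R_comp ℓ ζ hζ.pow_eq_one]
  simp_rw [h1]
  exact Equiv.prod_comp (Equiv.addRight (1 : ZMod ℓ)) (fun i => HahnSeries.C c - esc_R ℓ ζ i y)

theorem esc_prod_ne_zero (c : L) (y : (LaurentSeries L)) (hy : y ≠ HahnSeries.C c) :
    esc_prod ℓ ζ c y ≠ 0 := by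
  unfold esc_prod
  rw [Finset.prod_ne_zero_iff]
  intro i _ h
  apply hy
  have h1 : esc_R ℓ ζ i y = esc_R ℓ ζ i (HahnSeries.C c) := by
    rw [esc_R_C]
    exact (sub_eq_zero.mp h).symm
  exact esc_R_injective ℓ ζ i h1

theorem esc_algebraMap_eq_C (c : L) : algebraMap L (LaurentSeries L) c = HahnSeries.C c := by
  rw [algebraMap_laurentSeries_eq_single, HahnSeries.C_apply]

theorem esc_qExpand_C (c : L) : qExpand L ℓ (HahnSeries.C c) = HahnSeries.C c := by
  rw [HahnSeries.C_apply, qExpand_single, mul_zero]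

/-- **The `ℓ + 1` conjugates.**  `β (N_{E/βF}(c - y)) = (c - y(q^{ℓ²})) ∏_i (c - y(ζ^i q))`. -/
theorem esc_norm_eq (hζ : IsPrimitiveRoot ζ ℓ)
    (F E : IntermediateField L (LaurentSeries L)) (hFE : F ≤ E) (β : F →ₐ[L] E)
    (hβ : ∀ z : F, ((β z : E) : (LaurentSeries L)) = qExpand L ℓ (z : (LaurentSeries L)))
    (hdeg : letI := β.toRingHom.toAlgebra; finrank F E = ℓ + 1)
    (G : Set (LaurentSeries L)) (hG : IntermediateField.adjoin L G = F) (hGne : G.Nonempty)
    (hGS : ∀ g ∈ G, g ∉ Set.range (qExpand L ℓ))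
    (hGP : ∀ g ∈ G, ∃ P : Polynomial F, P.Monic ∧ P.natDegree = ℓ + 1 ∧
      (P.map (esc_SF ℓ F)).eval g = 0 ∧
      (P.map (esc_SF ℓ F)).eval (qExpand L ℓ (qExpand L ℓ g)) = 0)
    (y : F) (c : L) :
    letI := β.toRingHom.toAlgebra
    ((β (Algebra.norm F (algebraMap L E c - IntermediateField.inclusion hFE y)) : E) :
        (LaurentSeries L)) =
      (HahnSeries.C c - qExpand L ℓ (qExpand L ℓ (y : (LaurentSeries L)))) *
        esc_prod ℓ ζ c (y : (LaurentSeries L)) := by
  classical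
  letI : Algebra F E := β.toRingHom.toAlgebra
  have halgFE : ∀ z : F, algebraMap F E z = β z := fun _ => rfl
  haveI : IsScalarTower L F E := IsScalarTower.of_algebraMap_eq (fun c => (β.commutes c).symm)
  haveI : FiniteDimensional F E := Module.finite_of_finrank_pos (by rw [hdeg]; omega)
  haveI : Algebra.IsSeparable F E := Algebra.IsSeparable.of_integral F E
  -- the big field
  let Ω := AlgebraicClosure (LaurentSeries L)
  let ι : (LaurentSeries L) →+* Ω := algebraMap (LaurentSeries L) Ω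
  have hι : Function.Injective ι := (algebraMap (LaurentSeries L) Ω).injective
  let toΩ : E →+* Ω := ι.comp (algebraMap E (LaurentSeries L))
  letI : Algebra F Ω := (toΩ.comp (algebraMap F E)).toAlgebra
  have halgFΩ : ∀ z : F, algebraMap F Ω z = ι (qExpand L ℓ (z : (LaurentSeries L))) := fun z => by
    show ι ((β z : E) : (LaurentSeries L)) = _
    rw [hβ]
  have hζℓ : ζ ^ ℓ = 1 := hζ.pow_eq_one
  -- the `ℓ` explicit embeddings
  let σ : ZMod ℓ → (E →ₐ[F] Ω) := fun i =>
    { toRingHom := ι.comp ((esc_R ℓ ζ i).comp (algebraMap E (LaurentSeries L)))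
      commutes' := fun z => by
        show ι (esc_R ℓ ζ i ((β z : E) : (LaurentSeries L))) = algebraMap F Ω z
        rw [hβ, esc_R_fix ℓ ζ hζℓ, halgFΩ] }
  have hσapp : ∀ (i : ZMod ℓ) (x : E), σ i x = ι (esc_R ℓ ζ i (x : (LaurentSeries L))) :=
    fun _ _ => rfl
  obtain ⟨g₀, hg₀⟩ := hGne
  have hGF : ∀ g ∈ G, g ∈ F := fun g hg => by
    rw [← hG]; exact IntermediateField.subset_adjoin L G hg
  have hσinj : Function.Injective σ := by
    intro i i' h
    by_contra hne
    have h1 := congrArg (fun τ : E →ₐ[F] Ω => τ ⟨g₀, hFE (hGF g₀ hg₀)⟩) h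
    simp only [hσapp] at h1
    exact esc_R_ne ℓ ζ hζ (hGS g₀ hg₀) hne (hι h1)
  obtain ⟨σ', -, -, hnorm⟩ := escf_exists_last_embedding σ hσinj
    (by rw [hdeg, ZMod.card])
  -- constants
  have hσ'C : ∀ c : L, σ' (algebraMap L E c) = ι (HahnSeries.C c) := by
    intro c
    rw [IsScalarTower.algebraMap_apply L F E, AlgHom.commutes, halgFΩ]
    congr 1
    show qExpand L ℓ (algebraMap L (LaurentSeries L) c) = _
    rw [esc_algebraMap_eq_C, esc_qExpand_C]
  -- the product of the `ℓ` explicit conjugates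
  have hprodσ : ∀ (c : L) (y : F), ∏ i, σ i (algebraMap L E c - IntermediateField.inclusion hFE y) =
      ι (esc_prod ℓ ζ c (y : (LaurentSeries L))) := by
    intro c y
    unfold esc_prod
    rw [map_prod]
    refine Finset.prod_congr rfl fun i _ => ?_
    rw [hσapp]
    congr 1
    show esc_R ℓ ζ i (algebraMap L (LaurentSeries L) c - (y : (LaurentSeries L))) = _
    rw [map_sub, esc_algebraMap_eq_C, esc_R_C]
  -- (a) `σ'` maps `F` into (the image of) `L((q^ℓ))`
  have hA : ∀ y : F, ∃ a : LaurentSeries L,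
      σ' (IntermediateField.inclusion hFE y) = ι (qExpand L ℓ a) := by
    intro y
    by_cases hy : (y : LaurentSeries L) = HahnSeries.C 0
    · refine ⟨0, ?_⟩
      have hy0 : y = 0 := Subtype.ext (by rw [hy, map_zero]; rfl)
      rw [hy0, map_zero, map_zero, map_zero, map_zero]
    · have h1 := hnorm (algebraMap L E 0 - IntermediateField.inclusion hFE y)
      obtain ⟨b, hb⟩ := esc_prod_mem_range ℓ ζ hζ 0 (y : LaurentSeries L)
      have hb0 : qExpand L ℓ b ≠ 0 := by
        rw [hb]; exact esc_prod_ne_zero ℓ ζ 0 _ hy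
      rw [hprodσ, halgFΩ, ← hb, map_sub σ', hσ'C] at h1
      set n : LaurentSeries L :=
        ((Algebra.norm F (algebraMap L E 0 - IntermediateField.inclusion hFE y) : F) :
          LaurentSeries L) with hn
      have hιb : ι (qExpand L ℓ b) ≠ 0 := fun h => hb0 (hι (by rw [h, map_zero]))
      refine ⟨HahnSeries.C 0 - n / b, ?_⟩
      rw [map_sub, esc_qExpand_C, map_div₀, map_sub ι, map_div₀ ι]
      have h3 : ι (HahnSeries.C 0) - σ' (IntermediateField.inclusion hFE y) =
          ι (qExpand L ℓ n) / ι (qExpand L ℓ b) := by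
        rw [eq_div_iff hιb]; exact h1.symm
      rw [← h3, sub_sub_cancel]
  -- (b) on the generators
  have hcompFE : (algebraMap E (LaurentSeries L)).comp (algebraMap F E) = esc_SF ℓ F :=
    RingHom.ext fun z => hβ z
  have hcompFΩ : algebraMap F Ω = ι.comp (esc_SF ℓ F) := RingHom.ext fun z => halgFΩ z
  have hB : ∀ g (hg : g ∈ G), σ' ⟨g, hFE (hGF g hg)⟩ = ι (qExpand L ℓ (qExpand L ℓ g)) := by
    intro g hg
    obtain ⟨P, hPm, hPd, hP1, hP2⟩ := hGP g hg
    set x : E := ⟨g, hFE (hGF g hg)⟩ with hx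
    -- `x` is a root of `P` over `F`
    have hPx : Polynomial.aeval x P = 0 := by
      apply Subtype.ext
      show algebraMap E (LaurentSeries L) (Polynomial.aeval x P) = 0
      rw [Polynomial.aeval_def, Polynomial.hom_eval₂, hcompFE, ← Polynomial.eval_map]
      exact hP1
    set Q : Polynomial Ω := P.map (algebraMap F Ω) with hQ
    have hQm : Q.Monic := hPm.map _
    have hQ0 : Q ≠ 0 := hQm.ne_zero
    have hQd : Q.natDegree = ℓ + 1 := by rw [hQ, hPm.natDegree_map, hPd]
    have hroot : ∀ ρ : E →ₐ[F] Ω, Q.IsRoot (ρ x) := by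
      intro ρ
      rw [Polynomial.IsRoot.def, hQ, Polynomial.eval_map_algebraMap, Polynomial.aeval_algHom_apply,
        hPx, map_zero]
    have hroot2 : Q.IsRoot (ι (qExpand L ℓ (qExpand L ℓ g))) := by
      rw [Polynomial.IsRoot.def, hQ, hcompFΩ, ← Polynomial.map_map, Polynomial.eval_map,
        Polynomial.eval₂_at_apply, hP2, map_zero]
    by_contra hne
    -- the `ℓ + 2` distinct roots
    obtain ⟨a, ha⟩ := hA ⟨g, hGF g hg⟩
    have hxincl : IntermediateField.inclusion hFE ⟨g, hGF g hg⟩ = x := rfl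
    rw [hxincl] at ha
    have hnotrange : ∀ (i : ZMod ℓ) (a : LaurentSeries L), ι (qExpand L ℓ a) ≠ σ i x := by
      intro i a h
      rw [hσapp] at h
      have h1 := hι h
      exact escf_rescale_notMem_range ℓ (ζ ^ i.val)
        (by rw [← pow_mul, mul_comm, pow_mul, hζℓ, one_pow]) g (hGS g hg) ⟨a, h1⟩
    let Z : Finset Ω := insert (σ' x) (insert (ι (qExpand L ℓ (qExpand L ℓ g)))
      (Finset.univ.image (fun i => σ i x)))
    have hinj : Function.Injective (fun i => σ i x) := by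
      intro i i' h
      by_contra hii
      simp only [hσapp] at h
      exact esc_R_ne ℓ ζ hζ (hGS g hg) hii (hι h)
    have hcardZ : Z.card = ℓ + 2 := by
      rw [Finset.card_insert_of_notMem, Finset.card_insert_of_notMem,
        Finset.card_image_of_injective _ hinj, Finset.card_univ, ZMod.card]
      · intro h
        obtain ⟨i, -, hi⟩ := Finset.mem_image.mp h
        exact hnotrange i _ hi.symm
      · intro h
        rcases Finset.mem_insert.mp h with h | h
        · exact hne h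
        · obtain ⟨i, -, hi⟩ := Finset.mem_image.mp h
          rw [ha] at hi
          exact hnotrange i _ hi.symm
    have hsub : Z.val ⊆ Q.roots := by
      intro r hr
      rw [Polynomial.mem_roots hQ0]
      have hr' : r ∈ Z := hr
      rcases Finset.mem_insert.mp hr' with h | h
      · rw [h]; exact hroot σ'
      · rcases Finset.mem_insert.mp h with h | h
        · rw [h]; exact hroot2
        · obtain ⟨i, -, hi⟩ := Finset.mem_image.mp h
          rw [← hi]; exact hroot (σ i)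
    have := Polynomial.card_le_degree_of_subset_roots hsub
    rw [hcardZ, hQd] at this
    omega
  -- (c) on all of `F`
  have hmemF : ∀ x, x ∈ IntermediateField.adjoin L G → x ∈ F := fun x hx => hG ▸ hx
  let τ : E →+* Ω := σ'.toRingHom
  have hτ : ∀ x : E, σ' x = τ x := fun _ => rfl
  have key : ∀ x (hx : x ∈ IntermediateField.adjoin L G),
      τ ⟨x, hFE (hmemF x hx)⟩ = ι (qExpand L ℓ (qExpand L ℓ x)) := by
    intro x hx
    induction hx using IntermediateField.adjoin_induction with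
    | mem x hx => rw [← hτ]; exact hB x hx
    | algebraMap c =>
      have h1 : (⟨algebraMap L (LaurentSeries L) c, hFE (hmemF _ (algebraMap_mem _ c))⟩ : E) =
          algebraMap L E c := rfl
      rw [h1, ← hτ, hσ'C, esc_algebraMap_eq_C, esc_qExpand_C, esc_qExpand_C]
    | add x y hx hy ihx ihy =>
      have h1 : (⟨x + y, hFE (hmemF _ (add_mem hx hy))⟩ : E) =
          ⟨x, hFE (hmemF x hx)⟩ + ⟨y, hFE (hmemF y hy)⟩ := rfl
      rw [h1, map_add τ, ihx, ihy, map_add, map_add, map_add]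
    | inv x hx ihx =>
      have h1 : (⟨x⁻¹, hFE (hmemF _ (inv_mem hx))⟩ : E) = (⟨x, hFE (hmemF x hx)⟩ : E)⁻¹ := rfl
      rw [h1, map_inv₀ τ, ihx, map_inv₀, map_inv₀, map_inv₀]
    | mul x y hx hy ihx ihy =>
      have h1 : (⟨x * y, hFE (hmemF _ (mul_mem hx hy))⟩ : E) =
          ⟨x, hFE (hmemF x hx)⟩ * ⟨y, hFE (hmemF y hy)⟩ := rfl
      rw [h1, map_mul τ, ihx, ihy, map_mul, map_mul, map_mul]
  have hC : ∀ y : F, σ' (IntermediateField.inclusion hFE y) =
      ι (qExpand L ℓ (qExpand L ℓ (y : LaurentSeries L))) := by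
    intro y
    have hy : (y : LaurentSeries L) ∈ IntermediateField.adjoin L G := by rw [hG]; exact y.2
    rw [hτ]
    exact key (y : LaurentSeries L) hy
  -- (d) conclusion
  apply hι
  have h1 := hnorm (algebraMap L E c - IntermediateField.inclusion hFE y)
  have h2 : σ' (algebraMap L E c - IntermediateField.inclusion hFE y) =
      ι (HahnSeries.C c - qExpand L ℓ (qExpand L ℓ (y : LaurentSeries L))) := by
    rw [map_sub σ', hσ'C, hC, map_sub ι]
  rw [hprodσ, h2, halgFΩ, ← map_mul ι] at h1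
  rw [← h1]
  congr 1
  exact (hβ _)

end Main

end

end Fermat.Agent.S37x
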