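/-
S37 prep (own risk), block [B3] = Eichler–Shimura congruence at `ℓ`, STEP 2 bis (helper60).
Prefix `esca_`.  On top of `S37x/EsConj.lean`.

Same abstract situation as `esc_norm_eq` (`F ≤ E ≤ L((q))`, `β = (q ↦ q^ℓ) : F → E` of degree
`ℓ + 1`, `F = L(G)` …).  Exports the LAST EMBEDDING itself and the resulting
**Atkin–Lehner involution** of `E`:

* `esca_exists_tau` : a ring hom `τ : E → L((q))` with `τ (β z) = z`, `τ y = y(q^ℓ)` for `y ∈ F`,
  `β (N_{E/βF} x) = (τ x)(q^ℓ) * ∏_i x(ζ^i q)` for ALL `x : E`, and `E = (βF)(g)` for every `g ∈ G`;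
* `esca_exists_involution` : a ring automorphism `w` of `E` with `w ∘ β = incl`, `w ∘ incl = β`,
  `w ∘ w = id`;
* `esca_norm_swap` : `N_{E/αF}(β u) = N_{E/βF}(α u)` (as elements of `F`), where `α = incl`.
-/
import Fermat.Agent.S37x.EsConj

set_option autoImplicit false
set_option linter.unusedSectionVars false
set_option linter.style.haveILetI false

namespace Fermat.Agent.S37x

open ModularCurve HahnSeries Module Polynomial
open Fermat.Agent.S18x

noncomputable section

variable {L : Type*} [Field L] [CharZero L] (ℓ : ℕ) [Fact ℓ.Prime]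

/-- **The last embedding.** -/
theorem esca_exists_tau (ζ : Lˣ) (hζ : IsPrimitiveRoot ζ ℓ)
    (F E : IntermediateField L (LaurentSeries L)) (hFE : F ≤ E) (β : F →ₐ[L] E)
    (hβ : ∀ z : F, ((β z : E) : (LaurentSeries L)) = qExpand L ℓ (z : (LaurentSeries L)))
    (hdeg : letI := β.toRingHom.toAlgebra; finrank F E = ℓ + 1)
    (G : Set (LaurentSeries L)) (hG : IntermediateField.adjoin L G = F) (hGne : G.Nonempty)
    (hGS : ∀ g ∈ G, g ∉ Set.range (qExpand L ℓ))
    (hGP : ∀ g ∈ G, ∃ P : Polynomial F, P.Monic ∧ P.natDegree = ℓ + 1 ∧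
      (P.map (esc_SF ℓ F)).eval g = 0 ∧
      (P.map (esc_SF ℓ F)).eval (qExpand L ℓ (qExpand L ℓ g)) = 0) :
    letI := β.toRingHom.toAlgebra
    ∃ τ : E →+* LaurentSeries L,
      (∀ z : F, τ (β z) = (z : LaurentSeries L)) ∧
      (∀ y : F, τ (IntermediateField.inclusion hFE y) = qExpand L ℓ (y : LaurentSeries L)) ∧
      (∀ x : E, ((β (Algebra.norm F x) : E) : LaurentSeries L) =
        qExpand L ℓ (τ x) * ∏ i : ZMod ℓ, esc_R ℓ ζ i (x : LaurentSeries L)) ∧
      (∀ g (hg : g ∈ G), IntermediateField.adjoin F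
        {(⟨g, hFE (hG ▸ IntermediateField.subset_adjoin L G hg)⟩ : E)} = ⊤) := by
  classical
  letI : Algebra F E := β.toRingHom.toAlgebra
  have halgFE : ∀ z : F, algebraMap F E z = β z := fun _ => rfl
  haveI : IsScalarTower L F E := IsScalarTower.of_algebraMap_eq (fun c => (β.commutes c).symm)
  haveI : FiniteDimensional F E := Module.finite_of_finrank_pos (by rw [hdeg]; omega)
  haveI : Algebra.IsSeparable F E := Algebra.IsSeparable.of_integral F E
  -- the big field
  let Ω := AlgebraicClosure (LaurentSeries L)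
  let ι : (LaurentSeries L) →+* Ω := algebraMap (LaurentSeries L) Ω
  have hι : Function.Injective ι := (algebraMap (LaurentSeries L) Ω).injective
  let toΩ : E →+* Ω := ι.comp (algebraMap E (LaurentSeries L))
  letI : Algebra F Ω := (toΩ.comp (algebraMap F E)).toAlgebra
  have halgFΩ : ∀ z : F, algebraMap F Ω z = ι (qExpand L ℓ (z : (LaurentSeries L))) := fun z => by
    show ι ((β z : E) : (LaurentSeries L)) = _
    rw [hβ]
  have hζℓ : ζ ^ ℓ = 1 := hζ.pow_eq_one
  -- the `ℓ` explicit embeddings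
  let σ : ZMod ℓ → (E →ₐ[F] Ω) := fun i =>
    { toRingHom := ι.comp ((esc_R ℓ ζ i).comp (algebraMap E (LaurentSeries L)))
      commutes' := fun z => by
        show ι (esc_R ℓ ζ i ((β z : E) : (LaurentSeries L))) = algebraMap F Ω z
        rw [hβ, esc_R_fix ℓ ζ hζℓ, halgFΩ] }
  have hσapp : ∀ (i : ZMod ℓ) (x : E), σ i x = ι (esc_R ℓ ζ i (x : (LaurentSeries L))) :=
    fun _ _ => rfl
  obtain ⟨g₀, hg₀⟩ := hGne
  have hGF : ∀ g ∈ G, g ∈ F := fun g hg => by
    rw [← hG]; exact IntermediateField.subset_adjoin L G hg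
  have hσinj : Function.Injective σ := by
    intro i i' h
    by_contra hne
    have h1 := congrArg (fun τ : E →ₐ[F] Ω => τ ⟨g₀, hFE (hGF g₀ hg₀)⟩) h
    simp only [hσapp] at h1
    exact esc_R_ne ℓ ζ hζ (hGS g₀ hg₀) hne (hι h1)
  obtain ⟨σ', -, hall, hnorm⟩ := escf_exists_last_embedding σ hσinj
    (by rw [hdeg, ZMod.card])
  -- constants
  have hσ'C : ∀ c : L, σ' (algebraMap L E c) = ι (HahnSeries.C c) := by
    intro c
    rw [IsScalarTower.algebraMap_apply L F E, AlgHom.commutes, halgFΩ]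
    congr 1
    show qExpand L ℓ (algebraMap L (LaurentSeries L) c) = _
    rw [esc_algebraMap_eq_C, esc_qExpand_C]
  -- the product of the `ℓ` explicit conjugates
  have hprodσ : ∀ x : E, ∏ i, σ i x = ι (∏ i : ZMod ℓ, esc_R ℓ ζ i (x : LaurentSeries L)) := by
    intro x
    rw [map_prod]
    exact Finset.prod_congr rfl fun i _ => hσapp i x
  have hprod_range : ∀ x : LaurentSeries L,
      (∏ i : ZMod ℓ, esc_R ℓ ζ i x) ∈ Set.range (qExpand L ℓ) := by
    intro x
    apply escf_mem_range_of_rescale_eq ℓ ζ hζ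
    rw [map_prod]
    simp_rw [esc_R_comp ℓ ζ hζℓ]
    exact Equiv.prod_comp (Equiv.addRight (1 : ZMod ℓ)) (fun i => esc_R ℓ ζ i x)
  -- (a) `σ'` maps `E` into (the image of) `L((q^ℓ))`
  have hA : ∀ x : E, ∃ a : LaurentSeries L, σ' x = ι (qExpand L ℓ a) := by
    intro x
    by_cases hx : x = 0
    · exact ⟨0, by rw [hx, map_zero, map_zero, map_zero]⟩
    · have h1 := hnorm x
      obtain ⟨b, hb⟩ := hprod_range (x : LaurentSeries L)
      have hb0 : qExpand L ℓ b ≠ 0 := by
        rw [hb, Finset.prod_ne_zero_iff]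
        intro i _ h
        apply hx
        apply Subtype.ext
        have : esc_R ℓ ζ i (x : LaurentSeries L) = esc_R ℓ ζ i 0 := by rw [h, map_zero]
        exact esc_R_injective ℓ ζ i this
      rw [hprodσ, halgFΩ, ← hb] at h1
      have hιb : ι (qExpand L ℓ b) ≠ 0 := fun h => hb0 (hι (by rw [h, map_zero]))
      refine ⟨((Algebra.norm F x : F) : LaurentSeries L) / b, ?_⟩
      rw [map_div₀, map_div₀ ι, eq_div_iff hιb]
      exact h1.symm
  have hcompFE : (algebraMap E (LaurentSeries L)).comp (algebraMap F E) = esc_SF ℓ F :=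
    RingHom.ext fun z => hβ z
  have hcompFΩ : algebraMap F Ω = ι.comp (esc_SF ℓ F) := RingHom.ext fun z => halgFΩ z
  have hnotrange : ∀ g (hg : g ∈ G) (i : ZMod ℓ) (a : LaurentSeries L),
      ι (qExpand L ℓ a) ≠ σ i ⟨g, hFE (hGF g hg)⟩ := by
    intro g hg i a h
    rw [hσapp] at h
    have h1 := hι h
    exact escf_rescale_notMem_range ℓ (ζ ^ i.val)
      (by rw [← pow_mul, mul_comm, pow_mul, hζℓ, one_pow]) g (hGS g hg) ⟨a, h1⟩
  have hinj : ∀ g (hg : g ∈ G), Function.Injective (fun i => σ i ⟨g, hFE (hGF g hg)⟩) := by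
    intro g hg i i' h
    by_contra hii
    simp only [hσapp] at h
    exact esc_R_ne ℓ ζ hζ (hGS g hg) hii (hι h)
  -- (b) on the generators
  have hB : ∀ g (hg : g ∈ G), σ' ⟨g, hFE (hGF g hg)⟩ = ι (qExpand L ℓ (qExpand L ℓ g)) := by
    intro g hg
    obtain ⟨P, hPm, hPd, hP1, hP2⟩ := hGP g hg
    set x : E := ⟨g, hFE (hGF g hg)⟩ with hx
    have hPx : Polynomial.aeval x P = 0 := by
      apply Subtype.ext
      show algebraMap E (LaurentSeries L) (Polynomial.aeval x P) = 0
      rw [Polynomial.aeval_def, Polynomial.hom_eval₂, hcompFE, ← Polynomial.eval_map]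
      exact hP1
    set Q : Polynomial Ω := P.map (algebraMap F Ω) with hQ
    have hQm : Q.Monic := hPm.map _
    have hQ0 : Q ≠ 0 := hQm.ne_zero
    have hQd : Q.natDegree = ℓ + 1 := by rw [hQ, hPm.natDegree_map, hPd]
    have hroot : ∀ ρ : E →ₐ[F] Ω, Q.IsRoot (ρ x) := by
      intro ρ
      rw [Polynomial.IsRoot.def, hQ, Polynomial.eval_map_algebraMap, Polynomial.aeval_algHom_apply,
        hPx, map_zero]
    have hroot2 : Q.IsRoot (ι (qExpand L ℓ (qExpand L ℓ g))) := by
      rw [Polynomial.IsRoot.def, hQ, hcompFΩ, ← Polynomial.map_map, Polynomial.eval_map,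
        Polynomial.eval₂_at_apply, hP2, map_zero]
    by_contra hne
    obtain ⟨a, ha⟩ := hA x
    let Z : Finset Ω := insert (σ' x) (insert (ι (qExpand L ℓ (qExpand L ℓ g)))
      (Finset.univ.image (fun i => σ i x)))
    have hcardZ : Z.card = ℓ + 2 := by
      rw [Finset.card_insert_of_notMem, Finset.card_insert_of_notMem,
        Finset.card_image_of_injective _ (hinj g hg), Finset.card_univ, ZMod.card]
      · intro h
        obtain ⟨i, -, hi⟩ := Finset.mem_image.mp h
        exact hnotrange g hg i _ hi.symm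
      · intro h
        rcases Finset.mem_insert.mp h with h | h
        · exact hne h
        · obtain ⟨i, -, hi⟩ := Finset.mem_image.mp h
          rw [ha] at hi
          exact hnotrange g hg i _ hi.symm
    have hsub : Z.val ⊆ Q.roots := by
      intro r hr
      rw [Polynomial.mem_roots hQ0]
      have hr' : r ∈ Z := hr
      rcases Finset.mem_insert.mp hr' with h | h
      · rw [h]; exact hroot σ'
      · rcases Finset.mem_insert.mp h with h | h
        · rw [h]; exact hroot2
        · obtain ⟨i, -, hi⟩ := Finset.mem_image.mp h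
          rw [← hi]; exact hroot (σ i)
    have := Polynomial.card_le_degree_of_subset_roots hsub
    rw [hcardZ, hQd] at this
    omega
  -- (c) on all of `F`
  have hmemF : ∀ x, x ∈ IntermediateField.adjoin L G → x ∈ F := fun x hx => hG ▸ hx
  let τ₀ : E →+* Ω := σ'.toRingHom
  have hτ₀ : ∀ x : E, σ' x = τ₀ x := fun _ => rfl
  have key : ∀ x (hx : x ∈ IntermediateField.adjoin L G),
      τ₀ ⟨x, hFE (hmemF x hx)⟩ = ι (qExpand L ℓ (qExpand L ℓ x)) := by
    intro x hx
    induction hx using IntermediateField.adjoin_induction with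
    | mem x hx => rw [← hτ₀]; exact hB x hx
    | algebraMap c =>
      have h1 : (⟨algebraMap L (LaurentSeries L) c, hFE (hmemF _ (algebraMap_mem _ c))⟩ : E) =
          algebraMap L E c := rfl
      rw [h1, ← hτ₀, hσ'C, esc_algebraMap_eq_C, esc_qExpand_C, esc_qExpand_C]
    | add x y hx hy ihx ihy =>
      have h1 : (⟨x + y, hFE (hmemF _ (add_mem hx hy))⟩ : E) =
          ⟨x, hFE (hmemF x hx)⟩ + ⟨y, hFE (hmemF y hy)⟩ := rfl
      rw [h1, map_add τ₀, ihx, ihy, map_add, map_add, map_add]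
    | inv x hx ihx =>
      have h1 : (⟨x⁻¹, hFE (hmemF _ (inv_mem hx))⟩ : E) = (⟨x, hFE (hmemF x hx)⟩ : E)⁻¹ := rfl
      rw [h1, map_inv₀ τ₀, ihx, map_inv₀, map_inv₀, map_inv₀]
    | mul x y hx hy ihx ihy =>
      have h1 : (⟨x * y, hFE (hmemF _ (mul_mem hx hy))⟩ : E) =
          ⟨x, hFE (hmemF x hx)⟩ * ⟨y, hFE (hmemF y hy)⟩ := rfl
      rw [h1, map_mul τ₀, ihx, ihy, map_mul, map_mul, map_mul]
  have hC : ∀ y : F, σ' (IntermediateField.inclusion hFE y) =
      ι (qExpand L ℓ (qExpand L ℓ (y : LaurentSeries L))) := by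
    intro y
    have hy : (y : LaurentSeries L) ∈ IntermediateField.adjoin L G := by rw [hG]; exact y.2
    rw [hτ₀]
    exact key (y : LaurentSeries L) hy
  -- the ring hom `τ = (ι ∘ S)⁻¹ ∘ σ'`
  let φ : LaurentSeries L →+* Ω := ι.comp (qExpand L ℓ)
  have hφ : Function.Injective φ := φ.injective
  choose f hf using hA
  have hf' : ∀ x : E, τ₀ x = φ (f x) := fun x => hf x
  let τ : E →+* LaurentSeries L :=
    { toFun := f
      map_one' := hφ (by rw [← hf', map_one, map_one])
      map_mul' := fun a b => hφ (by rw [← hf', map_mul, map_mul, hf', hf'])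
      map_zero' := hφ (by rw [← hf', map_zero, map_zero])
      map_add' := fun a b => hφ (by rw [← hf', map_add, map_add, hf', hf']) }
  have hτ : ∀ x : E, σ' x = ι (qExpand L ℓ (τ x)) := fun x => hf x
  refine ⟨τ, ?_, ?_, ?_, ?_⟩
  · intro z
    apply hφ
    show ι (qExpand L ℓ (τ (β z))) = ι (qExpand L ℓ (z : LaurentSeries L))
    rw [← hτ, ← halgFΩ, ← halgFE, AlgHom.commutes]
  · intro y
    apply hφ
    show ι (qExpand L ℓ (τ (IntermediateField.inclusion hFE y))) =
      ι (qExpand L ℓ (qExpand L ℓ (y : LaurentSeries L)))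
    rw [← hτ, hC]
  · intro x
    apply hι
    have h1 := hnorm x
    rw [hprodσ, hτ, halgFΩ, ← map_mul ι] at h1
    rw [← h1]
    congr 1
    exact hβ _
  · intro g hg
    have hA' : ∀ x : E, ((minpoly F x).map (algebraMap F Ω)).Splits := fun x =>
      IsAlgClosed.splits _
    rw [Field.primitive_element_iff_algHom_eq_of_eval' F Ω hA']
    intro ρ ρ' h
    simp only at h
    rcases hall ρ with h1 | ⟨i, h1⟩ <;> rcases hall ρ' with h2 | ⟨i', h2⟩
    · rw [h1, h2]
    · exfalso
      rw [h1, h2] at h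
      exact hnotrange g hg i' _ (by rw [← h]; exact (hf _).symm)
    · exfalso
      rw [h1, h2] at h
      exact hnotrange g hg i _ (by rw [h]; exact (hf _).symm)
    · rw [h1, h2] at h ⊢
      rw [hinj g hg h]

/-- **The Atkin–Lehner involution** of `E` swapping `β` and the inclusion of `F`. -/
theorem esca_exists_involution (ζ : Lˣ) (hζ : IsPrimitiveRoot ζ ℓ)
    (F E : IntermediateField L (LaurentSeries L)) (hFE : F ≤ E) (β : F →ₐ[L] E)
    (hβ : ∀ z : F, ((β z : E) : (LaurentSeries L)) = qExpand L ℓ (z : (LaurentSeries L)))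
    (hdeg : letI := β.toRingHom.toAlgebra; finrank F E = ℓ + 1)
    (G : Set (LaurentSeries L)) (hG : IntermediateField.adjoin L G = F) (hGne : G.Nonempty)
    (hGS : ∀ g ∈ G, g ∉ Set.range (qExpand L ℓ))
    (hGP : ∀ g ∈ G, ∃ P : Polynomial F, P.Monic ∧ P.natDegree = ℓ + 1 ∧
      (P.map (esc_SF ℓ F)).eval g = 0 ∧
      (P.map (esc_SF ℓ F)).eval (qExpand L ℓ (qExpand L ℓ g)) = 0) :
    ∃ w : E ≃+* E, (∀ z : F, w (β z) = IntermediateField.inclusion hFE z) ∧
      (∀ z : F, w (IntermediateField.inclusion hFE z) = β z) ∧ (∀ x : E, w (w x) = x) ∧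
      (∀ c : L, w (algebraMap L E c) = algebraMap L E c) := by
  classical
  obtain ⟨τ, h1, h2, -, h4⟩ := esca_exists_tau ℓ ζ hζ F E hFE β hβ hdeg G hG hGne hGS hGP
  letI : Algebra F E := β.toRingHom.toAlgebra
  have halgFE : ∀ z : F, algebraMap F E z = β z := fun _ => rfl
  obtain ⟨g₀, hg₀⟩ := hGne
  have hg₀F : g₀ ∈ F := hG ▸ IntermediateField.subset_adjoin L G hg₀
  set x₀ : E := ⟨g₀, hFE hg₀F⟩ with hx₀
  have hx₀' : x₀ = IntermediateField.inclusion hFE ⟨g₀, hg₀F⟩ := rfl
  have htop : IntermediateField.adjoin F {x₀} = ⊤ := h4 g₀ hg₀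
  have hall : ∀ x : E, x ∈ IntermediateField.adjoin F {x₀} := fun x => by
    rw [htop]; exact IntermediateField.mem_top
  -- `τ` maps `E` into `E`
  have hτE : ∀ x : E, τ x ∈ E := by
    intro x
    have hx := hall x
    induction hx using IntermediateField.adjoin_induction with
    | mem x hx =>
      rw [Set.mem_singleton_iff.mp hx, hx₀', h2, ← hβ]
      exact (β ⟨g₀, hg₀F⟩).2
    | algebraMap z => rw [halgFE, h1]; exact hFE z.2
    | add x y _ _ ihx ihy => rw [map_add]; exact add_mem ihx ihy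
    | inv x _ ihx => rw [map_inv₀]; exact inv_mem ihx
    | mul x y _ _ ihx ihy => rw [map_mul]; exact mul_mem ihx ihy
  let w₀ : E →+* E := τ.codRestrict E hτE
  have hw₀ : ∀ x : E, ((w₀ x : E) : LaurentSeries L) = τ x := fun _ => rfl
  have hw₀β : ∀ z : F, w₀ (β z) = IntermediateField.inclusion hFE z := fun z =>
    Subtype.ext (by rw [hw₀, h1]; rfl)
  have hw₀α : ∀ z : F, w₀ (IntermediateField.inclusion hFE z) = β z := fun z =>
    Subtype.ext (by rw [hw₀, h2, hβ])
  have hinv : ∀ x : E, w₀ (w₀ x) = x := by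
    intro x
    have hx := hall x
    induction hx using IntermediateField.adjoin_induction with
    | mem x hx => rw [Set.mem_singleton_iff.mp hx, hx₀', hw₀α, hw₀β]
    | algebraMap z => rw [halgFE, hw₀β, hw₀α]
    | add x y _ _ ihx ihy => rw [map_add, map_add, ihx, ihy]
    | inv x _ ihx => rw [map_inv₀, map_inv₀, ihx]
    | mul x y _ _ ihx ihy => rw [map_mul, map_mul, ihx, ihy]
  let w : E ≃+* E := RingEquiv.ofRingHom w₀ w₀ (RingHom.ext hinv) (RingHom.ext hinv)
  have hw : ∀ x : E, w x = w₀ x := fun _ => rfl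
  refine ⟨w, fun z => by rw [hw, hw₀β], fun z => by rw [hw, hw₀α],
    fun x => by rw [hw, hw, hinv], fun c => ?_⟩
  have hc : algebraMap L E c = β (algebraMap L F c) := (β.commutes c).symm
  rw [hw]
  conv_lhs => rw [hc, hw₀β]
  exact (IntermediateField.inclusion hFE).commutes c

/-- `N_{E/αF}(β u) = N_{E/βF}(α u)` in `F`, where `α` is the inclusion of `F` in `E`. -/
theorem esca_norm_swap (ζ : Lˣ) (hζ : IsPrimitiveRoot ζ ℓ)
    (F E : IntermediateField L (LaurentSeries L)) (hFE : F ≤ E) (β : F →ₐ[L] E)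
    (hβ : ∀ z : F, ((β z : E) : (LaurentSeries L)) = qExpand L ℓ (z : (LaurentSeries L)))
    (hdeg : letI := β.toRingHom.toAlgebra; finrank F E = ℓ + 1)
    (G : Set (LaurentSeries L)) (hG : IntermediateField.adjoin L G = F) (hGne : G.Nonempty)
    (hGS : ∀ g ∈ G, g ∉ Set.range (qExpand L ℓ))
    (hGP : ∀ g ∈ G, ∃ P : Polynomial F, P.Monic ∧ P.natDegree = ℓ + 1 ∧
      (P.map (esc_SF ℓ F)).eval g = 0 ∧
      (P.map (esc_SF ℓ F)).eval (qExpand L ℓ (qExpand L ℓ g)) = 0) (u : F) :
    @Algebra.norm F E _ _ (IntermediateField.inclusion hFE).toRingHom.toAlgebra (β u) =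
      @Algebra.norm F E _ _ β.toRingHom.toAlgebra (IntermediateField.inclusion hFE u) := by
  obtain ⟨w, hw1, hw2, -, -⟩ :=
    esca_exists_involution ℓ ζ hζ F E hFE β hβ hdeg G hG hGne hGS hGP
  have h := @Algebra.norm_eq_of_equiv_equiv F E F E _ _ _ _
    (IntermediateField.inclusion hFE).toRingHom.toAlgebra β.toRingHom.toAlgebra
    (RingEquiv.refl F) w (RingHom.ext fun z => (hw2 z).symm) (β u)
  rw [h, hw1]
  rfl

end

end Fermat.Agent.S37x
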