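/-
S37x/KraMat (helper12), leaf of S37 [B3] (STEP 3 of the blueprint `S37_B3_blueprint_helper60`
/ STEP K of `S37_B3_blueprint_kronecker_charpoly_helper12`).

THE KRONECKER CONGRUENCE FOR EVERY SERIES.  `mp_mat p f` (helper14, S28x/ModPolyFormal) is the
matrix of multiplication by `f(t)` on `R((t))` over `R((t^p))` in the basis `1, t, …, t^{p-1}`.

* `kra_basis_unique`   : uniqueness of the expansion `∑_i t^i a_i(t^p)`;
* `kra_mat_mul`, `kra_mat_one`, `kra_mat_add`, `kra_mat_qExpand`, `kra_matHom` :
  `f ↦ mp_mat p f` is a ring hom, and `mp_mat p (g(t^p))` is the scalar matrix `g`;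
* `kra_frob_pow`       : in characteristic `p`: `f ^ p = (f^φ)(t^p)`, `f^φ` = coefficientwise
  Frobenius;
* `kra_mat_pow_charP`  : `(mp_mat p f) ^ p` is the scalar matrix `f^φ`;
* `kra_charpoly_charP` : over a field of characteristic `p`:
  `charpoly (mp_mat p f) = X ^ p - C (f^φ)`;
* `kra_kronecker`      : for `π : A →+* k`, `k` a field of characteristic `p`, `f₀ ∈ A((t))`:
  `(charpoly (mp_mat p f₀)).map π = X ^ p - C ((π f₀)^φ)`  (no root of unity needed);
* `kra_eval_charpoly_C`: `(charpoly (mp_mat p f))(c) = det (mp_mat p (c - f))` for constants `c`.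

Mathlib + Prelude (`qExpand`, `coeffMap`) + S28x/ModPolyFormal only.
-/
import Mathlib
import Fermat.Agent.S28x.ModPolyFormal

set_option autoImplicit false

open HahnSeries ModularCurve Polynomial

namespace Fermat.Agent.S37x

open Fermat.Agent.S28x

noncomputable section

section ring

variable {R : Type*} [CommRing R] (p : ℕ) [NeZero p]

/-- the coefficients of one term `t^i · a(t^p)` -/
theorem kra_coeff_term (a : LaurentSeries R) (i : Fin p) (n : ℤ) :
    (HahnSeries.single ((i : ℕ) : ℤ) (1 : R) * qExpand R p a).coeff n =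
      if (p : ℤ) ∣ n - (i : ℕ) then a.coeff ((n - (i : ℕ)) / p) else 0 := by
  have := HahnSeries.coeff_single_mul_add (r := (1 : R)) (x := qExpand R p a)
    (a := n - (i : ℕ)) (b := ((i : ℕ) : ℤ))
  rw [sub_add_cancel, one_mul] at this
  rw [this, mp_coeff_qExpand]

/-- coefficient extraction in the basis `1, t, …, t^{p-1}` over `R((t^p))` -/
theorem kra_coeff_sum (a : Fin p → LaurentSeries R) (i : Fin p) (m : ℤ) :
    (∑ i' : Fin p, HahnSeries.single ((i' : ℕ) : ℤ) (1 : R) * qExpand R p (a i')).coeff
      ((p : ℤ) * m + (i : ℕ)) = (a i).coeff m := by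
  have hp0 : (p : ℤ) ≠ 0 := by exact_mod_cast NeZero.ne p
  rw [HahnSeries.coeff_sum]
  simp_rw [kra_coeff_term]
  rw [Finset.sum_eq_single i]
  · rw [if_pos ⟨m, by ring⟩]
    congr 1
    rw [show (p : ℤ) * m + (i : ℕ) - (i : ℕ) = (p : ℤ) * m by ring,
      Int.mul_ediv_cancel_left _ hp0]
  · intro i' _ hi'
    rw [if_neg]
    rintro ⟨c, hc⟩
    apply hi'
    have h1 : ((i : ℕ) : ℤ) - (i' : ℕ) = (p : ℤ) * (c - m) := by linarith
    have hi : ((i : ℕ) : ℤ) < p := by exact_mod_cast i.2
    have hi'' : ((i' : ℕ) : ℤ) < p := by exact_mod_cast i'.2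
    have hi0 : (0 : ℤ) ≤ (i : ℕ) := by positivity
    have hi0' : (0 : ℤ) ≤ (i' : ℕ) := by positivity
    have hcm : c - m = 0 := by
      by_contra hne
      rcases lt_or_gt_of_ne hne with hlt | hgt
      · have : c - m ≤ -1 := by omega
        nlinarith
      · have : 1 ≤ c - m := by omega
        nlinarith
    rw [hcm, mul_zero] at h1
    ext
    omega
  · intro h
    exact absurd (Finset.mem_univ _) h

/-- **uniqueness of the expansion** `∑_i t^i a_i(t^p)` -/
theorem kra_basis_unique (a b : Fin p → LaurentSeries R)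
    (h : ∑ i : Fin p, HahnSeries.single ((i : ℕ) : ℤ) (1 : R) * qExpand R p (a i) =
      ∑ i : Fin p, HahnSeries.single ((i : ℕ) : ℤ) (1 : R) * qExpand R p (b i)) : a = b := by
  funext i
  ext m
  rw [← kra_coeff_sum p a i m, ← kra_coeff_sum p b i m, h]

/-- **multiplicativity** of `f ↦ mp_mat p f` -/
theorem kra_mat_mul (f g : LaurentSeries R) : mp_mat p (f * g) = mp_mat p f * mp_mat p g := by
  suffices h : ∀ k : Fin p, (fun i : Fin p => mp_mat p (f * g) i k) =
      fun i : Fin p => (mp_mat p f * mp_mat p g) i k from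
    Matrix.ext fun i k => congrFun (h k) i
  intro k
  apply kra_basis_unique p
  rw [← mp_eigen p (f * g) k, mul_assoc, mp_eigen p g k, Finset.mul_sum]
  have h1 : ∀ j : Fin p, f * (HahnSeries.single ((j : ℕ) : ℤ) (1 : R) *
      qExpand R p (mp_mat p g j k)) =
      ∑ i : Fin p, HahnSeries.single ((i : ℕ) : ℤ) (1 : R) *
        qExpand R p (mp_mat p f i j * mp_mat p g j k) := by
    intro j
    rw [← mul_assoc, mp_eigen p f j, Finset.sum_mul]
    refine Finset.sum_congr rfl fun i _ => ?_
    rw [map_mul, mul_assoc]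
  simp_rw [h1]
  rw [Finset.sum_comm]
  refine Finset.sum_congr rfl fun i _ => ?_
  rw [← Finset.mul_sum, ← map_sum, Matrix.mul_apply]

theorem kra_mat_add (f g : LaurentSeries R) : mp_mat p (f + g) = mp_mat p f + mp_mat p g := by
  ext i k m
  simp [mp_mat]

theorem kra_mat_zero : mp_mat p (0 : LaurentSeries R) = 0 := by
  ext i k m
  simp [mp_mat]

/-- `mp_mat p (g(t^p))` is the scalar matrix `g` -/
theorem kra_mat_qExpand (g : LaurentSeries R) :
    mp_mat p (qExpand R p g) = Matrix.scalar (Fin p) g := by
  suffices h : ∀ k : Fin p, (fun i : Fin p => mp_mat p (qExpand R p g) i k) =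
      fun i : Fin p => (Matrix.scalar (Fin p) g) i k from
    Matrix.ext fun i k => congrFun (h k) i
  intro k
  apply kra_basis_unique p
  rw [← mp_eigen p (qExpand R p g) k, Finset.sum_eq_single k]
  · rw [Matrix.scalar_apply, Matrix.diagonal_apply_eq, mul_comm]
  · intro i _ hi
    rw [Matrix.scalar_apply, Matrix.diagonal_apply_ne _ hi, map_zero, mul_zero]
  · intro h
    exact absurd (Finset.mem_univ _) h

theorem kra_mat_one : mp_mat p (1 : LaurentSeries R) = 1 := by
  have := kra_mat_qExpand p (1 : LaurentSeries R)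
  rwa [map_one, map_one] at this

/-- `f ↦ mp_mat p f` as a ring hom -/
def kra_matHom : LaurentSeries R →+* Matrix (Fin p) (Fin p) (LaurentSeries R) where
  toFun := mp_mat p
  map_one' := kra_mat_one p
  map_mul' := kra_mat_mul p
  map_zero' := kra_mat_zero p
  map_add' := kra_mat_add p

@[simp] theorem kra_matHom_apply (f : LaurentSeries R) : kra_matHom p f = mp_mat p f := rfl

theorem kra_mat_pow (f : LaurentSeries R) (n : ℕ) : mp_mat p (f ^ n) = mp_mat p f ^ n :=
  map_pow (kra_matHom p) f n

theorem kra_mat_sub (f g : LaurentSeries R) : mp_mat p (f - g) = mp_mat p f - mp_mat p g :=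
  map_sub (kra_matHom p) f g

theorem kra_mat_neg (f : LaurentSeries R) : mp_mat p (-f) = -mp_mat p f :=
  map_neg (kra_matHom p) f

/-- constants give scalar matrices -/
theorem kra_mat_C (c : R) :
    mp_mat p (HahnSeries.C c : LaurentSeries R) = Matrix.scalar (Fin p) (HahnSeries.C c) := by
  have := kra_mat_qExpand p (HahnSeries.C c : LaurentSeries R)
  rwa [qExpand_C] at this

/-- `(charpoly (mp_mat p f))(c) = det (mp_mat p (c - f))` for constants `c` -/
theorem kra_eval_charpoly_C (f : LaurentSeries R) (c : R) :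
    (mp_mat p f).charpoly.eval (HahnSeries.C c) =
      (mp_mat p ((HahnSeries.C c : LaurentSeries R) - f)).det := by
  rw [Matrix.eval_charpoly, kra_mat_sub, kra_mat_C]

/-- more generally for every `g(t^p)` in the base -/
theorem kra_eval_charpoly_qExpand (f g : LaurentSeries R) :
    (mp_mat p f).charpoly.eval g = (mp_mat p (qExpand R p g - f)).det := by
  rw [Matrix.eval_charpoly, kra_mat_sub, kra_mat_qExpand]

end ring

section charP

variable {k : Type*} [CommRing k] (p : ℕ) [hp : Fact p.Prime] [CharP k p]

theorem kra_pow_powerSeries (g : PowerSeries k) (m : ℕ) :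
    PowerSeries.coeff m (g ^ p) = if p ∣ m then (PowerSeries.coeff (m / p) g) ^ p else 0 := by
  have : ExpChar k p := ExpChar.prime hp.out
  have h := MvPowerSeries.map_frobenius_expand (σ := Unit) p hp.out.ne_zero (f := g)
  have h2 : g ^ p = PowerSeries.map (frobenius k p) (PowerSeries.expand p hp.out.ne_zero g) :=
    h.symm
  rw [h2, PowerSeries.coeff_map, PowerSeries.coeff_expand]
  split_ifs
  · rw [frobenius_def]
  · rw [map_zero]

theorem kra_frob_pow (f : LaurentSeries k) :
    f ^ p = qExpand k p (coeffMap (frobenius k p) f) := by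
  have hp0 : (p : ℤ) ≠ 0 := by exact_mod_cast hp.out.ne_zero
  have hppos : (0 : ℤ) < p := by exact_mod_cast hp.out.pos
  have hf := LaurentSeries.single_order_mul_powerSeriesPart f
  set g := LaurentSeries.powerSeriesPart f with hg
  set a := f.order with ha
  -- the power series part
  have key : (HahnSeries.ofPowerSeries ℤ k g) ^ p =
      qExpand k p (coeffMap (frobenius k p) (HahnSeries.ofPowerSeries ℤ k g)) := by
    rw [← map_pow]
    ext n
    rw [mp_coeff_qExpand, coeffMap_coeff]
    rcases lt_or_ge n 0 with hn | hn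
    · rw [ofPowerSeries_coeff_of_neg _ hn]
      split_ifs with hd
      · have : n / (p : ℤ) < 0 := Int.ediv_neg_of_neg_of_pos hn hppos
        rw [ofPowerSeries_coeff_of_neg _ this, map_zero]
      · rfl
    · obtain ⟨m, rfl⟩ := Int.eq_ofNat_of_zero_le hn
      rw [HahnSeries.ofPowerSeries_apply_coeff, kra_pow_powerSeries]
      by_cases hd : p ∣ m
      · rw [if_pos hd, if_pos (by exact_mod_cast hd)]
        have : ((m : ℤ) / (p : ℤ)) = ((m / p : ℕ) : ℤ) := by norm_cast
        rw [this, HahnSeries.ofPowerSeries_apply_coeff, frobenius_def]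
      · rw [if_neg hd, if_neg (by exact_mod_cast hd)]
  have h1 : (HahnSeries.single a (1 : k)) ^ p = HahnSeries.single ((p : ℤ) * a) 1 := by
    rw [HahnSeries.single_pow, one_pow, nsmul_eq_mul]
  have h2 : qExpand k p (coeffMap (frobenius k p) (HahnSeries.single a (1 : k))) =
      HahnSeries.single ((p : ℤ) * a) 1 := by
    rw [coeffMap_single, qExpand_single, frobenius_def, one_pow]
  rw [← hf, mul_pow, key, map_mul, map_mul, h1, h2]

/-- `(mp_mat p f) ^ p` is the scalar matrix `f^φ` -/
theorem kra_mat_pow_charP (f : LaurentSeries k) :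
    mp_mat p f ^ p = Matrix.scalar (Fin p) (coeffMap (frobenius k p) f) := by
  rw [← kra_mat_pow, kra_frob_pow, kra_mat_qExpand]

end charP

section charPField

variable {k : Type*} [Field k] (p : ℕ) [hp : Fact p.Prime] [CharP k p]

theorem kra_charP_laurent : CharP (LaurentSeries k) p :=
  charP_of_injective_ringHom (f := (HahnSeries.C : k →+* LaurentSeries k))
    HahnSeries.C_injective p

/-- **characteristic polynomial of multiplication by `f` in characteristic `p`**:
`charpoly (mp_mat p f) = X ^ p - C (f^φ)` (the extension `k((t))/k((t^p))` is purely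
inseparable). -/
theorem kra_charpoly_charP (f : LaurentSeries k) :
    (mp_mat p f).charpoly = X ^ p - Polynomial.C (coeffMap (frobenius k p) f) := by
  have : Nonempty (Fin p) := ⟨⟨0, hp.out.pos⟩⟩
  haveI : CharP (LaurentSeries k) p := kra_charP_laurent p
  set c := coeffMap (frobenius k p) f with hc
  set M := mp_mat p f with hM
  -- the `p`-th power of the characteristic matrix
  have hcomm : Commute (Matrix.scalar (Fin p) (X : (LaurentSeries k)[X]))
      ((Polynomial.C : LaurentSeries k →+* (LaurentSeries k)[X]).mapMatrix M) :=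
    Matrix.scalar_commute _ (fun _ => Commute.all _ _) _
  have hpow : (Matrix.charmatrix M) ^ p =
      Matrix.scalar (Fin p) ((X : (LaurentSeries k)[X]) ^ p - Polynomial.C c) := by
    have h1 : Matrix.charmatrix M = Matrix.scalar (Fin p) (X : (LaurentSeries k)[X]) -
        (Polynomial.C : LaurentSeries k →+* (LaurentSeries k)[X]).mapMatrix M := rfl
    have h3 : (Polynomial.C : LaurentSeries k →+* (LaurentSeries k)[X]).mapMatrix
        (Matrix.scalar (Fin p) c) = Matrix.scalar (Fin p) (Polynomial.C c) := by
      refine Matrix.ext fun i j => ?_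
      rw [RingHom.mapMatrix_apply, Matrix.map_apply, Matrix.scalar_apply, Matrix.scalar_apply,
        Matrix.diagonal_apply, Matrix.diagonal_apply]
      split_ifs
      · rfl
      · exact map_zero _
    rw [h1, sub_pow_char_of_commute p hcomm, ← map_pow, ← map_pow, hM, kra_mat_pow_charP,
      map_sub, h3]
  have hdet : (M.charpoly) ^ p = ((X : (LaurentSeries k)[X]) ^ p - Polynomial.C c) ^ p := by
    rw [Matrix.charpoly, ← Matrix.det_pow, hpow, Matrix.scalar_apply, Matrix.det_diagonal]
    simp
  exact frobenius_inj (LaurentSeries k)[X] p (by simpa [frobenius_def] using hdet)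

/-- **Kronecker congruence for every series** (no root of unity): for `π : A →+* k`,
`k` a field of characteristic `p`, and `f₀ ∈ A((t))`,
`(charpoly (mp_mat p f₀)).map π = X ^ p - C ((π f₀)^φ)`. -/
theorem kra_kronecker {A : Type*} [CommRing A] (π : A →+* k) (f₀ : LaurentSeries A) :
    (mp_mat p f₀).charpoly.map (coeffMap π) =
      X ^ p - Polynomial.C (coeffMap (frobenius k p) (coeffMap π f₀)) := by
  rw [← Matrix.charpoly_map, ← mp_mat_coeffMap, kra_charpoly_charP]

/-- determinant form: the norm of `f` from `k((t))` to `k((t^p))` is `f^φ` -/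
theorem kra_det_charP (f : LaurentSeries k) :
    (mp_mat p f).det = coeffMap (frobenius k p) f := by
  haveI : CharP (LaurentSeries k) p := kra_charP_laurent p
  have h := congrArg (fun q : (LaurentSeries k)[X] => q.eval 0) (kra_charpoly_charP p f)
  simp only [eval_sub, eval_pow, eval_X, eval_C, zero_pow hp.out.ne_zero, zero_sub] at h
  rw [Matrix.eval_charpoly, map_zero, zero_sub, Matrix.det_neg, Fintype.card_fin] at h
  rcases hp.out.eq_two_or_odd' with h2 | hodd
  · -- `p = 2`: `-1 = 1`
    have hneg : ∀ x : LaurentSeries k, -x = x := by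
      intro x
      have h2' : (2 : LaurentSeries k) = 0 := by
        have := CharP.cast_eq_zero (LaurentSeries k) p
        rw [h2] at this
        exact_mod_cast this
      linear_combination (-x) * h2'
    rw [hneg (1 : LaurentSeries k), one_pow, one_mul, hneg] at h
    exact h
  · rw [hodd.neg_one_pow, neg_one_mul] at h
    exact neg_injective h

end charPField

end

end Fermat.Agent.S37x
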