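/-
S37x/KraGlue (helper12), glue leaf of S37 [B3] STEP 2 → STEP 3.

For `y ∈ A((q))`, `c ∈ A` put  `kra_nc p c y := (c - y(q^p)) · det (mp_mat p (c - y))`  (the
q-expansion of `β⁻¹ N_{E/βF}(c - α y)`, by STEP 2).  Then:

* `kra_nc_coeffMap`   : `kra_nc` commutes with every change of coefficients `φ : A →+* B`;
* `kra_nc_charP`      : over a field of characteristic `p`:
  `kra_nc p c y = (c - y(q^p)) · (c^p - y^φ)`  (`y^φ` = coefficientwise Frobenius);
* `kra_nc_reduction`  : for `π : A →+* k`: `π (kra_nc p c y₀) = (π c - ȳ(q^p)) (π c ^ p - ȳ^φ)`;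
* `kra_prod_lf_rescale` / `kra_prod_sub_lf_rescale` : over a field with a primitive `p`-th root of
  unity `ξ`: `∏_b x(ξ^b t) = (det (mp_mat p x))(t^p)` and
  `∏_b (g(t^p) - x(ξ^b t)) = (det (mp_mat p (g(t^p) - x)))(t^p)`;
* `kra_nc_eq_prod`    : `(kra_nc p c y)(q^p) = (c - y(q^{p²})) ∏_b (c - y(ξ^b q))`, which is the
  right-hand side of helper60's `esc_norm_eq`.
-/
import Mathlib
import Fermat.Agent.S37x.KraMat
import Fermat.Agent.S18x.CcjFactor
import Fermat.Prelude.Thm_ModularCurve_coeffMap_qExpand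

set_option autoImplicit false

open HahnSeries ModularCurve Polynomial

namespace Fermat.Agent.S37x

open Fermat.Agent.S28x Fermat.Agent.S18x

noncomputable section

section nc

variable {A : Type*} [CommRing A] (p : ℕ) [NeZero p]

/-- `(c - y(q^p)) · det (mp_mat p (c - y))` -/
def kra_nc (c : A) (y : LaurentSeries A) : LaurentSeries A :=
  ((HahnSeries.C c : LaurentSeries A) - qExpand A p y) *
    (mp_mat p ((HahnSeries.C c : LaurentSeries A) - y)).det

theorem kra_coeffMap_C {B : Type*} [CommRing B] (φ : A →+* B) (c : A) :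
    coeffMap φ (HahnSeries.C c : LaurentSeries A) = HahnSeries.C (φ c) := by
  rw [HahnSeries.C_apply, coeffMap_single, HahnSeries.C_apply]

theorem kra_nc_coeffMap {B : Type*} [CommRing B] (φ : A →+* B) (c : A) (y : LaurentSeries A) :
    coeffMap φ (kra_nc p c y) = kra_nc p (φ c) (coeffMap φ y) := by
  rw [kra_nc, kra_nc, map_mul, map_sub, kra_coeffMap_C, coeffMap_qExpand, RingHom.map_det,
    RingHom.mapMatrix_apply, ← mp_mat_coeffMap, map_sub, kra_coeffMap_C]

end nc

section charP

variable {k : Type*} [Field k] (p : ℕ) [hp : Fact p.Prime] [CharP k p]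

theorem kra_nc_charP (c : k) (y : LaurentSeries k) :
    kra_nc p c y = ((HahnSeries.C c : LaurentSeries k) - qExpand k p y) *
      ((HahnSeries.C (c ^ p) : LaurentSeries k) - coeffMap (frobenius k p) y) := by
  rw [kra_nc, kra_det_charP, map_sub, kra_coeffMap_C, frobenius_def]

/-- **reduction of `kra_nc`** -/
theorem kra_nc_reduction {A : Type*} [CommRing A] (π : A →+* k) (c : A) (y₀ : LaurentSeries A) :
    coeffMap π (kra_nc p c y₀) =
      ((HahnSeries.C (π c) : LaurentSeries k) - qExpand k p (coeffMap π y₀)) *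
        ((HahnSeries.C (π c ^ p) : LaurentSeries k) -
          coeffMap (frobenius k p) (coeffMap π y₀)) := by
  rw [kra_nc_coeffMap, kra_nc_charP]

end charP

section roots

variable {K : Type*} [Field K] (p : ℕ) [NeZero p]

/-- `∏_b (g(t^p) - x(ξ^b t)) = (det (mp_mat p (g(t^p) - x)))(t^p)` -/
theorem kra_prod_sub_lf_rescale {ξ : K} (hξ : IsPrimitiveRoot ξ p) (g x : LaurentSeries K) :
    ∏ b : Fin p, (qExpand K p g -
        lf_rescale (ξ ^ (b : ℕ)) (pow_ne_zero _ (hξ.ne_zero (NeZero.ne p))) x) =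
      qExpand K p (mp_mat p (qExpand K p g - x)).det := by
  have h := congrArg (fun P : (LaurentSeries K)[X] => P.eval (qExpand K p g))
    (ccf_charpoly_mat p hξ x)
  simp only [eval_prod, eval_sub, eval_X, eval_C] at h
  rw [← h, Matrix.eval_charpoly, RingHom.map_det, RingHom.mapMatrix_apply, kra_mat_sub,
    kra_mat_qExpand]
  congr 1
  ext i j
  rw [Matrix.map_apply, Matrix.sub_apply, Matrix.sub_apply, map_sub, Matrix.map_apply,
    Matrix.scalar_apply, Matrix.scalar_apply, Matrix.diagonal_apply, Matrix.diagonal_apply]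
  split_ifs
  · rfl
  · rw [map_zero]

/-- `∏_b x(ξ^b t) = (det (mp_mat p x))(t^p)`: the norm of `K((t))/K((t^p))` -/
theorem kra_prod_lf_rescale {ξ : K} (hξ : IsPrimitiveRoot ξ p) (x : LaurentSeries K) :
    ∏ b : Fin p, lf_rescale (ξ ^ (b : ℕ)) (pow_ne_zero _ (hξ.ne_zero (NeZero.ne p))) x =
      qExpand K p (mp_mat p x).det := by
  have h := kra_prod_sub_lf_rescale p hξ 0 (-x)
  simp only [map_zero, zero_sub, map_neg, neg_neg] at h
  exact h

/-- **the right-hand side of STEP 2**:
`(kra_nc p c y)(q^p) = (c - y(q^{p²})) ∏_b (c - y(ξ^b q))` -/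
theorem kra_nc_eq_prod {ξ : K} (hξ : IsPrimitiveRoot ξ p) (c : K) (y : LaurentSeries K) :
    qExpand K p (kra_nc p c y) =
      ((HahnSeries.C c : LaurentSeries K) - qExpand K p (qExpand K p y)) *
        ∏ b : Fin p, ((HahnSeries.C c : LaurentSeries K) -
          lf_rescale (ξ ^ (b : ℕ)) (pow_ne_zero _ (hξ.ne_zero (NeZero.ne p))) y) := by
  have h := kra_prod_sub_lf_rescale p hξ (HahnSeries.C c) y
  rw [qExpand_C] at h
  rw [kra_nc, map_mul, map_sub, qExpand_C, h]

end roots

end

end Fermat.Agent.S37x
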