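/-
S37x/EsZetaFree (helper63): DIALECT BRIDGE for S37 [B3] STEP 2/3 between helper12's `kra_` results
(S37x/KraGlue, stated with `lf_rescale ξ _` and products over `Fin p`) and the `pxs_rescale K z`
(`z : Kˣ`) dialect of S18x/PuiseuxSubst, with products over `Fin p`, `Finset.range p` and `ZMod p`.

For a field `K` containing a primitive `p`-th root of unity `z`:
`∏_{i < p} x(zⁱ q) = (det (mp_mat p x))(q^p)`,
`∏_{i < p} (g(q^p) - y(zⁱ q)) = ((charpoly (mp_mat p y))(g))(q^p)`, the polynomial form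
`(charpoly (mp_mat p y)).map (q ↦ q^p) = ∏_i (X - y(zⁱ q))`, the `kra_nc` form (right-hand side of
STEP 2), and the Kronecker congruence evaluated at a point.  Prefix `esz_`.
-/
import Mathlib
import Fermat.Agent.S37x.KraGlue
import Fermat.Agent.S18x.PuiseuxSubst

set_option autoImplicit false

open HahnSeries ModularCurve Polynomial

namespace Fermat.Agent.S37x

open Fermat.Agent.S28x Fermat.Agent.S18x

noncomputable section

section dialect

variable {K : Type*} [Field K]

/-- the two rescaling homs agree -/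
theorem esz_pxs_eq_lf (z : Kˣ) (x : LaurentSeries K) :
    pxs_rescale K z x = lf_rescale (z : K) z.ne_zero x := by
  ext n
  rw [pxs_rescale_coeff, lf_rescale_coeff, Units.val_zpow_eq_zpow_val]

theorem esz_pxs_pow_eq_lf (z : Kˣ) (i : ℕ) (x : LaurentSeries K) :
    pxs_rescale K (z ^ i) x = lf_rescale ((z : K) ^ i) (pow_ne_zero _ z.ne_zero) x := by
  ext n
  rw [pxs_rescale_coeff, lf_rescale_coeff, Units.val_zpow_eq_zpow_val, Units.val_pow_eq_pow_val]

end dialect

section main

variable {K : Type*} [Field K] (p : ℕ) [NeZero p]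

/-- **product over the rescalings** `q ↦ zⁱ q`, `z` a primitive `p`-th root of unity:
`∏_{i<p} x(zⁱ q) = (det (mp_mat p x))(q^p)`. -/
theorem esz_prod_fin (z : Kˣ) (hz : IsPrimitiveRoot (z : K) p) (x : LaurentSeries K) :
    ∏ i : Fin p, pxs_rescale K (z ^ (i : ℕ)) x = qExpand K p (mp_mat p x).det := by
  rw [← kra_prod_lf_rescale p hz x]
  exact Finset.prod_congr rfl fun i _ => esz_pxs_pow_eq_lf z i x

theorem esz_prod_range (z : Kˣ) (hz : IsPrimitiveRoot (z : K) p) (x : LaurentSeries K) :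
    ∏ i ∈ Finset.range p, pxs_rescale K (z ^ i) x = qExpand K p (mp_mat p x).det := by
  rw [← esz_prod_fin p z hz x, Fin.prod_univ_eq_prod_range (fun i => pxs_rescale K (z ^ i) x) p]

/-- the factor `∏_i (g(q^p) - y(zⁱ q))` in terms of the characteristic polynomial of `mp_mat p y` -/
theorem esz_prod_sub_qExpand_fin (z : Kˣ) (hz : IsPrimitiveRoot (z : K) p)
    (y g : LaurentSeries K) :
    ∏ i : Fin p, (qExpand K p g - pxs_rescale K (z ^ (i : ℕ)) y) =
      qExpand K p ((mp_mat p y).charpoly.eval g) := by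
  rw [kra_eval_charpoly_qExpand, ← kra_prod_sub_lf_rescale p hz g y]
  exact Finset.prod_congr rfl fun i _ => by rw [esz_pxs_pow_eq_lf z i y]

theorem esz_prod_sub_qExpand_range (z : Kˣ) (hz : IsPrimitiveRoot (z : K) p)
    (y g : LaurentSeries K) :
    ∏ i ∈ Finset.range p, (qExpand K p g - pxs_rescale K (z ^ i) y) =
      qExpand K p ((mp_mat p y).charpoly.eval g) := by
  rw [← esz_prod_sub_qExpand_fin p z hz y g,
    Fin.prod_univ_eq_prod_range (fun i => qExpand K p g - pxs_rescale K (z ^ i) y) p]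

/-- the factor `∏_i (c - y(zⁱ q))`, `c` a constant -/
theorem esz_prod_sub_fin (z : Kˣ) (hz : IsPrimitiveRoot (z : K) p) (y : LaurentSeries K) (c : K) :
    ∏ i : Fin p, ((HahnSeries.C c : LaurentSeries K) - pxs_rescale K (z ^ (i : ℕ)) y) =
      qExpand K p ((mp_mat p y).charpoly.eval (HahnSeries.C c)) := by
  have h := esz_prod_sub_qExpand_fin p z hz y (HahnSeries.C c)
  rwa [qExpand_C] at h

theorem esz_prod_sub_range (z : Kˣ) (hz : IsPrimitiveRoot (z : K) p) (y : LaurentSeries K)
    (c : K) :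
    ∏ i ∈ Finset.range p, ((HahnSeries.C c : LaurentSeries K) - pxs_rescale K (z ^ i) y) =
      qExpand K p ((mp_mat p y).charpoly.eval (HahnSeries.C c)) := by
  have h := esz_prod_sub_qExpand_range p z hz y (HahnSeries.C c)
  rwa [qExpand_C] at h

/-- the same with `det (mp_mat p (c - y))` -/
theorem esz_prod_sub_range_det (z : Kˣ) (hz : IsPrimitiveRoot (z : K) p) (y : LaurentSeries K)
    (c : K) :
    ∏ i ∈ Finset.range p, ((HahnSeries.C c : LaurentSeries K) - pxs_rescale K (z ^ i) y) =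
      qExpand K p (mp_mat p ((HahnSeries.C c : LaurentSeries K) - y)).det := by
  rw [esz_prod_sub_range p z hz y c, kra_eval_charpoly_C]

/-- products indexed by `ZMod p` (exponent `i.val`) -/
theorem esz_prod_zmod (z : Kˣ) (hz : IsPrimitiveRoot (z : K) p) (x : LaurentSeries K) :
    ∏ i : ZMod p, pxs_rescale K (z ^ i.val) x = qExpand K p (mp_mat p x).det := by
  rw [← esz_prod_fin p z hz x]
  obtain ⟨n, rfl⟩ : ∃ n, p = n + 1 := ⟨p - 1, (Nat.succ_pred_eq_of_ne_zero (NeZero.ne p)).symm⟩
  rfl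

theorem esz_prod_sub_zmod (z : Kˣ) (hz : IsPrimitiveRoot (z : K) p) (y : LaurentSeries K)
    (c : K) :
    ∏ i : ZMod p, ((HahnSeries.C c : LaurentSeries K) - pxs_rescale K (z ^ i.val) y) =
      qExpand K p ((mp_mat p y).charpoly.eval (HahnSeries.C c)) := by
  rw [← esz_prod_sub_fin p z hz y c]
  obtain ⟨n, rfl⟩ : ∃ n, p = n + 1 := ⟨p - 1, (Nat.succ_pred_eq_of_ne_zero (NeZero.ne p)).symm⟩
  rfl

/-- polynomial form: `charpoly (mp_mat p y)`, pushed to `K((q))` along `q ↦ q^p`, splits as
`∏_i (X - y(zⁱ q))`. -/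
theorem esz_charpoly_map (z : Kˣ) (hz : IsPrimitiveRoot (z : K) p) (y : LaurentSeries K) :
    (mp_mat p y).charpoly.map (qExpand K p) =
      ∏ i : Fin p, (X - Polynomial.C (pxs_rescale K (z ^ (i : ℕ)) y)) := by
  rw [← Matrix.charpoly_map, ccf_charpoly_mat p hz y]
  exact Finset.prod_congr rfl fun i _ => by rw [esz_pxs_pow_eq_lf z i y]

/-- **the right-hand side of STEP 2** in the `pxs_rescale` / `Finset.range` dialect:
`(kra_nc p c y)(q^p) = (c - y(q^{p²})) ∏_{i<p} (c - y(zⁱ q))` -/
theorem esz_nc_eq_prod_range (z : Kˣ) (hz : IsPrimitiveRoot (z : K) p) (c : K)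
    (y : LaurentSeries K) :
    qExpand K p (kra_nc p c y) =
      ((HahnSeries.C c : LaurentSeries K) - qExpand K p (qExpand K p y)) *
        ∏ i ∈ Finset.range p, ((HahnSeries.C c : LaurentSeries K) - pxs_rescale K (z ^ i) y) := by
  rw [esz_prod_sub_range_det p z hz y c, kra_nc, map_mul, map_sub, qExpand_C]

theorem esz_nc_eq_prod_fin (z : Kˣ) (hz : IsPrimitiveRoot (z : K) p) (c : K)
    (y : LaurentSeries K) :
    qExpand K p (kra_nc p c y) =
      ((HahnSeries.C c : LaurentSeries K) - qExpand K p (qExpand K p y)) *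
        ∏ i : Fin p, ((HahnSeries.C c : LaurentSeries K) - pxs_rescale K (z ^ (i : ℕ)) y) := by
  rw [esz_nc_eq_prod_range p z hz c y,
    Fin.prod_univ_eq_prod_range
      (fun i => (HahnSeries.C c : LaurentSeries K) - pxs_rescale K (z ^ i) y) p]

theorem esz_nc_eq_prod_zmod (z : Kˣ) (hz : IsPrimitiveRoot (z : K) p) (c : K)
    (y : LaurentSeries K) :
    qExpand K p (kra_nc p c y) =
      ((HahnSeries.C c : LaurentSeries K) - qExpand K p (qExpand K p y)) *
        ∏ i : ZMod p, ((HahnSeries.C c : LaurentSeries K) - pxs_rescale K (z ^ i.val) y) := by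
  rw [esz_prod_sub_zmod p z hz y c, kra_eval_charpoly_C, kra_nc, map_mul, map_sub, qExpand_C]

end main

section reduce

variable {A k : Type*} [CommRing A] [Field k] (p : ℕ) [hp : Fact p.Prime] [CharP k p]

/-- **Kronecker congruence, evaluated at a constant**: the reduction of
`(charpoly (mp_mat p y₀))(c₀)` is `c̄₀^p - (ȳ₀)^φ`. -/
theorem esz_kronecker_eval (π : A →+* k) (y₀ : LaurentSeries A) (c₀ : A) :
    coeffMap π ((mp_mat p y₀).charpoly.eval (HahnSeries.C c₀)) =
      (HahnSeries.C (π c₀) : LaurentSeries k) ^ p -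
        coeffMap (frobenius k p) (coeffMap π y₀) := by
  have h := congrArg (fun q : (LaurentSeries k)[X] => q.eval (HahnSeries.C (π c₀)))
    (kra_kronecker p π y₀)
  simp only [eval_sub, eval_pow, eval_X, eval_C] at h
  rw [← h, ← kra_coeffMap_C, Polynomial.eval_map, Polynomial.eval₂_at_apply]

/-- the same at an arbitrary series `g₀` -/
theorem esz_kronecker_eval_series (π : A →+* k) (y₀ g₀ : LaurentSeries A) :
    coeffMap π ((mp_mat p y₀).charpoly.eval g₀) =
      (coeffMap π g₀) ^ p - coeffMap (frobenius k p) (coeffMap π y₀) := by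
  have h := congrArg (fun q : (LaurentSeries k)[X] => q.eval (coeffMap π g₀))
    (kra_kronecker p π y₀)
  simp only [eval_sub, eval_pow, eval_X, eval_C] at h
  rw [← h, Polynomial.eval_map, Polynomial.eval₂_at_apply]

end reduce

end

end Fermat.Agent.S37x
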