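/-
S37x/KraNorm (helper12), support leaf of S37 [B3] STEP 2 (zeta-free form).

`K((t))` as a finite free algebra over `K((t^p))` (structure map `qExpand K p`), with basis
`1, t, …, t^{p-1}`; the matrix of multiplication by `x` in this basis is `mp_mat p x`, hence
`Algebra.norm x = det (mp_mat p x)`, `Algebra.trace x = trace (mp_mat p x)` and the characteristic
polynomial of multiplication by `x` is `charpoly (mp_mat p x)`.
-/
import Mathlib
import Fermat.Agent.S37x.KraMat

set_option autoImplicit false

open HahnSeries ModularCurve Polynomial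

namespace Fermat.Agent.S37x

open Fermat.Agent.S28x

noncomputable section

/-- `R((t))` viewed as an algebra over `R((t^p))` -/
def kra_Top (R : Type*) [CommRing R] (_p : ℕ) : Type _ := LaurentSeries R

section ring

variable {R : Type*} [CommRing R] (p : ℕ) [NeZero p]

instance kra_Top_commRing : CommRing (kra_Top R p) := inferInstanceAs (CommRing (LaurentSeries R))

instance kra_Top_algebra : Algebra (LaurentSeries R) (kra_Top R p) := (qExpand R p).toAlgebra

/-- the identification `kra_Top R p = R((t))` -/
def kra_Top_equiv : kra_Top R p ≃+* LaurentSeries R := RingEquiv.refl _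

theorem kra_Top_algebraMap (g : LaurentSeries R) :
    kra_Top_equiv p (algebraMap (LaurentSeries R) (kra_Top R p) g) = qExpand R p g := rfl

theorem kra_Top_smul (g : LaurentSeries R) (x : kra_Top R p) :
    kra_Top_equiv p (g • x) = qExpand R p g * kra_Top_equiv p x := rfl

/-- sections are linear over `R((t^p))` -/
theorem kra_sec_qExpand_mul (r : ℤ) (g x : LaurentSeries R) :
    mp_sec p r (qExpand R p g * x) = g * mp_sec p r x := by
  -- reduce to the matrix statement
  have hp0 : (p : ℤ) ≠ 0 := by exact_mod_cast NeZero.ne p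
  have hppos : (0 : ℤ) < p := by exact_mod_cast Nat.pos_of_ne_zero (NeZero.ne p)
  -- write `r = p * a + i` with `0 ≤ i < p`
  have hi0 : (r % p).toNat < p := by
    have h1 : r % (p : ℤ) < p := Int.emod_lt_of_pos r hppos
    have h2 : 0 ≤ r % (p : ℤ) := Int.emod_nonneg r hp0
    omega
  set i : Fin p := ⟨(r % p).toNat, hi0⟩ with hi
  set a : ℤ := r / p with ha
  have hr : r = (p : ℤ) * a + (i : ℕ) := by
    have h2 : 0 ≤ r % (p : ℤ) := Int.emod_nonneg r hp0
    show r = (p : ℤ) * (r / p) + (((r % (p : ℤ)).toNat : ℕ) : ℤ)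
    rw [Int.toNat_of_nonneg h2]
    have := Int.emod_add_mul_ediv r p
    linarith
  -- `mp_sec p r y` is a shift of `mp_mat p y i 0`
  have hshift : ∀ y : LaurentSeries R, ∀ m : ℤ,
      (mp_sec p r y).coeff m = (mp_mat p y i ⟨0, Nat.pos_of_ne_zero (NeZero.ne p)⟩).coeff (m + a) := by
    intro y m
    rw [mp_mat, mp_sec_coeff, mp_sec_coeff]
    congr 1
    rw [hr]
    push_cast
    ring
  ext m
  rw [hshift, kra_mat_mul, kra_mat_qExpand, Matrix.mul_apply, Finset.sum_eq_single i]
  · rw [Matrix.scalar_apply, Matrix.diagonal_apply_eq]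
    -- coefficient of a product with a shift
    have h1 : mp_sec p r x = HahnSeries.single (-a) (1 : R) *
        mp_mat p x i ⟨0, Nat.pos_of_ne_zero (NeZero.ne p)⟩ := by
      ext m'
      rw [hshift]
      have := HahnSeries.coeff_single_mul_add (r := (1 : R))
        (x := mp_mat p x i ⟨0, Nat.pos_of_ne_zero (NeZero.ne p)⟩) (a := m' + a) (b := -a)
      rw [one_mul] at this
      rw [← this]
      congr 1
      ring
    rw [h1, show g * (HahnSeries.single (-a) (1 : R) *
        mp_mat p x i ⟨0, Nat.pos_of_ne_zero (NeZero.ne p)⟩) = HahnSeries.single (-a) (1 : R) *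
        (g * mp_mat p x i ⟨0, Nat.pos_of_ne_zero (NeZero.ne p)⟩) by ring]
    have := HahnSeries.coeff_single_mul_add (r := (1 : R))
      (x := g * mp_mat p x i ⟨0, Nat.pos_of_ne_zero (NeZero.ne p)⟩) (a := m + a) (b := -a)
    rw [one_mul] at this
    rw [← this]
    congr 1
    ring
  · intro j _ hj
    rw [Matrix.scalar_apply, Matrix.diagonal_apply_ne _ hj.symm, zero_mul]
  · intro h
    exact absurd (Finset.mem_univ _) h

theorem kra_sec_add (r : ℤ) (x y : LaurentSeries R) :
    mp_sec p r (x + y) = mp_sec p r x + mp_sec p r y := by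
  ext m
  simp

/-- the expansion `x = ∑_i t^i x_i(t^p)`, `x_i` the `i`-th section -/
theorem kra_sum_sec (x : LaurentSeries R) :
    ∑ i : Fin p, HahnSeries.single ((i : ℕ) : ℤ) (1 : R) * qExpand R p (mp_sec p ((i : ℕ) : ℤ) x)
      = x := by
  have h := mp_eigen p x ⟨0, Nat.pos_of_ne_zero (NeZero.ne p)⟩
  have h0 : (HahnSeries.single (((⟨0, Nat.pos_of_ne_zero (NeZero.ne p)⟩ : Fin p) : ℕ) : ℤ)
      (1 : R)) = 1 := rfl
  rw [h0, mul_one] at h
  conv_rhs => rw [h]
  refine Finset.sum_congr rfl fun i _ => ?_
  rw [mp_mat]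
  congr 3

/-- coordinates in the basis `1, t, …, t^{p-1}` -/
def kra_coordEquiv : kra_Top R p ≃ₗ[LaurentSeries R] (Fin p → LaurentSeries R) where
  toFun x := fun i => mp_sec p ((i : ℕ) : ℤ) (kra_Top_equiv p x)
  map_add' x y := by
    funext i
    exact kra_sec_add p _ _ _
  map_smul' g x := by
    funext i
    exact kra_sec_qExpand_mul p _ g _
  invFun a := (kra_Top_equiv p).symm
    (∑ i : Fin p, HahnSeries.single ((i : ℕ) : ℤ) (1 : R) * qExpand R p (a i))
  left_inv x := by
    apply (kra_Top_equiv p).injective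
    rw [RingEquiv.apply_symm_apply]
    exact kra_sum_sec p _
  right_inv a := by
    funext i
    ext m
    show (mp_sec p ((i : ℕ) : ℤ) (kra_Top_equiv p ((kra_Top_equiv p).symm _))).coeff m = _
    rw [RingEquiv.apply_symm_apply, mp_sec_coeff]
    exact kra_coeff_sum p a i m

theorem kra_coordEquiv_symm_apply (a : Fin p → LaurentSeries R) :
    kra_Top_equiv p ((kra_coordEquiv p).symm a) =
      ∑ i : Fin p, HahnSeries.single ((i : ℕ) : ℤ) (1 : R) * qExpand R p (a i) := rfl

/-- the basis `1, t, …, t^{p-1}` of `R((t))` over `R((t^p))` -/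
def kra_basis : Module.Basis (Fin p) (LaurentSeries R) (kra_Top R p) :=
  Module.Basis.ofEquivFun (kra_coordEquiv p)

theorem kra_basis_repr (x : kra_Top R p) (i : Fin p) :
    (kra_basis p).repr x i = mp_sec p ((i : ℕ) : ℤ) (kra_Top_equiv p x) := rfl

theorem kra_basis_apply (i : Fin p) :
    kra_Top_equiv p (kra_basis p i) = HahnSeries.single ((i : ℕ) : ℤ) (1 : R) := by
  classical
  rw [kra_basis, Module.Basis.coe_ofEquivFun, kra_coordEquiv_symm_apply, Finset.sum_eq_single i]
  · rw [Pi.single_eq_same, RingHom.map_one, mul_one]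
  · intro j _ hj
    rw [Pi.single_eq_of_ne hj, RingHom.map_zero, mul_zero]
  · intro h
    exact absurd (Finset.mem_univ _) h

/-- **the matrix of multiplication by `x`** in the basis `1, t, …, t^{p-1}` is `mp_mat p x` -/
theorem kra_leftMulMatrix (x : kra_Top R p) :
    Algebra.leftMulMatrix (kra_basis p) x = mp_mat p (kra_Top_equiv p x) := by
  ext i j : 2
  rw [Algebra.leftMulMatrix_eq_repr_mul, kra_basis_repr, map_mul, kra_basis_apply]
  ext m
  rw [mp_mat, mp_sec_coeff, mp_sec_coeff]
  have := HahnSeries.coeff_mul_single_add (r := (1 : R)) (x := kra_Top_equiv p x)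
    (a := (p : ℤ) * m + (i : ℕ) - (j : ℕ)) (b := ((j : ℕ) : ℤ))
  rw [sub_add_cancel, mul_one] at this
  rw [this]
  congr 1
  ring

instance kra_Top_free : Module.Free (LaurentSeries R) (kra_Top R p) :=
  Module.Free.of_basis (kra_basis p)

instance kra_Top_finite : Module.Finite (LaurentSeries R) (kra_Top R p) :=
  Module.Finite.of_basis (kra_basis p)

/-- **the norm of `R((t))` over `R((t^p))`** is `det (mp_mat p x)` -/
theorem kra_norm_eq (x : kra_Top R p) :
    Algebra.norm (LaurentSeries R) x = (mp_mat p (kra_Top_equiv p x)).det := by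
  rw [Algebra.norm_eq_matrix_det (kra_basis p), kra_leftMulMatrix]

theorem kra_trace_eq (x : kra_Top R p) :
    Algebra.trace (LaurentSeries R) (kra_Top R p) x = (mp_mat p (kra_Top_equiv p x)).trace := by
  rw [Algebra.trace_eq_matrix_trace (kra_basis p), kra_leftMulMatrix]

/-- the characteristic polynomial of multiplication by `x` is `charpoly (mp_mat p x)` -/
theorem kra_charpoly_eq (x : kra_Top R p) :
    (Algebra.lmul (LaurentSeries R) (kra_Top R p) x).charpoly =
      (mp_mat p (kra_Top_equiv p x)).charpoly := by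
  rw [← kra_leftMulMatrix, ← LinearMap.charpoly_toMatrix _ (kra_basis p)]
  rfl

end ring

section field

variable {K : Type*} [Field K] (p : ℕ) [NeZero p]

instance kra_Top_field : Field (kra_Top K p) := inferInstanceAs (Field (LaurentSeries K))

example : (kra_Top_field (K := K) p).toCommRing = kra_Top_commRing p := rfl

theorem kra_finrank : Module.finrank (LaurentSeries K) (kra_Top K p) = p := by
  rw [Module.finrank_eq_card_basis (kra_basis p), Fintype.card_fin]

theorem kra_finiteDimensional : FiniteDimensional (LaurentSeries K) (kra_Top K p) :=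
  kra_Top_finite p

theorem kra_charZero_laurent [CharZero K] : CharZero (LaurentSeries K) :=
  charZero_of_injective_ringHom (f := (HahnSeries.C : K →+* LaurentSeries K))
    HahnSeries.C_injective

/-- in characteristic `0` the extension `K((t))/K((t^p))` is separable -/
theorem kra_isSeparable [CharZero K] : Algebra.IsSeparable (LaurentSeries K) (kra_Top K p) := by
  haveI : CharZero (LaurentSeries K) := kra_charZero_laurent
  exact Algebra.IsSeparable.of_integral _ _

/-- **product over the conjugates**: for an algebraically closed `Ω ⊇ K((t^p))` (char. `0`),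
`∏_σ σ x = det (mp_mat p x)` where `σ` runs over the `K((t^p))`-embeddings of `K((t))` in `Ω`. -/
theorem kra_prod_embeddings [CharZero K] (Ω : Type*) [Field Ω] [IsAlgClosed Ω]
    [Algebra (LaurentSeries K) Ω] (x : kra_Top K p) :
    ∏ σ : kra_Top K p →ₐ[LaurentSeries K] Ω, σ x =
      algebraMap (LaurentSeries K) Ω (mp_mat p (kra_Top_equiv p x)).det := by
  haveI := kra_isSeparable (K := K) p
  haveI := kra_finiteDimensional (K := K) p
  rw [← kra_norm_eq, Algebra.norm_eq_prod_embeddings]

/-- the number of conjugates is `p` -/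
theorem kra_card_embeddings [CharZero K] (Ω : Type*) [Field Ω] [IsAlgClosed Ω]
    [Algebra (LaurentSeries K) Ω] :
    Fintype.card (kra_Top K p →ₐ[LaurentSeries K] Ω) = p := by
  haveI := kra_isSeparable (K := K) p
  haveI := kra_finiteDimensional (K := K) p
  rw [AlgHom.card, kra_finrank]

end field

end

end Fermat.Agent.S37x
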