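/-
S37x/KraGauss (helper12), leaf of S37 [B3] (input (KR) of STEP 6, Gauss-ring level).

`ga_W A π ⊂ L((q))` is the Gauss valuation ring of a valuation subring `A ⊂ L` (helper19,
S18x/GaussA), `ga_rho A π : ga_W A π →+* k((q))` its residue map.  We show that the Gauss ring is
stable under `x ↦ x(q^p)`, `x ↦ det (mp_mat p x)` (the norm of `L((q))/L((q^p))`) and
`x ↦ kra_nc p c x = (c - x(q^p)) det (mp_mat p (c - x))`, `c ∈ A`, compatibly with `ρ`:

* `kra_qExpand_mem_W`, `kra_rho_qExpand` : `ρ (x(q^p)) = (ρ x)(q^p)`;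
* `kra_det_mem_W`, `kra_rho_det`         : `ρ (det (mp_mat p x)) = det (mp_mat p (ρ x))`;
* `kra_nc_mem_W`, `kra_rho_nc`           : `ρ (kra_nc p c x) = kra_nc p (π c) (ρ x)`;
* `kra_rho_nc_charP` : if `k` has characteristic `p`:
  `ρ (kra_nc p c x) = (π c - (ρ x)(q^p)) · ((π c)^p - (ρ x)^φ)`  — the EICHLER–SHIMURA shape
  `(c̄ - ȳ(σQ)) (c̄ - ȳ(σ⁻¹Q))^p` after evaluation at a place.
-/
import Mathlib
import Fermat.Agent.S37x.KraGlue
import Fermat.Agent.S37x.KraNorm
import Fermat.Agent.S18x.GaussA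

set_option autoImplicit false

open HahnSeries ModularCurve Polynomial

namespace Fermat.Agent.S37x

open Fermat.Agent.S28x Fermat.Agent.S18x

noncomputable section

section field

variable {k : Type*} [Field k] (p : ℕ) [NeZero p]

/-- the norm of a non-zero series is non-zero -/
theorem kra_det_ne_zero {x : LaurentSeries k} (hx : x ≠ 0) : (mp_mat p x).det ≠ 0 := by
  have h := kra_norm_eq p ((kra_Top_equiv p).symm x : kra_Top k p)
  rw [RingEquiv.apply_symm_apply] at h
  rw [← h]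
  intro h0
  rw [Algebra.norm_eq_zero_iff] at h0
  apply hx
  have := congrArg (kra_Top_equiv p) h0
  rwa [RingEquiv.apply_symm_apply, map_zero] at this

/-- `det ∘ mp_mat p` is multiplicative -/
theorem kra_det_mul {R : Type*} [CommRing R] (x y : LaurentSeries R) :
    (mp_mat p (x * y)).det = (mp_mat p x).det * (mp_mat p y).det := by
  rw [kra_mat_mul, Matrix.det_mul]

theorem kra_det_div (x y : LaurentSeries k) (hy : y ≠ 0) :
    (mp_mat p (x / y)).det = (mp_mat p x).det / (mp_mat p y).det := by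
  rw [eq_div_iff (kra_det_ne_zero p hy), ← kra_det_mul, div_mul_cancel₀ _ hy]

/-- `det ∘ mp_mat p` commutes with change of coefficients -/
theorem kra_det_coeffMap {R S : Type*} [CommRing R] [CommRing S] (φ : R →+* S)
    (x : LaurentSeries R) :
    (mp_mat p (coeffMap φ x)).det = coeffMap φ (mp_mat p x).det := by
  rw [mp_mat_coeffMap, RingHom.map_det, RingHom.mapMatrix_apply]

end field

section gauss

variable {L : Type*} [Field L] (A : ValuationSubring L) {k : Type*} [Field k] (π : A →+* k)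
variable (p : ℕ) [NeZero p]

theorem kra_red_qExpand_ne_zero {b : LaurentSeries A} (hb : ga_red A π b ≠ 0) :
    ga_red A π (qExpand A p b) ≠ 0 := by
  have hb2 : coeffMap π b ≠ 0 := hb
  show coeffMap π (qExpand A p b) ≠ 0
  rw [coeffMap_qExpand]
  intro h0
  exact hb2 (qExpand_injective p (by rw [h0, map_zero]))

theorem kra_iota_qExpand_eq {x : LaurentSeries L} {a b : LaurentSeries A}
    (h : x * ga_iota A b = ga_iota A a) :
    qExpand L p x * ga_iota A (qExpand A p b) = ga_iota A (qExpand A p a) := by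
  show qExpand L p x * coeffMap A.subtype (qExpand A p b) = coeffMap A.subtype (qExpand A p a)
  rw [coeffMap_qExpand, coeffMap_qExpand, ← map_mul]
  exact congrArg _ h

theorem kra_qExpand_mem_W {x : LaurentSeries L} (hx : x ∈ ga_W A π) :
    qExpand L p x ∈ ga_W A π := by
  obtain ⟨a, b, hb, h⟩ := hx
  exact ⟨qExpand A p a, qExpand A p b, kra_red_qExpand_ne_zero A π p hb,
    kra_iota_qExpand_eq A p h⟩

theorem kra_rho_qExpand {x : LaurentSeries L} (hx : x ∈ ga_W A π) :
    ga_rho A π ⟨qExpand L p x, kra_qExpand_mem_W A π p hx⟩ =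
      qExpand k p (ga_rho A π ⟨x, hx⟩) := by
  have hx' := hx
  obtain ⟨a, b, hb, h⟩ := hx'
  rw [ga_rho_eq A π ⟨qExpand L p x, kra_qExpand_mem_W A π p hx⟩
      (kra_red_qExpand_ne_zero A π p hb) (kra_iota_qExpand_eq A p h),
    ga_rho_eq A π ⟨x, hx⟩ hb h, map_div₀]
  show coeffMap π (qExpand A p a) / coeffMap π (qExpand A p b) = _
  rw [coeffMap_qExpand, coeffMap_qExpand]
  rfl

theorem kra_red_det_ne_zero {b : LaurentSeries A} (hb : ga_red A π b ≠ 0) :
    ga_red A π (mp_mat p b).det ≠ 0 := by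
  have hb2 : coeffMap π b ≠ 0 := hb
  show coeffMap π (mp_mat p b).det ≠ 0
  rw [← kra_det_coeffMap]
  exact kra_det_ne_zero p hb2

theorem kra_iota_det_eq {x : LaurentSeries L} {a b : LaurentSeries A}
    (h : x * ga_iota A b = ga_iota A a) :
    (mp_mat p x).det * ga_iota A (mp_mat p b).det = ga_iota A (mp_mat p a).det := by
  show (mp_mat p x).det * coeffMap A.subtype (mp_mat p b).det =
    coeffMap A.subtype (mp_mat p a).det
  rw [← kra_det_coeffMap, ← kra_det_coeffMap, ← kra_det_mul]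
  exact congrArg (fun z => (mp_mat p z).det) h

theorem kra_det_mem_W {x : LaurentSeries L} (hx : x ∈ ga_W A π) :
    (mp_mat p x).det ∈ ga_W A π := by
  obtain ⟨a, b, hb, h⟩ := hx
  exact ⟨(mp_mat p a).det, (mp_mat p b).det, kra_red_det_ne_zero A π p hb,
    kra_iota_det_eq A p h⟩

theorem kra_rho_det {x : LaurentSeries L} (hx : x ∈ ga_W A π) :
    ga_rho A π ⟨(mp_mat p x).det, kra_det_mem_W A π p hx⟩ =
      (mp_mat p (ga_rho A π ⟨x, hx⟩)).det := by
  have hx' := hx
  obtain ⟨a, b, hb, h⟩ := hx'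
  have hb2 : coeffMap π b ≠ 0 := hb
  rw [ga_rho_eq A π ⟨(mp_mat p x).det, kra_det_mem_W A π p hx⟩
      (kra_red_det_ne_zero A π p hb) (kra_iota_det_eq A p h),
    ga_rho_eq A π ⟨x, hx⟩ hb h]
  show coeffMap π (mp_mat p a).det / coeffMap π (mp_mat p b).det =
    (mp_mat p (coeffMap π a / coeffMap π b)).det
  rw [kra_det_div p _ _ hb2, ← kra_det_coeffMap, ← kra_det_coeffMap]

theorem kra_nc_mem_W (c : A) {x : LaurentSeries L} (hx : x ∈ ga_W A π) :
    kra_nc p (c : L) x ∈ ga_W A π :=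
  (ga_W A π).mul_mem ((ga_W A π).sub_mem (ga_C_mem_W A π c) (kra_qExpand_mem_W A π p hx))
    (kra_det_mem_W A π p ((ga_W A π).sub_mem (ga_C_mem_W A π c) hx))

/-- **`kra_nc` commutes with the residue map of the Gauss ring** -/
theorem kra_rho_nc (c : A) {x : LaurentSeries L} (hx : x ∈ ga_W A π) :
    ga_rho A π ⟨kra_nc p (c : L) x, kra_nc_mem_W A π p c hx⟩ =
      kra_nc p (π c) (ga_rho A π ⟨x, hx⟩) := by
  have h1 : (⟨kra_nc p (c : L) x, kra_nc_mem_W A π p c hx⟩ : ga_W A π) =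
      (⟨HahnSeries.C (c : L), ga_C_mem_W A π c⟩ -
        ⟨qExpand L p x, kra_qExpand_mem_W A π p hx⟩) *
      ⟨(mp_mat p (HahnSeries.C (c : L) - x)).det,
        kra_det_mem_W A π p ((ga_W A π).sub_mem (ga_C_mem_W A π c) hx)⟩ := rfl
  have h2 : (⟨HahnSeries.C (c : L) - x, (ga_W A π).sub_mem (ga_C_mem_W A π c) hx⟩ : ga_W A π) =
      ⟨HahnSeries.C (c : L), ga_C_mem_W A π c⟩ - ⟨x, hx⟩ := rfl
  rw [h1, map_mul, map_sub, ga_rho_C, kra_rho_qExpand,
    kra_rho_det A π p ((ga_W A π).sub_mem (ga_C_mem_W A π c) hx), h2, map_sub, ga_rho_C, kra_nc]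

/-- **the Eichler–Shimura shape of the reduction** (`k` of characteristic `p`) -/
theorem kra_rho_nc_charP [hp : Fact p.Prime] [CharP k p] (c : A) {x : LaurentSeries L}
    (hx : x ∈ ga_W A π) :
    ga_rho A π ⟨kra_nc p (c : L) x, kra_nc_mem_W A π p c hx⟩ =
      ((HahnSeries.C (π c) : LaurentSeries k) - qExpand k p (ga_rho A π ⟨x, hx⟩)) *
        ((HahnSeries.C (π c ^ p) : LaurentSeries k) -
          coeffMap (frobenius k p) (ga_rho A π ⟨x, hx⟩)) := by
  rw [kra_rho_nc, kra_nc_charP]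

end gauss

end

end Fermat.Agent.S37x
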