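/-
S37 block [B3], helper3 route, row 28 (ES-hL), sub-lemmas (ii) + (iii) at the SERIES level
(helper54), prefix `es3ls_`.  On top of helper60's `S37x/EsConjAL.lean` (`esca_`), helper63's
`S37x/EsZetaFree.lean` (`esz_`) and helper12's `S37x/KraGauss.lean` (`kra_`).

Abstract situation of `esc_norm_eq`: `F ≤ E ≤ L((q))`, `β = (q ↦ q^ℓ) : F → E` of degree `ℓ + 1`,
`α` = the inclusion `F ≤ E`.  For `u : F` put `h := N_{E/αF} (β u) ∈ F` (norm for the algebra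
structure given by `α`; this is the function with `div h = T_ℓ (div u)`, see `S37x/Es3LiftDiv.lean`).

* `es3ls_norm_series` (ii)  : `h = u(q^ℓ) · det (mp_mat ℓ u)` in `L((q))` (zeta-free form of
  `h(q^ℓ) = u(q^{ℓ²}) ∏_i u(ζ^i q)`);
* `es3ls_mem_W`, `es3ls_rho` (iii) : if `u` lies in the Gauss ring `ga_W A π` then so does `h`, and
  `ρ h = (ρ u)(q^ℓ) · det (mp_mat ℓ (ρ u))`;
* `es3ls_rho_charP` : if moreover `k` has characteristic `ℓ`:
  `ρ h = (ρ u)(q^ℓ) · (ρ u)^φ` (`^φ` = coefficientwise Frobenius).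
-/
import Mathlib
import Fermat.Agent.S37x.EsConjAL
import Fermat.Agent.S37x.EsZetaFree
import Fermat.Agent.S37x.KraGauss

set_option autoImplicit false
set_option linter.unusedSectionVars false
set_option linter.style.haveILetI false

namespace Fermat.Agent.S37x

open ModularCurve HahnSeries Module Polynomial
open Fermat.Agent.S28x Fermat.Agent.S18x

noncomputable section

variable {L : Type*} [Field L] [CharZero L] (ℓ : ℕ) [Fact ℓ.Prime]

/-- **(ii)**: the `q`-expansion of `h = N_{E/αF}(β u)` is `u(q^ℓ) · det (mp_mat ℓ u)`. -/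
theorem es3ls_norm_series (ζ : Lˣ) (hζ : IsPrimitiveRoot ζ ℓ)
    (F E : IntermediateField L (LaurentSeries L)) (hFE : F ≤ E) (β : F →ₐ[L] E)
    (hβ : ∀ z : F, ((β z : E) : (LaurentSeries L)) = qExpand L ℓ (z : (LaurentSeries L)))
    (hdeg : letI := β.toRingHom.toAlgebra; finrank F E = ℓ + 1)
    (G : Set (LaurentSeries L)) (hG : IntermediateField.adjoin L G = F) (hGne : G.Nonempty)
    (hGS : ∀ g ∈ G, g ∉ Set.range (qExpand L ℓ))
    (hGP : ∀ g ∈ G, ∃ P : Polynomial F, P.Monic ∧ P.natDegree = ℓ + 1 ∧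
      (P.map (esc_SF ℓ F)).eval g = 0 ∧
      (P.map (esc_SF ℓ F)).eval (qExpand L ℓ (qExpand L ℓ g)) = 0) (u : F) :
    ((@Algebra.norm F E _ _ (IntermediateField.inclusion hFE).toRingHom.toAlgebra (β u) : F) :
        LaurentSeries L) =
      qExpand L ℓ (u : LaurentSeries L) * (mp_mat ℓ (u : LaurentSeries L)).det := by
  haveI : NeZero ℓ := ⟨(Fact.out : ℓ.Prime).ne_zero⟩
  rw [esca_norm_swap ℓ ζ hζ F E hFE β hβ hdeg G hG hGne hGS hGP u]
  obtain ⟨τ, -, h2, h3, -⟩ := esca_exists_tau ℓ ζ hζ F E hFE β hβ hdeg G hG hGne hGS hGP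
  have h := h3 (IntermediateField.inclusion hFE u)
  rw [hβ, h2] at h
  have hprod : ∏ i : ZMod ℓ, esc_R ℓ ζ i ((IntermediateField.inclusion hFE u : E) : LaurentSeries L)
      = qExpand L ℓ (mp_mat ℓ (u : LaurentSeries L)).det := by
    have hζ' : IsPrimitiveRoot ((ζ : Lˣ) : L) ℓ := IsPrimitiveRoot.coe_units_iff.mpr hζ
    exact esz_prod_zmod ℓ ζ hζ' (u : LaurentSeries L)
  rw [hprod, ← map_mul] at h
  exact qExpand_injective ℓ h

section gauss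

variable (A : ValuationSubring L) {k : Type*} [Field k] (π : A →+* k)

/-- **(iii), membership**: `u ∈ W ⇒ u(q^ℓ) · det (mp_mat ℓ u) ∈ W`. -/
theorem es3ls_mem_W {x : LaurentSeries L} (hx : x ∈ ga_W A π) :
    qExpand L ℓ x * (mp_mat ℓ x).det ∈ ga_W A π :=
  haveI : NeZero ℓ := ⟨(Fact.out : ℓ.Prime).ne_zero⟩
  (ga_W A π).mul_mem (kra_qExpand_mem_W A π ℓ hx) (kra_det_mem_W A π ℓ hx)

/-- **(iii), reduction**: `ρ (u(q^ℓ) · det (mp_mat ℓ u)) = (ρ u)(q^ℓ) · det (mp_mat ℓ (ρ u))`. -/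
theorem es3ls_rho {x : LaurentSeries L} (hx : x ∈ ga_W A π) :
    ga_rho A π ⟨qExpand L ℓ x * (mp_mat ℓ x).det, es3ls_mem_W ℓ A π hx⟩ =
      qExpand k ℓ (ga_rho A π ⟨x, hx⟩) * (mp_mat ℓ (ga_rho A π ⟨x, hx⟩)).det := by
  haveI : NeZero ℓ := ⟨(Fact.out : ℓ.Prime).ne_zero⟩
  have h : (⟨qExpand L ℓ x * (mp_mat ℓ x).det, es3ls_mem_W ℓ A π hx⟩ : ga_W A π) =
      ⟨qExpand L ℓ x, kra_qExpand_mem_W A π ℓ hx⟩ * ⟨(mp_mat ℓ x).det, kra_det_mem_W A π ℓ hx⟩ :=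
    rfl
  rw [h, map_mul, kra_rho_qExpand, kra_rho_det]

/-- **(iii), characteristic `ℓ`**: `ρ h = (ρ u)(q^ℓ) · (ρ u)^φ`. -/
theorem es3ls_rho_charP [CharP k ℓ] {x : LaurentSeries L} (hx : x ∈ ga_W A π) :
    ga_rho A π ⟨qExpand L ℓ x * (mp_mat ℓ x).det, es3ls_mem_W ℓ A π hx⟩ =
      qExpand k ℓ (ga_rho A π ⟨x, hx⟩) * coeffMap (frobenius k ℓ) (ga_rho A π ⟨x, hx⟩) := by
  rw [es3ls_rho, kra_det_charP]

end gauss

/-- **(ii) + (iii) together**, abstract form: for `u : F` whose series lies in the Gauss ring,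
`h = N_{E/αF}(β u)` lies in the Gauss ring and `ρ h = (ρ u)(q^ℓ) · (ρ u)^φ`. -/
theorem es3ls_norm_mem_W_and_rho (ζ : Lˣ) (hζ : IsPrimitiveRoot ζ ℓ)
    (F E : IntermediateField L (LaurentSeries L)) (hFE : F ≤ E) (β : F →ₐ[L] E)
    (hβ : ∀ z : F, ((β z : E) : (LaurentSeries L)) = qExpand L ℓ (z : (LaurentSeries L)))
    (hdeg : letI := β.toRingHom.toAlgebra; finrank F E = ℓ + 1)
    (G : Set (LaurentSeries L)) (hG : IntermediateField.adjoin L G = F) (hGne : G.Nonempty)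
    (hGS : ∀ g ∈ G, g ∉ Set.range (qExpand L ℓ))
    (hGP : ∀ g ∈ G, ∃ P : Polynomial F, P.Monic ∧ P.natDegree = ℓ + 1 ∧
      (P.map (esc_SF ℓ F)).eval g = 0 ∧
      (P.map (esc_SF ℓ F)).eval (qExpand L ℓ (qExpand L ℓ g)) = 0)
    (A : ValuationSubring L) {k : Type*} [Field k] [CharP k ℓ] (π : A →+* k) (u : F)
    (hu : (u : LaurentSeries L) ∈ ga_W A π) :
    ∃ hh : ((@Algebra.norm F E _ _ (IntermediateField.inclusion hFE).toRingHom.toAlgebra (β u) : F) :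
        LaurentSeries L) ∈ ga_W A π,
      ga_rho A π ⟨_, hh⟩ =
        qExpand k ℓ (ga_rho A π ⟨_, hu⟩) * coeffMap (frobenius k ℓ) (ga_rho A π ⟨_, hu⟩) := by
  have hs := es3ls_norm_series ℓ ζ hζ F E hFE β hβ hdeg G hG hGne hGS hGP u
  have hmem := es3ls_mem_W ℓ A π hu
  refine ⟨hs ▸ hmem, ?_⟩
  rw [← es3ls_rho_charP ℓ A π hu]
  exact ga_rho_congr A π hs _ _

end

end Fermat.Agent.S37x
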