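/-
S37 block B3, helper3 route (docs `S37_B3_ES_from_COMPAT_helper3`), leaf L3: the ABSTRACT LOCALISATION LEMMA.

Setting: `ts_Hyp A π W ρ r` (S18x/TsBasic): a Gauss-type valuation ring `W` of `F` with residue map `ρ : W → Fb` and a place map
`r : Place L F → Place k Fb` which is compatible with divisors of `W`-units (COMPAT).  Let `T : Div F → Div F` and
`Φ : Div Fb → Div Fb` be additive maps such that for every `u ∈ W` with `ρ u ≠ 0` there is `h ∈ W`, `ρ h ≠ 0`, with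
`div h = T (div u)` and `div (ρ h) = Φ (div (ρ u))`  (for the Eichler–Shimura congruence: `h = Norm (β u)`,
`T = T_ℓ`, `Φ = Frob_* + ℓ Frob_*⁻¹`; for the Galois compatibility: `h = s • u`, `T = s_*`, `Φ = (σ_s)_*`).
Then the defect `E := r_* ∘ T - Φ ∘ r_*` kills every `div u`.  If moreover
* the support of `E (P)` is contained in a "neighbourhood" `Θ (r P)` such that every place lies in only finitely many `Θ Q`,
* `𝒮` is a set of places of `Fb` (the "other chart") with `Q' ∈ Θ Q → (Q' ∈ 𝒮 ↔ Q ∈ 𝒮)`,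
* functions separate: for `r P ∉ 𝒮` and a finite set `S ∌ r P` there is `u ∈ W` vanishing at `P`, whose reduction has a SIMPLE zero
  at `r P`, no zero on `S`, and whose poles all reduce into `𝒮`,
then `E (P) = 0` for every place `P` with `r P ∉ 𝒮`, i.e. `r_* (T P) = Φ (r P)` as DIVISORS.
-/
import Mathlib
import Fermat.Agent.S18x.TsBasic

set_option autoImplicit false

namespace Fermat.Agent.S37x

open AlgebraicCurve Fermat.Agent.S18x

variable {L k F Fb : Type*} [Field L] [Field k] [Field F] [Field Fb] [Algebra L F] [Algebra k Fb]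
variable {A : ValuationSubring L} {π : A →+* k} {W : ValuationSubring F} {ρ : W →+* Fb}
  {r : Place L F → Place k Fb}

/-- the defect `E = r_* ∘ T - Φ ∘ r_*` -/
noncomputable def es3_defect (r : Place L F → Place k Fb) (T : Divisor L F →+ Divisor L F)
    (Φ : Divisor k Fb →+ Divisor k Fb) : Divisor L F →+ Divisor k Fb :=
  (Finsupp.mapDomain.addMonoidHom r).comp T - Φ.comp (Finsupp.mapDomain.addMonoidHom r)

theorem es3_defect_apply (T : Divisor L F →+ Divisor L F) (Φ : Divisor k Fb →+ Divisor k Fb)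
    (D : Divisor L F) :
    es3_defect r T Φ D = Finsupp.mapDomain r (T D) - Φ (Finsupp.mapDomain r D) := rfl

/-- the hypothesis "`T` and `Φ` are induced by an operation on functions compatible with reduction" -/
def es3_Lifts (ρ : W →+* Fb) (T : Divisor L F →+ Divisor L F) (Φ : Divisor k Fb →+ Divisor k Fb) : Prop :=
  ∀ u : W, ρ u ≠ 0 → ∀ D : Divisor L F, (∀ P, D P = P.ord (u : F)) →
    ∀ Db : Divisor k Fb, (∀ Q, Db Q = Q.ord (ρ u)) →
      ∃ h : W, ρ h ≠ 0 ∧ (∀ P, T D P = P.ord (h : F)) ∧ (∀ Q, Φ Db Q = Q.ord (ρ h))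

/-- **Step 2**: the defect kills the divisor of every `u ∈ W` with nonzero reduction. -/
theorem es3_defect_div_eq_zero (H : ts_Hyp A π W ρ r) {T : Divisor L F →+ Divisor L F}
    {Φ : Divisor k Fb →+ Divisor k Fb} (hL : es3_Lifts ρ T Φ) (u : W) (hu : ρ u ≠ 0)
    (D : Divisor L F) (hD : ∀ P, D P = P.ord (u : F)) : es3_defect r T Φ D = 0 := by
  have hDb : ∀ Q, Finsupp.mapDomain r D Q = Q.ord (ρ u) := H.compat u hu D hD
  obtain ⟨h, hh, hT, hΦ⟩ := hL u hu D hD (Finsupp.mapDomain r D) hDb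
  have h2 : ∀ Q, Finsupp.mapDomain r (T D) Q = Q.ord (ρ h) := H.compat h hh (T D) hT
  rw [es3_defect_apply]
  ext Q
  rw [Finsupp.sub_apply, h2 Q, hΦ Q, sub_self, Finsupp.zero_apply]

/-- the defect of a divisor is the weighted sum of the defects of its points -/
theorem es3_defect_eq_sum (T : Divisor L F →+ Divisor L F) (Φ : Divisor k Fb →+ Divisor k Fb)
    (D : Divisor L F) (Q : Place k Fb) :
    es3_defect r T Φ D Q = ∑ P ∈ D.support, D P * es3_defect r T Φ (Finsupp.single P 1) Q := by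
  classical
  conv_lhs => rw [← Finsupp.sum_single D]
  rw [Finsupp.sum, map_sum, Finsupp.finsetSum_apply]
  refine Finset.sum_congr rfl fun P _ => ?_
  have : (Finsupp.single P (D P) : Divisor L F) = D P • Finsupp.single P 1 := by
    rw [Finsupp.smul_single, smul_eq_mul, mul_one]
  rw [this, map_zsmul, Finsupp.smul_apply, smul_eq_mul]

/-- **the abstract localisation lemma** -/
theorem es3_local (H : ts_Hyp A π W ρ r) (T : Divisor L F →+ Divisor L F)
    (Φ : Divisor k Fb →+ Divisor k Fb) (hL : es3_Lifts ρ T Φ)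
    (Θ : Place k Fb → Set (Place k Fb)) (𝒮 : Set (Place k Fb))
    (hΘ𝒮 : ∀ Q Q', Q' ∈ Θ Q → (Q' ∈ 𝒮 ↔ Q ∈ 𝒮))
    (hfin : ∀ Q', {Q | Q' ∈ Θ Q}.Finite)
    (hE : ∀ P Q', es3_defect r T Φ (Finsupp.single P 1) Q' ≠ 0 → Q' ∈ Θ (r P))
    (hsep : ∀ P, r P ∉ 𝒮 → ∀ S : Finset (Place k Fb), r P ∉ S →
      ∃ u : W, ρ u ≠ 0 ∧ 0 < P.ord (u : F) ∧ (r P).ord (ρ u) = 1 ∧
        (∀ P'', P''.ord (u : F) < 0 → r P'' ∈ 𝒮) ∧ ∀ Q ∈ S, Q.ord (ρ u) = 0)
    (P : Place L F) (hP : r P ∉ 𝒮) :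
    es3_defect r T Φ (Finsupp.single P 1) = 0 := by
  classical
  by_contra hne
  obtain ⟨Q', hQ'⟩ : ∃ Q', es3_defect r T Φ (Finsupp.single P 1) Q' ≠ 0 := by
    by_contra hall
    refine hne (Finsupp.ext fun Q => ?_)
    rw [Finsupp.zero_apply]
    by_contra h
    exact hall ⟨Q, h⟩
  have hQ'Θ : Q' ∈ Θ (r P) := hE P Q' hQ'
  have hQ'S : Q' ∉ 𝒮 := fun h => hP ((hΘ𝒮 (r P) Q' hQ'Θ).mp h)
  set B : Finset (Place k Fb) := (hfin Q').toFinset with hB
  obtain ⟨u, hu, huP, hu1, hupole, huS⟩ := hsep P hP (B.erase (r P)) (Finset.notMem_erase _ _)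
  have hu0 : (u : F) ≠ 0 := by
    intro h
    apply hu
    have : u = 0 := Subtype.ext h
    rw [this, map_zero]
  obtain ⟨D, hD⟩ := H.hpd (u : F) hu0
  have hzero := es3_defect_div_eq_zero H hL u hu D hD
  have hsum := es3_defect_eq_sum (r := r) T Φ D Q'
  rw [hzero, Finsupp.zero_apply] at hsum
  -- no poles in a disc outside `𝒮`
  have hreg : ∀ Q, Q ∉ 𝒮 → ∀ P'', r P'' = Q → P''.adicValuation (u : F) ≤ 1 := by
    intro Q hQ P'' hP''
    rw [P''.adicValuation_le_one_iff]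
    right
    by_contra hlt
    rw [not_le] at hlt
    exact hQ (hP'' ▸ hupole P'' hlt)
  -- in the disc of `r P` the only zero is `P`, simple
  have hdisc : ∀ P'', r P'' = r P → P'' ≠ P → D P'' = 0 := by
    have h1 : Finsupp.mapDomain r D (r P) = 1 := by rw [H.compat u hu D hD (r P), hu1]
    have hnn : ∀ a, r a = r P → 0 ≤ D a := by
      intro a ha
      rw [hD a]
      exact ((a.adicValuation_le_one_iff).mp (hreg (r P) hP a ha)).resolve_left hu0
    obtain ⟨a₀, _, ha₀1, ha₀⟩ := ts_disc_unique r D (r P) hnn h1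
    have hPa : P = a₀ := by
      by_contra hPa
      have := ha₀ P rfl hPa
      rw [hD P] at this
      omega
    intro P'' hP'' hne''
    exact ha₀ P'' hP'' (hPa ▸ hne'')
  -- all other terms of the sum vanish
  have hother : ∀ P'' ∈ D.support, P'' ≠ P →
      D P'' * es3_defect r T Φ (Finsupp.single P'' 1) Q' = 0 := by
    intro P'' hP''supp hP''ne
    by_contra hterm
    have hD'' : D P'' ≠ 0 := left_ne_zero_of_mul hterm
    have hE'' : es3_defect r T Φ (Finsupp.single P'' 1) Q' ≠ 0 := right_ne_zero_of_mul hterm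
    have hΘ'' : Q' ∈ Θ (r P'') := hE P'' Q' hE''
    have hS'' : r P'' ∉ 𝒮 := fun h => hQ'S ((hΘ𝒮 (r P'') Q' hΘ'').mpr h)
    have hBmem : r P'' ∈ B := by
      rw [hB, Set.Finite.mem_toFinset]
      exact hΘ''
    have hpos : 0 < D P'' := by
      rcases lt_trichotomy (D P'') 0 with hlt | heq | hgt
      · exact absurd (hupole P'' (by rw [← hD P'']; exact hlt)) hS''
      · exact absurd heq hD''
      · exact hgt
    have hvan : (r P'').adicValuation (ρ u) < 1 := by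
      refine H.van_of_disc u (r P'') (hreg (r P'') hS'') P'' rfl ?_
      rw [ts_val_lt_one_iff]
      right
      rw [← hD P'']
      omega
    have hord : 1 ≤ (r P'').ord (ρ u) := ((ts_val_lt_one_iff _).mp hvan).resolve_left hu
    by_cases hrr : r P'' = r P
    · exact hD'' (hdisc P'' hrr hP''ne)
    · have := huS (r P'') (Finset.mem_erase.mpr ⟨hrr, hBmem⟩)
      omega
  have hDP : D P = 1 := by
    have h1 : Finsupp.mapDomain r D (r P) = 1 := by rw [H.compat u hu D hD (r P), hu1]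
    have hnn : ∀ a, r a = r P → 0 ≤ D a := by
      intro a ha
      rw [hD a]
      exact ((a.adicValuation_le_one_iff).mp (hreg (r P) hP a ha)).resolve_left hu0
    obtain ⟨a₀, _, ha₀1, ha₀⟩ := ts_disc_unique r D (r P) hnn h1
    have hPa : P = a₀ := by
      by_contra hPa
      have := ha₀ P rfl hPa
      rw [hD P] at this
      omega
    rw [hPa]
    exact ha₀1
  have hPsupp : P ∈ D.support := by
    rw [Finsupp.mem_support_iff, hDP]
    exact one_ne_zero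
  rw [Finset.sum_eq_single_of_mem P hPsupp hother, hDP, one_mul] at hsum
  exact hQ' hsum.symm

/-- the conclusion in the form `r_* (T P) = Φ (r P)` -/
theorem es3_local_eq (H : ts_Hyp A π W ρ r) (T : Divisor L F →+ Divisor L F)
    (Φ : Divisor k Fb →+ Divisor k Fb) (hL : es3_Lifts ρ T Φ)
    (Θ : Place k Fb → Set (Place k Fb)) (𝒮 : Set (Place k Fb))
    (hΘ𝒮 : ∀ Q Q', Q' ∈ Θ Q → (Q' ∈ 𝒮 ↔ Q ∈ 𝒮))
    (hfin : ∀ Q', {Q | Q' ∈ Θ Q}.Finite)
    (hE : ∀ P Q', es3_defect r T Φ (Finsupp.single P 1) Q' ≠ 0 → Q' ∈ Θ (r P))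
    (hsep : ∀ P, r P ∉ 𝒮 → ∀ S : Finset (Place k Fb), r P ∉ S →
      ∃ u : W, ρ u ≠ 0 ∧ 0 < P.ord (u : F) ∧ (r P).ord (ρ u) = 1 ∧
        (∀ P'', P''.ord (u : F) < 0 → r P'' ∈ 𝒮) ∧ ∀ Q ∈ S, Q.ord (ρ u) = 0)
    (P : Place L F) (hP : r P ∉ 𝒮) :
    Finsupp.mapDomain r (T (Finsupp.single P 1)) = Φ (Finsupp.single (r P) 1) := by
  have h := es3_local H T Φ hL Θ 𝒮 hΘ𝒮 hfin hE hsep P hP
  rw [es3_defect_apply, Finsupp.mapDomain_single, sub_eq_zero] at h
  exact h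

/-- **global form**: if the localisation hypotheses hold for a set `𝒮` and for its complement, then
`r_* ∘ T = Φ ∘ r_*` on all divisors. -/
theorem es3_global (H : ts_Hyp A π W ρ r) (T : Divisor L F →+ Divisor L F)
    (Φ : Divisor k Fb →+ Divisor k Fb) (hL : es3_Lifts ρ T Φ)
    (Θ : Place k Fb → Set (Place k Fb)) (𝒮 : Set (Place k Fb))
    (hΘ𝒮 : ∀ Q Q', Q' ∈ Θ Q → (Q' ∈ 𝒮 ↔ Q ∈ 𝒮))
    (hfin : ∀ Q', {Q | Q' ∈ Θ Q}.Finite)
    (hE : ∀ P Q', es3_defect r T Φ (Finsupp.single P 1) Q' ≠ 0 → Q' ∈ Θ (r P))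
    (hsep : ∀ P, r P ∉ 𝒮 → ∀ S : Finset (Place k Fb), r P ∉ S →
      ∃ u : W, ρ u ≠ 0 ∧ 0 < P.ord (u : F) ∧ (r P).ord (ρ u) = 1 ∧
        (∀ P'', P''.ord (u : F) < 0 → r P'' ∈ 𝒮) ∧ ∀ Q ∈ S, Q.ord (ρ u) = 0)
    (hsep' : ∀ P, r P ∈ 𝒮 → ∀ S : Finset (Place k Fb), r P ∉ S →
      ∃ u : W, ρ u ≠ 0 ∧ 0 < P.ord (u : F) ∧ (r P).ord (ρ u) = 1 ∧
        (∀ P'', P''.ord (u : F) < 0 → r P'' ∉ 𝒮) ∧ ∀ Q ∈ S, Q.ord (ρ u) = 0)
    (D : Divisor L F) :
    Finsupp.mapDomain r (T D) = Φ (Finsupp.mapDomain r D) := by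
  classical
  have hpt : ∀ P, es3_defect r T Φ (Finsupp.single P 1) = 0 := by
    intro P
    by_cases hP : r P ∈ 𝒮
    · refine es3_local H T Φ hL Θ 𝒮ᶜ ?_ hfin hE ?_ P (fun h => h hP)
      · intro Q Q' hQ'
        rw [Set.mem_compl_iff, Set.mem_compl_iff, hΘ𝒮 Q Q' hQ']
      · intro P₁ hP₁ S hS
        have hP₁' : r P₁ ∈ 𝒮 := by
          by_contra h
          exact hP₁ h
        obtain ⟨u, h1, h2, h3, h4, h5⟩ := hsep' P₁ hP₁' S hS
        exact ⟨u, h1, h2, h3, fun P'' hP'' => h4 P'' hP'', h5⟩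
    · exact es3_local H T Φ hL Θ 𝒮 hΘ𝒮 hfin hE hsep P hP
  have h0 : es3_defect r T Φ D = 0 := by
    ext Q
    rw [es3_defect_eq_sum, Finsupp.zero_apply]
    refine Finset.sum_eq_zero fun P _ => ?_
    rw [hpt P, Finsupp.zero_apply, mul_zero]
  rw [es3_defect_apply, sub_eq_zero] at h0
  exact h0

end Fermat.Agent.S37x
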