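import Mathlib
import Fermat.Prelude.Def_ModularCurve_HeckeModule

/-!
# S37 [B3] STEP 5: unfolding the Hecke correspondence on places

* `hku_correspondence_single`: `Divisor.correspondence φ ψ (single P n)` is the sum over the places
  `W` of `F'` above `P` along `φ` of `single (W|_ψ) (n * e_φ(W) * f_ψ(W))`.
* `hku_inertiaDegAlong_eq_one`: `f_ψ(W) = 1` when all places have degree one.
* `hku_correspondence_single_of_deg_one`: the resulting formula
  `T (P) = ∑_{W |_φ P} e_φ(W) • (W|_ψ)`.
* `hku_degree_correspondence_single`: its degree is `[F' : φ F]` under the fundamental identity.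
* `hku_heckeOperatorBar_mk`: `heckeOperatorBar N ℓ (Pic0.mk D) = Pic0.mk (T_ℓ D)` for the divisor-level
  correspondence `T_ℓ = Divisor.correspondence β α`, given the Hecke inputs at `(N, ℓ)`.
-/

set_option autoImplicit false

namespace Fermat.Agent.S37x

open AlgebraicCurve ModularCurve

section Abstract

variable {K F F' : Type*} [Field K] [Field F] [Field F'] [Algebra K F] [Algebra K F']
variable [HasPrincipalDivisors K F']
variable (φ ψ : F →ₐ[K] F') (hφ : φ.toRingHom.IsIntegral) (hψ : ψ.toRingHom.IsIntegral)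

/-- The correspondence `ψ_* φ^*` on a single place. -/
theorem hku_correspondence_single (P : Place K F) (n : ℤ) :
    Divisor.correspondence φ ψ hφ hψ (Finsupp.single P n) =
      ∑ W ∈ Place.fiberAlong φ hφ P,
        Finsupp.single (W.restrictAlong ψ hψ)
          (n * W.ramificationIndexAlong φ * W.inertiaDegAlong ψ hψ) := by
  rw [Divisor.correspondence_apply, Divisor.pullbackAlong_single, map_sum]
  refine Finset.sum_congr rfl fun W _ => ?_
  rw [Divisor.pushforwardAlong_single]

omit [HasPrincipalDivisors K F'] in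
/-- If all places of `F` and `F'` have degree one then all inertia degrees are one. -/
theorem hku_inertiaDegAlong_eq_one (hF : ∀ v : Place K F, v.deg = 1)
    (hF' : ∀ w : Place K F', w.deg = 1) (W : Place K F') :
    W.inertiaDegAlong ψ hψ = 1 := by
  letI := algebraAlong ψ
  haveI := isScalarTower_along ψ
  haveI := isIntegral_along ψ hψ
  have h := W.deg_restrict_mul_inertiaDeg (F := F)
  rw [hF, hF', one_mul] at h
  exact h

/-- The correspondence on a single place when all places have degree one:
`T(P) = ∑_{W |_φ P} e_φ(W) • (W|_ψ)`. -/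
theorem hku_correspondence_single_of_deg_one (hF : ∀ v : Place K F, v.deg = 1)
    (hF' : ∀ w : Place K F', w.deg = 1) (P : Place K F) (n : ℤ) :
    Divisor.correspondence φ ψ hφ hψ (Finsupp.single P n) =
      ∑ W ∈ Place.fiberAlong φ hφ P,
        Finsupp.single (W.restrictAlong ψ hψ) (n * W.ramificationIndexAlong φ) := by
  rw [hku_correspondence_single]
  refine Finset.sum_congr rfl fun W _ => ?_
  rw [hku_inertiaDegAlong_eq_one ψ hψ hF hF' W, Nat.cast_one, mul_one]

/-- The value of `T(P)` at a place `Q`: the sum of the ramification indices `e_φ(W)` over the places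
`W` above `P` along `φ` which restrict to `Q` along `ψ`. -/
theorem hku_correspondence_single_apply [DecidableEq (Place K F)]
    (hF : ∀ v : Place K F, v.deg = 1)
    (hF' : ∀ w : Place K F', w.deg = 1) (P Q : Place K F) :
    Divisor.correspondence φ ψ hφ hψ (Finsupp.single P 1) Q =
      ∑ W ∈ Place.fiberAlong φ hφ P,
        if W.restrictAlong ψ hψ = Q then (W.ramificationIndexAlong φ : ℤ) else 0 := by
  rw [hku_correspondence_single_of_deg_one φ ψ hφ hψ hF hF', Finset.sum_apply']
  refine Finset.sum_congr rfl fun W _ => ?_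
  rw [one_mul, Finsupp.single_apply]

/-- Degree of `T(P)`. -/
theorem hku_degree_correspondence_single (hFI : FundamentalIdentityAlong K φ hφ)
    (P : Place K F) (n : ℤ) :
    Divisor.degree (Divisor.correspondence φ ψ hφ hψ (Finsupp.single P n)) =
      (finrankAlong K φ : ℤ) * (n * P.deg) := by
  rw [Divisor.degree_correspondence φ ψ hφ hψ hFI, Divisor.degree_single]

/-- `T(P)` is effective. -/
theorem hku_correspondence_single_nonneg (P : Place K F) (n : ℤ) (hn : 0 ≤ n) (Q : Place K F) :
    0 ≤ Divisor.correspondence φ ψ hφ hψ (Finsupp.single P n) Q := by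
  classical
  rw [hku_correspondence_single, Finset.sum_apply']
  refine Finset.sum_nonneg fun W _ => ?_
  rw [Finsupp.single_apply]
  split_ifs
  · positivity
  · exact le_rfl

/-- Every point in the support of `T(P)` is of the form `W|_ψ` with `W|_φ = P`. -/
theorem hku_exists_of_mem_support (P : Place K F) (n : ℤ) (Q : Place K F)
    (hQ : Divisor.correspondence φ ψ hφ hψ (Finsupp.single P n) Q ≠ 0) :
    ∃ W : Place K F', W.restrictAlong φ hφ = P ∧ W.restrictAlong ψ hψ = Q := by
  classical
  rw [hku_correspondence_single, Finset.sum_apply'] at hQ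
  obtain ⟨W, hW, hWQ⟩ := Finset.exists_ne_zero_of_sum_ne_zero hQ
  refine ⟨W, Place.mem_fiberAlong.mp hW, ?_⟩
  by_contra hne
  exact hWQ (Finsupp.single_eq_of_ne' hne)

end Abstract

section Modular

local notation "Q̄" => AlgebraicClosure ℚ

variable (N : ℕ) [NeZero N] (ℓ : Nat.Primes)

/-- The instance `NeZero ℓ` used by `heckeOperatorBar`. -/
theorem hku_neZero : NeZero (ℓ : ℕ) := ⟨ℓ.2.ne_zero⟩

/-- `heckeOperatorBar N ℓ` on the class of a degree-zero divisor, given the Hecke inputs. -/
theorem hku_heckeOperatorBar_mk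
    (hα : haveI := hku_neZero ℓ; HeckeAlphaBarIntegral Q̄ N ℓ)
    (hβ : haveI := hku_neZero ℓ; HeckeBetaBarIntegral Q̄ N ℓ)
    (hP : haveI := hku_neZero ℓ;
      HasPrincipalDivisors Q̄ (laurentBaseChange Q̄ (modularFunctionFieldFull (N * ℓ))))
    (hFI : haveI := hku_neZero ℓ;
      FundamentalIdentityAlong Q̄ (heckeBetaBar Q̄ N ℓ) hβ)
    (hfin : haveI := hku_neZero ℓ; FiniteAlong Q̄ (heckeAlphaBar Q̄ N ℓ))
    (hN : haveI := hku_neZero ℓ; NormFormulaAlong Q̄ (heckeAlphaBar Q̄ N ℓ) hfin)
    (D : Divisor.degZero (K := Q̄) (F := modularFunctionFieldBar N)) :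
    heckeOperatorBar N ℓ (Pic0.mk D) =
      (haveI := hku_neZero ℓ;
        Pic0.mk (Pic0.degZeroCorrespondence (heckeBetaBar Q̄ N ℓ) (heckeAlphaBar Q̄ N ℓ)
          hβ hα hFI D)) := by
  haveI := hku_neZero ℓ
  rw [heckeOperatorBar_apply, heckeOperatorAlong_eq hα hβ hFI hfin hN]
  rfl

end Modular

end Fermat.Agent.S37x
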