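/-
S37 block B3, helper3 route, leaf ES-hE (row 25 of `s37_plan`, helper56): the SUPPORT of the defect.

For the abstract localisation lemma `es3_global` (S37x/Es3Local) one needs a "neighbourhood" function
`Θ : Place k Fb → Set (Place k Fb)` and the set `𝒮` of poles of `jb = ρ J` with
* `hΘ𝒮`  : `Q' ∈ Θ Q → (Q' ∈ 𝒮 ↔ Q ∈ 𝒮)`,
* `hfin` : every `Q'` lies in only finitely many `Θ Q`,
* `hE`   : the defect `r_* (T P) - Φ (r P)` is supported in `Θ (r P)`.
Here `Θ Q` is the set of `Q'` such that either both `Q, Q'` are poles of `jb`, or `jb(Q) = x`, `jb(Q') = y`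
with `Ψ(y; x) = 0` or `y = x ^ ℓ` or `y ^ ℓ = x`  (`Ψ` = a two-variable integer polynomial, monic, e.g. the
modular polynomial `Φ_ℓ` of S28x `exists_modPoly`).  Everything is abstract (no modular curves).
-/
import Mathlib
import Fermat.Agent.S24x.PlaceBasic
import Fermat.Agent.S37x.Es3Local
import Fermat.Prelude.Def_AlgebraicCurve_Correspondence
import Fermat.Prelude.Def_AlgebraicCurve_BaseChangeGalois
import Fermat.Agent.S37x.HeckeUnfold
import Fermat.Agent.S37x.CoeffFrob

set_option autoImplicit false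

namespace Fermat.Agent.S37x

open AlgebraicCurve Fermat.Agent.S18x Polynomial

/-! ### the two-variable relation -/

section Rel

/-- the relation `Ψ(x; y) = 0` for a two-variable integer polynomial `Ψ ∈ ℤ[x][Y]`
(shape of S28x `exists_modPoly`). -/
def es3s_rel (Ψ : Polynomial (Polynomial ℤ)) {R : Type*} [CommRing R] (x y : R) : Prop :=
  Ψ.eval₂ (Polynomial.aeval (R := ℤ) x).toRingHom y = 0

variable {R S : Type*} [CommRing R] [CommRing S]

theorem es3s_comp_aeval (f : R →+* S) (x : R) :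
    f.comp (Polynomial.aeval (R := ℤ) x).toRingHom
      = (Polynomial.aeval (R := ℤ) (f x)).toRingHom := by
  refine Polynomial.ringHom_ext (fun a => ?_) ?_
  · simp
  · simp

theorem es3s_map_eval₂ (f : R →+* S) (Ψ : Polynomial (Polynomial ℤ)) (x y : R) :
    f (Ψ.eval₂ (Polynomial.aeval (R := ℤ) x).toRingHom y)
      = Ψ.eval₂ (Polynomial.aeval (R := ℤ) (f x)).toRingHom (f y) := by
  rw [Polynomial.hom_eval₂, es3s_comp_aeval]

theorem es3s_rel_map (f : R →+* S) {Ψ : Polynomial (Polynomial ℤ)} {x y : R}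
    (h : es3s_rel Ψ x y) : es3s_rel Ψ (f x) (f y) := by
  unfold es3s_rel at h ⊢
  rw [← es3s_map_eval₂, h, map_zero]

theorem es3s_rel_of_map (f : R →+* S) (hf : Function.Injective f)
    {Ψ : Polynomial (Polynomial ℤ)} {x y : R}
    (h : es3s_rel Ψ (f x) (f y)) : es3s_rel Ψ x y := by
  unfold es3s_rel at h ⊢
  rw [← es3s_map_eval₂] at h
  exact hf (by rw [h, map_zero])

/-- integrality: a valuation ring containing `a` contains every `b` with `Ψ(a; b) = 0`, `Ψ` monic. -/
theorem es3s_mem_of_rel {E : Type*} [Field E] (V : ValuationSubring E)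
    {Ψ : Polynomial (Polynomial ℤ)} (hΨ : Ψ.Monic) {a b : E} (ha : a ∈ V)
    (h : es3s_rel Ψ a b) : b ∈ V := by
  have hint : IsIntegral V b := by
    refine ⟨Ψ.map (Polynomial.aeval (R := ℤ) (⟨a, ha⟩ : V)).toRingHom, hΨ.map _, ?_⟩
    rw [Polynomial.eval₂_map, es3s_comp_aeval]
    exact h
  obtain ⟨y, hy⟩ := IsIntegrallyClosed.isIntegral_iff.mp hint
  rw [← hy]
  exact y.2

/-- for fixed `y` in a field, only finitely many `x` satisfy `Ψ(y; x) = 0` (`Ψ` monic). -/
theorem es3s_rel_finite {E : Type*} [Field E] {Ψ : Polynomial (Polynomial ℤ)} (hΨ : Ψ.Monic)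
    (y : E) : {x : E | es3s_rel Ψ y x}.Finite := by
  set p : Polynomial E := Ψ.map (Polynomial.aeval (R := ℤ) y).toRingHom with hp
  have hp0 : p ≠ 0 := (hΨ.map _).ne_zero
  refine (p.rootSet_finite E).subset fun x hx => ?_
  rw [Polynomial.mem_rootSet]
  refine ⟨hp0, ?_⟩
  have hx' : Ψ.eval₂ (Polynomial.aeval (R := ℤ) y).toRingHom x = 0 := hx
  rw [Polynomial.aeval_def, Algebra.algebraMap_self, Polynomial.eval₂_id, hp,
    Polynomial.eval_map]
  exact hx'

end Rel

/-! ### values at places -/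

section Values

variable {L F' : Type*} [Field L] [Field F'] [Algebra L F']

theorem es3s_val_le_one_of_value (W : Place L F') {x : F'} {d : L}
    (h : W.adicValuation (x - algebraMap L F' d) < 1) : W.adicValuation x ≤ 1 := by
  have hx : x = (x - algebraMap L F' d) + algebraMap L F' d := by ring
  rw [hx]
  exact (Valuation.map_add _ _ _).trans (max_le h.le (W.adicValuation_algebraMap_le_one d))

theorem es3s_ord_nonneg_of_value (W : Place L F') {x : F'} {d : L}
    (h : W.adicValuation (x - algebraMap L F' d) < 1) : 0 ≤ W.ord x := by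
  rcases (W.adicValuation_le_one_iff).mp (es3s_val_le_one_of_value W h) with h0 | h0
  · rw [h0, Place.ord_zero]
  · exact h0

theorem es3s_mem_of_val_le_one (W : Place L F') {x : F'} (h : W.adicValuation x ≤ 1) :
    x ∈ W.toValuationSubring := by
  rcases eq_or_ne x 0 with rfl | hx
  · exact W.toValuationSubring.zero_mem
  · exact (Fermat.Agent.S24x.pb_mem_iff W hx).mpr
      (((W.adicValuation_le_one_iff).mp h).resolve_left hx)

theorem es3s_residue_eq (W : Place L F') {x : F'} {d : L} (hx : x ∈ W.toValuationSubring)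
    (h : W.adicValuation (x - algebraMap L F' d) < 1) :
    IsLocalRing.residue W.toValuationSubring ⟨x, hx⟩
      = IsLocalRing.residue W.toValuationSubring (algebraMap L W.toValuationSubring d) := by
  rw [← sub_eq_zero, ← map_sub, IsLocalRing.residue_eq_zero_iff, ← W.heightOneSpectrum_asIdeal,
    ← IsDedekindDomain.HeightOneSpectrum.intValuation_lt_one_iff_mem, ← W.adicValuation_coe]
  exact h

/-- the uniqueness of the value -/
theorem es3s_value_unique (W : Place L F') {x : F'} {d d' : L}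
    (h : W.adicValuation (x - algebraMap L F' d) < 1)
    (h' : W.adicValuation (x - algebraMap L F' d') < 1) : d = d' := by
  have hsub : algebraMap L F' (d' - d) = (x - algebraMap L F' d) - (x - algebraMap L F' d') := by
    rw [map_sub]; ring
  have hlt : W.adicValuation (algebraMap L F' (d' - d)) < 1 := by
    rw [hsub]
    exact (Valuation.map_sub _ _ _).trans_lt (max_lt h h')
  have := ts_const_eq_zero_of_van W hlt
  exact (sub_eq_zero.mp this).symm

/-- **values satisfy the relation**: if `Ψ(a; b) = 0` in `F'`, `a(W) = c'` and `b(W) = c`, then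
`Ψ(c'; c) = 0`. -/
theorem es3s_rel_of_values (W : Place L F') {Ψ : Polynomial (Polynomial ℤ)} {a b : F'} {c' c : L}
    (ha : W.adicValuation (a - algebraMap L F' c') < 1)
    (hb : W.adicValuation (b - algebraMap L F' c) < 1)
    (h : es3s_rel Ψ a b) : es3s_rel Ψ c' c := by
  have haO : a ∈ W.toValuationSubring :=
    es3s_mem_of_val_le_one W (es3s_val_le_one_of_value W ha)
  have hbO : b ∈ W.toValuationSubring :=
    es3s_mem_of_val_le_one W (es3s_val_le_one_of_value W hb)
  have h1 : es3s_rel Ψ (⟨a, haO⟩ : W.toValuationSubring) ⟨b, hbO⟩ :=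
    es3s_rel_of_map W.toValuationSubring.subtype Subtype.val_injective h
  have h2 := es3s_rel_map (IsLocalRing.residue W.toValuationSubring) h1
  rw [es3s_residue_eq W haO ha, es3s_residue_eq W hbO hb] at h2
  exact es3s_rel_of_map
    ((IsLocalRing.residue W.toValuationSubring).comp (algebraMap L W.toValuationSubring))
    (RingHom.injective _) h2

end Values

/-! ### the neighbourhoods `Θ` -/

section Theta

variable {k Fb : Type*} [Field k] [Field Fb] [Algebra k Fb]

/-- the neighbourhood `Θ Q`: either both `Q`, `Q'` are poles of `jb`, or their `jb`-values `x`, `y`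
satisfy `Ψ(y; x) = 0` or `y = x ^ ℓ` or `y ^ ℓ = x`. -/
def es3s_Theta (Ψ : Polynomial (Polynomial ℤ)) (ℓ : ℕ) (jb : Fb) (Q : Place k Fb) :
    Set (Place k Fb) :=
  {Q' | (Q.ord jb < 0 ∧ Q'.ord jb < 0) ∨
    ∃ x y : k, Q.adicValuation (jb - algebraMap k Fb x) < 1 ∧
      Q'.adicValuation (jb - algebraMap k Fb y) < 1 ∧ (es3s_rel Ψ y x ∨ y = x ^ ℓ ∨ y ^ ℓ = x)}

/-- the set `𝒮` of poles of `jb` -/
def es3s_poles (jb : Fb) : Set (Place k Fb) := {Q | Q.ord jb < 0}

theorem es3s_hΘ𝒮 (Ψ : Polynomial (Polynomial ℤ)) (ℓ : ℕ) (jb : Fb) (Q Q' : Place k Fb)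
    (h : Q' ∈ es3s_Theta Ψ ℓ jb Q) : (Q' ∈ es3s_poles jb ↔ Q ∈ es3s_poles jb) := by
  rcases h with ⟨h1, h2⟩ | ⟨x, y, hx, hy, -⟩
  · exact ⟨fun _ => h1, fun _ => h2⟩
  · have h1 := es3s_ord_nonneg_of_value Q hx
    have h2 := es3s_ord_nonneg_of_value Q' hy
    constructor
    · intro h
      have : Q'.ord jb < 0 := h
      omega
    · intro h
      have : Q.ord jb < 0 := h
      omega

/-- finiteness of the set of poles / of zeros from a principal divisor -/
theorem es3s_finite_neg (f : Fb) (D : Divisor k Fb) (hD : ∀ Q, D Q = Q.ord f) :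
    {Q : Place k Fb | Q.ord f < 0}.Finite := by
  refine (D.support.finite_toSet).subset fun Q hQ => ?_
  have : Q.ord f < 0 := hQ
  rw [Finset.mem_coe, Finsupp.mem_support_iff, hD Q]
  omega

theorem es3s_finite_zero (f : Fb) (hf : f ≠ 0) (D : Divisor k Fb) (hD : ∀ Q, D Q = Q.ord f) :
    {Q : Place k Fb | Q.adicValuation f < 1}.Finite := by
  refine (D.support.finite_toSet).subset fun Q hQ => ?_
  have h1 : Q.adicValuation f < 1 := hQ
  have := ((ts_val_lt_one_iff Q).mp h1).resolve_left hf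
  rw [Finset.mem_coe, Finsupp.mem_support_iff, hD Q]
  omega

theorem es3s_hfin {Ψ : Polynomial (Polynomial ℤ)} (hΨ : Ψ.Monic) {ℓ : ℕ} (hℓ : ℓ ≠ 0) (jb : Fb)
    (hjb : ∀ x : k, jb ≠ algebraMap k Fb x)
    (hpd : ∀ f : Fb, f ≠ 0 → ∃ D : Divisor k Fb, ∀ Q, D Q = Q.ord f) (Q' : Place k Fb) :
    {Q | Q' ∈ es3s_Theta Ψ ℓ jb Q}.Finite := by
  have hjb0 : jb ≠ 0 := by
    have := hjb 0
    rwa [map_zero] at this
  -- the poles
  have hpoles : {Q : Place k Fb | Q.ord jb < 0}.Finite := by
    obtain ⟨D, hD⟩ := hpd jb hjb0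
    exact es3s_finite_neg jb D hD
  -- the zeros of `jb - x`
  have hzeros : ∀ x : k, {Q : Place k Fb | Q.adicValuation (jb - algebraMap k Fb x) < 1}.Finite := by
    intro x
    have hne : jb - algebraMap k Fb x ≠ 0 := sub_ne_zero.mpr (hjb x)
    obtain ⟨D, hD⟩ := hpd _ hne
    exact es3s_finite_zero _ hne D hD
  -- the finitely many admissible `x` for a given `y`
  have hxs : ∀ y : k, {x : k | es3s_rel Ψ y x ∨ y = x ^ ℓ ∨ y ^ ℓ = x}.Finite := by
    intro y
    have h1 := es3s_rel_finite hΨ y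
    have h2 : {x : k | y = x ^ ℓ}.Finite := by
      have hp0 : (Polynomial.X ^ ℓ - Polynomial.C y : Polynomial k) ≠ 0 :=
        (Polynomial.monic_X_pow_sub_C y hℓ).ne_zero
      refine ((Polynomial.X ^ ℓ - Polynomial.C y : Polynomial k).rootSet_finite k).subset
        fun x hx => ?_
      have hx' : y = x ^ ℓ := hx
      rw [Polynomial.mem_rootSet]
      refine ⟨hp0, ?_⟩
      simp [hx']
    have h3 : {x : k | y ^ ℓ = x}.Finite := by
      refine (Set.finite_singleton (y ^ ℓ)).subset fun x hx => ?_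
      have hx' : y ^ ℓ = x := hx
      rw [Set.mem_singleton_iff, hx']
    exact (h1.union (h2.union h3)).subset fun x hx => hx
  by_cases hex : ∃ y : k, Q'.adicValuation (jb - algebraMap k Fb y) < 1
  · obtain ⟨y₀, hy₀⟩ := hex
    have hbig : (⋃ x ∈ {x : k | es3s_rel Ψ y₀ x ∨ y₀ = x ^ ℓ ∨ y₀ ^ ℓ = x},
        {Q : Place k Fb | Q.adicValuation (jb - algebraMap k Fb x) < 1}).Finite :=
      (hxs y₀).biUnion fun x _ => hzeros x
    refine (hpoles.union hbig).subset fun Q hQ => ?_
    rcases hQ with ⟨h1, -⟩ | ⟨x, y, hx, hy, hrel⟩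
    · exact Or.inl h1
    · right
      have hyy : y = y₀ := es3s_value_unique Q' hy hy₀
      subst hyy
      exact Set.mem_biUnion hrel hx
  · refine hpoles.subset fun Q hQ => ?_
    rcases hQ with ⟨h1, -⟩ | ⟨x, y, -, hy, -⟩
    · exact h1
    · exact absurd ⟨y, hy⟩ hex

end Theta

/-! ### the support of the defect -/

section Support

variable {L k F Fb : Type*} [Field L] [Field k] [Field F] [Field Fb] [Algebra L F] [Algebra k Fb]
variable {A : ValuationSubring L} {π : A →+* k} {W : ValuationSubring F} {ρ : W →+* Fb}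
  {r : Place L F → Place k Fb}

/-- the dichotomy for the places of `F`: either `J(P) = c ∈ A` and `(ρ J)(r P) = π c`, or
`J(P) ∉ A` (including `J(P) = ∞`) and `r P` is a pole of `ρ J`. -/
def es3s_Dich (π : A →+* k) (ρ : W →+* Fb) (r : Place L F → Place k Fb) (J : W) : Prop :=
  ∀ P : Place L F,
    (∃ (c : L) (hc : c ∈ A), P.adicValuation ((J : F) - algebraMap L F c) < 1 ∧
        (r P).adicValuation (ρ J - algebraMap k Fb (π ⟨c, hc⟩)) < 1) ∨
    ((r P).ord (ρ J) < 0 ∧
      ∀ c : L, c ∈ A → ¬ P.adicValuation ((J : F) - algebraMap L F c) < 1)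

/-- the hypothesis on `T`: points in the support of `T P` have `J`-values related by `Ψ`
(in both directions), and poles of `J` correspond to poles of `J`. -/
def es3s_TRel (Ψ : Polynomial (Polynomial ℤ)) (T : Divisor L F →+ Divisor L F) (J : F) : Prop :=
  ∀ P P' : Place L F, T (Finsupp.single P 1) P' ≠ 0 →
    (P.ord J < 0 ↔ P'.ord J < 0) ∧
    ∀ c c' : L, P.adicValuation (J - algebraMap L F c) < 1 →
      P'.adicValuation (J - algebraMap L F c') < 1 → es3s_rel Ψ c' c ∧ es3s_rel Ψ c c'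

/-- the `T`-part of the support -/
theorem es3s_T_support (H : ts_Hyp A π W ρ r) (J : W) {Ψ : Polynomial (Polynomial ℤ)}
    (hΨ : Ψ.Monic) (ℓ : ℕ) (hdich : es3s_Dich π ρ r J)
    (T : Divisor L F →+ Divisor L F) (hT : es3s_TRel Ψ T (J : F))
    (P P' : Place L F) (hne : T (Finsupp.single P 1) P' ≠ 0) :
    r P' ∈ es3s_Theta Ψ ℓ (ρ J) (r P) := by
  obtain ⟨hpole, hval⟩ := hT P P' hne
  rcases hdich P with ⟨c, hc, hPc, hQc⟩ | ⟨hQpole, hPnot⟩
  · rcases hdich P' with ⟨c', hc', hP'c', hQ'c'⟩ | ⟨-, hP'not⟩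
    · -- both of finite type
      right
      refine ⟨π ⟨c, hc⟩, π ⟨c', hc'⟩, hQc, hQ'c', Or.inl ?_⟩
      have h1 : es3s_rel Ψ c' c := (hval c c' hPc hP'c').1
      have h2 : es3s_rel Ψ (⟨c', hc'⟩ : A) ⟨c, hc⟩ :=
        es3s_rel_of_map A.subtype Subtype.val_injective h1
      exact es3s_rel_map π h2
    · -- impossible: `P` finite type, `P'` not
      exfalso
      have h0 : 0 ≤ P.ord (J : F) := es3s_ord_nonneg_of_value P hPc
      have h0' : ¬ P'.ord (J : F) < 0 := fun h => by
        have := hpole.mpr h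
        omega
      have hle : P'.adicValuation (J : F) ≤ 1 := by
        by_contra hcon
        exact h0' ((P'.not_adicValuation_le_one_iff).mp hcon)
      obtain ⟨c', hc'⟩ := H.eval P' (J : F) hle
      have h2 : es3s_rel Ψ c c' := (hval c c' hPc hc').2
      exact hP'not c' (es3s_mem_of_rel A hΨ hc h2) hc'
  · rcases hdich P' with ⟨c', hc', hP'c', -⟩ | ⟨hQ'pole, -⟩
    · -- impossible: `P'` finite type, `P` not
      exfalso
      have h0 : 0 ≤ P'.ord (J : F) := es3s_ord_nonneg_of_value P' hP'c'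
      have h0' : ¬ P.ord (J : F) < 0 := fun h => by
        have := hpole.mp h
        omega
      have hle : P.adicValuation (J : F) ≤ 1 := by
        by_contra hcon
        exact h0' ((P.not_adicValuation_le_one_iff).mp hcon)
      obtain ⟨c, hc⟩ := H.eval P (J : F) hle
      have h2 : es3s_rel Ψ c' c := (hval c c' hc hP'c').1
      exact hPnot c (es3s_mem_of_rel A hΨ hc' h2) hc
    · exact Or.inl ⟨hQpole, hQ'pole⟩

/-- **ES-hE**: the support of the defect at `P` lies in `Θ (r P)`. -/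
theorem es3s_hE (H : ts_Hyp A π W ρ r) (J : W) {Ψ : Polynomial (Polynomial ℤ)}
    (hΨ : Ψ.Monic) (ℓ : ℕ) (hdich : es3s_Dich π ρ r J)
    (T : Divisor L F →+ Divisor L F) (Φ : Divisor k Fb →+ Divisor k Fb)
    (hT : es3s_TRel Ψ T (J : F))
    (hΦ : ∀ Q Q' : Place k Fb, Φ (Finsupp.single Q 1) Q' ≠ 0 → Q' ∈ es3s_Theta Ψ ℓ (ρ J) Q)
    (P : Place L F) (Q' : Place k Fb)
    (hne : es3_defect r T Φ (Finsupp.single P 1) Q' ≠ 0) :
    Q' ∈ es3s_Theta Ψ ℓ (ρ J) (r P) := by
  classical
  rw [es3_defect_apply, Finsupp.mapDomain_single, Finsupp.sub_apply] at hne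
  by_cases h1 : Φ (Finsupp.single (r P) 1) Q' = 0
  · rw [h1, sub_zero, ts_mapDomain_apply] at hne
    obtain ⟨P', hP', hP'ne⟩ := Finset.exists_ne_zero_of_sum_ne_zero hne
    rw [Finset.mem_filter] at hP'
    rw [← hP'.2]
    exact es3s_T_support H J hΨ ℓ hdich T hT P P' hP'ne
  · exact hΦ (r P) Q' h1

end Support

/-! ### the hypothesis on `T` for a correspondence `α_* β^*` -/

section Corr

variable {L F F' : Type*} [Field L] [Field F] [Field F'] [Algebra L F] [Algebra L F']

theorem es3s_ramificationIndexAlong_pos (φ : F →ₐ[L] F') (hφ : φ.toRingHom.IsIntegral)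
    (w : Place L F') : 0 < w.ramificationIndexAlong φ := by
  let _ := algebraAlong φ
  have := isScalarTower_along φ
  have := isIntegral_along φ hφ
  exact w.ramificationIndex_pos (F := F)

theorem es3s_ord_neg_restrictAlong (φ : F →ₐ[L] F') (hφ : φ.toRingHom.IsIntegral)
    (w : Place L F') (x : F) : (w.restrictAlong φ hφ).ord x < 0 ↔ w.ord (φ x) < 0 := by
  have he := es3s_ramificationIndexAlong_pos φ hφ w
  rw [Place.ord_restrictAlong φ hφ w x]
  have he' : (0 : ℤ) < (w.ramificationIndexAlong φ : ℤ) := by exact_mod_cast he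
  constructor
  · intro h
    exact mul_neg_of_pos_of_neg he' h
  · intro h
    by_contra hcon
    rw [not_lt] at hcon
    have := mul_nonneg he'.le hcon
    omega

theorem es3s_val_lt_one_restrictAlong (φ : F →ₐ[L] F') (hφ : φ.toRingHom.IsIntegral)
    (w : Place L F') (x : F) :
    (w.restrictAlong φ hφ).adicValuation x < 1 ↔ w.adicValuation (φ x) < 1 := by
  have he := es3s_ramificationIndexAlong_pos φ hφ w
  have he' : (0 : ℤ) < (w.ramificationIndexAlong φ : ℤ) := by exact_mod_cast he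
  rw [ts_val_lt_one_iff, ts_val_lt_one_iff, Place.ord_restrictAlong φ hφ w x,
    map_eq_zero_iff φ φ.toRingHom.injective]
  refine or_congr Iff.rfl ?_
  constructor
  · intro h
    calc (1 : ℤ) ≤ (w.ramificationIndexAlong φ : ℤ) := by omega
      _ = (w.ramificationIndexAlong φ : ℤ) * 1 := (mul_one _).symm
      _ ≤ _ := mul_le_mul_of_nonneg_left h he'.le
  · intro h
    by_contra hcon
    rw [not_le] at hcon
    have h0 : (w.restrictAlong φ hφ).ord x ≤ 0 := by omega
    have := mul_nonpos_of_nonneg_of_nonpos he'.le h0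
    omega

theorem es3s_mem_iff_ord (w : Place L F') (x : F') : x ∈ w.toValuationSubring ↔ 0 ≤ w.ord x := by
  rcases eq_or_ne x 0 with rfl | hx
  · rw [Place.ord_zero]
    exact ⟨fun _ => le_rfl, fun _ => w.toValuationSubring.zero_mem⟩
  · exact Fermat.Agent.S24x.pb_mem_iff w hx

variable [HasPrincipalDivisors L F']

/-- the hypothesis `es3s_TRel` for the correspondence `α_* β^*`, from `Ψ(αJ; βJ) = 0 = Ψ(βJ; αJ)`. -/
theorem es3s_TRel_of_correspondence (β α : F →ₐ[L] F') (hβ : β.toRingHom.IsIntegral)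
    (hα : α.toRingHom.IsIntegral) {Ψ : Polynomial (Polynomial ℤ)} (hΨ : Ψ.Monic) (J : F)
    (h1 : es3s_rel Ψ (α J) (β J)) (h2 : es3s_rel Ψ (β J) (α J)) :
    es3s_TRel Ψ (Divisor.correspondence β α hβ hα) J := by
  intro P P' hne
  obtain ⟨w, hwP, hwP'⟩ := hku_exists_of_mem_support β α hβ hα P 1 P' hne
  subst hwP
  subst hwP'
  refine ⟨?_, ?_⟩
  · rw [es3s_ord_neg_restrictAlong, es3s_ord_neg_restrictAlong, ← not_le, ← not_le,
      ← es3s_mem_iff_ord, ← es3s_mem_iff_ord]
    exact not_congr ⟨fun h => es3s_mem_of_rel _ hΨ h h2, fun h => es3s_mem_of_rel _ hΨ h h1⟩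
  · intro c c' hc hc'
    rw [es3s_val_lt_one_restrictAlong, map_sub, AlgHom.commutes] at hc hc'
    exact ⟨es3s_rel_of_values w hc' hc h1, es3s_rel_of_values w hc hc' h2⟩

end Corr

/-! ### the hypothesis on `Φ = g_* + ℓ (g⁻¹)_*` -/

section Frob

variable {k Fb : Type*} [Field k] [Field Fb] [Algebra k Fb]

/-- for a semilinear automorphism `g` fixing `jb` whose base automorphism is `x ↦ x ^ ℓ`, both
`g • Q` and `g⁻¹ • Q` lie in `Θ Q`. -/
theorem es3s_smul_mem_Theta (Ψ : Polynomial (Polynomial ℤ)) (ℓ : ℕ) (jb : Fb)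
    (heval : ∀ (Q : Place k Fb) (x : Fb), Q.adicValuation x ≤ 1 →
      ∃ c : k, Q.adicValuation (x - algebraMap k Fb c) < 1)
    (g : SemilinearAut k Fb) (hg : g • jb = jb)
    (hbase : ∀ x : k, SemilinearAut.baseAut g x = x ^ ℓ) (Q : Place k Fb) :
    g • Q ∈ es3s_Theta Ψ ℓ jb Q ∧ g⁻¹ • Q ∈ es3s_Theta Ψ ℓ jb Q := by
  have hg' : g⁻¹ • jb = jb := by
    conv_lhs => rw [← hg]
    rw [inv_smul_smul]
  by_cases hpole : Q.ord jb < 0
  · constructor
    · left
      refine ⟨hpole, ?_⟩
      have := SemilinearAut.ord_smul g Q jb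
      rw [hg] at this
      rw [this]
      exact hpole
    · left
      refine ⟨hpole, ?_⟩
      have := SemilinearAut.ord_smul g⁻¹ Q jb
      rw [hg'] at this
      rw [this]
      exact hpole
  · have hle : Q.adicValuation jb ≤ 1 := by
      by_contra hcon
      exact hpole ((Q.not_adicValuation_le_one_iff).mp hcon)
    obtain ⟨x, hx⟩ := heval Q jb hle
    constructor
    · right
      refine ⟨x, x ^ ℓ, hx, ?_, Or.inr (Or.inl rfl)⟩
      have := cfb_value_smul g Q jb x hx
      rwa [hg, hbase] at this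
    · right
      refine ⟨x, SemilinearAut.baseAut g⁻¹ x, hx, ?_, Or.inr (Or.inr ?_)⟩
      · have := cfb_value_smul g⁻¹ Q jb x hx
        rwa [hg'] at this
      · rw [← hbase, SemilinearAut.baseAut_inv]
        exact (SemilinearAut.baseAut g).apply_symm_apply x

/-- the operator `Φ = g_* + ℓ (g⁻¹)_*` on divisors -/
noncomputable def es3s_Phi (g : SemilinearAut k Fb) (ℓ : ℕ) : Divisor k Fb →+ Divisor k Fb :=
  DistribSMul.toAddMonoidHom (Divisor k Fb) g +
    (ℓ : ℤ) • DistribSMul.toAddMonoidHom (Divisor k Fb) g⁻¹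

theorem es3s_Phi_apply (g : SemilinearAut k Fb) (ℓ : ℕ) (D : Divisor k Fb) :
    es3s_Phi g ℓ D = g • D + (ℓ : ℤ) • (g⁻¹ • D) := rfl

theorem es3s_Phi_single (g : SemilinearAut k Fb) (ℓ : ℕ) (Q : Place k Fb) :
    es3s_Phi g ℓ (Finsupp.single Q 1) =
      Finsupp.single (g • Q) 1 + Finsupp.single (g⁻¹ • Q) (ℓ : ℤ) := by
  rw [es3s_Phi_apply, SemilinearAut.smul_single, SemilinearAut.smul_single, Finsupp.smul_single,
    smul_eq_mul, mul_one]

/-- the hypothesis `hΦ` of `es3s_hE` for `Φ = g_* + ℓ (g⁻¹)_*`. -/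
theorem es3s_hΦ (Ψ : Polynomial (Polynomial ℤ)) (ℓ : ℕ) (jb : Fb)
    (heval : ∀ (Q : Place k Fb) (x : Fb), Q.adicValuation x ≤ 1 →
      ∃ c : k, Q.adicValuation (x - algebraMap k Fb c) < 1)
    (g : SemilinearAut k Fb) (hg : g • jb = jb)
    (hbase : ∀ x : k, SemilinearAut.baseAut g x = x ^ ℓ) (Q Q' : Place k Fb)
    (hne : es3s_Phi g ℓ (Finsupp.single Q 1) Q' ≠ 0) : Q' ∈ es3s_Theta Ψ ℓ jb Q := by
  classical
  obtain ⟨h1, h2⟩ := es3s_smul_mem_Theta Ψ ℓ jb heval g hg hbase Q
  rw [es3s_Phi_single, Finsupp.add_apply, Finsupp.single_apply, Finsupp.single_apply] at hne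
  by_cases ha : g • Q = Q'
  · rw [← ha]; exact h1
  · by_cases hb : g⁻¹ • Q = Q'
    · rw [← hb]; exact h2
    · rw [if_neg ha, if_neg hb, add_zero] at hne
      exact absurd rfl hne

end Frob

end Fermat.Agent.S37x
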