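/-
S37x/Es3PhiDiv (helper70): S37 [ES] row 28, sub-lemma (iv): for a semilinear automorphism `g` of a
function field `Fb/k` and `Φ = g_* + ℓ (g⁻¹)_*` (`es3s_Phi`, helper56), the divisor of
`(g⁻¹ • u) ^ ℓ * (g • u)` is `Φ (div u)`:
  `es3pd_Phi_div : (∀ Q, Db Q = Q.ord u) → ∀ Q, es3s_Phi g ℓ Db Q = Q.ord ((g⁻¹ • u) ^ ℓ * (g • u))`.
With `g = cfb_frob k N ℓ` and `u = ρ u₀` this is the last clause of `es3_Lifts` for
`ρ h = (φ⁻¹ ū) ^ ℓ * φ ū`.  Also `es3pd_ord_smul` : `Q.ord (g • u) = (g⁻¹ • Q).ord u`.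
Prefix `es3pd_`.
-/
import Mathlib
import Fermat.Agent.S37x.Es3Supp

set_option autoImplicit false

namespace Fermat.Agent.S37x

open AlgebraicCurve

variable {k Fb : Type*} [Field k] [Field Fb] [Algebra k Fb]

/-- transport of orders: `ord_Q (g • u) = ord_{g⁻¹ • Q} u`. -/
theorem es3pd_ord_smul (g : SemilinearAut k Fb) (Q : Place k Fb) (u : Fb) :
    Q.ord (g • u) = (g⁻¹ • Q).ord u := by
  have h := SemilinearAut.ord_smul g (g⁻¹ • Q) u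
  rwa [smul_inv_smul] at h

/-- the same for the inverse: `ord_Q (g⁻¹ • u) = ord_{g • Q} u`. -/
theorem es3pd_ord_inv_smul (g : SemilinearAut k Fb) (Q : Place k Fb) (u : Fb) :
    Q.ord (g⁻¹ • u) = (g • Q).ord u := by
  have h := es3pd_ord_smul g⁻¹ Q u
  rwa [inv_inv] at h

/-- `g • u ≠ 0` for `u ≠ 0`. -/
theorem es3pd_smul_ne_zero (g : SemilinearAut k Fb) {u : Fb} (hu : u ≠ 0) : g • u ≠ 0 := by
  rw [SemilinearAut.smul_def]
  exact (map_ne_zero_iff _ (SemilinearAut.toRingAut g).injective).mpr hu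

/-- **(iv)**: `div ((g⁻¹ • u) ^ ℓ * (g • u)) = Φ (div u)` for `Φ = g_* + ℓ (g⁻¹)_*`. -/
theorem es3pd_Phi_div (g : SemilinearAut k Fb) (ℓ : ℕ) (u : Fb) (Db : Divisor k Fb)
    (hDb : ∀ Q, Db Q = Q.ord u) (Q : Place k Fb) :
    es3s_Phi g ℓ Db Q = Q.ord ((g⁻¹ • u) ^ ℓ * (g • u)) := by
  rw [es3s_Phi_apply, Finsupp.add_apply, Finsupp.smul_apply, SemilinearAut.divisor_smul_apply,
    SemilinearAut.divisor_smul_apply, inv_inv, hDb, hDb, smul_eq_mul]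
  rcases eq_or_ne u 0 with rfl | hu
  · rcases Nat.eq_zero_or_pos ℓ with rfl | hℓ
    · simp
    · simp [zero_pow hℓ.ne']
  · have h1 : g • u ≠ 0 := es3pd_smul_ne_zero g hu
    have h2 : g⁻¹ • u ≠ 0 := es3pd_smul_ne_zero g⁻¹ hu
    rw [Place.ord_mul Q (pow_ne_zero ℓ h2) h1, ← zpow_natCast, Place.ord_zpow,
      es3pd_ord_inv_smul g Q u, es3pd_ord_smul g Q u]
    ring

/-- the same with the factors in the other order. -/
theorem es3pd_Phi_div' (g : SemilinearAut k Fb) (ℓ : ℕ) (u : Fb) (Db : Divisor k Fb)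
    (hDb : ∀ Q, Db Q = Q.ord u) (Q : Place k Fb) :
    es3s_Phi g ℓ Db Q = Q.ord ((g • u) * (g⁻¹ • u) ^ ℓ) := by
  rw [mul_comm]
  exact es3pd_Phi_div g ℓ u Db hDb Q

end Fermat.Agent.S37x
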