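/-
S37x/BetaDegree (helper41): S37 block [B3], STEP 1 of the blueprint `S37_B3_blueprint_helper60`.

THE DEGREE OF THE SECOND DEGENERACY MAP.  For a prime `ℓ ∤ N` the map
`β = heckeBetaBar Q̄ N ℓ : F_N → F_{Nℓ}`, `f(q) ↦ f(q^ℓ)`, has degree `ℓ + 1`:

* `bdg37_twisted_abs`       : abstract field theory.  If `s, t` are roots of a monic `P ∈ A[X]` and
                              `[A(s) : A] = deg P`, then `[A(t) : A] = deg P` (`P` is the minimal
                              polynomial of `s`, hence irreducible, hence the minimal polynomial of `t`).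
* `bdg37_fullC_prime`       : `F_ℓ = K(j(q^ℓ)) ⊔ K(j)` (any field `K`).
* `bdg37_twisted`           : the TWISTED degree `[F_ℓ : K(j(q^ℓ))] = ℓ + 1` from `[F_ℓ : K(j)] = ℓ + 1`
                              (any field `K`; uses both vanishings of the modular polynomial `Φ_ℓ`,
                              S28x `mpcf_exists_modPoly_ring`): `Φ_ℓ(X; j(q^ℓ))` is the minimal polynomial
                              of `j(q^{ℓ²})` over `K(j(q^ℓ))` (transport `[F_ℓ : K(j)] = ℓ+1` along
                              `q ↦ q^ℓ`), and `j` is another root of it.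
* `bdg37_relfinrank_beta`   : `[F_{Nℓ}(Q̄) : F_N(Q̄)(q^ℓ)] = ℓ + 1` (`IntermediateField` form; the image
                              of `F_N` under `q ↦ q^ℓ`).
* `bdg37_relfinrank_alpha`  : `[F_{Nℓ}(Q̄) : F_N(Q̄)] = ℓ + 1`.
* `bdg37_finrankAlong_beta` : `finrankAlong Q̄ (heckeBetaBar Q̄ N ℓ) = ℓ + 1` (Prelude form).
* `bdg37_finrankAlong_alpha`: `finrankAlong Q̄ (heckeAlphaBar Q̄ N ℓ) = ℓ + 1`.
-/
import Mathlib
import Fermat.Prelude.Def_ModularCurve_HeckeOperator
import Fermat.Agent.S18x.BaseIdentDeg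
import Fermat.Agent.S18x.LvDegUpper
import Fermat.Agent.S18x.CuspConjPrim
import Fermat.Agent.S28x.ModPolyConsFinal

set_option autoImplicit false
set_option linter.style.haveILetI false

noncomputable section

namespace Fermat.Agent.S37x

open AlgebraicCurve ModularCurve IntermediateField Polynomial
open Fermat.Agent.S24x Fermat.Agent.S28x Fermat.Agent.S18x

/-! ## abstract field theory -/

section Abstract

variable {K Ω : Type*} [Field K] [Field Ω] [Algebra K Ω]

/-- If `s, t` are roots of a monic `P ∈ A[X]` and `[A(s) : A] = deg P`, then `[A(t) : A] = deg P`. -/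
theorem bdg37_twisted_abs (A : IntermediateField K Ω) (s t : Ω) (P : A[X]) (hP : P.Monic)
    (hs : aeval s P = 0) (ht : aeval t P = 0)
    (hdeg : relfinrank A (A ⊔ K⟮s⟯) = P.natDegree) :
    relfinrank A (A ⊔ K⟮t⟯) = P.natDegree := by
  have hints : IsIntegral A s := ⟨P, hP, by rwa [← aeval_def]⟩
  have hintt : IsIntegral A t := ⟨P, hP, by rwa [← aeval_def]⟩
  rw [nnc15_relfinrank_sup_eq_natDegree A s hints] at hdeg
  have hPs : minpoly A s = P :=
    (Polynomial.eq_of_monic_of_dvd_of_natDegree_le (minpoly.monic hints) hP (minpoly.dvd A s hs)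
      hdeg.ge).symm
  have hirr : Irreducible P := hPs ▸ minpoly.irreducible hints
  have hPt : P = minpoly A t := minpoly.eq_of_irreducible_of_monic hirr ht hP
  rw [nnc15_relfinrank_sup_eq_natDegree A t hintt, ← hPt]

end Abstract

/-! ## the twisted degree at prime level -/

section Twisted

variable (K : Type*) [Field K] (l : ℕ) [NeZero l]

/-- `F_ℓ = K(j(q^ℓ)) ⊔ K(j)` for a prime `ℓ`. -/
theorem bdg37_fullC_prime (hl : l.Prime) :
    modularFunctionFieldFullC K l = K⟮qExpand K l (jqModC K)⟯ ⊔ K⟮jqModC K⟯ := by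
  rw [modularFunctionFieldFullC, ← adjoin_union]
  congr 1
  ext x
  constructor
  · rintro ⟨d, hne, hd, rfl⟩
    rcases (Nat.dvd_prime hl).mp hd with rfl | rfl
    · right
      show qExpand K 1 (jqModC K) = jqModC K
      exact qExpand_one_apply _
    · left
      rfl
  · rintro (hx | hx)
    · rw [Set.mem_singleton_iff] at hx
      exact ⟨l, inferInstance, dvd_rfl, hx⟩
    · rw [Set.mem_singleton_iff] at hx
      exact ⟨1, inferInstance, one_dvd _, hx.trans (qExpand_one_apply _).symm⟩

/-- ring homs out of `K[X]`: `qExpand ∘ aeval y = aeval (qExpand y)`. -/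
theorem bdg37_qExpand_comp_aeval (y : LaurentSeries K) :
    ((qExpand K l : LaurentSeries K →+* LaurentSeries K)).comp
        (Polynomial.aeval (R := K) y).toRingHom =
      (Polynomial.aeval (R := K) (qExpand K l y)).toRingHom := by
  refine Polynomial.ringHom_ext (fun a => ?_) ?_
  · simp only [RingHom.comp_apply, AlgHom.toRingHom_eq_coe, RingHom.coe_coe, Polynomial.aeval_C]
    exact (qExpandAlgHomC K l).commutes a
  · simp only [RingHom.comp_apply, AlgHom.toRingHom_eq_coe, RingHom.coe_coe, Polynomial.aeval_X]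

/-- the coefficient hom `K[Y] → A`, `Y ↦ y`, followed by `A ⊆ Ω`, is `aeval y`. -/
theorem bdg37_algebraMap_comp_aeval {Ω : Type*} [Field Ω] [Algebra K Ω] (A : IntermediateField K Ω)
    (y : A) :
    (algebraMap A Ω).comp (Polynomial.aeval (R := K) y).toRingHom =
      (Polynomial.aeval (R := K) (y : Ω)).toRingHom := by
  refine Polynomial.ringHom_ext (fun a => ?_) ?_
  · simp only [RingHom.comp_apply, AlgHom.toRingHom_eq_coe, RingHom.coe_coe, Polynomial.aeval_C]
    rfl
  · simp only [RingHom.comp_apply, AlgHom.toRingHom_eq_coe, RingHom.coe_coe, Polynomial.aeval_X]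
    rfl

/-- **twisted degree**: `[F_ℓ : K(j(q^ℓ))] = ℓ + 1` as soon as `[F_ℓ : K(j)] = ℓ + 1`. -/
theorem bdg37_twisted (hl : l.Prime)
    (hdeg : relfinrank K⟮jqModC K⟯ (modularFunctionFieldFullC K l) = l + 1) :
    relfinrank K⟮qExpand K l (jqModC K)⟯ (modularFunctionFieldFullC K l) = l + 1 := by
  haveI : Fact l.Prime := ⟨hl⟩
  obtain ⟨Φ, hΦm, hΦd, h1, h2⟩ := mpcf_exists_modPoly_ring K l
  set j : LaurentSeries K := jqModC K with hj
  set jl : LaurentSeries K := qExpand K l j with hjl
  set A : IntermediateField K (LaurentSeries K) := K⟮jl⟯ with hA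
  let y : A := ⟨jl, mem_adjoin_simple_self K jl⟩
  let P : A[X] := Φ.map (Polynomial.aeval (R := K) y).toRingHom
  have hPm : P.Monic := hΦm.map _
  have hPd : P.natDegree = l + 1 := by rw [hΦm.natDegree_map, hΦd]
  have haeval : ∀ t : LaurentSeries K,
      aeval t P = Φ.eval₂ (Polynomial.aeval (R := K) jl).toRingHom t := by
    intro t
    rw [aeval_def, Polynomial.eval₂_map, bdg37_algebraMap_comp_aeval]
  -- `j` is a root
  have ht : aeval j P = 0 := by rw [haeval]; exact h2
  -- `j(q^{ℓ²})` is a root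
  have hs : aeval (qExpand K l jl) P = 0 := by
    rw [haeval]
    have := congrArg (qExpand K l) h1
    rw [Polynomial.hom_eval₂, map_zero, bdg37_qExpand_comp_aeval] at this
    exact this
  -- `[A(j(q^{ℓ²})) : A] = ℓ + 1` by transport along `q ↦ q^ℓ`
  have hmap : (modularFunctionFieldFullC K l).map (qExpandAlgHomC K l) =
      A ⊔ K⟮qExpand K l jl⟯ := by
    rw [bdg37_fullC_prime K l hl, IntermediateField.map_sup, adjoin_map, adjoin_map,
      Set.image_singleton, Set.image_singleton, qExpandAlgHomC_apply, qExpandAlgHomC_apply, sup_comm]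
  have hdegs : relfinrank A (A ⊔ K⟮qExpand K l jl⟯) = P.natDegree := by
    rw [← hmap, hPd, ← hdeg]
    exact bsd_relfinrank_map K l l
  have := bdg37_twisted_abs A (qExpand K l jl) j P hPm hs ht hdegs
  rw [bdg37_fullC_prime K l hl, this, hPd]

end Twisted

/-! ## the degrees of `α` and `β` over `Q̄` -/

section Degrees

theorem bdg37_coeffEmb_jq : coeffEmb Qbar jq = jqModC Qbar := by
  have := ccp_coeffEmb_qExpand_jq 1
  rwa [qExpand_one_apply, qExpand_one_apply] at this

/-- `[F_M(Q̄) : Q̄(j)] = ψ(M)` in `modularFunctionFieldFullC` language. -/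
theorem bdg37_relfinrank_fullC (M : ℕ) [NeZero M] :
    relfinrank Qbar⟮jqModC Qbar⟯ (modularFunctionFieldFullC Qbar M) = dedekindPsi M := by
  rw [ccp_fullC_eq_bar, ← bdg37_coeffEmb_jq]
  exact lvu_relfinrank_bar M

variable (N l : ℕ) [NeZero N] [NeZero l]

theorem bdg37_map_le :
    (modularFunctionFieldFullC Qbar N).map (qExpandAlgHomC Qbar l) ≤
      modularFunctionFieldFullC Qbar (N * l) :=
  bsd_map_le Qbar l N (N * l) (dvd_of_eq (mul_comm l N))

/-- **degree of `β`, `IntermediateField` form**: `[F_{Nℓ} : F_N(q^ℓ)] = ℓ + 1` for a prime `ℓ ∤ N`. -/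
theorem bdg37_relfinrank_beta (hl : l.Prime) (hlN : ¬ l ∣ N) :
    relfinrank ((modularFunctionFieldFullC Qbar N).map (qExpandAlgHomC Qbar l))
      (modularFunctionFieldFullC Qbar (N * l)) = l + 1 := by
  have hψl : dedekindPsi l = l + 1 := bsd_psi_prime hl
  have hψ : dedekindPsi (N * l) = (l + 1) * dedekindPsi N :=
    S24x.dedekindPsi_mul_prime_of_not_dvd N l hl (NeZero.pos N) hlN
  have hψN : 0 < dedekindPsi N := sa_dedekindPsi_pos N (NeZero.ne N)
  have hJ0Fl : Qbar⟮jqModC Qbar⟯ ≤ modularFunctionFieldFullC Qbar l :=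
    adjoin_simple_le_iff.mpr (jqModC_mem_full Qbar l)
  have hA1Fl : Qbar⟮qExpand Qbar l (jqModC Qbar)⟯ ≤ modularFunctionFieldFullC Qbar l :=
    adjoin_simple_le_iff.mpr (jqModCd_mem_full Qbar l dvd_rfl)
  have hFlC : modularFunctionFieldFullC Qbar l ≤ modularFunctionFieldFullC Qbar (N * l) :=
    full_degeneracyC_le Qbar (dvd_mul_left l N)
  have hA1B : Qbar⟮qExpand Qbar l (jqModC Qbar)⟯ ≤
      (modularFunctionFieldFullC Qbar N).map (qExpandAlgHomC Qbar l) := by
    rw [adjoin_simple_le_iff]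
    exact ⟨jqModC Qbar, jqModC_mem_full Qbar N, rfl⟩
  have hBC := bdg37_map_le N l
  have d1 : relfinrank Qbar⟮jqModC Qbar⟯ (modularFunctionFieldFullC Qbar l) = l + 1 := by
    rw [bdg37_relfinrank_fullC, hψl]
  have d2 := bdg37_twisted Qbar l hl d1
  have d3 : relfinrank Qbar⟮jqModC Qbar⟯ (modularFunctionFieldFullC Qbar (N * l)) =
      (l + 1) * dedekindPsi N := by
    rw [bdg37_relfinrank_fullC, hψ]
  have d4 : relfinrank (modularFunctionFieldFullC Qbar l) (modularFunctionFieldFullC Qbar (N * l)) =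
      dedekindPsi N := by
    have := relfinrank_mul_relfinrank hJ0Fl hFlC
    rw [d1, d3] at this
    exact Nat.eq_of_mul_eq_mul_left (Nat.succ_pos l) this
  have d5 : relfinrank Qbar⟮qExpand Qbar l (jqModC Qbar)⟯ (modularFunctionFieldFullC Qbar (N * l)) =
      (l + 1) * dedekindPsi N := by
    rw [← relfinrank_mul_relfinrank hA1Fl hFlC, d2, d4]
  have d6 : relfinrank Qbar⟮qExpand Qbar l (jqModC Qbar)⟯
      ((modularFunctionFieldFullC Qbar N).map (qExpandAlgHomC Qbar l)) = dedekindPsi N := by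
    rw [← bdg37_relfinrank_fullC N]
    exact bsd_relfinrank_map Qbar l N
  have := relfinrank_mul_relfinrank hA1B hBC
  rw [d5, d6, mul_comm] at this
  exact Nat.eq_of_mul_eq_mul_right hψN this

/-- **degree of `α`, `IntermediateField` form**: `[F_{Nℓ} : F_N] = ℓ + 1` for a prime `ℓ ∤ N`. -/
theorem bdg37_relfinrank_alpha (hl : l.Prime) (hlN : ¬ l ∣ N) :
    relfinrank (modularFunctionFieldBar N) (modularFunctionFieldBar (N * l)) = l + 1 := by
  have hψ : dedekindPsi (N * l) = (l + 1) * dedekindPsi N :=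
    S24x.dedekindPsi_mul_prime_of_not_dvd N l hl (NeZero.pos N) hlN
  have hψN : 0 < dedekindPsi N := sa_dedekindPsi_pos N (NeZero.ne N)
  have := lvu_tower_bar N (N * l) (dvd_mul_right N l)
  rw [hψ, mul_comm] at this
  exact Nat.eq_of_mul_eq_mul_right hψN this

/-- **degree of `β`, Prelude form**. -/
theorem bdg37_finrankAlong_beta (hl : l.Prime) (hlN : ¬ l ∣ N) :
    finrankAlong Qbar (heckeBetaBar Qbar N l) = l + 1 := by
  rw [← bdg37_relfinrank_beta N l hl hlN, ← lvu_finrank_inclusion _ _ (bdg37_map_le N l)]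
  unfold finrankAlong
  letI := algebraAlong (heckeBetaBar Qbar N l)
  letI : Algebra ↥((modularFunctionFieldFullC Qbar N).map (qExpandAlgHomC Qbar l))
      ↥(modularFunctionFieldFullC Qbar (N * l)) :=
    (inclusion (bdg37_map_le N l)).toRingHom.toAlgebra
  let i : ↥(modularFunctionFieldBar N) ≃+*
      ↥((modularFunctionFieldFullC Qbar N).map (qExpandAlgHomC Qbar l)) :=
    ((equivOfEq (ccp_fullC_eq_bar N).symm).trans
      (equivMap (modularFunctionFieldFullC Qbar N) (qExpandAlgHomC Qbar l))).toRingEquiv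
  let j : ↥(modularFunctionFieldBar (N * l)) ≃+* ↥(modularFunctionFieldFullC Qbar (N * l)) :=
    (equivOfEq (ccp_fullC_eq_bar (N * l)).symm).toRingEquiv
  refine Algebra.finrank_eq_of_equiv_equiv i j ?_
  ext x
  rfl

/-- **degree of `α`, Prelude form**. -/
theorem bdg37_finrankAlong_alpha (hl : l.Prime) (hlN : ¬ l ∣ N) :
    finrankAlong Qbar (heckeAlphaBar Qbar N l) = l + 1 := by
  have hle : modularFunctionFieldBar N ≤ modularFunctionFieldBar (N * l) :=
    lvu_bar_mono N (N * l) (dvd_mul_right N l)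
  rw [← bdg37_relfinrank_alpha N l hl hlN, ← lvu_finrank_inclusion _ _ hle]
  rfl

end Degrees

end Fermat.Agent.S37x
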