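/-
S37x/EsConjInst (helper16; S37 block B3, STEP 2 instantiation, for helper60's `esc_norm_eq`).
Inputs of the abstract "last embedding" theorem at `F = F_N`, `E = F_{N l}`, generators
`g = j(q^d)`, `d ∣ N`, `P_g = Φ_l(X; j(q^d))`:
* `esci_jd_notMem_range` : `j(q^d) ∉ range (q ↦ q^l)` when `l ∤ d`;
* `esci_PhiL L p` : the modular polynomial over a field `L`, with the two vanishings at every
  level `d`: `Φ_p(j(q^{dp}); j(q^d)) = 0 = Φ_p(j(q^d); j(q^{dp}))`;
* `esci_polyAt F a` : `Φ_p(X; a) ∈ F[X]` for `a` in an intermediate field `F ⊆ L((q))`; monic of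
  degree `p + 1`; its image under `q ↦ q^p` vanishes at `j(q^d)` and at `j(q^{d p^2})` when
  `a = j(q^d)`;
* `esci_alpha`, `esci_beta` : the two degeneracy maps `F_N → F_{N l}` on `modularFunctionFieldFullC`.
Prefix `esci_`.
-/
import Mathlib
import Fermat.Agent.S28x.ModPoly
import Fermat.Agent.S28x.StepACore

set_option autoImplicit false

namespace Fermat.Agent.S37x

open ModularCurve Polynomial Fermat.Agent.S28x

noncomputable section

section NotMem

variable {R : Type*} [CommRing R] [Nontrivial R]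

/-- `j(q^d)` is not a series in `q^l` when `l ∤ d`. -/
theorem esci_jd_notMem_range (d l : ℕ) [NeZero d] [NeZero l] (h : ¬ l ∣ d) :
    qExpand R d (jqModC R) ∉ Set.range (qExpand R l) := by
  rintro ⟨y, hy⟩
  have h1 : (qExpand R d (jqModC R)).coeff ((d : ℤ) * (-1)) = 1 := by
    rw [qExpand_coeff_mul, coeff_jqModC_neg_one]
  have h2 : (qExpand R l y).coeff ((d : ℤ) * (-1)) = 0 := by
    refine qExpand_coeff_of_not_dvd l y ?_
    rw [mul_neg_one, dvd_neg]
    exact_mod_cast h
  rw [← hy, h2] at h1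
  exact zero_ne_one h1

end NotMem

section Phi

variable (L : Type*) [Field L] (p : ℕ) [Fact p.Prime]

/-- the modular polynomial `Φ_p ∈ L[Y][X]` (outer variable `X`, inner variable `Y`). -/
def esci_PhiL : Polynomial (Polynomial L) :=
  (Classical.choose (exists_modPoly p)).map (Polynomial.mapRingHom (Int.castRingHom L))

theorem esci_PhiL_monic : (esci_PhiL L p).Monic :=
  (Classical.choose_spec (exists_modPoly p)).1.map _

theorem esci_PhiL_natDegree : (esci_PhiL L p).natDegree = p + 1 := by
  rw [esci_PhiL, (Classical.choose_spec (exists_modPoly p)).1.natDegree_map]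
  exact (Classical.choose_spec (exists_modPoly p)).2.1

/-- `Φ_p(j(q^{dp}); j(q^d)) = 0`. -/
theorem esci_PhiL_rel₁ (d : ℕ) [NeZero d] [NeZero p] [NeZero (d * p)] :
    (esci_PhiL L p).eval₂ (Polynomial.aeval (qExpand L d (jqModC L))).toRingHom
      (qExpand L (d * p) (jqModC L)) = 0 := by
  have hΦ1 := (Classical.choose_spec (exists_modPoly p)).2.2.1
  have h := sa_transfer (Classical.choose (exists_modPoly p)) 1 p
    (by rw [← sa_aeval_int_eq, qExpand_one_apply]; exact hΦ1) L
  rw [qExpand_one_apply, ← sa_eval₂_map] at h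
  have h' := sa_rel_expand _ _ _ h d
  rw [qExpand_qExpand] at h'
  exact h'

/-- `Φ_p(j(q^d); j(q^{dp})) = 0`. -/
theorem esci_PhiL_rel₂ (d : ℕ) [NeZero d] [NeZero p] [NeZero (d * p)] :
    (esci_PhiL L p).eval₂ (Polynomial.aeval (qExpand L (d * p) (jqModC L))).toRingHom
      (qExpand L d (jqModC L)) = 0 := by
  have hΦ2 := (Classical.choose_spec (exists_modPoly p)).2.2.2
  have h := sa_transfer (Classical.choose (exists_modPoly p)) p 1
    (by rw [← sa_aeval_int_eq, qExpand_one_apply]; exact hΦ2) L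
  rw [qExpand_one_apply, ← sa_eval₂_map] at h
  have h' := sa_rel_expand _ _ _ h d
  rw [qExpand_qExpand] at h'
  exact h'

end Phi

section PolyAt

variable {L : Type*} [Field L] (p : ℕ) [Fact p.Prime]
  (F : IntermediateField L (LaurentSeries L))

/-- `Φ_p(X; a) ∈ F[X]` for `a ∈ F`. -/
def esci_polyAt (a : F) : Polynomial F :=
  (esci_PhiL L p).map (Polynomial.aeval a).toRingHom

theorem esci_polyAt_monic (a : F) : (esci_polyAt p F a).Monic :=
  (esci_PhiL_monic L p).map _

theorem esci_polyAt_natDegree (a : F) : (esci_polyAt p F a).natDegree = p + 1 := by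
  rw [esci_polyAt, (esci_PhiL_monic L p).natDegree_map, esci_PhiL_natDegree]

/-- mapping `Φ_p(X; a)` along a ring hom `g : F → S` that is `L`-linear gives `Φ_p(X; g a)`. -/
theorem esci_polyAt_map_eval {S : Type*} [CommRing S] [Algebra L S] (g : F →ₐ[L] S) (a : F)
    (x : S) :
    ((esci_polyAt p F a).map (g : F →+* S)).eval x =
      (esci_PhiL L p).eval₂ (Polynomial.aeval (g a)).toRingHom x := by
  rw [esci_polyAt, Polynomial.map_map, Polynomial.eval_map]
  congr 1
  refine Polynomial.ringHom_ext (fun c => ?_) ?_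
  · simp
  · simp

omit [Fact p.Prime] in
/-- the `L`-algebra hom `F → L((q))`, `f(q) ↦ f(q^p)`. -/
def esci_expandHom [NeZero p] : F →ₐ[L] LaurentSeries L :=
  (qExpandAlgHomC L p).comp F.val

omit [Fact p.Prime] in
@[simp]
theorem esci_expandHom_apply [NeZero p] (a : F) :
    esci_expandHom p F a = qExpand L p (a : LaurentSeries L) := rfl

omit [Fact p.Prime] in
theorem esci_expandHom_coe [NeZero p] :
    ((esci_expandHom p F : F →ₐ[L] LaurentSeries L) : F →+* LaurentSeries L) =
      (qExpand L p).comp (algebraMap F (LaurentSeries L)) := rfl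

/-- **first vanishing**: for `a = j(q^d) ∈ F`, the image of `Φ_p(X; a)` under `q ↦ q^p`
(i.e. `Φ_p(X; j(q^{dp}))`) vanishes at `j(q^d)`. -/
theorem esci_polyAt_eval_gen [NeZero p] (d : ℕ) [NeZero d] (a : F)
    (ha : (a : LaurentSeries L) = qExpand L d (jqModC L)) :
    ((esci_polyAt p F a).map ((qExpand L p).comp (algebraMap F (LaurentSeries L)))).eval
      (qExpand L d (jqModC L)) = 0 := by
  haveI : NeZero (d * p) := ⟨Nat.mul_ne_zero (NeZero.ne d) (NeZero.ne p)⟩
  haveI : NeZero (p * d) := ⟨Nat.mul_ne_zero (NeZero.ne p) (NeZero.ne d)⟩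
  rw [← esci_expandHom_coe, esci_polyAt_map_eval, esci_expandHom_apply, ha, qExpand_qExpand,
    qExpand_congr (mul_comm p d)]
  exact esci_PhiL_rel₂ L p d

/-- **second vanishing**: for `a = j(q^d) ∈ F`, the image of `Φ_p(X; a)` under `q ↦ q^p`
vanishes at `j(q^{d p^2})`. -/
theorem esci_polyAt_eval_last [NeZero p] (d : ℕ) [NeZero d] (a : F)
    (ha : (a : LaurentSeries L) = qExpand L d (jqModC L)) :
    ((esci_polyAt p F a).map ((qExpand L p).comp (algebraMap F (LaurentSeries L)))).eval
      (qExpand L p (qExpand L p (qExpand L d (jqModC L)))) = 0 := by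
  haveI : NeZero (d * p) := ⟨Nat.mul_ne_zero (NeZero.ne d) (NeZero.ne p)⟩
  haveI : NeZero (p * d) := ⟨Nat.mul_ne_zero (NeZero.ne p) (NeZero.ne d)⟩
  haveI : NeZero (d * p * p) := ⟨Nat.mul_ne_zero (NeZero.ne (d * p)) (NeZero.ne p)⟩
  haveI : NeZero (p * (p * d)) := ⟨Nat.mul_ne_zero (NeZero.ne p) (NeZero.ne (p * d))⟩
  rw [← esci_expandHom_coe, esci_polyAt_map_eval, esci_expandHom_apply, ha, qExpand_qExpand,
    qExpand_qExpand, qExpand_congr (mul_comm p d),
    qExpand_congr (show p * (p * d) = d * p * p by ring)]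
  exact esci_PhiL_rel₁ L p (d * p)

end PolyAt

section Degeneracy

variable (L : Type*) [Field L] (N l : ℕ) [NeZero N] [NeZero l]

/-- `α : F_N → F_{N l}`, the inclusion. -/
def esci_alpha : modularFunctionFieldFullC L N →ₐ[L] modularFunctionFieldFullC L (N * l) :=
  IntermediateField.inclusion (full_degeneracyC_le L (dvd_mul_right N l))

@[simp]
theorem esci_coe_alpha (x : modularFunctionFieldFullC L N) :
    ((esci_alpha L N l x : modularFunctionFieldFullC L (N * l)) : LaurentSeries L) =
      (x : LaurentSeries L) := IntermediateField.coe_inclusion _ x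

/-- `β : F_N → F_{N l}`, `f(q) ↦ f(q^l)`. -/
def esci_beta : modularFunctionFieldFullC L N →ₐ[L] modularFunctionFieldFullC L (N * l) where
  toFun x := ⟨qExpand L l (x : LaurentSeries L), full_degeneracyC_map_le L N l ⟨x, x.2, rfl⟩⟩
  map_one' := Subtype.ext (map_one (qExpand L l))
  map_mul' _ _ := Subtype.ext (map_mul (qExpand L l) _ _)
  map_zero' := Subtype.ext (map_zero (qExpand L l))
  map_add' _ _ := Subtype.ext (map_add (qExpand L l) _ _)
  commutes' a := Subtype.ext ((qExpandAlgHomC L l).commutes a)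

omit [NeZero N] in
@[simp]
theorem esci_coe_beta (x : modularFunctionFieldFullC L N) :
    ((esci_beta L N l x : modularFunctionFieldFullC L (N * l)) : LaurentSeries L) =
      qExpand L l (x : LaurentSeries L) := rfl

/-- `j(q^d)` as an element of `F_N`. -/
def esci_jd (d : ℕ) [NeZero d] (hd : d ∣ N) : modularFunctionFieldFullC L N :=
  ⟨qExpand L d (jqModC L), jqModCd_mem_full L N hd⟩

/-- `P_g = Φ_l(X; j(q^d)) ∈ F_N[X]`. -/
def esci_P [Fact l.Prime] (d : ℕ) [NeZero d] (hd : d ∣ N) :
    Polynomial (modularFunctionFieldFullC L N) :=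
  esci_polyAt l (modularFunctionFieldFullC L N) (esci_jd L N d hd)

theorem esci_P_monic [Fact l.Prime] (d : ℕ) [NeZero d] (hd : d ∣ N) :
    (esci_P L N l d hd).Monic := esci_polyAt_monic _ _ _

theorem esci_P_natDegree [Fact l.Prime] (d : ℕ) [NeZero d] (hd : d ∣ N) :
    (esci_P L N l d hd).natDegree = l + 1 := esci_polyAt_natDegree _ _ _

theorem esci_P_eval_gen [Fact l.Prime] (d : ℕ) [NeZero d] (hd : d ∣ N) :
    ((esci_P L N l d hd).map ((qExpand L l).comp
      (algebraMap (modularFunctionFieldFullC L N) (LaurentSeries L)))).eval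
      (qExpand L d (jqModC L)) = 0 :=
  esci_polyAt_eval_gen l _ d (esci_jd L N d hd) rfl

theorem esci_P_eval_last [Fact l.Prime] (d : ℕ) [NeZero d] (hd : d ∣ N) :
    ((esci_P L N l d hd).map ((qExpand L l).comp
      (algebraMap (modularFunctionFieldFullC L N) (LaurentSeries L)))).eval
      (qExpand L l (qExpand L l (qExpand L d (jqModC L)))) = 0 :=
  esci_polyAt_eval_last l _ d (esci_jd L N d hd) rfl

/-- the generators `j(q^d)`, `d ∣ N`, are not in the range of `q ↦ q^l` when `l ∤ N`. -/
theorem esci_gen_notMem_range (hl : ¬ l ∣ N) {g : LaurentSeries L}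
    (hg : g ∈ divisorExpansionsC L N) : g ∉ Set.range (qExpand L l) := by
  obtain ⟨d, hne, hd, rfl⟩ := hg
  haveI := hne
  exact esci_jd_notMem_range d l (fun h => hl (h.trans hd))

/-- `F_N = L(j(q^d) : d ∣ N)` (definitional, for reference). -/
theorem esci_fullC_eq_adjoin :
    modularFunctionFieldFullC L N = IntermediateField.adjoin L (divisorExpansionsC L N) := rfl

end Degeneracy

end

end Fermat.Agent.S37x
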