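/-
S37x/EsConjInstBar (helper16; S37 block B3, STEP 2 CLOSED FORM): the instantiation of helper60's
`esc_norm_eq` at `F = F_N`, `E = F_{N ℓ}` over `Q̄`, in the Prelude's `heckeAlphaBar` /
`heckeBetaBar` dialect:
`β (N_{E/βF}(c - α y)) = (c - y(q^{ℓ²})) ∏_{i : ZMod ℓ} (c - y(ζ^i q))` for all `y ∈ F_N`, `c ∈ Q̄`.
Prefix `esci_`.
-/
import Mathlib
import Fermat.Agent.S37x.EsConj
import Fermat.Agent.S37x.EsConjInst
import Fermat.Agent.S37x.BetaDegree

set_option autoImplicit false

namespace Fermat.Agent.S37x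

open ModularCurve AlgebraicCurve Polynomial IntermediateField
open Fermat.Agent.S24x Fermat.Agent.S28x Fermat.Agent.S18x

noncomputable section

variable (N l : ℕ) [NeZero N] [NeZero l]

/-- the hypothesis `hGP` of `esc_norm_eq` for `F = modularFunctionFieldBar N`,
`G = {j(q^d) : d ∣ N}`. -/
theorem esci_hGP_bar [Fact l.Prime] (g : LaurentSeries Qbar)
    (hg : g ∈ divisorExpansionsC Qbar N) :
    ∃ P : Polynomial (modularFunctionFieldBar N), P.Monic ∧ P.natDegree = l + 1 ∧
      (P.map (esc_SF l (modularFunctionFieldBar N))).eval g = 0 ∧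
      (P.map (esc_SF l (modularFunctionFieldBar N))).eval
        (qExpand Qbar l (qExpand Qbar l g)) = 0 := by
  obtain ⟨d, hne, hd, rfl⟩ := hg
  haveI := hne
  have hmem : qExpand Qbar d (jqModC Qbar) ∈ modularFunctionFieldBar N := by
    rw [← ccp_fullC_eq_bar N]
    exact jqModCd_mem_full Qbar N hd
  refine ⟨esci_polyAt l (modularFunctionFieldBar N) ⟨_, hmem⟩, esci_polyAt_monic _ _ _,
    esci_polyAt_natDegree _ _ _, ?_, ?_⟩
  · exact esci_polyAt_eval_gen l (modularFunctionFieldBar N) d ⟨_, hmem⟩ rfl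
  · exact esci_polyAt_eval_last l (modularFunctionFieldBar N) d ⟨_, hmem⟩ rfl

/-- **STEP 2, closed form** (Prelude dialect): for `ℓ ∤ N` prime, `ζ` a primitive `ℓ`-th root of
unity in `Q̄`, `y ∈ F_N`, `c ∈ Q̄`:
`β (N_{F_{Nℓ}/β F_N}(c - α y)) = (c - y(q^{ℓ²})) ∏_{i : ZMod ℓ} (c - y(ζ^i q))`. -/
theorem esci_norm_eq_bar [Fact l.Prime] (hlN : ¬ l ∣ N) (ζ : Qbarˣ) (hζ : IsPrimitiveRoot ζ l)
    (y : modularFunctionFieldBar N) (c : Qbar) :
    letI := algebraAlong (heckeBetaBar Qbar N l)
    ((heckeBetaBar Qbar N l (Algebra.norm (modularFunctionFieldBar N)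
        (algebraMap Qbar (modularFunctionFieldBar (N * l)) c - heckeAlphaBar Qbar N l y)) :
        modularFunctionFieldBar (N * l)) : LaurentSeries Qbar) =
      (HahnSeries.C c - qExpand Qbar l (qExpand Qbar l (y : LaurentSeries Qbar))) *
        esc_prod l ζ c (y : LaurentSeries Qbar) := by
  have hl : l.Prime := Fact.out
  have hFE : modularFunctionFieldBar N ≤ modularFunctionFieldBar (N * l) := by
    rw [← ccp_fullC_eq_bar N, ← ccp_fullC_eq_bar (N * l)]
    exact full_degeneracyC_le Qbar (dvd_mul_right N l)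
  have hdeg : letI := (heckeBetaBar Qbar N l).toRingHom.toAlgebra
      Module.finrank (modularFunctionFieldBar N) (modularFunctionFieldBar (N * l)) = l + 1 :=
    bdg37_finrankAlong_beta N l hl hlN
  have hG : IntermediateField.adjoin Qbar (divisorExpansionsC Qbar N) =
      modularFunctionFieldBar N := ccp_fullC_eq_bar N
  have hGne : (divisorExpansionsC Qbar N).Nonempty :=
    ⟨_, mem_divisorExpansionsC Qbar N (one_dvd N)⟩
  exact esc_norm_eq l ζ hζ (modularFunctionFieldBar N) (modularFunctionFieldBar (N * l)) hFE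
    (heckeBetaBar Qbar N l) (fun z => coe_heckeBetaBar N l z) hdeg
    (divisorExpansionsC Qbar N) hG hGne
    (fun g hg => esci_gen_notMem_range Qbar N l hlN hg)
    (fun g hg => esci_hGP_bar N l g hg) y c

end

end Fermat.Agent.S37x
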