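/-
S37x/EsConjInstAL (helper16; S37 block B3): CLOSED FORMS at `F = F_N`, `E = F_{N ℓ}` over `Q̄`
(Prelude dialect `heckeAlphaBar` / `heckeBetaBar`) of helper60's `S37x/EsConjAL.lean`:
* `esci_exists_zeta`          : a primitive `ℓ`-th root of unity in `Q̄ˣ`;
* `esci_hFE_bar`, `esci_hdeg_bar`, `esci_hG_bar`, `esci_hGne_bar`, `esci_hGS_bar`
                              : the hypotheses of `esc_norm_eq` / `esca_*` at level `N`;
* `esci_involution_bar`       : the Atkin–Lehner ring automorphism `w` of `F_{Nℓ}`, `w β = α`, `w α = β`;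
* `esci_norm_swap_bar`        : `N_{E/αF}(β u) = N_{E/βF}(α u)`;
* `esci_exists_tau_bar`       : the last embedding `τ` with the norm formula for ALL `x ∈ E`;
* `esci_norm_zero_bar`        : `β(N_{E/βF}(α u)) = u(q^{ℓ²}) ∏_i u(ζ^i q)`.
Prefix `esci_`.
-/
import Mathlib
import Fermat.Agent.S37x.EsConjAL
import Fermat.Agent.S37x.EsConjInstBar

set_option autoImplicit false

namespace Fermat.Agent.S37x

open ModularCurve AlgebraicCurve Polynomial IntermediateField
open Fermat.Agent.S24x Fermat.Agent.S28x Fermat.Agent.S18x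

noncomputable section

variable (N l : ℕ) [NeZero N] [NeZero l]

/-- a primitive `ℓ`-th root of unity in `Q̄ˣ`. -/
theorem esci_exists_zeta : ∃ ζ : Qbarˣ, IsPrimitiveRoot ζ l := by
  haveI : NeZero ((l : ℕ) : ℚ) := ⟨by exact_mod_cast NeZero.ne l⟩
  obtain ⟨z, hz⟩ := HasEnoughRootsOfUnity.exists_primitiveRoot Qbar l
  have hz0 : z ≠ 0 := hz.ne_zero (NeZero.ne l)
  refine ⟨Units.mk0 z hz0, ?_⟩
  rw [← IsPrimitiveRoot.coe_units_iff]
  exact hz

theorem esci_hFE_bar : modularFunctionFieldBar N ≤ modularFunctionFieldBar (N * l) := by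
  rw [← ccp_fullC_eq_bar N, ← ccp_fullC_eq_bar (N * l)]
  exact full_degeneracyC_le Qbar (dvd_mul_right N l)

theorem esci_hdeg_bar (hl : l.Prime) (hlN : ¬ l ∣ N) :
    letI := (heckeBetaBar Qbar N l).toRingHom.toAlgebra
    Module.finrank (modularFunctionFieldBar N) (modularFunctionFieldBar (N * l)) = l + 1 :=
  bdg37_finrankAlong_beta N l hl hlN

theorem esci_hG_bar :
    IntermediateField.adjoin Qbar (divisorExpansionsC Qbar N) = modularFunctionFieldBar N :=
  ccp_fullC_eq_bar N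

omit [NeZero N] in
theorem esci_hGne_bar : (divisorExpansionsC Qbar N).Nonempty :=
  ⟨_, mem_divisorExpansionsC Qbar N (one_dvd N)⟩

theorem esci_hGS_bar (hlN : ¬ l ∣ N) :
    ∀ g ∈ divisorExpansionsC Qbar N, g ∉ Set.range (qExpand Qbar l) :=
  fun _ hg => esci_gen_notMem_range Qbar N l hlN hg

theorem esci_heckeAlphaBar_eq :
    heckeAlphaBar Qbar N l = IntermediateField.inclusion (esci_hFE_bar N l) := rfl

/-- **the Atkin–Lehner ring automorphism** of `F_{Nℓ}`: `w ∘ β = α`, `w ∘ α = β`, `w² = 1`,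
`w` fixes constants. -/
theorem esci_involution_bar [Fact l.Prime] (hlN : ¬ l ∣ N) :
    ∃ w : modularFunctionFieldBar (N * l) ≃+* modularFunctionFieldBar (N * l),
      (∀ z : modularFunctionFieldBar N, w (heckeBetaBar Qbar N l z) = heckeAlphaBar Qbar N l z) ∧
      (∀ z : modularFunctionFieldBar N, w (heckeAlphaBar Qbar N l z) = heckeBetaBar Qbar N l z) ∧
      (∀ x, w (w x) = x) ∧
      (∀ c : Qbar, w (algebraMap Qbar (modularFunctionFieldBar (N * l)) c) =
        algebraMap Qbar (modularFunctionFieldBar (N * l)) c) := by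
  obtain ⟨ζ, hζ⟩ := esci_exists_zeta l
  exact esca_exists_involution l ζ hζ (modularFunctionFieldBar N)
    (modularFunctionFieldBar (N * l)) (esci_hFE_bar N l) (heckeBetaBar Qbar N l)
    (fun z => coe_heckeBetaBar N l z) (esci_hdeg_bar N l Fact.out hlN)
    (divisorExpansionsC Qbar N) (esci_hG_bar N) (esci_hGne_bar N) (esci_hGS_bar N l hlN)
    (fun g hg => esci_hGP_bar N l g hg)

/-- **norm swap**: `N_{E/αF}(β u) = N_{E/βF}(α u)` in `F_N`. -/
theorem esci_norm_swap_bar [Fact l.Prime] (hlN : ¬ l ∣ N) (u : modularFunctionFieldBar N) :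
    @Algebra.norm (modularFunctionFieldBar N) (modularFunctionFieldBar (N * l)) _ _
        (algebraAlong (heckeAlphaBar Qbar N l)) (heckeBetaBar Qbar N l u) =
      @Algebra.norm (modularFunctionFieldBar N) (modularFunctionFieldBar (N * l)) _ _
        (algebraAlong (heckeBetaBar Qbar N l)) (heckeAlphaBar Qbar N l u) := by
  obtain ⟨ζ, hζ⟩ := esci_exists_zeta l
  exact esca_norm_swap l ζ hζ (modularFunctionFieldBar N)
    (modularFunctionFieldBar (N * l)) (esci_hFE_bar N l) (heckeBetaBar Qbar N l)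
    (fun z => coe_heckeBetaBar N l z) (esci_hdeg_bar N l Fact.out hlN)
    (divisorExpansionsC Qbar N) (esci_hG_bar N) (esci_hGne_bar N) (esci_hGS_bar N l hlN)
    (fun g hg => esci_hGP_bar N l g hg) u

/-- **the last embedding** `τ : F_{Nℓ} → Q̄((q))` (`τ ∘ β = incl`, `τ ∘ α = (q ↦ q^ℓ)`) with the norm
formula for ALL `x ∈ F_{Nℓ}`. -/
theorem esci_exists_tau_bar [Fact l.Prime] (hlN : ¬ l ∣ N) (ζ : Qbarˣ)
    (hζ : IsPrimitiveRoot ζ l) :
    letI := algebraAlong (heckeBetaBar Qbar N l)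
    ∃ τ : modularFunctionFieldBar (N * l) →+* LaurentSeries Qbar,
      (∀ z : modularFunctionFieldBar N, τ (heckeBetaBar Qbar N l z) = (z : LaurentSeries Qbar)) ∧
      (∀ y : modularFunctionFieldBar N,
        τ (heckeAlphaBar Qbar N l y) = qExpand Qbar l (y : LaurentSeries Qbar)) ∧
      (∀ x : modularFunctionFieldBar (N * l),
        ((heckeBetaBar Qbar N l (Algebra.norm (modularFunctionFieldBar N) x) :
          modularFunctionFieldBar (N * l)) : LaurentSeries Qbar) =
        qExpand Qbar l (τ x) * ∏ i : ZMod l, esc_R l ζ i (x : LaurentSeries Qbar)) := by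
  obtain ⟨τ, h1, h2, h3, -⟩ := esca_exists_tau l ζ hζ (modularFunctionFieldBar N)
    (modularFunctionFieldBar (N * l)) (esci_hFE_bar N l) (heckeBetaBar Qbar N l)
    (fun z => coe_heckeBetaBar N l z) (esci_hdeg_bar N l Fact.out hlN)
    (divisorExpansionsC Qbar N) (esci_hG_bar N) (esci_hGne_bar N) (esci_hGS_bar N l hlN)
    (fun g hg => esci_hGP_bar N l g hg)
  exact ⟨τ, h1, h2, h3⟩

/-- `β(N_{E/βF}(α u)) = u(q^{ℓ²}) ∏_i u(ζ^i q)`. -/
theorem esci_norm_zero_bar [Fact l.Prime] (hlN : ¬ l ∣ N) (ζ : Qbarˣ)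
    (hζ : IsPrimitiveRoot ζ l) (u : modularFunctionFieldBar N) :
    letI := algebraAlong (heckeBetaBar Qbar N l)
    ((heckeBetaBar Qbar N l (Algebra.norm (modularFunctionFieldBar N)
        (heckeAlphaBar Qbar N l u)) : modularFunctionFieldBar (N * l)) : LaurentSeries Qbar) =
      qExpand Qbar l (qExpand Qbar l (u : LaurentSeries Qbar)) *
        ∏ i : ZMod l, esc_R l ζ i (u : LaurentSeries Qbar) := by
  obtain ⟨τ, -, h2, h3⟩ := esci_exists_tau_bar N l hlN ζ hζ
  rw [h3, h2]
  rfl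

end

end Fermat.Agent.S37x
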