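/-
S37 block [B3], helper3 route, row 28 (ES-hL): ASSEMBLY at level `N` (helper54), prefix `es3lb_`.

`es3lb_lifts` : the hypothesis `es3_Lifts ρ T Φ` of helper3's localisation lemma `es3_global(2)` for
* `T = Divisor.correspondence β α` (`β = heckeBetaBar`, `α = heckeAlphaBar` over `Q̄`; this is the
  literal correspondence of the final target `hT`),
* `Φ = es3s_Phi (cfb_frob k N ℓ) ℓ = Frob_* + ℓ (Frob⁻¹)_*`,
for ANY Gauss-type pair `(W, ρ)` on `F_N` over `Q̄` which is cut out by the ambient Gauss ring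
`ga_W A π ⊂ Q̄((q))` (hypotheses `hWmem`, `hρcoe` in helper48's shape; `Iff.rfl`/`rfl` for `gi_W`/`gi_rho`).

The witness is `h := N_{F_{Nℓ}/αF_N} (β u)`:
* `div h = T (div u)`                        : `es3ld_hecke_apply` (S37x/Es3LiftDiv);
* `h = u(q^ℓ) · det (mp_mat ℓ u)` in `Q̄((q))` : `es3lb_norm_series_bar`
  (S37x/Es3LiftSeries + helper16's closed forms S37x/EsConjInstAL);
* `h ∈ W`, `ρ h = (Frob⁻¹ ū)^ℓ · Frob ū`      : `es3ls_*` + helper48's `cfb_` dictionary;
* `div (ρ h) = Φ (div ū)`                    : helper70's `es3pd_Phi_div`.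
-/
import Mathlib
import Fermat.Agent.S37x.Es3LiftDiv
import Fermat.Agent.S37x.Es3LiftSeries
import Fermat.Agent.S37x.EsConjInstAL
import Fermat.Agent.S37x.Es3PhiDiv
import Fermat.Agent.S37x.Es3Local
import Fermat.Agent.S37x.CoeffFrob

set_option autoImplicit false
set_option linter.unusedSectionVars false
set_option linter.style.haveILetI false

namespace Fermat.Agent.S37x

open ModularCurve AlgebraicCurve HahnSeries Polynomial IntermediateField
open Fermat.Agent.S24x Fermat.Agent.S28x Fermat.Agent.S18x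

noncomputable section

variable (N l : ℕ) [NeZero N] [NeZero l]

/-- **(ii) at level `N`**: the `q`-expansion of `h = N_{F_{Nℓ}/αF_N}(β u)` is
`u(q^ℓ) · det (mp_mat ℓ u)`. -/
theorem es3lb_norm_series_bar [Fact l.Prime] (hlN : ¬ l ∣ N) (u : modularFunctionFieldBar N) :
    ((@Algebra.norm (modularFunctionFieldBar N) (modularFunctionFieldBar (N * l)) _ _
        (algebraAlong (heckeAlphaBar Qbar N l)) (heckeBetaBar Qbar N l u) :
          modularFunctionFieldBar N) : LaurentSeries Qbar) =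
      qExpand Qbar l (u : LaurentSeries Qbar) * (mp_mat l (u : LaurentSeries Qbar)).det := by
  obtain ⟨ζ, hζ⟩ := esci_exists_zeta l
  exact es3ls_norm_series l ζ hζ (modularFunctionFieldBar N)
    (modularFunctionFieldBar (N * l)) (esci_hFE_bar N l) (heckeBetaBar Qbar N l)
    (fun z => coe_heckeBetaBar N l z) (esci_hdeg_bar N l Fact.out hlN)
    (divisorExpansionsC Qbar N) (esci_hG_bar N) (esci_hGne_bar N) (esci_hGS_bar N l hlN)
    (fun g hg => esci_hGP_bar N l g hg) u

section Assembly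

variable {A : ValuationSubring Qbar} {k : Type*} [Field k] {π : A →+* k}
variable {W : ValuationSubring (modularFunctionFieldBar N)}
variable {ρ : W →+* modularFunctionFieldFullC k N}

/-- **(iii) at level `N`**: `h = N_α(β u) ∈ W` and `ρ h = (Frob⁻¹ ū)^ℓ · Frob ū`. -/
theorem es3lb_norm_mem_and_rho [hl : Fact l.Prime] [CharP k l] [PerfectRing k l] (hlN : ¬ l ∣ N)
    (hWmem : ∀ x : modularFunctionFieldBar N, x ∈ W ↔ (x : LaurentSeries Qbar) ∈ ga_W A π)
    (hρcoe : ∀ x : W, ((ρ x : modularFunctionFieldFullC k N) : LaurentSeries k) =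
      ga_rho A π ⟨((x : modularFunctionFieldBar N) : LaurentSeries Qbar), (hWmem x).mp x.2⟩)
    (u : W) :
    ∃ hh : @Algebra.norm (modularFunctionFieldBar N) (modularFunctionFieldBar (N * l)) _ _
        (algebraAlong (heckeAlphaBar Qbar N l)) (heckeBetaBar Qbar N l (u : modularFunctionFieldBar N)) ∈ W,
      ρ ⟨_, hh⟩ = ((cfb_frob k N l)⁻¹ • ρ u) ^ l * (cfb_frob k N l • ρ u) := by
  have hs := es3lb_norm_series_bar N l hlN (u : modularFunctionFieldBar N)
  have hu : ((u : modularFunctionFieldBar N) : LaurentSeries Qbar) ∈ ga_W A π := (hWmem u).mp u.2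
  have hmem := es3ls_mem_W l A π hu
  have hh : @Algebra.norm (modularFunctionFieldBar N) (modularFunctionFieldBar (N * l)) _ _
      (algebraAlong (heckeAlphaBar Qbar N l)) (heckeBetaBar Qbar N l (u : modularFunctionFieldBar N)) ∈ W := by
    rw [hWmem, hs]; exact hmem
  refine ⟨hh, ?_⟩
  apply Subtype.ext
  rw [hρcoe ⟨_, hh⟩]
  have h1 := es3ls_rho_charP l A π hu
  have h2 : ga_rho A π ⟨_, (hWmem _).mp hh⟩ = ga_rho A π ⟨_, hmem⟩ := ga_rho_congr A π hs _ _
  rw [h2, h1, ← hρcoe u]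
  show _ = ((((cfb_frob k N l)⁻¹ • ρ u) ^ l : modularFunctionFieldFullC k N) : LaurentSeries k) *
    ((cfb_frob k N l • ρ u : modularFunctionFieldFullC k N) : LaurentSeries k)
  rw [← cfb_qPow_apply, cfb_coe_qPow, cfb_coe_frob_smul]


/-- **row 28 (ES-hL) at level `N`**: `es3_Lifts` for `T_ℓ = α_* β^*` and `Φ = Frob_* + ℓ (Frob⁻¹)_*`. -/
theorem es3lb_lifts [hl : Fact l.Prime] [CharP k l] [PerfectRing k l] (hlN : ¬ l ∣ N)
    [HasPrincipalDivisors Qbar (laurentBaseChange Qbar (modularFunctionFieldFull (N * l)))]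
    (hWmem : ∀ x : modularFunctionFieldBar N, x ∈ W ↔ (x : LaurentSeries Qbar) ∈ ga_W A π)
    (hρcoe : ∀ x : W, ((ρ x : modularFunctionFieldFullC k N) : LaurentSeries k) =
      ga_rho A π ⟨((x : modularFunctionFieldBar N) : LaurentSeries Qbar), (hWmem x).mp x.2⟩) :
    es3_Lifts ρ
      (Divisor.correspondence (heckeBetaBar Qbar N l) (heckeAlphaBar Qbar N l)
        (bt37_betaIntegral N l) (bt37_alphaIntegral N l))
      (es3s_Phi (cfb_frob k N l) l) := by
  intro u hu D hD Db hDb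
  obtain ⟨hh, hρh⟩ := es3lb_norm_mem_and_rho N l hlN hWmem hρcoe u
  have hu0 : (u : modularFunctionFieldBar N) ≠ 0 := by
    intro h0
    apply hu
    have : u = 0 := Subtype.ext h0
    rw [this, map_zero]
  refine ⟨⟨_, hh⟩, ?_, ?_, ?_⟩
  · rw [hρh]
    exact mul_ne_zero (pow_ne_zero _ (es3pd_smul_ne_zero _ hu)) (es3pd_smul_ne_zero _ hu)
  · intro P
    exact es3ld_hecke_apply N l hu0 hD P
  · intro Q
    rw [hρh]
    exact es3pd_Phi_div (cfb_frob k N l) l (ρ u) Db hDb Q

end Assembly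

end

end Fermat.Agent.S37x
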