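/-
S37 project, block R = [B1] (`ReductionInputsModL A N` for `ℓ ∤ N`), file 1 (helper4, prefix `ctm_` =
"centre map"): ABSTRACT DEFINITIONS.

Setting (abstract, `ts_`-style): `L`, `k` algebraically closed fields, `A ⊆ L` a valuation subring with
residue map `π : A → k`, `F/L` and `Fb/k` function fields, `W ⊆ F` the Gauss valuation subring with
residue map `ρ : W → Fb`.

* `ctm_Gauss A π W ρ` : the `r`-free part of `s18a_Gauss` (no place map, no compatibility);
* `ctm_Coord L k W ρ g` : `g ∈ W` is a separating coordinate of `F/L`, its reduction `ρ g` is a separating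
  coordinate of `Fb/k`, and `[F : L(g)] = [Fb : k(ρ g)]`;
* `ctm_Int L k W ρ g` : normality of the chart `g` (every element of `Fb` integral over `k[ρ g]` lifts to
  an element of `W` integral over `L[g]`) — the shape of `hInt0` / `hIntInf` of `glu_result_of_gauss_int`;
* `ctm_valIn A P g` : "`g(P) ∈ A`" for a place `P` of `F/L`;
* `ctm_valRed A π P g cb` : "`g(P) ∈ A` and `g(P)` reduces to `cb`".
-/
import Mathlib
import Fermat.Agent.S18x.PlsFund

set_option autoImplicit false

namespace Fermat.Agent.S37x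

open AlgebraicCurve Fermat.Agent.S18x Fermat.Agent.S24x

section Defs

variable {L k F Fb : Type*} [Field L] [Field k] [Field F] [Field Fb] [Algebra L F] [Algebra k Fb]

/-- The Gauss data without any place map: `s18a_Gauss` minus `compat`, `hdegr`. -/
structure ctm_Gauss (A : ValuationSubring L) (π : A →+* k) (W : ValuationSubring F)
    (ρ : W →+* Fb) : Prop where
  mem_iff : ∀ c : L, algebraMap L F c ∈ W ↔ c ∈ A
  rho_alg : ∀ (c : L) (hc : c ∈ A) (hW : algebraMap L F c ∈ W),
    ρ ⟨algebraMap L F c, hW⟩ = algebraMap k Fb (π ⟨c, hc⟩)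
  pi_surj : Function.Surjective π
  ker : ∀ x : W, ρ x = 0 ↔ ¬ IsUnit x
  norm : ∀ x : F, x ≠ 0 → ∃ c : L, c ≠ 0 ∧ algebraMap L F c * x ∈ W ∧ (algebraMap L F c * x)⁻¹ ∈ W
  rho_surj : Function.Surjective ρ

/-- `g ∈ W` is a separating coordinate upstairs and downstairs, of the same degree. -/
structure ctm_Coord (L k : Type*) {F Fb : Type*} [Field L] [Field k] [Field F] [Field Fb]
    [Algebra L F] [Algebra k Fb] (W : ValuationSubring F) (ρ : W →+* Fb) (g : W) : Prop where
  sep : pls_IsSepCoordinate L F (g : F)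
  sepb : pls_IsSepCoordinate k Fb (ρ g)
  deg : cdeg L F (g : F) = cdeg k Fb (ρ g)

/-- Normality of the chart `g`: the shape of `hInt0` / `hIntInf` of `glu_result_of_gauss_int`. -/
def ctm_Int (L k : Type*) {F Fb : Type*} [Field L] [Field k] [Field F] [Field Fb]
    [Algebra L F] [Algebra k Fb] (W : ValuationSubring F) (ρ : W →+* Fb) (g : W) : Prop :=
  ∀ yb : Fb, IsIntegral (Algebra.adjoin k {ρ g}) yb →
    ∃ u : W, ρ u = yb ∧ IsIntegral (Algebra.adjoin L {(g : F)}) (u : F)

/-- "`g(P) ∈ A`": the function `g` is regular at `P` with value in `A`. -/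
def ctm_valIn (A : ValuationSubring L) (P : Place L F) (g : F) : Prop :=
  ∃ a : L, a ∈ A ∧ P.adicValuation (g - algebraMap L F a) < 1

/-- "`g(P) ∈ A` and `g(P)` reduces to `cb`". -/
def ctm_valRed (A : ValuationSubring L) (π : A →+* k) (P : Place L F) (g : F) (cb : k) : Prop :=
  ∃ (a : L) (ha : a ∈ A), π ⟨a, ha⟩ = cb ∧ P.adicValuation (g - algebraMap L F a) < 1

end Defs

section Basic

variable {L k F Fb : Type*} [Field L] [Field k] [Field F] [Field Fb] [Algebra L F] [Algebra k Fb]
variable {A : ValuationSubring L} {π : A →+* k} {W : ValuationSubring F} {ρ : W →+* Fb}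

theorem ctm_valRed.valIn {P : Place L F} {g : F} {cb : k} (h : ctm_valRed A π P g cb) :
    ctm_valIn A P g := by
  obtain ⟨a, ha, -, hv⟩ := h
  exact ⟨a, ha, hv⟩

theorem ctm_valIn.exists_valRed {P : Place L F} {g : F} (h : ctm_valIn A P g) :
    ∃ cb : k, ctm_valRed A π P g cb := by
  obtain ⟨a, ha, hv⟩ := h
  exact ⟨π ⟨a, ha⟩, a, ha, rfl, hv⟩


/-- the inverse chart: if `g * ginv = 1` in `W` then `ginv` is again a coordinate of the same degree
upstairs and downstairs. -/
theorem ctm_Coord.inv {g ginv : W} (hg : ctm_Coord L k W ρ g) (h : g * ginv = 1) :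
    ctm_Coord L k W ρ ginv := by
  have h1 : (g : F) * (ginv : F) = 1 := by
    have := congrArg Subtype.val h
    simpa using this
  have h2 : (ginv : F) = ((g : F))⁻¹ := eq_inv_of_mul_eq_one_right h1
  have h3 : ρ g * ρ ginv = 1 := by rw [← map_mul, h, map_one]
  have h4 : ρ ginv = (ρ g)⁻¹ := eq_inv_of_mul_eq_one_right h3
  refine ⟨?_, ?_, ?_⟩
  · rw [h2]; exact pls_isSepCoordinate_inv hg.sep
  · rw [h4]; exact pls_isSepCoordinate_inv hg.sepb
  · rw [h2, h4, fid_cdeg_inv, fid_cdeg_inv]; exact hg.deg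

namespace ctm_Gauss

variable (G : ctm_Gauss A π W ρ)
include G

/-- constants of `A` lie in `W` -/
theorem algW {c : L} (hc : c ∈ A) : algebraMap L F c ∈ W := (G.mem_iff c).mpr hc

/-- the constant `c ∈ A` as an element of `W` -/
def cW (c : A) : W := ⟨algebraMap L F (c : L), G.algW c.2⟩

theorem rho_cW (c : A) : ρ (G.cW c) = algebraMap k Fb (π c) := G.rho_alg (c : L) c.2 _

theorem coe_cW (c : A) : ((G.cW c : W) : F) = algebraMap L F (c : L) := rfl

/-- `π a = 0` iff `a` is not a unit of `A`. -/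
theorem pi_eq_zero_iff (a : A) : π a = 0 ↔ ¬ IsUnit a := by
  constructor
  · intro h hu
    have := hu.map π
    rw [h] at this
    exact not_isUnit_zero this
  · intro hnu
    by_contra hne
    apply hnu
    have hρ : ρ (G.cW a) ≠ 0 := by
      rw [G.rho_cW]
      exact fun h => hne ((map_eq_zero_iff _ (algebraMap k Fb).injective).mp h)
    have hu : IsUnit (G.cW a) := by
      by_contra hnu'
      exact hρ ((G.ker _).mpr hnu')
    obtain ⟨⟨u, v, huv, hvu⟩, hu'⟩ := hu
    have hu'' : (u : F) = algebraMap L F (a : L) := congrArg Subtype.val hu'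
    have h1 : (u : F) * (v : F) = 1 := by
      have := congrArg Subtype.val huv
      simpa using this
    have ha0 : (a : L) ≠ 0 := by
      intro h0
      rw [hu'', h0, map_zero, zero_mul] at h1
      exact zero_ne_one h1
    have hv : (v : F) = algebraMap L F ((a : L)⁻¹) := by
      rw [map_inv₀]
      rw [hu''] at h1
      exact eq_inv_of_mul_eq_one_right h1
    have hainv : ((a : L))⁻¹ ∈ A := by
      rw [← G.mem_iff, ← hv]
      exact v.2
    refine IsUnit.of_mul_eq_one (⟨(a : L)⁻¹, hainv⟩ : A) ?_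
    apply Subtype.ext
    show (a : L) * (a : L)⁻¹ = 1
    exact mul_inv_cancel₀ ha0

/-- an element of `W` with nonzero reduction is a unit of `W` -/
theorem isUnit_of_rho_ne_zero {x : W} (h : ρ x ≠ 0) : IsUnit x := by
  by_contra hnu
  exact h ((G.ker x).mpr hnu)

theorem inv_mem_of_rho_ne_zero {x : W} (h : ρ x ≠ 0) : ((x : F))⁻¹ ∈ W := by
  obtain ⟨⟨u, v, huv, hvu⟩, hu'⟩ := G.isUnit_of_rho_ne_zero h
  have hu'' : (u : F) = (x : F) := by
    have := congrArg Subtype.val hu'
    simpa using this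
  have h1 : (u : F) * (v : F) = 1 := by
    have := congrArg Subtype.val huv
    simpa using this
  rw [hu''] at h1
  have : (v : F) = ((x : F))⁻¹ := eq_inv_of_mul_eq_one_right h1
  rw [← this]
  exact v.2

/-- `x ∈ W` with `ρ x = 0`, `x ≠ 0`: `x = c * x'` with `c ∈ A` a non-unit and `x'` a unit of `W`. -/
theorem exists_factor_of_rho_eq_zero {x : W} (hx : ρ x = 0) (hx0 : (x : F) ≠ 0) :
    ∃ (c : A) (x' : W), π c = 0 ∧ ρ x' ≠ 0 ∧ (x : F) = algebraMap L F (c : L) * (x' : F) := by
  obtain ⟨d, hd0, hdx, hdxi⟩ := G.norm (x : F) hx0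
  -- x' := d * x is a unit of W
  have hx'u : IsUnit (⟨algebraMap L F d * (x : F), hdx⟩ : W) := by
    refine IsUnit.of_mul_eq_one (⟨(algebraMap L F d * (x : F))⁻¹, hdxi⟩ : W) ?_
    apply Subtype.ext
    show algebraMap L F d * (x : F) * (algebraMap L F d * (x : F))⁻¹ = 1
    have hdF : algebraMap L F d ≠ 0 := by simpa using hd0
    exact mul_inv_cancel₀ (mul_ne_zero hdF hx0)
  have hρx' : ρ (⟨algebraMap L F d * (x : F), hdx⟩ : W) ≠ 0 := by
    intro h
    exact ((G.ker _).mp h) hx'u
  -- d⁻¹ = x * (d x)⁻¹ ∈ W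
  have hdF : algebraMap L F d ≠ 0 := by simpa using hd0
  have hdinvW : algebraMap L F d⁻¹ ∈ W := by
    have : algebraMap L F d⁻¹ = (x : F) * (algebraMap L F d * (x : F))⁻¹ := by
      rw [map_inv₀, mul_inv, mul_comm (algebraMap L F d)⁻¹, ← mul_assoc, mul_inv_cancel₀ hx0,
        one_mul]
    rw [this]
    exact W.mul_mem _ _ x.2 hdxi
  have hdinvA : d⁻¹ ∈ A := (G.mem_iff _).mp hdinvW
  refine ⟨⟨d⁻¹, hdinvA⟩, ⟨algebraMap L F d * (x : F), hdx⟩, ?_, hρx', ?_⟩
  · -- π d⁻¹ = 0 since otherwise x = d⁻¹ (d x) would have nonzero reduction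
    by_contra hne
    apply hρx'
    have hprod : x = G.cW ⟨d⁻¹, hdinvA⟩ * ⟨algebraMap L F d * (x : F), hdx⟩ := by
      apply Subtype.ext
      show (x : F) = algebraMap L F d⁻¹ * (algebraMap L F d * (x : F))
      rw [← mul_assoc, ← map_mul, inv_mul_cancel₀ hd0, map_one, one_mul]
    have h0 : ρ (G.cW ⟨d⁻¹, hdinvA⟩) * ρ ⟨algebraMap L F d * (x : F), hdx⟩ = 0 := by
      rw [← map_mul, ← hprod, hx]
    rcases mul_eq_zero.mp h0 with h | h
    · rw [G.rho_cW] at h
      exact absurd ((map_eq_zero_iff _ (algebraMap k Fb).injective).mp h) hne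
    · exact h
  · show (x : F) = algebraMap L F d⁻¹ * (algebraMap L F d * (x : F))
    rw [← mul_assoc, ← map_mul, inv_mul_cancel₀ hd0, map_one, one_mul]

end ctm_Gauss

end Basic

end Fermat.Agent.S37x
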