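/-
S37x/CtmHFree (helper63, S37 [B1] leaf C7a, prefix `cthf_`): the `h`-FREE S18 PACKAGE at level `N`
in the vocabulary of helper4's `S37x/CtmDefs`, for helper40's canonical objects
(`nrmt_W N A`, `nrmt_rho N A ℓ hℓN hA`, `nrmt_J N A`; `k = IsLocalRing.ResidueField A`), `ℓ ∤ N`:

* `cthf_gauss`        : `ctm_Gauss A (residue A) (nrmt_W N A) (nrmt_rho ..)`;
* `cthf_coord`        : `ctm_Coord Q̄ k (nrmt_W N A) (nrmt_rho ..) (nrmt_J N A)`;
* `cthf_Jinv`, `cthf_J_mul_Jinv`, `cthf_Jinv_coe`, `cthf_rho_Jinv`;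
* `cthf_int0_of_HY`   : `nrmt_HY N A ℓ hℓN hA → ctm_Int .. (nrmt_J N A)`;
* `cthf_intInf`       : `ctm_Int .. (cthf_Jinv ..)` from `nrmt_HY N` + OUT-C-onto
                        (helper85's `nrtf_hIntInf`);
* `cthf_HY_of_dvd`    : `nrmt_HY M → nrmt_HY N` for `N ∣ M` (= helper85's `nrtf_HY_descent`).
These are exactly the hypotheses of helper4's abstract main theorem `ctm_main`.
-/
import Mathlib
import Fermat.Agent.S37x.CtmDefs
import Fermat.Agent.S18x.NrmTopFree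
import Fermat.Agent.S18x.NrmNCoord
import Fermat.Agent.S18x.GlueDegEq
import Fermat.Agent.S18x.HzCountJ

set_option autoImplicit false
set_option synthInstance.maxHeartbeats 400000
set_option linter.style.haveILetI false

namespace Fermat.Agent.S37x

open ModularCurve HahnSeries AlgebraicCurve IntermediateField Polynomial
open Fermat.Agent.S18x Fermat.Agent.S24x Fermat.Agent.S28x

noncomputable section

variable (N : ℕ) [NeZero N] (A : ValuationSubring (AlgebraicClosure ℚ))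
  (ℓ : ℕ) [Fact ℓ.Prime] (hℓN : ¬ ℓ ∣ N) (hA : A.LiesOverPrime ℓ)

/-- **the `r`-free Gauss package** for the canonical `h`-free pair at level `N`. -/
theorem cthf_gauss :
    ctm_Gauss A (IsLocalRing.residue A) (nrmt_W N A) (nrmt_rho N A ℓ hℓN hA) where
  mem_iff := nrtf_mem_iff N A
  rho_alg := nrtf_rho_alg N A ℓ hℓN hA
  pi_surj := IsLocalRing.residue_surjective
  ker := nrmt_rho_eq_zero_iff N A ℓ hℓN hA
  norm := by
    intro x hx
    obtain ⟨c, hc, u, hWu, hρu, hxu⟩ := nrmt_nf N A x hx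
    have hcF : algebraMap (AlgebraicClosure ℚ) (FBar N) c ≠ 0 := by
      simpa using hc
    have hxu' : algebraMap (AlgebraicClosure ℚ) (FBar N) c⁻¹ * x = u := by
      rw [hxu, ← mul_assoc, ← map_mul, inv_mul_cancel₀ hc, map_one, one_mul]
    refine ⟨c⁻¹, inv_ne_zero hc, ?_, ?_⟩
    · rw [hxu']
      exact hWu
    · rw [hxu']
      exact ga_inv_mem A (IsLocalRing.residue A) hWu hρu
  rho_surj := nrmt_rho_surjective N A ℓ hℓN hA

/-- **`j` is a good coordinate** of the canonical pair: separating upstairs and downstairs, of the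
same degree `ψ(N)`. -/
theorem cthf_coord :
    ctm_Coord (AlgebraicClosure ℚ) (IsLocalRing.ResidueField A) (nrmt_W N A)
      (nrmt_rho N A ℓ hℓN hA) (nrmt_J N A) := by
  have hk : IsAlgClosed (IsLocalRing.ResidueField A) := s18a_isAlgClosed_residue A
  haveI : CharP (IsLocalRing.ResidueField A) ℓ := glu_charP A (Fact.out : ℓ.Prime) hA
  refine ⟨?_, ?_, ?_⟩
  · rw [nrmt_J_coe]
    exact nnc_sepCoord_F N
  · rw [nrmt_rho_J]
    exact nnc_sepCoord_Fb (IsLocalRing.ResidueField A) N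
  · rw [nrmt_rho_J, nrmt_J_coe, ← fid_cdeg_inv (jBar N), hzj_cdeg_inv]
    exact (glu_cdeg_eq_psi ℓ (IsLocalRing.ResidueField A) N hℓN).symm

theorem cthf_rho_J_ne_zero : nrmt_rho N A ℓ hℓN hA (nrmt_J N A) ≠ 0 := by
  rw [nrmt_rho_J]
  intro h0
  exact (pls_transcendental_jb (IsLocalRing.ResidueField A) N) (h0 ▸ isAlgebraic_zero)

/-- `1 / j` as an element of the canonical `W_N`. -/
def cthf_Jinv : nrmt_W N A :=
  ⟨(jBar N)⁻¹, (cthf_gauss N A ℓ hℓN hA).inv_mem_of_rho_ne_zero (x := nrmt_J N A)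
    (cthf_rho_J_ne_zero N A ℓ hℓN hA)⟩

theorem cthf_Jinv_coe : ((cthf_Jinv N A ℓ hℓN hA : nrmt_W N A) : FBar N) = (jBar N)⁻¹ := rfl

omit [Fact ℓ.Prime] in
theorem cthf_jBar_ne_zero : (jBar N : FBar N) ≠ 0 := by
  intro h0
  exact (nnc_sepCoord_F N).coord.transcendental (h0 ▸ isAlgebraic_zero)

theorem cthf_J_mul_Jinv : nrmt_J N A * cthf_Jinv N A ℓ hℓN hA = 1 := by
  apply Subtype.ext
  show (jBar N : FBar N) * (jBar N)⁻¹ = 1
  exact mul_inv_cancel₀ (cthf_jBar_ne_zero N)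

theorem cthf_rho_Jinv :
    nrmt_rho N A ℓ hℓN hA (cthf_Jinv N A ℓ hℓN hA) =
      (pls_jb (IsLocalRing.ResidueField A) N)⁻¹ := by
  have h := congrArg (nrmt_rho N A ℓ hℓN hA) (cthf_J_mul_Jinv N A ℓ hℓN hA)
  rw [map_mul, map_one, nrmt_rho_J] at h
  exact eq_inv_of_mul_eq_one_right h

/-- the finite chart: `nrmt_HY N` in the `ctm_Int` shape. -/
theorem cthf_int0_of_HY (hY : nrmt_HY N A ℓ hℓN hA) :
    ctm_Int (AlgebraicClosure ℚ) (IsLocalRing.ResidueField A) (nrmt_W N A)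
      (nrmt_rho N A ℓ hℓN hA) (nrmt_J N A) := by
  intro yb hyb
  rw [nrmt_rho_J] at hyb
  obtain ⟨u, hu, hρu⟩ := (nrmt_HY_iff N A ℓ hℓN hA).mp hY yb hyb
  exact ⟨u, hρu, hu⟩

/-- and back. -/
theorem cthf_HY_of_int0
    (h : ctm_Int (AlgebraicClosure ℚ) (IsLocalRing.ResidueField A) (nrmt_W N A)
      (nrmt_rho N A ℓ hℓN hA) (nrmt_J N A)) : nrmt_HY N A ℓ hℓN hA := by
  rw [nrmt_HY_iff]
  intro yb hyb
  rw [← nrmt_rho_J N A ℓ hℓN hA] at hyb
  obtain ⟨u, hρu, hu⟩ := h yb hyb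
  exact ⟨u, hu, hρu⟩

/-- the chart at infinity in the `ctm_Int` shape, from the finite chart and OUT-C-onto
(`hCo` literally as in helper85's `nrtf_hIntInf`). -/
theorem cthf_intInf (hY : nrmt_HY N A ℓ hℓN hA)
    (hCo : ∀ yb : modularFunctionFieldFullC (IsLocalRing.ResidueField A) N,
      IsIntegral (Algebra.adjoin (IsLocalRing.ResidueField A)
        {(pls_jb (IsLocalRing.ResidueField A) N)⁻¹}) yb →
      ∃ (u : nrmt_W N A) (s : Polynomial (IsLocalRing.ResidueField A)), s.eval 0 ≠ 0 ∧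
        nrmt_rho N A ℓ hℓN hA u =
          Polynomial.aeval (pls_jb (IsLocalRing.ResidueField A) N)⁻¹ s * yb ∧
        IsIntegral (Algebra.adjoin (AlgebraicClosure ℚ) {(jBar N)⁻¹}) (u : FBar N)) :
    ctm_Int (AlgebraicClosure ℚ) (IsLocalRing.ResidueField A) (nrmt_W N A)
      (nrmt_rho N A ℓ hℓN hA) (cthf_Jinv N A ℓ hℓN hA) := by
  intro yb hyb
  rw [cthf_rho_Jinv] at hyb
  obtain ⟨u, hρu, hu⟩ := nrtf_hIntInf N A ℓ hℓN hA hY hCo yb hyb
  exact ⟨u, hρu, hu⟩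

/-- the finite chart descends along `N ∣ M` (helper85's `nrtf_HY_descent`, restated). -/
theorem cthf_HY_of_dvd (M : ℕ) [NeZero M] (hNM : N ∣ M) (hℓM : ¬ ℓ ∣ M)
    (hY : nrmt_HY M A ℓ hℓM hA) : nrmt_HY N A ℓ hℓN hA :=
  nrtf_HY_descent N M A ℓ hNM hℓN hℓM hA hY

/-- **FINAL WRAPPER (C7)**: the conclusion of helper4's abstract main theorem `ctm_main` for the
canonical `h`-free pair at level `N`, together with `PrincipalGeneratedByIntegral`
(helper67, `ctmg_principalGeneratedByIntegral_modL`), gives the Prelude `ReductionInputsModL A N`.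
Intended use:
`cthf_reductionInputs N A ℓ hℓN hA (ctm_main (cthf_gauss ..) (cthf_J_mul_Jinv ..) (cthf_coord ..)
  (cthf_int0_of_HY .. hY) (cthf_intInf .. hY hCo)) hgen`. -/
theorem cthf_reductionInputs
    (hmain : ∃ r : Place (AlgebraicClosure ℚ) (FBar N) →
        Place (IsLocalRing.ResidueField A)
          (modularFunctionFieldFullC (IsLocalRing.ResidueField A) N),
      (∀ P, (r P).deg = P.deg) ∧
        ∀ u : nrmt_W N A, nrmt_rho N A ℓ hℓN hA u ≠ 0 →
          ∀ D : Divisor (AlgebraicClosure ℚ) (FBar N), (∀ P, D P = P.ord (u : FBar N)) →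
            ∀ Q, Finsupp.mapDomain r D Q = Q.ord (nrmt_rho N A ℓ hℓN hA u))
    (hgen : PrincipalGeneratedByIntegral A (IsLocalRing.residue A) N) :
    ReductionInputsModL A N := by
  obtain ⟨r, hdeg, hcompat⟩ := hmain
  refine ⟨r, ⟨hdeg, ?_⟩, hgen⟩
  intro y hy hyk hne D hD Q
  have hW : (⟨coeffMap A.subtype y, hy⟩ : FBar N) ∈ nrmt_W N A :=
    nrmt_mem_of_iota N A (x := ⟨coeffMap A.subtype y, hy⟩) (a := y) rfl
  have hρ : nrmt_rho N A ℓ hℓN hA ⟨⟨coeffMap A.subtype y, hy⟩, hW⟩ =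
      ⟨coeffMap (IsLocalRing.residue A) y, hyk⟩ :=
    Subtype.ext (nrmt_rho_of_iota N A ℓ hℓN hA (x := ⟨coeffMap A.subtype y, hy⟩) (a := y) rfl hW)
  have h := hcompat ⟨⟨coeffMap A.subtype y, hy⟩, hW⟩
    (by rw [hρ]; intro h0; exact hne (congrArg Subtype.val h0)) D hD Q
  rw [hρ] at h
  exact h

end

end Fermat.Agent.S37x

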