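/-
S37 project, block R = [B1], file 2 (helper4, prefix `ctm_`): THE CENTRE MAP ON ONE CHART.

For a chart `g ∈ W` (`ctm_Coord` + `ctm_Int` + FACT 0) and a place `P` of `F/L` with `g(P) ∈ A`, there is
a place `Q` of `Fb/k` which is the CENTRE of `P`: for every `u ∈ W` integral over `L[g]` with value
`u(P) = a` (automatically `a ∈ A`), the reduction `ρ u` takes the value `π a` at `Q`.

`Q` is the place of `Fb` attached to the maximal ideal
`𝔮_P = {ρ u | u ∈ W integral over L[g], u(P) = 0}` of the Dedekind domain `ringB k (ρ g)`.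
-/
import Mathlib
import Fermat.Agent.S37x.CtmDefs
import Fermat.Agent.S24x.CoveringDedekind
import Fermat.Agent.S24x.CoveringRing
import Fermat.Agent.S18x.RmnBasic
import Fermat.Agent.S18x.TsBasic
import Fermat.Agent.S18x.ValToPlace
import Fermat.Agent.S18x.PlsTsFields

set_option autoImplicit false

namespace Fermat.Agent.S37x

open AlgebraicCurve IsDedekindDomain IntermediateField Fermat.Agent.S18x Fermat.Agent.S24x
open scoped IntermediateField.algebraAdjoinAdjoin

variable {L k F Fb : Type*} [Field L] [Field k] [Field F] [Field Fb] [Algebra L F] [Algebra k Fb]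
variable {A : ValuationSubring L} {π : A →+* k} {W : ValuationSubring F} {ρ : W →+* Fb}

/-- `Q` is a centre of `P` with respect to the chart `g`: values of chart functions reduce. -/
def ctm_Centre (A : ValuationSubring L) (π : A →+* k) (ρ : W →+* Fb) (P : Place L F)
    (Q : Place k Fb) (g : W) : Prop :=
  ∀ u : W, IsIntegral (Algebra.adjoin L {(g : F)}) (u : F) → ∀ (a : L) (ha : a ∈ A),
    P.adicValuation ((u : F) - algebraMap L F a) < 1 →
    Q.adicValuation (ρ u - algebraMap k Fb (π ⟨a, ha⟩)) < 1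

/-- the two FACT 0 consequences used below, as a hypothesis bundle on the chart `g` -/
structure ctm_Fact0 (k : Type*) {L F Fb : Type*} [Field k] [Field L] [Field F] [Field Fb]
    [Algebra L F] [Algebra k Fb] (A : ValuationSubring L) {W : ValuationSubring F}
    (ρ : W →+* Fb) (g : W) : Prop where
  rho : ∀ u : W, IsIntegral (Algebra.adjoin L {(g : F)}) (u : F) →
    IsIntegral (Algebra.adjoin k {ρ g}) (ρ u)
  val : ∀ u : W, IsIntegral (Algebra.adjoin L {(g : F)}) (u : F) → ∀ P : Place L F,
    ctm_valIn A P (g : F) → ctm_valIn A P (u : F)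

section Values

/-- a value is unique -/
theorem ctm_value_unique (P : Place L F) {u : F} {a a' : L}
    (h : P.adicValuation (u - algebraMap L F a) < 1)
    (h' : P.adicValuation (u - algebraMap L F a') < 1) : a = a' := by
  by_contra hne
  have hne' : a' - a ≠ 0 := sub_ne_zero.mpr (Ne.symm hne)
  have h1 : P.adicValuation (algebraMap L F (a' - a)) = 1 := ts_val_algebraMap P hne'
  have h2 : algebraMap L F (a' - a) = (u - algebraMap L F a) - (u - algebraMap L F a') := by
    rw [map_sub]; ring
  have h3 : P.adicValuation (algebraMap L F (a' - a)) < 1 := by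
    rw [h2]
    exact lt_of_le_of_lt (Valuation.map_sub _ _ _) (max_lt h h')
  rw [h1] at h3
  exact lt_irrefl _ h3

theorem ctm_mem_of_value (P : Place L F) {u : F} {a : L}
    (h : P.adicValuation (u - algebraMap L F a) < 1) : u ∈ P.toValuationSubring := by
  have h1 : P.adicValuation u ≤ 1 := by
    have : u = (u - algebraMap L F a) + algebraMap L F a := by ring
    rw [this]
    exact (Valuation.map_add _ _ _).trans
      (max_le h.le (P.adicValuation_algebraMap_le_one a))
  rcases (P.adicValuation_le_one_iff).mp h1 with h0 | h0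
  · rw [h0]; exact P.toValuationSubring.zero_mem
  · exact fid_mem_of_ord_nonneg P h0

theorem ctm_val_le_one_of_mem (P : Place L F) {u : F} (h : u ∈ P.toValuationSubring) :
    P.adicValuation u ≤ 1 := Place.adicValuation_le_one_of_mem _ h

/-- elements integral over `L[g]` are regular at places where `g` is regular -/
theorem ctm_mem_of_isIntegral (P : Place L F) {g u : F} (hg : g ∈ P.toValuationSubring)
    (hu : IsIntegral (Algebra.adjoin L {g}) u) : u ∈ P.toValuationSubring :=
  vtp_ringB_mem P.toValuationSubring P.algebraMap_mem' hg ⟨u, hu⟩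

end Values


section Centre

/-- a difference of lifts of the same element takes a value in `m_A` -/
theorem ctm_value_of_rho_eq_zero (G : ctm_Gauss A π W ρ) {g : W} (hF : ctm_Fact0 k A ρ g)
    (P : Place L F) (hP : ctm_valIn A P (g : F)) (d : W)
    (hd : IsIntegral (Algebra.adjoin L {(g : F)}) (d : F)) (hρ : ρ d = 0) :
    ∃ (a : L) (ha : a ∈ A), π ⟨a, ha⟩ = 0 ∧ P.adicValuation ((d : F) - algebraMap L F a) < 1 := by
  rcases eq_or_ne (d : F) 0 with h0 | h0
  · refine ⟨0, A.zero_mem, ?_, ?_⟩
    · exact map_zero π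
    · rw [h0, map_zero, sub_zero, map_zero]; exact zero_lt_one
  obtain ⟨c, x', hc, -, hx'⟩ := G.exists_factor_of_rho_eq_zero hρ h0
  have hc0 : (c : L) ≠ 0 := by
    intro h
    rw [h, map_zero, zero_mul] at hx'
    exact h0 hx'
  -- `x' = c⁻¹ d` is integral over `L[g]`
  have hx'int : IsIntegral (Algebra.adjoin L {(g : F)}) (x' : F) := by
    have : (x' : F) = algebraMap L F ((c : L)⁻¹) * (d : F) := by
      rw [hx', ← mul_assoc, ← map_mul, inv_mul_cancel₀ hc0, map_one, one_mul]
    rw [this]
    refine IsIntegral.mul ?_ hd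
    have : algebraMap L F ((c : L)⁻¹) = algebraMap (Algebra.adjoin L {(g : F)}) F
        (algebraMap L (Algebra.adjoin L {(g : F)}) ((c : L)⁻¹)) := rfl
    rw [this]
    exact isIntegral_algebraMap
  obtain ⟨a, ha, hva⟩ := hF.val x' hx'int P hP
  refine ⟨(c : L) * a, A.mul_mem _ _ c.2 ha, ?_, ?_⟩
  · have : (⟨(c : L) * a, A.mul_mem _ _ c.2 ha⟩ : A) = c * ⟨a, ha⟩ := rfl
    rw [this, map_mul, hc, zero_mul]
  · have : (d : F) - algebraMap L F ((c : L) * a)
        = algebraMap L F (c : L) * ((x' : F) - algebraMap L F a) := by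
      rw [hx', map_mul]; ring
    rw [this, map_mul]
    calc P.adicValuation (algebraMap L F (c : L)) * P.adicValuation ((x' : F) - algebraMap L F a)
        ≤ 1 * P.adicValuation ((x' : F) - algebraMap L F a) :=
          mul_le_mul' (P.adicValuation_algebraMap_le_one _) le_rfl
      _ < 1 := by rw [one_mul]; exact hva

set_option maxHeartbeats 1000000 in
/-- **Existence of the centre** of a place `P` with `g(P) ∈ A` on the chart `g`. -/
theorem ctm_exists_centre (G : ctm_Gauss A π W ρ) {g : W} (hg : ctm_Coord L k W ρ g)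
    (hint : ctm_Int L k W ρ g) (hF : ctm_Fact0 k A ρ g)
    (P : Place L F) (hP : ctm_valIn A P (g : F)) :
    ∃ Q : Place k Fb, ctm_Centre A π ρ P Q g := by
  classical
  have hsepb := hg.sepb
  have : FFData k Fb (ρ g) := ⟨hsepb.coord.transcendental, hsepb.coord.finite⟩
  have := hsepb.sep
  have : IsDedekindDomain (ringB k (ρ g)) :=
    integralClosure.isDedekindDomain (ringA k (ρ g)) k⟮ρ g⟯ Fb
  obtain ⟨a0, ha0, hva0⟩ := hP
  have hP' : ctm_valIn A P (g : F) := ⟨a0, ha0, hva0⟩
  have hgP : (g : F) ∈ P.toValuationSubring := ctm_mem_of_value P hva0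
  -- the ideal of reductions of chart functions vanishing at `P`
  let carrier : Set (ringB k (ρ g)) := {b | ∃ u : W, ρ u = (b : Fb) ∧
    IsIntegral (Algebra.adjoin L {(g : F)}) (u : F) ∧ P.adicValuation (u : F) < 1}
  let q : Ideal (ringB k (ρ g)) :=
    { carrier := carrier
      zero_mem' := ⟨0, by simp, by simpa using isIntegral_zero, by simp⟩
      add_mem' := by
        rintro b b' ⟨u, hu, hui, huv⟩ ⟨u', hu', hui', huv'⟩
        refine ⟨u + u', ?_, ?_, ?_⟩
        · rw [map_add, hu, hu']; rfl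
        · exact IsIntegral.add hui hui'
        · exact lt_of_le_of_lt (Valuation.map_add _ _ _) (max_lt huv huv')
      smul_mem' := by
        rintro c b ⟨u, hu, hui, huv⟩
        obtain ⟨w, hw, hwi⟩ := hint (c : Fb) c.2
        refine ⟨w * u, ?_, ?_, ?_⟩
        · rw [map_mul, hw, hu]; rfl
        · exact IsIntegral.mul hwi hui
        · have hwP : P.adicValuation (w : F) ≤ 1 :=
            ctm_val_le_one_of_mem P (ctm_mem_of_isIntegral P hgP hwi)
          show P.adicValuation ((w : F) * (u : F)) < 1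
          rw [map_mul]
          calc P.adicValuation (w : F) * P.adicValuation (u : F)
              ≤ 1 * P.adicValuation (u : F) := mul_le_mul' hwP le_rfl
            _ < 1 := by rw [one_mul]; exact huv }
  have hq_mem : ∀ b : ringB k (ρ g), b ∈ q ↔ ∃ u : W, ρ u = (b : Fb) ∧
      IsIntegral (Algebra.adjoin L {(g : F)}) (u : F) ∧ P.adicValuation (u : F) < 1 := fun b => Iff.rfl
  -- every element of the chart ring is congruent to a constant
  have hconst : ∀ b : ringB k (ρ g), ∃ cb : k, b - algebraMap k (ringB k (ρ g)) cb ∈ q := by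
    intro b
    obtain ⟨u, hu, hui⟩ := hint (b : Fb) b.2
    obtain ⟨a, ha, hva⟩ := hF.val u hui P hP'
    refine ⟨π ⟨a, ha⟩, (hq_mem _).mpr ⟨u - G.cW ⟨a, ha⟩, ?_, ?_, ?_⟩⟩
    · rw [map_sub, hu, G.rho_cW]; rfl
    · refine IsIntegral.sub hui ?_
      have : ((G.cW ⟨a, ha⟩ : W) : F) = algebraMap (Algebra.adjoin L {(g : F)}) F
          (algebraMap L (Algebra.adjoin L {(g : F)}) a) := rfl
      rw [this]
      exact isIntegral_algebraMap
    · exact hva
  -- `1 ∉ q`
  have hone : (1 : ringB k (ρ g)) ∉ q := by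
    rintro ⟨u, hu, hui, huv⟩
    have hρ : ρ (u - 1) = 0 := by
      rw [map_sub, hu, map_one]; simp
    obtain ⟨a, ha, hπa, hva⟩ := ctm_value_of_rho_eq_zero G hF P hP' (u - 1)
      (IsIntegral.sub hui isIntegral_one) hρ
    -- then `a = -1`
    have h1 : P.adicValuation (algebraMap L F (a + 1)) < 1 := by
      have : algebraMap L F (a + 1) = (u : F) - (((u - 1 : W) : F) - algebraMap L F a) := by
        rw [map_add, map_one]
        show _ = (u : F) - (((u : F) - 1) - algebraMap L F a)
        ring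
      rw [this]
      exact lt_of_le_of_lt (Valuation.map_sub _ _ _) (max_lt huv hva)
    have h2 : a + 1 = 0 := by
      by_contra hne
      rw [ts_val_algebraMap P hne] at h1
      exact lt_irrefl _ h1
    have h3 : (⟨a, ha⟩ : A) = -1 := by
      apply Subtype.ext
      show a = -1
      exact eq_neg_of_add_eq_zero_left h2
    rw [h3, map_neg, map_one] at hπa
    exact one_ne_zero (neg_eq_zero.mp hπa)
  -- `q` is maximal
  have hmax : q.IsMaximal := by
    rw [Ideal.isMaximal_iff]
    refine ⟨hone, fun I b hqI hbq hbI => ?_⟩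
    obtain ⟨cb, hcb⟩ := hconst b
    have hcb0 : cb ≠ 0 := by
      rintro rfl
      rw [map_zero, sub_zero] at hcb
      exact hbq hcb
    have h1 : algebraMap k (ringB k (ρ g)) cb ∈ I := by
      have : algebraMap k (ringB k (ρ g)) cb = b - (b - algebraMap k (ringB k (ρ g)) cb) := by ring
      rw [this]
      exact I.sub_mem hbI (hqI hcb)
    have h2 : algebraMap k (ringB k (ρ g)) cb⁻¹ * algebraMap k (ringB k (ρ g)) cb = 1 := by
      rw [← map_mul, inv_mul_cancel₀ hcb0, map_one]
    rw [← h2]
    exact I.mul_mem_left _ h1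
  -- `q ≠ ⊥`
  have hne : q ≠ ⊥ := by
    intro hbot
    obtain ⟨cb, hcb⟩ := hconst (crGen k (ρ g))
    rw [hbot, Ideal.mem_bot, sub_eq_zero] at hcb
    have h1 : (ρ g : Fb) = algebraMap k Fb cb := by
      have := congrArg (fun x : ringB k (ρ g) => (x : Fb)) hcb
      simpa using this
    exact hsepb.coord.transcendental (h1 ▸ isAlgebraic_algebraMap cb)
  let Qs : HeightOneSpectrum (ringB k (ρ g)) := ⟨q, hmax.isPrime, hne⟩
  refine ⟨Place.ofHeightOneSpectrum (K := k) (F := Fb) Qs, ?_⟩
  intro u hui a ha hva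
  have hub : ρ u ∈ ringB k (ρ g) := hF.rho u hui
  have hmem : (⟨ρ u, hub⟩ - algebraMap k (ringB k (ρ g)) (π ⟨a, ha⟩) : ringB k (ρ g)) ∈ q := by
    refine (hq_mem _).mpr ⟨u - G.cW ⟨a, ha⟩, ?_, ?_, hva⟩
    · rw [map_sub, G.rho_cW]; rfl
    · refine IsIntegral.sub hui ?_
      have : ((G.cW ⟨a, ha⟩ : W) : F) = algebraMap (Algebra.adjoin L {(g : F)}) F
          (algebraMap L (Algebra.adjoin L {(g : F)}) a) := rfl
      rw [this]
      exact isIntegral_algebraMap
  rw [rmn_val_lt_one_iff]
  by_cases h0 : ρ u - algebraMap k Fb (π ⟨a, ha⟩) = 0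
  · exact Or.inl h0
  right
  have hcoe : algebraMap (ringB k (ρ g)) Fb
      (⟨ρ u, hub⟩ - algebraMap k (ringB k (ρ g)) (π ⟨a, ha⟩)) =
      ρ u - algebraMap k Fb (π ⟨a, ha⟩) := rfl
  have hne0 : (⟨ρ u, hub⟩ - algebraMap k (ringB k (ρ g)) (π ⟨a, ha⟩) : ringB k (ρ g)) ≠ 0 := by
    intro h
    apply h0
    rw [← hcoe, h, map_zero]
  have := (cov_ord_pos_iff (K := k) (F := Fb) (ringB k (ρ g)) Qs _).mpr ⟨hmem, hne0⟩
  rw [hcoe] at this
  omega

end Centre

end Fermat.Agent.S37x
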