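/-
S37x/CtmFact0Core.lean (helper85, S37 prep [B1], leaf FACT 0, prefix `ctf_`): FACT 0 in HYPOTHESIS
FORM (the two inputs of LEAF G, the Gauss lemma `ctr_coeff_mem` and the consequence
`lyd_minpoly_coeff_mem (ctr_redPair ..)` of the reduction pair, are explicit hypotheses).

`u ∈ W` integral over `L[g]`  (`g ∈ W` a coordinate with the same degree upstairs and downstairs):
* `ctf_fact0_of`     : `u` satisfies a monic equation with coefficients in `A[g]`;
* `ctf_fact0_rho_of` : hence `ρ u` is integral over `k[ρ g]`;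
* `ctf_fact0_val_of` : and at every place `P` with `g(P) ∈ A` also `u(P) ∈ A`.
Also the small evaluation lemmas `ctf_coe_eval₂`, `ctf_rho_eval₂` (polynomials over `A` evaluated
at an element of `W`).
-/
import Mathlib
import Fermat.Agent.S37x.CtmDefs
import Fermat.Agent.S18x.NrnCore
import Fermat.Agent.S18x.NrmDict
import Fermat.Agent.S18x.PlsTsFields
import Fermat.Agent.S18x.CpPlaces

set_option autoImplicit false

namespace Fermat.Agent.S37x

open AlgebraicCurve Fermat.Agent.S18x Fermat.Agent.S24x IntermediateField Polynomial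

section Eval

variable {L k F Fb : Type*} [Field L] [Field k] [Field F] [Field Fb] [Algebra L F] [Algebra k Fb]
variable {A : ValuationSubring L} {π : A →+* k} {W : ValuationSubring F} {ρ : W →+* Fb}

/-- the constants `A → W` as a ring homomorphism -/
def ctf_cWHom (G : ctm_Gauss A π W ρ) : A →+* W where
  toFun := G.cW
  map_one' := Subtype.ext (by simp [ctm_Gauss.coe_cW])
  map_mul' := fun a b => Subtype.ext (by simp [ctm_Gauss.coe_cW])
  map_zero' := Subtype.ext (by simp [ctm_Gauss.coe_cW])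
  map_add' := fun a b => Subtype.ext (by simp [ctm_Gauss.coe_cW])

theorem ctf_cWHom_apply (G : ctm_Gauss A π W ρ) (c : A) : ctf_cWHom G c = G.cW c := rfl

/-- a polynomial over `A` evaluated at `g ∈ W`, as an element of `F` -/
theorem ctf_coe_eval₂ (G : ctm_Gauss A π W ρ) (g : W) (p : Polynomial A) :
    ((p.eval₂ (ctf_cWHom G) g : W) : F) = aeval (g : F) (p.map A.subtype) := by
  rw [Polynomial.aeval_def, Polynomial.eval₂_map]
  exact Polynomial.hom_eval₂ p (ctf_cWHom G) W.subtype g

/-- ... and its reduction -/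
theorem ctf_rho_eval₂ (G : ctm_Gauss A π W ρ) (g : W) (p : Polynomial A) :
    ρ (p.eval₂ (ctf_cWHom G) g) = aeval (ρ g) (p.map π) := by
  rw [Polynomial.hom_eval₂, Polynomial.aeval_def, Polynomial.eval₂_map]
  congr 1
  ext c
  exact G.rho_cW c

end Eval

section Fact0

variable {L k F Fb : Type*} [Field L] [Field k] [Field F] [Field Fb] [Algebra L F] [Algebra k Fb]
variable {A : ValuationSubring L} {π : A →+* k} {W : ValuationSubring F} {ρ : W →+* Fb}

open scoped IntermediateField.algebraAdjoinAdjoin in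
/-- **FACT 0**, hypothesis form: `hGauss` is the Gauss lemma (`ctr_coeff_mem`), `hmin` the
integrality of `W` over `W ∩ L(g)` (`lyd_minpoly_coeff_mem` on `ctr_redPair`). -/
theorem ctf_fact0_of {g : W} (hsep : pls_IsSepCoordinate L F (g : F))
    (hGauss : ∀ p : L[X], aeval (g : F) p ∈ W → ∀ i, p.coeff i ∈ A)
    (u : W)
    (hmin : ∀ i : ℕ, algebraMap L⟮(g : F)⟯ F ((minpoly L⟮(g : F)⟯ (u : F)).coeff i) ∈ W)
    (hu : IsIntegral (Algebra.adjoin L {(g : F)}) (u : F)) :
    ∃ (d : ℕ) (p : Fin d → Polynomial A),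
      (u : F) ^ d + ∑ i : Fin d, aeval (g : F) ((p i).map A.subtype) * (u : F) ^ (i : ℕ) = 0 := by
  classical
  have : FFData L F (g : F) := cp15_ffData (nrd_cp15_of_pls hsep)
  have huB : (u : F) ∈ ringB L (g : F) := hu
  have hint : IsIntegral L⟮(g : F)⟯ (u : F) := Algebra.IsIntegral.isIntegral _
  set m := minpoly L⟮(g : F)⟯ (u : F) with hm
  have hmonic : m.Monic := minpoly.monic hint
  -- every coefficient is a polynomial in `g` with coefficients in `A`
  have hcoef : ∀ i : ℕ, ∃ p : Polynomial A,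
      aeval (g : F) (p.map A.subtype) = algebraMap L⟮(g : F)⟯ F (m.coeff i) := by
    intro i
    have h1 : (cp15_minpolyF L⟮(g : F)⟯ (u : F)).coeff i ∈ ringA L (g : F) :=
      cp15_minpolyF_coeff_mem (g : F) huB i
    have h2 : (cp15_minpolyF L⟮(g : F)⟯ (u : F)).coeff i = algebraMap L⟮(g : F)⟯ F (m.coeff i) := by
      unfold cp15_minpolyF
      rw [Polynomial.coeff_map]
    rw [h2] at h1
    have h3 : ∀ z : F, z ∈ Algebra.adjoin L {(g : F)} → ∃ P : L[X], aeval (g : F) P = z := by
      intro z hz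
      rw [Algebra.adjoin_singleton_eq_range_aeval] at hz
      exact hz
    obtain ⟨P, hP⟩ := h3 _ h1
    have hPW : aeval (g : F) P ∈ W := by rw [hP]; exact hmin i
    have hlift : P ∈ Polynomial.lifts A.subtype := by
      rw [Polynomial.lifts_iff_coeff_lifts]
      intro n
      exact ⟨⟨P.coeff n, hGauss P hPW n⟩, rfl⟩
    obtain ⟨p, hp⟩ := (Polynomial.mem_lifts P).mp hlift
    exact ⟨p, by rw [hp, hP]⟩
  choose p hp using hcoef
  refine ⟨m.natDegree, fun i => p i, ?_⟩
  have hroot : aeval (u : F) m = 0 := minpoly.aeval _ _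
  have hsum : aeval (u : F) m =
      (u : F) ^ m.natDegree + ∑ i ∈ Finset.range m.natDegree,
        algebraMap L⟮(g : F)⟯ F (m.coeff i) * (u : F) ^ i := by
    conv_lhs => rw [hmonic.as_sum]
    rw [map_add, map_pow, aeval_X, map_sum]
    congr 1
    apply Finset.sum_congr rfl
    intro i _
    rw [map_mul, aeval_C, map_pow, aeval_X]
  rw [hsum] at hroot
  rw [← hroot]
  congr 1
  rw [← Fin.sum_univ_eq_sum_range (fun i => algebraMap L⟮(g : F)⟯ F (m.coeff i) * (u : F) ^ i)]
  apply Finset.sum_congr rfl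
  intro i _
  rw [hp]

/-- **FACT 0, reduction**: from the equation of `ctf_fact0_of`, `ρ u` is integral over `k[ρ g]`. -/
theorem ctf_fact0_rho_of (G : ctm_Gauss A π W ρ) (g u : W) (d : ℕ) (p : Fin d → Polynomial A)
    (heq : (u : F) ^ d +
      ∑ i : Fin d, aeval (g : F) ((p i).map A.subtype) * (u : F) ^ (i : ℕ) = 0) :
    IsIntegral (Algebra.adjoin k {ρ g}) (ρ u) := by
  classical
  -- the equation in `W`
  have heqW : u ^ d + ∑ i : Fin d, (p i).eval₂ (ctf_cWHom G) g * u ^ (i : ℕ) = 0 := by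
    apply Subtype.ext
    push_cast
    simp only [ctf_coe_eval₂]
    exact heq
  have heqρ : ρ u ^ d + ∑ i : Fin d, aeval (ρ g) ((p i).map π) * ρ u ^ (i : ℕ) = 0 := by
    have := congrArg ρ heqW
    rw [map_add, map_pow, map_sum, map_zero] at this
    simp only [map_mul, map_pow, ctf_rho_eval₂] at this
    exact this
  -- the monic polynomial over `k[ρ g]`
  let S := Algebra.adjoin k {ρ g}
  have hmemS : ∀ q : k[X], aeval (ρ g) q ∈ S := fun q =>
    Polynomial.aeval_mem_adjoin_singleton k (ρ g)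
  let c : Fin d → S := fun i => ⟨aeval (ρ g) ((p i).map π), hmemS _⟩
  let Q : S[X] := X ^ d + ∑ i : Fin d, C (c i) * X ^ (i : ℕ)
  have hdeg : (∑ i : Fin d, C (c i) * X ^ (i : ℕ) : S[X]).degree < d := by
    refine lt_of_le_of_lt (Polynomial.degree_sum_le _ _) ?_
    rw [Finset.sup_lt_iff (by exact WithBot.bot_lt_coe d)]
    intro i _
    refine lt_of_le_of_lt (Polynomial.degree_C_mul_X_pow_le _ _) ?_
    exact_mod_cast i.2
  have hQm : Q.Monic := Polynomial.monic_X_pow_add hdeg
  refine ⟨Q, hQm, ?_⟩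
  show eval₂ (algebraMap S Fb) (ρ u) Q = 0
  simp only [Q, eval₂_add, eval₂_pow, eval₂_X, eval₂_finsetSum, eval₂_mul, eval₂_C]
  exact heqρ

end Fact0

section Val

variable {L F : Type*} [Field L] [Field F] [Algebra L F]

/-- `x(P) = c`, i.e. `v_P(x - c) < 1`, in terms of the residue map of `O_P`. -/
theorem ctf_lt_one_iff_residue (P : Place L F) (x : F) (hx : x ∈ P.toValuationSubring) (c : L) :
    P.adicValuation (x - algebraMap L F c) < 1 ↔
      IsLocalRing.residue P.toValuationSubring ⟨x, hx⟩ =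
        IsLocalRing.residue P.toValuationSubring (algebraMap L P.toValuationSubring c) := by
  have hcoe : ((⟨x, hx⟩ - algebraMap L P.toValuationSubring c : P.toValuationSubring) : F) =
      x - algebraMap L F c := by
    rw [AddSubgroupClass.coe_sub, P.coe_algebraMap]
  rw [← hcoe, P.adicValuation_coe,
    IsDedekindDomain.HeightOneSpectrum.intValuation_lt_one_iff_mem, Place.heightOneSpectrum_asIdeal,
    ← IsLocalRing.residue_eq_zero_iff, map_sub, sub_eq_zero]

variable {A : ValuationSubring L}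

/-- **FACT 0, values**: from the equation of `ctf_fact0_of`: if `g(P) ∈ A` then `u(P) ∈ A`. -/
theorem ctf_fact0_val_of [IsAlgClosed L] {g : F} (hsep : pls_IsSepCoordinate L F g) (u : F)
    (d : ℕ) (p : Fin d → Polynomial A)
    (heq : u ^ d + ∑ i : Fin d, aeval g ((p i).map A.subtype) * u ^ (i : ℕ) = 0)
    (hu : IsIntegral (Algebra.adjoin L {g}) u)
    (P : Place L F) (hP : ctm_valIn A P g) : ctm_valIn A P u := by
  classical
  obtain ⟨a, ha, hva⟩ := hP
  set O := P.toValuationSubring with hO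
  -- `g` and `u` are regular at `P`
  have hgO : g ∈ O := by
    have h1 : g - algebraMap L F a ∈ O :=
      (nrn_adicValuation_le_one_iff P _).mp hva.le
    have h2 : algebraMap L F a ∈ O := P.algebraMap_mem' a
    have := O.add_mem _ _ h1 h2
    rwa [sub_add_cancel] at this
  have huO : u ∈ O := by
    rw [← nrn_adicValuation_le_one_iff]
    exact (nrn_isIntegral_iff_regular (nrd_cp15_of_pls hsep) u).mp hu P
      ((nrn_adicValuation_le_one_iff P g).mpr hgO)
  -- the value of `u`
  obtain ⟨c, hvc⟩ := pls_eval hsep P u ((nrn_adicValuation_le_one_iff P u).mpr huO)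
  refine ⟨c, ?_, hvc⟩
  -- residues
  let φ := IsLocalRing.residue O
  let ι : L →+* O := algebraMap L O
  have hφg : φ ⟨g, hgO⟩ = φ (ι a) := (ctf_lt_one_iff_residue P g hgO a).mp hva
  have hφu : φ ⟨u, huO⟩ = φ (ι c) := (ctf_lt_one_iff_residue P u huO c).mp hvc
  -- the equation in `O`
  have heqO : (⟨u, huO⟩ : O) ^ d +
      ∑ i : Fin d, (p i).eval₂ (ι.comp A.subtype) ⟨g, hgO⟩ * (⟨u, huO⟩ : O) ^ (i : ℕ) = 0 := by
    apply Subtype.ext
    push_cast
    have h1 : ∀ i : Fin d, (((p i).eval₂ (ι.comp A.subtype) ⟨g, hgO⟩ : O) : F) =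
        aeval g ((p i).map A.subtype) := by
      intro i
      rw [Polynomial.aeval_def, Polynomial.eval₂_map]
      exact Polynomial.hom_eval₂ (p i) (ι.comp A.subtype) O.subtype ⟨g, hgO⟩
    simp only [h1]
    exact heq
  -- apply the residue map
  have heqφ : (φ.comp ι) (c ^ d + ∑ i : Fin d, (p i).eval₂ A.subtype a * c ^ (i : ℕ)) = 0 := by
    have := congrArg φ heqO
    rw [map_add, map_pow, map_sum, map_zero] at this
    simp only [map_mul, map_pow, Polynomial.hom_eval₂, hφg, hφu] at this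
    rw [map_add, map_pow, map_sum]
    simp only [map_mul, map_pow, Polynomial.hom_eval₂, RingHom.comp_apply]
    convert this using 3
    rfl
  have hzero : c ^ d + ∑ i : Fin d, (p i).eval₂ A.subtype a * c ^ (i : ℕ) = 0 :=
    (map_eq_zero_iff _ (φ.comp ι).injective).mp heqφ
  -- `c` is integral over `A`
  have hb : ∀ i : Fin d, (p i).eval₂ A.subtype a = (((p i).eval ⟨a, ha⟩ : A) : L) := by
    intro i
    have := Polynomial.hom_eval₂ (p i) (RingHom.id A) A.subtype ⟨a, ha⟩
    rw [Polynomial.eval₂_id] at this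
    simpa using this.symm
  let Q : Polynomial A := X ^ d + ∑ i : Fin d, C ((p i).eval ⟨a, ha⟩) * X ^ (i : ℕ)
  have hdeg : (∑ i : Fin d, C ((p i).eval ⟨a, ha⟩) * X ^ (i : ℕ) : Polynomial A).degree < d := by
    refine lt_of_le_of_lt (Polynomial.degree_sum_le _ _) ?_
    rw [Finset.sup_lt_iff (by exact WithBot.bot_lt_coe d)]
    intro i _
    refine lt_of_le_of_lt (Polynomial.degree_C_mul_X_pow_le _ _) ?_
    exact_mod_cast i.2
  have hQm : Q.Monic := Polynomial.monic_X_pow_add hdeg
  have hcint : IsIntegral A c := by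
    refine ⟨Q, hQm, ?_⟩
    show eval₂ (algebraMap A L) c Q = 0
    simp only [Q, eval₂_add, eval₂_pow, eval₂_X, eval₂_finsetSum, eval₂_mul, eval₂_C]
    rw [← hzero]
    congr 1
    apply Finset.sum_congr rfl
    intro i _
    rw [hb i]
    rfl
  obtain ⟨y, hy⟩ := (IsIntegrallyClosed.isIntegral_iff (R := A) (K := L)).mp hcint
  rw [← hy]
  exact y.2

end Val

end Fermat.Agent.S37x
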