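import Mathlib
import Fermat.Agent.S37x.CtmDefs
import Fermat.Agent.S18x.NdNorm
import Fermat.Agent.S18x.CpnTraceRed

/-!
# S37 [B1], LEAF G (helper96, prefix `ctr_`): Gauss lemma, normal form, and the rational-base
`nd_RedPair` for `(L(g), F)`, `g ∈ W` with transcendental reduction

Exact statements of helper4's `S37_B1_leaves_helper4`; the cores are helper58's `cpne_` lemmas
(`S18x/CpnTraceGauss.lean`, `S18x/CpnTraceRed.lean`).
-/

set_option autoImplicit false
set_option linter.unusedVariables false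

namespace Fermat.Agent.S37x

open AlgebraicCurve Fermat.Agent.S18x Fermat.Agent.S24x IntermediateField Polynomial

section G

variable {L k F Fb : Type*} [Field L] [Field k] [Field F] [Field Fb] [Algebra L F] [Algebra k Fb]
variable {A : ValuationSubring L} {π : A →+* k} {W : ValuationSubring F} {ρ : W →+* Fb}

/-- `π` kills the maximal ideal of `A` -/
theorem ctr_pi_eq_zero_of_lt (G : ctm_Gauss A π W ρ) (c : A) (hc : A.valuation (c : L) < 1) :
    π c = 0 := by
  rw [G.pi_eq_zero_iff]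
  intro hu
  have := (A.valuation_eq_one_iff c).mp hu
  rw [this] at hc
  exact lt_irrefl _ hc

theorem ctr_aeval_mem (G : ctm_Gauss A π W ρ) (g : W) (p : Polynomial A) :
    aeval (g : F) (p.map A.subtype) ∈ W :=
  cpne_aeval_mem A W (fun _ hc => G.algW hc) (g : F) g.2 p

theorem ctr_rho_aeval (G : ctm_Gauss A π W ρ) (g : W) (p : Polynomial A) :
    ρ ⟨aeval (g : F) (p.map A.subtype), ctr_aeval_mem G g p⟩ = aeval (ρ g) (p.map π) :=
  cpne_rho_aeval A π W ρ (fun _ hc => G.algW hc) G.rho_alg (g : F) g.2 p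

/-- Gauss lemma -/
theorem ctr_coeff_mem (G : ctm_Gauss A π W ρ) (g : W) (hg : Transcendental k (ρ g)) (p : L[X])
    (hp : aeval (g : F) p ∈ W) (i : ℕ) : p.coeff i ∈ A :=
  cpne_gauss A π W ρ (ctr_pi_eq_zero_of_lt G) (fun _ hc => G.algW hc) G.rho_alg (g : F) g.2 hg p hp i

theorem ctr_normal_form (G : ctm_Gauss A π W ρ) (g : W) (hg : Transcendental k (ρ g)) (z : F)
    (hz : z ∈ L⟮(g : F)⟯) (hz0 : z ≠ 0) :
    ∃ (c : L) (p q : Polynomial A), c ≠ 0 ∧ p.map π ≠ 0 ∧ q.map π ≠ 0 ∧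
      z * aeval (g : F) (q.map A.subtype) = algebraMap L F c * aeval (g : F) (p.map A.subtype) := by
  obtain ⟨r0, s0, hrs⟩ := (IntermediateField.mem_adjoin_simple_iff L z).mp hz
  have hr0g : aeval (g : F) r0 ≠ 0 := by
    intro h; apply hz0; rw [hrs, h, zero_div]
  have hs0g : aeval (g : F) s0 ≠ 0 := by
    intro h; apply hz0; rw [hrs, h, div_zero]
  have hr0 : r0 ≠ 0 := by rintro rfl; simp at hr0g
  have hs0 : s0 ≠ 0 := by rintro rfl; simp at hs0g
  obtain ⟨c1, p', j1, hc1, hp', hj1⟩ := cpne_exists_scale A r0 hr0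
  obtain ⟨c2, q', j2, hc2, hq', hj2⟩ := cpne_exists_scale A s0 hs0
  have hpπ : p'.map π ≠ 0 := by
    intro h
    have := congrArg (fun f => f.coeff j1) h
    simp only [coeff_map, coeff_zero, hj1, map_one] at this
    exact one_ne_zero this
  have hqπ : q'.map π ≠ 0 := by
    intro h
    have := congrArg (fun f => f.coeff j2) h
    simp only [coeff_map, coeff_zero, hj2, map_one] at this
    exact one_ne_zero this
  refine ⟨c2 * c1⁻¹, p', q', mul_ne_zero hc2 (inv_ne_zero hc1), hpπ, hqπ, ?_⟩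
  have e1 : aeval (g : F) (C c1 * r0) = algebraMap L F c1 * aeval (g : F) r0 := by
    rw [map_mul, aeval_C]
  have e2 : aeval (g : F) (C c2 * s0) = algebraMap L F c2 * aeval (g : F) s0 := by
    rw [map_mul, aeval_C]
  have h1 : algebraMap L F c1 ≠ 0 := (_root_.map_ne_zero _).mpr hc1
  rw [hp', hq', e1, e2, hrs, map_mul, map_inv₀]
  field_simp

theorem ctr_rho_mem (G : ctm_Gauss A π W ρ) (g : W) (hg : Transcendental k (ρ g)) (z : W)
    (hz : (z : F) ∈ L⟮(g : F)⟯) : ρ z ∈ k⟮ρ g⟯ := by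
  obtain ⟨r, s, hs, -, h2⟩ := cpne_ratfunc A π W ρ (ctr_pi_eq_zero_of_lt G)
    (fun _ hc => G.algW hc) G.rho_alg (g : F) g.2 hg (z : F) hz z.2
  have hs' : aeval (ρ g) (s.map π) ≠ 0 := fun h0 => hg ⟨s.map π, hs, h0⟩
  rw [IntermediateField.mem_adjoin_simple_iff k]
  refine ⟨r.map π, s.map π, ?_⟩
  rw [eq_div_iff hs']
  exact h2

/-- the Gauss valuation subring of `L(g)` -/
def ctr_Wg (W : ValuationSubring F) (g : F) : ValuationSubring L⟮g⟯ :=
  W.comap (algebraMap L⟮g⟯ F)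

/-- the inclusion `W ∩ L(g) → W` -/
def ctr_incl (W : ValuationSubring F) (g : F) : ctr_Wg (L := L) W g →+* W :=
  ((algebraMap L⟮g⟯ F).comp (ctr_Wg (L := L) W g).subtype).codRestrict W (fun v => v.2)

theorem ctr_incl_coe (g : F) (v : ctr_Wg (L := L) W g) :
    ((ctr_incl (L := L) W g v : W) : F) = ((v : L⟮g⟯) : F) := rfl

/-- its residue map to `k(ρ g)` -/
noncomputable def ctr_rhog (G : ctm_Gauss A π W ρ) (g : W) (hg : Transcendental k (ρ g)) :
    ctr_Wg (L := L) W (g : F) →+* k⟮ρ g⟯ :=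
  (ρ.comp (ctr_incl (L := L) W (g : F))).codRestrict k⟮ρ g⟯
    (fun v => ctr_rho_mem G g hg (ctr_incl (L := L) W (g : F) v) (v : L⟮(g : F)⟯).2)

theorem ctr_rhog_coe (G : ctm_Gauss A π W ρ) (g : W) (hg : Transcendental k (ρ g))
    (v : ctr_Wg (L := L) W (g : F)) :
    ((ctr_rhog G g hg v : k⟮ρ g⟯) : Fb) = ρ (ctr_incl (L := L) W (g : F) v) := rfl

theorem ctr_redPair (G : ctm_Gauss A π W ρ) {g : W} (hg : ctm_Coord L k W ρ g) :
    nd_RedPair (ctr_Wg (L := L) W (g : F)) W (ctr_rhog G g hg.sepb.coord.transcendental) ρ :=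
  { mem_iff := fun _ => Iff.rfl
    compat := fun _ _ _ => rfl
    ker' := G.ker
    surj' := G.rho_surj
    finite := hg.sep.coord.finite
    finrank_eq := hg.deg.symm }

end G

end Fermat.Agent.S37x
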