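/-
S37x/CtmFact0.lean (helper85, S37 prep [B1], leaf FACT 0): the exact statements of helper4's leaf
document, on top of LEAF G (`S37x/CtmRedPair`, helper96) and `S37x/CtmFact0Core` (hypothesis form).

`u ∈ W` integral over `L[g]`, `g ∈ W` a coordinate (`ctm_Coord`):
* `ctr_fact0`        : monic equation for `u` with coefficients in `A[g]`;
* `ctr_fact0_rho`    : `ρ u` is integral over `k[ρ g]`;
* `ctr_fact0_val`    : `g(P) ∈ A ⟹ u(P) ∈ A`;
* `ctr_fact0_bundle` : `ctm_Fact0 k A ρ g` (the bundle consumed by `S37x/CtmCentre`).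
-/
import Mathlib
import Fermat.Agent.S37x.CtmFact0Core
import Fermat.Agent.S37x.CtmRedPair
import Fermat.Agent.S37x.CtmCentre
import Fermat.Agent.S18x.LydRed

set_option autoImplicit false

namespace Fermat.Agent.S37x

open AlgebraicCurve Fermat.Agent.S18x Fermat.Agent.S24x IntermediateField Polynomial

variable {L k F Fb : Type*} [Field L] [Field k] [Field F] [Field Fb] [Algebra L F] [Algebra k Fb]
variable {A : ValuationSubring L} {π : A →+* k} {W : ValuationSubring F} {ρ : W →+* Fb}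

/-- **FACT 0** -/
theorem ctr_fact0 (G : ctm_Gauss A π W ρ) {g : W} (hg : ctm_Coord L k W ρ g) (u : W)
    (hu : IsIntegral (Algebra.adjoin L {(g : F)}) (u : F)) :
    ∃ (d : ℕ) (p : Fin d → Polynomial A),
      (u : F) ^ d + ∑ i : Fin d, aeval (g : F) ((p i).map A.subtype) * (u : F) ^ (i : ℕ) = 0 :=
  ctf_fact0_of hg.sep
    (fun p hp i => ctr_coeff_mem G g hg.sepb.coord.transcendental p hp i) u
    (fun i => lyd_minpoly_coeff_mem (ctr_redPair G hg) u i) hu

theorem ctr_fact0_rho (G : ctm_Gauss A π W ρ) {g : W} (hg : ctm_Coord L k W ρ g) (u : W)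
    (hu : IsIntegral (Algebra.adjoin L {(g : F)}) (u : F)) :
    IsIntegral (Algebra.adjoin k {ρ g}) (ρ u) := by
  obtain ⟨d, p, heq⟩ := ctr_fact0 G hg u hu
  exact ctf_fact0_rho_of G g u d p heq

theorem ctr_fact0_val [IsAlgClosed L] (G : ctm_Gauss A π W ρ) {g : W} (hg : ctm_Coord L k W ρ g)
    (u : W) (hu : IsIntegral (Algebra.adjoin L {(g : F)}) (u : F)) (P : Place L F)
    (hP : ctm_valIn A P (g : F)) : ctm_valIn A P (u : F) := by
  obtain ⟨d, p, heq⟩ := ctr_fact0 G hg u hu
  exact ctf_fact0_val_of hg.sep (u : F) d p heq hu P hP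

/-- the FACT 0 bundle consumed by the centre map (`S37x/CtmCentre`). -/
theorem ctr_fact0_bundle [IsAlgClosed L] (G : ctm_Gauss A π W ρ) {g : W}
    (hg : ctm_Coord L k W ρ g) : ctm_Fact0 k A ρ g where
  rho := fun u hu => ctr_fact0_rho G hg u hu
  val := fun u hu P hP => ctr_fact0_val G hg u hu P hP

end Fermat.Agent.S37x
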