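/-
S37 project, block R = [B1], file 3 (helper4, prefix `ctm_`): GLUING THE TWO CHARTS.

* `ctm_valIn_or` : every place `P` of `F/L` has `J(P) ∈ A` or `J⁻¹(P) ∈ m_A`;
* `ctm_exists_pow_integral` : `u'` integral over `L[J⁻¹]` ⟹ `u' J^M` integral over `L[J]` for some `M`;
* `ctm_Centre.inv` : on the overlap of the two charts a centre for the chart `J` is a centre for the
  chart `J⁻¹`;
* `ctm_exists_r` : **the centre map** `r : Place L F → Place k Fb`, a centre on both charts.
-/
import Mathlib
import Fermat.Agent.S37x.CtmCentre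
import Fermat.Agent.S18x.GeDict

set_option autoImplicit false

namespace Fermat.Agent.S37x

open AlgebraicCurve IsDedekindDomain IntermediateField Fermat.Agent.S18x Fermat.Agent.S24x

variable {L k F Fb : Type*} [Field L] [Field k] [Field F] [Field Fb] [Algebra L F] [Algebra k Fb]
variable {A : ValuationSubring L} {π : A →+* k} {W : ValuationSubring F} {ρ : W →+* Fb}

section Values

variable {K E : Type*} [Field K] [Field E] [Algebra K E]

/-- values multiply -/
theorem ctm_value_mul (P : Place K E) {u v : E} {a c : K}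
    (hu : P.adicValuation (u - algebraMap K E a) < 1)
    (hv : P.adicValuation (v - algebraMap K E c) < 1) :
    P.adicValuation (u * v - algebraMap K E (a * c)) < 1 := by
  have hvP : P.adicValuation v ≤ 1 := ctm_val_le_one_of_mem P (ctm_mem_of_value P hv)
  have h : u * v - algebraMap K E (a * c)
      = (u - algebraMap K E a) * v + algebraMap K E a * (v - algebraMap K E c) := by
    rw [map_mul]; ring
  rw [h]
  refine lt_of_le_of_lt (Valuation.map_add _ _ _) (max_lt ?_ ?_)
  · rw [map_mul]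
    calc P.adicValuation (u - algebraMap K E a) * P.adicValuation v
        ≤ P.adicValuation (u - algebraMap K E a) * 1 := mul_le_mul' le_rfl hvP
      _ < 1 := by rw [mul_one]; exact hu
  · rw [map_mul]
    calc P.adicValuation (algebraMap K E a) * P.adicValuation (v - algebraMap K E c)
        ≤ 1 * P.adicValuation (v - algebraMap K E c) :=
          mul_le_mul' (P.adicValuation_algebraMap_le_one a) le_rfl
      _ < 1 := by rw [one_mul]; exact hv

/-- values of powers -/
theorem ctm_value_pow (P : Place K E) {u : E} {a : K}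
    (hu : P.adicValuation (u - algebraMap K E a) < 1) (n : ℕ) :
    P.adicValuation (u ^ n - algebraMap K E (a ^ n)) < 1 := by
  induction n with
  | zero => simp
  | succ n ih =>
    rw [pow_succ, pow_succ]
    exact ctm_value_mul P ih hu

/-- a function with a nonzero value is a unit at the place -/
theorem ctm_val_eq_one_of_value (P : Place K E) {u : E} {a : K} (ha : a ≠ 0)
    (hu : P.adicValuation (u - algebraMap K E a) < 1) : P.adicValuation u = 1 := by
  have h1 : P.adicValuation (algebraMap K E a) = 1 := ts_val_algebraMap P ha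
  have h2 : u = (u - algebraMap K E a) + algebraMap K E a := by ring
  rw [h2]
  rw [Valuation.map_add_eq_of_lt_right]
  · exact h1
  · rw [h1]; exact hu

theorem ctm_ord_pow (P : Place K E) (f : E) (n : ℕ) : P.ord (f ^ n) = n * P.ord f := by
  have := P.ord_zpow f (n : ℤ)
  rwa [zpow_natCast] at this

end Values

section Or

variable [IsAlgClosed L]

/-- every place is in the chart `J` or is "cuspidal": `J⁻¹(P) ∈ m_A` -/
theorem ctm_valIn_or (G : ctm_Gauss A π W ρ) {J Jinv : W} (hJJ : J * Jinv = 1)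
    (hJ : pls_IsSepCoordinate L F (J : F)) (P : Place L F) :
    ctm_valIn A P (J : F) ∨ ctm_valRed A π P (Jinv : F) 0 := by
  have h1 : (J : F) * (Jinv : F) = 1 := by
    have := congrArg Subtype.val hJJ
    simpa using this
  have hJ0 : (J : F) ≠ 0 := left_ne_zero_of_mul_eq_one h1
  have hx : (Jinv : F) = ((J : F))⁻¹ := eq_inv_of_mul_eq_one_right h1
  by_cases hreg : P.adicValuation (J : F) ≤ 1
  · obtain ⟨b, hb⟩ := pls_eval hJ P (J : F) hreg
    by_cases hbA : b ∈ A
    · exact Or.inl ⟨b, hbA, hb⟩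
    · right
      have hb0 : b ≠ 0 := fun h => hbA (h ▸ A.zero_mem)
      have hbi : b⁻¹ ∈ A := (A.mem_or_inv_mem b).resolve_left hbA
      have hnu : ¬ IsUnit (⟨b⁻¹, hbi⟩ : A) := by
        intro hu
        obtain ⟨⟨u, v, huv, hvu⟩, hu'⟩ := hu
        have hu'' : (u : L) = b⁻¹ := congrArg Subtype.val hu'
        have h2 : (u : L) * (v : L) = 1 := by
          have := congrArg Subtype.val huv
          simpa using this
        rw [hu''] at h2
        have : (v : L) = b := by
          have := eq_inv_of_mul_eq_one_right h2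
          rw [inv_inv] at this
          exact this
        exact hbA (this ▸ v.2)
      refine ⟨b⁻¹, hbi, (G.pi_eq_zero_iff _).mpr hnu, ?_⟩
      have hvJ : P.adicValuation (J : F) = 1 := ctm_val_eq_one_of_value P hb0 hb
      have hbF : algebraMap L F b ≠ 0 := by simpa using hb0
      have : (Jinv : F) - algebraMap L F b⁻¹
          = -(((J : F) - algebraMap L F b) * ((J : F))⁻¹ * algebraMap L F b⁻¹) := by
        rw [hx, map_inv₀]
        field_simp
        ring
      rw [this, Valuation.map_neg, map_mul, map_mul, map_inv₀, hvJ, inv_one, mul_one]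
      calc P.adicValuation ((J : F) - algebraMap L F b) * P.adicValuation (algebraMap L F b⁻¹)
          ≤ P.adicValuation ((J : F) - algebraMap L F b) * 1 :=
            mul_le_mul' le_rfl (P.adicValuation_algebraMap_le_one _)
        _ < 1 := by rw [mul_one]; exact hb
  · right
    rw [not_le] at hreg
    refine ⟨0, A.zero_mem, map_zero π, ?_⟩
    rw [map_zero, sub_zero, hx, map_inv₀]
    exact inv_lt_one_of_one_lt₀ hreg

end Or

section Pow

variable [IsAlgClosed L]

/-- `u'` integral over `L[J⁻¹]` ⟹ `u' * J ^ M` integral over `L[J]` for some `M`. -/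
theorem ctm_exists_pow_integral {J : F} (hJ : pls_IsSepCoordinate L F J) {u' : F}
    (hu' : IsIntegral (Algebra.adjoin L {J⁻¹}) u') :
    ∃ M : ℕ, IsIntegral (Algebra.adjoin L {J}) (u' * J ^ M) := by
  classical
  rcases eq_or_ne u' 0 with rfl | hu0
  · exact ⟨0, by simpa using isIntegral_zero⟩
  obtain ⟨D, hD⟩ := pls_hpd hJ u' hu0
  refine ⟨∑ P ∈ D.support, (D P).natAbs, ged_isIntegral_of_ord hJ fun P hP => ?_⟩
  have hJ0 : J ≠ 0 := fun h => hJ.coord.transcendental (h ▸ isAlgebraic_zero)
  rw [P.ord_mul hu0 (pow_ne_zero _ hJ0), ctm_ord_pow]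
  rcases hP.lt_or_eq with h | h
  · -- a zero of `J`
    have hbound : -(P.ord u') ≤ (∑ P ∈ D.support, (D P).natAbs : ℕ) := by
      by_cases hPs : P ∈ D.support
      · have h1 : (D P).natAbs ≤ ∑ P ∈ D.support, (D P).natAbs :=
          Finset.single_le_sum (f := fun P => (D P).natAbs) (fun _ _ => Nat.zero_le _) hPs
        have h2 : -(P.ord u') ≤ ((D P).natAbs : ℤ) := by
          rw [← hD P, Int.natCast_natAbs]
          exact neg_le_abs _
        exact h2.trans (by exact_mod_cast h1)
      · rw [Finsupp.notMem_support_iff, hD P] at hPs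
        rw [hPs, neg_zero]
        positivity
    have h3 : (1 : ℤ) ≤ P.ord J := h
    have h4 : ((∑ P ∈ D.support, (D P).natAbs : ℕ) : ℤ)
        ≤ ((∑ P ∈ D.support, (D P).natAbs : ℕ) : ℤ) * P.ord J :=
      le_mul_of_one_le_right (by positivity) h3
    omega
  · rw [← h, mul_zero, add_zero]
    exact ged_ord_of_isIntegral_inv hu' P (le_of_eq h.symm)

end Pow

section Overlap

variable [IsAlgClosed L]

/-- **Overlap of the charts**: at a place where both `J` and `J⁻¹` take values in `A`, a centre for the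
chart `J` is a centre for the chart `J⁻¹`. -/
theorem ctm_Centre.inv {J Jinv : W} (hJJ : J * Jinv = 1)
    (hJ : pls_IsSepCoordinate L F (J : F)) {P : Place L F} {Q : Place k Fb}
    (hQ : ctm_Centre A π ρ P Q J) (h0 : ctm_valIn A P (J : F)) (hinf : ctm_valIn A P (Jinv : F)) :
    ctm_Centre A π ρ P Q Jinv := by
  have h1 : (J : F) * (Jinv : F) = 1 := by
    have := congrArg Subtype.val hJJ
    simpa using this
  have hx : (Jinv : F) = ((J : F))⁻¹ := eq_inv_of_mul_eq_one_right h1
  obtain ⟨b, hb, hvb⟩ := h0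
  obtain ⟨b', hb', hvb'⟩ := hinf
  -- `b * b' = 1`
  have hbb : b * b' = 1 := by
    have h2 := ctm_value_mul P hvb hvb'
    rw [h1] at h2
    by_contra hne
    have h3 : (1 : F) - algebraMap L F (b * b') = algebraMap L F (1 - b * b') := by
      rw [map_sub, map_one]
    rw [h3, ts_val_algebraMap P (sub_ne_zero.mpr (Ne.symm hne))] at h2
    exact lt_irrefl _ h2
  have hb0 : b ≠ 0 := left_ne_zero_of_mul_eq_one hbb
  have hπb : π ⟨b, hb⟩ * π ⟨b', hb'⟩ = 1 := by
    rw [← map_mul]
    have : (⟨b, hb⟩ * ⟨b', hb'⟩ : A) = 1 := Subtype.ext hbb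
    rw [this, map_one]
  have hπb0 : π ⟨b, hb⟩ ≠ 0 := left_ne_zero_of_mul_eq_one hπb
  -- value of `ρ J` at `Q`
  have hJint : IsIntegral (Algebra.adjoin L {(J : F)}) (J : F) := by
    have : (J : F) = algebraMap (Algebra.adjoin L {(J : F)}) F
        ⟨(J : F), Algebra.self_mem_adjoin_singleton L _⟩ := rfl
    rw [this]
    exact isIntegral_algebraMap
  have hQJ : Q.adicValuation (ρ J - algebraMap k Fb (π ⟨b, hb⟩)) < 1 := hQ J hJint b hb hvb
  intro u' hu'i a' ha' hva'
  rw [hx] at hu'i
  obtain ⟨M, hM⟩ := ctm_exists_pow_integral hJ hu'i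
  -- `u = u' J^M ∈ W`
  have hval : P.adicValuation (((u' * J ^ M : W) : F) - algebraMap L F (a' * b ^ M)) < 1 := by
    show P.adicValuation ((u' : F) * (J : F) ^ M - algebraMap L F (a' * b ^ M)) < 1
    exact ctm_value_mul P hva' (ctm_value_pow P hvb M)
  have hA : a' * b ^ M ∈ A := A.mul_mem _ _ ha' (A.pow_mem hb M)
  have hQu := hQ (u' * J ^ M) hM (a' * b ^ M) hA hval
  have hπ : π ⟨a' * b ^ M, hA⟩ = π ⟨a', ha'⟩ * π ⟨b, hb⟩ ^ M := by
    rw [← map_pow, ← map_mul]; rfl
  rw [map_mul, map_pow, hπ] at hQu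
  -- `(ρ J)^M` has value `π b ^ M`, a unit
  have hQJM : Q.adicValuation (ρ J ^ M - algebraMap k Fb (π ⟨b, hb⟩ ^ M)) < 1 :=
    ctm_value_pow Q hQJ M
  have hunit : Q.adicValuation (ρ J ^ M) = 1 :=
    ctm_val_eq_one_of_value Q (pow_ne_zero M hπb0) hQJM
  have hJM0 : ρ J ^ M ≠ 0 := by
    intro h
    rw [h, map_zero] at hunit
    exact zero_ne_one hunit
  have key : (ρ u' - algebraMap k Fb (π ⟨a', ha'⟩)) * ρ J ^ M
      = (ρ u' * ρ J ^ M - algebraMap k Fb (π ⟨a', ha'⟩ * π ⟨b, hb⟩ ^ M))
        - algebraMap k Fb (π ⟨a', ha'⟩) * (ρ J ^ M - algebraMap k Fb (π ⟨b, hb⟩ ^ M)) := by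
    rw [map_mul]; ring
  have h5 : Q.adicValuation ((ρ u' - algebraMap k Fb (π ⟨a', ha'⟩)) * ρ J ^ M) < 1 := by
    rw [key]
    refine lt_of_le_of_lt (Valuation.map_sub _ _ _) (max_lt hQu ?_)
    rw [map_mul]
    calc Q.adicValuation (algebraMap k Fb (π ⟨a', ha'⟩))
          * Q.adicValuation (ρ J ^ M - algebraMap k Fb (π ⟨b, hb⟩ ^ M))
        ≤ 1 * Q.adicValuation (ρ J ^ M - algebraMap k Fb (π ⟨b, hb⟩ ^ M)) :=
          mul_le_mul' (Q.adicValuation_algebraMap_le_one _) le_rfl
      _ < 1 := by rw [one_mul]; exact hQJM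
  rwa [map_mul, hunit, mul_one] at h5

end Overlap

section Glue

variable [IsAlgClosed L]

/-- **The centre map.** -/
theorem ctm_exists_r (G : ctm_Gauss A π W ρ) {J Jinv : W} (hJJ : J * Jinv = 1)
    (hJ : ctm_Coord L k W ρ J) (hint0 : ctm_Int L k W ρ J) (hintInf : ctm_Int L k W ρ Jinv)
    (hF0 : ctm_Fact0 k A ρ J) (hFinf : ctm_Fact0 k A ρ Jinv) :
    ∃ r : Place L F → Place k Fb,
      (∀ P, ctm_valIn A P (J : F) → ctm_Centre A π ρ P (r P) J) ∧
      (∀ P, ctm_valIn A P (Jinv : F) → ctm_Centre A π ρ P (r P) Jinv) := by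
  classical
  have hJinv : ctm_Coord L k W ρ Jinv := hJ.inv hJJ
  have hJJ' : Jinv * J = 1 := by rw [mul_comm]; exact hJJ
  have hex0 : ∀ P : Place L F, ctm_valIn A P (J : F) → ∃ Q : Place k Fb, ctm_Centre A π ρ P Q J :=
    fun P hP => ctm_exists_centre G hJ hint0 hF0 P hP
  have hexInf : ∀ P : Place L F, ctm_valIn A P (Jinv : F) →
      ∃ Q : Place k Fb, ctm_Centre A π ρ P Q Jinv :=
    fun P hP => ctm_exists_centre G hJinv hintInf hFinf P hP
  have hor : ∀ P : Place L F, ¬ ctm_valIn A P (J : F) → ctm_valIn A P (Jinv : F) := by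
    intro P hP
    rcases ctm_valIn_or G hJJ hJ.sep P with h | h
    · exact absurd h hP
    · exact h.valIn
  refine ⟨fun P => if h : ctm_valIn A P (J : F) then (hex0 P h).choose
    else (hexInf P (hor P h)).choose, fun P hP => ?_, fun P hP => ?_⟩
  · simp only [dif_pos hP]
    exact (hex0 P hP).choose_spec
  · by_cases h : ctm_valIn A P (J : F)
    · simp only [dif_pos h]
      exact ctm_Centre.inv hJJ hJ.sep (hex0 P h).choose_spec h hP
    · simp only [dif_neg h]
      exact (hexInf P (hor P h)).choose_spec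

end Glue

end Fermat.Agent.S37x
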