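/-
S37x/CtmNormOrd.lean (helper85, S37 prep, block [B1] leaf (C3), prefix `ctmn_`):
ORDER OF A NORM = SUM OF THE ORDERS ALONG THE FIBRE (abstract Dedekind form).

`D ⊆ E` Dedekind domains, `E` module-finite and torsion-free over `D`, all inertia degrees one
(NO separability).  For `y ∈ E`, `y ≠ 0`, and `p` a maximal ideal of `D`, `p ≠ ⊥`:

  `count p (span {intNorm D E y}) = ∑_{P ∣ p} count P (span {y})`

(`ctmn_count_intNorm`), as a consequence of `nds_relNorm_eq_of_inertiaDeg_one` (S18x/NdsCore),
multiplicativity of `Ideal.relNorm` and `Ideal.relNorm_singleton`.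
-/
import Mathlib
import Fermat.Agent.S18x.NdsCore

set_option autoImplicit false

namespace Fermat.Agent.S37x

open Ideal UniqueFactorizationMonoid Fermat.Agent.S18x

section Abstract

variable {D E : Type*} [CommRing D] [IsDedekindDomain D] [CommRing E] [IsDedekindDomain E]
  [Algebra D E] [Module.Finite D E] [Module.IsTorsionFree D E]

/-- With all inertia degrees one, the relative norm of a nonzero prime `Q` of `E` is `Q ∩ D`. -/
theorem ctmn_relNorm_eq_under (hf : ∀ P : Ideal E, P.IsMaximal → P.inertiaDeg D = 1)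
    (Q : Ideal E) [hQ : Q.IsPrime] (hQ0 : Q ≠ ⊥) : relNorm D Q = Q.under D := by
  have hQmax : Q.IsMaximal := Ring.DimensionLEOne.maximalOfPrime hQ0 hQ
  have hpmax : (Q.under D).IsMaximal := Ideal.IsMaximal.under D Q
  have hp0 : Q.under D ≠ ⊥ := by
    intro h
    apply hQ0
    have hinj : Function.Injective (algebraMap D E) := FaithfulSMul.algebraMap_injective D E
    have : Algebra.IsIntegral D E := Algebra.IsIntegral.of_finite D E
    exact Ideal.eq_bot_of_comap_eq_bot (R := D) h
  have : Q.LiesOver (Q.under D) := ⟨rfl⟩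
  exact nds_relNorm_eq_of_inertiaDeg_one (Q.under D) hp0 hf Q

/-- The normalized factors of the relative norm of a nonzero ideal are the contractions of its
normalized factors (inertia degrees one). -/
theorem ctmn_normalizedFactors_relNorm (hf : ∀ P : Ideal E, P.IsMaximal → P.inertiaDeg D = 1)
    (I : Ideal E) (hI : I ≠ ⊥) :
    normalizedFactors (relNorm D I) = (normalizedFactors I).map (fun Q => Q.under D) := by
  classical
  have h1 : relNorm D I = ((normalizedFactors I).map (relNorm D)).prod := by
    conv_lhs => rw [← Ideal.prod_normalizedFactors_eq_self hI]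
    rw [map_multiset_prod]
  have h2 : (normalizedFactors I).map (relNorm D) =
      (normalizedFactors I).map (fun Q => Q.under D) := by
    apply Multiset.map_congr rfl
    intro Q hQ
    have hQp : Q.IsPrime := Ideal.isPrime_of_prime (prime_of_normalized_factor Q hQ)
    have hQ0 : Q ≠ ⊥ := (prime_of_normalized_factor Q hQ).ne_zero
    exact ctmn_relNorm_eq_under hf Q hQ0
  rw [h1, h2]
  apply normalizedFactors_prod_of_prime
  intro p hp
  obtain ⟨Q, hQ, rfl⟩ := Multiset.mem_map.mp hp
  have hQp : Q.IsPrime := Ideal.isPrime_of_prime (prime_of_normalized_factor Q hQ)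
  have hQ0 : Q ≠ ⊥ := (prime_of_normalized_factor Q hQ).ne_zero
  have hQmax : Q.IsMaximal := Ring.DimensionLEOne.maximalOfPrime hQ0 hQp
  have hpmax : (Q.under D).IsMaximal := Ideal.IsMaximal.under D Q
  have hp0 : Q.under D ≠ ⊥ := by
    intro h
    apply hQ0
    have : Algebra.IsIntegral D E := Algebra.IsIntegral.of_finite D E
    exact Ideal.eq_bot_of_comap_eq_bot (R := D) h
  exact Ideal.prime_of_isPrime hp0 hpmax.isPrime

/-- **ORDER OF A NORM** (ideal form): multiplicity of `p` in `relNorm I` = sum of the
multiplicities in `I` of the primes over `p`. -/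
theorem ctmn_count_relNorm (hf : ∀ P : Ideal E, P.IsMaximal → P.inertiaDeg D = 1)
    (I : Ideal E) (hI : I ≠ ⊥) (p : Ideal D) [hp : p.IsMaximal] (hp0 : p ≠ ⊥)
    [DecidableEq (Ideal D)] [DecidableEq (Ideal E)] :
    (normalizedFactors (relNorm D I)).count p =
      ∑ P ∈ IsDedekindDomain.primesOverFinset p E, (normalizedFactors I).count P := by
  rw [ctmn_normalizedFactors_relNorm hf I hI, Multiset.count_map]
  have hcf : ∀ Q : Ideal E, p = Q.under D →
      ((normalizedFactors I).filter (fun Q => p = Q.under D)).count Q =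
        (normalizedFactors I).count Q := fun Q hQ =>
    Multiset.count_filter_of_pos (p := fun Q : Ideal E => p = Q.under D) hQ
  have hsub : ((normalizedFactors I).filter (fun Q => p = Q.under D)).toFinset ⊆
      IsDedekindDomain.primesOverFinset p E := by
    intro Q hQ
    rw [Multiset.mem_toFinset, Multiset.mem_filter] at hQ
    obtain ⟨hQn, hQp⟩ := hQ
    have hQpr : Q.IsPrime := Ideal.isPrime_of_prime (prime_of_normalized_factor Q hQn)
    rw [IsDedekindDomain.mem_primesOverFinset_iff hp0]
    exact ⟨hQpr, ⟨hQp⟩⟩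
  rw [← Multiset.toFinset_sum_count_eq, ← Finset.sum_subset hsub]
  · apply Finset.sum_congr rfl
    intro Q hQ
    rw [Multiset.mem_toFinset, Multiset.mem_filter] at hQ
    exact hcf Q hQ.2
  · intro Q hQ hQt
    rw [IsDedekindDomain.mem_primesOverFinset_iff hp0] at hQ
    rw [← hcf Q hQ.2.over, Multiset.count_eq_zero]
    intro h
    exact hQt (Multiset.mem_toFinset.mpr h)

/-- **ORDER OF A NORM** (element form): for `y ≠ 0`, the multiplicity of `p` in
`(intNorm D E y)` is the sum over the primes `P ∣ p` of the multiplicity of `P` in `(y)`. -/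
theorem ctmn_count_intNorm (hf : ∀ P : Ideal E, P.IsMaximal → P.inertiaDeg D = 1)
    (y : E) (hy : y ≠ 0) (p : Ideal D) [hp : p.IsMaximal] (hp0 : p ≠ ⊥)
    [DecidableEq (Ideal D)] [DecidableEq (Ideal E)] :
    (normalizedFactors (Ideal.span {Algebra.intNorm D E y})).count p =
      ∑ P ∈ IsDedekindDomain.primesOverFinset p E,
        (normalizedFactors (Ideal.span {y})).count P := by
  have hI : Ideal.span {y} ≠ (⊥ : Ideal E) := by
    rw [Ne, Ideal.span_singleton_eq_bot]
    exact hy
  rw [← Ideal.relNorm_singleton]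
  exact ctmn_count_relNorm hf _ hI p hp0

end Abstract

end Fermat.Agent.S37x
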