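/-
S37x/CtmNormOrdPlace.lean (helper91, S37 prep, block [B1] leaf (C3), prefix `ctmnp_`):
ORDER OF A NORM = SUM OF THE ORDERS ALONG THE FIBRE, in the prelude's PLACE language, in ANY
characteristic.

`K` algebraically closed, `F'/F` a finite SEPARABLE extension of fields over `K`, `v` a place of `F`
with residue field `K`.  Then for every `f ∈ F'`, `f ≠ 0`:

  `∑_{w ∣ v} ord_w f = ord_v (N_{F'/F} f)`                      (`ctmnp_sum_ord_eq`)

(the sum over the finitely many places `w` of `F'` with `w.restrict F = v`), hence
`AlgebraicCurve.Divisor.PushforwardNormFormula K F F'` (`ctmnp_pushforwardNormFormula`) when all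
places of `F` and `F'` have residue field `K`.

Route: `A = v.toValuationSubring`, `S =` integral closure of `A` in `F'` (Dedekind, finite over `A`
by separability); helper85's `ctmn_count_intNorm` (S37x/CtmNormOrd.lean) for `A ⊆ S`; the dictionary
`places over v ↔ primes of S over m_A` of S24x/FundIdentity (`fidPlaceOf`, `fid_range_placeOf`) and
helper32's bridge `fia_restrict_eq_iff`.
-/
import Mathlib
import Fermat.Prelude.Def_AlgebraicCurve_Correspondence
import Fermat.Agent.S24x.FundIdentity
import Fermat.Agent.S24x.LayerA
import Fermat.Agent.S37x.FundIdAlong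
import Fermat.Agent.S37x.CtmNormOrd

set_option autoImplicit false
set_option linter.style.haveILetI false

namespace Fermat.Agent.S37x

open AlgebraicCurve IsDedekindDomain Fermat.Agent.S24x UniqueFactorizationMonoid

section Abstract

variable {K F : Type*} [Field K] [Field F] [Algebra K F]
variable {A S : Type*} [CommRing A] [CommRing S] [IsDedekindDomain A] [IsDedekindDomain S]
  [Algebra A S] [Algebra A F] [Algebra S F] [IsScalarTower A S F] [IsFractionRing S F]
  [Module.Finite A S] [FaithfulSMul A S]
  [Algebra K A] [Algebra K S] [IsScalarTower K A S] [IsScalarTower K S F]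

/-- ABSTRACT FORM: the sum of the orders of `s ∈ S` at the places over the maximal ideal `(a)` of
`A` is the multiplicity of `(a)` in the ideal generated by the integral norm of `s`. -/
theorem ctmnp_sum_ord_abstract [IsAlgClosed K]
    (hS : ∀ v : Place K F, (∀ x : A, algebraMap A F x ∈ v.toValuationSubring) →
      ∀ s : S, algebraMap S F s ∈ v.toValuationSubring)
    (a : A) (ha0 : a ≠ 0) (hmax : (Ideal.span {a}).IsMaximal)
    (hres : Function.Surjective (algebraMap K (A ⧸ Ideal.span {a})))
    (hloc : ∀ q : Ideal A, q.IsMaximal → q = Ideal.span {a})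
    (s : S) (hs : s ≠ 0) :
    ∃ hfin : (fidZeros K (F := F) a).Finite,
      ∑ v ∈ hfin.toFinset, v.ord (algebraMap S F s) =
        ((normalizedFactors (Ideal.span {Algebra.intNorm A S s})).count (Ideal.span {a}) : ℤ) := by
  classical
  have hp0 : Ideal.span {a} ≠ ⊥ := by
    rw [Ne, Ideal.span_singleton_eq_bot]; exact ha0
  haveI : Fintype ((Ideal.span {a}).primesOver S) :=
    (Algebra.QuasiFinite.finite_primesOver (Ideal.span {a})).fintype
  haveI : Module.IsTorsionFree A S := Module.isTorsionFree_iff_faithfulSMul.mpr inferInstance
  have hrange := fid_range_placeOf (K := K) (F := F) (S := S) hS a ha0 hmax hp0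
  have hinj := fid_placeOf_injective (K := K) (F := F) (S := S) hp0
  have hfin : (fidZeros K (F := F) a).Finite := by
    rw [← hrange]; exact Set.finite_range _
  refine ⟨hfin, ?_⟩
  have hfs : hfin.toFinset = Finset.univ.image (fidPlaceOf K (F := F) (S := S) hp0) := by
    ext v; simp [← hrange]
  -- inertia degrees are one
  have hf : ∀ P : Ideal S, P.IsMaximal → P.inertiaDeg A = 1 := by
    intro P hP
    have hu : (P.under A).IsMaximal := Ideal.IsMaximal.under A P
    have hPp : P.LiesOver (Ideal.span {a}) := ⟨(hloc _ hu).symm⟩
    exact fid_inertiaDeg_eq_one (K := K) (Ideal.span {a}) hres P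
  have hcount := ctmn_count_intNorm hf s hs (Ideal.span {a}) hp0
  have hsI : Ideal.span {s} ≠ (⊥ : Ideal S) := by
    rw [Ne, Ideal.span_singleton_eq_bot]; exact hs
  rw [hcount, hfs, Finset.sum_image (fun x _ y _ h => hinj h)]
  push_cast
  rw [Finset.sum_subtype (IsDedekindDomain.primesOverFinset (Ideal.span {a}) S)
    (p := fun P => P ∈ (Ideal.span {a}).primesOver S)
    (fun P => by rw [IsDedekindDomain.mem_primesOverFinset_iff hp0])]
  refine Finset.sum_congr rfl fun P _ => ?_
  haveI := P.2.1
  haveI := P.2.2
  have hPbot : P.1 ≠ ⊥ := Ideal.ne_bot_of_liesOver_of_ne_bot hp0 P.1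
  unfold fidPlaceOf
  rw [fid_ord_algebraMap (K := K) (F := F) _ hs]
  have := HeightOneSpectrum.count_normalizedFactors_eq_multiplicity hsI
    (HeightOneSpectrum.mk P.1 P.2.1 hPbot)
  rw [this]

end Abstract

section Main

variable {K F F' : Type*} [Field K] [Field F] [Field F']
  [Algebra K F] [Algebra K F'] [Algebra F F'] [IsScalarTower K F F']

omit [Algebra K F'] [Algebra F F'] [IsScalarTower K F F'] in
/-- the order at `v` of an element of `O_v` is the multiplicity of `m_v` in the ideal it
generates -/
theorem ctmnp_ord_coe (v : Place K F) {π : v.toValuationSubring} (hπ : Irreducible π)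
    (x : v.toValuationSubring) (hx : x ≠ 0) :
    v.ord (x : F) =
      ((normalizedFactors (Ideal.span {x})).count (Ideal.span {π}) : ℤ) := by
  classical
  have hspan : Ideal.span {π} = IsLocalRing.maximalIdeal v.toValuationSubring :=
    hπ.maximalIdeal_eq.symm
  have hI : Ideal.span {x} ≠ (⊥ : Ideal v.toValuationSubring) := by
    rw [Ne, Ideal.span_singleton_eq_bot]; exact hx
  have h1 := HeightOneSpectrum.count_normalizedFactors_eq_multiplicity hI v.heightOneSpectrum
  rw [Place.heightOneSpectrum_asIdeal, ← hspan] at h1
  rw [h1, Place.ord, v.adicValuation_coe,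
    HeightOneSpectrum.intValuation_eq_exp_neg_multiplicity _ hx, WithZero.log_exp, neg_neg,
    Place.heightOneSpectrum_asIdeal, hspan]

/-- INTEGRAL CASE: for `s` in the integral closure of `O_v` in `F'`. -/
theorem ctmnp_sum_ord_int [IsAlgClosed K] [Module.Finite F F'] [Algebra.IsSeparable F F']
    (v : Place K F) (hres : Function.Surjective (algebraMap K v.ResidueField))
    {π : v.toValuationSubring} (hπ : Irreducible π)
    (s : integralClosure v.toValuationSubring F') (hs : s ≠ 0) :
    ∃ hfin : (fidZeros K (F := F') π).Finite,
      ∑ w ∈ hfin.toFinset, w.ord (s : F') = v.ord (Algebra.norm F (s : F')) := by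
  classical
  have := fia_isScalarTower_K (F' := F') v
  let _ : Algebra K (integralClosure v.toValuationSubring F') :=
    ((algebraMap v.toValuationSubring (integralClosure v.toValuationSubring F')).comp
      (algebraMap K v.toValuationSubring)).toAlgebra
  have : IsScalarTower K v.toValuationSubring (integralClosure v.toValuationSubring F') :=
    IsScalarTower.of_algebraMap_eq fun _ => rfl
  have : IsScalarTower K (integralClosure v.toValuationSubring F') F' :=
    IsScalarTower.of_algebraMap_eq fun a => by
      rw [IsScalarTower.algebraMap_apply K v.toValuationSubring F']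
      rfl
  have : FaithfulSMul v.toValuationSubring (integralClosure v.toValuationSubring F') := by
    rw [faithfulSMul_iff_algebraMap_injective]
    intro x y h
    have h2 := congrArg (algebraMap (integralClosure v.toValuationSubring F') F') h
    have h3 : algebraMap F F' (x : F) = algebraMap F F' (y : F) := h2
    exact Subtype.ext ((algebraMap F F').injective h3)
  have : IsDedekindDomain (integralClosure v.toValuationSubring F') :=
    integralClosure.isDedekindDomain v.toValuationSubring F F'
  have : IsFractionRing (integralClosure v.toValuationSubring F') F' :=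
    integralClosure.isFractionRing_of_finite_extension F F'
  have : Module.Finite v.toValuationSubring (integralClosure v.toValuationSubring F') :=
    IsIntegralClosure.finite v.toValuationSubring F F' _
  have : Module.IsTorsionFree v.toValuationSubring (integralClosure v.toValuationSubring F') :=
    Module.isTorsionFree_iff_faithfulSMul.mpr inferInstance
  have hspan : Ideal.span {π} = IsLocalRing.maximalIdeal v.toValuationSubring :=
    hπ.maximalIdeal_eq.symm
  have hmax : (Ideal.span {π}).IsMaximal := by
    rw [hspan]; exact IsLocalRing.maximalIdeal.isMaximal _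
  have hres' : Function.Surjective (algebraMap K (v.toValuationSubring ⧸ Ideal.span {π})) := by
    rw [hspan]; exact hres
  have hloc : ∀ q : Ideal v.toValuationSubring, q.IsMaximal → q = Ideal.span {π} := by
    intro q hq
    rw [hspan]
    exact IsLocalRing.eq_maximalIdeal hq
  obtain ⟨hfin, hsum⟩ := ctmnp_sum_ord_abstract (K := K) (F := F') (A := v.toValuationSubring)
    (S := integralClosure v.toValuationSubring F')
    (fun w hw s => fia_icl_le v w hw s) π hπ.ne_zero hmax hres' hloc s hs
  refine ⟨hfin, ?_⟩
  have hnorm : algebraMap v.toValuationSubring F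
      (Algebra.intNorm v.toValuationSubring (integralClosure v.toValuationSubring F') s)
        = Algebra.norm F (algebraMap (integralClosure v.toValuationSubring F') F' s) :=
    Algebra.algebraMap_intNorm (A := v.toValuationSubring) (K := F) (L := F')
      (B := integralClosure v.toValuationSubring F') s
  have hne : Algebra.intNorm v.toValuationSubring (integralClosure v.toValuationSubring F') s ≠ 0 :=
    Algebra.intNorm_ne_zero.mpr hs
  have h2 := ctmnp_ord_coe v hπ _ hne
  have h3 : (s : F') = algebraMap (integralClosure v.toValuationSubring F') F' s := rfl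
  rw [h3, ← hnorm]
  exact hsum.trans h2.symm

/-- **ORDER OF A NORM** (set form): `∑_{w ∣ v} ord_w f = ord_v (N_{F'/F} f)`, the sum over the places
of `F'` containing `O_v` at which a uniformizer `π` of `v` vanishes. -/
theorem ctmnp_sum_ord_zeros [IsAlgClosed K] [Module.Finite F F'] [Algebra.IsSeparable F F']
    (v : Place K F) (hres : Function.Surjective (algebraMap K v.ResidueField))
    {π : v.toValuationSubring} (hπ : Irreducible π) (f : F') (hf : f ≠ 0) :
    ∃ hfin : (fidZeros K (F := F') π).Finite,
      ∑ w ∈ hfin.toFinset, w.ord f = v.ord (Algebra.norm F f) := by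
  classical
  have : IsFractionRing (integralClosure v.toValuationSubring F') F' :=
    integralClosure.isFractionRing_of_finite_extension F F'
  obtain ⟨s, t, ht, rfl⟩ := IsFractionRing.div_surjective
    (A := integralClosure v.toValuationSubring F') f
  have ht0 : t ≠ 0 := nonZeroDivisors.ne_zero ht
  have hs0 : s ≠ 0 := by
    rintro rfl
    apply hf
    simp
  have hs0' : algebraMap (integralClosure v.toValuationSubring F') F' s ≠ 0 := by
    intro h
    exact hs0 (by simpa using h)
  have ht0' : algebraMap (integralClosure v.toValuationSubring F') F' t ≠ 0 := by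
    intro h
    exact ht0 (by simpa using h)
  obtain ⟨hfin, hS⟩ := ctmnp_sum_ord_int v hres hπ s hs0
  obtain ⟨hfin', hT⟩ := ctmnp_sum_ord_int v hres hπ t ht0
  have hT' : ∑ w ∈ hfin.toFinset, w.ord (t : F') = v.ord (Algebra.norm F (t : F')) := hT
  refine ⟨hfin, ?_⟩
  have hns : Algebra.norm F (algebraMap (integralClosure v.toValuationSubring F') F' s) ≠ 0 :=
    Algebra.norm_ne_zero_iff.mpr hs0'
  have hnt : Algebra.norm F (algebraMap (integralClosure v.toValuationSubring F') F' t) ≠ 0 :=
    Algebra.norm_ne_zero_iff.mpr ht0'
  have key : ∀ w : Place K F',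
      w.ord (algebraMap (integralClosure v.toValuationSubring F') F' s /
        algebraMap (integralClosure v.toValuationSubring F') F' t)
        = w.ord (s : F') - w.ord (t : F') := by
    intro w
    rw [div_eq_mul_inv, w.ord_mul hs0' (inv_ne_zero ht0'), w.ord_inv]
    rfl
  have hx : Algebra.norm F (algebraMap (integralClosure v.toValuationSubring F') F' s /
        algebraMap (integralClosure v.toValuationSubring F') F' t) *
      Algebra.norm F (algebraMap (integralClosure v.toValuationSubring F') F' t) =
      Algebra.norm F (algebraMap (integralClosure v.toValuationSubring F') F' s) := by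
    rw [← map_mul, div_mul_cancel₀ _ ht0']
  have hnx : Algebra.norm F (algebraMap (integralClosure v.toValuationSubring F') F' s /
        algebraMap (integralClosure v.toValuationSubring F') F' t) ≠ 0 :=
    Algebra.norm_ne_zero_iff.mpr hf
  have h5 := v.ord_mul hnx hnt
  rw [hx] at h5
  have h6 : v.ord (Algebra.norm F (s : F')) =
      v.ord (Algebra.norm F (algebraMap (integralClosure v.toValuationSubring F') F' s /
        algebraMap (integralClosure v.toValuationSubring F') F' t)) +
      v.ord (Algebra.norm F (t : F')) := h5
  rw [Finset.sum_congr rfl (fun w _ => key w), Finset.sum_sub_distrib, hS, hT', h6]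
  ring

/-- **ORDER OF A NORM** (finset form): for every finset `fib` consisting exactly of the places of `F'`
over `v`, `∑_{w ∈ fib} ord_w f = ord_v (N_{F'/F} f)`. -/
theorem ctmnp_sum_ord_eq [IsAlgClosed K] [Module.Finite F F'] [Algebra.IsSeparable F F']
    (v : Place K F) (hres : Function.Surjective (algebraMap K v.ResidueField))
    (fib : Finset (Place K F')) (hfib : ∀ w, w ∈ fib ↔ w.restrict F = v)
    (f : F') (hf : f ≠ 0) :
    ∑ w ∈ fib, w.ord f = v.ord (Algebra.norm F f) := by
  classical
  obtain ⟨π, hπ⟩ := IsDiscreteValuationRing.exists_irreducible v.toValuationSubring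
  obtain ⟨hfin, hsum⟩ := ctmnp_sum_ord_zeros v hres hπ f hf
  have : Algebra.IsIntegral F F' := Algebra.IsIntegral.of_finite F F'
  have hfs : fib = hfin.toFinset := by
    ext w
    rw [hfib, Set.Finite.mem_toFinset, fia_restrict_eq_iff v w hπ]
    rfl
  rw [hfs, hsum]

/-- the places of `F'` over a rational place `v` of `F` are finitely many -/
theorem ctmnp_fibre_finite [IsAlgClosed K] [Module.Finite F F'] [Algebra.IsSeparable F F']
    (v : Place K F) (hres : Function.Surjective (algebraMap K v.ResidueField)) :
    {w : Place K F' | w.restrict F = v}.Finite := by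
  obtain ⟨π, hπ⟩ := IsDiscreteValuationRing.exists_irreducible v.toValuationSubring
  obtain ⟨hfin, -⟩ := ctmnp_sum_ord_zeros v hres hπ (1 : F') one_ne_zero
  have : Algebra.IsIntegral F F' := Algebra.IsIntegral.of_finite F F'
  refine hfin.subset ?_
  intro w hw
  have := (fia_restrict_eq_iff v w hπ).mp hw
  exact this

/-- **The prelude's norm formula** `pushforward (div f) = div (N f)`, in any characteristic, for a
finite separable extension of function fields over an algebraically closed field all of whose
places are rational. -/
theorem ctmnp_pushforwardNormFormula [IsAlgClosed K] [Module.Finite F F']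
    [Algebra.IsSeparable F F']
    (hresF : ∀ v : Place K F, Function.Surjective (algebraMap K v.ResidueField))
    (hresF' : ∀ w : Place K F', Function.Surjective (algebraMap K w.ResidueField)) :
    Divisor.PushforwardNormFormula K F F' := by
  classical
  intro f hf D hD v
  have hin : ∀ w : Place K F', w.inertiaDeg F = 1 := by
    intro w
    have h := w.deg_restrict_mul_inertiaDeg (F := F)
    rw [la_deg_eq_one w (hresF' w), la_deg_eq_one _ (hresF (w.restrict F)), one_mul] at h
    exact h
  rw [Divisor.pushforward_apply]
  set fib := (ctmnp_fibre_finite (F' := F') v (hresF v)).toFinset with hfibdef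
  have hfib : ∀ w, w ∈ fib ↔ w.restrict F = v := by
    intro w
    rw [hfibdef, Set.Finite.mem_toFinset]
    rfl
  rw [← ctmnp_sum_ord_eq v (hresF v) fib hfib f hf]
  have h1 : ∀ w ∈ D.support, (if w.restrict F = v then D w * (w.inertiaDeg F : ℤ) else 0)
      = if w.restrict F = v then w.ord f else 0 := by
    intro w _
    split_ifs
    · rw [hin w, hD w]; simp
    · rfl
  rw [Finset.sum_congr rfl h1, ← Finset.sum_filter]
  apply Finset.sum_subset
  · intro w hw
    rw [Finset.mem_filter] at hw
    exact (hfib w).mpr hw.2
  · intro w hw hwn
    rw [Finset.mem_filter, not_and] at hwn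
    have : w ∉ D.support := fun h => hwn h ((hfib w).mp hw)
    rw [Finsupp.notMem_support_iff, hD w] at this
    exact this

end Main

section Along

variable {K F F' : Type*} [Field K] [Field F] [Field F'] [Algebra K F] [Algebra K F']

/-- the `NormFormulaAlong` form (the shape used by `ModularCurve.HeckeInputsAlong`), in any
characteristic, with the separability of `F'` over `φ F` as a hypothesis. -/
theorem ctmnp_normFormulaAlong [IsAlgClosed K] (φ : F →ₐ[K] F') (hfin : FiniteAlong K φ)
    (hsep : letI := algebraAlong φ; Algebra.IsSeparable F F')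
    (hresF : ∀ v : Place K F, Function.Surjective (algebraMap K v.ResidueField))
    (hresF' : ∀ w : Place K F', Function.Surjective (algebraMap K w.ResidueField)) :
    NormFormulaAlong K φ hfin := by
  let _ := algebraAlong φ
  have := isScalarTower_along φ
  have : Module.Finite F F' := hfin
  have : Algebra.IsSeparable F F' := hsep
  exact ctmnp_pushforwardNormFormula hresF hresF'

/-- the `NormFormulaAlong` form in characteristic zero. -/
theorem ctmnp_normFormulaAlong_charZero [IsAlgClosed K] [CharZero K] (φ : F →ₐ[K] F')
    (hfin : FiniteAlong K φ)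
    (hresF : ∀ v : Place K F, Function.Surjective (algebraMap K v.ResidueField))
    (hresF' : ∀ w : Place K F', Function.Surjective (algebraMap K w.ResidueField)) :
    NormFormulaAlong K φ hfin := by
  have : CharZero F := charZero_of_injective_algebraMap (algebraMap K F).injective
  refine ctmnp_normFormulaAlong φ hfin ?_ hresF hresF'
  let _ := algebraAlong φ
  have : Module.Finite F F' := hfin
  infer_instance

end Along

end Fermat.Agent.S37x
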