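/-
S37x/CtmNormOrdAdapter.lean (helper91, S37 prep, block [B1], LEAF N in helper4's exact shapes,
prefix `ctno_`):

* `ctno_ord_aeval` : `ord_P (p(g)) = rootMultiplicity a p * ord_P (g - a)` at a place `P` with
  `(g - a)(P) = 0`;
* `ctno_ord_norm`  : for a separating coordinate `g` of `F/K` (`K` algebraically closed, any
  characteristic), `y ≠ 0`, `a ∈ K`, `S` = the places where `g - a` vanishes, `P₀ ∈ S`:
  `ord_{P₀} (N_{F/K(g)} y) = ord_{P₀} (g - a) * ∑_{P ∈ S} ord_P y`.

Route: `ctmnp_sum_ord_eq` (S37x/CtmNormOrdPlace.lean) for `K(g) ⊆ F` and `v := P₀|_{K(g)}`; the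
places of `K(g)` at which `g - a` vanishes are all equal to `v` and `g - a` is a uniformizer there
(`ctno_place_unique`, `ctno_ord_gen_eq_one`, from `ctno_ord_aeval` on `K(g)`).
-/
import Mathlib
import Fermat.Agent.S18x.LyhDense
import Fermat.Agent.S18x.PlsFund
import Fermat.Agent.S24x.PlaceCenter
import Fermat.Agent.S37x.CtmNormOrdPlace

set_option autoImplicit false
set_option linter.style.haveILetI false

namespace Fermat.Agent.S37x

open AlgebraicCurve Fermat.Agent.S18x Fermat.Agent.S24x IntermediateField Polynomial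

section Aeval

variable {K F : Type*} [Field K] [Field F] [Algebra K F]

theorem ctno_lt_one_iff (P : Place K F) {f : F} (hf : f ≠ 0) :
    P.adicValuation f < 1 ↔ 0 < P.ord f := by
  have h0 := P.adicValuation_ne_zero hf
  unfold Place.ord
  rw [neg_pos, WithZero.log_lt_iff_lt_exp h0, WithZero.exp_zero]

/-- factorisation of `p(g)` at a zero of `g - a` -/
theorem ctno_aeval_factor (g : F) (p : K[X]) (hp : p ≠ 0) (a : K) (P : Place K F)
    (hpos : 0 < P.ord (g - algebraMap K F a)) :
    aeval g p ≠ 0 ∧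
      P.ord (aeval g p) = (p.rootMultiplicity a : ℤ) * P.ord (g - algebraMap K F a) := by
  have ht0 : g - algebraMap K F a ≠ 0 := by
    intro h0
    rw [h0, P.ord_zero] at hpos
    exact lt_irrefl _ hpos
  obtain ⟨R₁, hR₁, hndvd⟩ := exists_eq_pow_rootMultiplicity_mul_and_not_dvd p hp a
  have hev : R₁.eval a ≠ 0 := by
    intro h0
    exact hndvd (dvd_iff_isRoot.2 h0)
  obtain ⟨hne, hord⟩ := lyh_ord_aeval_eq_zero P hpos R₁ hev
  have hdec : aeval g p = (g - algebraMap K F a) ^ (p.rootMultiplicity a) * aeval g R₁ := by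
    conv_lhs => rw [hR₁]
    simp only [map_mul, map_pow, map_sub, aeval_X, aeval_C]
  refine ⟨?_, ?_⟩
  · rw [hdec]
    exact mul_ne_zero (pow_ne_zero _ ht0) hne
  · rw [hdec, P.ord_mul (pow_ne_zero _ ht0) hne, hord, add_zero, lyh_ord_pow]

/-- LEAF N (second statement): the order of `p(g)` at a zero of `g - a`. -/
theorem ctno_ord_aeval (g : F) (p : K[X]) (hp : p ≠ 0)
    (a : K) (P : Place K F) (hP : P.adicValuation (g - algebraMap K F a) < 1) :
    P.ord (aeval g p) = (p.rootMultiplicity a : ℤ) * P.ord (g - algebraMap K F a) := by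
  rcases eq_or_ne (g - algebraMap K F a) 0 with h0 | h0
  · have hg : g = algebraMap K F a := sub_eq_zero.mp h0
    rw [h0, P.ord_zero, mul_zero, hg, aeval_algebraMap_apply_eq_algebraMap_eval]
    exact pb_ord_algebraMap P _
  · exact (ctno_aeval_factor g p hp a P ((ctno_lt_one_iff P h0).mp hP)).2

end Aeval

section Rational

variable {K E : Type*} [Field K] [Field E] [Algebra K E]

/-- the order of a quotient `p(G)/q(G)` at a zero of `G - a` -/
theorem ctno_ord_ratio (G : E) (a : K) (v : Place K E)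
    (hv : 0 < v.ord (G - algebraMap K E a)) (p q : K[X]) (hp : p ≠ 0) (hq : q ≠ 0) :
    v.ord (aeval G p / aeval G q) =
      ((p.rootMultiplicity a : ℤ) - (q.rootMultiplicity a : ℤ)) * v.ord (G - algebraMap K E a) := by
  obtain ⟨hp0, hpo⟩ := ctno_aeval_factor G p hp a v hv
  obtain ⟨hq0, hqo⟩ := ctno_aeval_factor G q hq a v hv
  rw [div_eq_mul_inv, v.ord_mul hp0 (inv_ne_zero hq0), v.ord_inv, hpo, hqo]
  ring

variable (G : E) (hgen : ∀ x : E, ∃ p q : K[X], aeval G q ≠ 0 ∧ x = aeval G p / aeval G q)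
include hgen

/-- in `E = K(G)` two places at which `G - a` vanishes have the same valuation ring -/
theorem ctno_place_le (a : K) (v₁ v₂ : Place K E)
    (h₁ : 0 < v₁.ord (G - algebraMap K E a)) (h₂ : 0 < v₂.ord (G - algebraMap K E a)) :
    v₁.toValuationSubring ≤ v₂.toValuationSubring := by
  intro x hx
  rcases eq_or_ne x 0 with rfl | hx0
  · exact zero_mem _
  obtain ⟨p, q, hq0, rfl⟩ := hgen x
  have hq : q ≠ 0 := by
    rintro rfl
    exact hq0 (map_zero _)
  have hp : p ≠ 0 := by
    rintro rfl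
    apply hx0
    rw [map_zero, zero_div]
  rw [pb_mem_iff v₁ hx0, ctno_ord_ratio G a v₁ h₁ p q hp hq] at hx
  rw [pb_mem_iff v₂ hx0, ctno_ord_ratio G a v₂ h₂ p q hp hq]
  have hmn : 0 ≤ (p.rootMultiplicity a : ℤ) - (q.rootMultiplicity a : ℤ) := by
    by_contra hneg
    rw [not_le] at hneg
    have := mul_neg_of_neg_of_pos hneg h₁
    omega
  exact mul_nonneg hmn h₂.le

/-- UNIQUENESS of the place `G = a` of `E = K(G)` -/
theorem ctno_place_unique (a : K) (v₁ v₂ : Place K E)
    (h₁ : 0 < v₁.ord (G - algebraMap K E a)) (h₂ : 0 < v₂.ord (G - algebraMap K E a)) :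
    v₁ = v₂ := by
  apply Place.ext
  exact ValuationSubring.eq_of_le_of_ne_top _ (ctno_place_le G hgen a v₁ v₂ h₁ h₂) v₂.ne_top'

/-- `G - a` is a uniformizer at the place `G = a` of `E = K(G)` -/
theorem ctno_ord_gen_eq_one (a : K) (v : Place K E)
    (hv : 0 < v.ord (G - algebraMap K E a)) : v.ord (G - algebraMap K E a) = 1 := by
  obtain ⟨π, hπ, hπ1⟩ := pb_exists_uniformizer v
  have hπ0 := pb_irreducible_coe_ne_zero v hπ
  obtain ⟨p, q, hq0, hpq⟩ := hgen (π : E)
  have hq : q ≠ 0 := by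
    rintro rfl
    exact hq0 (map_zero _)
  have hp : p ≠ 0 := by
    rintro rfl
    apply hπ0
    rw [hpq, map_zero, zero_div]
  rw [hpq, ctno_ord_ratio G a v hv p q hp hq] at hπ1
  exact Int.eq_one_of_mul_eq_one_left hv.le hπ1

end Rational

section Norm

variable {K F : Type*} [Field K] [Field F] [Algebra K F]

/-- every element of `K⟮g⟯` is a quotient of polynomials in the generator -/
theorem ctno_gen_surj (g : F) (x : K⟮g⟯) :
    ∃ p q : K[X], aeval (AdjoinSimple.gen K g) q ≠ 0 ∧
      x = aeval (AdjoinSimple.gen K g) p / aeval (AdjoinSimple.gen K g) q := by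
  obtain ⟨r, s, hrs⟩ := (mem_adjoin_simple_iff K (x : F)).mp x.2
  by_cases hs : aeval g s = 0
  · refine ⟨0, 1, by simp, ?_⟩
    apply Subtype.ext
    rw [hrs, hs, div_zero]
    simp
  · refine ⟨r, s, ?_, ?_⟩
    · intro h
      apply hs
      rw [← AdjoinSimple.coe_aeval_gen_apply, h]
      rfl
    · apply Subtype.ext
      rw [hrs]
      show _ = ((aeval (AdjoinSimple.gen K g) r : K⟮g⟯) : F) / ((aeval (AdjoinSimple.gen K g) s : K⟮g⟯) : F)
      rw [AdjoinSimple.coe_aeval_gen_apply, AdjoinSimple.coe_aeval_gen_apply]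

/-- LEAF N (first statement): the order of a norm from `F` to `K(g)`. -/
theorem ctno_ord_norm [IsAlgClosed K] {g : F}
    (hg : pls_IsSepCoordinate K F g) (y : F) (hy : y ≠ 0) (a : K)
    (S : Finset (Place K F))
    (hS : ∀ P : Place K F, P ∈ S ↔ P.adicValuation (g - algebraMap K F a) < 1)
    (P₀ : Place K F) (hP₀ : P₀ ∈ S) :
    haveI := hg.coord.finite
    P₀.ord (algebraMap K⟮g⟯ F (Algebra.norm K⟮g⟯ y))
      = P₀.ord (g - algebraMap K F a) * ∑ P ∈ S, P.ord y := by
  haveI := hg.coord.finite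
  haveI := hg.sep
  haveI : Algebra.IsIntegral K⟮g⟯ F := Algebra.IsIntegral.of_finite K⟮g⟯ F
  -- `g - a ≠ 0`
  have hga : g - algebraMap K F a ≠ 0 := by
    intro h0
    apply hg.coord.transcendental
    rw [sub_eq_zero.mp h0]
    exact isAlgebraic_algebraMap a
  have hS' : ∀ P : Place K F, P ∈ S ↔ 0 < P.ord (g - algebraMap K F a) := fun P => by
    rw [hS P, ctno_lt_one_iff P hga]
  -- the generator of `K(g)`
  set G : K⟮g⟯ := AdjoinSimple.gen K g with hG
  have hu : algebraMap K⟮g⟯ F (G - algebraMap K K⟮g⟯ a) = g - algebraMap K F a := by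
    rw [map_sub, ← IsScalarTower.algebraMap_apply, hG, AdjoinSimple.algebraMap_gen]
  have hgen := ctno_gen_surj (K := K) g
  -- the place below
  set v : Place K K⟮g⟯ := P₀.restrict K⟮g⟯ with hv
  have hordP : ∀ P : Place K F, P.ord (g - algebraMap K F a) =
      (P.ramificationIndex K⟮g⟯ : ℤ) * (P.restrict K⟮g⟯).ord (G - algebraMap K K⟮g⟯ a) := by
    intro P
    rw [← hu, P.ord_restrict]
  have hepos : ∀ P : Place K F, (0 : ℤ) < (P.ramificationIndex K⟮g⟯ : ℤ) := by
    intro P
    exact_mod_cast P.ramificationIndex_pos (F := K⟮g⟯)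
  have hpos_of : ∀ P : Place K F, 0 < P.ord (g - algebraMap K F a) →
      0 < (P.restrict K⟮g⟯).ord (G - algebraMap K K⟮g⟯ a) := by
    intro P hP
    rw [hordP P] at hP
    exact (mul_pos_iff_of_pos_left (hepos P)).mp hP
  -- the fibre of `v` is `S`
  have hv_pos : 0 < v.ord (G - algebraMap K K⟮g⟯ a) := hpos_of P₀ ((hS' P₀).mp hP₀)
  have hfib : ∀ P : Place K F, P ∈ S ↔ P.restrict K⟮g⟯ = v := by
    intro P
    constructor
    · intro hP
      exact ctno_place_unique G hgen a _ _ (hpos_of P ((hS' P).mp hP)) hv_pos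
    · intro hP
      rw [hS' P, hordP P, hP]
      exact mul_pos (hepos P) hv_pos
  -- the residue field of `v` is `K`
  have hres : Function.Surjective (algebraMap K v.ResidueField) := by
    intro z
    obtain ⟨c, hc⟩ := pc_place_residue_surjective hg.coord P₀
      (algebraMap v.ResidueField P₀.ResidueField z)
    refine ⟨c, ?_⟩
    apply (algebraMap v.ResidueField P₀.ResidueField).injective
    rw [← hc, ← IsScalarTower.algebraMap_apply]
  have hsum := ctmnp_sum_ord_eq v hres S hfib y hy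
  have h1 : v.ord (G - algebraMap K K⟮g⟯ a) = 1 := ctno_ord_gen_eq_one G hgen a v hv_pos
  rw [P₀.ord_restrict, hordP P₀, ← hv, h1, mul_one, hsum]

end Norm

end Fermat.Agent.S37x
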