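/-
S37x/CtmPone (helper5): LEAF P of helper4's [B1] block (centre map / COMPAT at level N).
`ctp_rootMultiplicity_sum`: for a polynomial `p` over a valuation ring `A` of an algebraically
closed field `L` whose reduction is nonzero, the roots of `p` in `L` which lie in `A` and reduce
to `cb` (counted with multiplicity) are as many as the multiplicity of `cb` as a root of the
reduction of `p`.  Mathlib only.
-/
import Mathlib

set_option autoImplicit false

namespace Fermat.Agent.S37x

open Polynomial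

section

variable {L k : Type*} [Field L] [Field k]

open Classical in
/-- a product of linear factors is `c * Q` with `Q ∈ A[X]` whose reduction is the product of the
linear factors at the reductions of the roots lying in `A`. -/
theorem ctp_prod_factor (A : ValuationSubring L) (π : A →+* k)
    (hπk : ∀ a : A, π a = 0 ↔ ¬ IsUnit a) (S : Multiset L) :
    ∃ (c : L) (Q : Polynomial A), c ≠ 0 ∧ (Q.map π).Monic ∧
      (∀ cb : k, (Q.map π).rootMultiplicity cb
          = Multiset.card (S.filter (fun ρ => ∃ h : ρ ∈ A, π ⟨ρ, h⟩ = cb))) ∧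
      (S.map fun ρ => X - C ρ).prod = C c * Q.map A.subtype := by
  induction S using Multiset.induction_on with
  | empty =>
    refine ⟨1, 1, one_ne_zero, ?_, fun cb => ?_, ?_⟩
    · rw [Polynomial.map_one]; exact monic_one
    · rw [Polynomial.map_one]; simp
    · simp
  | cons ρ S ih =>
    obtain ⟨c, Q, hc, hQm, hQr, hprod⟩ := ih
    by_cases hρ : ρ ∈ A
    · refine ⟨c, (X - C ⟨ρ, hρ⟩) * Q, hc, ?_, fun cb => ?_, ?_⟩
      · rw [Polynomial.map_mul, Polynomial.map_sub, map_X, map_C]
        exact (monic_X_sub_C _).mul hQm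
      · rw [Polynomial.map_mul, Polynomial.map_sub, map_X, map_C,
          rootMultiplicity_mul ((monic_X_sub_C _).mul hQm).ne_zero, rootMultiplicity_X_sub_C, hQr,
          Multiset.filter_cons]
        by_cases h : cb = π ⟨ρ, hρ⟩
        · have h' : ∃ h : ρ ∈ A, π ⟨ρ, h⟩ = cb := ⟨hρ, h.symm⟩
          rw [if_pos h, if_pos h', Multiset.card_add, Multiset.card_singleton]
        · have h' : ¬ ∃ h : ρ ∈ A, π ⟨ρ, h⟩ = cb := fun ⟨_, h2⟩ => h h2.symm
          rw [if_neg h, if_neg h', Multiset.card_add, Multiset.card_zero]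
      · rw [Multiset.map_cons, Multiset.prod_cons, hprod, Polynomial.map_mul, Polynomial.map_sub,
          map_X, map_C]
        simp only [ValuationSubring.subtype_apply]
        ring
    · have hρ0 : ρ ≠ 0 := by
        rintro rfl
        exact hρ A.zero_mem
      have hρA : ρ⁻¹ ∈ A := (A.mem_or_inv_mem ρ).resolve_left hρ
      have hnu : ¬ IsUnit (⟨ρ⁻¹, hρA⟩ : A) := by
        intro hu
        obtain ⟨u, hu⟩ := hu
        apply hρ
        have h1 : ((u⁻¹ : Aˣ) : A) * ⟨ρ⁻¹, hρA⟩ = 1 := by rw [← hu]; exact u.inv_mul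
        have h2 : (((u⁻¹ : Aˣ) : A) : L) * ρ⁻¹ = 1 := by
          have := congrArg (Subtype.val) h1
          simpa using this
        have h3 : (((u⁻¹ : Aˣ) : A) : L) = ρ := by
          field_simp at h2
          exact h2
        rw [← h3]
        exact ((u⁻¹ : Aˣ) : A).2
      have hπ0 : π ⟨ρ⁻¹, hρA⟩ = 0 := (hπk _).mpr hnu
      have hmap : ((1 - C (⟨ρ⁻¹, hρA⟩ : A) * X) * Q).map π = Q.map π := by
        rw [Polynomial.map_mul, Polynomial.map_sub, Polynomial.map_mul, map_X, map_C,
          Polynomial.map_one, hπ0, C_0, zero_mul, sub_zero, one_mul]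
      refine ⟨-ρ * c, (1 - C ⟨ρ⁻¹, hρA⟩ * X) * Q, mul_ne_zero (neg_ne_zero.mpr hρ0) hc, ?_,
        fun cb => ?_, ?_⟩
      · rw [hmap]; exact hQm
      · rw [hmap, hQr, Multiset.filter_cons]
        have h' : ¬ ∃ h : ρ ∈ A, π ⟨ρ, h⟩ = cb := fun ⟨h1, _⟩ => hρ h1
        rw [if_neg h', zero_add]
      · rw [Multiset.map_cons, Multiset.prod_cons, hprod, Polynomial.map_mul, Polynomial.map_sub,
          Polynomial.map_mul, map_X, map_C, Polynomial.map_one]
        simp only [ValuationSubring.subtype_apply]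
        have hlin : (X - C ρ : L[X]) = C (-ρ) * (1 - C ρ⁻¹ * X) := by
          rw [mul_sub, mul_one, ← mul_assoc, ← C_mul, neg_mul, mul_inv_cancel₀ hρ0, C_neg, C_neg,
            C_1]
          ring
        rw [hlin, C_mul]
        ring

open Classical in
/-- **LEAF P.** -/
theorem ctp_rootMultiplicity_sum [IsAlgClosed L]
    (A : ValuationSubring L) (π : A →+* k) (hπk : ∀ a : A, π a = 0 ↔ ¬ IsUnit a)
    (p : Polynomial A) (hp : p.map π ≠ 0) (cb : k)
    (T : Finset L) (hT : ∀ a : L, (p.map A.subtype).IsRoot a → a ∈ T) :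
    ∑ a ∈ T.filter (fun a => ∃ ha : a ∈ A, π ⟨a, ha⟩ = cb),
        ((p.map A.subtype).rootMultiplicity a : ℤ)
      = ((p.map π).rootMultiplicity cb : ℤ) := by
  have hp0 : p ≠ 0 := by
    rintro rfl
    exact hp (Polynomial.map_zero π)
  have hinj : Function.Injective (A.subtype : A →+* L) := Subtype.val_injective
  have hpL0 : p.map A.subtype ≠ 0 := (Polynomial.map_ne_zero_iff hinj).mpr hp0
  set pL := p.map A.subtype with hpL
  have hsplit : pL = C pL.leadingCoeff * (pL.roots.map fun ρ => X - C ρ).prod :=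
    (IsAlgClosed.splits pL).eq_prod_roots
  obtain ⟨c, Q, hc, hQm, hQr, hprod⟩ := ctp_prod_factor A π hπk pL.roots
  have hlc : pL.leadingCoeff ≠ 0 := leadingCoeff_ne_zero.mpr hpL0
  have hpQ : pL = C (pL.leadingCoeff * c) * Q.map A.subtype := by
    conv_lhs => rw [hsplit, hprod]
    rw [C_mul]; ring
  -- a unit coefficient of `Q`
  have hQ0 : Q.map π ≠ 0 := hQm.ne_zero
  obtain ⟨j, hj⟩ : ∃ j, (Q.map π).coeff j ≠ 0 := by
    by_contra hcon
    push Not at hcon
    exact hQ0 (Polynomial.ext fun j => by rw [hcon j, coeff_zero])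
  rw [coeff_map] at hj
  have hju : IsUnit (Q.coeff j) := by
    by_contra hnu
    exact hj ((hπk _).mpr hnu)
  obtain ⟨u, hu⟩ := hju
  -- the constant lies in `A`
  have hcoef : (p.coeff j : L) = pL.leadingCoeff * c * (Q.coeff j : L) := by
    have h1 : pL.coeff j = (p.coeff j : L) := by rw [hpL, coeff_map]; rfl
    rw [← h1]
    conv_lhs => rw [hpQ]
    rw [coeff_C_mul, coeff_map]; rfl
  have hdA : pL.leadingCoeff * c ∈ A := by
    have h2 : pL.leadingCoeff * c = (p.coeff j * ((u⁻¹ : Aˣ) : A) : A) := by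
      have h3 : ((Q.coeff j : A) : L) * (((u⁻¹ : Aˣ) : A) : L) = 1 := by
        have h4 : Q.coeff j * ((u⁻¹ : Aˣ) : A) = 1 := by rw [← hu]; exact u.mul_inv
        have := congrArg Subtype.val h4
        simpa using this
      push_cast
      rw [hcoef, mul_assoc, h3, mul_one]
    rw [h2]
    exact (p.coeff j * ((u⁻¹ : Aˣ) : A) : A).2
  have hpQA : p = C (⟨pL.leadingCoeff * c, hdA⟩ : A) * Q := by
    apply Polynomial.map_injective _ hinj
    rw [Polynomial.map_mul, map_C]
    exact hpQ
  have hpπ : p.map π = C (π ⟨pL.leadingCoeff * c, hdA⟩) * Q.map π := by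
    conv_lhs => rw [hpQA]
    rw [Polynomial.map_mul, map_C]
  have hd0 : π ⟨pL.leadingCoeff * c, hdA⟩ ≠ 0 := by
    intro h0
    apply hp
    rw [hpπ, h0, C_0, zero_mul]
  have hmult : (p.map π).rootMultiplicity cb = (Q.map π).rootMultiplicity cb := by
    have hne : C (π ⟨pL.leadingCoeff * c, hdA⟩) * Q.map π ≠ 0 := by rw [← hpπ]; exact hp
    rw [hpπ, rootMultiplicity_mul hne, rootMultiplicity_C, zero_add]
  rw [hmult, hQr]
  -- count the roots
  have hms : ∀ a ∈ pL.roots.filter (fun ρ => ∃ h : ρ ∈ A, π ⟨ρ, h⟩ = cb),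
      a ∈ T.filter (fun a => ∃ ha : a ∈ A, π ⟨a, ha⟩ = cb) := by
    intro a ha
    rw [Multiset.mem_filter] at ha
    rw [Finset.mem_filter]
    exact ⟨hT a ((mem_roots hpL0).mp ha.1), ha.2⟩
  rw [← Multiset.sum_count_eq_card hms]
  push_cast
  refine Finset.sum_congr rfl fun a ha => ?_
  rw [Finset.mem_filter] at ha
  rw [Multiset.count_filter_of_pos (p := fun ρ => ∃ h : ρ ∈ A, π ⟨ρ, h⟩ = cb) ha.2, count_roots]

end

end Fermat.Agent.S37x
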