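import Mathlib
import Fermat.Agent.S37x.CtmRedPair

/-!
# S37 [B1], LEAF G addendum (helper96): the coercion lemma for `ctr_rhog` in anonymous-constructor form
-/

set_option autoImplicit false

namespace Fermat.Agent.S37x

open Fermat.Agent.S18x IntermediateField

variable {L k F Fb : Type*} [Field L] [Field k] [Field F] [Field Fb] [Algebra L F] [Algebra k Fb]
variable {A : ValuationSubring L} {π : A →+* k} {W : ValuationSubring F} {ρ : W →+* Fb}

/-- `ctr_rhog` is `ρ` on the underlying elements. -/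
theorem ctr_rhog_coe_mk (G : ctm_Gauss A π W ρ) (g : W) (hg : Transcendental k (ρ g))
    (z : ctr_Wg (L := L) W (g : F)) :
    ((ctr_rhog G g hg z : k⟮ρ g⟯) : Fb) = ρ ⟨((z : L⟮(g : F)⟯) : F), z.2⟩ := rfl

/-- `algebraMap`-form of the same statement. -/
theorem ctr_algebraMap_rhog (G : ctm_Gauss A π W ρ) (g : W) (hg : Transcendental k (ρ g))
    (z : ctr_Wg (L := L) W (g : F)) :
    algebraMap k⟮ρ g⟯ Fb (ctr_rhog G g hg z) = ρ ⟨algebraMap L⟮(g : F)⟯ F (z : L⟮(g : F)⟯), z.2⟩ :=
  rfl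

end Fermat.Agent.S37x
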