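/-
S37 project, block R = [B1], file 4 (helper4, prefix `ctm_`): THE DISC-FIBRE SUM.

For a coordinate `g ∈ W` (`ctm_Coord`), `y ∈ W` with `ρ y ≠ 0` and `cb ∈ k`:
  `∑_{P : g(P) ∈ A, g(P) ↦ cb} ord_P y = ∑_{Q : (ρ g)(Q) = cb} ord_Q (ρ y)`.
Proof: the norm `N = N_{F/L(g)} y` reduces to `N_{Fb/k(ρ g)} (ρ y)` (`nd_RedPair.norm_reduction` on
`ctr_redPair`); `N = c p(g)/q(g)` with `p, q ∈ A[X]` primitive, `c ∈ Aˣ` (`ctr_normal_form`); orders of
norms are fibre sums (`ctno_ord_norm`, both sides); roots of primitive polynomials reduce with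
multiplicities (`ctp_rootMultiplicity_sum`).
-/
import Mathlib
import Fermat.Agent.S37x.CtmGlue
import Fermat.Agent.S37x.CtmPone
import Fermat.Agent.S37x.CtmRedPairCoe
import Fermat.Agent.S37x.CtmNormOrdAdapter

set_option autoImplicit false

namespace Fermat.Agent.S37x

open AlgebraicCurve IntermediateField Polynomial Fermat.Agent.S18x Fermat.Agent.S24x

section Generic

variable {K E : Type*} [Field K] [Field E] [Algebra K E] [IsAlgClosed K]

open Classical in
/-- **orders of a norm as fibre sums**, polynomial form. -/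
theorem ctm_mult_sub_eq_sum {g : E} (hg : pls_IsSepCoordinate K E g) (y : E) (hy : y ≠ 0)
    (p q : K[X]) (hp : p ≠ 0) (hq : q ≠ 0)
    (hN : (haveI := hg.coord.finite; algebraMap K⟮g⟯ E (Algebra.norm K⟮g⟯ y)) * aeval g q
      = aeval g p)
    (a : K) (S : Finset (Place K E)) (hS : ∀ P : Place K E, P.ord y ≠ 0 → P ∈ S) :
    (p.rootMultiplicity a : ℤ) - q.rootMultiplicity a
      = ∑ P ∈ S.filter (fun P => P.adicValuation (g - algebraMap K E a) < 1), P.ord y := by
  have := hg.coord.finite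
  have hga : g - algebraMap K E a ≠ 0 := by
    intro h0
    apply hg.coord.transcendental
    rw [sub_eq_zero.mp h0]
    exact isAlgebraic_algebraMap a
  obtain ⟨hfin, -⟩ := pls_sum_ord_placesOver hg a
  have hSa : ∀ P : Place K E, P ∈ hfin.toFinset ↔ P.adicValuation (g - algebraMap K E a) < 1 := by
    intro P
    rw [Set.Finite.mem_toFinset, mem_placesOver, ctno_lt_one_iff P hga]
  obtain ⟨P₀, hP₀⟩ := pls_exists_place_over hg a
  have hP₀S : P₀ ∈ hfin.toFinset := (hSa P₀).mpr ((ctno_lt_one_iff P₀ hga).mpr hP₀)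
  have h1 := ctno_ord_norm hg y hy a hfin.toFinset hSa P₀ hP₀S
  -- `N = p(g)/q(g)`
  have hq0 : aeval g q ≠ 0 := fun h => hq ((transcendental_iff.mp hg.coord.transcendental) q h)
  have hNeq : algebraMap K⟮g⟯ E (Algebra.norm K⟮g⟯ y) = aeval g p / aeval g q := by
    rw [eq_div_iff hq0]; exact hN
  rw [hNeq, ctno_ord_ratio g a P₀ hP₀ p q hp hq] at h1
  have h2 : (p.rootMultiplicity a : ℤ) - q.rootMultiplicity a = ∑ P ∈ hfin.toFinset, P.ord y := by
    have he : P₀.ord (g - algebraMap K E a) ≠ 0 := ne_of_gt hP₀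
    have h3 : ((p.rootMultiplicity a : ℤ) - q.rootMultiplicity a) * P₀.ord (g - algebraMap K E a)
        = (∑ P ∈ hfin.toFinset, P.ord y) * P₀.ord (g - algebraMap K E a) := by
      rw [h1]; ring
    exact mul_right_cancel₀ he h3
  rw [h2]
  symm
  apply Finset.sum_subset
  · intro P hP
    rw [Finset.mem_filter] at hP
    exact (hSa P).mpr hP.2
  · intro P hP hnP
    by_contra hne
    exact hnP (Finset.mem_filter.mpr ⟨hS P hne, (hSa P).mp hP⟩)

end Generic

section Main

variable {L k F Fb : Type*} [Field L] [Field k] [Field F] [Field Fb] [Algebra L F] [Algebra k Fb]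
variable {A : ValuationSubring L} {π : A →+* k} {W : ValuationSubring F} {ρ : W →+* Fb}
variable [IsAlgClosed L] [IsAlgClosed k]

theorem ctm_rootMultiplicity_C_mul {K : Type*} [Field K] {c : K} (hc : c ≠ 0) {p : K[X]} (hp : p ≠ 0)
    (a : K) : (C c * p).rootMultiplicity a = p.rootMultiplicity a := by
  rw [rootMultiplicity_mul (mul_ne_zero (C_ne_zero.mpr hc) hp), rootMultiplicity_C, zero_add]

set_option maxHeartbeats 2000000 in
open Classical in
/-- **The disc-fibre sum** for a coordinate `g`. -/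
theorem ctm_fibre_sum (G : ctm_Gauss A π W ρ) {g : W}
    (hg : ctm_Coord L k W ρ g) (y : W) (hy : ρ y ≠ 0) (cb : k)
    (S : Finset (Place L F)) (hS : ∀ P : Place L F, P.ord (y : F) ≠ 0 → P ∈ S)
    (Sb : Finset (Place k Fb)) (hSb : ∀ Q : Place k Fb, Q.ord (ρ y) ≠ 0 → Q ∈ Sb) :
    ∑ P ∈ S.filter (fun P => ctm_valRed A π P (g : F) cb), P.ord (y : F)
      = ∑ Q ∈ Sb.filter (fun Q => Q.adicValuation (ρ g - algebraMap k Fb cb) < 1), Q.ord (ρ y) := by
  have hfin := hg.sep.coord.finite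
  have hfinb := hg.sepb.coord.finite
  have htr := hg.sepb.coord.transcendental
  have htrL := hg.sep.coord.transcendental
  have H := ctr_redPair G hg
  obtain ⟨hNW, hNρ⟩ := H.norm_reduction y
  have hy0 : (y : F) ≠ 0 := by
    intro h
    apply hy
    have : y = 0 := Subtype.ext h
    rw [this, map_zero]
  have hN0 : Algebra.norm L⟮(g : F)⟯ (y : F) ≠ 0 := Algebra.norm_ne_zero_iff.mpr hy0
  have hNb0 : Algebra.norm k⟮ρ g⟯ (ρ y) ≠ 0 := Algebra.norm_ne_zero_iff.mpr hy
  have hNF0 : ((Algebra.norm L⟮(g : F)⟯ (y : F) : L⟮(g : F)⟯) : F) ≠ 0 := by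
    intro h
    exact hN0 (Subtype.ext h)
  obtain ⟨c, p, q, hc0, hpπ, hqπ, hnf⟩ := ctr_normal_form G g htr
    ((Algebra.norm L⟮(g : F)⟯ (y : F) : L⟮(g : F)⟯) : F) (Algebra.norm L⟮(g : F)⟯ (y : F)).2 hNF0
  -- elements of `W`
  set NW : W := ⟨((Algebra.norm L⟮(g : F)⟯ (y : F) : L⟮(g : F)⟯) : F), hNW⟩ with hNWdef
  set pW : W := ⟨aeval (g : F) (p.map A.subtype), ctr_aeval_mem G g p⟩ with hpWdef
  set qW : W := ⟨aeval (g : F) (q.map A.subtype), ctr_aeval_mem G g q⟩ with hqWdef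
  have hρp : ρ pW = aeval (ρ g) (p.map π) := ctr_rho_aeval G g p
  have hρq : ρ qW = aeval (ρ g) (q.map π) := ctr_rho_aeval G g q
  have hρp0 : ρ pW ≠ 0 := by
    rw [hρp]; exact fun h => hpπ ((transcendental_iff.mp htr) _ h)
  have hρq0 : ρ qW ≠ 0 := by
    rw [hρq]; exact fun h => hqπ ((transcendental_iff.mp htr) _ h)
  have hρN : ρ NW = ((Algebra.norm k⟮ρ g⟯ (ρ y) : k⟮ρ g⟯) : Fb) := by
    rw [← hNρ]; rfl
  have hρN0 : ρ NW ≠ 0 := by
    rw [hρN]
    intro h
    exact hNb0 (Subtype.ext h)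
  -- `c ∈ A` and `π c ≠ 0`
  have hpW0 : (pW : F) ≠ 0 := by
    intro h
    apply hρp0
    have : pW = 0 := Subtype.ext h
    rw [this, map_zero]
  have hcW : algebraMap L F c ∈ W := by
    have : algebraMap L F c = (NW : F) * (qW : F) * ((pW : F))⁻¹ := by
      rw [eq_mul_inv_iff_mul_eq₀ hpW0]
      exact hnf.symm
    rw [this]
    exact W.mul_mem _ _ (W.mul_mem _ _ NW.2 qW.2) (G.inv_mem_of_rho_ne_zero hρp0)
  have hcA : c ∈ A := (G.mem_iff c).mp hcW
  have hprod : NW * qW = G.cW ⟨c, hcA⟩ * pW := Subtype.ext hnf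
  have hρprod : ρ NW * ρ qW = algebraMap k Fb (π ⟨c, hcA⟩) * ρ pW := by
    rw [← map_mul, hprod, map_mul, G.rho_cW]
  have hπc : π ⟨c, hcA⟩ ≠ 0 := by
    intro h
    rw [h, map_zero, zero_mul] at hρprod
    exact mul_ne_zero hρN0 hρq0 hρprod
  -- the polynomials
  have hpL : p.map A.subtype ≠ 0 := by
    intro h
    apply hpW0
    show aeval (g : F) (p.map A.subtype) = 0
    rw [h, map_zero]
  have hqL : q.map A.subtype ≠ 0 := by
    intro h
    apply hρq0
    have : qW = 0 := Subtype.ext (by show aeval (g : F) (q.map A.subtype) = 0; rw [h, map_zero])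
    rw [this, map_zero]
  have hupN : algebraMap L⟮(g : F)⟯ F (Algebra.norm L⟮(g : F)⟯ (y : F))
      * aeval (g : F) (q.map A.subtype) = aeval (g : F) (C c * p.map A.subtype) := by
    rw [map_mul, aeval_C]
    exact hnf
  have hdnN : algebraMap k⟮ρ g⟯ Fb (Algebra.norm k⟮ρ g⟯ (ρ y))
      * aeval (ρ g) (q.map π) = aeval (ρ g) (C (π ⟨c, hcA⟩) * p.map π) := by
    rw [map_mul, aeval_C, ← hρp, ← hρq]
    rw [← hρprod, hρN]
    rfl
  -- upstairs, for each `a`
  have hup : ∀ a : L, ((p.map A.subtype).rootMultiplicity a : ℤ) - (q.map A.subtype).rootMultiplicity a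
      = ∑ P ∈ S.filter (fun P => P.adicValuation ((g : F) - algebraMap L F a) < 1), P.ord (y : F) := by
    intro a
    have := ctm_mult_sub_eq_sum hg.sep (y : F) hy0 (C c * p.map A.subtype) (q.map A.subtype)
      (mul_ne_zero (C_ne_zero.mpr hc0) hpL) hqL hupN a S hS
    rwa [ctm_rootMultiplicity_C_mul hc0 hpL] at this
  -- downstairs at `cb`
  have hdn : ((p.map π).rootMultiplicity cb : ℤ) - (q.map π).rootMultiplicity cb
      = ∑ Q ∈ Sb.filter (fun Q => Q.adicValuation (ρ g - algebraMap k Fb cb) < 1), Q.ord (ρ y) := by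
    have := ctm_mult_sub_eq_sum hg.sepb (ρ y) hy (C (π ⟨c, hcA⟩) * p.map π) (q.map π)
      (mul_ne_zero (C_ne_zero.mpr hπc) hpπ) hqπ hdnN cb Sb hSb
    rwa [ctm_rootMultiplicity_C_mul hπc hpπ] at this
  rw [← hdn]
  -- the value function
  let v : Place L F → L := fun P =>
    if h : ∃ a : L, P.adicValuation ((g : F) - algebraMap L F a) < 1 then h.choose else 0
  have hv : ∀ (P : Place L F) (a : L), P.adicValuation ((g : F) - algebraMap L F a) < 1 → v P = a := by
    intro P a ha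
    have hex : ∃ a : L, P.adicValuation ((g : F) - algebraMap L F a) < 1 := ⟨a, ha⟩
    simp only [v, dif_pos hex]
    exact ctm_value_unique P hex.choose_spec ha
  set T : Finset L := ((p.map A.subtype).roots.toFinset ∪ (q.map A.subtype).roots.toFinset)
    ∪ S.image v with hT
  have hTp : ∀ a : L, (p.map A.subtype).IsRoot a → a ∈ T := by
    intro a ha
    refine Finset.mem_union_left _ (Finset.mem_union_left _ ?_)
    rw [Multiset.mem_toFinset, mem_roots hpL]
    exact ha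
  have hTq : ∀ a : L, (q.map A.subtype).IsRoot a → a ∈ T := by
    intro a ha
    refine Finset.mem_union_left _ (Finset.mem_union_right _ ?_)
    rw [Multiset.mem_toFinset, mem_roots hqL]
    exact ha
  have hπk : ∀ a : A, π a = 0 ↔ ¬ IsUnit a := G.pi_eq_zero_iff
  have hPp := ctp_rootMultiplicity_sum A π hπk p hpπ cb T hTp
  have hPq := ctp_rootMultiplicity_sum A π hπk q hqπ cb T hTq
  rw [← hPp, ← hPq, ← Finset.sum_sub_distrib]
  -- group the left-hand side by values
  have hmaps : ∀ P ∈ S.filter (fun P => ctm_valRed A π P (g : F) cb),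
      v P ∈ T.filter (fun a => ∃ ha : a ∈ A, π ⟨a, ha⟩ = cb) := by
    intro P hP
    rw [Finset.mem_filter] at hP
    obtain ⟨hPS, a, ha, hπa, hva⟩ := hP
    rw [hv P a hva, Finset.mem_filter]
    refine ⟨Finset.mem_union_right _ (Finset.mem_image.mpr ⟨P, hPS, hv P a hva⟩), ha, hπa⟩
  rw [← Finset.sum_fiberwise_of_maps_to hmaps]
  refine Finset.sum_congr rfl fun a ha => ?_
  rw [hup a]
  refine Finset.sum_congr ?_ fun _ _ => rfl
  rw [Finset.mem_filter] at ha
  obtain ⟨-, haA, hπa⟩ := ha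
  ext P
  simp only [Finset.mem_filter]
  constructor
  · rintro ⟨⟨hPS, a', ha', hπa', hva'⟩, hvP⟩
    rw [hv P a' hva'] at hvP
    subst hvP
    exact ⟨hPS, hva'⟩
  · rintro ⟨hPS, hva⟩
    exact ⟨⟨hPS, a, haA, hπa, hva⟩, hv P a hva⟩

end Main

end Fermat.Agent.S37x
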