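/-
S37 project, block R = [B1], LEAF D = (C4) (helper27, prefix `ctg_`): GOODNESS of the functions
`g = J ^ T + c * u`.

Setting of `CtmDefs.lean`: `J ∈ W` a coordinate chart (`ctm_Coord`), `Jinv` its inverse, `u ∈ W` integral
over `L[J]`.  For `T` large, `(T : k) ≠ 0`, and all `c ∈ A` whose reduction avoids a finite set `E`
(at most one element), `g = J ^ T + c u` is again a chart of the same kind (`ctm_Coord`: separating
coordinate upstairs and downstairs, equal degrees), `g(P) ∉ A` whenever `J(P) ∉ A`, and `ρ g` has a pole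
at every pole of `ρ J`.

Generic part (one function field `F/K`, `K` algebraically closed):
* `ctg_ord_pole`, `ctg_ord_reg` : poles of `J ^ T + c u` are exactly those of `J`, with `T`-fold order;
* `ctg_cdeg_eq` : hence `cdeg (J ^ T + c u) = T * cdeg J`;
* `ctg_exists_T0` : `u * x ^ T'` is integral over `K[x]`, `x = J⁻¹`, for all `T' ≥ T₀`.
The two FACT 0 statements used (owner helper85, `CtmFact0.lean`) enter `ctg_good_of_fact0` as hypotheses.
-/
import Mathlib
import Fermat.Agent.S37x.CtmDefs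
import Fermat.Agent.S18x.NrmDict
import Fermat.Agent.S18x.PlsKaehler
import Fermat.Agent.S24x.LocalDiff

set_option autoImplicit false

namespace Fermat.Agent.S37x

open AlgebraicCurve Fermat.Agent.S18x Fermat.Agent.S24x IntermediateField Polynomial

section Generic

variable {K F : Type*} [Field K] [Field F] [Algebra K F]

/-- the algebraic identity `J ^ T + c u = J ^ T (1 + c (u x ^ (T-1)) x)` -/
theorem ctg_identity {J x u : F} (hJx : J * x = 1) {T : ℕ} (hT : 1 ≤ T) (c : F) :
    J ^ T + c * u = J ^ T * (1 + c * (u * x ^ (T - 1)) * x) := by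
  obtain ⟨n, rfl⟩ : ∃ n, T = n + 1 := ⟨T - 1, by omega⟩
  have h1 : J ^ (n + 1) * x ^ (n + 1) = 1 := by rw [← mul_pow, hJx, one_pow]
  have h2 : J ^ (n + 1) * (c * (u * x ^ (n + 1 - 1)) * x) = c * u * (J ^ (n + 1) * x ^ (n + 1)) := by
    rw [Nat.add_sub_cancel, pow_succ x n]
    ring
  rw [mul_add, mul_one, h2, h1, mul_one]

/-- at a pole of `J` the function `J ^ T + c u` has a pole of `T`-fold order -/
theorem ctg_ord_pole (P : Place K F) {J x u : F} (hJx : J * x = 1) {T : ℕ} (hT : 1 ≤ T)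
    (c : K) (hw : 0 ≤ P.ord (u * x ^ (T - 1))) (hP : P.ord J < 0) :
    P.ord (J ^ T + algebraMap K F c * u) = T * P.ord J := by
  have hJ0 : J ≠ 0 := left_ne_zero_of_mul_eq_one hJx
  have hx : x = J⁻¹ := eq_inv_of_mul_eq_one_right hJx
  have hx0 : x ≠ 0 := right_ne_zero_of_mul_eq_one hJx
  have hordx : 0 < P.ord x := by rw [hx, P.ord_inv]; omega
  have hJT : P.ord (J ^ T) = T * P.ord J := by
    have := P.ord_zpow J (T : ℤ)
    rwa [zpow_natCast] at this
  rw [ctg_identity hJx hT]
  set z : F := algebraMap K F c * (u * x ^ (T - 1)) * x with hz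
  rcases eq_or_ne z 0 with hz0 | hz0
  · rw [hz0, add_zero, mul_one, hJT]
  · have hc0 : algebraMap K F c ≠ 0 := fun h => hz0 (by rw [hz, h, zero_mul, zero_mul])
    have hw0 : u * x ^ (T - 1) ≠ 0 := fun h => hz0 (by rw [hz, h, mul_zero, zero_mul])
    have hordz : 0 < P.ord z := by
      rw [hz, P.ord_mul (mul_ne_zero hc0 hw0) hx0, P.ord_mul hc0 hw0, ord_algebraMap]
      omega
    have h1z : P.ord (1 + z) = 0 := by
      rw [ord_add_of_lt P one_ne_zero (Or.inr (by rw [P.ord_one]; exact hordz)), P.ord_one]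
    have h1z0 : 1 + z ≠ 0 := by
      intro h
      have : z = -1 := eq_neg_of_add_eq_zero_right h
      rw [this] at hordz
      have h2 : P.ord (-1 : F) = 0 := by
        have := ord_algebraMap P (-1 : K)
        rwa [map_neg, map_one] at this
      omega
    rw [P.ord_mul (pow_ne_zero T hJ0) h1z0, hJT, h1z, add_zero]

/-- away from the poles of `J` the function `J ^ T + c u` is regular (`u` regular there) -/
theorem ctg_ord_reg (P : Place K F) {J u : F} (T : ℕ) (c : K) (hu : 0 ≤ P.ord u)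
    (hP : 0 ≤ P.ord J) : 0 ≤ P.ord (J ^ T + algebraMap K F c * u) := by
  rw [← nrd_mem_iff] at hu hP ⊢
  exact add_mem (pow_mem hP T) (mul_mem (P.algebraMap_mem' c) hu)

/-- degree of a function whose polar divisor is `T` times that of `J` -/
theorem ctg_cdeg_eq [IsAlgClosed K] {J g : F} (hJ : pls_IsSepCoordinate K F J)
    (hg : pls_IsSepCoordinate K F g) {T : ℕ} (hT : 1 ≤ T)
    (hpole : ∀ P : Place K F, P.ord J < 0 → P.ord g = T * P.ord J)
    (hreg : ∀ P : Place K F, 0 ≤ P.ord J → 0 ≤ P.ord g) :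
    cdeg K F g = T * cdeg K F J := by
  obtain ⟨hfinJ, hsumJ⟩ := pls_sum_ord_polePlaces hJ
  obtain ⟨hfing, hsumg⟩ := pls_sum_ord_polePlaces hg
  have hset : polePlaces K F g = polePlaces K F J := by
    ext P
    rw [mem_polePlaces, mem_polePlaces]
    constructor
    · intro h
      by_contra h'
      have := hreg P (not_lt.mp h')
      omega
    · intro h
      rw [hpole P h]
      have hT' : (0 : ℤ) < (T : ℤ) := by exact_mod_cast hT
      exact mul_neg_of_pos_of_neg hT' h
  have hfs : hfing.toFinset = hfinJ.toFinset := by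
    ext P
    rw [Set.Finite.mem_toFinset, Set.Finite.mem_toFinset, hset]
  have h1 : (cdeg K F g : ℤ) = (T : ℤ) * (cdeg K F J : ℤ) := by
    rw [← hsumg, ← hsumJ, hfs, Finset.mul_sum]
    refine Finset.sum_congr rfl fun P hP => ?_
    rw [Set.Finite.mem_toFinset, mem_polePlaces] at hP
    rw [hpole P hP]
    ring
  exact_mod_cast h1

/-- a function with a pole is transcendental -/
theorem ctg_transcendental_of_pole [IsAlgClosed K] {g : F} (P : Place K F) (hP : P.ord g < 0) :
    Transcendental K g := by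
  intro halg
  obtain ⟨a, rfl⟩ := pd_mem_range_of_isAlgebraic halg
  rw [ord_algebraMap] at hP
  exact lt_irrefl _ hP

/-- `u x ^ T'` is integral over `K[x]`, `x = J⁻¹`, for all large `T'`, when `u` is integral over `K[J]`. -/
theorem ctg_exists_T0 [IsAlgClosed K] {J x : F} (hJx : J * x = 1) (hJ : pls_IsSepCoordinate K F J)
    {u : F} (hu : IsIntegral (Algebra.adjoin K {J}) u) :
    ∃ T₀ : ℕ, ∀ T' : ℕ, T₀ ≤ T' → IsIntegral (Algebra.adjoin K {x}) (u * x ^ T') := by
  classical
  have hJ0 : J ≠ 0 := left_ne_zero_of_mul_eq_one hJx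
  have hx : x = J⁻¹ := eq_inv_of_mul_eq_one_right hJx
  have hx0 : x ≠ 0 := right_ne_zero_of_mul_eq_one hJx
  have hxsep : pls_IsSepCoordinate K F x := by rw [hx]; exact pls_isSepCoordinate_inv hJ
  obtain ⟨hfin, -⟩ := pls_sum_ord_polePlaces hJ
  have hureg := (nrd_regular_iff hJ u).mpr hu
  refine ⟨∑ P ∈ hfin.toFinset, (P.ord u).natAbs, fun T' hT' => ?_⟩
  rw [← nrd_regular_iff hxsep]
  intro Q hQ
  rcases eq_or_ne u 0 with rfl | hu0
  · rw [zero_mul, Q.ord_zero]
  have hxT : Q.ord (x ^ T') = T' * Q.ord x := by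
    have := Q.ord_zpow x (T' : ℤ)
    rwa [zpow_natCast] at this
  rw [Q.ord_mul hu0 (pow_ne_zero T' hx0), hxT]
  have hordx : Q.ord x = - Q.ord J := by rw [hx, Q.ord_inv]
  rcases lt_or_ge (Q.ord J) 0 with hpole | hreg
  · -- a pole of `J`
    have hmem : Q ∈ hfin.toFinset := by
      rw [Set.Finite.mem_toFinset, mem_polePlaces]; exact hpole
    have h1 : (Q.ord u).natAbs ≤ ∑ P ∈ hfin.toFinset, (P.ord u).natAbs :=
      Finset.single_le_sum (f := fun P : Place K F => (P.ord u).natAbs)
        (fun _ _ => Nat.zero_le _) hmem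
    have h2 : ((Q.ord u).natAbs : ℤ) ≤ (T' : ℤ) := by exact_mod_cast h1.trans hT'
    have h3 : -((Q.ord u).natAbs : ℤ) ≤ Q.ord u := by
      rw [Int.natCast_natAbs]; exact neg_abs_le _
    have h4 : (1 : ℤ) ≤ Q.ord x := by rw [hordx]; omega
    have h5 : (T' : ℤ) ≤ (T' : ℤ) * Q.ord x := by
      have : (0 : ℤ) ≤ (T' : ℤ) := Int.natCast_nonneg _
      nlinarith
    omega
  · -- `J` regular at `Q`: then `x` is a unit there (`0 ≤ ord x = - ord J`)
    have h0 : Q.ord x = 0 := by rw [hordx] at hQ ⊢; omega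
    rw [h0, mul_zero, add_zero]
    exact hureg Q hreg

end Generic

/-! ### value calculus at a place: `f(P) = a` means `P.adicValuation (f - a) < 1` -/

section Values

variable {K F : Type*} [Field K] [Field F] [Algebra K F] (P : Place K F)

theorem ctg_val_const_eq_one {a : K} (ha : a ≠ 0) : P.adicValuation (algebraMap K F a) = 1 := by
  have h0 : algebraMap K F a ≠ 0 := by simpa using ha
  rw [adicValuation_eq_exp P h0, ord_algebraMap, neg_zero, WithZero.exp_zero]

theorem ctg_val_const_le_one (a : K) : P.adicValuation (algebraMap K F a) ≤ 1 :=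
  P.adicValuation_algebraMap_le_one a

theorem ctg_val_le_one {f : F} {a : K} (hf : P.adicValuation (f - algebraMap K F a) < 1) :
    P.adicValuation f ≤ 1 := by
  have h : f = (f - algebraMap K F a) + algebraMap K F a := by ring
  rw [h]
  exact (P.adicValuation.map_add _ _).trans (max_le hf.le (ctg_val_const_le_one P a))

theorem ctg_val_add {f h : F} {a b : K} (hf : P.adicValuation (f - algebraMap K F a) < 1)
    (hh : P.adicValuation (h - algebraMap K F b) < 1) :
    P.adicValuation (f + h - algebraMap K F (a + b)) < 1 := by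
  have e : f + h - algebraMap K F (a + b) = (f - algebraMap K F a) + (h - algebraMap K F b) := by
    rw [map_add]; ring
  rw [e]
  exact (P.adicValuation.map_add _ _).trans_lt (max_lt hf hh)

theorem ctg_val_mul {f h : F} {a b : K} (hf : P.adicValuation (f - algebraMap K F a) < 1)
    (hh : P.adicValuation (h - algebraMap K F b) < 1) :
    P.adicValuation (f * h - algebraMap K F (a * b)) < 1 := by
  have e : f * h - algebraMap K F (a * b) =
      (f - algebraMap K F a) * h + algebraMap K F a * (h - algebraMap K F b) := by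
    rw [map_mul]; ring
  rw [e]
  refine (P.adicValuation.map_add _ _).trans_lt (max_lt ?_ ?_)
  · rw [map_mul]
    exact lt_of_le_of_lt (mul_le_of_le_one_right' (ctg_val_le_one P hh)) hf
  · rw [map_mul]
    exact lt_of_le_of_lt (mul_le_of_le_one_left' (ctg_val_const_le_one P a)) hh

theorem ctg_val_pow {f : F} {a : K} (hf : P.adicValuation (f - algebraMap K F a) < 1) (n : ℕ) :
    P.adicValuation (f ^ n - algebraMap K F (a ^ n)) < 1 := by
  induction n with
  | zero =>
    rw [pow_zero, pow_zero, map_one, sub_self, map_zero]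
    exact zero_lt_one
  | succ n ih =>
    rw [pow_succ, pow_succ]
    exact ctg_val_mul P ih hf

theorem ctg_val_const (a : K) : P.adicValuation (algebraMap K F a - algebraMap K F a) < 1 := by
  rw [sub_self, map_zero]
  exact zero_lt_one

theorem ctg_val_unique {f : F} {a b : K} (hf : P.adicValuation (f - algebraMap K F a) < 1)
    (hf' : P.adicValuation (f - algebraMap K F b) < 1) : a = b := by
  by_contra hne
  have hne' : a - b ≠ 0 := sub_ne_zero.mpr hne
  have e : algebraMap K F (a - b) = (f - algebraMap K F b) - (f - algebraMap K F a) := by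
    rw [map_sub]; ring
  have h1 := ctg_val_const_eq_one P hne'
  rw [e] at h1
  have h2 : P.adicValuation ((f - algebraMap K F b) - (f - algebraMap K F a)) < 1 :=
    (P.adicValuation.map_sub _ _).trans_lt (max_lt hf' hf)
  rw [h1] at h2
  exact lt_irrefl _ h2

/-- the value of the inverse -/
theorem ctg_val_inv {f : F} {b : K} (hb : b ≠ 0) (hf : P.adicValuation (f - algebraMap K F b) < 1) :
    P.adicValuation (f⁻¹ - algebraMap K F b⁻¹) < 1 := by
  have hb' : algebraMap K F b ≠ 0 := by simpa using hb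
  have hvb : P.adicValuation (algebraMap K F b) = 1 := ctg_val_const_eq_one P hb
  -- `v f = 1`
  have hvf : P.adicValuation f = 1 := by
    have h : f = algebraMap K F b + (f - algebraMap K F b) := by ring
    rw [h, Valuation.map_add_eq_of_lt_left P.adicValuation (by rw [hvb]; exact hf), hvb]
  have hf0 : f ≠ 0 := by
    intro h0
    rw [h0, map_zero] at hvf
    exact zero_ne_one hvf
  have e : f⁻¹ - algebraMap K F b⁻¹ = (algebraMap K F b - f) * (f⁻¹ * (algebraMap K F b)⁻¹) := by
    rw [map_inv₀]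
    field_simp
  rw [e, map_mul, map_mul, map_inv₀, map_inv₀, hvf, hvb, inv_one, mul_one, mul_one,
    ← Valuation.map_neg, neg_sub]
  exact hf

end Values

/-! ### the main statement, FACT 0 as hypotheses -/

section Main

open KaehlerDifferential

variable {L k F Fb : Type*} [Field L] [Field k] [Field F] [Field Fb] [Algebra L F] [Algebra k Fb]
variable {A : ValuationSubring L} {π : A →+* k} {W : ValuationSubring F} {ρ : W →+* Fb}

/-- a power of an element outside a valuation ring stays outside, even after adding a smaller term -/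
theorem ctg_not_mem_of_pow (A : ValuationSubring L) {b : L} (hb : b ∉ A) {T : ℕ} (hT : 1 ≤ T)
    {d : L} (hd : d ∈ A) : b ^ T + d * b ^ (T - 1) ∉ A := by
  obtain ⟨n, rfl⟩ : ∃ n, T = n + 1 := ⟨T - 1, by omega⟩
  rw [Nat.add_sub_cancel]
  have hvb : 1 < A.valuation b := by
    rw [← not_le, A.valuation_le_one_iff]; exact hb
  have hvd : A.valuation d ≤ 1 := (A.valuation_le_one_iff d).mpr hd
  have hpos : 0 < A.valuation b ^ n := pow_pos (lt_trans zero_lt_one hvb) n
  have hlt : A.valuation (d * b ^ n) < A.valuation (b ^ (n + 1)) := by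
    rw [map_mul, map_pow, map_pow, pow_succ]
    calc A.valuation d * A.valuation b ^ n ≤ 1 * A.valuation b ^ n :=
          mul_le_mul' hvd le_rfl
      _ = A.valuation b ^ n * 1 := by rw [one_mul, mul_one]
      _ < A.valuation b ^ n * A.valuation b := by
          exact mul_lt_mul_of_pos_left hvb hpos
  intro hmem
  have h1 : A.valuation (b ^ (n + 1) + d * b ^ n) ≤ 1 := (A.valuation_le_one_iff _).mpr hmem
  rw [Valuation.map_add_eq_of_lt_left A.valuation hlt, map_pow] at h1
  have h2 : 1 < A.valuation b ^ (n + 1) := one_lt_pow' hvb (Nat.succ_ne_zero n)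
  exact absurd h1 (not_le.mpr h2)

theorem ctg_good_of_fact0 [IsAlgClosed L] [IsAlgClosed k] [CharZero L] (G : ctm_Gauss A π W ρ)
    (J Jinv : W) (hJJ : J * Jinv = 1) (hJ : ctm_Coord L k W ρ J) (u : W)
    (hu : IsIntegral (Algebra.adjoin L {(J : F)}) (u : F))
    (hF0rho : ∀ g : W, ctm_Coord L k W ρ g → ∀ u' : W,
      IsIntegral (Algebra.adjoin L {(g : F)}) (u' : F) → IsIntegral (Algebra.adjoin k {ρ g}) (ρ u'))
    (hF0val : ∀ g : W, ctm_Coord L k W ρ g → ∀ u' : W,
      IsIntegral (Algebra.adjoin L {(g : F)}) (u' : F) → ∀ P : Place L F,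
        ctm_valIn A P (g : F) → ctm_valIn A P (u' : F)) :
    ∃ T₀ : ℕ, ∀ T : ℕ, T₀ ≤ T → (T : k) ≠ 0 → ∃ E : Finset k, ∀ c : A, π c ∉ E →
      ctm_Coord L k W ρ (J ^ T + G.cW c * u) ∧
      (∀ P : Place L F, ¬ ctm_valIn A P (J : F) →
        ¬ ctm_valIn A P ((J ^ T + G.cW c * u : W) : F)) ∧
      (∀ Q : Place k Fb, Q.ord (ρ J) < 0 → Q.ord (ρ (J ^ T + G.cW c * u)) < 0) := by
  classical
  -- notation
  have hx : ctm_Coord L k W ρ Jinv := hJ.inv hJJ
  have hJxF : (J : F) * (Jinv : F) = 1 := by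
    have := congrArg Subtype.val hJJ
    simpa using this
  have hJxb : ρ J * ρ Jinv = 1 := by rw [← map_mul, hJJ, map_one]
  obtain ⟨T₀', hT₀'⟩ := ctg_exists_T0 hJxF hJ.sep hu
  refine ⟨T₀' + 1, fun T hT hTk => ?_⟩
  have hT1 : 1 ≤ T := by omega
  -- `w = u x^(T-1)` is integral over `L[x]`
  set w : W := u * Jinv ^ (T - 1) with hw
  have hwF : (w : F) = (u : F) * (Jinv : F) ^ (T - 1) := by
    rw [hw]; push_cast; rfl
  have hwint : IsIntegral (Algebra.adjoin L {(Jinv : F)}) (w : F) := by
    rw [hwF]; exact hT₀' (T - 1) (by omega)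
  -- downstairs
  have hub : IsIntegral (Algebra.adjoin k {ρ J}) (ρ u) := hF0rho J hJ u hu
  have hwb : IsIntegral (Algebra.adjoin k {ρ Jinv}) (ρ u * ρ Jinv ^ (T - 1)) := by
    have := hF0rho Jinv hx w hwint
    rwa [hw, map_mul, map_pow] at this
  have hjb0 : ρ J ≠ 0 := left_ne_zero_of_mul_eq_one hJxb
  -- differentials downstairs
  have hDj : D k Fb (ρ J) ≠ 0 := pls_kd_D_ne_zero (ρ J) hJ.sepb
  obtain ⟨h, hh⟩ := pls_kd_span_of_ne_zero (ρ J) hJ.sepb hDj (D k Fb (ρ u))
  have hTFb : (T : Fb) ≠ 0 := by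
    rw [← map_natCast (algebraMap k Fb)]
    exact (map_ne_zero_iff _ (algebraMap k Fb).injective).mpr hTk
  have hTjb : (T : Fb) * ρ J ^ (T - 1) ≠ 0 := mul_ne_zero hTFb (pow_ne_zero _ hjb0)
  -- the bad set
  set S : Set k := {cb : k | (T : Fb) * ρ J ^ (T - 1) + algebraMap k Fb cb * h = 0} with hS
  have hSsub : S.Subsingleton := by
    intro c₁ h₁ c₂ h₂
    rw [hS] at h₁ h₂
    change _ = _ at h₁
    change _ = _ at h₂
    have h0 : h ≠ 0 := by
      intro h0
      rw [h0, mul_zero, add_zero] at h₁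
      exact hTjb h₁
    have h3 : (algebraMap k Fb c₁ - algebraMap k Fb c₂) * h = 0 := by
      have : algebraMap k Fb c₁ * h = algebraMap k Fb c₂ * h := by
        rw [← add_right_inj ((T : Fb) * ρ J ^ (T - 1)), h₁, h₂]
      rw [sub_mul, this, sub_self]
    have h4 : algebraMap k Fb c₁ - algebraMap k Fb c₂ = 0 :=
      (mul_eq_zero.mp h3).resolve_right h0
    exact (algebraMap k Fb).injective (sub_eq_zero.mp h4)
  refine ⟨hSsub.finite.toFinset, fun c hc => ?_⟩
  rw [Set.Finite.mem_toFinset] at hc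
  -- the function `g`
  set g : W := J ^ T + G.cW c * u with hg
  have hgF : (g : F) = (J : F) ^ T + algebraMap L F (c : L) * (u : F) := by
    rw [hg]; push_cast; rfl
  have hgb : ρ g = ρ J ^ T + algebraMap k Fb (π c) * ρ u := by
    rw [hg, map_add, map_pow, map_mul, G.rho_cW]
  -- upstairs: poles
  have hureg := (nrd_regular_iff hJ.sep (u : F)).mpr hu
  have hwreg := (nrd_regular_iff hx.sep (w : F)).mpr hwint
  have hpoleU : ∀ P : Place L F, P.ord (J : F) < 0 → P.ord (g : F) = T * P.ord (J : F) := by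
    intro P hP
    rw [hgF]
    refine ctg_ord_pole P hJxF hT1 (c : L) ?_ hP
    rw [← hwF]
    refine hwreg P ?_
    have : (Jinv : F) = ((J : F))⁻¹ := eq_inv_of_mul_eq_one_right hJxF
    rw [this, P.ord_inv]; omega
  have hregU : ∀ P : Place L F, 0 ≤ P.ord (J : F) → 0 ≤ P.ord (g : F) := by
    intro P hP
    rw [hgF]
    exact ctg_ord_reg P T (c : L) (hureg P hP) hP
  -- downstairs: poles
  have hubreg := (nrd_regular_iff hJ.sepb (ρ u)).mpr hub
  have hwbreg := (nrd_regular_iff hx.sepb (ρ u * ρ Jinv ^ (T - 1))).mpr hwb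
  have hpoleD : ∀ Q : Place k Fb, Q.ord (ρ J) < 0 → Q.ord (ρ g) = T * Q.ord (ρ J) := by
    intro Q hQ
    rw [hgb]
    refine ctg_ord_pole Q hJxb hT1 (π c) ?_ hQ
    refine hwbreg Q ?_
    have : ρ Jinv = (ρ J)⁻¹ := eq_inv_of_mul_eq_one_right hJxb
    rw [this, Q.ord_inv]; omega
  have hregD : ∀ Q : Place k Fb, 0 ≤ Q.ord (ρ J) → 0 ≤ Q.ord (ρ g) := by
    intro Q hQ
    rw [hgb]
    exact ctg_ord_reg Q T (π c) (hubreg Q hQ) hQ
  -- upstairs: `g` is a separating coordinate
  have hgsep : pls_IsSepCoordinate L F (g : F) := by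
    obtain ⟨P, hP⟩ := pls_exists_pole hJ.sep
    have hPg : P.ord (g : F) < 0 := by
      rw [hpoleU P hP]
      have hT' : (0 : ℤ) < (T : ℤ) := by exact_mod_cast hT1
      exact mul_neg_of_pos_of_neg hT' hP
    exact pls_isSepCoordinate_of_charZero
      (isCoordinate_of_transcendental hJ.sep.coord (ctg_transcendental_of_pole P hPg))
  -- downstairs: `ρ g` is a separating coordinate
  have hgbsep : pls_IsSepCoordinate k Fb (ρ g) := by
    refine pls_isSepCoordinate_of_D_ne_zero hJ.sepb ?_
    have hD : D k Fb (ρ g) = ((T : Fb) * ρ J ^ (T - 1) + algebraMap k Fb (π c) * h) • D k Fb (ρ J) := by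
      have e1 : (T : ℕ) • (ρ J ^ (T - 1) • D k Fb (ρ J)) =
          ((T : Fb) * ρ J ^ (T - 1)) • D k Fb (ρ J) := by
        rw [← Nat.cast_smul_eq_nsmul Fb, smul_smul]
      have e2 : (π c) • (h • D k Fb (ρ J)) = (algebraMap k Fb (π c) * h) • D k Fb (ρ J) := by
        rw [← algebraMap_smul Fb (π c), smul_smul]
      rw [hgb, map_add, Derivation.leibniz_pow, ← Algebra.smul_def, Derivation.map_smul, hh, e1, e2,
        add_smul]
    rw [hD]
    intro h0
    rcases smul_eq_zero.mp h0 with h1 | h1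
    · exact hc h1
    · exact hDj h1
  refine ⟨⟨hgsep, hgbsep, ?_⟩, ?_, ?_⟩
  · rw [ctg_cdeg_eq hJ.sep hgsep hT1 hpoleU hregU, ctg_cdeg_eq hJ.sepb hgbsep hT1 hpoleD hregD,
      hJ.deg]
  · -- values
    intro P hPJ hPg
    obtain ⟨a, ha, hva⟩ := hPg
    have hg1 : P.adicValuation (g : F) ≤ 1 := ctg_val_le_one P hva
    have hgord : 0 ≤ P.ord (g : F) := by
      rcases (P.adicValuation_le_one_iff).mp hg1 with h0 | h0
      · rw [h0, P.ord_zero]
      · exact h0
    rcases lt_or_ge (P.ord (J : F)) 0 with hpole | hreg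
    · have := hpoleU P hpole
      have hT' : (0 : ℤ) < (T : ℤ) := by exact_mod_cast hT1
      have : P.ord (g : F) < 0 := by rw [this]; exact mul_neg_of_pos_of_neg hT' hpole
      omega
    · -- `J(P) = b ∉ A`
      have hJ1 : P.adicValuation (J : F) ≤ 1 :=
        (P.adicValuation_le_one_iff).mpr (Or.inr hreg)
      obtain ⟨b, hb⟩ := pls_eval hJ.sep P (J : F) hJ1
      have hbA : b ∉ A := fun hbA => hPJ ⟨b, hbA, hb⟩
      have hb0 : b ≠ 0 := fun h0 => hbA (h0 ▸ A.zero_mem)
      have hbinv : b⁻¹ ∈ A := (A.mem_or_inv_mem b).resolve_left hbA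
      have hxval : P.adicValuation ((Jinv : F) - algebraMap L F b⁻¹) < 1 := by
        have : (Jinv : F) = ((J : F))⁻¹ := eq_inv_of_mul_eq_one_right hJxF
        rw [this]
        exact ctg_val_inv P hb0 hb
      obtain ⟨e, he, hve⟩ := hF0val Jinv hx w hwint P ⟨b⁻¹, hbinv, hxval⟩
      -- value of `g = J^T + c u`, with `u = w J^(T-1)`
      have huw : (u : F) = (w : F) * (J : F) ^ (T - 1) := by
        rw [hwF, mul_assoc, ← mul_pow, mul_comm (Jinv : F), hJxF, one_pow, mul_one]
      have hval : P.adicValuation ((g : F) - algebraMap L F (b ^ T + (c : L) * (e * b ^ (T - 1)))) < 1 := by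
        rw [hgF, huw]
        exact ctg_val_add P (ctg_val_pow P hb T)
          (ctg_val_mul P (ctg_val_const P (c : L)) (ctg_val_mul P hve (ctg_val_pow P hb (T - 1))))
      have hEq : a = b ^ T + (c : L) * (e * b ^ (T - 1)) := ctg_val_unique P hva hval
      have hnot := ctg_not_mem_of_pow A hbA hT1 (A.mul_mem _ _ c.2 he)
      apply hnot
      rw [mul_assoc, ← hEq]
      exact ha
  · intro Q hQ
    rw [hpoleD Q hQ]
    have hT' : (0 : ℤ) < (T : ℤ) := by exact_mod_cast hT1
    exact mul_neg_of_pos_of_neg hT' hQ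

end Main

end Fermat.Agent.S37x
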