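/-
S37 leaf (helper44): CRT / separation in place language.

`R` a Dedekind domain with `K ⊆ R`, `Frac R = F` (a "chart ring" of the function field `F/K`).
For finitely many places `v` of `F` lying on the chart (`R ⊆ O_v`):
* `pcrt_exists_values` : prescribed values `a v ∈ K` are attained by some `g ∈ R`;
* `pcrt_exists_simple_zero` : some `g ∈ R` has a simple zero at `v₀` and is a unit at the others;
* `pcrt_exists_separating` : for infinite `K` some `g ∈ R` has pairwise distinct values in `K`;
* `pcrt_mult_eq_of_prod_eq` : two multiplicity functions `m₁ m₂` on a finite set `S` of chart places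
  with `∏_{v ∈ S} (X - g(v))^{m₁ v} = ∏_{v ∈ S} (X - g(v))^{m₂ v}` for all `g ∈ R` agree on `S`.
-/
import Mathlib
import Fermat.Prelude.Def_AlgebraicCurve_DivisorClassGroup
import Fermat.Agent.S24x.PlaceDedekind

set_option autoImplicit false

namespace Fermat.Agent.S37x

open AlgebraicCurve IsDedekindDomain Polynomial

section Poly

variable {K : Type*} [Field K]

/-- root multiplicity of `a i₀` in `∏_{i ∈ S} (X - a i)^{m i}` for `a` injective on `S`. -/
theorem pcrt_rootMultiplicity_prod {ι : Type*} [DecidableEq ι] (S : Finset ι) (a : ι → K)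
    (ha : Set.InjOn a S) (m : ι → ℕ) {i₀ : ι} (hi₀ : i₀ ∈ S) :
    rootMultiplicity (a i₀) (∏ i ∈ S, (X - C (a i)) ^ m i) = m i₀ := by
  classical
  have hne : ∀ T : Finset ι, (∏ i ∈ T, (X - C (a i)) ^ m i) ≠ 0 := fun T =>
    Finset.prod_ne_zero_iff.mpr fun i _ => pow_ne_zero _ (X_sub_C_ne_zero _)
  rw [← Finset.mul_prod_erase S _ hi₀, rootMultiplicity_mul
    (mul_ne_zero (pow_ne_zero _ (X_sub_C_ne_zero _)) (hne _)), rootMultiplicity_X_sub_C_pow]
  have hroot : ¬ (∏ i ∈ S.erase i₀, (X - C (a i)) ^ m i).IsRoot (a i₀) := by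
    rw [IsRoot.def, eval_prod, Finset.prod_eq_zero_iff]
    rintro ⟨i, hi, h0⟩
    rw [eval_pow, eval_sub, eval_X, eval_C] at h0
    have h1 : a i₀ - a i = 0 := by
      by_contra hne0
      exact pow_ne_zero _ hne0 h0
    have hii : i = i₀ :=
      (ha (Finset.mem_of_mem_erase hi) hi₀ (sub_eq_zero.mp h1).symm)
    exact (Finset.ne_of_mem_erase hi) hii
  rw [rootMultiplicity_eq_zero hroot, add_zero]

/-- two multiplicity functions with the same product polynomial (distinct roots) agree. -/
theorem pcrt_mult_eq_of_injOn {ι : Type*} [DecidableEq ι] (S : Finset ι) (a : ι → K)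
    (ha : Set.InjOn a S) (m₁ m₂ : ι → ℕ)
    (h : ∏ i ∈ S, (X - C (a i)) ^ m₁ i = ∏ i ∈ S, (X - C (a i)) ^ m₂ i) :
    ∀ i ∈ S, m₁ i = m₂ i := by
  intro i hi
  rw [← pcrt_rootMultiplicity_prod S a ha m₁ hi, h, pcrt_rootMultiplicity_prod S a ha m₂ hi]

end Poly

section Dedekind

variable {K F : Type*} [Field K] [Field F] [Algebra K F]
variable (R : Type*) [CommRing R] [IsDedekindDomain R] [Algebra K R] [Algebra R F]
  [IsScalarTower K R F] [IsFractionRing R F]

/-- an element of `R` is a non-unit at the place of `P` iff it lies in `P`. -/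
theorem pcrt_mem_nonunits_iff (P : HeightOneSpectrum R) (r : R) :
    algebraMap R F r ∈ (Place.ofHeightOneSpectrum (K := K) (F := F) P).toValuationSubring.nonunits ↔
      r ∈ P.asIdeal := by
  rw [Place.ofHeightOneSpectrum_toValuationSubring, ← P.valuation_lt_one_iff_mem (K := F),
    ValuationSubring.mem_nonunits_iff]
  exact ((Valuation.isEquiv_iff_val_lt_one).mp
    (Valuation.isEquiv_valuation_valuationSubring (P.valuation F))).symm

/-- `R` lies in the valuation ring of the place of `P`. -/
theorem pcrt_mem_ofHeightOneSpectrum (P : HeightOneSpectrum R) (r : R) :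
    algebraMap R F r ∈ (Place.ofHeightOneSpectrum (K := K) (F := F) P).toValuationSubring := by
  rw [Fermat.Agent.S24x.mem_ofHeightOneSpectrum_iff]
  exact P.valuation_le_one r

/-- nonzero constants are units at every place. -/
theorem pcrt_const_not_mem_nonunits (v : Place K F) {c : K} (hc : c ≠ 0) :
    algebraMap K F c ∉ v.toValuationSubring.nonunits := by
  rw [ValuationSubring.mem_nonunits_iff_or, not_or, not_not]
  refine ⟨(_root_.map_ne_zero _).mpr hc, ?_⟩
  rw [← map_inv₀]
  exact v.algebraMap_mem' c⁻¹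

/-- the value of a function at a place is unique. -/
theorem pcrt_value_unique (v : Place K F) {f : F} {a b : K}
    (ha : f - algebraMap K F a ∈ v.toValuationSubring.nonunits)
    (hb : f - algebraMap K F b ∈ v.toValuationSubring.nonunits) : a = b := by
  by_contra hab
  have hsub : algebraMap K F (b - a) ∈ v.toValuationSubring.nonunits := by
    have h1 : algebraMap K F (b - a) = (f - algebraMap K F a) - (f - algebraMap K F b) := by
      rw [map_sub]; ring
    rw [h1]
    have hI := (IsLocalRing.maximalIdeal v.toValuationSubring)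
    rw [ValuationSubring.mem_nonunits_iff_exists_mem_maximalIdeal] at ha hb ⊢
    obtain ⟨ha1, ha2⟩ := ha
    obtain ⟨hb1, hb2⟩ := hb
    exact ⟨sub_mem ha1 hb1, Ideal.sub_mem _ ha2 hb2⟩
  exact pcrt_const_not_mem_nonunits v (sub_ne_zero.mpr (Ne.symm hab)) hsub

variable {R}

/-- **CRT with values in `K`** for finitely many maximal ideals. -/
theorem pcrt_exists_values_ideal (s : Finset (HeightOneSpectrum R)) (a : HeightOneSpectrum R → K) :
    ∃ g : R, ∀ P ∈ s, g - algebraMap K R (a P) ∈ P.asIdeal := by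
  classical
  obtain ⟨g, hg⟩ := IsDedekindDomain.exists_forall_sub_mem_ideal (s := s)
    (fun P : HeightOneSpectrum R => P.asIdeal) (fun _ => 1) (fun P _ => P.prime)
    (fun P _ Q _ hPQ h => hPQ (HeightOneSpectrum.ext h))
    (fun P => algebraMap K R (a P.1))
  exact ⟨g, fun P hP => by simpa using hg P hP⟩

/-- **simple zero at `P₀`, unit at the other `P ∈ s`**. -/
theorem pcrt_exists_simple_zero_ideal (s : Finset (HeightOneSpectrum R)) (P₀ : HeightOneSpectrum R)
    (hP₀ : P₀ ∉ s) :
    ∃ g : R, P₀.intValuation g = WithZero.exp (-1 : ℤ) ∧ ∀ P ∈ s, g ∉ P.asIdeal := by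
  classical
  obtain ⟨π, hπ⟩ := P₀.intValuation_exists_uniformizer
  obtain ⟨g, hg⟩ := IsDedekindDomain.exists_forall_sub_mem_ideal (s := insert P₀ s)
    (fun P : HeightOneSpectrum R => P.asIdeal) (fun P => if P = P₀ then 2 else 1)
    (fun P _ => P.prime) (fun P _ Q _ hPQ h => hPQ (HeightOneSpectrum.ext h))
    (fun P => if P.1 = P₀ then π else 1)
  refine ⟨g, ?_, ?_⟩
  · have h0 := hg P₀ (Finset.mem_insert_self _ _)
    simp only [if_true] at h0
    have h1 : P₀.intValuation (g - π) ≤ WithZero.exp (-(2 : ℕ) : ℤ) :=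
      (P₀.intValuation_le_pow_iff_mem _ 2).mpr h0
    have h2 : P₀.intValuation (g - π) < P₀.intValuation π := by
      rw [hπ]
      refine lt_of_le_of_lt h1 ?_
      rw [WithZero.exp_lt_exp]
      norm_num
    have h3 := Valuation.map_add_eq_of_lt_left P₀.intValuation h2
    rw [add_sub_cancel] at h3
    rw [h3, hπ]
  · intro P hP hgP
    have hne : P ≠ P₀ := fun h => hP₀ (h ▸ hP)
    have h0 := hg P (Finset.mem_insert_of_mem hP)
    simp only [if_neg hne, pow_one] at h0
    have : (1 : R) ∈ P.asIdeal := by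
      have := P.asIdeal.sub_mem hgP h0
      simpa using this
    exact P.isPrime.ne_top ((Ideal.eq_top_iff_one _).mpr this)

end Dedekind

section Places

variable {K F : Type*} [Field K] [Field F] [Algebra K F]
variable (R : Type*) [CommRing R] [IsDedekindDomain R] [Algebra K R] [Algebra R F]
  [IsScalarTower K R F] [IsFractionRing R F]

/-- the maximal ideal of `R` attached to a chart place (choice). -/
noncomputable def pcrt_ideal (v : Place K F)
    (hv : ∀ r : R, algebraMap R F r ∈ v.toValuationSubring) : HeightOneSpectrum R :=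
  (Fermat.Agent.S24x.exists_ofHeightOneSpectrum_of_le R v hv).choose

theorem pcrt_ideal_spec (v : Place K F)
    (hv : ∀ r : R, algebraMap R F r ∈ v.toValuationSubring) :
    v = Place.ofHeightOneSpectrum (K := K) (F := F) (pcrt_ideal R v hv) :=
  (Fermat.Agent.S24x.exists_ofHeightOneSpectrum_of_le R v hv).choose_spec

theorem pcrt_mem_nonunits_iff_place (v : Place K F)
    (hv : ∀ r : R, algebraMap R F r ∈ v.toValuationSubring) (r : R) :
    algebraMap R F r ∈ v.toValuationSubring.nonunits ↔ r ∈ (pcrt_ideal R v hv).asIdeal := by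
  conv_lhs => rw [pcrt_ideal_spec R v hv]
  exact pcrt_mem_nonunits_iff R _ r

/-- **CRT in place language**: prescribed values `a v ∈ K` at finitely many chart places. -/
theorem pcrt_exists_values (S : Finset (Place K F))
    (hS : ∀ v ∈ S, ∀ r : R, algebraMap R F r ∈ v.toValuationSubring) (a : Place K F → K) :
    ∃ g : R, ∀ v ∈ S, algebraMap R F g - algebraMap K F (a v) ∈ v.toValuationSubring.nonunits := by
  classical
  -- index by the subtype, push to ideals
  let ι : S → HeightOneSpectrum R := fun v => pcrt_ideal R v.1 (hS v.1 v.2)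
  have hι : Function.Injective ι := by
    intro v w h
    apply Subtype.ext
    rw [pcrt_ideal_spec R v.1 (hS v.1 v.2), pcrt_ideal_spec R w.1 (hS w.1 w.2)]
    exact congrArg _ h
  obtain ⟨g, hg⟩ := IsDedekindDomain.exists_forall_sub_mem_ideal (s := (Finset.univ : Finset S))
    (fun v : S => (ι v).asIdeal) (fun _ => 1) (fun v _ => (ι v).prime)
    (fun v _ w _ hvw h => hvw (hι (HeightOneSpectrum.ext h)))
    (fun v => algebraMap K R (a v.1.1))
  refine ⟨g, fun v hv => ?_⟩
  have h0 := hg ⟨v, hv⟩ (Finset.mem_univ _)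
  simp only [pow_one] at h0
  have h1 := (pcrt_mem_nonunits_iff_place R v (hS v hv) _).mpr h0
  rwa [map_sub, ← IsScalarTower.algebraMap_apply] at h1

/-- **simple zero in place language**: some `g ∈ R` has order exactly `1` at the chart place `v₀`
and is a unit at the other places of `S`. -/
theorem pcrt_exists_simple_zero (S : Finset (Place K F))
    (hS : ∀ v ∈ S, ∀ r : R, algebraMap R F r ∈ v.toValuationSubring)
    (v₀ : Place K F) (hv₀ : ∀ r : R, algebraMap R F r ∈ v₀.toValuationSubring) :
    ∃ g : R, v₀.ord (algebraMap R F g) = 1 ∧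
      ∀ v ∈ S, v ≠ v₀ → algebraMap R F g ∉ v.toValuationSubring.nonunits := by
  classical
  let T : Finset (Place K F) := S.erase v₀
  have hT : ∀ v ∈ T, ∀ r : R, algebraMap R F r ∈ v.toValuationSubring :=
    fun v hv => hS v (Finset.mem_of_mem_erase hv)
  let s : Finset (HeightOneSpectrum R) :=
    T.attach.image fun v => pcrt_ideal R v.1 (hT v.1 v.2)
  have hP₀ : pcrt_ideal R v₀ hv₀ ∉ s := by
    intro hmem
    obtain ⟨v, -, hv⟩ := Finset.mem_image.mp hmem
    have h1 : v.1 = v₀ := by
      rw [pcrt_ideal_spec R v.1 (hT v.1 v.2), pcrt_ideal_spec R v₀ hv₀, hv]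
    exact (Finset.ne_of_mem_erase v.2) h1
  obtain ⟨g, hg0, hg⟩ := pcrt_exists_simple_zero_ideal s (pcrt_ideal R v₀ hv₀) hP₀
  refine ⟨g, ?_, ?_⟩
  · conv_lhs => rw [pcrt_ideal_spec R v₀ hv₀]
    rw [Fermat.Agent.S24x.ofHeightOneSpectrum_ord, HeightOneSpectrum.valuation_of_algebraMap, hg0,
      WithZero.log_exp, neg_neg]
  · intro v hv hne hmem
    have hvT : v ∈ T := Finset.mem_erase.mpr ⟨hne, hv⟩
    have h1 := (pcrt_mem_nonunits_iff_place R v (hT v hvT) g).mp hmem
    exact hg _ (Finset.mem_image.mpr ⟨⟨v, hvT⟩, Finset.mem_attach _ _, rfl⟩) h1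

/-- **separating function**: for infinite `K`, some `g ∈ R` takes pairwise distinct values in `K`
at finitely many chart places. -/
theorem pcrt_exists_separating [Infinite K] (S : Finset (Place K F))
    (hS : ∀ v ∈ S, ∀ r : R, algebraMap R F r ∈ v.toValuationSubring) :
    ∃ (g : R) (a : Place K F → K), Set.InjOn a S ∧
      ∀ v ∈ S, algebraMap R F g - algebraMap K F (a v) ∈ v.toValuationSubring.nonunits := by
  classical
  let e : S ≃ Fin (Fintype.card S) := Fintype.equivFin S
  let a : Place K F → K := fun v =>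
    if hv : v ∈ S then Infinite.natEmbedding K ((e ⟨v, hv⟩ : Fin _) : ℕ) else 0
  have ha : Set.InjOn a S := by
    intro v hv w hw h
    simp only [a, dif_pos (Finset.mem_coe.mp hv), dif_pos (Finset.mem_coe.mp hw)] at h
    have h1 := Fin.ext ((Infinite.natEmbedding K).injective h)
    exact congrArg Subtype.val (e.injective h1)
  obtain ⟨g, hg⟩ := pcrt_exists_values R S hS a
  exact ⟨g, a, ha, hg⟩

/-- **multiplicities from characteristic-polynomial identities.**  `val g v` is the value of
`g ∈ R` at the chart place `v`.  If the products `∏_{v ∈ S} (X - g(v))^{m v}` of two multiplicity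
functions agree for every `g ∈ R`, the multiplicities agree on `S`. -/
theorem pcrt_mult_eq_of_prod_eq [Infinite K] (S : Finset (Place K F))
    (hS : ∀ v ∈ S, ∀ r : R, algebraMap R F r ∈ v.toValuationSubring)
    (val : R → Place K F → K)
    (hval : ∀ g : R, ∀ v ∈ S,
      algebraMap R F g - algebraMap K F (val g v) ∈ v.toValuationSubring.nonunits)
    (m₁ m₂ : Place K F → ℕ)
    (h : ∀ g : R, ∏ v ∈ S, (X - C (val g v)) ^ m₁ v = ∏ v ∈ S, (X - C (val g v)) ^ m₂ v) :
    ∀ v ∈ S, m₁ v = m₂ v := by
  classical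
  obtain ⟨g, a, ha, hg⟩ := pcrt_exists_separating R S hS
  have hva : ∀ v ∈ S, val g v = a v := fun v hv =>
    pcrt_value_unique v (hval g v hv) (hg v hv)
  have ha' : Set.InjOn (val g) S := by
    intro v hv w hw hvw
    rw [hva v hv, hva w hw] at hvw
    exact ha hv hw hvw
  exact pcrt_mult_eq_of_injOn S (val g) ha' m₁ m₂ (h g)

end Places

end Fermat.Agent.S37x
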