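/-
S37 project, block R = [B1], file 5 (helper4, prefix `ctm_`): SEPARATION ⟹ COMPAT.

`ctm_compat_chart` : for a map `r` which is a centre on both charts `J`, `J⁻¹`, and every `y ∈ W` with
`ρ y ≠ 0`: `r_* div(y)` and `div(ρ y)` agree at every place `Q` of `Fb` on the chart `ρ J`.
Proof: choose a GOOD coordinate `g = J^T + c u` (`ctg_good`) whose reduction separates `Q` from the
finitely many other relevant places, and apply the disc-fibre sum (`ctm_fibre_sum`) to `g`.
-/
import Mathlib
import Fermat.Agent.S37x.CtmGlue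
import Fermat.Agent.S37x.CtmFibre
import Fermat.Agent.S37x.CtmFact0
import Fermat.Agent.S37x.CtmGood
import Fermat.Agent.S37x.PlaceCRT

set_option autoImplicit false

namespace Fermat.Agent.S37x

open AlgebraicCurve IsDedekindDomain IntermediateField Fermat.Agent.S18x Fermat.Agent.S24x
open scoped IntermediateField.algebraAdjoinAdjoin

variable {L k F Fb : Type*} [Field L] [Field k] [Field F] [Field Fb] [Algebra L F] [Algebra k Fb]
variable {A : ValuationSubring L} {π : A →+* k} {W : ValuationSubring F} {ρ : W →+* Fb}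

section Values

variable {K E : Type*} [Field K] [Field E] [Algebra K E]

theorem ctm_mem_of_val_le_one (v : Place K E) {x : E} (hx : v.adicValuation x ≤ 1) :
    x ∈ v.toValuationSubring := by
  rcases (v.adicValuation_le_one_iff).mp hx with rfl | h
  · exact v.toValuationSubring.zero_mem
  · exact fid_mem_of_ord_nonneg v h

theorem ctm_nonunits_iff (v : Place K E) (x : E) :
    x ∈ v.toValuationSubring.nonunits ↔ v.adicValuation x < 1 := by
  rw [ValuationSubring.mem_nonunits_iff_exists_mem_maximalIdeal]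
  constructor
  · rintro ⟨hx, hm⟩
    have := v.adicValuation_coe ⟨x, hx⟩
    rw [this]
    exact (IsDedekindDomain.HeightOneSpectrum.intValuation_lt_one_iff_mem _ _).mpr hm
  · intro h
    have hx : x ∈ v.toValuationSubring := ctm_mem_of_val_le_one v h.le
    refine ⟨hx, ?_⟩
    have := v.adicValuation_coe ⟨x, hx⟩
    rw [this] at h
    exact (IsDedekindDomain.HeightOneSpectrum.intValuation_lt_one_iff_mem _ _).mp h

theorem ctm_value_add (P : Place K E) {u v : E} {a c : K}
    (hu : P.adicValuation (u - algebraMap K E a) < 1)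
    (hv : P.adicValuation (v - algebraMap K E c) < 1) :
    P.adicValuation (u + v - algebraMap K E (a + c)) < 1 := by
  have h : u + v - algebraMap K E (a + c) = (u - algebraMap K E a) + (v - algebraMap K E c) := by
    rw [map_add]; ring
  rw [h]
  exact lt_of_le_of_lt (Valuation.map_add _ _ _) (max_lt hu hv)

theorem ctm_value_const (P : Place K E) (a : K) :
    P.adicValuation (algebraMap K E a - algebraMap K E a) < 1 := by
  rw [sub_self, map_zero]; exact zero_lt_one

end Values

section Compat

variable [IsAlgClosed L] [IsAlgClosed k] [CharZero L]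

set_option maxHeartbeats 2000000 in
/-- **COMPAT on the chart `ρ J`.** -/
theorem ctm_compat_chart (G : ctm_Gauss A π W ρ) {J Jinv : W} (hJJ : J * Jinv = 1)
    (hJ : ctm_Coord L k W ρ J) (hint0 : ctm_Int L k W ρ J)
    (hF0 : ctm_Fact0 k A ρ J)
    (r : Place L F → Place k Fb)
    (hr0 : ∀ P, ctm_valIn A P (J : F) → ctm_Centre A π ρ P (r P) J)
    (hrinf : ∀ P, ctm_valIn A P (Jinv : F) → ctm_Centre A π ρ P (r P) Jinv)
    (y : W) (hy : ρ y ≠ 0) (D : Divisor L F) (hD : ∀ P, D P = P.ord (y : F))
    (Q : Place k Fb) (hQ : Q.adicValuation (ρ J) ≤ 1) :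
    Finsupp.mapDomain r D Q = Q.ord (ρ y) := by
  classical
  have hsepb := hJ.sepb
  have : FFData k Fb (ρ J) := ⟨hsepb.coord.transcendental, hsepb.coord.finite⟩
  have := hsepb.sep
  have : IsDedekindDomain (ringB k (ρ J)) :=
    integralClosure.isDedekindDomain (ringA k (ρ J)) k⟮ρ J⟯ Fb
  have h1F : (J : F) * (Jinv : F) = 1 := by
    have := congrArg Subtype.val hJJ
    simpa using this
  have hρJJ : ρ J * ρ Jinv = 1 := by rw [← map_mul, hJJ, map_one]
  have hρJinv : ρ Jinv = (ρ J)⁻¹ := eq_inv_of_mul_eq_one_right hρJJ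
  -- the divisor downstairs and the finite set of relevant places
  obtain ⟨Db, hDb⟩ := pls_hpd hsepb (ρ y) hy
  set Sbad : Finset (Place k Fb) := Db.support ∪ D.support.image r ∪ {Q} with hSbad
  set S₀ : Finset (Place k Fb) := Sbad.filter (fun v => v.adicValuation (ρ J) ≤ 1) with hS₀def
  have hQbad : Q ∈ Sbad := Finset.mem_union_right _ (Finset.mem_singleton_self Q)
  have hQS₀ : Q ∈ S₀ := Finset.mem_filter.mpr ⟨hQbad, hQ⟩
  have hS₀ : ∀ v ∈ S₀, ∀ b : ringB k (ρ J), algebraMap (ringB k (ρ J)) Fb b ∈ v.toValuationSubring := by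
    intro v hv b
    have hv' := (Finset.mem_filter.mp hv).2
    exact vtp_ringB_mem v.toValuationSubring v.algebraMap_mem' (ctm_mem_of_val_le_one v hv') b
  -- the separating function downstairs
  obtain ⟨ub, hub⟩ := pcrt_exists_values (K := k) (F := Fb) (ringB k (ρ J)) S₀ hS₀
    (fun v => if v = Q then 0 else 1)
  obtain ⟨u, hu, hui⟩ := hint0 (ub : Fb) ub.2
  obtain ⟨T₀, hT₀⟩ := ctg_good_of_fact0 G J Jinv hJJ hJ u hui
    (fun g hg u' hu' => ctr_fact0_rho G hg u' hu')
    (fun g hg u' hu' P hP => ctr_fact0_val G hg u' hu' P hP)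
  obtain ⟨T, hTge, hTk⟩ : ∃ T : ℕ, T₀ ≤ T ∧ (T : k) ≠ 0 := by
    by_cases h : ((T₀ : ℕ) : k) ≠ 0
    · exact ⟨T₀, le_rfl, h⟩
    · rw [not_not] at h
      refine ⟨T₀ + 1, Nat.le_succ _, ?_⟩
      rw [Nat.cast_add, h, zero_add, Nat.cast_one]
      exact one_ne_zero
  obtain ⟨E, hE⟩ := hT₀ T hTge hTk
  -- values of `ρ J` on the chart
  have hβex : ∀ v : Place k Fb, v.adicValuation (ρ J) ≤ 1 →
      ∃ b : k, v.adicValuation (ρ J - algebraMap k Fb b) < 1 := fun v hv => pls_eval hsepb v _ hv
  let β : Place k Fb → k := fun v => if h : v.adicValuation (ρ J) ≤ 1 then (hβex v h).choose else 0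
  have hβ : ∀ v : Place k Fb, v.adicValuation (ρ J) ≤ 1 →
      v.adicValuation (ρ J - algebraMap k Fb (β v)) < 1 := by
    intro v hv
    simp only [β, dif_pos hv]
    exact (hβex v hv).choose_spec
  -- the constant `c`
  obtain ⟨cb, hcb⟩ := Infinite.exists_notMem_finset (E ∪ S₀.image (fun v => β Q ^ T - β v ^ T))
  obtain ⟨c, rfl⟩ := G.pi_surj cb
  have hcE : π c ∉ E := fun h => hcb (Finset.mem_union_left _ h)
  have hcS : ∀ v ∈ S₀, π c ≠ β Q ^ T - β v ^ T := by
    intro v hv h
    exact hcb (Finset.mem_union_right _ (Finset.mem_image.mpr ⟨v, hv, h.symm⟩))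
  obtain ⟨hgC, hgup, hgdown⟩ := hE c hcE
  set g : W := J ^ T + G.cW c * u with hg
  have hρg : ρ g = ρ J ^ T + algebraMap k Fb (π c) * (ub : Fb) := by
    rw [hg, map_add, map_pow, map_mul, G.rho_cW, hu]
  -- `g` is integral over `L[J]`
  have hJint : IsIntegral (Algebra.adjoin L {(J : F)}) (J : F) := by
    have : (J : F) = algebraMap (Algebra.adjoin L {(J : F)}) F
        ⟨(J : F), Algebra.self_mem_adjoin_singleton L _⟩ := rfl
    rw [this]
    exact isIntegral_algebraMap
  have hcint : IsIntegral (Algebra.adjoin L {(J : F)}) ((G.cW c : W) : F) := by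
    have : ((G.cW c : W) : F) = algebraMap (Algebra.adjoin L {(J : F)}) F
        (algebraMap L (Algebra.adjoin L {(J : F)}) (c : L)) := rfl
    rw [this]
    exact isIntegral_algebraMap
  have hgint : IsIntegral (Algebra.adjoin L {(J : F)}) (g : F) := by
    show IsIntegral (Algebra.adjoin L {(J : F)}) ((J : F) ^ T + ((G.cW c : W) : F) * (u : F))
    exact IsIntegral.add (IsIntegral.pow hJint T) (IsIntegral.mul hcint hui)
  -- value of `ρ g` at the places of `S₀`
  have hgval : ∀ v ∈ S₀, v.adicValuation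
      (ρ g - algebraMap k Fb (β v ^ T + π c * (if v = Q then 0 else 1))) < 1 := by
    intro v hv
    have hv' := (Finset.mem_filter.mp hv).2
    rw [hρg]
    refine ctm_value_add v (ctm_value_pow v (hβ v hv') T) ?_
    refine ctm_value_mul v (ctm_value_const v (π c)) ?_
    exact (ctm_nonunits_iff v _).mp (hub v hv)
  have hgQ : Q.adicValuation (ρ g - algebraMap k Fb (β Q ^ T)) < 1 := by
    have := hgval Q hQS₀
    rwa [if_pos rfl, mul_zero, add_zero] at this
  -- uniqueness: the only place of `Sbad` in the fibre of `ρ g` over `β Q ^ T` is `Q`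
  have huniq : ∀ Q' ∈ Sbad, Q'.adicValuation (ρ g - algebraMap k Fb (β Q ^ T)) < 1 → Q' = Q := by
    intro Q' hQ' hval
    by_contra hne
    by_cases hch : Q'.adicValuation (ρ J) ≤ 1
    · have hQ'S₀ : Q' ∈ S₀ := Finset.mem_filter.mpr ⟨hQ', hch⟩
      have h1 := hgval Q' hQ'S₀
      rw [if_neg hne, mul_one] at h1
      have h2 := ctm_value_unique Q' h1 hval
      exact hcS Q' hQ'S₀ (by rw [← h2]; ring)
    · rw [not_le] at hch
      have hJ0 : ρ J ≠ 0 := fun h => hsepb.coord.transcendental (h ▸ isAlgebraic_zero)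
      have hord : Q'.ord (ρ J) < 0 := by
        by_contra hge
        rw [not_lt, ged_ord_nonneg_iff] at hge
        exact absurd hge (not_le.mpr hch)
      have h3 := hgdown Q' hord
      have h4 : Q'.adicValuation (ρ g) ≤ 1 :=
        ctm_val_le_one_of_mem Q' (ctm_mem_of_value Q' hval)
      rw [← ged_ord_nonneg_iff] at h4
      omega
  -- the fibre sum for `g`
  have hfs := ctm_fibre_sum G hgC y hy (β Q ^ T) D.support
    (fun P hP => Finsupp.mem_support_iff.mpr (by rw [hD P]; exact hP)) Sbad
    (fun Q' hQ' => Finset.mem_union_left _ (Finset.mem_union_left _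
      (Finsupp.mem_support_iff.mpr (by rw [hDb Q']; exact hQ'))))
  -- right-hand side
  have hR : Sbad.filter (fun Q' => Q'.adicValuation (ρ g - algebraMap k Fb (β Q ^ T)) < 1) = {Q} := by
    ext Q'
    rw [Finset.mem_filter, Finset.mem_singleton]
    constructor
    · rintro ⟨h1, h2⟩
      exact huniq Q' h1 h2
    · rintro rfl
      exact ⟨hQbad, hgQ⟩
  -- left-hand side
  have hLset : D.support.filter (fun P => ctm_valRed A π P (g : F) (β Q ^ T))
      = D.support.filter (fun P => r P = Q) := by
    apply Finset.filter_congr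
    intro P hP
    constructor
    · rintro ⟨a, ha, hπa, hva⟩
      have hPJ : ctm_valIn A P (J : F) := by
        by_contra hn
        exact hgup P hn ⟨a, ha, hva⟩
      have h1 := hr0 P hPJ g hgint a ha hva
      rw [hπa] at h1
      refine huniq (r P) ?_ h1
      exact Finset.mem_union_left _ (Finset.mem_union_right _ (Finset.mem_image_of_mem r hP))
    · intro hrP
      have hPJ : ctm_valIn A P (J : F) := by
        by_contra hn
        rcases ctm_valIn_or G hJJ hJ.sep P with h | ⟨a', ha', hπ', hv'⟩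
        · exact hn h
        · have hJinvint : IsIntegral (Algebra.adjoin L {(Jinv : F)}) (Jinv : F) := by
            have : (Jinv : F) = algebraMap (Algebra.adjoin L {(Jinv : F)}) F
                ⟨(Jinv : F), Algebra.self_mem_adjoin_singleton L _⟩ := rfl
            rw [this]
            exact isIntegral_algebraMap
          have h2 := hrinf P ⟨a', ha', hv'⟩ Jinv hJinvint a' ha' hv'
          rw [hπ', map_zero, sub_zero, hrP, hρJinv, map_inv₀] at h2
          have hJ0 : Q.adicValuation (ρ J) ≠ 0 :=
            (Valuation.ne_zero_iff _).mpr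
              (fun h => hsepb.coord.transcendental (h ▸ isAlgebraic_zero))
          have h3 : 1 ≤ (Q.adicValuation (ρ J))⁻¹ := by
            rw [one_le_inv₀ (zero_lt_iff.mpr hJ0)]
            exact hQ
          exact absurd h2 (not_lt.mpr h3)
      obtain ⟨a, ha, hva⟩ := hF0.val g hgint P hPJ
      have h1 := hr0 P hPJ g hgint a ha hva
      rw [hrP] at h1
      have h2 := ctm_value_unique Q h1 hgQ
      exact ⟨a, ha, h2, hva⟩
  rw [ts_mapDomain_apply]
  have hL : ∑ P ∈ D.support.filter (fun P => r P = Q), D P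
      = ∑ P ∈ D.support.filter (fun P => ctm_valRed A π P (g : F) (β Q ^ T)), P.ord (y : F) := by
    rw [hLset]
    exact Finset.sum_congr rfl fun P _ => hD P
  rw [hL]
  convert hfs using 1
  rw [hR, Finset.sum_singleton]

end Compat

end Fermat.Agent.S37x
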