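/-
S37 project, block R = [B1], file 6 (helper4, prefix `ctm_`): THE ABSTRACT MAIN THEOREM.

`ctm_main` : Gauss data (`ctm_Gauss`) + a coordinate `J ∈ Wˣ` separating on both sides with
`[F : L(J)] = [Fb : k(ρ J)]` (`ctm_Coord`) + two-chart normality (`ctm_Int` for `J` and `J⁻¹`)
⟹ there is a place map `r : Place L F → Place k Fb` preserving degrees and COMPATIBLE with divisors
of functions (`r_* div(u) = div(ρ u)` for `u ∈ W`, `ρ u ≠ 0`), which moreover is a centre map on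
both charts (value lemma).
-/
import Mathlib
import Fermat.Agent.S37x.CtmCompat
import Fermat.Agent.S37x.CtmFact0

set_option autoImplicit false

namespace Fermat.Agent.S37x

open AlgebraicCurve Fermat.Agent.S18x Fermat.Agent.S24x

variable {L k F Fb : Type*} [Field L] [Field k] [Field F] [Field Fb] [Algebra L F] [Algebra k Fb]
variable {A : ValuationSubring L} {π : A →+* k} {W : ValuationSubring F} {ρ : W →+* Fb}

theorem ctm_main [IsAlgClosed L] [IsAlgClosed k] [CharZero L] (G : ctm_Gauss A π W ρ)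
    {J Jinv : W} (hJJ : J * Jinv = 1) (hJ : ctm_Coord L k W ρ J)
    (hint0 : ctm_Int L k W ρ J) (hintInf : ctm_Int L k W ρ Jinv) :
    ∃ r : Place L F → Place k Fb, (∀ P, (r P).deg = P.deg) ∧
      (∀ u : W, ρ u ≠ 0 → ∀ D : Divisor L F, (∀ P, D P = P.ord (u : F)) →
        ∀ Q, Finsupp.mapDomain r D Q = Q.ord (ρ u)) ∧
      (∀ P, ctm_valIn A P (J : F) → ctm_Centre A π ρ P (r P) J) ∧
      (∀ P, ctm_valIn A P (Jinv : F) → ctm_Centre A π ρ P (r P) Jinv) := by
  have hJinv : ctm_Coord L k W ρ Jinv := hJ.inv hJJ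
  have hJJ' : Jinv * J = 1 := by rw [mul_comm]; exact hJJ
  have hF0 : ctm_Fact0 k A ρ J := ctr_fact0_bundle G hJ
  have hFinf : ctm_Fact0 k A ρ Jinv := ctr_fact0_bundle G hJinv
  obtain ⟨r, hr0, hrinf⟩ := ctm_exists_r G hJJ hJ hint0 hintInf hF0 hFinf
  refine ⟨r, fun P => ?_, fun u hu D hD Q => ?_, hr0, hrinf⟩
  · rw [pls_place_deg_eq_one hJ.sep P, pls_place_deg_eq_one hJ.sepb (r P)]
  · by_cases hQ : Q.adicValuation (ρ J) ≤ 1
    · exact ctm_compat_chart G hJJ hJ hint0 hF0 r hr0 hrinf u hu D hD Q hQ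
    · rw [not_le] at hQ
      have hρJJ : ρ J * ρ Jinv = 1 := by rw [← map_mul, hJJ, map_one]
      have hρJinv : ρ Jinv = (ρ J)⁻¹ := eq_inv_of_mul_eq_one_right hρJJ
      have hQ' : Q.adicValuation (ρ Jinv) ≤ 1 := by
        rw [hρJinv, map_inv₀]
        exact (inv_lt_one_of_one_lt₀ hQ).le
      exact ctm_compat_chart G hJJ' hJinv hintInf hFinf r hrinf hr0 u hu D hD Q hQ'

end Fermat.Agent.S37x
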