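/-
S37x/CtmHFreeFinal (helper63, S37 [B1] leaf C7, prefix `cthf_`): the Prelude
`ReductionInputsModL A N` (`ℓ ∤ N`, `A` over `ℓ`) from
* `hY`   : normality of the finite chart at level `N` for the canonical `h`-free Gauss pair
           (`nrmt_HY N A ℓ hℓN hA`; from S18's tops `nrm2_HY` / `nrmo_HY` by `cthf_HY_of_dvd`),
* `hgen` : `PrincipalGeneratedByIntegral A (residue A) N` (helper67),
using helper4's abstract main theorem `ctm_main`, the `h`-free package `CtmHFree` and the `h`-free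
OUT-C-onto `cspn_hCo_free` (helper35).
-/
import Mathlib
import Fermat.Agent.S37x.CtmMain
import Fermat.Agent.S37x.CtmHFree
import Fermat.Agent.S18x.CspnLevelNGen

set_option autoImplicit false
set_option synthInstance.maxHeartbeats 400000
set_option linter.style.haveILetI false

namespace Fermat.Agent.S37x

open ModularCurve HahnSeries AlgebraicCurve IntermediateField Polynomial
open Fermat.Agent.S18x Fermat.Agent.S24x Fermat.Agent.S28x

noncomputable section

variable (N : ℕ) [NeZero N] (A : ValuationSubring (AlgebraicClosure ℚ))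
  (ℓ : ℕ) [Fact ℓ.Prime] (hℓN : ¬ ℓ ∣ N) (hA : A.LiesOverPrime ℓ)

/-- the chart at infinity for the canonical pair, unconditionally from the finite chart. -/
theorem cthf_intInf_of_HY (hY : nrmt_HY N A ℓ hℓN hA) :
    ctm_Int (AlgebraicClosure ℚ) (IsLocalRing.ResidueField A) (nrmt_W N A)
      (nrmt_rho N A ℓ hℓN hA) (cthf_Jinv N A ℓ hℓN hA) :=
  cthf_intInf N A ℓ hℓN hA hY (cspn_hCo_free N A hℓN hA)

/-- **the place map with COMPAT** for the canonical pair at level `N`, from the finite chart. -/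
theorem cthf_exists_r (hY : nrmt_HY N A ℓ hℓN hA) :
    ∃ r : Place (AlgebraicClosure ℚ) (FBar N) →
        Place (IsLocalRing.ResidueField A)
          (modularFunctionFieldFullC (IsLocalRing.ResidueField A) N),
      (∀ P, (r P).deg = P.deg) ∧
        ∀ u : nrmt_W N A, nrmt_rho N A ℓ hℓN hA u ≠ 0 →
          ∀ D : Divisor (AlgebraicClosure ℚ) (FBar N), (∀ P, D P = P.ord (u : FBar N)) →
            ∀ Q, Finsupp.mapDomain r D Q = Q.ord (nrmt_rho N A ℓ hℓN hA u) := by
  haveI hk : IsAlgClosed (IsLocalRing.ResidueField A) := s18a_isAlgClosed_residue A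
  obtain ⟨r, h1, h2, -, -⟩ := ctm_main (cthf_gauss N A ℓ hℓN hA) (cthf_J_mul_Jinv N A ℓ hℓN hA)
    (cthf_coord N A ℓ hℓN hA) (cthf_int0_of_HY N A ℓ hℓN hA hY)
    (cthf_intInf_of_HY N A ℓ hℓN hA hY)
  exact ⟨r, h1, h2⟩

/-- **[B1] / C7**: `ReductionInputsModL A N` from the finite chart at level `N` and
`PrincipalGeneratedByIntegral`. -/
theorem cthf_reductionInputs_of_HY (hY : nrmt_HY N A ℓ hℓN hA)
    (hgen : PrincipalGeneratedByIntegral A (IsLocalRing.residue A) N) :
    ReductionInputsModL A N :=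
  cthf_reductionInputs N A ℓ hℓN hA (cthf_exists_r N A ℓ hℓN hA hY) hgen

/-- the same from the finite chart at any auxiliary level `M` with `N ∣ M`, `ℓ ∤ M`
(`M = 4 N` for `ℓ` odd, `M = 9 N` for `ℓ = 2`). -/
theorem cthf_reductionInputs_of_HY_dvd (M : ℕ) [NeZero M] (hNM : N ∣ M) (hℓM : ¬ ℓ ∣ M)
    (hY : nrmt_HY M A ℓ hℓM hA)
    (hgen : PrincipalGeneratedByIntegral A (IsLocalRing.residue A) N) :
    ReductionInputsModL A N :=
  have hℓN : ¬ ℓ ∣ N := fun h => hℓM (h.trans hNM)
  cthf_reductionInputs_of_HY N A ℓ hℓN hA (cthf_HY_of_dvd N A ℓ hℓN hA M hNM hℓM hY) hgen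

end

end Fermat.Agent.S37x
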