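/-
S37x/CtmHRFinal (helper63, S37 [B1] assembly, prefix `cthf_`): `hR` of the final S37 file,
`ReductionInputsModL A N` for every prime `ℓ ∤ N` and every `A` over `ℓ`, from the S18 tops ONLY
(finite-chart normality `nrmt_HY` at the auxiliary level `9 N` for `ℓ = 2`, `4 N` for `ℓ` odd).
`PrincipalGeneratedByIntegral` is helper67's `ctmg_principalGeneratedByIntegral_modL`.
-/
import Mathlib
import Fermat.Agent.S37x.CtmHFreeFinal
import Fermat.Agent.S37x.CtmPrinGen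

set_option autoImplicit false
set_option synthInstance.maxHeartbeats 400000
set_option linter.style.haveILetI false

namespace Fermat.Agent.S37x

open ModularCurve AlgebraicCurve
open Fermat.Agent.S18x Fermat.Agent.S24x

noncomputable section

/-- `ReductionInputsModL A N` from the finite chart at ANY auxiliary level `M` (`N ∣ M`, `ℓ ∤ M`),
with `PrincipalGeneratedByIntegral` discharged. -/
theorem cthf_reductionInputs_of_top (N : ℕ) [NeZero N] (A : ValuationSubring (AlgebraicClosure ℚ))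
    (ℓ : ℕ) [Fact ℓ.Prime] (hA : A.LiesOverPrime ℓ) (M : ℕ) [NeZero M] (hNM : N ∣ M)
    (hℓM : ¬ ℓ ∣ M) (hY : nrmt_HY M A ℓ hℓM hA) : ReductionInputsModL A N :=
  cthf_reductionInputs_of_HY_dvd N A ℓ hA M hNM hℓM hY
    (ctmg_principalGeneratedByIntegral_modL ℓ N (fun h => hℓM (h.trans hNM)) A hA)

theorem cthf_not_dvd_nine {N : ℕ} (hN : ¬ 2 ∣ N) : ¬ 2 ∣ 9 * N := by
  intro h
  rcases (Nat.Prime.dvd_mul Nat.prime_two).1 h with h9 | hN'
  · omega
  · exact hN hN'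

theorem cthf_not_dvd_four {ℓ N : ℕ} (hℓ : ℓ.Prime) (hl : ℓ ≠ 2) (hN : ¬ ℓ ∣ N) : ¬ ℓ ∣ 4 * N := by
  intro h
  rcases (Nat.Prime.dvd_mul hℓ).1 h with h4 | hN'
  · have h22 : ℓ ∣ 2 * 2 := h4
    rcases (Nat.Prime.dvd_mul hℓ).1 h22 with h2 | h2
    · exact hl ((Nat.prime_dvd_prime_iff_eq hℓ Nat.prime_two).1 h2)
    · exact hl ((Nat.prime_dvd_prime_iff_eq hℓ Nat.prime_two).1 h2)
  · exact hN hN'

/-- **`hR` of the final S37 file, from the two S18 tops** (`nrm2_HY` of helper31 at `ℓ = 2`,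
`nrmo_HY` of helper10 at `ℓ` odd, both stated with ANY proof of the non-divisibility). -/
theorem cthf_hR_of_tops (N : ℕ) [NeZero N]
    (hTwo : ∀ (A : ValuationSubring (AlgebraicClosure ℚ)) (hA : A.LiesOverPrime 2)
      (h29 : ¬ 2 ∣ 9 * N),
      haveI : Fact (Nat.Prime 2) := ⟨Nat.prime_two⟩
      nrmt_HY (9 * N) A 2 h29 hA)
    (hOdd : ∀ (ℓ : ℕ) [Fact ℓ.Prime], ℓ ≠ 2 →
      ∀ (A : ValuationSubring (AlgebraicClosure ℚ)) (hA : A.LiesOverPrime ℓ) (h4 : ¬ ℓ ∣ 4 * N),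
        nrmt_HY (4 * N) A ℓ h4 hA)
    (ℓ : ℕ) (hℓ : ℓ.Prime) (hℓN : ¬ ℓ ∣ N) (A : ValuationSubring (AlgebraicClosure ℚ))
    (hA : A.LiesOverPrime ℓ) : ReductionInputsModL A N := by
  haveI : Fact ℓ.Prime := ⟨hℓ⟩
  rcases eq_or_ne ℓ 2 with rfl | hl
  · exact cthf_reductionInputs_of_top N A 2 hA (9 * N) (Dvd.intro_left 9 rfl)
      (cthf_not_dvd_nine hℓN) (hTwo A hA (cthf_not_dvd_nine hℓN))
  · exact cthf_reductionInputs_of_top N A ℓ hA (4 * N) (Dvd.intro_left 4 rfl)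
      (cthf_not_dvd_four hℓ hl hℓN) (hOdd ℓ hl A hA (cthf_not_dvd_four hℓ hl hℓN))

end

end Fermat.Agent.S37x
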