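/-
S37x/CtmHRFinalHH (helper63, S37 [B1] assembly, prefix `cthf_`): `hR` of the final S37 file from the
LAST open S18 input only, `(H) = puri_HH` at the two instances
`(2, 3, μ, X³ - 27, 3N)` (`ℓ = 2`) and `(ℓ, 2, X₃, X² - 64, 2N)` (`ℓ` odd):
`nrm2_HY_of_HH` (helper31) / `nrmo_HY_of_HH` (helper10) + `cthf_hR_of_tops`.
-/
import Mathlib
import Fermat.Agent.S37x.CtmHRFinal
import Fermat.Agent.S18x.NrmFinalTwoV
import Fermat.Agent.S18x.NrmFinalOddV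

set_option autoImplicit false
set_option synthInstance.maxHeartbeats 400000
set_option linter.style.haveILetI false

namespace Fermat.Agent.S37x

open ModularCurve AlgebraicCurve
open Fermat.Agent.S18x Fermat.Agent.S24x Fermat.Agent.S28x

noncomputable section

/-- **`hR` from `(H)` alone.** -/
theorem cthf_hR_of_HH (N : ℕ) [NeZero N]
    (hH2 : ¬ 2 ∣ N → puri_HH 2 3 lyn_muQ lyn_c2 (3 * N))
    (hHodd : ∀ (ℓ : ℕ) [Fact ℓ.Prime], ℓ ≠ 2 → ¬ ℓ ∣ N →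
      puri_HH ℓ 2 purb_X3Q purb_c3 (2 * N))
    (ℓ : ℕ) (hℓ : ℓ.Prime) (hℓN : ¬ ℓ ∣ N) (A : ValuationSubring (AlgebraicClosure ℚ))
    (hA : A.LiesOverPrime ℓ) : ReductionInputsModL A N := by
  refine cthf_hR_of_tops N ?_ ?_ ℓ hℓ hℓN A hA
  · intro A' hA' h29
    have hN : ¬ 2 ∣ N := fun h => h29 (Dvd.dvd.mul_left h 9)
    exact nrm2_HY_of_HH N A' hA' h29 (hH2 hN)
  · intro ℓ' _ hl A' hA' h4
    have hN : ¬ ℓ' ∣ N := fun h => h4 (Dvd.dvd.mul_left h 4)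
    exact nrmo_HY_of_HH ℓ' hl N A' hA' h4 (hHodd ℓ' hl hN)

end

end Fermat.Agent.S37x
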