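/-
S37x/CtmHRClosed (helper63, S37 [B1] CLOSED, prefix `cthf_`): the hypothesis-free `hR` of the final
S37 file: `ReductionInputsModL A N` for EVERY prime `ℓ ∤ N` and every valuation subring `A` of `ℚ̄`
over `ℓ`, from `cthf_hR_of_HH` (S37x/CtmHRFinalHH) and helper40's closed `(H)` instances
`hzt40_HH_mu` / `hzt40_HH_X3` (S18x/HorizTwin40Inst).
-/
import Mathlib
import Fermat.Agent.S37x.CtmHRFinalHH
import Fermat.Agent.S18x.HorizTwin40Inst

set_option autoImplicit false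
set_option synthInstance.maxHeartbeats 400000
set_option linter.style.haveILetI false

namespace Fermat.Agent.S37x

open ModularCurve AlgebraicCurve
open Fermat.Agent.S18x Fermat.Agent.S24x Fermat.Agent.S28x

noncomputable section

/-- **`[B1]` of S37, closed**: the reduction inputs mod `ℓ` at level `N`, for every prime
`ℓ ∤ N` and every valuation subring of `ℚ̄` above `ℓ` (no hypothesis left). -/
theorem cthf_hR (N : ℕ) [NeZero N] (ℓ : ℕ) (hℓ : ℓ.Prime) (hℓN : ¬ ℓ ∣ N)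
    (A : ValuationSubring (AlgebraicClosure ℚ)) (hA : A.LiesOverPrime ℓ) :
    ReductionInputsModL A N :=
  cthf_hR_of_HH N
    (fun _ => haveI : Fact (Nat.Prime 2) := ⟨Nat.prime_two⟩; hzt40_HH_mu 2 (3 * N))
    (fun ℓ' _ _ _ => hzt40_HH_X3 ℓ' (2 * N)) ℓ hℓ hℓN A hA

/-- the two S18 tops, closed (for reference): `nrmt_HY (9N) A 2` and `nrmt_HY (4N) A ℓ`. -/
theorem cthf_HY_two (N : ℕ) [NeZero N] (A : ValuationSubring (AlgebraicClosure ℚ))
    (hA : A.LiesOverPrime 2) (h29 : ¬ 2 ∣ 9 * N) : nrmt_HY (9 * N) A 2 h29 hA :=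
  haveI : Fact (Nat.Prime 2) := ⟨Nat.prime_two⟩
  nrm2_HY_of_HH N A hA h29 (hzt40_HH_mu 2 (3 * N))

theorem cthf_HY_odd (ℓ : ℕ) [Fact ℓ.Prime] (hl : ℓ ≠ 2) (N : ℕ) [NeZero N]
    (A : ValuationSubring (AlgebraicClosure ℚ)) (hA : A.LiesOverPrime ℓ) (h4 : ¬ ℓ ∣ 4 * N) :
    nrmt_HY (4 * N) A ℓ h4 hA :=
  nrmo_HY_of_HH ℓ hl N A hA h4 (hzt40_HH_X3 ℓ (2 * N))

end

end Fermat.Agent.S37x
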