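/-
S37 prep, block [B3], STEP 6 (helper5): the Mathlib-only SEPARATION CORE.

`k` an infinite field, `S` a finite index set (in the application: finitely many places of the
reduced function field), `ev s : M →ₗ[k] k` evaluation functionals on a `k`-vector space `M`
(the reduced chart ring) which separate the points of `S` pairwise.  Two effective divisors
`D₁ D₂ : S → ℕ` with `∏ (c - ev s m) ^ D₁ s = ∏ (c - ev s m) ^ D₂ s` for all `m` and all constants
`c` are equal.
-/
import Mathlib

set_option autoImplicit false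

namespace Fermat.Agent.S37x

open Polynomial

/-- A pairwise separating finite family of linear functionals over an infinite field has a common
separating vector. -/
theorem essc_exists_injective {k M S : Type*} [Field k] [Infinite k] [AddCommGroup M] [Module k M]
    [Finite S] (ev : S → M →ₗ[k] k) (hsep : ∀ s t : S, s ≠ t → ∃ m : M, ev s m ≠ ev t m) :
    ∃ m : M, Function.Injective fun s => ev s m := by
  classical
  by_contra hno
  push Not at hno
  -- every `m` lies in one of the finitely many proper subspaces `ker (ev s - ev t)`, `s ≠ t`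
  let ι := {p : S × S // p.1 ≠ p.2}
  let U : ι → Subspace k M := fun p => LinearMap.ker (ev p.1.1 - ev p.1.2)
  have hcov : ⋃ i, (U i : Set M) = Set.univ := by
    apply Set.eq_univ_of_forall
    intro m
    have hm := hno m
    rw [Function.Injective] at hm
    push Not at hm
    obtain ⟨s, t, hst, hne⟩ := hm
    refine Set.mem_iUnion.mpr ⟨⟨(s, t), hne⟩, ?_⟩
    show m ∈ LinearMap.ker (ev s - ev t)
    rw [LinearMap.mem_ker, LinearMap.sub_apply, sub_eq_zero]
    exact hst
  obtain ⟨i, hi⟩ := Subspace.exists_eq_top_of_iUnion_eq_univ hcov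
  obtain ⟨m, hm⟩ := hsep i.1.1 i.1.2 i.2
  apply hm
  have : m ∈ U i := by rw [hi]; exact Submodule.mem_top
  have h2 : m ∈ LinearMap.ker (ev i.1.1 - ev i.1.2) := this
  rw [LinearMap.mem_ker, LinearMap.sub_apply, sub_eq_zero] at h2
  exact h2

/-- Unique factorisation: exponents of `∏ (X - f s) ^ D s` for an injective `f`. -/
theorem essc_eq_of_prod_eq {k S : Type*} [Field k] [Fintype S] (f : S → k)
    (hf : Function.Injective f) (D₁ D₂ : S → ℕ)
    (h : ∏ s, (X - C (f s)) ^ D₁ s = ∏ s, (X - C (f s)) ^ D₂ s) : D₁ = D₂ := by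
  classical
  have key : ∀ (D : S → ℕ) (t : S),
      (∏ s, (X - C (f s)) ^ D s : k[X]).rootMultiplicity (f t) = D t := by
    intro D t
    have hne : (∏ s, (X - C (f s)) ^ D s : k[X]) ≠ 0 :=
      Finset.prod_ne_zero_iff.mpr fun s _ => pow_ne_zero _ (X_sub_C_ne_zero _)
    rw [← Polynomial.count_roots, Polynomial.roots_prod _ _ hne]
    rw [Multiset.count_bind]
    simp only [Polynomial.roots_pow, Polynomial.roots_X_sub_C, Multiset.count_nsmul,
      Multiset.count_singleton]
    rw [Finset.sum_map_val, Finset.sum_eq_single t]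
    · simp
    · intro s _ hst
      have : f t ≠ f s := fun h' => hst (hf h').symm
      simp [this]
    · intro ht
      exact absurd (Finset.mem_univ t) ht
  funext t
  rw [← key D₁ t, ← key D₂ t, h]

/-- **Separation core** (polynomial form). -/
theorem essc_eq_of_forall_prod_eq {k M S : Type*} [Field k] [Infinite k] [AddCommGroup M]
    [Module k M] [Fintype S] (ev : S → M →ₗ[k] k)
    (hsep : ∀ s t : S, s ≠ t → ∃ m : M, ev s m ≠ ev t m) (D₁ D₂ : S → ℕ)
    (h : ∀ m : M, ∏ s, (X - C (ev s m)) ^ D₁ s = ∏ s, (X - C (ev s m)) ^ D₂ s) : D₁ = D₂ := by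
  obtain ⟨m, hm⟩ := essc_exists_injective ev hsep
  exact essc_eq_of_prod_eq (fun s => ev s m) hm D₁ D₂ (h m)

/-- **Separation core** (value form): it is enough to know the identity after evaluating at all
constants `c`. -/
theorem essc_eq_of_forall_eval_eq {k M S : Type*} [Field k] [Infinite k] [AddCommGroup M]
    [Module k M] [Fintype S] (ev : S → M →ₗ[k] k)
    (hsep : ∀ s t : S, s ≠ t → ∃ m : M, ev s m ≠ ev t m) (D₁ D₂ : S → ℕ)
    (h : ∀ (m : M) (c : k), ∏ s, (c - ev s m) ^ D₁ s = ∏ s, (c - ev s m) ^ D₂ s) : D₁ = D₂ := by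
  refine essc_eq_of_forall_prod_eq ev hsep D₁ D₂ fun m => ?_
  apply Polynomial.funext
  intro c
  simp only [Polynomial.eval_prod, Polynomial.eval_pow, Polynomial.eval_sub, Polynomial.eval_X,
    Polynomial.eval_C]
  exact h m c

open Classical in
/-- root multiplicities of `∏ (X - a i) ^ w i`. -/
theorem essc_count_roots_prod {k ι : Type*} [Field k] [Fintype ι] (a : ι → k) (w : ι → ℕ)
    (b : k) :
    (∏ i, (X - C (a i)) ^ w i : k[X]).roots.count b = ∑ i, if b = a i then w i else 0 := by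
  have hne : (∏ i, (X - C (a i)) ^ w i : k[X]) ≠ 0 :=
    Finset.prod_ne_zero_iff.mpr fun s _ => pow_ne_zero _ (X_sub_C_ne_zero _)
  rw [Polynomial.roots_prod _ _ hne, Multiset.count_bind]
  simp only [Polynomial.roots_pow, Polynomial.roots_X_sub_C, Multiset.count_nsmul,
    Multiset.count_singleton]
  rw [Finset.sum_map_val]
  refine Finset.sum_congr rfl fun i _ => ?_
  split_ifs <;> simp

/-- **Separation core** (divisor form, one separating function): two finite weighted families of
points `p₁`, `p₂` of a type `Y`, a function `v : Y → k` which is injective on the points involved,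
and `∏ (c - v (p₁ i)) ^ w₁ i = ∏ (c - v (p₂ j)) ^ w₂ j` for all constants `c` of the infinite field
`k`: the two families define the same divisor. -/
theorem essc_sum_single_eq_of_injOn {k Y ι₁ ι₂ : Type*} [Field k] [Infinite k]
    [Fintype ι₁] [Fintype ι₂] (v : Y → k)
    (p₁ : ι₁ → Y) (w₁ : ι₁ → ℕ) (p₂ : ι₂ → Y) (w₂ : ι₂ → ℕ)
    (hinj : Set.InjOn v (Set.range p₁ ∪ Set.range p₂))
    (h : ∀ c : k, ∏ i, (c - v (p₁ i)) ^ w₁ i = ∏ j, (c - v (p₂ j)) ^ w₂ j) :
    ∑ i, Finsupp.single (p₁ i) (w₁ i : ℤ) = ∑ j, Finsupp.single (p₂ j) (w₂ j : ℤ) := by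
  classical
  have hT₁ : ∀ i, p₁ i ∈ Set.range p₁ ∪ Set.range p₂ := fun i => Or.inl ⟨i, rfl⟩
  have hT₂ : ∀ j, p₂ j ∈ Set.range p₁ ∪ Set.range p₂ := fun j => Or.inr ⟨j, rfl⟩
  have hpoly : (∏ i, (X - C (v (p₁ i))) ^ w₁ i : k[X]) = ∏ j, (X - C (v (p₂ j))) ^ w₂ j := by
    apply Polynomial.funext
    intro c
    simp only [Polynomial.eval_prod, Polynomial.eval_pow, Polynomial.eval_sub, Polynomial.eval_X,
      Polynomial.eval_C]
    exact h c
  ext x
  rw [Finsupp.finsetSum_apply, Finsupp.finsetSum_apply]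
  simp only [Finsupp.single_apply]
  by_cases hx : x ∈ Set.range p₁ ∪ Set.range p₂
  · have e₁ := essc_count_roots_prod (fun i => v (p₁ i)) w₁ (v x)
    have e₂ := essc_count_roots_prod (fun j => v (p₂ j)) w₂ (v x)
    rw [hpoly] at e₁
    have hnat : (∑ i, if p₁ i = x then w₁ i else 0) = ∑ j, if p₂ j = x then w₂ j else 0 := by
      have a₁ : (∑ i, if v x = v (p₁ i) then w₁ i else 0)
          = ∑ i, if p₁ i = x then w₁ i else 0 := by
        refine Finset.sum_congr rfl fun i _ => ?_
        by_cases hi : p₁ i = x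
        · rw [if_pos hi, if_pos (by rw [hi])]
        · rw [if_neg hi, if_neg fun h' => hi (hinj (hT₁ i) hx h'.symm)]
      have a₂ : (∑ j, if v x = v (p₂ j) then w₂ j else 0)
          = ∑ j, if p₂ j = x then w₂ j else 0 := by
        refine Finset.sum_congr rfl fun j _ => ?_
        by_cases hj : p₂ j = x
        · rw [if_pos hj, if_pos (by rw [hj])]
        · rw [if_neg hj, if_neg fun h' => hj (hinj (hT₂ j) hx h'.symm)]
      rw [← a₁, ← a₂, ← e₁, ← e₂]
    have := congrArg (Nat.cast : ℕ → ℤ) hnat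
    push_cast at this
    exact this
  · have z₁ : ∀ i, p₁ i ≠ x := fun i h' => hx (h' ▸ hT₁ i)
    have z₂ : ∀ j, p₂ j ≠ x := fun j h' => hx (h' ▸ hT₂ j)
    simp [z₁, z₂]

/-- **Separation core** (divisor form, a separating space of functions): two finite weighted
families of points of a set `Cs` on which the functionals `ev` separate pairwise, with the same
"characteristic polynomials" for every `m`, define the same divisor. -/
theorem essc_sum_single_eq {k M Y ι₁ ι₂ : Type*} [Field k] [Infinite k] [AddCommGroup M]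
    [Module k M] [Fintype ι₁] [Fintype ι₂] (ev : Y → M →ₗ[k] k) (Cs : Set Y)
    (hsep : ∀ s ∈ Cs, ∀ t ∈ Cs, s ≠ t → ∃ m : M, ev s m ≠ ev t m)
    (p₁ : ι₁ → Y) (w₁ : ι₁ → ℕ) (p₂ : ι₂ → Y) (w₂ : ι₂ → ℕ)
    (h₁ : ∀ i, p₁ i ∈ Cs) (h₂ : ∀ j, p₂ j ∈ Cs)
    (h : ∀ (m : M) (c : k), ∏ i, (c - ev (p₁ i) m) ^ w₁ i = ∏ j, (c - ev (p₂ j) m) ^ w₂ j) :
    ∑ i, Finsupp.single (p₁ i) (w₁ i : ℤ) = ∑ j, Finsupp.single (p₂ j) (w₂ j : ℤ) := by
  classical
  let T : Finset Y := Finset.image p₁ Finset.univ ∪ Finset.image p₂ Finset.univ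
  have hTC : ∀ x ∈ T, x ∈ Cs := by
    intro x hx
    rcases Finset.mem_union.mp hx with hx | hx
    · obtain ⟨i, _, rfl⟩ := Finset.mem_image.mp hx
      exact h₁ i
    · obtain ⟨j, _, rfl⟩ := Finset.mem_image.mp hx
      exact h₂ j
  have hTmem : ∀ x ∈ Set.range p₁ ∪ Set.range p₂, x ∈ T := by
    rintro x (⟨i, rfl⟩ | ⟨j, rfl⟩)
    · exact Finset.mem_union_left _ (Finset.mem_image_of_mem _ (Finset.mem_univ i))
    · exact Finset.mem_union_right _ (Finset.mem_image_of_mem _ (Finset.mem_univ j))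
  obtain ⟨m, hm⟩ := essc_exists_injective (S := ↥T) (fun s => ev s.1)
    (fun s t hst => hsep s.1 (hTC _ s.2) t.1 (hTC _ t.2) fun h' => hst (Subtype.ext h'))
  refine essc_sum_single_eq_of_injOn (fun x => ev x m) p₁ w₁ p₂ w₂ ?_ (h m)
  intro x hx y hy hxy
  exact congrArg Subtype.val (hm (a₁ := ⟨x, hTmem x hx⟩) (a₂ := ⟨y, hTmem y hy⟩) hxy)

end Fermat.Agent.S37x
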