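/-
S37 prep, block [B3], STEP 5+6 in HYPOTHESIS FORM (helper5, prefix `esp_`).

Place-level Eichler–Shimura relation: for a place `P` of `F/L` (characteristic zero side) with
centre `r P` on `Fb/k` (characteristic `ℓ` side),

  `∑_{W | P} e(W) • [r (W|α)] = [σ • r P] + ℓ • [σ⁻¹ • r P]`,

from
* (value lemma)  functions of the class `Cl ⊆ W` are regular at the places of the chart `S`, with
  value in `A`, and their reduction `ρ y` takes the reduced value at the centre;
* (value of norm + Kronecker)  for `y ∈ Cl`, `c ∈ A` there is `n = n_c(y) ∈ Cl` with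
  `n(P) = ∏_W (c - y(W|α))^{e(W)}` and `ρ n = (c̄ - (σ⁻¹ ȳ)^ℓ)(c̄^ℓ - σ ȳ)`;
* (separation)  some `y ∈ Cl` has a reduction taking pairwise distinct values at the finitely many
  places involved.

Also: the value API `esp_HasVal` ("`f(P) = a`", i.e. `P.adicValuation (f - a) < 1`), and the wrapper
`esp_mapDomain_correspondence` for the Prelude correspondence `α_* β^*`.
-/
import Mathlib
import Fermat.Prelude.Def_AlgebraicCurve_Correspondence
import Fermat.Prelude.Def_AlgebraicCurve_BaseChangeGalois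
import Fermat.Prelude.Def_AlgebraicCurve_Repartitions
import Fermat.Agent.S18x.TsBasic
import Fermat.Agent.S37x.CoeffFrob
import Fermat.Agent.S37x.HeckeUnfold
import Fermat.Agent.S37x.EsSepCore

set_option autoImplicit false

namespace Fermat.Agent.S37x

open AlgebraicCurve Fermat.Agent.S18x

section Value

variable {K F : Type*} [Field K] [Field F] [Algebra K F]

/-- "`f(P) = a`": the function `f` is regular at `P` with value the constant `a`. -/
def esp_HasVal (P : Place K F) (f : F) (a : K) : Prop :=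
  P.adicValuation (f - algebraMap K F a) < 1

theorem esp_hasVal_iff (P : Place K F) (f : F) (a : K) :
    esp_HasVal P f a ↔ P.adicValuation (f - algebraMap K F a) < 1 := Iff.rfl

theorem esp_hasVal_algebraMap (P : Place K F) (a : K) : esp_HasVal P (algebraMap K F a) a := by
  rw [esp_hasVal_iff, sub_self, map_zero]
  exact zero_lt_one

theorem esp_HasVal.le_one {P : Place K F} {f : F} {a : K} (h : esp_HasVal P f a) :
    P.adicValuation f ≤ 1 := by
  have h1 : f = (f - algebraMap K F a) + algebraMap K F a := by ring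
  rw [h1]
  exact le_trans (P.adicValuation.map_add _ _)
    (max_le (le_of_lt h) (P.adicValuation_algebraMap_le_one a))

theorem esp_HasVal.add {P : Place K F} {f g : F} {a b : K} (hf : esp_HasVal P f a)
    (hg : esp_HasVal P g b) : esp_HasVal P (f + g) (a + b) := by
  rw [esp_hasVal_iff, map_add]
  have h1 : f + g - (algebraMap K F a + algebraMap K F b)
      = (f - algebraMap K F a) + (g - algebraMap K F b) := by ring
  rw [h1]
  exact lt_of_le_of_lt (P.adicValuation.map_add _ _) (max_lt hf hg)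

theorem esp_HasVal.neg {P : Place K F} {f : F} {a : K} (hf : esp_HasVal P f a) :
    esp_HasVal P (-f) (-a) := by
  rw [esp_hasVal_iff, map_neg]
  have h1 : -f - -algebraMap K F a = -(f - algebraMap K F a) := by ring
  rw [h1, Valuation.map_neg]
  exact hf

theorem esp_HasVal.sub {P : Place K F} {f g : F} {a b : K} (hf : esp_HasVal P f a)
    (hg : esp_HasVal P g b) : esp_HasVal P (f - g) (a - b) := by
  rw [sub_eq_add_neg, sub_eq_add_neg]
  exact hf.add hg.neg

theorem esp_HasVal.mul {P : Place K F} {f g : F} {a b : K} (hf : esp_HasVal P f a)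
    (hg : esp_HasVal P g b) : esp_HasVal P (f * g) (a * b) := by
  rw [esp_hasVal_iff, map_mul]
  have h1 : f * g - algebraMap K F a * algebraMap K F b
      = (f - algebraMap K F a) * g + algebraMap K F a * (g - algebraMap K F b) := by ring
  rw [h1]
  refine lt_of_le_of_lt (P.adicValuation.map_add _ _) (max_lt ?_ ?_)
  · rw [map_mul]
    calc P.adicValuation (f - algebraMap K F a) * P.adicValuation g
        ≤ P.adicValuation (f - algebraMap K F a) * 1 := by gcongr; exact hg.le_one
      _ = P.adicValuation (f - algebraMap K F a) := mul_one _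
      _ < 1 := hf
  · rw [map_mul]
    calc P.adicValuation (algebraMap K F a) * P.adicValuation (g - algebraMap K F b)
        ≤ 1 * P.adicValuation (g - algebraMap K F b) := by
          gcongr; exact P.adicValuation_algebraMap_le_one a
      _ = P.adicValuation (g - algebraMap K F b) := one_mul _
      _ < 1 := hg

theorem esp_HasVal.pow {P : Place K F} {f : F} {a : K} (hf : esp_HasVal P f a) (n : ℕ) :
    esp_HasVal P (f ^ n) (a ^ n) := by
  induction n with
  | zero =>
    rw [pow_zero, pow_zero, ← map_one (algebraMap K F)]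
    exact esp_hasVal_algebraMap P 1
  | succ n ih =>
    rw [pow_succ, pow_succ]
    exact ih.mul hf

theorem esp_hasVal_prod {ι : Type*} (P : Place K F) (s : Finset ι) (f : ι → F) (a : ι → K)
    (h : ∀ i ∈ s, esp_HasVal P (f i) (a i)) : esp_HasVal P (∏ i ∈ s, f i) (∏ i ∈ s, a i) := by
  classical
  induction s using Finset.induction_on with
  | empty =>
    rw [Finset.prod_empty, Finset.prod_empty, ← map_one (algebraMap K F)]
    exact esp_hasVal_algebraMap P 1
  | insert i s hi ih =>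
    rw [Finset.prod_insert hi, Finset.prod_insert hi]
    exact (h i (Finset.mem_insert_self i s)).mul
      (ih fun j hj => h j (Finset.mem_insert_of_mem hj))

/-- the value of a function at a place is unique. -/
theorem esp_HasVal.unique {P : Place K F} {f : F} {a b : K} (ha : esp_HasVal P f a)
    (hb : esp_HasVal P f b) : a = b := by
  by_contra hab
  have hne : a - b ≠ 0 := sub_ne_zero.mpr hab
  have h1 : P.adicValuation (algebraMap K F (a - b)) = 1 := ts_val_algebraMap P hne
  have h2 : algebraMap K F (a - b) = (f - algebraMap K F b) - (f - algebraMap K F a) := by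
    rw [map_sub]; ring
  have h3 : P.adicValuation (algebraMap K F (a - b)) < 1 := by
    rw [h2]
    exact lt_of_le_of_lt (P.adicValuation.map_sub _ _) (max_lt hb ha)
  rw [h1] at h3
  exact lt_irrefl _ h3

/-- bridge to the `nonunits` shape (used by `pcrt_`). -/
theorem esp_hasVal_iff_mem_nonunits (P : Place K F) (f : F) (a : K) :
    esp_HasVal P f a ↔ f - algebraMap K F a ∈ P.toValuationSubring.nonunits := by
  rw [esp_hasVal_iff]
  set x := f - algebraMap K F a with hx
  constructor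
  · intro h
    have hmem : x ∈ P.toValuationSubring := by
      by_contra hn
      have hx0 : x ≠ 0 := fun h0 => hn (h0 ▸ P.toValuationSubring.zero_mem)
      have hinv : x⁻¹ ∈ P.toValuationSubring := (P.toValuationSubring.mem_or_inv_mem x).resolve_left hn
      have h1 := P.adicValuation_le_one_of_mem hinv
      rw [map_inv₀] at h1
      have h2 : 1 < (P.adicValuation x)⁻¹ :=
        (one_lt_inv₀ (zero_lt_iff.mpr (P.adicValuation_ne_zero hx0))).mpr h
      exact absurd h1 (not_le.mpr h2)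
    rw [ValuationSubring.mem_nonunits_iff_exists_mem_maximalIdeal]
    refine ⟨hmem, ?_⟩
    rw [IsLocalRing.mem_maximalIdeal, mem_nonunits_iff]
    intro hu
    have := (P.adicValuation_coe_eq_one_iff ⟨x, hmem⟩).mpr hu
    rw [this] at h
    exact lt_irrefl _ h
  · intro h
    rw [ValuationSubring.mem_nonunits_iff_exists_mem_maximalIdeal] at h
    obtain ⟨hmem, hmax⟩ := h
    rw [IsLocalRing.mem_maximalIdeal, mem_nonunits_iff] at hmax
    refine lt_of_le_of_ne (P.adicValuation_le_one_of_mem hmem) ?_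
    intro h1
    exact hmax ((P.adicValuation_coe_eq_one_iff ⟨x, hmem⟩).mp h1)

/-- values along a restriction of places: `(φ f)(w) = f(w|φ)`. -/
theorem esp_hasVal_restrictAlong {F' : Type*} [Field F'] [Algebra K F'] (φ : F →ₐ[K] F')
    (hφ : φ.toRingHom.IsIntegral) (w : Place K F') (f : F) (a : K) :
    esp_HasVal (w.restrictAlong φ hφ) f a ↔ esp_HasVal w (φ f) a := by
  rw [esp_hasVal_iff, esp_hasVal_iff, ts_val_lt_one_iff, ts_val_lt_one_iff]
  have h1 : φ f - algebraMap K F' a = φ (f - algebraMap K F a) := by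
    rw [map_sub, AlgHom.commutes]
  rw [h1, Place.ord_restrictAlong φ hφ w]
  have hpos : 0 < Place.ramificationIndexAlong φ w := by
    let _ := algebraAlong φ
    have := isScalarTower_along φ
    have := isIntegral_along φ hφ
    exact w.ramificationIndex_pos (F := F)
  have hpos' : (1 : ℤ) ≤ (Place.ramificationIndexAlong φ w : ℤ) := by exact_mod_cast hpos
  constructor
  · rintro (h | h)
    · left; rw [h, map_zero]
    · right; nlinarith
  · rintro (h | h)
    · left; exact (map_eq_zero_iff φ φ.toRingHom.injective).mp h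
    · right
      by_contra hlt
      rw [not_le] at hlt
      nlinarith

/-- values under a semilinear automorphism (restatement of `cfb_value_smul`). -/
theorem esp_HasVal.smul {P : Place K F} {f : F} {a : K} (h : esp_HasVal P f a)
    (g : SemilinearAut K F) : esp_HasVal (g • P) (g • f) (SemilinearAut.baseAut g a) :=
  cfb_value_smul g P f a h

end Value

section Main

variable {L k F Fb : Type*} [Field L] [Field k] [Field F] [Field Fb] [Algebra L F] [Algebra k Fb]

/-- **STEP 6 (hypothesis form)**: the Eichler–Shimura relation on places. -/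
theorem esp_sum_single_eq [Infinite k] {ι : Type*}
    (A : ValuationSubring L) (π : A →+* k) (hπ : Function.Surjective π)
    (W : ValuationSubring F) (ρ : W →+* Fb)
    (r : Place L F → Place k Fb)
    (σ : SemilinearAut k Fb) (ℓ : ℕ) (hσ : ∀ a : k, SemilinearAut.baseAut σ a = a ^ ℓ)
    (Cl : Set W) (S : Set (Place L F))
    (hval : ∀ y ∈ Cl, ∀ P' ∈ S, ∃ a : A,
      esp_HasVal P' (y : F) (a : L) ∧ esp_HasVal (r P') (ρ y) (π a))
    (P : Place L F) (hP : P ∈ S) (Ws : Finset ι) (Pt : ι → Place L F) (e : ι → ℕ)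
    (hPt : ∀ i ∈ Ws, Pt i ∈ S)
    (hnorm : ∀ y ∈ Cl, ∀ c : A, ∃ n ∈ Cl,
      (∀ a : ι → L, (∀ i ∈ Ws, esp_HasVal (Pt i) (y : F) (a i)) →
        esp_HasVal P (n : F) (∏ i ∈ Ws, ((c : L) - a i) ^ e i)) ∧
      ρ n = (algebraMap k Fb (π c) - (σ⁻¹ • ρ y) ^ ℓ) * (algebraMap k Fb (π c ^ ℓ) - σ • ρ y))
    (hsep : ∃ y ∈ Cl, ∃ v : Place k Fb → k,
      Set.InjOn v ((fun i => r (Pt i)) '' (Ws : Set ι) ∪ {σ • r P, σ⁻¹ • r P}) ∧
      ∀ Q ∈ (fun i => r (Pt i)) '' (Ws : Set ι) ∪ {σ • r P, σ⁻¹ • r P},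
        esp_HasVal Q (ρ y) (v Q)) :
    ∑ i ∈ Ws, Finsupp.single (r (Pt i)) (e i : ℤ)
      = Finsupp.single (σ • r P) 1 + Finsupp.single (σ⁻¹ • r P) (ℓ : ℤ) := by
  classical
  obtain ⟨y, hyCl, v, hvinj, hvval⟩ := hsep
  set T : Set (Place k Fb) := (fun i => r (Pt i)) '' (Ws : Set ι) ∪ {σ • r P, σ⁻¹ • r P} with hT
  have hT1 : σ • r P ∈ T := Or.inr (Or.inl rfl)
  have hT2 : σ⁻¹ • r P ∈ T := Or.inr (Or.inr rfl)
  have hTi : ∀ i ∈ Ws, r (Pt i) ∈ T := fun i hi => Or.inl ⟨i, hi, rfl⟩
  -- the values of `y` on the fibre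
  have hex : ∀ i : ι, ∃ a : A, i ∈ Ws → (esp_HasVal (Pt i) (y : F) (a : L) ∧ π a = v (r (Pt i))) := by
    intro i
    by_cases hi : i ∈ Ws
    · obtain ⟨a, ha1, ha2⟩ := hval y hyCl (Pt i) (hPt i hi)
      exact ⟨a, fun _ => ⟨ha1, ha2.unique (hvval _ (hTi i hi))⟩⟩
    · exact ⟨0, fun h => absurd h hi⟩
  choose a ha using hex
  -- the two families
  let p₂ : Fin 2 → Place k Fb := ![σ • r P, σ⁻¹ • r P]
  let w₂ : Fin 2 → ℕ := ![1, ℓ]
  have key := essc_sum_single_eq_of_injOn (ι₁ := ↥Ws) (ι₂ := Fin 2) v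
    (fun i => r (Pt i.1)) (fun i => e i.1) p₂ w₂ ?_ ?_
  · rw [Finset.sum_coe_sort Ws (fun i => Finsupp.single (r (Pt i)) (e i : ℤ)), Fin.sum_univ_two]
      at key
    simpa [p₂, w₂] using key
  · -- injectivity
    refine hvinj.mono ?_
    rintro Q (⟨i, rfl⟩ | ⟨j, rfl⟩)
    · exact hTi i.1 i.2
    · fin_cases j
      · exact hT1
      · exact hT2
  · -- the polynomial identity
    intro cb
    obtain ⟨c, rfl⟩ := hπ cb
    obtain ⟨n, hnCl, hn1, hn2⟩ := hnorm y hyCl c
    have hnP := hn1 (fun i => (a i : L)) (fun i hi => (ha i hi).1)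
    obtain ⟨b, hb1, hb2⟩ := hval n hnCl P hP
    have hbL : (b : L) = ∏ i ∈ Ws, ((c : L) - (a i : L)) ^ e i := hb1.unique hnP
    have hbA : b = ∏ i ∈ Ws, (c - a i) ^ e i := by
      apply Subtype.ext
      rw [hbL]
      push_cast
      rfl
    have hπb : π b = ∏ i ∈ Ws, (π c - v (r (Pt i))) ^ e i := by
      rw [hbA, map_prod]
      refine Finset.prod_congr rfl fun i hi => ?_
      rw [map_pow, map_sub, (ha i hi).2]
    -- the other side
    set b₁ := v (σ • r P) with hb₁
    set b₂ := v (σ⁻¹ • r P) with hb₂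
    have hv1 : esp_HasVal (r P) ((σ⁻¹ • ρ y) ^ ℓ) b₁ := by
      have h1 := (hvval _ hT1).smul σ⁻¹
      rw [inv_smul_smul] at h1
      have h2 := h1.pow ℓ
      have h3 : (SemilinearAut.baseAut σ⁻¹ b₁) ^ ℓ = b₁ := by
        rw [← hσ, SemilinearAut.baseAut_inv, RingEquiv.apply_symm_apply]
      rwa [h3] at h2
    have hv2 : esp_HasVal (r P) (σ • ρ y) (b₂ ^ ℓ) := by
      have h1 := (hvval _ hT2).smul σ
      rw [smul_inv_smul, hσ] at h1
      exact h1
    have hv3 : esp_HasVal (r P) (ρ n) ((π c - b₁) * (π c ^ ℓ - b₂ ^ ℓ)) := by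
      rw [hn2]
      exact ((esp_hasVal_algebraMap _ _).sub hv1).mul ((esp_hasVal_algebraMap _ _).sub hv2)
    have hfin : π b = (π c - b₁) * (π c ^ ℓ - b₂ ^ ℓ) := hb2.unique hv3
    have hfrob : π c ^ ℓ - b₂ ^ ℓ = (π c - b₂) ^ ℓ := by
      rw [← hσ, ← hσ, ← hσ, map_sub]
    rw [Finset.prod_coe_sort Ws (fun i => (π c - v (r (Pt i))) ^ e i), ← hπb, hfin, hfrob,
      Fin.prod_univ_two]
    simp [p₂, w₂, hb₁, hb₂]

/-- **STEP 5+6 (hypothesis form)** for the Prelude correspondence `ψ_* φ^*` (for `T_ℓ`: `φ = β`,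
`ψ = α`): `r_* (T (P)) = [σ • r P] + ℓ • [σ⁻¹ • r P]`. -/
theorem esp_mapDomain_correspondence [Infinite k] {F' : Type*} [Field F'] [Algebra L F']
    [HasPrincipalDivisors L F']
    (φ ψ : F →ₐ[L] F') (hφ : φ.toRingHom.IsIntegral) (hψ : ψ.toRingHom.IsIntegral)
    (hF : ∀ v : Place L F, v.deg = 1) (hF' : ∀ w : Place L F', w.deg = 1)
    (A : ValuationSubring L) (π : A →+* k) (hπ : Function.Surjective π)
    (W : ValuationSubring F) (ρ : W →+* Fb)
    (r : Place L F → Place k Fb)
    (σ : SemilinearAut k Fb) (ℓ : ℕ) (hσ : ∀ a : k, SemilinearAut.baseAut σ a = a ^ ℓ)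
    (Cl : Set W) (S : Set (Place L F))
    (hval : ∀ y ∈ Cl, ∀ P' ∈ S, ∃ a : A,
      esp_HasVal P' (y : F) (a : L) ∧ esp_HasVal (r P') (ρ y) (π a))
    (P : Place L F) (hP : P ∈ S)
    (hstab : ∀ w ∈ Place.fiberAlong φ hφ P, w.restrictAlong ψ hψ ∈ S)
    (hnorm : ∀ y ∈ Cl, ∀ c : A, ∃ n ∈ Cl,
      (∀ a : Place L F' → L, (∀ w ∈ Place.fiberAlong φ hφ P, esp_HasVal w (ψ (y : F)) (a w)) →
        esp_HasVal P (n : F)
          (∏ w ∈ Place.fiberAlong φ hφ P, ((c : L) - a w) ^ w.ramificationIndexAlong φ)) ∧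
      ρ n = (algebraMap k Fb (π c) - (σ⁻¹ • ρ y) ^ ℓ) * (algebraMap k Fb (π c ^ ℓ) - σ • ρ y))
    (hsep : ∃ y ∈ Cl, ∃ v : Place k Fb → k,
      Set.InjOn v ((fun w : Place L F' => r (w.restrictAlong ψ hψ)) ''
          (Place.fiberAlong φ hφ P : Set (Place L F')) ∪ {σ • r P, σ⁻¹ • r P}) ∧
      ∀ Q ∈ (fun w : Place L F' => r (w.restrictAlong ψ hψ)) ''
          (Place.fiberAlong φ hφ P : Set (Place L F')) ∪ {σ • r P, σ⁻¹ • r P},
        esp_HasVal Q (ρ y) (v Q)) :
    Finsupp.mapDomain r (Divisor.correspondence φ ψ hφ hψ (Finsupp.single P 1))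
      = Finsupp.single (σ • r P) 1 + Finsupp.single (σ⁻¹ • r P) (ℓ : ℤ) := by
  rw [hku_correspondence_single_of_deg_one φ ψ hφ hψ hF hF' P 1, Finsupp.mapDomain_finsetSum]
  simp only [Finsupp.mapDomain_single, one_mul]
  refine esp_sum_single_eq A π hπ W ρ r σ ℓ hσ Cl S hval P hP (Place.fiberAlong φ hφ P)
    (fun w => w.restrictAlong ψ hψ) (fun w => w.ramificationIndexAlong φ) hstab ?_ hsep
  intro y hy c
  obtain ⟨n, hnCl, hn1, hn2⟩ := hnorm y hy c
  refine ⟨n, hnCl, fun a ha => hn1 a fun w hw => ?_, hn2⟩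
  exact (esp_hasVal_restrictAlong ψ hψ w (y : F) (a w)).mp (ha w hw)

end Main

end Fermat.Agent.S37x
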