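/-
S37 prep, block [B3] generic leaf (helper95): **value of a norm modulo a maximal ideal**,
abstract commutative-algebra core (Mathlib only).

`R` a local ring with maximal ideal `p`, `S` a Dedekind domain which is a finite free `R`-module.
If `b : S` is congruent to `r P : R` modulo every prime `P` of `S` over `p`, and all these primes
have residue degree one, then `N_{S/R}(b) ≡ ∏_P (r P) ^ e(P|p)  (mod p)`.

Route: reduction of the norm modulo `p` (`nv37_norm_quotient`), the Chinese remainder
decomposition `S ⧸ pS ≃ ∏ S ⧸ P ^ e` (Mathlib `Ideal.Factors.piQuotientLinearEquiv`), the norm on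
a finite product of algebras (`nv37_norm_pi`, from the dependent determinant formula
`nv37_det_pi`), and the norm of scalar + nilpotent (`nv37_norm_of_nilpotent_sub`).

All names carry the prefix `nv37_`.
-/
import Mathlib

set_option autoImplicit false
set_option linter.deprecated false

namespace Fermat.Agent.S37x

universe u v

section DetPi

theorem nv37_piCongrLeft_apply {k : Type*} [CommRing k] {α β : Type*} (M : β → Type*)
    [∀ i, AddCommGroup (M i)] [∀ i, Module k (M i)] (e : α ≃ β) (g : ∀ a, M (e a)) (a : α) :
    LinearEquiv.piCongrLeft k M e g (e a) = g a :=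
  Equiv.piCongrLeft_apply_apply (P := M) e g a

theorem nv37_piCongrLeft_symm_apply {k : Type*} [CommRing k] {α β : Type*} (M : β → Type*)
    [∀ i, AddCommGroup (M i)] [∀ i, Module k (M i)] (e : α ≃ β) (x : ∀ b, M b) (a : α) :
    (LinearEquiv.piCongrLeft k M e).symm x a = x (e a) :=
  Equiv.piCongrLeft_symm_apply (P := M) e x a

/-- determinant of a "diagonal" endomorphism of a dependent finite product of finite free
modules. -/
theorem nv37_det_pi (k : Type*) [CommRing k] :
    ∀ (ι : Type u) [Fintype ι] (M : ι → Type v) [∀ i, AddCommGroup (M i)] [∀ i, Module k (M i)]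
      [∀ i, Module.Free k (M i)] [∀ i, Module.Finite k (M i)] (f : ∀ i, M i →ₗ[k] M i),
      LinearMap.det (LinearMap.pi fun i => (f i).comp (LinearMap.proj i)) =
        ∏ i, LinearMap.det (f i) := by
  intro ι _
  refine Fintype.induction_empty_option (P := fun (ι : Type u) [Fintype ι] =>
    ∀ (M : ι → Type v) [∀ i, AddCommGroup (M i)] [∀ i, Module k (M i)]
      [∀ i, Module.Free k (M i)] [∀ i, Module.Finite k (M i)] (f : ∀ i, M i →ₗ[k] M i),
      LinearMap.det (LinearMap.pi fun i => (f i).comp (LinearMap.proj i)) =
        ∏ i, LinearMap.det (f i)) ?_ ?_ ?_ ι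
  · intro α β _ e h M _ _ _ _ f
    let _ : Fintype α := Fintype.ofEquiv β e.symm
    have h1 := h (fun a => M (e a)) (fun a => f (e a))
    have h2 : (LinearMap.pi fun i => (f i).comp (LinearMap.proj i)) =
        ((LinearEquiv.piCongrLeft k M e : _ →ₗ[k] _) ∘ₗ
          (LinearMap.pi fun a => (f (e a)).comp (LinearMap.proj a)) ∘ₗ
          ((LinearEquiv.piCongrLeft k M e).symm : _ →ₗ[k] _)) := by
      apply LinearMap.ext
      intro x
      funext b
      obtain ⟨a, rfl⟩ := e.surjective b
      simp only [LinearMap.pi_apply, LinearMap.comp_apply, LinearMap.proj_apply,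
        LinearEquiv.coe_coe, nv37_piCongrLeft_apply, nv37_piCongrLeft_symm_apply]
    rw [h2, LinearMap.det_conj, h1]
    exact Fintype.prod_equiv e _ _ (fun _ => rfl)
  · intro M _ _ _ _ f
    rw [LinearMap.det_eq_one_of_subsingleton]
    simp
  · intro α _ h M _ _ _ _ f
    have h1 := h (fun a => M (some a)) (fun a => f (some a))
    have h2 : (LinearMap.pi fun i => (f i).comp (LinearMap.proj i)) =
        (((LinearEquiv.piOptionEquivProd k (M := M)).symm : _ →ₗ[k] _) ∘ₗ
          (LinearMap.prodMap (f none)
            (LinearMap.pi fun a => (f (some a)).comp (LinearMap.proj a))) ∘ₗ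
          ((LinearEquiv.piOptionEquivProd k (M := M)).symm.symm : _ →ₗ[k] _)) := by
      apply LinearMap.ext
      intro x
      funext b
      cases b <;> simp [LinearEquiv.piOptionEquivProd]
    rw [h2, LinearMap.det_conj, LinearMap.det_prodMap, h1, Fintype.prod_option]

/-- the norm on a finite product of finite free algebras is the product of the norms. -/
theorem nv37_norm_pi (k : Type*) [CommRing k] {ι : Type u} [Fintype ι] (A : ι → Type v)
    [∀ i, CommRing (A i)] [∀ i, Algebra k (A i)] [∀ i, Module.Free k (A i)]
    [∀ i, Module.Finite k (A i)] (x : ∀ i, A i) :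
    Algebra.norm k x = ∏ i, Algebra.norm k (x i) := by
  have h : Algebra.lmul k (∀ i, A i) x =
      LinearMap.pi fun i => (Algebra.lmul k (A i) (x i)).comp (LinearMap.proj i) := by
    apply LinearMap.ext
    intro y
    funext i
    simp
  rw [Algebra.norm_apply, h, nv37_det_pi]
  simp [Algebra.norm_apply]

end DetPi

section Block

theorem nv37_toMatrix_lmul_algebraMap {k : Type*} [CommRing k] {A : Type*} [CommRing A]
    [Algebra k A] {m : Type*} [Fintype m] [DecidableEq m] (b : Module.Basis m k A) (c : k) :
    LinearMap.toMatrix b b (Algebra.lmul k A (algebraMap k A c)) = Matrix.scalar m c := by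
  ext i j
  rw [LinearMap.toMatrix_apply]
  simp [Matrix.scalar_apply, Matrix.diagonal_apply, Finsupp.single_apply, eq_comm]

/-- an element of a finite free algebra which differs from a scalar `c` by a nilpotent element
has norm `c ^ rank`. -/
theorem nv37_norm_of_nilpotent_sub {k : Type*} [CommRing k] [IsDomain k] {A : Type*} [CommRing A]
    [Algebra k A] [Module.Free k A] [Module.Finite k A] (x : A) (c : k)
    (h : IsNilpotent (x - algebraMap k A c)) :
    Algebra.norm k x = c ^ Module.finrank k A := by
  classical
  set b := Module.Free.chooseBasis k A with hb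
  have hN : IsNilpotent (Algebra.lmul k A (algebraMap k A c - x)) := by
    have : algebraMap k A c - x = -(x - algebraMap k A c) := by ring
    rw [this]
    exact (h.neg).map (Algebra.lmul k A)
  have hchar := hN.charpoly_eq_X_pow_finrank
  have h1 : Algebra.norm k x =
      Polynomial.eval c (Algebra.lmul k A (algebraMap k A c - x)).charpoly := by
    rw [← LinearMap.charpoly_toMatrix _ b, Matrix.eval_charpoly, Algebra.norm_apply,
      ← LinearMap.det_toMatrix b]
    congr 1
    rw [map_sub, map_sub, nv37_toMatrix_lmul_algebraMap, sub_sub_cancel]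
  rw [h1, hchar]
  simp

end Block

section Quotient

/-- reduction of the norm modulo the maximal ideal of a local ring. -/
theorem nv37_norm_quotient {R S : Type*} [CommRing R] [CommRing S] [Algebra R S] [IsLocalRing R]
    [Module.Finite R S] [Module.Free R S] (x : S) :
    Algebra.norm (R ⧸ IsLocalRing.maximalIdeal R)
        (Ideal.Quotient.mk ((IsLocalRing.maximalIdeal R).map (algebraMap R S)) x) =
      Ideal.Quotient.mk (IsLocalRing.maximalIdeal R) (Algebra.norm R x) := by
  classical
  set b := Module.Free.chooseBasis R S with hb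
  rw [Algebra.norm_eq_matrix_det b, Algebra.norm_eq_matrix_det (IsLocalRing.basisQuotient b),
    RingHom.map_det]
  congr 1
  ext i j
  rw [RingHom.mapMatrix_apply, Matrix.map_apply, Algebra.leftMulMatrix_eq_repr_mul,
    Algebra.leftMulMatrix_eq_repr_mul, IsLocalRing.basisQuotient_apply, ← map_mul,
    IsLocalRing.basisQuotient_repr]

end Quotient

section Main

open Ideal UniqueFactorizationMonoid

/-- **Value of a norm modulo the maximal ideal** (abstract form): `R` local, `S` a Dedekind domain,
finite free over `R`; if `b ≡ r P` modulo every prime `P` of `S` over the maximal ideal `p` of `R`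
and all these primes have residue degree one, then `N(b) ≡ ∏ P, r P ^ e(P)` modulo `p`. -/
theorem nv37_norm_mod_factors {R S : Type*} [CommRing R] [CommRing S] [Algebra R S]
    [IsLocalRing R] [IsDedekindDomain S] [Module.Finite R S] [Module.Free R S]
    (hp : (IsLocalRing.maximalIdeal R).map (algebraMap R S) ≠ ⊥) (b : S) (r : Ideal S → R)
    (hr : ∀ P ∈ (factors ((IsLocalRing.maximalIdeal R).map (algebraMap R S))).toFinset,
      b - algebraMap R S (r P) ∈ P)
    (hf : ∀ P ∈ (factors ((IsLocalRing.maximalIdeal R).map (algebraMap R S))).toFinset,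
      (IsLocalRing.maximalIdeal R).inertiaDeg' P = 1) :
    Ideal.Quotient.mk (IsLocalRing.maximalIdeal R) (Algebra.norm R b) =
      ∏ P ∈ (factors ((IsLocalRing.maximalIdeal R).map (algebraMap R S))).toFinset,
        Ideal.Quotient.mk (IsLocalRing.maximalIdeal R) (r P) ^
          (IsLocalRing.maximalIdeal R).ramificationIdx' P := by
  classical
  set p := IsLocalRing.maximalIdeal R with hpdef
  let _ : Field (R ⧸ p) := Ideal.Quotient.field p
  -- the CRT decomposition as an algebra isomorphism
  let e := Factors.piQuotientLinearEquiv S p hp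
  have he_mk : ∀ x : S, e (Ideal.Quotient.mk _ x) = fun _ => Ideal.Quotient.mk _ x :=
    fun x => Factors.piQuotientEquiv_mk p hp x
  let E : (S ⧸ map (algebraMap R S) p) ≃ₐ[R ⧸ p]
      ∀ P : (factors (map (algebraMap R S) p)).toFinset,
        S ⧸ (P : Ideal S) ^ p.ramificationIdx' P.1 :=
    AlgEquiv.ofLinearEquiv e (map_one (Factors.piQuotientEquiv p hp))
      (map_mul (Factors.piQuotientEquiv p hp))
  rw [← nv37_norm_quotient, ← Algebra.norm_eq_of_algEquiv E, nv37_norm_pi,
    ← Finset.prod_coe_sort (factors (map (algebraMap R S) p)).toFinset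
      (fun P => Ideal.Quotient.mk p (r P) ^ p.ramificationIdx' P)]
  refine Finset.prod_congr rfl fun P _ => ?_
  have hEP : E (Ideal.Quotient.mk _ b) P = Ideal.Quotient.mk _ b := congrFun (he_mk b) P
  rw [hEP]
  rw [nv37_norm_of_nilpotent_sub (Ideal.Quotient.mk _ b) (Ideal.Quotient.mk p (r P.1)),
    Factors.finrank_pow_ramificationIdx, hf P.1 P.2, mul_one]
  refine ⟨p.ramificationIdx' P.1, ?_⟩
  rw [Quotient.algebraMap_quotient_pow_ramificationIdx, ← map_sub, ← map_pow,
    Ideal.Quotient.eq_zero_iff_mem]
  exact Ideal.pow_mem_pow (hr P.1 P.2) _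

/-- the same statement for an ideal `p` *equal to* the maximal ideal (convenient when `p` is given
as `Ideal.span {π}`). -/
theorem nv37_norm_mod_factors' {R S : Type*} [CommRing R] [CommRing S] [Algebra R S]
    [IsLocalRing R] [IsDedekindDomain S] [Module.Finite R S] [Module.Free R S]
    (p : Ideal R) (hpm : p = IsLocalRing.maximalIdeal R)
    (hp : p.map (algebraMap R S) ≠ ⊥) (b : S) (r : Ideal S → R)
    (hr : ∀ P ∈ (factors (p.map (algebraMap R S))).toFinset, b - algebraMap R S (r P) ∈ P)
    (hf : ∀ P ∈ (factors (p.map (algebraMap R S))).toFinset, p.inertiaDeg' P = 1) :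
    Ideal.Quotient.mk p (Algebra.norm R b) =
      ∏ P ∈ (factors (p.map (algebraMap R S))).toFinset,
        Ideal.Quotient.mk p (r P) ^ p.ramificationIdx' P := by
  subst hpm
  exact nv37_norm_mod_factors hp b r hr hf

end Main

end Fermat.Agent.S37x
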