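/-
S37 prep, block [B3] generic leaf (helper95): **value of a norm at a place**
(helper60 blueprint STEP 4 = helper44 blueprint (K2) = helper12 blueprint (E)).

`F'/F` a finite extension of function fields over an algebraically closed field `K` of
characteristic zero (Prelude `Place` API), `v` a place of `F` with residue field `K`.
If `g : F'` is regular at every place `w | v` with value `c w : K`
(i.e. `w.adicValuation (g - c w) < 1`), then `N_{F'/F}(g)` is regular at `v` with value
`∏_{w | v} (c w) ^ e(w|v)`:

  `nv37_norm_value`, `nv37_norm_value_ord` (ord form), `nv37_norm_sub_value` (for `t - g`, i.e. the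
  characteristic polynomial evaluated at constants), `nv37_norm_value_along` (for `φ : F →ₐ[K] F'`,
  the shape of `ModularCurve.HeckeInputsAlong` / `Divisor.correspondence`).

Route: `A = v.toValuationSubring`, `S =` integral closure of `A` in `F'` (Dedekind, finite free over
`A`), dictionary places over `v` <-> primes of `S` over `m_A` (S24x `fid_*`, helper32 `fia_*`), and
the abstract core `nv37_norm_mod_factors'` (`NormValAbs.lean`).

All names carry the prefix `nv37_`.
-/
import Mathlib
import Fermat.Prelude.Def_AlgebraicCurve_Correspondence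
import Fermat.Agent.S24x.FundIdentity
import Fermat.Agent.S24x.LayerA
import Fermat.Agent.S37x.FundIdAlong
import Fermat.Agent.S37x.NormValAbs

set_option autoImplicit false
set_option linter.deprecated false

namespace Fermat.Agent.S37x

open AlgebraicCurve IsDedekindDomain Fermat.Agent.S24x

section Basic

variable {K F : Type*} [Field K] [Field F] [Algebra K F]

/-- `x` lies in the maximal ideal of the valuation ring of `v` iff `v.adicValuation x < 1`. -/
theorem nv37_adic_lt_one_iff (v : Place K F) (x : F) :
    v.adicValuation x < 1 ↔ ∃ hx : x ∈ v.toValuationSubring,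
      (⟨x, hx⟩ : v.toValuationSubring) ∈ IsLocalRing.maximalIdeal v.toValuationSubring := by
  constructor
  · intro h
    have hx : x ∈ v.toValuationSubring := by
      rcases eq_or_ne x 0 with rfl | hx0
      · exact v.toValuationSubring.zero_mem
      · exact fid_mem_of_ord_nonneg v ((gc_ord_pos_iff v hx0).mpr h).le
    refine ⟨hx, ?_⟩
    have h2 := v.adicValuation_coe ⟨x, hx⟩
    simp only at h2
    rw [h2] at h
    exact (HeightOneSpectrum.intValuation_lt_one_iff_mem _ _).mp h
  · rintro ⟨hx, hm⟩
    have h2 := v.adicValuation_coe ⟨x, hx⟩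
    simp only at h2
    rw [h2]
    exact (HeightOneSpectrum.intValuation_lt_one_iff_mem _ _).mpr hm

theorem nv37_mem_of_adic_lt_one (v : Place K F) {x : F} (h : v.adicValuation x < 1) :
    x ∈ v.toValuationSubring :=
  ((nv37_adic_lt_one_iff v x).mp h).1

/-- the `ord` form of vanishing at a place. -/
theorem nv37_adic_lt_one_iff_ord (v : Place K F) (x : F) :
    v.adicValuation x < 1 ↔ x = 0 ∨ 0 < v.ord x := by
  rcases eq_or_ne x 0 with rfl | hx0
  · simp
  · rw [gc_ord_pos_iff v hx0]
    simp [hx0]

variable {S : Type*} [CommRing S] [IsDedekindDomain S] [Algebra S F] [IsFractionRing S F]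
  [Algebra K S] [IsScalarTower K S F]

/-- vanishing at the place attached to a maximal ideal `Q` of a Dedekind model is membership
in `Q`. -/
theorem nv37_adic_lt_one_ofHeightOneSpectrum (Q : HeightOneSpectrum S) (s : S) :
    (Place.ofHeightOneSpectrum (K := K) Q).adicValuation (algebraMap S F s) < 1 ↔
      s ∈ Q.asIdeal := by
  rcases eq_or_ne s 0 with rfl | hs
  · simp
  · have h0 : algebraMap S F s ≠ 0 := by
      simpa using (IsFractionRing.injective S F).ne hs
    rw [← gc_ord_pos_iff (Place.ofHeightOneSpectrum (K := K) (F := F) Q) h0,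
      fid_mem_asIdeal_iff (K := K) (F := F) Q hs]

end Basic

section Abstract

variable {K F : Type*} [Field K] [Field F] [Algebra K F]
variable {A S : Type*} [CommRing A] [CommRing S] [IsDomain A] [IsDedekindDomain S]
  [Algebra A S] [Algebra A F] [Algebra S F] [IsScalarTower A S F] [IsFractionRing S F]
  [Module.Finite A S] [FaithfulSMul A S]
  [Algebra K A] [Algebra K S] [IsScalarTower K A S] [IsScalarTower K S F]
  [IsLocalRing A] [Module.Free A S]

open UniqueFactorizationMonoid in
theorem nv37_norm_mod_places [IsAlgClosed K]
    (hS : ∀ v : Place K F, (∀ x : A, algebraMap A F x ∈ v.toValuationSubring) →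
      ∀ s : S, algebraMap S F s ∈ v.toValuationSubring)
    (a : A) (ha0 : a ≠ 0) (hspan : Ideal.span {a} = IsLocalRing.maximalIdeal A)
    (hres : Function.Surjective (algebraMap K (A ⧸ Ideal.span {a})))
    (s : S) (c : Place K F → K)
    (hfin : (fidZeros K (F := F) a).Finite)
    (hc : ∀ w ∈ fidZeros K (F := F) a,
      w.adicValuation (algebraMap S F s - algebraMap K F (c w)) < 1) :
    Algebra.norm A s - algebraMap K A
        (∏ w ∈ hfin.toFinset, c w ^ (w.ord (algebraMap A F a)).toNat) ∈
      IsLocalRing.maximalIdeal A := by
  classical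
  set p : Ideal A := Ideal.span {a} with hpdef
  have hmax : p.IsMaximal := by rw [hspan]; exact IsLocalRing.maximalIdeal.isMaximal A
  have hp0 : p ≠ ⊥ := by rw [Ne, hpdef, Ideal.span_singleton_eq_bot]; exact ha0
  have hinj : Function.Injective (algebraMap A S) := FaithfulSMul.algebraMap_injective A S
  have hmapne : p.map (algebraMap A S) ≠ ⊥ := by
    rw [Ne, Ideal.map_eq_bot_iff_of_injective hinj]; exact hp0
  have hrange := fid_range_placeOf (K := K) (F := F) (S := S) hS a ha0 hmax hp0
  have hPinj := fid_placeOf_injective (K := K) (F := F) (S := S) hp0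
  have hmemF : ∀ Q : Ideal S, Q ∈ (factors (p.map (algebraMap A S))).toFinset ↔
      Q ∈ p.primesOver S := fun Q => IsDedekindDomain.mem_primesOverFinset_iff hp0 S
  -- the residues
  let r : Ideal S → A := fun Q =>
    if h : Q ∈ p.primesOver S then algebraMap K A (c (fidPlaceOf K (F := F) hp0 ⟨Q, h⟩)) else 0
  have hr : ∀ Q ∈ (factors (p.map (algebraMap A S))).toFinset,
      s - algebraMap A S (r Q) ∈ Q := by
    intro Q hQ
    have hQ' : Q ∈ p.primesOver S := (hmemF Q).mp hQ
    have hw : fidPlaceOf K (F := F) hp0 ⟨Q, hQ'⟩ ∈ fidZeros K (F := F) a := by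
      rw [← hrange]; exact ⟨_, rfl⟩
    have h1 := hc _ hw
    have hrQ : r Q = algebraMap K A (c (fidPlaceOf K (F := F) hp0 ⟨Q, hQ'⟩)) := dif_pos hQ'
    have h2 : algebraMap S F s - algebraMap K F (c (fidPlaceOf K (F := F) hp0 ⟨Q, hQ'⟩)) =
        algebraMap S F (s - algebraMap A S (r Q)) := by
      rw [map_sub, hrQ, ← IsScalarTower.algebraMap_apply K A S,
        ← IsScalarTower.algebraMap_apply K S F]
    rw [h2] at h1
    exact (nv37_adic_lt_one_ofHeightOneSpectrum (K := K) (F := F) _ _).mp h1
  have hf : ∀ Q ∈ (factors (p.map (algebraMap A S))).toFinset, p.inertiaDeg' Q = 1 := by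
    intro Q hQ
    have hQ' : Q ∈ p.primesOver S := (hmemF Q).mp hQ
    have := hQ'.1
    have := hQ'.2
    have hQbot : Q ≠ ⊥ := Ideal.ne_bot_of_liesOver_of_ne_bot hp0 Q
    have : Q.IsMaximal := hQ'.1.isMaximal hQbot
    rw [Ideal.inertiaDeg'_eq_inertiaDeg p Q]
    exact fid_inertiaDeg_eq_one (K := K) p hres Q
  have key := nv37_norm_mod_factors' p hspan hmapne s r hr hf
  rw [← hspan, ← Ideal.Quotient.mk_eq_mk_iff_sub_mem, key]
  have hprod : Ideal.Quotient.mk p (algebraMap K A
        (∏ w ∈ hfin.toFinset, c w ^ (w.ord (algebraMap A F a)).toNat)) =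
      ∏ w ∈ hfin.toFinset, Ideal.Quotient.mk p (algebraMap K A
        (c w ^ (w.ord (algebraMap A F a)).toNat)) := by
    rw [map_prod, map_prod]
  rw [hprod]
  refine Finset.prod_bij
    (fun Q hQ => fidPlaceOf K (F := F) hp0 ⟨Q, (hmemF Q).mp hQ⟩) ?_ ?_ ?_ ?_
  · intro Q hQ
    rw [Set.Finite.mem_toFinset, ← hrange]
    exact ⟨_, rfl⟩
  · intro Q₁ hQ₁ Q₂ hQ₂ h
    exact congrArg Subtype.val (hPinj h)
  · intro w hw
    rw [Set.Finite.mem_toFinset, ← hrange] at hw
    obtain ⟨⟨Q, hQ⟩, rfl⟩ := hw
    exact ⟨Q, (hmemF Q).mpr hQ, rfl⟩
  · intro Q hQ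
    have hQ' : Q ∈ p.primesOver S := (hmemF Q).mp hQ
    have hrQ : r Q = algebraMap K A (c (fidPlaceOf K (F := F) hp0 ⟨Q, hQ'⟩)) := dif_pos hQ'
    have := hQ'.1
    have := hQ'.2
    have hQbot : Q ≠ ⊥ := Ideal.ne_bot_of_liesOver_of_ne_bot hp0 Q
    have hmt : Module.IsTorsionFree A S := inferInstance
    have he : p.ramificationIdx' Q = Q.ramificationIdx A :=
      Ideal.ramificationIdx'_eq_ramificationIdx p Q hp0
    have hord : (fidPlaceOf K (F := F) hp0 ⟨Q, hQ'⟩).ord (algebraMap A F a) =
        (Q.ramificationIdx A : ℤ) := by
      unfold fidPlaceOf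
      have : (HeightOneSpectrum.mk Q hQ'.1 hQbot).asIdeal.LiesOver (Ideal.span {a}) := hQ'.2
      exact fid_ord_eq_ramificationIdx (K := K) (F := F) a ha0 ⟨Q, hQ'.1, hQbot⟩
    rw [map_pow, map_pow, hrQ, hord, he, Int.toNat_natCast]

end Abstract

section Main

variable {K F F' : Type*} [Field K] [Field F] [Field F']
  [Algebra K F] [Algebra K F'] [Algebra F F'] [IsScalarTower K F F']

/-- **Value of a norm at a place.**  `F'/F` a finite extension of function fields over an
algebraically closed field `K` of characteristic zero, `v` a place of `F` with residue field `K`.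
If `g : F'` is regular at every place `w` of `F'` over `v`, with value `c w : K` there, then
`N_{F'/F}(g)` is regular at `v` with value `∏_{w | v} (c w) ^ e(w|v)`. -/
theorem nv37_norm_value [IsAlgClosed K] [CharZero K] [Module.Finite F F']
    [Algebra.IsIntegral F F'] [HasPrincipalDivisors K F'] (v : Place K F)
    (hres : Function.Surjective (algebraMap K v.ResidueField)) (g : F') (c : Place K F' → K)
    (hc : ∀ w ∈ v.fiber F', w.adicValuation (g - algebraMap K F' (c w)) < 1) :
    v.adicValuation (Algebra.norm F g -
      algebraMap K F (∏ w ∈ v.fiber F', c w ^ w.ramificationIndex F)) < 1 := by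
  classical
  have : CharZero F := charZero_of_injective_algebraMap (algebraMap K F).injective
  have := fia_isScalarTower_K (F' := F') v
  let _ : Algebra K (integralClosure v.toValuationSubring F') :=
    ((algebraMap v.toValuationSubring (integralClosure v.toValuationSubring F')).comp
      (algebraMap K v.toValuationSubring)).toAlgebra
  have : IsScalarTower K v.toValuationSubring (integralClosure v.toValuationSubring F') :=
    IsScalarTower.of_algebraMap_eq fun _ => rfl
  have : IsScalarTower K (integralClosure v.toValuationSubring F') F' :=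
    IsScalarTower.of_algebraMap_eq fun a => by
      rw [IsScalarTower.algebraMap_apply K v.toValuationSubring F']
      rfl
  have : FaithfulSMul v.toValuationSubring (integralClosure v.toValuationSubring F') := by
    rw [faithfulSMul_iff_algebraMap_injective]
    intro x y h
    have h2 := congrArg (algebraMap (integralClosure v.toValuationSubring F') F') h
    have h3 : algebraMap F F' (x : F) = algebraMap F F' (y : F) := h2
    exact Subtype.ext ((algebraMap F F').injective h3)
  have : IsDedekindDomain (integralClosure v.toValuationSubring F') :=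
    integralClosure.isDedekindDomain v.toValuationSubring F F'
  have : IsFractionRing (integralClosure v.toValuationSubring F') F' :=
    integralClosure.isFractionRing_of_finite_extension F F'
  have : Module.Finite v.toValuationSubring (integralClosure v.toValuationSubring F') :=
    IsIntegralClosure.finite v.toValuationSubring F F' _
  have : Module.Free v.toValuationSubring (integralClosure v.toValuationSubring F') :=
    inferInstance
  have : IsLocalization (Algebra.algebraMapSubmonoid (integralClosure v.toValuationSubring F')
      (nonZeroDivisors v.toValuationSubring)) F' :=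
    IsIntegralClosure.isLocalization v.toValuationSubring F F' _
  obtain ⟨π, hπ⟩ := IsDiscreteValuationRing.exists_irreducible v.toValuationSubring
  have hspan : Ideal.span {π} = IsLocalRing.maximalIdeal v.toValuationSubring :=
    hπ.maximalIdeal_eq.symm
  have hmax : (Ideal.span {π}).IsMaximal := by
    rw [hspan]; exact IsLocalRing.maximalIdeal.isMaximal _
  have hp0 : Ideal.span {π} ≠ ⊥ := by
    rw [Ne, Ideal.span_singleton_eq_bot]; exact hπ.ne_zero
  have hres' : Function.Surjective (algebraMap K (v.toValuationSubring ⧸ Ideal.span {π})) := by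
    rw [hspan]; exact hres
  have hSle : ∀ w : Place K F', (∀ x : v.toValuationSubring,
      algebraMap v.toValuationSubring F' x ∈ w.toValuationSubring) →
      ∀ s : integralClosure v.toValuationSubring F',
        algebraMap (integralClosure v.toValuationSubring F') F' s ∈ w.toValuationSubring :=
    fun w hw s => fia_icl_le v w hw s
  -- the fibre is the zero set of `π`
  have hset : fidZeros K (F := F') π = {w : Place K F' | w.restrict F = v} := by
    ext w
    exact (fia_restrict_eq_iff v w hπ).symm
  have hfinZ : (fidZeros K (F := F') π).Finite := by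
    rw [hset]; exact Place.restrict_fiber_finite v
  have hfib : v.fiber F' = hfinZ.toFinset := by
    ext w
    rw [Place.mem_fiber, Set.Finite.mem_toFinset, hset]
    rfl
  have hrange := fid_range_placeOf (K := K) (F := F')
    (S := integralClosure v.toValuationSubring F') hSle π hπ.ne_zero hmax hp0
  -- `g` is integral over the valuation ring of `v`
  have hgS : ∃ s : integralClosure v.toValuationSubring F',
      algebraMap (integralClosure v.toValuationSubring F') F' s = g := by
    have := HeightOneSpectrum.mem_integers_of_valuation_le_one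
      (R := integralClosure v.toValuationSubring F') F' g ?_
    · exact this
    intro Q
    have hQp : Q.asIdeal.LiesOver (Ideal.span {π}) := by
      refine ⟨?_⟩
      have h1 : Q.asIdeal.under v.toValuationSubring ≠ ⊥ :=
        Ideal.under_ne_bot v.toValuationSubring Q.ne_bot
      have h2 : (Q.asIdeal.under v.toValuationSubring).IsPrime :=
        Ideal.comap_isPrime _ _
      have h3 : (Q.asIdeal.under v.toValuationSubring).IsMaximal := h2.isMaximal h1
      rw [hspan]
      exact (IsLocalRing.eq_maximalIdeal h3).symm
    have hw : Place.ofHeightOneSpectrum (K := K) (F := F') Q ∈ fidZeros K (F := F') π := by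
      rw [← hrange]
      exact ⟨⟨Q.asIdeal, Q.isPrime, hQp⟩, rfl⟩
    have hw' : Place.ofHeightOneSpectrum (K := K) (F := F') Q ∈ v.fiber F' := by
      rw [hfib, Set.Finite.mem_toFinset]; exact hw
    have h1 := nv37_mem_of_adic_lt_one _ (hc _ hw')
    have h2 : g ∈ (Place.ofHeightOneSpectrum (K := K) (F := F') Q).toValuationSubring := by
      have := (Place.ofHeightOneSpectrum (K := K) (F := F') Q).toValuationSubring.add_mem _ _ h1
        ((Place.ofHeightOneSpectrum (K := K) (F := F') Q).algebraMap_mem'
          (c (Place.ofHeightOneSpectrum (K := K) (F := F') Q)))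
      simpa using this
    exact (Valuation.mem_valuationSubring_iff _ _).mp h2
  obtain ⟨s, rfl⟩ := hgS
  have hc' : ∀ w ∈ fidZeros K (F := F') π, w.adicValuation
      (algebraMap (integralClosure v.toValuationSubring F') F' s - algebraMap K F' (c w)) < 1 := by
    intro w hw
    apply hc
    rw [hfib, Set.Finite.mem_toFinset]; exact hw
  have key := nv37_norm_mod_places (K := K) (F := F') hSle π hπ.ne_zero hspan hres' s c hfinZ hc'
  have hnorm : Algebra.norm F (algebraMap (integralClosure v.toValuationSubring F') F' s) =
      ((Algebra.norm v.toValuationSubring s : v.toValuationSubring) : F) :=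
    Algebra.norm_localization v.toValuationSubring (nonZeroDivisors v.toValuationSubring) s
  have hprod : ∏ w ∈ v.fiber F', c w ^ w.ramificationIndex F =
      ∏ w ∈ hfinZ.toFinset, c w ^ (w.ord (algebraMap v.toValuationSubring F' π)).toNat := by
    rw [hfib]
    refine Finset.prod_congr rfl fun w hw => ?_
    have hw' : w.restrict F = v := by
      rw [Set.Finite.mem_toFinset, hset] at hw; exact hw
    rw [← fia_ramificationIndex_eq v w hw' hπ, Int.toNat_natCast]
  have hel : Algebra.norm F (algebraMap (integralClosure v.toValuationSubring F') F' s) -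
      algebraMap K F (∏ w ∈ v.fiber F', c w ^ w.ramificationIndex F) =
      ((Algebra.norm v.toValuationSubring s - algebraMap K v.toValuationSubring
        (∏ w ∈ hfinZ.toFinset, c w ^ (w.ord (algebraMap v.toValuationSubring F' π)).toNat) :
          v.toValuationSubring) : F) := by
    rw [hnorm, hprod, AddSubgroupClass.coe_sub, v.coe_algebraMap]
  rw [hel]
  exact (nv37_adic_lt_one_iff v _).mpr ⟨Subtype.coe_prop _, key⟩

/-- the `ord` form of `nv37_norm_value`. -/
theorem nv37_norm_value_ord [IsAlgClosed K] [CharZero K] [Module.Finite F F']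
    [Algebra.IsIntegral F F'] [HasPrincipalDivisors K F'] (v : Place K F)
    (hres : Function.Surjective (algebraMap K v.ResidueField)) (g : F') (c : Place K F' → K)
    (hc : ∀ w ∈ v.fiber F', g = algebraMap K F' (c w) ∨ 0 < w.ord (g - algebraMap K F' (c w))) :
    Algebra.norm F g = algebraMap K F (∏ w ∈ v.fiber F', c w ^ w.ramificationIndex F) ∨
      0 < v.ord (Algebra.norm F g -
        algebraMap K F (∏ w ∈ v.fiber F', c w ^ w.ramificationIndex F)) := by
  have h := nv37_norm_value v hres g c (fun w hw => by
    rw [nv37_adic_lt_one_iff_ord]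
    rcases hc w hw with h | h
    · exact Or.inl (sub_eq_zero.mpr h)
    · exact Or.inr h)
  rw [nv37_adic_lt_one_iff_ord] at h
  rcases h with h | h
  · exact Or.inl (sub_eq_zero.mp h)
  · exact Or.inr h

/-- **Characteristic polynomial form**: the value at `v` of `N_{F'/F}(t - g)`, `t : K`, is
`∏_{w | v} (t - c w) ^ e(w|v)`. -/
theorem nv37_norm_sub_value [IsAlgClosed K] [CharZero K] [Module.Finite F F']
    [Algebra.IsIntegral F F'] [HasPrincipalDivisors K F'] (v : Place K F)
    (hres : Function.Surjective (algebraMap K v.ResidueField)) (g : F') (c : Place K F' → K)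
    (hc : ∀ w ∈ v.fiber F', w.adicValuation (g - algebraMap K F' (c w)) < 1) (t : K) :
    v.adicValuation (Algebra.norm F (algebraMap K F' t - g) -
      algebraMap K F (∏ w ∈ v.fiber F', (t - c w) ^ w.ramificationIndex F)) < 1 := by
  refine nv37_norm_value v hres (algebraMap K F' t - g) (fun w => t - c w) fun w hw => ?_
  have h : algebraMap K F' t - g - algebraMap K F' (t - c w) = -(g - algebraMap K F' (c w)) := by
    rw [map_sub]; ring
  rw [h, Valuation.map_neg]
  exact hc w hw

/-- existence of the value of a regular function at a place with residue field `K`. -/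
theorem nv37_exists_value (w : Place K F')
    (hres : Function.Surjective (algebraMap K w.ResidueField)) {g : F'}
    (hg : g ∈ w.toValuationSubring) :
    ∃ c : K, w.adicValuation (g - algebraMap K F' c) < 1 := by
  obtain ⟨c, hc⟩ := hres (IsLocalRing.residue w.toValuationSubring ⟨g, hg⟩)
  refine ⟨c, (nv37_adic_lt_one_iff w _).mpr ⟨?_, ?_⟩⟩
  · exact w.toValuationSubring.sub_mem hg (w.algebraMap_mem' c)
  · have hmem : (⟨g, hg⟩ - algebraMap K w.toValuationSubring c : w.toValuationSubring) ∈
        IsLocalRing.maximalIdeal w.toValuationSubring := by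
      rw [← IsLocalRing.residue_eq_zero_iff, map_sub, sub_eq_zero, ← hc]
      rfl
    exact hmem

/-- uniqueness of the value. -/
theorem nv37_value_unique (w : Place K F') {g : F'} {c c' : K}
    (h : w.adicValuation (g - algebraMap K F' c) < 1)
    (h' : w.adicValuation (g - algebraMap K F' c') < 1) : c = c' := by
  by_contra hne
  have h1 : w.adicValuation (algebraMap K F' (c' - c)) < 1 := by
    have : algebraMap K F' (c' - c) = (g - algebraMap K F' c) - (g - algebraMap K F' c') := by
      rw [map_sub]; ring
    rw [this]
    exact lt_of_le_of_lt (Valuation.map_sub _ _ _) (max_lt h h')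
  have h2 : w.ord (algebraMap K F' (c' - c)) = 0 :=
    gc_ord_algebraMap w (sub_ne_zero.mpr (Ne.symm hne))
  rw [nv37_adic_lt_one_iff_ord] at h1
  rcases h1 with h1 | h1
  · rw [map_eq_zero] at h1
    exact hne (sub_eq_zero.mp h1).symm
  · omega

end Main

section Along

variable {K F F' : Type*} [Field K] [Field F] [Field F'] [Algebra K F] [Algebra K F']

/-- **Value of a norm at a place**, `...Along` form: `φ : F →ₐ[K] F'` a finite integral embedding of
function fields, the norm being taken for the algebra structure `algebraAlong φ`. -/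
theorem nv37_norm_value_along [IsAlgClosed K] [CharZero K] (φ : F →ₐ[K] F')
    (hφ : φ.toRingHom.IsIntegral) [HasPrincipalDivisors K F'] (hfin : FiniteAlong K φ)
    (v : Place K F) (hres : Function.Surjective (algebraMap K v.ResidueField)) (g : F')
    (c : Place K F' → K)
    (hc : ∀ w ∈ Place.fiberAlong φ hφ v, w.adicValuation (g - algebraMap K F' (c w)) < 1) :
    letI := algebraAlong φ
    haveI : Module.Finite F F' := hfin
    v.adicValuation (Algebra.norm F g -
      algebraMap K F (∏ w ∈ Place.fiberAlong φ hφ v, c w ^ w.ramificationIndexAlong φ)) < 1 := by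
  letI := algebraAlong φ
  haveI := isScalarTower_along φ
  haveI := isIntegral_along φ hφ
  haveI : Module.Finite F F' := hfin
  exact nv37_norm_value v hres g c hc

/-- `...Along` form of `nv37_norm_sub_value`. -/
theorem nv37_norm_sub_value_along [IsAlgClosed K] [CharZero K] (φ : F →ₐ[K] F')
    (hφ : φ.toRingHom.IsIntegral) [HasPrincipalDivisors K F'] (hfin : FiniteAlong K φ)
    (v : Place K F) (hres : Function.Surjective (algebraMap K v.ResidueField)) (g : F')
    (c : Place K F' → K)
    (hc : ∀ w ∈ Place.fiberAlong φ hφ v, w.adicValuation (g - algebraMap K F' (c w)) < 1)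
    (t : K) :
    letI := algebraAlong φ
    haveI : Module.Finite F F' := hfin
    v.adicValuation (Algebra.norm F (algebraMap K F' t - g) -
      algebraMap K F
        (∏ w ∈ Place.fiberAlong φ hφ v, (t - c w) ^ w.ramificationIndexAlong φ)) < 1 := by
  letI := algebraAlong φ
  haveI := isScalarTower_along φ
  haveI := isIntegral_along φ hφ
  haveI : Module.Finite F F' := hfin
  exact nv37_norm_sub_value v hres g c hc t

end Along

end Fermat.Agent.S37x
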