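/-
S37 prep, block [B3], VALUE ROUTE, leaf (ST) = CHART STABILITY under the Hecke correspondence
(helper95, prefix `ecs_`): the hypothesis `hstab` of `esv_mapDomain_correspondence`
(S37x/EsValueTs) for the two charts

  `S₀   := {P | J(P) ∈ A}`            (`ecs_chart0`),
  `S_∞  := {P | ¬ (J(P) ∈ A)}`        (`ecs_chartInf`, the COMPLEMENT of `S₀`, poles of `J` included).

Abstract setting: `φ ψ : F →ₐ[L] F'` integral embeddings of function fields over `L`, `A` a valuation
subring of `L`, `J : F`, and `Φ ∈ ℤ[Y][X]` monic in `X` with `Φ(X := ψ J; Y := φ J) = 0` in `F'`.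
For a place `w` of `F'` with residue field `L`:

  `ecs_valIn_of_valIn` : `J(w|φ) ∈ A → J(w|ψ) ∈ A`

(`ψ J` is integral over `ℤ[φ J] ⊆ O_w`, hence regular at `w`; its value `b` is a root of the monic
polynomial `Φ(X; a) ∈ A[X]`, `a = J(w|φ)`, and `A` is integrally closed).  Stability of `S₀` under
`ψ_* φ^*` is this lemma; stability of the complement `S_∞` is the same lemma for the swapped pair
`(ψ, φ)` and the second vanishing `Φ(X := φ J; Y := ψ J) = 0` -- only monicity in both variables is
used, no Kronecker congruence.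
-/
import Mathlib
import Fermat.Agent.S37x.CtmDefs
import Fermat.Agent.S37x.EsPlaces
import Fermat.Agent.S37x.NormValue

set_option autoImplicit false

namespace Fermat.Agent.S37x

open AlgebraicCurve Polynomial

section Abstract

variable {L F F' : Type*} [Field L] [Field F] [Field F'] [Algebra L F] [Algebra L F']

/-- the two charts -/
def ecs_chart0 (A : ValuationSubring L) (J : F) : Set (Place L F) := {P | ctm_valIn A P J}

def ecs_chartInf (A : ValuationSubring L) (J : F) : Set (Place L F) := {P | ¬ ctm_valIn A P J}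

theorem ecs_mem_chart0 {A : ValuationSubring L} {J : F} {P : Place L F} :
    P ∈ ecs_chart0 A J ↔ ctm_valIn A P J := Iff.rfl

theorem ecs_mem_chartInf {A : ValuationSubring L} {J : F} {P : Place L F} :
    P ∈ ecs_chartInf A J ↔ ¬ ctm_valIn A P J := Iff.rfl

theorem ecs_chart_union (A : ValuationSubring L) (J : F) :
    ecs_chart0 A J ∪ ecs_chartInf A J = Set.univ := by
  ext P
  simp only [Set.mem_union, ecs_mem_chart0, ecs_mem_chartInf, Set.mem_univ, iff_true]
  exact em _

/-- **the integrality step**: if `Φ(X := y; Y := x) = 0` with `Φ ∈ ℤ[Y][X]` monic in `X`, `x` has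
value `a ∈ A` at the place `w` (residue field `L`), then `y` has a value `b ∈ A` at `w`. -/
theorem ecs_value_of_rel (A : ValuationSubring L) (Φ : Polynomial (Polynomial ℤ)) (hΦ : Φ.Monic)
    (x y : F') (hrel : Φ.eval₂ (Polynomial.aeval (R := ℤ) x).toRingHom y = 0)
    (w : Place L F') (hw : Function.Surjective (algebraMap L w.ResidueField))
    (a : L) (ha : a ∈ A) (hxa : w.adicValuation (x - algebraMap L F' a) < 1) :
    ∃ b : L, b ∈ A ∧ w.adicValuation (y - algebraMap L F' b) < 1 := by
  -- `x` lies in the valuation ring of `w`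
  have hxmem : x ∈ w.toValuationSubring := by
    have h1 := nv37_mem_of_adic_lt_one w hxa
    have h2 := w.toValuationSubring.add_mem _ _ h1 (w.algebraMap_mem' a)
    simpa using h2
  set Ow := w.toValuationSubring with hOw
  let xO : Ow := ⟨x, hxmem⟩
  let evO : Polynomial ℤ →+* Ow := (Polynomial.aeval (R := ℤ) xO).toRingHom
  have hcomp : Ow.subtype.comp evO = (Polynomial.aeval (R := ℤ) x).toRingHom := by
    apply Polynomial.ringHom_ext
    · intro n
      simp [evO]
    · simp [evO, xO]
  -- `y` is integral over `O_w`, hence in `O_w`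
  have hint : IsIntegral Ow y := by
    refine ⟨Φ.map evO, hΦ.map evO, ?_⟩
    rw [Polynomial.eval₂_map]
    have : (algebraMap Ow F').comp evO = (Polynomial.aeval (R := ℤ) x).toRingHom := hcomp
    rw [this]
    exact hrel
  obtain ⟨yO, hyO⟩ := IsIntegrallyClosed.isIntegral_iff.mp hint
  have hyO' : (yO : F') = y := hyO
  have hymem : y ∈ w.toValuationSubring := hyO' ▸ yO.2
  -- its value
  obtain ⟨b, hb⟩ := nv37_exists_value w hw hymem
  refine ⟨b, ?_, hb⟩
  -- the relation in `O_w`
  have hrelO : (Φ.map evO).eval yO = 0 := by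
    have h1 : Ow.subtype ((Φ.map evO).eval yO) = 0 := by
      rw [← Polynomial.eval₂_at_apply, Polynomial.eval₂_map, hcomp]
      show Φ.eval₂ (Polynomial.aeval (R := ℤ) x).toRingHom (yO : F') = 0
      rw [hyO']
      exact hrel
    exact Subtype.ext h1
  -- reduce modulo the maximal ideal
  let res : Ow →+* w.ResidueField := IsLocalRing.residue Ow
  have hresx : res xO = algebraMap L w.ResidueField a := by
    obtain ⟨hm, hmem⟩ := (nv37_adic_lt_one_iff w _).mp hxa
    have h1 : (⟨x - algebraMap L F' a, hm⟩ : Ow) = xO - algebraMap L Ow a := by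
      apply Subtype.ext
      show x - algebraMap L F' a =
        x - ((algebraMap L w.toValuationSubring a : w.toValuationSubring) : F')
      rw [w.coe_algebraMap]
    rw [h1, ← IsLocalRing.residue_eq_zero_iff, map_sub, sub_eq_zero] at hmem
    rw [hmem]
    rfl
  have hresy : res yO = algebraMap L w.ResidueField b := by
    obtain ⟨hm, hmem⟩ := (nv37_adic_lt_one_iff w _).mp hb
    have h1 : (⟨y - algebraMap L F' b, hm⟩ : Ow) = yO - algebraMap L Ow b := by
      apply Subtype.ext
      show y - algebraMap L F' b =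
        (yO : F') - ((algebraMap L w.toValuationSubring b : w.toValuationSubring) : F')
      rw [w.coe_algebraMap, hyO']
    rw [h1, ← IsLocalRing.residue_eq_zero_iff, map_sub, sub_eq_zero] at hmem
    rw [hmem]
    rfl
  let evL : Polynomial ℤ →+* L := (Polynomial.aeval (R := ℤ) a).toRingHom
  have hcompL : res.comp evO = (algebraMap L w.ResidueField).comp evL := by
    apply Polynomial.ringHom_ext
    · intro n
      simp [evO, evL]
    · simp only [RingHom.comp_apply, evO, evL, AlgHom.toRingHom_eq_coe, RingHom.coe_coe,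
        Polynomial.aeval_X]
      exact hresx
  have hrelL : (Φ.map evL).eval b = 0 := by
    have h1 : ((Φ.map evO).map res).eval (res yO) = 0 := by
      rw [Polynomial.eval_map_apply, hrelO, map_zero]
    rw [Polynomial.map_map, hcompL, ← Polynomial.map_map, hresy, Polynomial.eval_map_apply] at h1
    exact (map_eq_zero_iff _ (algebraMap L w.ResidueField).injective).mp h1
  -- `b` is integral over `A`
  let aA : A := ⟨a, ha⟩
  let evA : Polynomial ℤ →+* A := (Polynomial.aeval (R := ℤ) aA).toRingHom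
  have hcompA : A.subtype.comp evA = evL := by
    apply Polynomial.ringHom_ext
    · intro n
      simp [evA, evL]
    · simp [evA, evL, aA]
  have hintb : IsIntegral A b := by
    refine ⟨Φ.map evA, hΦ.map evA, ?_⟩
    rw [Polynomial.eval₂_map]
    have : (algebraMap A L).comp evA = evL := hcompA
    rw [this, ← Polynomial.eval_map]
    exact hrelL
  obtain ⟨bA, hbA⟩ := IsIntegrallyClosed.isIntegral_iff.mp hintb
  have hbA' : (bA : L) = b := hbA
  exact hbA' ▸ bA.2

/-- **one-step transfer** along the correspondence: `J(w|φ) ∈ A → J(w|ψ) ∈ A`. -/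
theorem ecs_valIn_of_valIn (φ ψ : F →ₐ[L] F') (hφ : φ.toRingHom.IsIntegral)
    (hψ : ψ.toRingHom.IsIntegral) (A : ValuationSubring L) (J : F)
    (Φ : Polynomial (Polynomial ℤ)) (hΦ : Φ.Monic)
    (hrel : Φ.eval₂ (Polynomial.aeval (R := ℤ) (φ J)).toRingHom (ψ J) = 0)
    (w : Place L F') (hw : Function.Surjective (algebraMap L w.ResidueField))
    (h : ctm_valIn A (w.restrictAlong φ hφ) J) : ctm_valIn A (w.restrictAlong ψ hψ) J := by
  obtain ⟨a, ha, hva⟩ := h
  have hva' : w.adicValuation (φ J - algebraMap L F' a) < 1 :=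
    (esp_hasVal_restrictAlong φ hφ w J a).mp hva
  obtain ⟨b, hb, hvb⟩ := ecs_value_of_rel A Φ hΦ (φ J) (ψ J) hrel w hw a ha hva'
  exact ⟨b, hb, (esp_hasVal_restrictAlong ψ hψ w J b).mpr hvb⟩

variable [HasPrincipalDivisors L F']

/-- **(ST), chart 0**: the chart `{P | J(P) ∈ A}` is stable under `ψ_* φ^*`
(exact shape of `hstab` in `esv_mapDomain_correspondence`). -/
theorem ecs_hstab0 (φ ψ : F →ₐ[L] F') (hφ : φ.toRingHom.IsIntegral)
    (hψ : ψ.toRingHom.IsIntegral) (A : ValuationSubring L) (J : F)
    (Φ : Polynomial (Polynomial ℤ)) (hΦ : Φ.Monic)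
    (hrel : Φ.eval₂ (Polynomial.aeval (R := ℤ) (φ J)).toRingHom (ψ J) = 0)
    (hres' : ∀ w : Place L F', Function.Surjective (algebraMap L w.ResidueField)) :
    ∀ P ∈ ecs_chart0 A J, ∀ w ∈ Place.fiberAlong φ hφ P,
      w.restrictAlong ψ hψ ∈ ecs_chart0 A J := by
  intro P hP w hw
  rw [Place.mem_fiberAlong] at hw
  rw [ecs_mem_chart0] at hP ⊢
  rw [← hw] at hP
  exact ecs_valIn_of_valIn φ ψ hφ hψ A J Φ hΦ hrel w (hres' w) hP

/-- **(ST), chart ∞**: the COMPLEMENTARY chart `{P | ¬ (J(P) ∈ A)}` is stable under `ψ_* φ^*`;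
uses the vanishing with the roles of `φ J`, `ψ J` swapped. -/
theorem ecs_hstabInf (φ ψ : F →ₐ[L] F') (hφ : φ.toRingHom.IsIntegral)
    (hψ : ψ.toRingHom.IsIntegral) (A : ValuationSubring L) (J : F)
    (Φ : Polynomial (Polynomial ℤ)) (hΦ : Φ.Monic)
    (hrel' : Φ.eval₂ (Polynomial.aeval (R := ℤ) (ψ J)).toRingHom (φ J) = 0)
    (hres' : ∀ w : Place L F', Function.Surjective (algebraMap L w.ResidueField)) :
    ∀ P ∈ ecs_chartInf A J, ∀ w ∈ Place.fiberAlong φ hφ P,
      w.restrictAlong ψ hψ ∈ ecs_chartInf A J := by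
  intro P hP w hw
  rw [Place.mem_fiberAlong] at hw
  rw [ecs_mem_chartInf] at hP ⊢
  intro h
  apply hP
  rw [← hw]
  exact ecs_valIn_of_valIn ψ φ hψ hφ A J Φ hΦ hrel' w (hres' w) h

end Abstract

end Fermat.Agent.S37x
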