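/-
S37 prep, block [B3], STEP 4+5+6 in hypothesis form (helper5, prefix `espn_`):
`esp_mapDomain_correspondence` (S37x/EsPlaces) with its "value of norm" hypothesis discharged by
helper95's `nv37_norm_sub_value_along` (S37x/NormValue).  What remains as hypotheses:
* `hval`  : the centre value lemma on the chart `S` for the class `Cl`            ([B1] C1),
* `hstab` : `T`-stability of the chart,
* `hKR`   : for `y ∈ Cl`, `c ∈ A` the function `n_c(y) := N_{F'/φ F}(c - ψ y)` is (the coercion of)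
  an element of `Cl` whose reduction is `(c̄ - (σ⁻¹ ȳ)^ℓ)(c̄^ℓ - σ ȳ)`              (Kronecker),
* `hsep`  : one separating function.
-/
import Mathlib
import Fermat.Agent.S37x.EsPlaces
import Fermat.Agent.S37x.NormValue

set_option autoImplicit false

namespace Fermat.Agent.S37x

open AlgebraicCurve

section

variable {L k F Fb : Type*} [Field L] [Field k] [Field F] [Field Fb] [Algebra L F] [Algebra k Fb]

/-- **STEP 4+5+6 (hypothesis form)**: `r_* (ψ_* φ^* P) = [σ • r P] + ℓ • [σ⁻¹ • r P]` with the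
norm function `n_c(y) = N_{F'/φ F}(c - ψ y)` explicit. -/
theorem espn_mapDomain_correspondence [Infinite k] [IsAlgClosed L] [CharZero L]
    {F' : Type*} [Field F'] [Algebra L F'] [HasPrincipalDivisors L F']
    (φ ψ : F →ₐ[L] F') (hφ : φ.toRingHom.IsIntegral) (hψ : ψ.toRingHom.IsIntegral)
    (hfin : FiniteAlong L φ)
    (hF : ∀ v : Place L F, v.deg = 1) (hF' : ∀ w : Place L F', w.deg = 1)
    (A : ValuationSubring L) (π : A →+* k) (hπ : Function.Surjective π)
    (W : ValuationSubring F) (ρ : W →+* Fb)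
    (r : Place L F → Place k Fb)
    (σ : SemilinearAut k Fb) (ℓ : ℕ) (hσ : ∀ a : k, SemilinearAut.baseAut σ a = a ^ ℓ)
    (Cl : Set W) (S : Set (Place L F))
    (hval : ∀ y ∈ Cl, ∀ P' ∈ S, ∃ a : A,
      esp_HasVal P' (y : F) (a : L) ∧ esp_HasVal (r P') (ρ y) (π a))
    (P : Place L F) (hP : P ∈ S)
    (hres : Function.Surjective (algebraMap L P.ResidueField))
    (hstab : ∀ w ∈ Place.fiberAlong φ hφ P, w.restrictAlong ψ hψ ∈ S)
    (hKR : ∀ y ∈ Cl, ∀ c : A, ∃ n ∈ Cl,
      (letI := algebraAlong φ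
       haveI : Module.Finite F F' := hfin
       (n : F) = Algebra.norm F (algebraMap L F' (c : L) - ψ (y : F))) ∧
      ρ n = (algebraMap k Fb (π c) - (σ⁻¹ • ρ y) ^ ℓ) * (algebraMap k Fb (π c ^ ℓ) - σ • ρ y))
    (hsep : ∃ y ∈ Cl, ∃ v : Place k Fb → k,
      Set.InjOn v ((fun w : Place L F' => r (w.restrictAlong ψ hψ)) ''
          (Place.fiberAlong φ hφ P : Set (Place L F')) ∪ {σ • r P, σ⁻¹ • r P}) ∧
      ∀ Q ∈ (fun w : Place L F' => r (w.restrictAlong ψ hψ)) ''
          (Place.fiberAlong φ hφ P : Set (Place L F')) ∪ {σ • r P, σ⁻¹ • r P},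
        esp_HasVal Q (ρ y) (v Q)) :
    Finsupp.mapDomain r (Divisor.correspondence φ ψ hφ hψ (Finsupp.single P 1))
      = Finsupp.single (σ • r P) 1 + Finsupp.single (σ⁻¹ • r P) (ℓ : ℤ) := by
  refine esp_mapDomain_correspondence φ ψ hφ hψ hF hF' A π hπ W ρ r σ ℓ hσ Cl S hval P hP hstab
    ?_ hsep
  intro y hy c
  obtain ⟨n, hnCl, hn1, hn2⟩ := hKR y hy c
  refine ⟨n, hnCl, fun a ha => ?_, hn2⟩
  have h := nv37_norm_sub_value_along φ hφ hfin P hres (ψ (y : F)) a ha (c : L)
  rw [esp_hasVal_iff, hn1]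
  exact h

end

end Fermat.Agent.S37x
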