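/-
S37 prep, block [B3] / [ES], VALUE ROUTE integrator file 1 (helper5, prefix `esv_`):
the place-level Eichler–Shimura relation (the `hT` input of `s37t_result_of_places`) in the
`ts_Hyp` language of S18x/TsBasic, for ANY place map `r` with divisor compatibility.

`H : ts_Hyp A π W ρ r`, `S` a set of places of `F/L` which is a union of residue discs of `r`
(`hSdisc`) and stable under the correspondence (`hstab`).  Class of functions
`Cl := {y ∈ W | y regular on S}`; the centre value lemma on `S` is `ts_Hyp.value` (disc-local).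
Remaining hypotheses:
* `hKR`  : for `y ∈ Cl`, `c ∈ A`: `N_{F'/φ F}(c - ψ y)` is (the coercion of) some `n ∈ W` with
           `ρ n = (c̄ - (σ⁻¹ ȳ)^ℓ)(c̄^ℓ - σ ȳ)`                      (Kronecker, q-expansions);
* `hsep` : on the reduced chart `Sb ⊇ r(S)`, `σ^{±1}`-stable, finitely many places are separated
           by the reduction of one `y ∈ Cl`                 (CRT on the reduced chart + normality).
Regularity of `n_c(y)` on `S` is NOT a hypothesis: it follows from the value of the norm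
(`nv37_norm_sub_value_along`), `ts_Hyp.eval` and `hstab`.
-/
import Mathlib
import Fermat.Agent.S37x.EsPlacesNorm

set_option autoImplicit false

namespace Fermat.Agent.S37x

open AlgebraicCurve Fermat.Agent.S18x

section

variable {L k F Fb : Type*} [Field L] [Field k] [Field F] [Field Fb] [Algebra L F] [Algebra k Fb]

/-- **[ES] value route, `ts_Hyp` form**: `r_* (ψ_* φ^* P) = [σ • r P] + ℓ • [σ⁻¹ • r P]` for every
place `P` of the chart `S`. -/
theorem esv_mapDomain_correspondence [Infinite k] [IsAlgClosed L] [CharZero L]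
    {F' : Type*} [Field F'] [Algebra L F'] [HasPrincipalDivisors L F']
    (φ ψ : F →ₐ[L] F') (hφ : φ.toRingHom.IsIntegral) (hψ : ψ.toRingHom.IsIntegral)
    (hfin : FiniteAlong L φ)
    (hF : ∀ v : Place L F, v.deg = 1) (hF' : ∀ w : Place L F', w.deg = 1)
    (hres : ∀ v : Place L F, Function.Surjective (algebraMap L v.ResidueField))
    {A : ValuationSubring L} {π : A →+* k} {W : ValuationSubring F} {ρ : W →+* Fb}
    {r : Place L F → Place k Fb} (H : ts_Hyp A π W ρ r)
    (σ : SemilinearAut k Fb) (ℓ : ℕ) (hσ : ∀ a : k, SemilinearAut.baseAut σ a = a ^ ℓ)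
    (S : Set (Place L F)) (hSdisc : ∀ P P' : Place L F, r P = r P' → P ∈ S → P' ∈ S)
    (hstab : ∀ P ∈ S, ∀ w ∈ Place.fiberAlong φ hφ P, w.restrictAlong ψ hψ ∈ S)
    (hKR : ∀ y : W, (∀ P ∈ S, P.adicValuation (y : F) ≤ 1) → ∀ c : A, ∃ n : W,
      (letI := algebraAlong φ
       haveI : Module.Finite F F' := hfin
       (n : F) = Algebra.norm F (algebraMap L F' (c : L) - ψ (y : F))) ∧
      ρ n = (algebraMap k Fb (π c) - (σ⁻¹ • ρ y) ^ ℓ) * (algebraMap k Fb (π c ^ ℓ) - σ • ρ y))
    (Sb : Set (Place k Fb)) (hrS : ∀ P ∈ S, r P ∈ Sb)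
    (hσS : ∀ Q ∈ Sb, σ • Q ∈ Sb) (hσS' : ∀ Q ∈ Sb, σ⁻¹ • Q ∈ Sb)
    (hsep : ∀ T : Finset (Place k Fb), (∀ Q ∈ T, Q ∈ Sb) →
      ∃ y : W, (∀ P ∈ S, P.adicValuation (y : F) ≤ 1) ∧
        ∃ v : Place k Fb → k, Set.InjOn v (T : Set (Place k Fb)) ∧
          ∀ Q ∈ T, Q.adicValuation (ρ y - algebraMap k Fb (v Q)) < 1)
    (P : Place L F) (hP : P ∈ S) :
    Finsupp.mapDomain r (Divisor.correspondence φ ψ hφ hψ (Finsupp.single P 1))
      = Finsupp.single (σ • r P) 1 + Finsupp.single (σ⁻¹ • r P) (ℓ : ℤ) := by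
  classical
  refine espn_mapDomain_correspondence φ ψ hφ hψ hfin hF hF' A π H.pi_surj W ρ r σ ℓ hσ
    {y : W | ∀ P ∈ S, P.adicValuation (y : F) ≤ 1} S ?_ P hP (hres P) (hstab P hP) ?_ ?_
  · -- the centre value lemma (disc-local)
    intro y hy P' hP'
    obtain ⟨c, hc, h1, h2⟩ := H.value y (r P')
      (fun P₁ hP₁ => hy P₁ (hSdisc P' P₁ hP₁.symm hP')) P' rfl
    exact ⟨⟨c, hc⟩, h1, h2⟩
  · -- Kronecker + regularity of the norm on `S`
    intro y hy c
    obtain ⟨n, hn1, hn2⟩ := hKR y hy c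
    refine ⟨n, ?_, hn1, hn2⟩
    intro P₁ hP₁
    have hex : ∀ w : Place L F', ∃ a : L, w ∈ Place.fiberAlong φ hφ P₁ →
        w.adicValuation (ψ (y : F) - algebraMap L F' a) < 1 := by
      intro w
      by_cases hw : w ∈ Place.fiberAlong φ hφ P₁
      · obtain ⟨a, ha⟩ := H.eval (w.restrictAlong ψ hψ) (y : F) (hy _ (hstab P₁ hP₁ w hw))
        exact ⟨a, fun _ => (esp_hasVal_restrictAlong ψ hψ w (y : F) a).mp ha⟩
      · exact ⟨0, fun h => absurd h hw⟩
    choose a ha using hex
    have h := nv37_norm_sub_value_along φ hφ hfin P₁ (hres P₁) (ψ (y : F)) a ha (c : L)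
    rw [← hn1] at h
    exact esp_HasVal.le_one h
  · -- separation
    let T : Finset (Place k Fb) :=
      (Place.fiberAlong φ hφ P).image (fun w => r (w.restrictAlong ψ hψ)) ∪ {σ • r P, σ⁻¹ • r P}
    have hT : ∀ Q ∈ T, Q ∈ Sb := by
      intro Q hQ
      rcases Finset.mem_union.mp hQ with hQ | hQ
      · obtain ⟨w, hw, rfl⟩ := Finset.mem_image.mp hQ
        exact hrS _ (hstab P hP w hw)
      · rcases Finset.mem_insert.mp hQ with rfl | hQ
        · exact hσS _ (hrS P hP)
        · rw [Finset.mem_singleton] at hQ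
          rw [hQ]
          exact hσS' _ (hrS P hP)
    obtain ⟨y, hy, v, hv1, hv2⟩ := hsep T hT
    have hcoe : (T : Set (Place k Fb)) = (fun w : Place L F' => r (w.restrictAlong ψ hψ)) ''
        (Place.fiberAlong φ hφ P : Set (Place L F')) ∪ {σ • r P, σ⁻¹ • r P} := by
      simp only [T, Finset.coe_union, Finset.coe_image, Finset.coe_insert, Finset.coe_singleton]
    refine ⟨y, hy, v, ?_, ?_⟩
    · rw [← hcoe]; exact hv1
    · intro Q hQ
      rw [← hcoe] at hQ
      exact hv2 Q (Finset.mem_coe.mp hQ)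

end

end Fermat.Agent.S37x
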