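/-
S37 prep, block B3, leaf L2 (helper82): CONSEQUENCES OF THE SPEC of a place reduction map, in the
`ts_Hyp` language of S18x/TsBasic (any `r` with divisor compatibility COMPAT).
(Doc `S37_B3_ES_from_COMPAT_helper3`, Step 3.)

Inputs: `H : ts_Hyp A π W ρ r`, a coordinate `J : W` whose reduction is non-constant (`hnc`) and
whose polar degree does not drop under reduction (`hpol : spv_PolarLe r J`; at level `N` this is
`glu_hpol_assembly`, i.e. `ψ(N) = [F_N : L(j)] ≤ [Fb_N : k(jb)]`).

Results:
* `spv_fibre_neg`, `spv_fibre_pos`   : pure bookkeeping: if the negative degree does not drop under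
  `r_*`, then `r_*` commutes with negative and positive parts (no cancellation in the fibres);
* `spv_polarLe_sub_const`            : `hpol` passes from `J` to `J - c`, `c ∈ A`;
* `spv_zeros_fibre`, `spv_poles_fibre` (3a, with multiplicities):
  `max (ord_Q (ρJ - c̄)) 0 = ∑_{P ↦ Q} max (ord_P (J - c)) 0`, and the same for poles;
* `spv_zero_of_zero` (3a)  : `J(P) = c ∈ A` ⟹ `(ρJ)(rP) = c̄`;
* `spv_pole_of_pole` (3b)  : poles of `J` reduce to poles of `ρJ`;
* `spv_pole_iff` (3b)      : `rP` is a pole of `ρJ` iff `J(P) ∉ A` (pole of `J` included);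
* `spv_disc_chart0`, `spv_disc_chartInf` : the residue disc of a non-pole (resp. pole) of `ρJ`
  consists of places with `J(P) ∈ A` (resp. `J(P) ∉ A`);
* `spv_value_chart0`, `spv_value_chartInf` (3c) : VALUE LEMMA on both charts: `g ∈ W` regular off
  the poles of `J` (resp. off the zeros of `J`), `P` in the chart ⟹ `g(P) ∈ A` and
  `(ρ g)(rP) = g(P) mod m_A`;
* `spv_simple` (3d)        : a simple zero of `ρ g` at `Q` comes from exactly one simple zero of `g`
  in the residue disc of `Q`.
-/
import Mathlib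
import Fermat.Agent.S18x.TsBasic
import Fermat.Agent.S18x.GlueHT

set_option autoImplicit false

namespace Fermat.Agent.S37x

open AlgebraicCurve WithZero Fermat.Agent.S18x

/-! ## bookkeeping on finitely supported integer functions -/

section Comb

variable {α β : Type*}

/-- total negative part -/
noncomputable def spv_negDeg (D : α →₀ ℤ) : ℤ := ∑ a ∈ D.support, max (-(D a)) 0

theorem spv_negDeg_eq_sum (D : α →₀ ℤ) (S : Finset α) (hS : D.support ⊆ S) :
    spv_negDeg D = ∑ a ∈ S, max (-(D a)) 0 := by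
  refine Finset.sum_subset hS fun a _ ha => ?_
  rw [Finsupp.notMem_support_iff.mp ha]; simp

theorem spv_negDeg_congr (D D' : α →₀ ℤ) (h : ∀ a, max (-(D a)) 0 = max (-(D' a)) 0) :
    spv_negDeg D = spv_negDeg D' := by
  classical
  rw [spv_negDeg_eq_sum D (D.support ∪ D'.support) Finset.subset_union_left,
    spv_negDeg_eq_sum D' (D.support ∪ D'.support) Finset.subset_union_right]
  exact Finset.sum_congr rfl fun a _ => h a

open Classical in
/-- **no cancellation of negative parts in the fibres**, if the negative degree does not drop. -/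
theorem spv_fibre_neg (r : α → β) (D : α →₀ ℤ)
    (h : spv_negDeg D ≤ spv_negDeg (Finsupp.mapDomain r D)) (b : β) :
    max (-(Finsupp.mapDomain r D b)) 0 =
      ∑ a ∈ D.support.filter (fun a => r a = b), max (-(D a)) 0 := by
  set E := Finsupp.mapDomain r D with hE
  have hsupp : E.support ⊆ D.support.image r := Finsupp.mapDomain_support
  have hR : spv_negDeg E = ∑ b ∈ D.support.image r, max (-(E b)) 0 :=
    spv_negDeg_eq_sum E _ hsupp
  have hL : spv_negDeg D =
      ∑ b ∈ D.support.image r, ∑ a ∈ D.support.filter (fun a => r a = b), max (-(D a)) 0 :=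
    (Finset.sum_fiberwise_of_maps_to (fun a ha => Finset.mem_image_of_mem r ha) _).symm
  have hEb : ∀ b, E b = ∑ a ∈ D.support.filter (fun a => r a = b), D a := fun b => by
    rw [hE, ts_mapDomain_apply r D b]
  have hterm : ∀ b ∈ D.support.image r,
      max (-(E b)) 0 ≤ ∑ a ∈ D.support.filter (fun a => r a = b), max (-(D a)) 0 := by
    intro b _
    apply max_le
    · rw [hEb b, ← Finset.sum_neg_distrib]
      exact Finset.sum_le_sum fun a _ => le_max_left _ _
    · exact Finset.sum_nonneg fun a _ => le_max_right _ _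
  have heq : ∑ b ∈ D.support.image r, max (-(E b)) 0 =
      ∑ b ∈ D.support.image r, ∑ a ∈ D.support.filter (fun a => r a = b), max (-(D a)) 0 :=
    le_antisymm (Finset.sum_le_sum hterm) (by rw [← hL, ← hR]; exact h)
  have htermeq := (Finset.sum_eq_sum_iff_of_le hterm).mp heq
  by_cases hb : b ∈ D.support.image r
  · exact htermeq b hb
  · have hE0 : E b = 0 := by
      by_contra hne
      exact hb (hsupp (Finsupp.mem_support_iff.mpr hne))
    have hemp : D.support.filter (fun a => r a = b) = ∅ := by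
      rw [Finset.filter_eq_empty_iff]
      intro a ha hab
      exact hb (hab ▸ Finset.mem_image_of_mem r ha)
    rw [hE0, hemp]; simp

open Classical in
/-- **no cancellation of positive parts in the fibres**, if the negative degree does not drop. -/
theorem spv_fibre_pos (r : α → β) (D : α →₀ ℤ)
    (h : spv_negDeg D ≤ spv_negDeg (Finsupp.mapDomain r D)) (b : β) :
    max (Finsupp.mapDomain r D b) 0 =
      ∑ a ∈ D.support.filter (fun a => r a = b), max (D a) 0 := by
  have hneg := spv_fibre_neg r D h b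
  have hEb : Finsupp.mapDomain r D b = ∑ a ∈ D.support.filter (fun a => r a = b), D a :=
    ts_mapDomain_apply r D b
  have hsplit : ∀ x : ℤ, max x 0 = x + max (-x) 0 := by
    intro x
    rcases le_total x 0 with hx | hx
    · rw [max_eq_right hx, max_eq_left (by omega)]; ring
    · rw [max_eq_left hx, max_eq_right (by omega)]; ring
  rw [hsplit, hneg, hEb, ← Finset.sum_add_distrib]
  exact Finset.sum_congr rfl fun a _ => (hsplit (D a)).symm

end Comb

/-! ## places: adding a constant does not change the polar part -/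

section Place

variable {K F : Type*} [Field K] [Field F] [Algebra K F] (P : Place K F)

theorem spv_polar_zero_of_le_one {x : F} (hx : P.adicValuation x ≤ 1) :
    max (-(P.ord x)) 0 = 0 := by
  rcases (P.adicValuation_le_one_iff).mp hx with h | h
  · rw [h, Place.ord_zero]; simp
  · exact max_eq_right (by omega)

theorem spv_polar_sub_const (x : F) (c : K) :
    max (-(P.ord (x - algebraMap K F c))) 0 = max (-(P.ord x)) 0 := by
  by_cases hx : P.adicValuation x ≤ 1
  · have hxc : P.adicValuation (x - algebraMap K F c) ≤ 1 :=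
      (Valuation.map_sub _ _ _).trans (max_le hx (P.adicValuation_algebraMap_le_one c))
    rw [spv_polar_zero_of_le_one P hx, spv_polar_zero_of_le_one P hxc]
  · rw [not_le] at hx
    have hlt : P.adicValuation (algebraMap K F c) < P.adicValuation x :=
      lt_of_le_of_lt (P.adicValuation_algebraMap_le_one c) hx
    have hv : P.adicValuation (x - algebraMap K F c) = P.adicValuation x :=
      Valuation.map_sub_eq_of_lt_left _ hlt
    have : P.ord (x - algebraMap K F c) = P.ord x := by
      unfold Place.ord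
      rw [hv]
    rw [this]

theorem spv_ord_nonneg_of_le_one {x : F} (hx0 : x ≠ 0) (hx : P.adicValuation x ≤ 1) :
    0 ≤ P.ord x :=
  ((P.adicValuation_le_one_iff).mp hx).resolve_left hx0

end Place

/-! ## the SPEC consequences -/

section Setup

variable {L k F Fb : Type*} [Field L] [Field k] [Field F] [Field Fb] [Algebra L F] [Algebra k Fb]
variable {A : ValuationSubring L} {π : A →+* k} {W : ValuationSubring F} {ρ : W →+* Fb}
  {r : Place L F → Place k Fb}

/-- The polar-degree condition (DEG): the pole degree of `x` does not drop under `r_*`. -/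
def spv_PolarLe (r : Place L F → Place k Fb) (x : F) : Prop :=
  ∀ D : Divisor L F, (∀ P, D P = P.ord x) → spv_negDeg D ≤ spv_negDeg (Finsupp.mapDomain r D)

/-- (DEG) from the `hpol` shape of `s18a_pole_of_pole` / `glu_hpol_assembly`. -/
theorem spv_polarLe_of_hpol (H : ts_Hyp A π W ρ r) (J : W) (hJ : ρ J ≠ 0)
    (DJ : Divisor L F) (hDJ : ∀ P, DJ P = P.ord (J : F))
    (DJb : Divisor k Fb) (hDJb : ∀ Q, DJb Q = Q.ord (ρ J))
    (hpol : ∑ P ∈ DJ.support, max (-(DJ P)) 0 ≤ ∑ Q ∈ DJb.support, max (-(DJb Q)) 0) :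
    spv_PolarLe r (J : F) := by
  intro D hD
  have hDD : D = DJ := by ext P; rw [hD P, hDJ P]
  have heq : Finsupp.mapDomain r DJ = DJb := by
    ext Q
    rw [H.compat J hJ DJ hDJ Q, hDJb Q]
  rw [hDD, heq]
  exact hpol

/-- `c ∈ A` as an element of `W`. -/
def spv_const (H : ts_Hyp A π W ρ r) (c : A) : W :=
  ⟨algebraMap L F (c : L), (H.mem_iff _).mpr c.2⟩

theorem spv_const_coe (H : ts_Hyp A π W ρ r) (c : A) :
    ((spv_const H c : W) : F) = algebraMap L F (c : L) := rfl

theorem spv_rho_const (H : ts_Hyp A π W ρ r) (c : A) :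
    ρ (spv_const H c) = algebraMap k Fb (π c) :=
  H.rho_alg (c : L) c.2 _

theorem spv_rho_sub_const (H : ts_Hyp A π W ρ r) (J : W) (c : A) :
    ρ (J - spv_const H c) = ρ J - algebraMap k Fb (π c) := by
  rw [map_sub, spv_rho_const]

theorem spv_coe_ne_zero {u : W} (hu : ρ u ≠ 0) : (u : F) ≠ 0 := by
  intro h
  apply hu
  have : u = 0 := Subtype.ext h
  rw [this, map_zero]

/-- (DEG) passes from `J` to `J - c`. -/
theorem spv_polarLe_sub_const (H : ts_Hyp A π W ρ r) (J : W)
    (hnc : ∀ a : k, ρ J ≠ algebraMap k Fb a) (hpol : spv_PolarLe r (J : F)) (c : A) :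
    spv_PolarLe r ((J - spv_const H c : W) : F) := by
  intro D' hD'
  have hJ0 : ρ J ≠ 0 := by simpa using hnc 0
  have hJc0 : ρ (J - spv_const H c) ≠ 0 := by
    rw [spv_rho_sub_const]; exact sub_ne_zero.mpr (hnc _)
  obtain ⟨DJ, hDJ⟩ := H.hpd (J : F) (spv_coe_ne_zero hJ0)
  have h1 : spv_negDeg D' = spv_negDeg DJ := by
    refine spv_negDeg_congr _ _ fun P => ?_
    rw [hD' P, hDJ P]
    exact spv_polar_sub_const P (J : F) (c : L)
  have h2 : spv_negDeg (Finsupp.mapDomain r D') = spv_negDeg (Finsupp.mapDomain r DJ) := by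
    refine spv_negDeg_congr _ _ fun Q => ?_
    rw [H.compat _ hJc0 D' hD' Q, H.compat J hJ0 DJ hDJ Q, spv_rho_sub_const]
    exact spv_polar_sub_const Q (ρ J) (π c)
  rw [h1, h2]
  exact hpol DJ hDJ

variable (H : ts_Hyp A π W ρ r) (J : W) (hnc : ∀ a : k, ρ J ≠ algebraMap k Fb a)
  (hpol : spv_PolarLe r (J : F))

include H hnc hpol

open Classical in
/-- **(3b) with multiplicities**: the polar part of `div (ρ J)` at `Q` is the sum of the polar
parts of `div J` over the residue disc of `Q`. -/
theorem spv_poles_fibre (DJ : Divisor L F) (hDJ : ∀ P, DJ P = P.ord (J : F)) (Q : Place k Fb) :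
    max (-(Q.ord (ρ J))) 0 =
      ∑ P ∈ DJ.support.filter (fun P => r P = Q), max (-(DJ P)) 0 := by
  classical
  have hJ0 : ρ J ≠ 0 := by simpa using hnc 0
  rw [← H.compat J hJ0 DJ hDJ Q]
  exact spv_fibre_neg r DJ (hpol DJ hDJ) Q

open Classical in
/-- **(3a) with multiplicities**: for `c ∈ A`, the zero part of `div (ρ J - c̄)` at `Q` is the sum
of the zero parts of `div (J - c)` over the residue disc of `Q`. -/
theorem spv_zeros_fibre (c : A) (D : Divisor L F)
    (hD : ∀ P, D P = P.ord ((J : F) - algebraMap L F (c : L))) (Q : Place k Fb) :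
    max (Q.ord (ρ J - algebraMap k Fb (π c))) 0 =
      ∑ P ∈ D.support.filter (fun P => r P = Q), max (D P) 0 := by
  classical
  have hJc0 : ρ (J - spv_const H c) ≠ 0 := by
    rw [spv_rho_sub_const]; exact sub_ne_zero.mpr (hnc _)
  have hD' : ∀ P, D P = P.ord ((J - spv_const H c : W) : F) := hD
  rw [← spv_rho_sub_const H J c, ← H.compat _ hJc0 D hD' Q]
  exact spv_fibre_pos r D (spv_polarLe_sub_const H J hnc hpol c D hD') Q

/-- **(3b)** poles of `J` reduce to poles of `ρ J`. -/
theorem spv_pole_of_pole (P : Place L F) (hP : P.ord (J : F) < 0) : (r P).ord (ρ J) < 0 := by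
  classical
  have hJ0 : ρ J ≠ 0 := by simpa using hnc 0
  obtain ⟨DJ, hDJ⟩ := H.hpd (J : F) (spv_coe_ne_zero hJ0)
  have h := spv_poles_fibre H J hnc hpol DJ hDJ (r P)
  have hmem : P ∈ DJ.support.filter (fun P' => r P' = r P) := by
    rw [Finset.mem_filter, Finsupp.mem_support_iff, hDJ P]
    exact ⟨by omega, rfl⟩
  have hle : max (-(DJ P)) 0 ≤ ∑ P' ∈ DJ.support.filter (fun P' => r P' = r P), max (-(DJ P')) 0 :=
    Finset.single_le_sum (f := fun P' => max (-(DJ P')) 0) (fun _ _ => le_max_right _ _) hmem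
  have hpos : 0 < max (-(DJ P)) 0 := by
    rw [hDJ P]; exact lt_max_of_lt_left (by omega)
  rw [← h] at hle
  by_contra hcon
  rw [not_lt] at hcon
  have hR : max (-((r P).ord (ρ J))) 0 = 0 := max_eq_right (by omega)
  rw [hR] at hle
  exact absurd (lt_of_lt_of_le hpos hle) (lt_irrefl _)

/-- **(3a)** if `J(P) = c ∈ A` then `(ρ J)(r P) = c̄`. -/
theorem spv_zero_of_zero (c : A) (P : Place L F)
    (hP : P.adicValuation ((J : F) - algebraMap L F (c : L)) < 1) :
    (r P).adicValuation (ρ J - algebraMap k Fb (π c)) < 1 := by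
  classical
  have hJc0 : ρ (J - spv_const H c) ≠ 0 := by
    rw [spv_rho_sub_const]; exact sub_ne_zero.mpr (hnc _)
  have hJcF : (J : F) - algebraMap L F (c : L) ≠ 0 := spv_coe_ne_zero hJc0
  obtain ⟨D, hD⟩ := H.hpd _ hJcF
  have h := spv_zeros_fibre H J hnc hpol c D hD (r P)
  have h1 : 1 ≤ P.ord ((J : F) - algebraMap L F (c : L)) :=
    ((ts_val_lt_one_iff P).mp hP).resolve_left hJcF
  have hmem : P ∈ D.support.filter (fun P' => r P' = r P) := by
    rw [Finset.mem_filter, Finsupp.mem_support_iff, hD P]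
    exact ⟨by omega, rfl⟩
  have hle : max (D P) 0 ≤ ∑ P' ∈ D.support.filter (fun P' => r P' = r P), max (D P') 0 :=
    Finset.single_le_sum (f := fun P' => max (D P') 0) (fun _ _ => le_max_right _ _) hmem
  have hpos : 1 ≤ max (D P) 0 := by
    rw [hD P]; exact le_max_of_le_left h1
  rw [← h] at hle
  rw [ts_val_lt_one_iff]
  right
  by_contra hcon
  rw [not_le] at hcon
  have hR : max ((r P).ord (ρ J - algebraMap k Fb (π c))) 0 = 0 := max_eq_right (by omega)
  rw [hR] at hle
  exact absurd (le_trans hpos hle) (by norm_num)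

/-- the residue disc of a place at which `ρ J` is regular contains no pole of `J`. -/
theorem spv_disc_regular (Q : Place k Fb) (hQ : 0 ≤ Q.ord (ρ J)) (P : Place L F) (hP : r P = Q) :
    P.adicValuation (J : F) ≤ 1 := by
  by_contra hcon
  rw [P.not_adicValuation_le_one_iff] at hcon
  have := spv_pole_of_pole H J hnc hpol P hcon
  rw [hP] at this
  omega

/-- **(3b)** `r P` is a pole of `ρ J` if and only if `J(P) ∉ A` (poles of `J` included). -/
theorem spv_pole_iff (P : Place L F) :
    (r P).ord (ρ J) < 0 ↔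
      ¬ ∃ c : A, P.adicValuation ((J : F) - algebraMap L F (c : L)) < 1 := by
  have hJ0 : ρ J ≠ 0 := by simpa using hnc 0
  constructor
  · rintro hpole ⟨c, hc⟩
    have h1 := spv_zero_of_zero H J hnc hpol c P hc
    have h2 : (r P).adicValuation (ρ J) ≤ 1 := by
      have h3 := (Valuation.map_add (r P).adicValuation (ρ J - algebraMap k Fb (π c))
        (algebraMap k Fb (π c))).trans
        (max_le h1.le ((r P).adicValuation_algebraMap_le_one _))
      simpa using h3
    have := spv_ord_nonneg_of_le_one (r P) hJ0 h2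
    omega
  · intro hno
    by_contra hreg
    rw [not_lt] at hreg
    -- `J` is regular on the whole residue disc of `r P`
    have hdisc := spv_disc_regular H J hnc hpol (r P) hreg
    obtain ⟨a, ha⟩ := H.eval P (J : F) (hdisc P rfl)
    have haA : a ∉ A := fun haA => hno ⟨⟨a, haA⟩, ha⟩
    have ha0 : a ≠ 0 := fun h => haA (h ▸ A.zero_mem)
    have haiA : a⁻¹ ∈ A := (A.mem_or_inv_mem a).resolve_left haA
    have hπ : π ⟨a⁻¹, haiA⟩ = 0 := H.pi_eq_zero haiA (by rwa [inv_inv])
    let ai : W := spv_const H ⟨a⁻¹, haiA⟩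
    let y : W := ai * J - 1
    have hρy : ρ y = -1 := by
      show ρ (ai * J - 1) = -1
      rw [map_sub, map_mul, map_one, spv_rho_const, hπ, map_zero, zero_mul, zero_sub]
    have hyF : (y : F) = algebraMap L F a⁻¹ * ((J : F) - algebraMap L F a) := by
      show algebraMap L F a⁻¹ * (J : F) - 1 = _
      rw [mul_sub, ← map_mul, inv_mul_cancel₀ ha0, map_one]
    have hregy : ∀ P', r P' = r P → P'.adicValuation (y : F) ≤ 1 := by
      intro P' hP'
      show P'.adicValuation (algebraMap L F a⁻¹ * (J : F) - 1) ≤ 1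
      refine (Valuation.map_sub _ _ _).trans (max_le ?_ ?_)
      · rw [map_mul]
        exact mul_le_one' (P'.adicValuation_algebraMap_le_one _) (hdisc P' hP')
      · rw [map_one]
    have hvan : P.adicValuation (y : F) < 1 := by
      rw [hyF, map_mul, ts_val_algebraMap P (inv_ne_zero ha0), one_mul]
      exact ha
    have := H.van_of_disc y (r P) hregy P rfl hvan
    rw [hρy, Valuation.map_neg, map_one] at this
    exact lt_irrefl _ this

/-- **chart 0**: the residue disc of a place where `ρ J` is regular consists of places with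
`J(P) ∈ A`. -/
theorem spv_disc_chart0 (Q : Place k Fb) (hQ : 0 ≤ Q.ord (ρ J)) (P : Place L F) (hP : r P = Q) :
    ∃ c : A, P.adicValuation ((J : F) - algebraMap L F (c : L)) < 1 := by
  by_contra hno
  have := (spv_pole_iff H J hnc hpol P).mpr hno
  rw [hP] at this
  omega

/-- **chart ∞**: the residue disc of a pole of `ρ J` consists of places with `J(P) ∉ A`; in
particular `J` does not vanish there. -/
theorem spv_disc_chartInf (Q : Place k Fb) (hQ : Q.ord (ρ J) < 0) (P : Place L F) (hP : r P = Q) :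
    (¬ ∃ c : A, P.adicValuation ((J : F) - algebraMap L F (c : L)) < 1) ∧
      ¬ P.adicValuation (J : F) < 1 := by
  have h1 := (spv_pole_iff H J hnc hpol P).mp (by rw [hP]; exact hQ)
  refine ⟨h1, fun h0 => h1 ⟨0, ?_⟩⟩
  simpa using h0

/-- **(3c) VALUE LEMMA, chart 0**: `g ∈ W` regular off the poles of `J`, `P₀` with `J(P₀) ∈ A`:
then `g(P₀) ∈ A` and `(ρ g)(r P₀) = g(P₀) mod m_A`. -/
theorem spv_value_chart0 (g : W)
    (hg : ∀ P : Place L F, P.adicValuation (J : F) ≤ 1 → P.adicValuation (g : F) ≤ 1)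
    (P₀ : Place L F) (hP₀ : ∃ c : A, P₀.adicValuation ((J : F) - algebraMap L F (c : L)) < 1) :
    ∃ (c' : L) (hc' : c' ∈ A), P₀.adicValuation ((g : F) - algebraMap L F c') < 1 ∧
      (r P₀).adicValuation (ρ g - algebraMap k Fb (π ⟨c', hc'⟩)) < 1 := by
  have hreg : 0 ≤ (r P₀).ord (ρ J) := by
    by_contra hcon
    rw [not_le] at hcon
    exact (spv_pole_iff H J hnc hpol P₀).mp hcon hP₀
  exact H.value g (r P₀)
    (fun P hP => hg P (spv_disc_regular H J hnc hpol (r P₀) hreg P hP)) P₀ rfl

/-- **(3c) VALUE LEMMA, chart ∞**: `g ∈ W` regular off the zeros of `J`, `P₀` with `J(P₀) ∉ A`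
(poles of `J` included): then `g(P₀) ∈ A` and `(ρ g)(r P₀) = g(P₀) mod m_A`. -/
theorem spv_value_chartInf (g : W)
    (hg : ∀ P : Place L F, ¬ P.adicValuation (J : F) < 1 → P.adicValuation (g : F) ≤ 1)
    (P₀ : Place L F)
    (hP₀ : ¬ ∃ c : A, P₀.adicValuation ((J : F) - algebraMap L F (c : L)) < 1) :
    ∃ (c' : L) (hc' : c' ∈ A), P₀.adicValuation ((g : F) - algebraMap L F c') < 1 ∧
      (r P₀).adicValuation (ρ g - algebraMap k Fb (π ⟨c', hc'⟩)) < 1 := by
  have hpole : (r P₀).ord (ρ J) < 0 := (spv_pole_iff H J hnc hpol P₀).mpr hP₀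
  exact H.value g (r P₀)
    (fun P hP => hg P (spv_disc_chartInf H J hnc hpol (r P₀) hpole P hP).2) P₀ rfl

omit hnc hpol J

/-- **(3d)** a simple zero of `ρ g` at `Q`, for `g ∈ W` regular on the residue disc of `Q`, comes
from exactly one (simple) zero of `g` in the disc. -/
theorem spv_simple (g : W) (Q : Place k Fb)
    (hreg : ∀ P, r P = Q → P.adicValuation (g : F) ≤ 1) (hQ : Q.ord (ρ g) = 1) :
    ∃ P₀, r P₀ = Q ∧ P₀.ord (g : F) = 1 ∧ ∀ P, r P = Q → P ≠ P₀ → P.ord (g : F) = 0 := by
  have hρg : ρ g ≠ 0 := by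
    intro h
    rw [h, Place.ord_zero] at hQ
    exact absurd hQ (by norm_num)
  have hg0 : (g : F) ≠ 0 := spv_coe_ne_zero hρg
  obtain ⟨D, hD⟩ := H.hpd (g : F) hg0
  have hc := H.compat g hρg D hD Q
  rw [hQ] at hc
  obtain ⟨P₀, hP₀, h1, hrest⟩ := ts_disc_unique r D Q
    (fun P hP => by rw [hD P]; exact spv_ord_nonneg_of_le_one P hg0 (hreg P hP)) hc
  refine ⟨P₀, hP₀, by rw [← hD P₀]; exact h1, fun P hP hne => ?_⟩
  rw [← hD P]
  exact hrest P hP hne

end Setup

end Fermat.Agent.S37x
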