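/-
S37 prep, block [B3] / [ES], VALUE ROUTE integrator file 2 (helper5, prefix `esvc_`):
the two charts.  `H : ts_Hyp A π W ρ r` and a coordinate `J : W` with helper82's standing inputs
`hnc` (the reduction of `J` is not constant) and `hpol : spv_PolarLe r J`.

* chart 0 : `S₀ = {P | J(P) ∈ A}`, reduced chart `{Q | 0 ≤ ord_Q (ρ J)}`;
* chart ∞ : `S∞ = {P | J(P) ∉ A}` (poles of `J` included), reduced chart `{Q | ord_Q (ρ J) < 0}`.

Both are unions of residue discs (`spv_pole_iff`), and `σ^{±1}`-stable downstairs as soon as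
`σ • ρ J = ρ J`.  `esvc_mapDomain_correspondence` : the `hT` shape for EVERY place `P`, from
* `hST`   : the chart is stable under the correspondence (`J(w|φ) ∈ A ↔ J(w|ψ) ∈ A`),
* `hKR`   : Kronecker for all `y ∈ W`, `c ∈ A`,
* `hsep0`, `hsepInf` : separation on the two reduced charts by reductions of functions regular on
  the corresponding chart upstairs.
-/
import Mathlib
import Fermat.Agent.S37x.EsValueTs
import Fermat.Agent.S37x.SpecValue

set_option autoImplicit false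

namespace Fermat.Agent.S37x

open AlgebraicCurve Fermat.Agent.S18x

section

variable {L k F Fb : Type*} [Field L] [Field k] [Field F] [Field Fb] [Algebra L F] [Algebra k Fb]
variable {A : ValuationSubring L} {π : A →+* k} {W : ValuationSubring F} {ρ : W →+* Fb}
  {r : Place L F → Place k Fb}

/-- the chart `J(P) ∈ A`. -/
def esvc_S0 (A : ValuationSubring L) (J : F) : Set (Place L F) :=
  {P | ∃ c : A, P.adicValuation (J - algebraMap L F (c : L)) < 1}

theorem esvc_mem_S0_iff (J : F) (P : Place L F) :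
    P ∈ esvc_S0 A J ↔ ∃ c : A, P.adicValuation (J - algebraMap L F (c : L)) < 1 := Iff.rfl

/-- `ord` is transported by a semilinear automorphism fixing the function. -/
theorem esvc_ord_smul_of_fixed (σ : SemilinearAut k Fb) {f : Fb} (hf : σ • f = f)
    (Q : Place k Fb) : (σ • Q).ord f = Q.ord f := by
  conv_lhs => rw [← hf]
  exact SemilinearAut.ord_smul σ Q f

theorem esvc_inv_smul_of_fixed (σ : SemilinearAut k Fb) {f : Fb} (hf : σ • f = f) :
    σ⁻¹ • f = f := by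
  rw [inv_smul_eq_iff, hf]

/-- **[ES] value route, both charts**: the `hT` shape for every place. -/
theorem esvc_mapDomain_correspondence [Infinite k] [IsAlgClosed L] [CharZero L]
    {F' : Type*} [Field F'] [Algebra L F'] [HasPrincipalDivisors L F']
    (φ ψ : F →ₐ[L] F') (hφ : φ.toRingHom.IsIntegral) (hψ : ψ.toRingHom.IsIntegral)
    (hfin : FiniteAlong L φ)
    (hF : ∀ v : Place L F, v.deg = 1) (hF' : ∀ w : Place L F', w.deg = 1)
    (hres : ∀ v : Place L F, Function.Surjective (algebraMap L v.ResidueField))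
    (H : ts_Hyp A π W ρ r) (J : W) (hnc : ∀ a : k, ρ J ≠ algebraMap k Fb a)
    (hpol : spv_PolarLe r (J : F))
    (σ : SemilinearAut k Fb) (ℓ : ℕ) (hσ : ∀ a : k, SemilinearAut.baseAut σ a = a ^ ℓ)
    (hσJ : σ • ρ J = ρ J)
    (hST : ∀ w : Place L F',
      w.restrictAlong φ hφ ∈ esvc_S0 A (J : F) ↔ w.restrictAlong ψ hψ ∈ esvc_S0 A (J : F))
    (hKR : ∀ (y : W) (c : A), ∃ n : W,
      (letI := algebraAlong φ
       haveI : Module.Finite F F' := hfin
       (n : F) = Algebra.norm F (algebraMap L F' (c : L) - ψ (y : F))) ∧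
      ρ n = (algebraMap k Fb (π c) - (σ⁻¹ • ρ y) ^ ℓ) * (algebraMap k Fb (π c ^ ℓ) - σ • ρ y))
    (hsep0 : ∀ T : Finset (Place k Fb), (∀ Q ∈ T, 0 ≤ Q.ord (ρ J)) →
      ∃ y : W, (∀ P ∈ esvc_S0 A (J : F), P.adicValuation (y : F) ≤ 1) ∧
        ∃ v : Place k Fb → k, Set.InjOn v (T : Set (Place k Fb)) ∧
          ∀ Q ∈ T, Q.adicValuation (ρ y - algebraMap k Fb (v Q)) < 1)
    (hsepInf : ∀ T : Finset (Place k Fb), (∀ Q ∈ T, Q.ord (ρ J) < 0) →
      ∃ y : W, (∀ P ∈ (esvc_S0 A (J : F))ᶜ, P.adicValuation (y : F) ≤ 1) ∧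
        ∃ v : Place k Fb → k, Set.InjOn v (T : Set (Place k Fb)) ∧
          ∀ Q ∈ T, Q.adicValuation (ρ y - algebraMap k Fb (v Q)) < 1)
    (P : Place L F) :
    Finsupp.mapDomain r (Divisor.correspondence φ ψ hφ hψ (Finsupp.single P 1))
      = Finsupp.single (σ • r P) 1 + Finsupp.single (σ⁻¹ • r P) (ℓ : ℤ) := by
  have hiff : ∀ P' : Place L F, P' ∈ esvc_S0 A (J : F) ↔ 0 ≤ (r P').ord (ρ J) := by
    intro P'
    rw [esvc_mem_S0_iff, ← not_lt, spv_pole_iff H J hnc hpol P', not_not]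
  have hσJ' : σ⁻¹ • ρ J = ρ J := esvc_inv_smul_of_fixed σ hσJ
  have hfib : ∀ (P₁ : Place L F) (w : Place L F'), w ∈ Place.fiberAlong φ hφ P₁ →
      (w.restrictAlong ψ hψ ∈ esvc_S0 A (J : F) ↔ P₁ ∈ esvc_S0 A (J : F)) := by
    intro P₁ w hw
    rw [← hST w, Place.mem_fiberAlong.mp hw]
  by_cases hP : P ∈ esvc_S0 A (J : F)
  · refine esv_mapDomain_correspondence φ ψ hφ hψ hfin hF hF' hres H σ ℓ hσ (esvc_S0 A (J : F))
      ?_ ?_ (fun y _ c => hKR y c) {Q | 0 ≤ Q.ord (ρ J)} ?_ ?_ ?_ hsep0 P hP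
    · intro P₁ P₂ h12 h1
      rw [hiff] at h1 ⊢
      rwa [← h12]
    · intro P₁ hP₁ w hw
      exact (hfib P₁ w hw).mpr hP₁
    · intro P₁ hP₁
      exact (hiff P₁).mp hP₁
    · intro Q hQ
      show 0 ≤ (σ • Q).ord (ρ J)
      rw [esvc_ord_smul_of_fixed σ hσJ]
      exact hQ
    · intro Q hQ
      show 0 ≤ (σ⁻¹ • Q).ord (ρ J)
      rw [esvc_ord_smul_of_fixed σ⁻¹ hσJ']
      exact hQ
  · refine esv_mapDomain_correspondence φ ψ hφ hψ hfin hF hF' hres H σ ℓ hσ (esvc_S0 A (J : F))ᶜ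
      ?_ ?_ (fun y _ c => hKR y c) {Q | Q.ord (ρ J) < 0} ?_ ?_ ?_ hsepInf P hP
    · intro P₁ P₂ h12 h1
      rw [Set.mem_compl_iff, hiff] at h1 ⊢
      rwa [← h12]
    · intro P₁ hP₁ w hw
      rw [Set.mem_compl_iff] at hP₁ ⊢
      rwa [hfib P₁ w hw]
    · intro P₁ hP₁
      rw [Set.mem_compl_iff, hiff, not_le] at hP₁
      exact hP₁
    · intro Q hQ
      show (σ • Q).ord (ρ J) < 0
      rw [esvc_ord_smul_of_fixed σ hσJ]
      exact hQ
    · intro Q hQ
      show (σ⁻¹ • Q).ord (ρ J) < 0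
      rw [esvc_ord_smul_of_fixed σ⁻¹ hσJ']
      exact hQ

end

end Fermat.Agent.S37x
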