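/-
S37 prep, block [B3], VALUE ROUTE, leaf (ST) = CHART STABILITY, level-`N` instance
(helper95, prefix `ecs_`, continuation of `S37x/EsChartStab.lean`).

* `ecs_hST`  : abstract `hST` hypothesis of `esvc_mapDomain_correspondence` (S37x/EsValueCharts):
  `∀ w, w|φ ∈ esvc_S0 A J ↔ w|ψ ∈ esvc_S0 A J`, from ONE monic `Φ ∈ ℤ[Y][X]` with the two vanishings
  `Φ(X := ψ J; Y := φ J) = 0 = Φ(X := φ J; Y := ψ J)`.
* `ecs_modPoly_rel` : at level `N ℓ` over `Q̄`, the classical modular polynomial `Φ_ℓ`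
  (S28x `exists_modPoly`) gives both vanishings for `α j = j(q)`, `β j = j(q^ℓ)`.
* `ecs_hST_levelN` / `ecs_hST_levelN'` : the `hST` hypothesis for `(φ, ψ) = (β, α)` (the Hecke
  correspondence `heckeOperatorAlong`) resp. `(α, β)` (its transpose), `J = jBar N`, any valuation
  subring `A` of `Q̄`.
* `ecs_hstab0_levelN`, `ecs_hstabInf_levelN` (+ primed transposes): the `hstab` shape of
  `esv_mapDomain_correspondence` for the two charts `ecs_chart0`, `ecs_chartInf`.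
-/
import Mathlib
import Fermat.Agent.S37x.EsChartStab
import Fermat.Agent.S37x.EsValueCharts
import Fermat.Agent.S37x.HeckeInputs
import Fermat.Agent.S28x.ModPoly
import Fermat.Agent.S24x.AlgDefs
import Fermat.Prelude.Def_ModularCurve_HeckeOperator
import Fermat.Prelude.Thm_ModularCurve_coeffMap_qExpand

set_option autoImplicit false

namespace Fermat.Agent.S37x

open AlgebraicCurve Polynomial ModularCurve Fermat.Agent.S24x Fermat.Agent.S28x

section Abstract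

variable {L F F' : Type*} [Field L] [Field F] [Field F'] [Algebra L F] [Algebra L F']

/-- helper5's chart `esvc_S0` is the chart `ecs_chart0`. -/
theorem ecs_mem_S0_iff_valIn (A : ValuationSubring L) (J : F) (P : Place L F) :
    P ∈ esvc_S0 A J ↔ ctm_valIn A P J := by
  rw [esvc_mem_S0_iff]
  constructor
  · rintro ⟨c, hc⟩
    exact ⟨(c : L), c.2, hc⟩
  · rintro ⟨a, ha, hc⟩
    exact ⟨⟨a, ha⟩, hc⟩

theorem ecs_S0_eq_chart0 (A : ValuationSubring L) (J : F) :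
    esvc_S0 A J = ecs_chart0 A J := by
  ext P
  rw [ecs_mem_S0_iff_valIn, ecs_mem_chart0]

theorem ecs_S0_compl_eq_chartInf (A : ValuationSubring L) (J : F) :
    (esvc_S0 A J)ᶜ = ecs_chartInf A J := by
  ext P
  rw [Set.mem_compl_iff, ecs_mem_S0_iff_valIn, ecs_mem_chartInf]

/-- **(ST), `hST` shape** of `esvc_mapDomain_correspondence`: the chart `J(P) ∈ A` is stable under
the correspondence in both directions. -/
theorem ecs_hST (φ ψ : F →ₐ[L] F') (hφ : φ.toRingHom.IsIntegral)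
    (hψ : ψ.toRingHom.IsIntegral) (A : ValuationSubring L) (J : F)
    (Φ : Polynomial (Polynomial ℤ)) (hΦ : Φ.Monic)
    (hrel : Φ.eval₂ (Polynomial.aeval (R := ℤ) (φ J)).toRingHom (ψ J) = 0)
    (hrel' : Φ.eval₂ (Polynomial.aeval (R := ℤ) (ψ J)).toRingHom (φ J) = 0)
    (hres' : ∀ w : Place L F', Function.Surjective (algebraMap L w.ResidueField)) :
    ∀ w : Place L F',
      w.restrictAlong φ hφ ∈ esvc_S0 A J ↔ w.restrictAlong ψ hψ ∈ esvc_S0 A J := by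
  intro w
  rw [ecs_mem_S0_iff_valIn, ecs_mem_S0_iff_valIn]
  exact ⟨ecs_valIn_of_valIn φ ψ hφ hψ A J Φ hΦ hrel w (hres' w),
    ecs_valIn_of_valIn ψ φ hψ hφ A J Φ hΦ hrel' w (hres' w)⟩

/-- transport of `Φ(X := x; Y := y) = 0` along a ring hom. -/
theorem ecs_eval₂_map_hom {R S : Type*} [CommRing R] [CommRing S] [Algebra ℤ R] [Algebra ℤ S]
    (g : R →+* S) (Φ : Polynomial (Polynomial ℤ)) (x y : R)
    (h : Φ.eval₂ (Polynomial.aeval (R := ℤ) y).toRingHom x = 0) :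
    Φ.eval₂ (Polynomial.aeval (R := ℤ) (g y)).toRingHom (g x) = 0 := by
  have hcomp : g.comp (Polynomial.aeval (R := ℤ) y).toRingHom =
      (Polynomial.aeval (R := ℤ) (g y)).toRingHom := by
    apply Polynomial.ringHom_ext
    · intro n
      simp only [AlgHom.toRingHom_eq_coe, eq_intCast, map_intCast]
    · simp
  rw [← hcomp, ← Polynomial.hom_eval₂, h, map_zero]

/-- ... and back along an injective ring hom. -/
theorem ecs_eval₂_of_map_hom {R S : Type*} [CommRing R] [CommRing S] [Algebra ℤ R]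
    [Algebra ℤ S] (g : R →+* S)
    (hg : Function.Injective g) (Φ : Polynomial (Polynomial ℤ)) (x y : R)
    (h : Φ.eval₂ (Polynomial.aeval (R := ℤ) (g y)).toRingHom (g x) = 0) :
    Φ.eval₂ (Polynomial.aeval (R := ℤ) y).toRingHom x = 0 := by
  have hcomp : g.comp (Polynomial.aeval (R := ℤ) y).toRingHom =
      (Polynomial.aeval (R := ℤ) (g y)).toRingHom := by
    apply Polynomial.ringHom_ext
    · intro n
      simp only [AlgHom.toRingHom_eq_coe, eq_intCast, map_intCast]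
    · simp
  apply hg
  rw [Polynomial.hom_eval₂, hcomp, h, map_zero]

end Abstract

section LevelN

local notation "Q̄" => AlgebraicClosure ℚ

variable (N ℓ : ℕ) [NeZero N] [Fact ℓ.Prime]

/-- the two modular relations between `α j = j(q)` and `β j = j(q^ℓ)` in `F_{Nℓ}(Q̄)`:
one monic `Φ = Φ_ℓ ∈ ℤ[Y][X]` with `Φ(X := α j; Y := β j) = 0 = Φ(X := β j; Y := α j)`. -/
theorem ecs_modPoly_rel :
    haveI : NeZero ℓ := ⟨(Fact.out : ℓ.Prime).ne_zero⟩
    ∃ Φ : Polynomial (Polynomial ℤ), Φ.Monic ∧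
      Φ.eval₂ (Polynomial.aeval (R := ℤ) (heckeBetaBar Q̄ N ℓ (jBar N))).toRingHom
        (heckeAlphaBar Q̄ N ℓ (jBar N)) = 0 ∧
      Φ.eval₂ (Polynomial.aeval (R := ℤ) (heckeAlphaBar Q̄ N ℓ (jBar N))).toRingHom
        (heckeBetaBar Q̄ N ℓ (jBar N)) = 0 := by
  have : NeZero ℓ := ⟨(Fact.out : ℓ.Prime).ne_zero⟩
  obtain ⟨Φ, hΦ, -, h1, h2⟩ := exists_modPoly ℓ
  have hα : algebraMap (modularFunctionFieldBar (N * ℓ)) (LaurentSeries Q̄)
      (heckeAlphaBar Q̄ N ℓ (jBar N)) = coeffEmb Q̄ jq := by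
    show ((heckeAlphaBar Q̄ N ℓ (jBar N) : modularFunctionFieldBar (N * ℓ)) : LaurentSeries Q̄) = _
    rw [coe_heckeAlphaBar, coe_jBar]
  have hβ : algebraMap (modularFunctionFieldBar (N * ℓ)) (LaurentSeries Q̄)
      (heckeBetaBar Q̄ N ℓ (jBar N)) = coeffEmb Q̄ (qExpand ℚ ℓ jq) := by
    show ((heckeBetaBar Q̄ N ℓ (jBar N) : modularFunctionFieldBar (N * ℓ)) : LaurentSeries Q̄) = _
    rw [coe_heckeBetaBar, coe_jBar, coeffEmb, coeffMap_qExpand]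
  refine ⟨Φ, hΦ, ?_, ?_⟩
  · apply ecs_eval₂_of_map_hom (algebraMap (modularFunctionFieldBar (N * ℓ)) (LaurentSeries Q̄))
      (algebraMap (modularFunctionFieldBar (N * ℓ)) (LaurentSeries Q̄)).injective
    rw [hα, hβ]
    exact ecs_eval₂_map_hom (coeffEmb Q̄) Φ _ _ h2
  · apply ecs_eval₂_of_map_hom (algebraMap (modularFunctionFieldBar (N * ℓ)) (LaurentSeries Q̄))
      (algebraMap (modularFunctionFieldBar (N * ℓ)) (LaurentSeries Q̄)).injective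
    rw [hα, hβ]
    exact ecs_eval₂_map_hom (coeffEmb Q̄) Φ _ _ h1

/-- **(ST) at level `N`, `hST` shape**, for the Hecke correspondence `(φ, ψ) = (β, α)`
(= `heckeOperatorAlong`), `J = j`, every valuation subring `A` of `Q̄`. -/
theorem ecs_hST_levelN (A : ValuationSubring Q̄) :
    haveI : NeZero ℓ := ⟨(Fact.out : ℓ.Prime).ne_zero⟩
    ∀ (hβ : (heckeBetaBar Q̄ N ℓ).toRingHom.IsIntegral)
      (hα : (heckeAlphaBar Q̄ N ℓ).toRingHom.IsIntegral)
      (w : Place Q̄ (FBar (N * ℓ))),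
      w.restrictAlong (heckeBetaBar Q̄ N ℓ) hβ ∈ esvc_S0 A (jBar N) ↔
        w.restrictAlong (heckeAlphaBar Q̄ N ℓ) hα ∈ esvc_S0 A (jBar N) := by
  have : NeZero ℓ := ⟨(Fact.out : ℓ.Prime).ne_zero⟩
  intro hβ hα
  obtain ⟨Φ, hΦ, h1, h2⟩ := ecs_modPoly_rel N ℓ
  exact ecs_hST (heckeBetaBar Q̄ N ℓ) (heckeAlphaBar Q̄ N ℓ) hβ hα A (jBar N) Φ hΦ h1 h2
    (hki_residue_surjective (N * ℓ))

/-- **(ST) at level `N`, `hST` shape**, for the transposed correspondence `(φ, ψ) = (α, β)`. -/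
theorem ecs_hST_levelN' (A : ValuationSubring Q̄) :
    haveI : NeZero ℓ := ⟨(Fact.out : ℓ.Prime).ne_zero⟩
    ∀ (hα : (heckeAlphaBar Q̄ N ℓ).toRingHom.IsIntegral)
      (hβ : (heckeBetaBar Q̄ N ℓ).toRingHom.IsIntegral)
      (w : Place Q̄ (FBar (N * ℓ))),
      w.restrictAlong (heckeAlphaBar Q̄ N ℓ) hα ∈ esvc_S0 A (jBar N) ↔
        w.restrictAlong (heckeBetaBar Q̄ N ℓ) hβ ∈ esvc_S0 A (jBar N) := by
  have : NeZero ℓ := ⟨(Fact.out : ℓ.Prime).ne_zero⟩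
  intro hα hβ w
  exact (ecs_hST_levelN N ℓ A hβ hα w).symm

variable [HasPrincipalDivisors Q̄ (FBar (N * ℓ))]

/-- **(ST) at level `N`, `hstab` shape, chart 0** (for `esv_mapDomain_correspondence`). -/
theorem ecs_hstab0_levelN (A : ValuationSubring Q̄) :
    haveI : NeZero ℓ := ⟨(Fact.out : ℓ.Prime).ne_zero⟩
    ∀ (hβ : (heckeBetaBar Q̄ N ℓ).toRingHom.IsIntegral)
      (hα : (heckeAlphaBar Q̄ N ℓ).toRingHom.IsIntegral),
      ∀ P ∈ ecs_chart0 A (jBar N), ∀ w ∈ Place.fiberAlong (heckeBetaBar Q̄ N ℓ) hβ P,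
        w.restrictAlong (heckeAlphaBar Q̄ N ℓ) hα ∈ ecs_chart0 A (jBar N) := by
  have : NeZero ℓ := ⟨(Fact.out : ℓ.Prime).ne_zero⟩
  intro hβ hα
  obtain ⟨Φ, hΦ, h1, -⟩ := ecs_modPoly_rel N ℓ
  exact ecs_hstab0 (heckeBetaBar Q̄ N ℓ) (heckeAlphaBar Q̄ N ℓ) hβ hα A (jBar N) Φ hΦ h1
    (hki_residue_surjective (N * ℓ))

/-- **(ST) at level `N`, `hstab` shape, chart ∞** (the complement of chart 0). -/
theorem ecs_hstabInf_levelN (A : ValuationSubring Q̄) :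
    haveI : NeZero ℓ := ⟨(Fact.out : ℓ.Prime).ne_zero⟩
    ∀ (hβ : (heckeBetaBar Q̄ N ℓ).toRingHom.IsIntegral)
      (hα : (heckeAlphaBar Q̄ N ℓ).toRingHom.IsIntegral),
      ∀ P ∈ ecs_chartInf A (jBar N), ∀ w ∈ Place.fiberAlong (heckeBetaBar Q̄ N ℓ) hβ P,
        w.restrictAlong (heckeAlphaBar Q̄ N ℓ) hα ∈ ecs_chartInf A (jBar N) := by
  have : NeZero ℓ := ⟨(Fact.out : ℓ.Prime).ne_zero⟩
  intro hβ hα
  obtain ⟨Φ, hΦ, -, h2⟩ := ecs_modPoly_rel N ℓ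
  exact ecs_hstabInf (heckeBetaBar Q̄ N ℓ) (heckeAlphaBar Q̄ N ℓ) hβ hα A (jBar N) Φ hΦ h2
    (hki_residue_surjective (N * ℓ))

/-- transposed correspondence `(φ, ψ) = (α, β)`, chart 0. -/
theorem ecs_hstab0_levelN' (A : ValuationSubring Q̄) :
    haveI : NeZero ℓ := ⟨(Fact.out : ℓ.Prime).ne_zero⟩
    ∀ (hα : (heckeAlphaBar Q̄ N ℓ).toRingHom.IsIntegral)
      (hβ : (heckeBetaBar Q̄ N ℓ).toRingHom.IsIntegral),
      ∀ P ∈ ecs_chart0 A (jBar N), ∀ w ∈ Place.fiberAlong (heckeAlphaBar Q̄ N ℓ) hα P,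
        w.restrictAlong (heckeBetaBar Q̄ N ℓ) hβ ∈ ecs_chart0 A (jBar N) := by
  have : NeZero ℓ := ⟨(Fact.out : ℓ.Prime).ne_zero⟩
  intro hα hβ
  obtain ⟨Φ, hΦ, -, h2⟩ := ecs_modPoly_rel N ℓ
  exact ecs_hstab0 (heckeAlphaBar Q̄ N ℓ) (heckeBetaBar Q̄ N ℓ) hα hβ A (jBar N) Φ hΦ h2
    (hki_residue_surjective (N * ℓ))

/-- transposed correspondence `(φ, ψ) = (α, β)`, chart ∞. -/
theorem ecs_hstabInf_levelN' (A : ValuationSubring Q̄) :
    haveI : NeZero ℓ := ⟨(Fact.out : ℓ.Prime).ne_zero⟩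
    ∀ (hα : (heckeAlphaBar Q̄ N ℓ).toRingHom.IsIntegral)
      (hβ : (heckeBetaBar Q̄ N ℓ).toRingHom.IsIntegral),
      ∀ P ∈ ecs_chartInf A (jBar N), ∀ w ∈ Place.fiberAlong (heckeAlphaBar Q̄ N ℓ) hα P,
        w.restrictAlong (heckeBetaBar Q̄ N ℓ) hβ ∈ ecs_chartInf A (jBar N) := by
  have : NeZero ℓ := ⟨(Fact.out : ℓ.Prime).ne_zero⟩
  intro hα hβ
  obtain ⟨Φ, hΦ, h1, -⟩ := ecs_modPoly_rel N ℓ
  exact ecs_hstabInf (heckeAlphaBar Q̄ N ℓ) (heckeBetaBar Q̄ N ℓ) hα hβ A (jBar N) Φ hΦ h1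
    (hki_residue_surjective (N * ℓ))

end LevelN

end Fermat.Agent.S37x
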