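/-
S37 prep, block [B3], [ES] value route, input (I3) = `hKR` WIRING (helper55, prefix `eski_`).

The literal `hKR` hypothesis of helper5's `esvc_mapDomain_correspondence`
(S37x/EsValueCharts.lean) at `φ = heckeBetaBar Q̄ N ℓ`, `ψ = heckeAlphaBar Q̄ N ℓ`,
`σ = cfb_frob k N ℓ`, for ANY Gauss-type pair `(W, ρ)` on `F_N = FBar N` whose membership and
residue map are those of the ambient Gauss ring `ga_W A π ⊂ Q̄((q))`
(`hWmem`, `hρcoe`: true for `s18f_W / s18f_rho` and for `nrmt_W / nrmt_rho`):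

  for `y ∈ W`, `c ∈ A`:  `n := N_{F_{Nℓ}/β F_N}(c - α y) ∈ W`  and
  `ρ n = (c̄ - (σ⁻¹ • ρ y)^ℓ) (c̄^ℓ - σ • ρ y)`.

Ingredients: helper16's closed form `esci_norm_eq_bar` (STEP 2), helper12's `kra_nc_eq_prod`
(KraGlue) + `kra_nc_mem_W` / `kra_rho_nc_charP` (KraGauss), helper48's `cfb_` (CoeffFrob).

* `eski_prod_eq`       : `esc_prod ℓ ζ c y = ∏_{b : Fin ℓ} (c - y(ζ^b q))` (dialect bridge
  `pxs_rescale` ↔ `lf_rescale`, `ZMod ℓ` ↔ `Fin ℓ`);
* `eski_coe_norm`      : the `q`-expansion of `N_{E/βF}(c - α y)` is `kra_nc ℓ c y`;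
* `eski_norm_mem`, `eski_rho_norm` : the Gauss-ring statements in ambient form;
* `eski_hKR`           : the literal `hKR`.
-/
import Mathlib
import Fermat.Agent.S37x.EsConjInstBar
import Fermat.Agent.S37x.KraGauss
import Fermat.Agent.S37x.KraGlue
import Fermat.Agent.S37x.CoeffFrob
import Fermat.Agent.S18x.GaussA

set_option autoImplicit false

namespace Fermat.Agent.S37x

open ModularCurve AlgebraicCurve HahnSeries Fermat.Agent.S18x Fermat.Agent.S24x Fermat.Agent.S28x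

noncomputable section

set_option synthInstance.maxHeartbeats 400000

local notation "Q̄" => AlgebraicClosure ℚ

section Bridge

variable {L : Type*} [Field L] (ℓ : ℕ) [NeZero ℓ] [Fact ℓ.Prime]

omit [NeZero ℓ] [Fact ℓ.Prime] in
/-- `pxs_rescale` and `lf_rescale` agree -/
theorem eski_rescale_eq (ζ : Lˣ) (n : ℕ) (h0 : ((ζ : L) ^ n) ≠ 0) (y : LaurentSeries L) :
    pxs_rescale L (ζ ^ n) y = lf_rescale ((ζ : L) ^ n) h0 y := by
  ext m
  rw [pxs_rescale_coeff, lf_rescale_coeff, Units.val_zpow_eq_zpow_val, Units.val_pow_eq_pow_val]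

/-- the product over `ZMod ℓ` of helper60 is the product over `Fin ℓ` of helper12 -/
theorem eski_prod_eq (ζ : Lˣ) (c : L) (y : LaurentSeries L) :
    esc_prod ℓ ζ c y =
      ∏ b : Fin ℓ, ((HahnSeries.C c : LaurentSeries L) -
        lf_rescale ((ζ : L) ^ (b : ℕ)) (pow_ne_zero _ ζ.ne_zero) y) := by
  unfold esc_prod
  let e : ZMod ℓ → Fin ℓ := fun i => ⟨i.val, ZMod.val_lt i⟩
  have he : Function.Bijective e := by
    rw [Fintype.bijective_iff_injective_and_card]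
    refine ⟨fun i i' h => ZMod.val_injective ℓ (Fin.mk.inj_iff.mp h), ?_⟩
    rw [ZMod.card, Fintype.card_fin]
  refine Fintype.prod_bijective e he _ _ fun i => ?_
  unfold esc_R
  rw [eski_rescale_eq ζ i.val (pow_ne_zero _ ζ.ne_zero)]

end Bridge

section Norm

variable (N ℓ : ℕ) [NeZero N] [NeZero ℓ] [Fact ℓ.Prime]

/-- **the `q`-expansion of the norm** `N_{F_{Nℓ}/β F_N}(c - α y)` is `kra_nc ℓ c y`. -/
theorem eski_coe_norm (hℓN : ¬ ℓ ∣ N) (y : FBar N) (c : Q̄) :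
    letI := algebraAlong (heckeBetaBar Q̄ N ℓ)
    ((Algebra.norm (FBar N)
        (algebraMap Q̄ (FBar (N * ℓ)) c - heckeAlphaBar Q̄ N ℓ y) : FBar N) : LaurentSeries Q̄) =
      kra_nc ℓ c (y : LaurentSeries Q̄) := by
  obtain ⟨ξ, hξ⟩ := HasEnoughRootsOfUnity.exists_primitiveRoot Q̄ ℓ
  set ζ : Q̄ˣ := Units.mk0 ξ (hξ.ne_zero (NeZero.ne ℓ)) with hζdef
  have hζ : IsPrimitiveRoot ζ ℓ := by
    rw [← IsPrimitiveRoot.coe_units_iff]
    exact hξ
  have h1 := esci_norm_eq_bar N ℓ hℓN ζ hζ y c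
  have h2 := kra_nc_eq_prod (K := Q̄) ℓ hξ c (y : LaurentSeries Q̄)
  have h3 := eski_prod_eq ℓ ζ c (y : LaurentSeries Q̄)
  apply qExpand_injective ℓ
  rw [h2]
  rw [coe_heckeBetaBar] at h1
  rw [h1, h3]
  rfl

end Norm

section Gauss

variable {N ℓ : ℕ} [NeZero N] [NeZero ℓ] [Fact ℓ.Prime] (hℓN : ¬ ℓ ∣ N)
variable (A : ValuationSubring Q̄) {k : Type*} [Field k] (π : A →+* k)

include hℓN in
/-- the norm lies in the ambient Gauss ring -/
theorem eski_norm_mem (y : FBar N) (hy : (y : LaurentSeries Q̄) ∈ ga_W A π) (c : A) :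
    letI := algebraAlong (heckeBetaBar Q̄ N ℓ)
    ((Algebra.norm (FBar N)
        (algebraMap Q̄ (FBar (N * ℓ)) (c : Q̄) - heckeAlphaBar Q̄ N ℓ y) : FBar N) :
          LaurentSeries Q̄) ∈ ga_W A π := by
  rw [eski_coe_norm N ℓ hℓN y (c : Q̄)]
  exact kra_nc_mem_W A π ℓ c hy

include hℓN in
/-- the residue of the norm (Kronecker congruence, ambient form) -/
theorem eski_rho_norm [CharP k ℓ] (y : FBar N) (hy : (y : LaurentSeries Q̄) ∈ ga_W A π) (c : A) :
    letI := algebraAlong (heckeBetaBar Q̄ N ℓ)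
    ga_rho A π ⟨((Algebra.norm (FBar N)
        (algebraMap Q̄ (FBar (N * ℓ)) (c : Q̄) - heckeAlphaBar Q̄ N ℓ y) : FBar N) :
          LaurentSeries Q̄), eski_norm_mem hℓN A π y hy c⟩ =
      ((HahnSeries.C (π c) : LaurentSeries k) - qExpand k ℓ (ga_rho A π ⟨y, hy⟩)) *
        ((HahnSeries.C (π c ^ ℓ) : LaurentSeries k) -
          coeffMap (frobenius k ℓ) (ga_rho A π ⟨y, hy⟩)) := by
  rw [← kra_rho_nc_charP A π ℓ c hy]
  exact ga_rho_congr A π (eski_coe_norm N ℓ hℓN y (c : Q̄)) _ _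

end Gauss

section KR

variable {N ℓ : ℕ} [NeZero N] [NeZero ℓ] [Fact ℓ.Prime] (hℓN : ¬ ℓ ∣ N)
variable (A : ValuationSubring Q̄) {k : Type*} [Field k] (π : A →+* k)
  [CharP k ℓ] [PerfectRing k ℓ]

omit [NeZero N] [NeZero ℓ] in
/-- `(σ⁻¹ • x)^ℓ = x(q^ℓ)` on `q`-expansions -/
theorem eski_coe_frob_inv_pow [NeZero ℓ] (x : modularFunctionFieldFullC k N) :
    ((((cfb_frob k N ℓ)⁻¹ • x) ^ ℓ : modularFunctionFieldFullC k N) : LaurentSeries k) =
      qExpand k ℓ (x : LaurentSeries k) := by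
  rw [← cfb_qPow_apply, cfb_coe_qPow]

include hℓN in
/-- **the literal `hKR`** of `esvc_mapDomain_correspondence` for a Gauss-type pair `(W, ρ)` on
`F_N` given in ambient form. -/
theorem eski_hKR (W : ValuationSubring (FBar N)) (ρ : W →+* modularFunctionFieldFullC k N)
    (hWmem : ∀ x : FBar N, x ∈ W ↔ (x : LaurentSeries Q̄) ∈ ga_W A π)
    (hρcoe : ∀ x : W, ((ρ x : modularFunctionFieldFullC k N) : LaurentSeries k) =
      ga_rho A π ⟨((x : FBar N) : LaurentSeries Q̄), (hWmem x).mp x.2⟩)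
    (y : W) (c : A) :
    ∃ n : W,
      (letI := algebraAlong (heckeBetaBar Q̄ N ℓ)
       (n : FBar N) = Algebra.norm (FBar N)
        (algebraMap Q̄ (FBar (N * ℓ)) (c : Q̄) - heckeAlphaBar Q̄ N ℓ (y : FBar N))) ∧
      ρ n = (algebraMap k (modularFunctionFieldFullC k N) (π c) -
          ((cfb_frob k N ℓ)⁻¹ • ρ y) ^ ℓ) *
        (algebraMap k (modularFunctionFieldFullC k N) (π c ^ ℓ) - cfb_frob k N ℓ • ρ y) := by
  let _ := algebraAlong (heckeBetaBar Q̄ N ℓ)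
  have hy : ((y : FBar N) : LaurentSeries Q̄) ∈ ga_W A π := (hWmem y).mp y.2
  have hn : Algebra.norm (FBar N)
      (algebraMap Q̄ (FBar (N * ℓ)) (c : Q̄) - heckeAlphaBar Q̄ N ℓ (y : FBar N)) ∈ W :=
    (hWmem _).mpr (eski_norm_mem hℓN A π (y : FBar N) hy c)
  refine ⟨⟨_, hn⟩, rfl, ?_⟩
  apply Subtype.ext
  rw [hρcoe]
  have h1 := eski_rho_norm hℓN A π (y : FBar N) hy c
  rw [h1]
  have h2 : ga_rho A π ⟨((y : FBar N) : LaurentSeries Q̄), hy⟩ =
      ((ρ y : modularFunctionFieldFullC k N) : LaurentSeries k) := (hρcoe y).symm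
  rw [h2]
  have hC : ∀ a : k, ((algebraMap k (modularFunctionFieldFullC k N) a :
      modularFunctionFieldFullC k N) : LaurentSeries k) = HahnSeries.C a := by
    intro a
    show algebraMap k (LaurentSeries k) a = HahnSeries.C a
    rw [algebraMap_laurentSeries_eq_single, HahnSeries.C_apply]
  show _ = ((algebraMap k (modularFunctionFieldFullC k N) (π c) -
          ((cfb_frob k N ℓ)⁻¹ • ρ y) ^ ℓ : modularFunctionFieldFullC k N) : LaurentSeries k) *
        ((algebraMap k (modularFunctionFieldFullC k N) (π c ^ ℓ) - cfb_frob k N ℓ • ρ y :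
          modularFunctionFieldFullC k N) : LaurentSeries k)
  rw [AddSubgroupClass.coe_sub, AddSubgroupClass.coe_sub, hC, hC, eski_coe_frob_inv_pow,
    cfb_coe_frob_smul]

end KR

end

end Fermat.Agent.S37x
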