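/-
S37x/EsValueSep.lean (helper27, S37 prep [B3], VALUE route input (I4), prefix `esvs_`):
the two separation hypotheses `hsep0` / `hsepInf` of `esvc_mapDomain_correspondence`
(`S37x/EsValueCharts`, helper5) in the ABSTRACT `ctm_` vocabulary of `S37x/CtmDefs`:

* `esvs_hsep0`   : from `ctm_Coord J` and normality of the finite chart `ctm_Int J`;
* `esvs_hsepInf` : from `ctm_Coord J`, `J * Jinv = 1` and normality of the chart at infinity
                   `ctm_Int Jinv`.

Proof: a separating function in the Dedekind chart ring `ringB k (ρ J)` (resp. `ringB k (ρ Jinv)`)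
exists by CRT (`pcrt_exists_separating`); it lifts through `ρ` to some `u ∈ W` integral over `L[J]`
(resp. `L[Jinv]`), and such a `u` is regular wherever `J` (resp. `Jinv`) is, in particular on the
chart `esvc_S0 A J` (resp. on its complement: off the chart `J(P) ∈ A` one has `J(P) ≠ 0`).
-/
import Mathlib
import Fermat.Agent.S37x.CtmCompat
import Fermat.Agent.S37x.EsValueCharts

set_option autoImplicit false

namespace Fermat.Agent.S37x

open AlgebraicCurve IsDedekindDomain IntermediateField Fermat.Agent.S18x Fermat.Agent.S24x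
open scoped IntermediateField.algebraAdjoinAdjoin

variable {L k F Fb : Type*} [Field L] [Field k] [Field F] [Field Fb] [Algebra L F] [Algebra k Fb]
variable {A : ValuationSubring L} {W : ValuationSubring F} {ρ : W →+* Fb}

/-- `u` integral over `L[g]` is regular wherever `g` is. -/
theorem esvs_mem_of_isIntegral (P : Place L F) {g u : F} (hg : g ∈ P.toValuationSubring)
    (hu : IsIntegral (Algebra.adjoin L {g}) u) : u ∈ P.toValuationSubring := by
  refine nrd_mem_of_isIntegral P (Algebra.adjoin L {g}).toSubring ?_ hu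
  intro x hx
  have hle : Algebra.adjoin L {g} ≤ (⟨P.toValuationSubring.toSubring.toSubsemiring,
      fun c => P.algebraMap_mem' c⟩ : Subalgebra L F) := by
    rw [Algebra.adjoin_le_iff]
    rintro y hy
    rw [Set.mem_singleton_iff] at hy
    subst hy
    exact hg
  exact hle hx

/-- the separating function on one chart, in the `ρ`-lifted form. -/
theorem esvs_sep_chart [Infinite k] {g : W} (hgb : pls_IsSepCoordinate k Fb (ρ g))
    (hint : ctm_Int L k W ρ g) (T : Finset (Place k Fb))
    (hT : ∀ Q ∈ T, ρ g ∈ Q.toValuationSubring) :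
    ∃ y : W, IsIntegral (Algebra.adjoin L {(g : F)}) (y : F) ∧
      ∃ v : Place k Fb → k, Set.InjOn v (T : Set (Place k Fb)) ∧
        ∀ Q ∈ T, Q.adicValuation (ρ y - algebraMap k Fb (v Q)) < 1 := by
  classical
  have : FFData k Fb (ρ g) := ⟨hgb.coord.transcendental, hgb.coord.finite⟩
  have := hgb.sep
  have : IsDedekindDomain (ringB k (ρ g)) :=
    integralClosure.isDedekindDomain (ringA k (ρ g)) k⟮ρ g⟯ Fb
  have hS : ∀ Q ∈ T, ∀ b : ringB k (ρ g),
      algebraMap (ringB k (ρ g)) Fb b ∈ Q.toValuationSubring := by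
    intro Q hQ b
    exact vtp_ringB_mem Q.toValuationSubring Q.algebraMap_mem' (hT Q hQ) b
  obtain ⟨ub, v, hv, hub⟩ := pcrt_exists_separating (K := k) (F := Fb) (ringB k (ρ g)) T hS
  obtain ⟨u, hu, hui⟩ := hint (ub : Fb) ub.2
  refine ⟨u, hui, v, hv, fun Q hQ => ?_⟩
  rw [hu, ← ctm_nonunits_iff]
  exact hub Q hQ

/-- **(I4), finite chart**: the `hsep0` hypothesis of `esvc_mapDomain_correspondence`. -/
theorem esvs_hsep0 [Infinite k] {J : W} (hJ : ctm_Coord L k W ρ J) (hint0 : ctm_Int L k W ρ J) :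
    ∀ T : Finset (Place k Fb), (∀ Q ∈ T, 0 ≤ Q.ord (ρ J)) →
      ∃ y : W, (∀ P ∈ esvc_S0 A (J : F), P.adicValuation (y : F) ≤ 1) ∧
        ∃ v : Place k Fb → k, Set.InjOn v (T : Set (Place k Fb)) ∧
          ∀ Q ∈ T, Q.adicValuation (ρ y - algebraMap k Fb (v Q)) < 1 := by
  intro T hT
  obtain ⟨y, hyi, v, hv, hval⟩ := esvs_sep_chart hJ.sepb hint0 T
    (fun Q hQ => (nrd_mem_iff Q (ρ J)).mpr (hT Q hQ))
  refine ⟨y, fun P hP => ?_, v, hv, hval⟩
  obtain ⟨c, hc⟩ := hP
  have hJP : (J : F) ∈ P.toValuationSubring := by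
    have h1 : (J : F) - algebraMap L F (c : L) ∈ P.toValuationSubring :=
      ctm_mem_of_val_le_one P hc.le
    have h2 := P.toValuationSubring.add_mem _ _ h1 (P.algebraMap_mem' (c : L))
    simpa using h2
  exact P.adicValuation_le_one_of_mem (esvs_mem_of_isIntegral P hJP hyi)

/-- **(I4), chart at infinity**: the `hsepInf` hypothesis of `esvc_mapDomain_correspondence`. -/
theorem esvs_hsepInf [Infinite k] {J Jinv : W} (hJJ : J * Jinv = 1) (hJ : ctm_Coord L k W ρ J)
    (hintInf : ctm_Int L k W ρ Jinv) :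
    ∀ T : Finset (Place k Fb), (∀ Q ∈ T, Q.ord (ρ J) < 0) →
      ∃ y : W, (∀ P ∈ (esvc_S0 A (J : F))ᶜ, P.adicValuation (y : F) ≤ 1) ∧
        ∃ v : Place k Fb → k, Set.InjOn v (T : Set (Place k Fb)) ∧
          ∀ Q ∈ T, Q.adicValuation (ρ y - algebraMap k Fb (v Q)) < 1 := by
  intro T hT
  have h1F : (J : F) * (Jinv : F) = 1 := by
    have := congrArg Subtype.val hJJ
    simpa using this
  have hρJJ : ρ J * ρ Jinv = 1 := by rw [← map_mul, hJJ, map_one]
  have hρJinv : ρ Jinv = (ρ J)⁻¹ := eq_inv_of_mul_eq_one_right hρJJ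
  have hJinvF : (Jinv : F) = (J : F)⁻¹ := eq_inv_of_mul_eq_one_right h1F
  have hxinv : ctm_Coord L k W ρ Jinv := hJ.inv hJJ
  obtain ⟨y, hyi, v, hv, hval⟩ := esvs_sep_chart hxinv.sepb hintInf T (fun Q hQ => by
    rw [nrd_mem_iff, hρJinv, Q.ord_inv]
    have := hT Q hQ
    omega)
  refine ⟨y, fun P hP => ?_, v, hv, hval⟩
  have hJinvP : (Jinv : F) ∈ P.toValuationSubring := by
    by_contra hn
    apply hP
    -- `J = Jinv⁻¹` is then a non-unit of `O_P`: value `0 ∈ A`
    have hJmem : (J : F) ∈ P.toValuationSubring := by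
      rcases P.toValuationSubring.mem_or_inv_mem (Jinv : F) with h | h
      · exact absurd h hn
      · rwa [hJinvF, inv_inv] at h
    have hJnon : (J : F) ∈ P.toValuationSubring.nonunits := by
      rw [ValuationSubring.mem_nonunits_iff_exists_mem_maximalIdeal]
      refine ⟨hJmem, ?_⟩
      rw [IsLocalRing.mem_maximalIdeal, mem_nonunits_iff]
      intro hunit
      apply hn
      obtain ⟨w, hw⟩ := hunit.exists_right_inv
      have hw' : (J : F) * (w : F) = 1 := by
        have := congrArg Subtype.val hw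
        simpa using this
      have : (Jinv : F) = (w : F) := by
        rw [hJinvF]
        exact (eq_inv_of_mul_eq_one_right hw').symm
      rw [this]
      exact w.2
    refine ⟨0, ?_⟩
    rw [ZeroMemClass.coe_zero, map_zero, sub_zero]
    exact (ctm_nonunits_iff P _).mp hJnon
  exact P.adicValuation_le_one_of_mem (esvs_mem_of_isIntegral P hJinvP hyi)

end Fermat.Agent.S37x
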