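/-
S37 block B3, helper3 route, row 26 (ES-hsep), helper47: the SEPARATION hypotheses `hsep` / `hsep'` of
`es3_global2` (S37x/Es3Local2) in the abstract `ts_Hyp` setting.

* `es3p_sep_chart` : ONE chart.  `C` a set of places of `F`, `Cb` a set of places of `Fb` with
  `r P ∈ Cb → P ∈ C`, normality on the chart (every `yb` regular on `Cb` is the reduction of some `u ∈ W`
  regular on `C`) and weak approximation on `Cb` (a function regular on `Cb` with a simple zero at `Q0 ∈ Cb`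
  and no zeros on a finite `S ⊆ Cb`).  Then for every `P` with `r P ∈ Cb` and finite `S ⊆ Cb`, `r P ∉ S`, there
  is `u ∈ W` vanishing at `P`, whose reduction has a simple zero at `r P`, no zero on `S`, and all of whose
  poles reduce outside `Cb`.  (`u = g0 - g0(P)`, value lemma `ts_Hyp.value`.)
* `es3p_pos_of_pos` : bookkeeping: if the polar degree does not drop under `r_*`, zeros push forward to zeros.
* `es3p_zero_of_zero` : zeros of `J ∈ W` reduce to zeros of `ρ J` when the polar degree of `J` does not drop.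
* `es3p_hsep`, `es3p_hsep'` : the two hypotheses of `es3_global2` for `𝒮 := {Q | Q.ord (ρ J) < 0}` from the
  two-chart normality (N0)/(Ninf) in the EXACT shape of `S18x.s18f_Normality`, weak approximation on the two
  charts in the EXACT shape of `wap_exists_simple_zero` / `_inf` (row 16), and "poles of `J` reduce to poles".
-/
import Mathlib
import Fermat.Agent.S18x.TsBasic

set_option autoImplicit false

namespace Fermat.Agent.S37x

open AlgebraicCurve Fermat.Agent.S18x WithZero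

section Bookkeeping

variable {α β : Type*}

theorem es3p_sum_eq_pos_sub_neg (D : α →₀ ℤ) :
    ∑ a ∈ D.support, D a = ∑ a ∈ D.support, max (D a) 0 - ∑ a ∈ D.support, max (-(D a)) 0 := by
  rw [← Finset.sum_sub_distrib]
  refine Finset.sum_congr rfl fun a _ => ?_
  rcases le_total 0 (D a) with h | h
  · rw [max_eq_left h, max_eq_right (by omega)]; ring
  · rw [max_eq_right h, max_eq_left (by omega)]; ring

theorem es3p_sum_mapDomain (r : α → β) (D : α →₀ ℤ) :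
    ∑ b ∈ (Finsupp.mapDomain r D).support, Finsupp.mapDomain r D b = ∑ a ∈ D.support, D a := by
  classical
  have h := Finsupp.sum_mapDomain_index (f := r) (s := D) (h := fun _ (x : ℤ) => x)
    (fun _ => rfl) (fun _ _ _ => rfl)
  exact h

/-- if the polar degree does not drop under push-forward, neither does the zero degree -/
theorem es3p_pos_le (r : α → β) (D : α →₀ ℤ)
    (hpol : ∑ a ∈ D.support, max (-(D a)) 0 ≤
      ∑ b ∈ (Finsupp.mapDomain r D).support, max (-(Finsupp.mapDomain r D b)) 0) :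
    ∑ a ∈ D.support, max (D a) 0 ≤
      ∑ b ∈ (Finsupp.mapDomain r D).support, max (Finsupp.mapDomain r D b) 0 := by
  have h1 := es3p_sum_eq_pos_sub_neg D
  have h2 := es3p_sum_eq_pos_sub_neg (Finsupp.mapDomain r D)
  have h3 := es3p_sum_mapDomain r D
  omega

/-- zeros push forward to zeros when the polar degree does not drop -/
theorem es3p_pos_of_pos (r : α → β) (D : α →₀ ℤ)
    (hpol : ∑ a ∈ D.support, max (-(D a)) 0 ≤
      ∑ b ∈ (Finsupp.mapDomain r D).support, max (-(Finsupp.mapDomain r D b)) 0)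
    (a₀ : α) (ha₀ : 0 < D a₀) : 0 < Finsupp.mapDomain r D (r a₀) := by
  classical
  -- the same fibrewise argument as `s18a_neg_of_neg`, for the positive parts
  have hpos := es3p_pos_le r D hpol
  set Db := Finsupp.mapDomain r D with hDb
  set S := D.support with hS
  set T := S.image r with hT
  have hsub : Db.support ⊆ T := Finsupp.mapDomain_support
  have hR : ∑ b ∈ Db.support, max (Db b) 0 = ∑ b ∈ T, max (Db b) 0 := by
    apply Finset.sum_subset hsub
    intro b _ hb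
    rw [Finsupp.notMem_support_iff] at hb
    rw [hb]; simp
  have hLf : ∑ a ∈ S, max (D a) 0 =
      ∑ b ∈ T, ∑ a ∈ S.filter (fun a => r a = b), max (D a) 0 := by
    rw [Finset.sum_fiberwise_of_maps_to (fun a ha => Finset.mem_image_of_mem r ha)]
  have hterm : ∀ b ∈ T, max (Db b) 0 ≤ ∑ a ∈ S.filter (fun a => r a = b), max (D a) 0 := by
    intro b _
    have hval : Db b = ∑ a ∈ S.filter (fun a => r a = b), D a := ts_mapDomain_apply r D b
    rw [hval]
    apply max_le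
    · exact Finset.sum_le_sum fun a _ => le_max_left _ _
    · exact Finset.sum_nonneg fun a _ => le_max_right _ _
  have hle : ∑ b ∈ T, max (Db b) 0 ≤
      ∑ b ∈ T, ∑ a ∈ S.filter (fun a => r a = b), max (D a) 0 := Finset.sum_le_sum hterm
  have heq : ∑ b ∈ T, max (Db b) 0 =
      ∑ b ∈ T, ∑ a ∈ S.filter (fun a => r a = b), max (D a) 0 := by
    apply le_antisymm hle
    rw [← hLf, ← hR]
    exact hpos
  have hall := (Finset.sum_eq_sum_iff_of_le hterm).mp heq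
  have ha₀S : a₀ ∈ S := by
    rw [hS, Finsupp.mem_support_iff]; omega
  have hb₀ : r a₀ ∈ T := Finset.mem_image_of_mem r ha₀S
  have h1 := hall (r a₀) hb₀
  have hmem : a₀ ∈ S.filter (fun a => r a = r a₀) := by
    rw [Finset.mem_filter]; exact ⟨ha₀S, rfl⟩
  have h2 : max (D a₀) 0 ≤ ∑ a ∈ S.filter (fun a => r a = r a₀), max (D a) 0 :=
    Finset.single_le_sum (f := fun a => max (D a) 0) (fun a _ => le_max_right _ _) hmem
  have h3 : 0 < max (D a₀) 0 := by
    rw [lt_max_iff]; left; exact ha₀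
  have h4 : 0 < max (Db (r a₀)) 0 := by rw [h1]; exact lt_of_lt_of_le h3 h2
  rw [lt_max_iff] at h4
  rcases h4 with h4 | h4
  · exact h4
  · exact absurd h4 (lt_irrefl _)

end Bookkeeping

section Sep

variable {L k F Fb : Type*} [Field L] [Field k] [Field F] [Field Fb] [Algebra L F] [Algebra k Fb]
variable {A : ValuationSubring L} {π : A →+* k} {W : ValuationSubring F} {ρ : W →+* Fb}
  {r : Place L F → Place k Fb}

/-- **zeros reduce to zeros**: if the polar degree of `J ∈ W` does not drop under reduction, every zero of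
`J` reduces to a zero of `ρ J`. -/
theorem es3p_zero_of_zero (H : ts_Hyp A π W ρ r) (J : W) (hJ : ρ J ≠ 0)
    (DJ : Divisor L F) (hDJ : ∀ P, DJ P = P.ord (J : F))
    (hpol : ∑ P ∈ DJ.support, max (-(DJ P)) 0 ≤
      ∑ Q ∈ (Finsupp.mapDomain r DJ).support, max (-(Finsupp.mapDomain r DJ Q)) 0)
    (P : Place L F) (hP : 0 < P.ord (J : F)) : 0 < (r P).ord (ρ J) := by
  have h := es3p_pos_of_pos r DJ hpol P (by rw [hDJ]; exact hP)
  rwa [H.compat J hJ DJ hDJ (r P)] at h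

/-- **separation on one chart.** -/
theorem es3p_sep_chart (H : ts_Hyp A π W ρ r) (C : Set (Place L F)) (Cb : Set (Place k Fb))
    (hC : ∀ P, r P ∈ Cb → P ∈ C)
    (hN : ∀ yb : Fb, (∀ Q ∈ Cb, 0 ≤ Q.ord yb) →
      ∃ u : W, ρ u = yb ∧ ∀ P ∈ C, 0 ≤ P.ord (u : F))
    (hwap : ∀ Q0 ∈ Cb, ∀ S : Finset (Place k Fb), (∀ Q ∈ S, Q ∈ Cb) → Q0 ∉ S →
      ∃ g : Fb, (∀ v ∈ Cb, 0 ≤ v.ord g) ∧ Q0.ord g = 1 ∧ ∀ Q ∈ S, Q.ord g = 0)
    (P : Place L F) (hP : r P ∈ Cb) (S : Finset (Place k Fb)) (hS : ∀ Q ∈ S, Q ∈ Cb)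
    (hPS : r P ∉ S) :
    ∃ u : W, ρ u ≠ 0 ∧ 0 < P.ord (u : F) ∧ (r P).ord (ρ u) = 1 ∧
      (∀ P'' : Place L F, P''.ord (u : F) < 0 → r P'' ∉ Cb) ∧ ∀ Q ∈ S, Q.ord (ρ u) = 0 := by
  obtain ⟨gb, hgreg, hg1, hgS⟩ := hwap (r P) hP S hS hPS
  have hgb0 : gb ≠ 0 := by
    intro h0
    rw [h0, Place.ord_zero] at hg1
    exact absurd hg1 (by norm_num)
  obtain ⟨g0, hρg0, hg0reg⟩ := hN gb hgreg
  -- `g0` is regular on the residue disc of `r P`
  have hdisc : ∀ P', r P' = r P → P'.adicValuation (g0 : F) ≤ 1 := by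
    intro P' hP'
    rw [P'.adicValuation_le_one_iff]
    right
    exact hg0reg P' (hC P' (hP' ▸ hP))
  obtain ⟨c, hcA, hcP, hcQ⟩ := H.value g0 (r P) hdisc P rfl
  -- the value `c = g0(P)` reduces to `gb(r P) = 0`
  have hgbvan : (r P).adicValuation gb < 1 := by
    rw [ts_val_lt_one_iff]; right; omega
  have hπc : π ⟨c, hcA⟩ = 0 := by
    apply ts_const_eq_zero_of_van (r P)
    rw [hρg0] at hcQ
    have h1 : algebraMap k Fb (π ⟨c, hcA⟩) = gb - (gb - algebraMap k Fb (π ⟨c, hcA⟩)) := by ring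
    rw [h1]
    exact lt_of_le_of_lt (Valuation.map_sub _ _ _) (max_lt hgbvan hcQ)
  have hcW : algebraMap L F c ∈ W := H.algW hcA
  set cW : W := ⟨algebraMap L F c, hcW⟩ with hcWdef
  have hρu : ρ (g0 - cW) = gb := by
    rw [map_sub, hρg0, H.rho_alg c hcA hcW, hπc, map_zero, sub_zero]
  have hu0 : ((g0 - cW : W) : F) ≠ 0 := by
    intro h
    apply hgb0
    have : (g0 - cW : W) = 0 := Subtype.ext h
    rw [← hρu, this, map_zero]
  refine ⟨g0 - cW, by rw [hρu]; exact hgb0, ?_, by rw [hρu]; exact hg1, ?_, ?_⟩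
  · have hlt : P.adicValuation ((g0 - cW : W) : F) < 1 := hcP
    have := ((ts_val_lt_one_iff P).mp hlt).resolve_left hu0
    omega
  · intro P'' hP'' hCb
    have hP''C : P'' ∈ C := hC P'' hCb
    have h1 : P''.adicValuation (g0 : F) ≤ 1 := by
      rw [P''.adicValuation_le_one_iff]; right; exact hg0reg P'' hP''C
    have h2 : P''.adicValuation ((g0 - cW : W) : F) ≤ 1 := by
      show P''.adicValuation ((g0 : F) - algebraMap L F c) ≤ 1
      exact (Valuation.map_sub _ _ _).trans (max_le h1 (P''.adicValuation_algebraMap_le_one _))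
    have := ((P''.adicValuation_le_one_iff).mp h2).resolve_left hu0
    omega
  · intro Q hQ
    rw [hρu]
    exact hgS Q hQ

/-- **`hsep` of `es3_global2`** for `𝒮 := {Q | Q.ord (ρ J) < 0}` (chart `0 ≤ ord J`). -/
theorem es3p_hsep (H : ts_Hyp A π W ρ r) (J : W)
    (hpole : ∀ P : Place L F, P.ord (J : F) < 0 → (r P).ord (ρ J) < 0)
    (hN0 : ∀ yb : Fb, (∀ Q : Place k Fb, 0 ≤ Q.ord (ρ J) → 0 ≤ Q.ord yb) →
      ∃ u : W, ρ u = yb ∧ ∀ P : Place L F, 0 ≤ P.ord (J : F) → 0 ≤ P.ord (u : F))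
    (hwap0 : ∀ Q0 : Place k Fb, 0 ≤ Q0.ord (ρ J) → ∀ S : Finset (Place k Fb),
      (∀ Q ∈ S, 0 ≤ Q.ord (ρ J)) → Q0 ∉ S →
      ∃ g : Fb, (∀ v : Place k Fb, 0 ≤ v.ord (ρ J) → 0 ≤ v.ord g) ∧ Q0.ord g = 1 ∧
        ∀ Q ∈ S, Q.ord g = 0) :
    ∀ P, r P ∉ {Q : Place k Fb | Q.ord (ρ J) < 0} → ∀ S : Finset (Place k Fb),
      (∀ Q ∈ S, Q ∉ {Q : Place k Fb | Q.ord (ρ J) < 0}) → r P ∉ S →
      ∃ u : W, ρ u ≠ 0 ∧ 0 < P.ord (u : F) ∧ (r P).ord (ρ u) = 1 ∧
        (∀ P'', P''.ord (u : F) < 0 → r P'' ∈ {Q : Place k Fb | Q.ord (ρ J) < 0}) ∧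
        ∀ Q ∈ S, Q.ord (ρ u) = 0 := by
  intro P hP S hS hPS
  simp only [Set.mem_ofPred_eq, not_lt] at hP hS
  obtain ⟨u, h1, h2, h3, h4, h5⟩ := es3p_sep_chart H {P | 0 ≤ P.ord (J : F)}
    {Q | 0 ≤ Q.ord (ρ J)}
    (fun P' hP' => by
      simp only [Set.mem_ofPred_eq] at hP' ⊢
      by_contra hlt
      have := hpole P' (not_le.mp hlt)
      omega)
    (fun yb hyb => hN0 yb (fun Q hQ => hyb Q hQ))
    (fun Q0 hQ0 S' hS' hQ0S' => by
      obtain ⟨g, hg1, hg2, hg3⟩ := hwap0 Q0 hQ0 S' hS' hQ0S'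
      exact ⟨g, fun v hv => hg1 v hv, hg2, hg3⟩)
    P hP S hS hPS
  refine ⟨u, h1, h2, h3, fun P'' hP'' => ?_, h5⟩
  have := h4 P'' hP''
  simp only [Set.mem_ofPred_eq, not_le] at this ⊢
  exact this

/-- **`hsep'` of `es3_global2`** for `𝒮 := {Q | Q.ord (ρ J) < 0}` (chart `ord J ≤ 0`). -/
theorem es3p_hsep' (H : ts_Hyp A π W ρ r) (J : W)
    (hzero : ∀ P : Place L F, 0 < P.ord (J : F) → 0 < (r P).ord (ρ J))
    (hNinf : ∀ yb : Fb, (∀ Q : Place k Fb, Q.ord (ρ J) ≤ 0 → 0 ≤ Q.ord yb) →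
      ∃ u : W, ρ u = yb ∧ ∀ P : Place L F, P.ord (J : F) ≤ 0 → 0 ≤ P.ord (u : F))
    (hwapinf : ∀ Q0 : Place k Fb, Q0.ord (ρ J) ≤ 0 → ∀ S : Finset (Place k Fb),
      (∀ Q ∈ S, Q.ord (ρ J) ≤ 0) → Q0 ∉ S →
      ∃ g : Fb, (∀ v : Place k Fb, v.ord (ρ J) ≤ 0 → 0 ≤ v.ord g) ∧ Q0.ord g = 1 ∧
        ∀ Q ∈ S, Q.ord g = 0) :
    ∀ P, r P ∈ {Q : Place k Fb | Q.ord (ρ J) < 0} → ∀ S : Finset (Place k Fb),
      (∀ Q ∈ S, Q ∈ {Q : Place k Fb | Q.ord (ρ J) < 0}) → r P ∉ S →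
      ∃ u : W, ρ u ≠ 0 ∧ 0 < P.ord (u : F) ∧ (r P).ord (ρ u) = 1 ∧
        (∀ P'', P''.ord (u : F) < 0 → r P'' ∉ {Q : Place k Fb | Q.ord (ρ J) < 0}) ∧
        ∀ Q ∈ S, Q.ord (ρ u) = 0 := by
  intro P hP S hS hPS
  simp only [Set.mem_ofPred_eq] at hP hS
  obtain ⟨u, h1, h2, h3, h4, h5⟩ := es3p_sep_chart H {P | P.ord (J : F) ≤ 0}
    {Q | Q.ord (ρ J) ≤ 0}
    (fun P' hP' => by
      simp only [Set.mem_ofPred_eq] at hP' ⊢
      by_contra hlt
      have := hzero P' (not_le.mp hlt)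
      omega)
    (fun yb hyb => hNinf yb (fun Q hQ => hyb Q hQ))
    (fun Q0 hQ0 S' hS' hQ0S' => by
      obtain ⟨g, hg1, hg2, hg3⟩ := hwapinf Q0 hQ0 S' hS' hQ0S'
      exact ⟨g, fun v hv => hg1 v hv, hg2, hg3⟩)
    P (le_of_lt hP) S (fun Q hQ => le_of_lt (hS Q hQ)) hPS
  refine ⟨u, h1, h2, h3, fun P'' hP'' => ?_, h5⟩
  have := h4 P'' hP''
  simp only [Set.mem_ofPred_eq, not_le, not_lt] at this ⊢
  omega

end Sep

end Fermat.Agent.S37x
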