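/-
S37 prep, block [B3], row 27 GAL part 2a (helper55): the Gauss ring `ga_W A π ⊂ L((q))` of `S18x/GaussA` is
stable under a coefficientwise automorphism `σ` of `L` preserving `A`, and the residue map `ga_rho`
intertwines it with the induced automorphism `σb` of the residue field.
-/
import Fermat.Agent.S18x.GaussA

set_option autoImplicit false

namespace Fermat.Agent.S37x

open ModularCurve HahnSeries Fermat.Agent.S18x

noncomputable section

variable {L : Type*} [Field L] (A : ValuationSubring L) {k : Type*} [Field k] (π : A →+* k)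
variable (σ : L →+* L) (hσA : ∀ a : L, a ∈ A → σ a ∈ A)

/-- `σ` restricted to `A` -/
def gcgRes : A →+* A where
  toFun a := ⟨σ (a : L), hσA _ a.2⟩
  map_one' := Subtype.ext (by simp)
  map_mul' a b := Subtype.ext (by simp)
  map_zero' := Subtype.ext (by simp)
  map_add' a b := Subtype.ext (by simp)

theorem gcgRes_coe (a : A) : ((gcgRes A σ hσA a : A) : L) = σ (a : L) := rfl

theorem gcg_iota (y : LaurentSeries A) :
    coeffMap σ (ga_iota A y) = ga_iota A (coeffMap (gcgRes A σ hσA) y) := by
  unfold ga_iota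
  rw [coeffMap_coeffMap, coeffMap_coeffMap]
  exact coeffMap_congr (RingHom.ext fun a => rfl) y

variable (σb : k →+* k) (hπ : ∀ a : A, π (gcgRes A σ hσA a) = σb (π a))

include hπ in
theorem gcg_red (y : LaurentSeries A) :
    ga_red A π (coeffMap (gcgRes A σ hσA) y) = coeffMap σb (ga_red A π y) := by
  unfold ga_red
  rw [coeffMap_coeffMap, coeffMap_coeffMap]
  exact coeffMap_congr (RingHom.ext fun a => hπ a) y

theorem gcg_coeffMap_injective : Function.Injective (coeffMap σb) := by
  intro x y h
  ext n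
  have := congrArg (fun z : LaurentSeries k => z.coeff n) h
  simp only [coeffMap_coeff] at this
  exact σb.injective this

include hπ in
/-- the Gauss ring is stable under the coefficientwise action of `σ` -/
theorem gcg_mem_W {x : LaurentSeries L} (hx : x ∈ ga_W A π) : coeffMap σ x ∈ ga_W A π := by
  obtain ⟨a, b, hb, h⟩ := hx
  refine ⟨coeffMap (gcgRes A σ hσA) a, coeffMap (gcgRes A σ hσA) b, ?_, ?_⟩
  · rw [gcg_red A π σ hσA σb hπ]
    intro h0
    apply hb
    apply gcg_coeffMap_injective σb
    rw [h0, map_zero]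
  · rw [← gcg_iota, ← gcg_iota, ← map_mul, h]

include hπ in
/-- the residue map intertwines `σ` and `σb` -/
theorem gcg_rho {x : LaurentSeries L} (hx : x ∈ ga_W A π) :
    ga_rho A π ⟨coeffMap σ x, gcg_mem_W A π σ hσA σb hπ hx⟩ = coeffMap σb (ga_rho A π ⟨x, hx⟩) := by
  obtain ⟨a, b, hb, h⟩ := hx
  have hb' : ga_red A π (coeffMap (gcgRes A σ hσA) b) ≠ 0 := by
    rw [gcg_red A π σ hσA σb hπ]
    intro h0
    apply hb
    apply gcg_coeffMap_injective σb
    rw [h0, map_zero]
  have h' : coeffMap σ x * ga_iota A (coeffMap (gcgRes A σ hσA) b) =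
      ga_iota A (coeffMap (gcgRes A σ hσA) a) := by
    rw [← gcg_iota, ← gcg_iota, ← map_mul, h]
  rw [ga_rho_eq A π ⟨coeffMap σ x, _⟩ hb' h', ga_rho_eq A π ⟨x, ⟨a, b, hb, h⟩⟩ hb h,
    gcg_red A π σ hσA σb hπ, gcg_red A π σ hσA σb hπ, map_div₀]

end

end Fermat.Agent.S37x
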