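/-
S37 block B3, helper3 route, leaf L3 -- CORRECTED HYPOTHESES (helper47).

`S37x/Es3Local.lean` (helper3) proves the abstract localisation lemma `es3_local` / `es3_global`, but its separation
hypothesis `hsep` quantifies over ALL finsets `S ∌ r P`.  For `𝒮 = {poles of jb}` (finite, nonempty) that hypothesis is
unsatisfiable (take `S ⊇ 𝒮`: then `ρ u` has no poles at all, so it is constant, contradicting its simple zero at `r P`).
The proof only ever uses `S = {Q | Q' ∈ Θ Q}.erase (r P)` for a `Q' ∉ 𝒮`, and all such `Q` lie outside `𝒮` by `hΘ𝒮`.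
Here: the same three theorems with `hsep` restricted to finsets `S` DISJOINT from `𝒮` (resp. `hsep'` restricted to
`S ⊆ 𝒮`).  Consumers should use `es3_local2`, `es3_local2_eq`, `es3_global2`.
-/
import Mathlib
import Fermat.Agent.S18x.TsBasic
import Fermat.Agent.S37x.Es3Local

set_option autoImplicit false

namespace Fermat.Agent.S37x

open AlgebraicCurve Fermat.Agent.S18x

variable {L k F Fb : Type*} [Field L] [Field k] [Field F] [Field Fb] [Algebra L F] [Algebra k Fb]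
variable {A : ValuationSubring L} {π : A →+* k} {W : ValuationSubring F} {ρ : W →+* Fb}
  {r : Place L F → Place k Fb}

/-- **the abstract localisation lemma** -/
theorem es3_local2 (H : ts_Hyp A π W ρ r) (T : Divisor L F →+ Divisor L F)
    (Φ : Divisor k Fb →+ Divisor k Fb) (hL : es3_Lifts ρ T Φ)
    (Θ : Place k Fb → Set (Place k Fb)) (𝒮 : Set (Place k Fb))
    (hΘ𝒮 : ∀ Q Q', Q' ∈ Θ Q → (Q' ∈ 𝒮 ↔ Q ∈ 𝒮))
    (hfin : ∀ Q', {Q | Q' ∈ Θ Q}.Finite)
    (hE : ∀ P Q', es3_defect r T Φ (Finsupp.single P 1) Q' ≠ 0 → Q' ∈ Θ (r P))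
    (hsep : ∀ P, r P ∉ 𝒮 → ∀ S : Finset (Place k Fb), (∀ Q ∈ S, Q ∉ 𝒮) → r P ∉ S →
      ∃ u : W, ρ u ≠ 0 ∧ 0 < P.ord (u : F) ∧ (r P).ord (ρ u) = 1 ∧
        (∀ P'', P''.ord (u : F) < 0 → r P'' ∈ 𝒮) ∧ ∀ Q ∈ S, Q.ord (ρ u) = 0)
    (P : Place L F) (hP : r P ∉ 𝒮) :
    es3_defect r T Φ (Finsupp.single P 1) = 0 := by
  classical
  by_contra hne
  obtain ⟨Q', hQ'⟩ : ∃ Q', es3_defect r T Φ (Finsupp.single P 1) Q' ≠ 0 := by
    by_contra hall
    refine hne (Finsupp.ext fun Q => ?_)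
    rw [Finsupp.zero_apply]
    by_contra h
    exact hall ⟨Q, h⟩
  have hQ'Θ : Q' ∈ Θ (r P) := hE P Q' hQ'
  have hQ'S : Q' ∉ 𝒮 := fun h => hP ((hΘ𝒮 (r P) Q' hQ'Θ).mp h)
  set B : Finset (Place k Fb) := (hfin Q').toFinset with hB
  have hBS : ∀ Q ∈ B.erase (r P), Q ∉ 𝒮 := by
    intro Q hQ hQS
    have hQB : Q ∈ B := Finset.mem_of_mem_erase hQ
    rw [hB, Set.Finite.mem_toFinset] at hQB
    exact hQ'S ((hΘ𝒮 Q Q' hQB).mpr hQS)
  obtain ⟨u, hu, huP, hu1, hupole, huS⟩ :=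
    hsep P hP (B.erase (r P)) hBS (Finset.notMem_erase _ _)
  have hu0 : (u : F) ≠ 0 := by
    intro h
    apply hu
    have : u = 0 := Subtype.ext h
    rw [this, map_zero]
  obtain ⟨D, hD⟩ := H.hpd (u : F) hu0
  have hzero := es3_defect_div_eq_zero H hL u hu D hD
  have hsum := es3_defect_eq_sum (r := r) T Φ D Q'
  rw [hzero, Finsupp.zero_apply] at hsum
  -- no poles in a disc outside `𝒮`
  have hreg : ∀ Q, Q ∉ 𝒮 → ∀ P'', r P'' = Q → P''.adicValuation (u : F) ≤ 1 := by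
    intro Q hQ P'' hP''
    rw [P''.adicValuation_le_one_iff]
    right
    by_contra hlt
    rw [not_le] at hlt
    exact hQ (hP'' ▸ hupole P'' hlt)
  -- in the disc of `r P` the only zero is `P`, simple
  have hdisc : ∀ P'', r P'' = r P → P'' ≠ P → D P'' = 0 := by
    have h1 : Finsupp.mapDomain r D (r P) = 1 := by rw [H.compat u hu D hD (r P), hu1]
    have hnn : ∀ a, r a = r P → 0 ≤ D a := by
      intro a ha
      rw [hD a]
      exact ((a.adicValuation_le_one_iff).mp (hreg (r P) hP a ha)).resolve_left hu0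
    obtain ⟨a₀, _, ha₀1, ha₀⟩ := ts_disc_unique r D (r P) hnn h1
    have hPa : P = a₀ := by
      by_contra hPa
      have := ha₀ P rfl hPa
      rw [hD P] at this
      omega
    intro P'' hP'' hne''
    exact ha₀ P'' hP'' (hPa ▸ hne'')
  -- all other terms of the sum vanish
  have hother : ∀ P'' ∈ D.support, P'' ≠ P →
      D P'' * es3_defect r T Φ (Finsupp.single P'' 1) Q' = 0 := by
    intro P'' hP''supp hP''ne
    by_contra hterm
    have hD'' : D P'' ≠ 0 := left_ne_zero_of_mul hterm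
    have hE'' : es3_defect r T Φ (Finsupp.single P'' 1) Q' ≠ 0 := right_ne_zero_of_mul hterm
    have hΘ'' : Q' ∈ Θ (r P'') := hE P'' Q' hE''
    have hS'' : r P'' ∉ 𝒮 := fun h => hQ'S ((hΘ𝒮 (r P'') Q' hΘ'').mpr h)
    have hBmem : r P'' ∈ B := by
      rw [hB, Set.Finite.mem_toFinset]
      exact hΘ''
    have hpos : 0 < D P'' := by
      rcases lt_trichotomy (D P'') 0 with hlt | heq | hgt
      · exact absurd (hupole P'' (by rw [← hD P'']; exact hlt)) hS''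
      · exact absurd heq hD''
      · exact hgt
    have hvan : (r P'').adicValuation (ρ u) < 1 := by
      refine H.van_of_disc u (r P'') (hreg (r P'') hS'') P'' rfl ?_
      rw [ts_val_lt_one_iff]
      right
      rw [← hD P'']
      omega
    have hord : 1 ≤ (r P'').ord (ρ u) := ((ts_val_lt_one_iff _).mp hvan).resolve_left hu
    by_cases hrr : r P'' = r P
    · exact hD'' (hdisc P'' hrr hP''ne)
    · have := huS (r P'') (Finset.mem_erase.mpr ⟨hrr, hBmem⟩)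
      omega
  have hDP : D P = 1 := by
    have h1 : Finsupp.mapDomain r D (r P) = 1 := by rw [H.compat u hu D hD (r P), hu1]
    have hnn : ∀ a, r a = r P → 0 ≤ D a := by
      intro a ha
      rw [hD a]
      exact ((a.adicValuation_le_one_iff).mp (hreg (r P) hP a ha)).resolve_left hu0
    obtain ⟨a₀, _, ha₀1, ha₀⟩ := ts_disc_unique r D (r P) hnn h1
    have hPa : P = a₀ := by
      by_contra hPa
      have := ha₀ P rfl hPa
      rw [hD P] at this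
      omega
    rw [hPa]
    exact ha₀1
  have hPsupp : P ∈ D.support := by
    rw [Finsupp.mem_support_iff, hDP]
    exact one_ne_zero
  rw [Finset.sum_eq_single_of_mem P hPsupp hother, hDP, one_mul] at hsum
  exact hQ' hsum.symm

/-- the conclusion in the form `r_* (T P) = Φ (r P)` -/
theorem es3_local2_eq (H : ts_Hyp A π W ρ r) (T : Divisor L F →+ Divisor L F)
    (Φ : Divisor k Fb →+ Divisor k Fb) (hL : es3_Lifts ρ T Φ)
    (Θ : Place k Fb → Set (Place k Fb)) (𝒮 : Set (Place k Fb))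
    (hΘ𝒮 : ∀ Q Q', Q' ∈ Θ Q → (Q' ∈ 𝒮 ↔ Q ∈ 𝒮))
    (hfin : ∀ Q', {Q | Q' ∈ Θ Q}.Finite)
    (hE : ∀ P Q', es3_defect r T Φ (Finsupp.single P 1) Q' ≠ 0 → Q' ∈ Θ (r P))
    (hsep : ∀ P, r P ∉ 𝒮 → ∀ S : Finset (Place k Fb), (∀ Q ∈ S, Q ∉ 𝒮) → r P ∉ S →
      ∃ u : W, ρ u ≠ 0 ∧ 0 < P.ord (u : F) ∧ (r P).ord (ρ u) = 1 ∧
        (∀ P'', P''.ord (u : F) < 0 → r P'' ∈ 𝒮) ∧ ∀ Q ∈ S, Q.ord (ρ u) = 0)
    (P : Place L F) (hP : r P ∉ 𝒮) :
    Finsupp.mapDomain r (T (Finsupp.single P 1)) = Φ (Finsupp.single (r P) 1) := by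
  have h := es3_local2 H T Φ hL Θ 𝒮 hΘ𝒮 hfin hE hsep P hP
  rw [es3_defect_apply, Finsupp.mapDomain_single, sub_eq_zero] at h
  exact h

/-- **global form**: if the localisation hypotheses hold for a set `𝒮` and for its complement, then
`r_* ∘ T = Φ ∘ r_*` on all divisors. -/
theorem es3_global2 (H : ts_Hyp A π W ρ r) (T : Divisor L F →+ Divisor L F)
    (Φ : Divisor k Fb →+ Divisor k Fb) (hL : es3_Lifts ρ T Φ)
    (Θ : Place k Fb → Set (Place k Fb)) (𝒮 : Set (Place k Fb))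
    (hΘ𝒮 : ∀ Q Q', Q' ∈ Θ Q → (Q' ∈ 𝒮 ↔ Q ∈ 𝒮))
    (hfin : ∀ Q', {Q | Q' ∈ Θ Q}.Finite)
    (hE : ∀ P Q', es3_defect r T Φ (Finsupp.single P 1) Q' ≠ 0 → Q' ∈ Θ (r P))
    (hsep : ∀ P, r P ∉ 𝒮 → ∀ S : Finset (Place k Fb), (∀ Q ∈ S, Q ∉ 𝒮) → r P ∉ S →
      ∃ u : W, ρ u ≠ 0 ∧ 0 < P.ord (u : F) ∧ (r P).ord (ρ u) = 1 ∧
        (∀ P'', P''.ord (u : F) < 0 → r P'' ∈ 𝒮) ∧ ∀ Q ∈ S, Q.ord (ρ u) = 0)
    (hsep' : ∀ P, r P ∈ 𝒮 → ∀ S : Finset (Place k Fb), (∀ Q ∈ S, Q ∈ 𝒮) → r P ∉ S →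
      ∃ u : W, ρ u ≠ 0 ∧ 0 < P.ord (u : F) ∧ (r P).ord (ρ u) = 1 ∧
        (∀ P'', P''.ord (u : F) < 0 → r P'' ∉ 𝒮) ∧ ∀ Q ∈ S, Q.ord (ρ u) = 0)
    (D : Divisor L F) :
    Finsupp.mapDomain r (T D) = Φ (Finsupp.mapDomain r D) := by
  classical
  have hpt : ∀ P, es3_defect r T Φ (Finsupp.single P 1) = 0 := by
    intro P
    by_cases hP : r P ∈ 𝒮
    · refine es3_local2 H T Φ hL Θ 𝒮ᶜ ?_ hfin hE ?_ P (fun h => h hP)
      · intro Q Q' hQ'
        rw [Set.mem_compl_iff, Set.mem_compl_iff, hΘ𝒮 Q Q' hQ']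
      · intro P₁ hP₁ S hSS hS
        have hP₁' : r P₁ ∈ 𝒮 := by
          by_contra h
          exact hP₁ h
        have hSS' : ∀ Q ∈ S, Q ∈ 𝒮 := by
          intro Q hQ
          by_contra h
          exact hSS Q hQ h
        obtain ⟨u, h1, h2, h3, h4, h5⟩ := hsep' P₁ hP₁' S hSS' hS
        exact ⟨u, h1, h2, h3, fun P'' hP'' => h4 P'' hP'', h5⟩
    · exact es3_local2 H T Φ hL Θ 𝒮 hΘ𝒮 hfin hE hsep P hP
  have h0 : es3_defect r T Φ D = 0 := by
    ext Q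
    rw [es3_defect_eq_sum, Finsupp.zero_apply]
    refine Finset.sum_eq_zero fun P _ => ?_
    rw [hpt P, Finsupp.zero_apply, mul_zero]
  rw [es3_defect_apply, sub_eq_zero] at h0
  exact h0

end Fermat.Agent.S37x
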