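/-
S37 prep, block [B3] (helper55): ABSTRACT LOCALISATION ENGINE (Mathlib only).

One engine for Step 4 (Eichler–Shimura congruence on divisors) and Step 5 (Galois compatibility of the
place map) of doc `S37_B3_ES_from_COMPAT_helper3`:
an additive map `E : Div(X) → Div(Y)` between free abelian groups that kills enough "good" divisors,
each of which isolates a given point `P` from the other points of its support (in the sense that the
supports of `E(P')` and `E(P)` cannot meet), vanishes identically.

* `loe_single_eq_zero` : the pointwise statement;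
* `loe_eq_zero`        : the global statement with a classifying map `cls : Y → T` and "bad sets".
-/
import Mathlib

set_option autoImplicit false

namespace Fermat.Agent.S37x

open Finsupp

theorem loe_map_eq_sum {X Y : Type*} (E : (X →₀ ℤ) →+ (Y →₀ ℤ)) (D : X →₀ ℤ) (Q : Y) :
    E D Q = ∑ P' ∈ D.support, D P' * E (Finsupp.single P' 1) Q := by
  classical
  conv_lhs => rw [← Finsupp.sum_single D]
  rw [Finsupp.sum, map_sum, Finsupp.finsetSum_apply]
  refine Finset.sum_congr rfl fun P' _ => ?_
  have h : (Finsupp.single P' (D P') : X →₀ ℤ) = D P' • Finsupp.single P' 1 := by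
    rw [Finsupp.smul_single, smul_eq_mul, mul_one]
  rw [h, map_zsmul, Finsupp.smul_apply, smul_eq_mul]

/-- **Localisation, pointwise form**: if `E D = 0`, `D P ≠ 0`, and for every other point `P'` of the
support of `D` the supports of `E(P')` and `E(P)` are disjoint, then `E(P) = 0`. -/
theorem loe_single_eq_zero {X Y : Type*} (E : (X →₀ ℤ) →+ (Y →₀ ℤ)) (P : X) (D : X →₀ ℤ)
    (hED : E D = 0) (hDP : D P ≠ 0)
    (hdisj : ∀ P', P' ≠ P → D P' ≠ 0 → ∀ Q, E (Finsupp.single P' 1) Q ≠ 0 →
      E (Finsupp.single P 1) Q = 0) :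
    E (Finsupp.single P 1) = 0 := by
  classical
  ext Q
  rw [Finsupp.zero_apply]
  by_contra hQ
  have h0 : E D Q = 0 := by rw [hED, Finsupp.zero_apply]
  rw [loe_map_eq_sum] at h0
  have hP : P ∈ D.support := Finsupp.mem_support_iff.mpr hDP
  rw [Finset.sum_eq_single_of_mem P hP] at h0
  · rcases mul_eq_zero.mp h0 with h | h
    · exact hDP h
    · exact hQ h
  · intro P' hP' hne
    have hD' : D P' ≠ 0 := Finsupp.mem_support_iff.mp hP'
    have : E (Finsupp.single P' 1) Q = 0 := by
      by_contra h
      exact hQ (hdisj P' hne hD' Q h)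
    rw [this, mul_zero]

/-- An additive map out of a free abelian group vanishing on all points vanishes. -/
theorem loe_eq_zero_of_single {X Y : Type*} (E : (X →₀ ℤ) →+ (Y →₀ ℤ))
    (h : ∀ P, E (Finsupp.single P 1) = 0) : E = 0 := by
  refine Finsupp.addHom_ext fun P n => ?_
  have h1 : (Finsupp.single P n : X →₀ ℤ) = n • Finsupp.single P 1 := by
    rw [Finsupp.smul_single, smul_eq_mul, mul_one]
  rw [h1, map_zsmul, h P, smul_zero, AddMonoidHom.zero_apply]

/-- **Localisation engine**: `r : X → Y`, `cls : Y → T` a classifying map (e.g. the `j̄`-value),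
`Bad t ⊆ T` the classes that can occur in the support of `E(P)` when `cls (r P) = t`.
If every point `P` admits a divisor `D` killed by `E`, containing `P`, all of whose other points `P'`
have `Bad (cls (r P'))` disjoint from `Bad (cls (r P))`, then `E = 0`. -/
theorem loe_eq_zero {X Y T : Type*} (r : X → Y) (cls : Y → T) (Bad : T → Set T)
    (E : (X →₀ ℤ) →+ (Y →₀ ℤ))
    (hsupp : ∀ P Q, E (Finsupp.single P 1) Q ≠ 0 → cls Q ∈ Bad (cls (r P)))
    (hgood : ∀ P, ∃ D : X →₀ ℤ, E D = 0 ∧ D P ≠ 0 ∧
      ∀ P', P' ≠ P → D P' ≠ 0 → Disjoint (Bad (cls (r P'))) (Bad (cls (r P)))) :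
    E = 0 := by
  refine loe_eq_zero_of_single E fun P => ?_
  obtain ⟨D, hED, hDP, hdis⟩ := hgood P
  refine loe_single_eq_zero E P D hED hDP fun P' hne hD' Q hQ => ?_
  by_contra hQP
  have h1 := hsupp P' Q hQ
  have h2 := hsupp P Q hQP
  exact (Set.disjoint_left.mp (hdis P' hne hD')) h1 h2

/-- Variant for a difference of two "point maps" `a b : X → Y` (`E(P) = [a P] - [b P]`): if `E = 0`
then `a = b`. -/
theorem loe_eq_of_mapDomain_sub_eq_zero {X Y : Type*} (a b : X → Y)
    (h : ∀ P : X, (Finsupp.single (a P) (1 : ℤ) : Y →₀ ℤ) - Finsupp.single (b P) 1 = 0) (P : X) :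
    a P = b P := by
  have h1 := sub_eq_zero.mp (h P)
  exact ((Finsupp.single_left_inj (one_ne_zero : (1 : ℤ) ≠ 0)).mp h1)

end Fermat.Agent.S37x
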