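/-
S37 prep, block [B3] (helper55): GALOIS COMPATIBILITY OF THE PLACE MAP, abstract (`ts_Hyp`-style) form.
(= Step 5 / leaf L4 of doc `S37_B3_ES_from_COMPAT_helper3`, also items (i),(ii) of `S37_B3_blueprint_helper60`.)

Setting: `r : Place L F → Place k Fb` satisfying COMPAT w.r.t. `ρ : W → Fb`; a semilinear automorphism
`g` of `F/L` preserving `W` and a semilinear automorphism `gb` of `Fb/k` with `ρ (g • u) = gb • ρ u`.

* `gcpDefect r g gb = r_* ∘ g_* - gb_* ∘ r_*` kills the divisor of every `u ∈ W` with `ρ u ≠ 0`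
  (`gcp_defect_principal`);
* with the localisation engine (`LocEngine.lean`): if `cls : Place k Fb → T` (the `j̄`-value) is
  compatible with the actions and every place can be isolated by a function of `W`, then
  `r (g • P) = gb • r P` for every place `P` (`gcp_place_compat`);
* consequence on `Pic⁰` for the Prelude's `reductionPic0Along` (`gcp_red_smul`).
-/
import Fermat.Agent.S37x.LocEngine
import Fermat.Prelude.Def_AlgebraicCurve_BaseChangeGalois
import Fermat.Prelude.Def_ModularCurve_ReductionModL

set_option autoImplicit false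

namespace Fermat.Agent.S37x

open AlgebraicCurve AlgebraicCurve.SemilinearAut

section Abstract

variable {L F k Fb : Type*} [Field L] [Field F] [Algebra L F] [Field k] [Field Fb] [Algebra k Fb]
variable (r : Place L F → Place k Fb)
variable (g : SemilinearAut L F) (gb : SemilinearAut k Fb)

/-- the defect `r_* ∘ g_* - gb_* ∘ r_*` on divisors -/
noncomputable def gcpDefect : Divisor L F →+ Divisor k Fb :=
  (Finsupp.mapDomain.addMonoidHom r).comp (DistribSMul.toAddMonoidHom (Divisor L F) g) -
    (DistribSMul.toAddMonoidHom (Divisor k Fb) gb).comp (Finsupp.mapDomain.addMonoidHom r)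

theorem gcpDefect_apply (D : Divisor L F) :
    gcpDefect r g gb D = Finsupp.mapDomain r (g • D) - gb • Finsupp.mapDomain r D := rfl

theorem gcpDefect_single (P : Place L F) (n : ℤ) :
    gcpDefect r g gb (Finsupp.single P n) =
      Finsupp.single (r (g • P)) n - Finsupp.single (gb • r P) n := by
  rw [gcpDefect_apply, smul_single, Finsupp.mapDomain_single, Finsupp.mapDomain_single, smul_single]

/-- the divisor of `g • x` is `g •` the divisor of `x` -/
theorem gcp_smul_divisor {x : F} {D : Divisor L F} (hD : ∀ P, D P = P.ord x) (P' : Place L F) :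
    (g • D) P' = P'.ord (g • x) := by
  rw [divisor_smul_apply, hD]
  have h := ord_smul g (g⁻¹ • P') x
  rw [smul_inv_smul] at h
  exact h.symm

variable {W : ValuationSubring F} (ρ : W →+* Fb)

/-- **the defect kills integral principal divisors** -/
theorem gcp_defect_principal
    (hcompat : ∀ u : W, ρ u ≠ 0 → ∀ D : Divisor L F, (∀ P, D P = P.ord (u : F)) →
      ∀ Q, Finsupp.mapDomain r D Q = Q.ord (ρ u))
    (u : W) (hu : ρ u ≠ 0) (hWg : g • (u : F) ∈ W) (hρg : ρ ⟨g • (u : F), hWg⟩ = gb • ρ u)
    (D : Divisor L F) (hD : ∀ P, D P = P.ord (u : F)) :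
    gcpDefect r g gb D = 0 := by
  rw [gcpDefect_apply, sub_eq_zero]
  ext Q
  have hne : ρ ⟨g • (u : F), hWg⟩ ≠ 0 := by
    rw [hρg]
    intro h
    apply hu
    have h2 := congrArg (gb⁻¹ • ·) h
    simpa using h2
  have h1 := hcompat ⟨g • (u : F), hWg⟩ hne (g • D) (fun P' => gcp_smul_divisor g hD P') Q
  rw [h1, hρg, divisor_smul_apply, hcompat u hu D hD (gb⁻¹ • Q)]
  have h := ord_smul gb (gb⁻¹ • Q) (ρ u)
  rw [smul_inv_smul] at h
  exact h

/-- **Galois compatibility of the place map** (abstract form).  `cls` = the classifying map (in the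
application: the `j̄`-value in `OnePoint k`), `sb` = the action induced on the classes. -/
theorem gcp_place_compat
    (hcompat : ∀ u : W, ρ u ≠ 0 → ∀ D : Divisor L F, (∀ P, D P = P.ord (u : F)) →
      ∀ Q, Finsupp.mapDomain r D Q = Q.ord (ρ u))
    (hpd : ∀ x : F, x ≠ 0 → ∃ D : Divisor L F, ∀ P, D P = P.ord x)
    (hWg : ∀ u : W, g • (u : F) ∈ W) (hρg : ∀ u : W, ρ ⟨g • (u : F), hWg u⟩ = gb • ρ u)
    {T : Type*} (cls : Place k Fb → T) (sb : T → T) (hsb : Function.Injective sb)
    (hcls1 : ∀ P, cls (r (g • P)) = sb (cls (r P))) (hcls2 : ∀ Q, cls (gb • Q) = sb (cls Q))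
    (hgood : ∀ P : Place L F, ∃ u : W, ρ u ≠ 0 ∧ P.ord (u : F) ≠ 0 ∧
      ∀ P', P' ≠ P → P'.ord (u : F) ≠ 0 → cls (r P') ≠ cls (r P))
    (P : Place L F) : r (g • P) = gb • r P := by
  classical
  have hE : gcpDefect r g gb = 0 := by
    refine loe_eq_zero r cls (fun t => {sb t}) (gcpDefect r g gb) ?_ ?_
    · intro P Q hQ
      rw [gcpDefect_single, Finsupp.sub_apply] at hQ
      rw [Set.mem_singleton_iff]
      by_cases h1 : Q = r (g • P)
      · rw [h1, hcls1]
      · by_cases h2 : Q = gb • r P
        · rw [h2, hcls2]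
        · exfalso
          apply hQ
          rw [Finsupp.single_apply, Finsupp.single_apply, if_neg (Ne.symm h1), if_neg (Ne.symm h2),
            sub_zero]
    · intro P
      obtain ⟨u, hu, hP, hoth⟩ := hgood P
      have hu0 : (u : F) ≠ 0 := by
        intro h
        apply hu
        have : u = 0 := Subtype.ext h
        rw [this, map_zero]
      obtain ⟨D, hD⟩ := hpd (u : F) hu0
      refine ⟨D, gcp_defect_principal r g gb ρ hcompat u hu (hWg u) (hρg u) D hD, ?_, ?_⟩
      · rw [hD]; exact hP
      · intro P' hne hD'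
        rw [hD] at hD'
        rw [Set.disjoint_singleton]
        exact fun h => hoth P' hne hD' (hsb h)
  have h := DFunLike.congr_fun hE (Finsupp.single P 1)
  rw [gcpDefect_single, AddMonoidHom.zero_apply, sub_eq_zero] at h
  exact (Finsupp.single_left_inj (one_ne_zero : (1 : ℤ) ≠ 0)).mp h

end Abstract

section Pic

open ModularCurve

variable {L : Type*} [Field L] [Algebra ℚ L] {A : ValuationSubring L}
variable {k : Type*} [Field k] {π : A →+* k} {N : ℕ}
variable (r : Place L (laurentBaseChange L (modularFunctionFieldFull N)) →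
  Place k (modularFunctionFieldFullC k N))

/-- **consequence on `Pic⁰`**: if the place map intertwines `g` and `gb`, so does the reduction map of
the Prelude. -/
theorem gcp_red_smul (hr : IsPlaceReductionAlong A π N r) (hgen : PrincipalGeneratedByIntegral A π N)
    (g : SemilinearAut L (laurentBaseChange L (modularFunctionFieldFull N)))
    (gb : SemilinearAut k (modularFunctionFieldFullC k N))
    (h : ∀ P, r (g • P) = gb • r P)
    (x : Pic0 L (laurentBaseChange L (modularFunctionFieldFull N))) :
    reductionPic0Along r hr hgen (g • x) = gb • reductionPic0Along r hr hgen x := by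
  obtain ⟨D, rfl⟩ := Pic0.mk_surjective x
  rw [pic0_smul_mk, reductionPic0Along_mk, reductionPic0Along_mk, pic0_smul_mk]
  refine congrArg Pic0.mk (Subtype.ext ?_)
  rw [coe_reductionDegZeroAlong, coe_degZeroSMulHom, coe_degZeroSMulHom, coe_reductionDegZeroAlong,
    divisor_smul_def, divisor_smul_def, ← Finsupp.mapDomain_comp, ← Finsupp.mapDomain_comp]
  congr 1
  funext P
  exact h P

end Pic

end Fermat.Agent.S37x
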