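/-
S37 prep, block [B3], row 27 GAL (helper55): GALOIS COMPATIBILITY OF THE PLACE MAP in `ts_Hyp` language,
by instantiating helper3/helper47's abstract localisation lemma `es3_global2` with
`T := g_*`, `Φ := gb_*`, `h := g • u`.

Setting: `H : ts_Hyp A π W ρ r`, a semilinear automorphism `g` of `F/L` with `g W = W`, a semilinear
automorphism `gb` of `Fb/k` with `ρ (g • u) = gb • ρ u`, a coordinate `J ∈ W` fixed by `g` whose reduction
`jb = ρ J` is fixed by `gb`.  Inputs about `r` (row 22, "SPEC consequences"):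
* `hF1` : if `J(P) = c ∈ A` then `jb (r P) = π c`;
* `hF2` : if `J(P) ∉ A` (or `P` is a pole of `J`) then `r P` is a pole of `jb`;
and the separation hypotheses `hsep`, `hsep'` of `es3_global2` (row 26) for `𝒮 = {poles of jb}`.
Output: `r (g • P) = gb • r P` for every place `P`, and `r_* (g • D) = gb • r_* D` on divisors.
-/
import Fermat.Agent.S37x.Es3Local2
import Fermat.Agent.S37x.GaloisCompat
import Fermat.Agent.S37x.CoeffFrob

set_option autoImplicit false

namespace Fermat.Agent.S37x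

open AlgebraicCurve AlgebraicCurve.SemilinearAut Fermat.Agent.S18x

section Val

variable {k Fb : Type*} [Field k] [Field Fb] [Algebra k Fb]

/-- a function has at most one value at a place -/
theorem gcp_val_unique (Q : Place k Fb) (y : Fb) {a b : k}
    (ha : Q.adicValuation (y - algebraMap k Fb a) < 1)
    (hb : Q.adicValuation (y - algebraMap k Fb b) < 1) : a = b := by
  by_contra hab
  have h1 : Q.adicValuation (algebraMap k Fb (a - b)) = 1 :=
    ts_val_algebraMap Q (sub_ne_zero.mpr hab)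
  have h2 : algebraMap k Fb (a - b) = (y - algebraMap k Fb b) - (y - algebraMap k Fb a) := by
    rw [map_sub]; ring
  rw [h2] at h1
  have h3 := Valuation.map_sub Q.adicValuation (y - algebraMap k Fb b) (y - algebraMap k Fb a)
  have h4 : Q.adicValuation ((y - algebraMap k Fb b) - (y - algebraMap k Fb a)) < 1 :=
    lt_of_le_of_lt h3 (max_lt hb ha)
  rw [h1] at h4
  exact lt_irrefl _ h4

/-- a function with a value at a place is regular there -/
theorem gcp_val_le_one_of_value (Q : Place k Fb) (y : Fb) {a : k}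
    (ha : Q.adicValuation (y - algebraMap k Fb a) < 1) : Q.adicValuation y ≤ 1 := by
  have h : y = (y - algebraMap k Fb a) + algebraMap k Fb a := by ring
  rw [h]
  exact (Valuation.map_add _ _ _).trans (max_le ha.le (Q.adicValuation_algebraMap_le_one a))

theorem gcp_ord_nonneg_of_value (Q : Place k Fb) (y : Fb) {a : k}
    (ha : Q.adicValuation (y - algebraMap k Fb a) < 1) : ¬ Q.ord y < 0 := by
  rw [← Q.not_adicValuation_le_one_iff, not_not]
  exact gcp_val_le_one_of_value Q y ha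

end Val

section TS

variable {L k F Fb : Type*} [Field L] [Field k] [Field F] [Field Fb] [Algebra L F] [Algebra k Fb]
variable {A : ValuationSubring L} {π : A →+* k} {W : ValuationSubring F} {ρ : W →+* Fb}
  {r : Place L F → Place k Fb}

/-- the function-level lift for a pair of semilinear automorphisms: `h = g • u` -/
theorem gcp_lifts (g : SemilinearAut L F) (gb : SemilinearAut k Fb)
    (hWg : ∀ u : W, g • (u : F) ∈ W) (hρg : ∀ u : W, ρ ⟨g • (u : F), hWg u⟩ = gb • ρ u) :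
    es3_Lifts ρ (DistribSMul.toAddMonoidHom (Divisor L F) g)
      (DistribSMul.toAddMonoidHom (Divisor k Fb) gb) := by
  intro u hu D hD Db hDb
  refine ⟨⟨g • (u : F), hWg u⟩, ?_, ?_, ?_⟩
  · rw [hρg]
    intro h
    apply hu
    have h2 := congrArg (gb⁻¹ • ·) h
    simpa using h2
  · intro P
    exact gcp_smul_divisor g hD P
  · intro Q
    rw [hρg]
    exact gcp_smul_divisor gb hDb Q

/-- `g` maps `A` into `A` (constants of `W`) -/
theorem gcp_base_mem (H : ts_Hyp A π W ρ r) (g : SemilinearAut L F)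
    (hWg : ∀ u : W, g • (u : F) ∈ W) {c : L} (hc : c ∈ A) : baseAut g c ∈ A := by
  have h1 : algebraMap L F c ∈ W := H.algW hc
  have h2 := hWg ⟨algebraMap L F c, h1⟩
  rw [SemilinearAut.smul_algebraMap] at h2
  exact (H.mem_iff _).mp h2

/-- `π ∘ baseAut g = baseAut gb ∘ π` -/
theorem gcp_base_pi (H : ts_Hyp A π W ρ r) (g : SemilinearAut L F) (gb : SemilinearAut k Fb)
    (hWg : ∀ u : W, g • (u : F) ∈ W) (hρg : ∀ u : W, ρ ⟨g • (u : F), hWg u⟩ = gb • ρ u)
    {c : L} (hc : c ∈ A) :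
    π ⟨baseAut g c, gcp_base_mem H g hWg hc⟩ = baseAut gb (π ⟨c, hc⟩) := by
  have h1 : algebraMap L F c ∈ W := H.algW hc
  have h2 := hρg ⟨algebraMap L F c, h1⟩
  have h3 : (⟨g • ((⟨algebraMap L F c, h1⟩ : W) : F), hWg ⟨algebraMap L F c, h1⟩⟩ : W) =
      ⟨algebraMap L F (baseAut g c), H.algW (gcp_base_mem H g hWg hc)⟩ :=
    Subtype.ext (SemilinearAut.smul_algebraMap g c)
  rw [h3, H.rho_alg _ (gcp_base_mem H g hWg hc), H.rho_alg c hc, SemilinearAut.smul_algebraMap] at h2
  exact (algebraMap k Fb).injective h2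

/-- **Galois compatibility of the place map, divisor form.** -/
theorem gcp_divisor_compat_ts (H : ts_Hyp A π W ρ r)
    (g : SemilinearAut L F) (gb : SemilinearAut k Fb)
    (hWg : ∀ u : W, g • (u : F) ∈ W) (hWg' : ∀ u : W, g⁻¹ • (u : F) ∈ W)
    (hρg : ∀ u : W, ρ ⟨g • (u : F), hWg u⟩ = gb • ρ u)
    (J : W) (hgJ : g • (J : F) = J) (hgbJ : gb • ρ J = ρ J)
    (hF1 : ∀ (P : Place L F) (c : L) (hc : c ∈ A),
      P.adicValuation ((J : F) - algebraMap L F c) < 1 →
        (r P).adicValuation (ρ J - algebraMap k Fb (π ⟨c, hc⟩)) < 1)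
    (hF2 : ∀ P : Place L F, (¬ ∃ c ∈ A, P.adicValuation ((J : F) - algebraMap L F c) < 1) →
      (r P).ord (ρ J) < 0)
    (hevalb : ∀ Q : Place k Fb, ¬ Q.ord (ρ J) < 0 →
      ∃ a : k, Q.adicValuation (ρ J - algebraMap k Fb a) < 1)
    (hpdb : ∀ y : Fb, y ≠ 0 → ∃ D : Divisor k Fb, ∀ Q, D Q = Q.ord y)
    (hJnc : ∀ a : k, ρ J ≠ algebraMap k Fb a)
    (hsep : ∀ P, r P ∉ {Q : Place k Fb | Q.ord (ρ J) < 0} → ∀ S : Finset (Place k Fb),
      (∀ Q ∈ S, Q ∉ {Q : Place k Fb | Q.ord (ρ J) < 0}) → r P ∉ S →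
      ∃ u : W, ρ u ≠ 0 ∧ 0 < P.ord (u : F) ∧ (r P).ord (ρ u) = 1 ∧
        (∀ P'', P''.ord (u : F) < 0 → r P'' ∈ {Q : Place k Fb | Q.ord (ρ J) < 0}) ∧
          ∀ Q ∈ S, Q.ord (ρ u) = 0)
    (hsep' : ∀ P, r P ∈ {Q : Place k Fb | Q.ord (ρ J) < 0} → ∀ S : Finset (Place k Fb),
      (∀ Q ∈ S, Q ∈ {Q : Place k Fb | Q.ord (ρ J) < 0}) → r P ∉ S →
      ∃ u : W, ρ u ≠ 0 ∧ 0 < P.ord (u : F) ∧ (r P).ord (ρ u) = 1 ∧
        (∀ P'', P''.ord (u : F) < 0 → r P'' ∉ {Q : Place k Fb | Q.ord (ρ J) < 0}) ∧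
          ∀ Q ∈ S, Q.ord (ρ u) = 0)
    (D : Divisor L F) :
    Finsupp.mapDomain r (g • D) = gb • Finsupp.mapDomain r D := by
  classical
  set jb : Fb := ρ J with hjb
  set σb : k ≃+* k := baseAut gb with hσb
  -- transport of values on the characteristic-zero side
  have hFT : ∀ (g' : SemilinearAut L F), g' • (J : F) = J → ∀ (P : Place L F) (c : L),
      P.adicValuation ((J : F) - algebraMap L F c) < 1 →
        (g' • P).adicValuation ((J : F) - algebraMap L F (baseAut g' c)) < 1 := by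
    intro g' hg' P c h
    have := cfb_value_smul g' P (J : F) c h
    rwa [hg'] at this
  have hg'J : g⁻¹ • (J : F) = J := by
    conv_lhs => rw [← hgJ]
    rw [inv_smul_smul]
  -- transport of values on the characteristic-ℓ side
  have hFTb : ∀ (Q : Place k Fb) (a : k), Q.adicValuation (jb - algebraMap k Fb a) < 1 →
      (gb • Q).adicValuation (jb - algebraMap k Fb (σb a)) < 1 := by
    intro Q a h
    have := cfb_value_smul gb Q jb a h
    rwa [hgbJ] at this
  -- the neighbourhoods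
  let Θ : Place k Fb → Set (Place k Fb) := fun Q =>
    {Q' | (Q'.ord jb < 0 ↔ Q.ord jb < 0) ∧
      ∀ a : k, Q.adicValuation (jb - algebraMap k Fb a) < 1 →
        Q'.adicValuation (jb - algebraMap k Fb (σb a)) < 1}
  refine es3_global2 H (DistribSMul.toAddMonoidHom (Divisor L F) g)
    (DistribSMul.toAddMonoidHom (Divisor k Fb) gb) (gcp_lifts g gb hWg hρg) Θ
    {Q : Place k Fb | Q.ord jb < 0} ?_ ?_ ?_ hsep hsep' D
  · -- hΘ𝒮
    intro Q Q' hQ'
    exact hQ'.1
  · -- hfin
    intro Q'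
    by_cases hpole : Q'.ord jb < 0
    · have hjb0 : jb ≠ 0 := by
        intro h
        exact hJnc 0 (by rw [map_zero]; exact h)
      obtain ⟨Dj, hDj⟩ := hpdb jb hjb0
      refine Set.Finite.subset Dj.support.finite_toSet ?_
      intro Q hQ
      have hQpole : Q.ord jb < 0 := hQ.1.mp hpole
      rw [Finset.mem_coe, Finsupp.mem_support_iff, hDj Q]
      exact hQpole.ne
    · obtain ⟨a', ha'⟩ := hevalb Q' hpole
      have hne : jb - algebraMap k Fb (σb.symm a') ≠ 0 :=
        sub_ne_zero.mpr (hJnc (σb.symm a'))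
      obtain ⟨Dj, hDj⟩ := hpdb _ hne
      refine Set.Finite.subset Dj.support.finite_toSet ?_
      intro Q hQ
      have hQreg : ¬ Q.ord jb < 0 := fun h => hpole (hQ.1.mpr h)
      obtain ⟨a, ha⟩ := hevalb Q hQreg
      have h1 := hQ.2 a ha
      have h2 : σb a = a' := gcp_val_unique Q' jb h1 ha'
      have h3 : a = σb.symm a' := by rw [← h2, RingEquiv.symm_apply_apply]
      rw [h3] at ha
      rw [Finset.mem_coe, Finsupp.mem_support_iff, hDj Q]
      have := ((ts_val_lt_one_iff Q).mp ha).resolve_left hne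
      omega
  · -- hE
    intro P Q' hQ'
    rw [es3_defect_apply] at hQ'
    have e1 : (DistribSMul.toAddMonoidHom (Divisor L F) g) (Finsupp.single P 1) =
        Finsupp.single (g • P) 1 := smul_single g P 1
    have e2 : (DistribSMul.toAddMonoidHom (Divisor k Fb) gb)
        (Finsupp.mapDomain r (Finsupp.single P 1)) = Finsupp.single (gb • r P) 1 := by
      rw [Finsupp.mapDomain_single]
      exact smul_single gb (r P) 1
    rw [e1, e2, Finsupp.mapDomain_single, Finsupp.sub_apply] at hQ'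
    by_cases h2 : Q' = gb • r P
    · -- `Q' = gb • r P`
      rw [h2]
      refine ⟨?_, fun a ha => hFTb (r P) a ha⟩
      have h := ord_smul gb (r P) jb
      rw [hgbJ] at h
      rw [h]
    · have h1 : Q' = r (g • P) := by
        by_contra h1
        apply hQ'
        rw [Finsupp.single_apply, Finsupp.single_apply, if_neg (Ne.symm h1), if_neg (Ne.symm h2),
          sub_zero]
      rw [h1]
      by_cases hft : ∃ c ∈ A, P.adicValuation ((J : F) - algebraMap L F c) < 1
      · obtain ⟨c, hc, hPc⟩ := hft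
        have hQc := hF1 P c hc hPc
        have hgc : baseAut g c ∈ A := gcp_base_mem H g hWg hc
        have hQ'c := hF1 (g • P) (baseAut g c) hgc (hFT g hgJ P c hPc)
        rw [gcp_base_pi H g gb hWg hρg hc] at hQ'c
        refine ⟨⟨fun h => absurd h (gcp_ord_nonneg_of_value _ _ hQ'c),
          fun h => absurd h (gcp_ord_nonneg_of_value _ _ hQc)⟩, ?_⟩
        intro a ha
        have : a = π ⟨c, hc⟩ := gcp_val_unique (r P) jb ha hQc
        rw [this]
        exact hQ'c
      · have hpole := hF2 P hft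
        have hft' : ¬ ∃ c ∈ A, (g • P).adicValuation ((J : F) - algebraMap L F c) < 1 := by
          rintro ⟨c, hc, hPc⟩
          apply hft
          have hc' : baseAut g⁻¹ c ∈ A := gcp_base_mem H g⁻¹ hWg' hc
          refine ⟨baseAut g⁻¹ c, hc', ?_⟩
          have := hFT g⁻¹ hg'J (g • P) c hPc
          rwa [inv_smul_smul] at this
        have hpole' := hF2 (g • P) hft'
        refine ⟨⟨fun _ => hpole, fun _ => hpole'⟩, ?_⟩
        intro a ha
        exact absurd hpole (gcp_ord_nonneg_of_value _ _ ha)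

/-- **Galois compatibility of the place map, place form**: `r (g • P) = gb • r P`. -/
theorem gcp_place_compat_ts (H : ts_Hyp A π W ρ r)
    (g : SemilinearAut L F) (gb : SemilinearAut k Fb)
    (hWg : ∀ u : W, g • (u : F) ∈ W) (hWg' : ∀ u : W, g⁻¹ • (u : F) ∈ W)
    (hρg : ∀ u : W, ρ ⟨g • (u : F), hWg u⟩ = gb • ρ u)
    (J : W) (hgJ : g • (J : F) = J) (hgbJ : gb • ρ J = ρ J)
    (hF1 : ∀ (P : Place L F) (c : L) (hc : c ∈ A),
      P.adicValuation ((J : F) - algebraMap L F c) < 1 →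
        (r P).adicValuation (ρ J - algebraMap k Fb (π ⟨c, hc⟩)) < 1)
    (hF2 : ∀ P : Place L F, (¬ ∃ c ∈ A, P.adicValuation ((J : F) - algebraMap L F c) < 1) →
      (r P).ord (ρ J) < 0)
    (hevalb : ∀ Q : Place k Fb, ¬ Q.ord (ρ J) < 0 →
      ∃ a : k, Q.adicValuation (ρ J - algebraMap k Fb a) < 1)
    (hpdb : ∀ y : Fb, y ≠ 0 → ∃ D : Divisor k Fb, ∀ Q, D Q = Q.ord y)
    (hJnc : ∀ a : k, ρ J ≠ algebraMap k Fb a)
    (hsep : ∀ P, r P ∉ {Q : Place k Fb | Q.ord (ρ J) < 0} → ∀ S : Finset (Place k Fb),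
      (∀ Q ∈ S, Q ∉ {Q : Place k Fb | Q.ord (ρ J) < 0}) → r P ∉ S →
      ∃ u : W, ρ u ≠ 0 ∧ 0 < P.ord (u : F) ∧ (r P).ord (ρ u) = 1 ∧
        (∀ P'', P''.ord (u : F) < 0 → r P'' ∈ {Q : Place k Fb | Q.ord (ρ J) < 0}) ∧
          ∀ Q ∈ S, Q.ord (ρ u) = 0)
    (hsep' : ∀ P, r P ∈ {Q : Place k Fb | Q.ord (ρ J) < 0} → ∀ S : Finset (Place k Fb),
      (∀ Q ∈ S, Q ∈ {Q : Place k Fb | Q.ord (ρ J) < 0}) → r P ∉ S →
      ∃ u : W, ρ u ≠ 0 ∧ 0 < P.ord (u : F) ∧ (r P).ord (ρ u) = 1 ∧
        (∀ P'', P''.ord (u : F) < 0 → r P'' ∉ {Q : Place k Fb | Q.ord (ρ J) < 0}) ∧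
          ∀ Q ∈ S, Q.ord (ρ u) = 0)
    (P : Place L F) : r (g • P) = gb • r P := by
  have h := gcp_divisor_compat_ts H g gb hWg hWg' hρg J hgJ hgbJ hF1 hF2 hevalb hpdb hJnc hsep hsep'
    (Finsupp.single P 1)
  rw [smul_single, Finsupp.mapDomain_single, Finsupp.mapDomain_single, smul_single] at h
  exact (Finsupp.single_left_inj (one_ne_zero : (1 : ℤ) ≠ 0)).mp h

end TS

end Fermat.Agent.S37x
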