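/-
S37 prep, block [B3], row 21 (GAL) part 2b (helper55, prefix `gci_`): the CONCRETE Galois
compatibility of the place reduction `r := placeReductionModL h` of the frozen S37:

  `r (σ • P) = σ̄ • r P`   for every `σ` in the decomposition group of `A`,

where `σ • P` is the Prelude action through `arithmeticGalois (modularFunctionFieldFull N) σ`
and `σ̄ • Q` is the action of helper48's `cfb_coeffAut k N σ̄` (`σ̄` = the automorphism of the
residue field `k` of `A` induced by `σ`).  Consequences, in the exact shape of the inputs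
`hI`, `hF` of helper44's `es7_hES` (S37x/EsPic0.lean):

* `gci_hI` : inertia acts trivially after reduction;
* `gci_hF` : Frobenius elements act through `cfb_frob k N ℓ`.

The instantiation is for the canonical S18 Gauss pair `(s18f_W, s18f_rho, s18f_J)` of
`S18x/AssemblyFinal.lean`, through the abstract `gcp_place_compat_ts`.  The four hypotheses of
that theorem which are not formal (`hF1`, `hF2` = value lemmas of the SPEC, `hsep`, `hsep'` =
separation) are bundled in `gci_Sep`; they are the outputs of rows 22 and 26 of `s37_plan`.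
-/
import Mathlib
import Fermat.Prelude.Def_EllipticCurve_FrobeniusTrace
import Fermat.Prelude.Def_FLTPrelim_Ramification
import Fermat.Agent.S37x.GaloisCompatTs
import Fermat.Agent.S37x.GaloisCompatGauss
import Fermat.Agent.S37x.CoeffFrob
import Fermat.Agent.S18x.AssemblyFinal
import Fermat.Agent.S18x.InstGaussExists

set_option autoImplicit false

namespace Fermat.Agent.S37x

open ModularCurve AlgebraicCurve ValuationSubring HahnSeries Fermat.Agent.S18x Fermat.Agent.S24x

noncomputable section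

set_option synthInstance.maxHeartbeats 400000

local notation "Q̄" => AlgebraicClosure ℚ

section ResAut

variable (A : ValuationSubring Q̄)

local notation "kA" => IsLocalRing.ResidueField A

/-- the automorphism of the residue field induced by an element of the decomposition group -/
def gciResAut (σ : A.decompositionSubgroup ℚ) : kA ≃+* kA :=
  MulSemiringAction.toRingAut (A.decompositionSubgroup ℚ) kA σ

theorem gciResAut_apply (σ : A.decompositionSubgroup ℚ) (x : kA) :
    gciResAut A σ x = σ • x := rfl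

theorem gci_mem (σ : A.decompositionSubgroup ℚ) (a : Q̄) (ha : a ∈ A) :
    ((σ : Q̄ ≃ₐ[ℚ] Q̄) : Q̄ →+* Q̄) a ∈ A :=
  (σ • (⟨a, ha⟩ : A)).2

theorem gci_res (σ : A.decompositionSubgroup ℚ) (a : A) :
    IsLocalRing.residue A (gcgRes A ((σ : Q̄ ≃ₐ[ℚ] Q̄) : Q̄ →+* Q̄) (gci_mem A σ) a) =
      ((gciResAut A σ : kA ≃+* kA) : kA →+* kA) (IsLocalRing.residue A a) := rfl

end ResAut

section Main

variable {N : ℕ} [NeZero N] {A : ValuationSubring Q̄} (h : ReductionInputsModL A N)

local notation "kA" => IsLocalRing.ResidueField A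
local notation "FbA" => modularFunctionFieldFullC (IsLocalRing.ResidueField A) N

/-- the non-formal inputs of the Galois compatibility, for the canonical S18 Gauss pair:
value lemmas for `j` (rows 22 of `s37_plan`) and separation (row 26). -/
structure gci_Sep : Prop where
  hF1 : ∀ (P : Place Q̄ (FBar N)) (c : Q̄) (hc : c ∈ A),
    P.adicValuation (((s18f_J N A h : s18f_W N A h) : FBar N) - algebraMap Q̄ (FBar N) c) < 1 →
      (placeReductionModL h P).adicValuation
        (s18f_rho N A h (s18f_J N A h) - algebraMap kA FbA (IsLocalRing.residue A ⟨c, hc⟩)) < 1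
  hF2 : ∀ P : Place Q̄ (FBar N),
    (¬ ∃ c ∈ A, P.adicValuation
      (((s18f_J N A h : s18f_W N A h) : FBar N) - algebraMap Q̄ (FBar N) c) < 1) →
      (placeReductionModL h P).ord (s18f_rho N A h (s18f_J N A h)) < 0
  hsep : ∀ P, placeReductionModL h P ∉
      {Q : Place kA FbA | Q.ord (s18f_rho N A h (s18f_J N A h)) < 0} →
    ∀ S : Finset (Place kA FbA),
      (∀ Q ∈ S, Q ∉ {Q : Place kA FbA | Q.ord (s18f_rho N A h (s18f_J N A h)) < 0}) →
      placeReductionModL h P ∉ S →
      ∃ u : s18f_W N A h, s18f_rho N A h u ≠ 0 ∧ 0 < P.ord (u : FBar N) ∧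
        (placeReductionModL h P).ord (s18f_rho N A h u) = 1 ∧
        (∀ P'' : Place Q̄ (FBar N), P''.ord (u : FBar N) < 0 → placeReductionModL h P'' ∈
          {Q : Place kA FbA | Q.ord (s18f_rho N A h (s18f_J N A h)) < 0}) ∧
          ∀ Q ∈ S, Q.ord (s18f_rho N A h u) = 0
  hsep' : ∀ P, placeReductionModL h P ∈
      {Q : Place kA FbA | Q.ord (s18f_rho N A h (s18f_J N A h)) < 0} →
    ∀ S : Finset (Place kA FbA),
      (∀ Q ∈ S, Q ∈ {Q : Place kA FbA | Q.ord (s18f_rho N A h (s18f_J N A h)) < 0}) →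
      placeReductionModL h P ∉ S →
      ∃ u : s18f_W N A h, s18f_rho N A h u ≠ 0 ∧ 0 < P.ord (u : FBar N) ∧
        (placeReductionModL h P).ord (s18f_rho N A h u) = 1 ∧
        (∀ P'' : Place Q̄ (FBar N), P''.ord (u : FBar N) < 0 → placeReductionModL h P'' ∉
          {Q : Place kA FbA | Q.ord (s18f_rho N A h (s18f_J N A h)) < 0}) ∧
          ∀ Q ∈ S, Q.ord (s18f_rho N A h u) = 0

/-- the Gauss ring is stable under the decomposition group -/
theorem gci_smul_mem (σ : A.decompositionSubgroup ℚ) (u : s18f_W N A h) :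
    arithmeticGalois (modularFunctionFieldFull N) (σ : Q̄ ≃ₐ[ℚ] Q̄) • (u : FBar N) ∈
      s18f_W N A h := by
  show ((arithmeticGalois (modularFunctionFieldFull N) (σ : Q̄ ≃ₐ[ℚ] Q̄) • (u : FBar N) : FBar N) :
    LaurentSeries Q̄) ∈ ga_W A (IsLocalRing.residue A)
  rw [coe_arithmeticGalois_smul]
  exact gcg_mem_W A (IsLocalRing.residue A) _ (gci_mem A σ) _ (gci_res A σ) u.2

/-- the residue map intertwines the decomposition group and its action on the residue field -/
theorem gci_rho_smul (σ : A.decompositionSubgroup ℚ) (u : s18f_W N A h) :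
    s18f_rho N A h ⟨arithmeticGalois (modularFunctionFieldFull N) (σ : Q̄ ≃ₐ[ℚ] Q̄) • (u : FBar N),
        gci_smul_mem h σ u⟩ =
      cfb_coeffAut kA N (gciResAut A σ) • s18f_rho N A h u := by
  apply Subtype.ext
  rw [cfb_coe_coeffAut_smul, gi_rho_coe, gi_rho_coe]
  exact gcg_rho A (IsLocalRing.residue A) _ (gci_mem A σ) _ (gci_res A σ) u.2

theorem gci_smul_J (σ : Q̄ ≃ₐ[ℚ] Q̄) :
    arithmeticGalois (modularFunctionFieldFull N) σ • ((s18f_J N A h : s18f_W N A h) : FBar N) =
      ((s18f_J N A h : s18f_W N A h) : FBar N) := by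
  apply Subtype.ext
  rw [coe_arithmeticGalois_smul, s18f_J_coe, gi_coe_jBar N A, coeffMap_coeffMap, coeffMap_jqModC,
    coeffMap_jqModC]

theorem gci_inv_smul_mem (σ : A.decompositionSubgroup ℚ) (u : s18f_W N A h) :
    (arithmeticGalois (modularFunctionFieldFull N) (σ : Q̄ ≃ₐ[ℚ] Q̄))⁻¹ • (u : FBar N) ∈
      s18f_W N A h := by
  have h1 := gci_smul_mem h σ⁻¹ u
  have e : arithmeticGalois (modularFunctionFieldFull N)
      ((σ⁻¹ : A.decompositionSubgroup ℚ) : Q̄ ≃ₐ[ℚ] Q̄) =
        (arithmeticGalois (modularFunctionFieldFull N) (σ : Q̄ ≃ₐ[ℚ] Q̄))⁻¹ := by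
    rw [Subgroup.coe_inv, map_inv]
  rw [e] at h1
  exact h1

theorem gci_smul_rho_J (φ : kA ≃+* kA) :
    cfb_coeffAut kA N φ • s18f_rho N A h (s18f_J N A h) = s18f_rho N A h (s18f_J N A h) := by
  have hJ : s18f_rho N A h (s18f_J N A h) = pls_jb kA N := s18f_rho_J N A h
  rw [hJ]
  exact cfb_coeffAut_smul_j kA N φ

theorem gci_evalb (Q : Place kA FbA) (hQ : ¬ Q.ord (s18f_rho N A h (s18f_J N A h)) < 0) :
    ∃ a : kA, Q.adicValuation (s18f_rho N A h (s18f_J N A h) - algebraMap kA FbA a) < 1 := by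
  have : IsAlgClosed kA := s18a_isAlgClosed_residue A
  exact (rmn_hyp_fb kA N).eval Q _
    ((Q.adicValuation_le_one_iff).mpr (Or.inr (not_lt.mp hQ)))

theorem gci_hpdb (y : FbA) (hy : y ≠ 0) : ∃ D : Divisor kA FbA, ∀ Q, D Q = Q.ord y := by
  have : IsAlgClosed kA := s18a_isAlgClosed_residue A
  exact (rmn_hyp_fb kA N).hpd y hy

theorem gci_Jnc (a : kA) : s18f_rho N A h (s18f_J N A h) ≠ algebraMap kA FbA a := by
  have : IsAlgClosed kA := s18a_isAlgClosed_residue A
  have hJ : s18f_rho N A h (s18f_J N A h) = pls_jb kA N := s18f_rho_J N A h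
  rw [hJ]
  exact unr_fb_nonconst kA N a

/-- **Galois compatibility of the place reduction** (decomposition group). -/
theorem gci_place_compat (hS : gci_Sep h) (σ : A.decompositionSubgroup ℚ)
    (P : Place Q̄ (FBar N)) :
    placeReductionModL h (arithmeticGalois (modularFunctionFieldFull N) (σ : Q̄ ≃ₐ[ℚ] Q̄) • P) =
      cfb_coeffAut kA N (gciResAut A σ) • placeReductionModL h P :=
  gcp_place_compat_ts (s18f_hyp N A h)
    (arithmeticGalois (modularFunctionFieldFull N) (σ : Q̄ ≃ₐ[ℚ] Q̄))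
    (cfb_coeffAut kA N (gciResAut A σ)) (gci_smul_mem h σ) (gci_inv_smul_mem h σ)
    (gci_rho_smul h σ) (s18f_J N A h) (gci_smul_J h _) (gci_smul_rho_J h _) hS.hF1 hS.hF2
    (gci_evalb h) (gci_hpdb (N := N) (A := A)) (gci_Jnc h) hS.hsep hS.hsep' P

/-- **(P-i)**: inertia acts trivially after reduction (input `hI` of `es7_hES`). -/
theorem gci_hI (hS : gci_Sep h) :
    ∀ τ ∈ A.inertiaSubgroupIn ℚ, ∀ P : Place Q̄ (FBar N),
      placeReductionModL h (arithmeticGalois (modularFunctionFieldFull N) τ • P) =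
        placeReductionModL h P := by
  intro τ hτ P
  obtain ⟨τ', hτ', rfl⟩ := hτ
  have h1 : gciResAut A τ' = 1 := hτ'
  have h2 := gci_place_compat h hS τ' P
  rw [h1, map_one, one_smul] at h2
  exact h2

/-- **(P-ii)**: Frobenius elements act through the coefficientwise Frobenius `cfb_frob` after
reduction (input `hF` of `es7_hES` with `gF := cfb_frob k N ℓ`). -/
theorem gci_hF (hS : gci_Sep h) (ℓ : ℕ) [Fact ℓ.Prime] [CharP kA ℓ] [PerfectRing kA ℓ] :
    ∀ σ : Q̄ ≃ₐ[ℚ] Q̄, A.IsFrobeniusAt σ ℓ → ∀ P : Place Q̄ (FBar N),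
      placeReductionModL h (arithmeticGalois (modularFunctionFieldFull N) σ • P) =
        cfb_frob kA N ℓ • placeReductionModL h P := by
  intro σ hσ P
  obtain ⟨hσ', hx⟩ := hσ
  have h1 : gciResAut A ⟨σ, hσ'⟩ = frobeniusEquiv kA ℓ := by
    refine RingEquiv.ext fun x => ?_
    rw [gciResAut_apply, hx, frobeniusEquiv_apply, frobenius_def]
  have h2 := gci_place_compat h hS ⟨σ, hσ'⟩ P
  rw [h1] at h2
  exact h2

end Main

end

end Fermat.Agent.S37x
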