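/-
S37 preparation, block [B3] (helper3's route, leaf L6), helper90, prefix `wap_`.

**Weak approximation / CRT on a function field in PLACE language**: for a function field `F/K` (`K` algebraically
closed) with a separable coordinate `t`, a place `Q₀` with `t` regular at `Q₀` and a finite set `S` of such places
not containing `Q₀`, there is `g ∈ F`, regular at every place where `t` is regular (i.e. `g` in the integral closure
of `K[t]`), with a SIMPLE zero at `Q₀` and no zero at the places of `S`.  Chart-infinity twin (`t⁻¹`).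
-/
import Mathlib
import Fermat.Agent.S18x.CpPlaces
import Fermat.Agent.S18x.PlsFund

set_option autoImplicit false

namespace Fermat.Agent.S37x

open AlgebraicCurve IsDedekindDomain IntermediateField Fermat.Agent.S24x Fermat.Agent.S18x
open scoped IntermediateField.algebraAdjoinAdjoin

/-- Dedekind core: an element of `P₀ ∖ P₀²` outside finitely many other primes. -/
theorem wap_dedekind_core {B : Type*} [CommRing B] [IsDedekindDomain B]
    (P0 : HeightOneSpectrum B) (T : Finset (HeightOneSpectrum B)) (hP0 : P0 ∉ T) :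
    ∃ y : B, y ∈ P0.asIdeal ∧ y ∉ P0.asIdeal ^ 2 ∧ ∀ P ∈ T, y ∉ P.asIdeal := by
  classical
  obtain ⟨π, hπ1, hπ2⟩ :=
    Ideal.exists_mem_pow_notMem_pow_succ P0.asIdeal P0.ne_bot P0.isPrime.ne_top 1
  rw [pow_one] at hπ1
  obtain ⟨y, hy⟩ := IsDedekindDomain.exists_forall_sub_mem_ideal (s := insert P0 T)
    (fun P => P.asIdeal) (fun P => if P = P0 then 2 else 1) (fun P _ => P.prime)
    (fun P _ Q _ h hPQ => h (HeightOneSpectrum.ext hPQ))
    (fun P => if (P : HeightOneSpectrum B) = P0 then π else 1)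
  have h0 : y - π ∈ P0.asIdeal ^ 2 := by
    have := hy P0 (Finset.mem_insert_self _ _)
    simpa using this
  refine ⟨y, ?_, ?_, ?_⟩
  · have h1 : y - π ∈ P0.asIdeal := Ideal.pow_le_self (by norm_num) h0
    have : y = (y - π) + π := by ring
    rw [this]
    exact P0.asIdeal.add_mem h1 hπ1
  · intro hy2
    apply hπ2
    have : π = y - (y - π) := by ring
    rw [this]
    exact (P0.asIdeal ^ 2).sub_mem hy2 h0
  · intro P hP hyP
    have hne : P ≠ P0 := fun h => hP0 (h ▸ hP)
    have h1 := hy P (Finset.mem_insert_of_mem hP)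
    simp only [hne, if_false, pow_one] at h1
    have h2 : (1 : B) ∈ P.asIdeal := by
      have : (1 : B) = y - (y - 1) := by ring
      rw [this]
      exact P.asIdeal.sub_mem hyP h1
    exact P.isPrime.ne_top ((Ideal.eq_top_iff_one _).mpr h2)

section Places

variable {K F : Type*} [Field K] [Field F] [Algebra K F]

/-- **Weak approximation (chart `t` finite)**, instance form. -/
theorem wap_exists_simple_zero_core (x : F) [FFData K F x] [Algebra.IsSeparable K⟮x⟯ F]
    (Q0 : Place K F) (hQ0 : 0 ≤ Q0.ord x) (S : Finset (Place K F))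
    (hS : ∀ Q ∈ S, 0 ≤ Q.ord x) (hQ0S : Q0 ∉ S) :
    ∃ g : F, (∀ v : Place K F, 0 ≤ v.ord x → 0 ≤ v.ord g) ∧ Q0.ord g = 1 ∧ ∀ Q ∈ S, Q.ord g = 0 := by
  classical
  have := cp15_isDedekindDomain_ringB (K := K) x
  have hinj : Function.Injective
      (Place.ofHeightOneSpectrum (K := K) (F := F) (R := ringB K x)) :=
    fid_ofHeightOneSpectrum_injective (K := K) (F := F) (S := ringB K x)
  obtain ⟨P0, hP0⟩ := cp15_exists_prime_of_place (K := K) x Q0 (fid_mem_of_ord_nonneg Q0 hQ0)
  let T : Finset (HeightOneSpectrum (ringB K x)) := S.preimage _ hinj.injOn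
  have hP0T : P0 ∉ T := by
    intro h
    rw [Finset.mem_preimage, hP0] at h
    exact hQ0S h
  obtain ⟨y, hy1, hy2, hyT⟩ := wap_dedekind_core P0 T hP0T
  have hy0 : y ≠ 0 := fun h => hy2 (h ▸ Ideal.zero_mem _)
  refine ⟨algebraMap (ringB K x) F y, ?_, ?_, ?_⟩
  · intro v hv
    have hx : x ∈ v.toValuationSubring := fid_mem_of_ord_nonneg v hv
    exact fid_ord_nonneg_of_mem v (ringB_mem_place x v hx y)
  · rw [← hP0, fid_ord_algebraMap (K := K) P0 hy0]
    have h1 : P0.asIdeal ^ 1 ∣ Ideal.span {y} := by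
      rw [pow_one, Ideal.dvd_span_singleton]; exact hy1
    have h2 : ¬ P0.asIdeal ^ (1 + 1) ∣ Ideal.span {y} := by
      rw [Ideal.dvd_span_singleton]; exact hy2
    rw [multiplicity_eq_of_dvd_of_not_dvd h1 h2]
    rfl
  · intro Q hQ
    obtain ⟨P, hP⟩ := cp15_exists_prime_of_place (K := K) x Q (fid_mem_of_ord_nonneg Q (hS Q hQ))
    have hPT : P ∈ T := by
      rw [Finset.mem_preimage, hP]; exact hQ
    have hnot : ¬ 0 < Q.ord (algebraMap (ringB K x) F y) := by
      rw [← hP, ← fid_mem_asIdeal_iff (K := K) P hy0]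
      exact hyT P hPT
    have hnn : 0 ≤ Q.ord (algebraMap (ringB K x) F y) :=
      fid_ord_nonneg_of_mem Q (ringB_mem_place x Q (fid_mem_of_ord_nonneg Q (hS Q hQ)) y)
    omega

/-- **Weak approximation (chart `t` finite)** for a separating coordinate. -/
theorem wap_exists_simple_zero {t : F} (ht : pls_IsSepCoordinate K F t)
    (Q0 : Place K F) (hQ0 : 0 ≤ Q0.ord t) (S : Finset (Place K F))
    (hS : ∀ Q ∈ S, 0 ≤ Q.ord t) (hQ0S : Q0 ∉ S) :
    ∃ g : F, (∀ v : Place K F, 0 ≤ v.ord t → 0 ≤ v.ord g) ∧ Q0.ord g = 1 ∧ ∀ Q ∈ S, Q.ord g = 0 := by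
  have : FFData K F t := ⟨ht.coord.transcendental, ht.coord.finite⟩
  have := ht.sep
  exact wap_exists_simple_zero_core t Q0 hQ0 S hS hQ0S

/-- **Weak approximation (chart `t = ∞`)**: the same at the places where `t⁻¹` is regular. -/
theorem wap_exists_simple_zero_inf {t : F} (ht : pls_IsSepCoordinate K F t)
    (Q0 : Place K F) (hQ0 : Q0.ord t ≤ 0) (S : Finset (Place K F))
    (hS : ∀ Q ∈ S, Q.ord t ≤ 0) (hQ0S : Q0 ∉ S) :
    ∃ g : F, (∀ v : Place K F, v.ord t ≤ 0 → 0 ≤ v.ord g) ∧ Q0.ord g = 1 ∧ ∀ Q ∈ S, Q.ord g = 0 := by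
  have hinv := pls_isSepCoordinate_inv ht
  obtain ⟨g, hg1, hg2, hg3⟩ := wap_exists_simple_zero hinv Q0
    (by rw [Q0.ord_inv]; omega) S (fun Q hQ => by rw [Q.ord_inv]; have := hS Q hQ; omega) hQ0S
  refine ⟨g, fun v hv => hg1 v (by rw [v.ord_inv]; omega), hg2, hg3⟩

end Places

end Fermat.Agent.S37x
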