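/-
S37 prep, block [B3], [GAL] FINAL WIRING (helper55, prefix `gcf_`):

  `s18f_Normality N A h`  ⟹  `gci_Sep h`  ⟹  (P-i) `gcf_hI` and (P-ii) `gcf_hF`,

i.e. the place-level inputs `hI`, `hF` of `es7_hES` / `s37t_result_of_places` for
`r := placeReductionModL h`, from the two-chart normality of the reduction (the S18 input) ALONE.

Ingredients: helper82's SPEC consequences (`spv_zero_of_zero`, `spv_pole_iff`, `spv_pole_of_pole`),
helper47's separation (`es3p_hsep`, `es3p_hsep'`, `es3p_zero_of_zero`), helper90's weak approximation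
(`wap_exists_simple_zero`, `wap_exists_simple_zero_inf`) with the separating coordinate `j̄` of the
reduced function field, and the polar degree inequality `glu_hpol_assembly` (helper40).
-/
import Mathlib
import Fermat.Agent.S37x.GaloisCompatInst
import Fermat.Agent.S37x.SpecValue
import Fermat.Agent.S37x.Es3Sep
import Fermat.Agent.S37x.WeakApprox
import Fermat.Agent.S18x.PlsFbarFinal
import Fermat.Agent.S18x.GlueHpol

set_option autoImplicit false

namespace Fermat.Agent.S37x

open ModularCurve AlgebraicCurve ValuationSubring HahnSeries Fermat.Agent.S18x Fermat.Agent.S24x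

noncomputable section

set_option synthInstance.maxHeartbeats 400000

local notation "Q̄" => AlgebraicClosure ℚ

variable {N : ℕ} [NeZero N] {A : ValuationSubring Q̄} (h : ReductionInputsModL A N)
variable {ℓ : ℕ} [Fact ℓ.Prime] (hℓN : ¬ ℓ ∣ N) (hA : A.LiesOverPrime ℓ)

local notation "kA" => IsLocalRing.ResidueField A
local notation "FbA" => modularFunctionFieldFullC (IsLocalRing.ResidueField A) N

include hℓN hA in
/-- the polar degree of `j` does not drop under reduction -/
theorem gcf_polarLe :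
    spv_PolarLe (placeReductionModL h) ((s18f_J N A h : s18f_W N A h) : FBar N) := by
  have hAC : IsAlgClosed kA := s18a_isAlgClosed_residue A
  have hJ0 : s18f_rho N A h (s18f_J N A h) ≠ 0 := by
    have := gci_Jnc h 0
    rwa [map_zero] at this
  have hJF : ((s18f_J N A h : s18f_W N A h) : FBar N) ≠ 0 := spv_coe_ne_zero hJ0
  obtain ⟨DJ, hDJ⟩ := (s18f_hyp N A h).hpd _ hJF
  obtain ⟨DJb, hDJb⟩ := gci_hpdb (N := N) (A := A) _ hJ0
  refine spv_polarLe_of_hpol (s18f_hyp N A h) (s18f_J N A h) hJ0 DJ hDJ DJb hDJb ?_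
  refine glu_hpol_assembly N hℓN A hA (s18f_W N A h) (s18f_rho N A h) (s18f_J N A h)
    (s18f_J_coe N A h) ?_ DJ hDJ DJb hDJb
  rw [s18f_rho_J]
  rfl

include hℓN hA in
theorem gcf_hF1 (P : Place Q̄ (FBar N)) (c : Q̄) (hc : c ∈ A)
    (hP : P.adicValuation
      (((s18f_J N A h : s18f_W N A h) : FBar N) - algebraMap Q̄ (FBar N) c) < 1) :
    (placeReductionModL h P).adicValuation
      (s18f_rho N A h (s18f_J N A h) - algebraMap kA FbA (IsLocalRing.residue A ⟨c, hc⟩)) < 1 :=
  spv_zero_of_zero (s18f_hyp N A h) (s18f_J N A h) (gci_Jnc h) (gcf_polarLe h hℓN hA) ⟨c, hc⟩ P hP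

include hℓN hA in
theorem gcf_hF2 (P : Place Q̄ (FBar N))
    (hP : ¬ ∃ c ∈ A, P.adicValuation
      (((s18f_J N A h : s18f_W N A h) : FBar N) - algebraMap Q̄ (FBar N) c) < 1) :
    (placeReductionModL h P).ord (s18f_rho N A h (s18f_J N A h)) < 0 := by
  refine (spv_pole_iff (s18f_hyp N A h) (s18f_J N A h) (gci_Jnc h) (gcf_polarLe h hℓN hA) P).mpr ?_
  rintro ⟨c, hc⟩
  exact hP ⟨(c : Q̄), c.2, hc⟩

/-- weak approximation on the finite chart of the reduced curve -/
theorem gcf_wap0 (Q0 : Place kA FbA) (hQ0 : 0 ≤ Q0.ord (s18f_rho N A h (s18f_J N A h)))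
    (S : Finset (Place kA FbA)) (hS : ∀ Q ∈ S, 0 ≤ Q.ord (s18f_rho N A h (s18f_J N A h)))
    (hQ0S : Q0 ∉ S) :
    ∃ g : FbA, (∀ v : Place kA FbA, 0 ≤ v.ord (s18f_rho N A h (s18f_J N A h)) → 0 ≤ v.ord g) ∧
      Q0.ord g = 1 ∧ ∀ Q ∈ S, Q.ord g = 0 := by
  have hAC : IsAlgClosed kA := s18a_isAlgClosed_residue A
  have hJ : s18f_rho N A h (s18f_J N A h) = pls_jb kA N := s18f_rho_J N A h
  rw [hJ] at hQ0 hS ⊢
  exact wap_exists_simple_zero (pls_isSepCoordinate_jb_perfect kA N) Q0 hQ0 S hS hQ0S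

/-- weak approximation on the chart at infinity of the reduced curve -/
theorem gcf_wapInf (Q0 : Place kA FbA) (hQ0 : Q0.ord (s18f_rho N A h (s18f_J N A h)) ≤ 0)
    (S : Finset (Place kA FbA)) (hS : ∀ Q ∈ S, Q.ord (s18f_rho N A h (s18f_J N A h)) ≤ 0)
    (hQ0S : Q0 ∉ S) :
    ∃ g : FbA, (∀ v : Place kA FbA, v.ord (s18f_rho N A h (s18f_J N A h)) ≤ 0 → 0 ≤ v.ord g) ∧
      Q0.ord g = 1 ∧ ∀ Q ∈ S, Q.ord g = 0 := by
  have hAC : IsAlgClosed kA := s18a_isAlgClosed_residue A
  have hJ : s18f_rho N A h (s18f_J N A h) = pls_jb kA N := s18f_rho_J N A h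
  rw [hJ] at hQ0 hS ⊢
  exact wap_exists_simple_zero_inf (pls_isSepCoordinate_jb_perfect kA N) Q0 hQ0 S hS hQ0S

include hℓN hA in
/-- zeros of `j` reduce to zeros of `j̄` -/
theorem gcf_zero_of_zero (P : Place Q̄ (FBar N))
    (hP : 0 < P.ord ((s18f_J N A h : s18f_W N A h) : FBar N)) :
    0 < (placeReductionModL h P).ord (s18f_rho N A h (s18f_J N A h)) := by
  have h1 : P.adicValuation
      (((s18f_J N A h : s18f_W N A h) : FBar N) - algebraMap Q̄ (FBar N) 0) < 1 := by
    rw [map_zero, sub_zero, ts_val_lt_one_iff]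
    exact Or.inr hP
  have h2 := gcf_hF1 h hℓN hA P 0 A.zero_mem h1
  have h0 : (⟨0, A.zero_mem⟩ : A) = 0 := rfl
  rw [h0, map_zero, map_zero, sub_zero, ts_val_lt_one_iff] at h2
  rcases h2 with h2 | h2
  · have := gci_Jnc h 0
    rw [map_zero] at this
    exact absurd h2 this
  · exact h2

include hℓN hA in
/-- **the non-formal inputs of the Galois compatibility from two-chart normality** -/
theorem gcf_sep_of_normality (hnorm : s18f_Normality N A h) : gci_Sep h where
  hF1 := gcf_hF1 h hℓN hA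
  hF2 := gcf_hF2 h hℓN hA
  hsep := by
    have hJ : s18f_rho N A h (s18f_J N A h) = pls_jb kA N := s18f_rho_J N A h
    refine es3p_hsep (s18f_hyp N A h) (s18f_J N A h)
      (spv_pole_of_pole (s18f_hyp N A h) (s18f_J N A h) (gci_Jnc h) (gcf_polarLe h hℓN hA))
      ?_ (gcf_wap0 h)
    intro yb hyb
    rw [hJ] at hyb
    exact hnorm.1 yb hyb
  hsep' := by
    have hJ : s18f_rho N A h (s18f_J N A h) = pls_jb kA N := s18f_rho_J N A h
    refine es3p_hsep' (s18f_hyp N A h) (s18f_J N A h) (gcf_zero_of_zero h hℓN hA) ?_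
      (gcf_wapInf h)
    intro yb hyb
    rw [hJ] at hyb
    exact hnorm.2 yb hyb

include hℓN hA in
/-- **(P-i)** from two-chart normality. -/
theorem gcf_hI (hnorm : s18f_Normality N A h) :
    ∀ τ ∈ A.inertiaSubgroupIn ℚ, ∀ P : Place Q̄ (FBar N),
      placeReductionModL h (arithmeticGalois (modularFunctionFieldFull N) τ • P) =
        placeReductionModL h P :=
  gci_hI h (gcf_sep_of_normality h hℓN hA hnorm)

include hℓN hA in
/-- **(P-ii)** from two-chart normality. -/
theorem gcf_hF (hnorm : s18f_Normality N A h) [CharP kA ℓ] [PerfectRing kA ℓ] :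
    ∀ σ : Q̄ ≃ₐ[ℚ] Q̄, A.IsFrobeniusAt σ ℓ → ∀ P : Place Q̄ (FBar N),
      placeReductionModL h (arithmeticGalois (modularFunctionFieldFull N) σ • P) =
        cfb_frob kA N ℓ • placeReductionModL h P :=
  gci_hF h (gcf_sep_of_normality h hℓN hA hnorm) ℓ

end

end Fermat.Agent.S37x
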