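/-
S37 integration (helper66, dry-run seat), prefix `gpb_`: BRIDGE between the two canonical Gauss pairs
at level `N` used by the S37 producers:

* the `h`-dependent pair of the S18 assembly `(s18f_W N A h, s18f_rho N A h, s18f_J N A h)`
  (`S18x/AssemblyFinal.lean`; used by `gci_Sep`, `gci_hI`, `gci_hF`, `Es3Sep*`, `s18f_Normality`), and
* the `h`-free pair `(nrmt_W N A, nrmt_rho N A ℓ hℓN hA, nrmt_J N A)` (`S18x/NrmTopDefs.lean`; used by
  `[B1]`: `cthf_*`, `ctm_main`, `nrmt_HY`, row 42 `hCo`).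

Both valuation subrings have the carrier `{x | (x : ℚ̄((q))) ∈ ga_W A (residue A)}` and both residue
maps are the normalised coefficientwise reduction, so they are EQUAL; consequently the two `h`-free
facts `nrmt_HY N A ℓ hℓN hA` (finite chart) and `hCo` (OUT-C-onto, `nrmt_W` shape) give
`s18f_Normality N A h` for EVERY `h` — in S37 for `h := hR ..` produced by `[B1]`.
-/
import Fermat.Agent.S18x.AssemblyFinal
import Fermat.Agent.S18x.NrmTopDefs
import Fermat.Agent.S18x.NrmNFinalTop
import Fermat.Agent.S18x.NrmFinalOfInt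

set_option autoImplicit false
set_option synthInstance.maxHeartbeats 400000

namespace Fermat.Agent.S37x

open ModularCurve AlgebraicCurve Fermat.Agent.S18x Fermat.Agent.S24x

noncomputable section

variable (N : ℕ) [NeZero N] (A : ValuationSubring (AlgebraicClosure ℚ))
  (h : ModularCurve.ReductionInputsModL A N)

/-- the two canonical Gauss valuation subrings of `F_N(ℚ̄)` coincide. -/
theorem gpb_W_eq : s18f_W N A h = nrmt_W N A := by
  ext x
  exact Iff.rfl

theorem gpb_mem_iff (x : FBar N) : x ∈ s18f_W N A h ↔ x ∈ nrmt_W N A := Iff.rfl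

variable {ℓ : ℕ} [Fact ℓ.Prime] (hℓN : ¬ ℓ ∣ N) (hA : A.LiesOverPrime ℓ)

/-- the two residue maps coincide (as Laurent series). -/
theorem gpb_rho_coe (x : FBar N) (h1 : x ∈ s18f_W N A h) (h2 : x ∈ nrmt_W N A) :
    ((s18f_rho N A h ⟨x, h1⟩ : modularFunctionFieldFullC (IsLocalRing.ResidueField A) N) :
      LaurentSeries (IsLocalRing.ResidueField A)) =
    ((nrmt_rho N A ℓ hℓN hA ⟨x, h2⟩ : modularFunctionFieldFullC (IsLocalRing.ResidueField A) N) :
      LaurentSeries (IsLocalRing.ResidueField A)) := by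
  rw [nrmt_rho_coe, gi_rho_coe]
  rfl

/-- the two residue maps coincide. -/
theorem gpb_rho_eq (x : FBar N) (h1 : x ∈ s18f_W N A h) (h2 : x ∈ nrmt_W N A) :
    s18f_rho N A h ⟨x, h1⟩ = nrmt_rho N A ℓ hℓN hA ⟨x, h2⟩ :=
  Subtype.ext (gpb_rho_coe N A h hℓN hA x h1 h2)

/-- transport of an element of the `h`-free ring to the `h`-dependent one. -/
def gpb_toS18 (u : nrmt_W N A) : s18f_W N A h := ⟨(u : FBar N), u.2⟩

theorem gpb_toS18_coe (u : nrmt_W N A) : ((gpb_toS18 N A h u : s18f_W N A h) : FBar N) = u := rfl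

theorem gpb_rho_toS18 (u : nrmt_W N A) :
    s18f_rho N A h (gpb_toS18 N A h u) = nrmt_rho N A ℓ hℓN hA u :=
  gpb_rho_eq N A h hℓN hA (u : FBar N) u.2 u.2

theorem gpb_J_coe : ((s18f_J N A h : s18f_W N A h) : FBar N) = ((nrmt_J N A : nrmt_W N A) : FBar N) :=
  rfl

/-- OUT-C-onto: the `h`-free shape (row 42) gives the shape consumed by
`nig_normality_of_int0_onto`, for every `h`. -/
theorem gpb_hCo_of_free
    (hCo : ∀ yb : modularFunctionFieldFullC (IsLocalRing.ResidueField A) N,
      IsIntegral (Algebra.adjoin (IsLocalRing.ResidueField A)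
        {(pls_jb (IsLocalRing.ResidueField A) N)⁻¹}) yb →
      ∃ (u : nrmt_W N A) (s : Polynomial (IsLocalRing.ResidueField A)), s.eval 0 ≠ 0 ∧
        nrmt_rho N A ℓ hℓN hA u =
          Polynomial.aeval (pls_jb (IsLocalRing.ResidueField A) N)⁻¹ s * yb ∧
        IsIntegral (Algebra.adjoin (AlgebraicClosure ℚ) {(jBar N)⁻¹}) (u : FBar N)) :
    ∀ yb : modularFunctionFieldFullC (IsLocalRing.ResidueField A) N,
      IsIntegral (Algebra.adjoin (IsLocalRing.ResidueField A)
        {(pls_jb (IsLocalRing.ResidueField A) N)⁻¹}) yb →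
      ∃ (u : s18f_W N A h) (s : Polynomial (IsLocalRing.ResidueField A)), s.eval 0 ≠ 0 ∧
        s18f_rho N A h u = Polynomial.aeval (pls_jb (IsLocalRing.ResidueField A) N)⁻¹ s * yb ∧
        IsIntegral (Algebra.adjoin (AlgebraicClosure ℚ) {(jBar N)⁻¹})
          (u : modularFunctionFieldBar N) := by
  intro yb hyb
  obtain ⟨u, s, hs, hρ, hint⟩ := hCo yb hyb
  exact ⟨gpb_toS18 N A h u, s, hs, by rw [gpb_rho_toS18 N A h hℓN hA, hρ], hint⟩

/-- **two-chart normality of the S18 assembly for every `h`, from the two `h`-free inputs**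
`nrmt_HY N` (finite chart) and `hCo` (OUT-C-onto). -/
theorem gpb_normality (hY : nrmt_HY N A ℓ hℓN hA)
    (hCo : ∀ yb : modularFunctionFieldFullC (IsLocalRing.ResidueField A) N,
      IsIntegral (Algebra.adjoin (IsLocalRing.ResidueField A)
        {(pls_jb (IsLocalRing.ResidueField A) N)⁻¹}) yb →
      ∃ (u : nrmt_W N A) (s : Polynomial (IsLocalRing.ResidueField A)), s.eval 0 ≠ 0 ∧
        nrmt_rho N A ℓ hℓN hA u =
          Polynomial.aeval (pls_jb (IsLocalRing.ResidueField A) N)⁻¹ s * yb ∧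
        IsIntegral (Algebra.adjoin (AlgebraicClosure ℚ) {(jBar N)⁻¹}) (u : FBar N)) :
    s18f_Normality N A h :=
  nig_normality_of_int0_onto N A h hℓN hA
    (nrnf_hInt0_of_HY N A h (dvd_refl N) hℓN hA hY)
    (gpb_hCo_of_free N A h hℓN hA hCo)

end

end Fermat.Agent.S37x
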