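/-
S37 [B3] STEP 7 (helper44): from PLACE-level identities to the `hES` input of
`spw_S37_of_inputs` (Pic0 level).

`r := placeReductionModL h` (so `reductionModL A N` is the map induced by `r`), `gF` any
`SemilinearAut` of `Fb = modularFunctionFieldFullC k N` (instantiate with `cfb_frob`).
Place-level inputs:
* (P-i)   `r (τ • P) = r P` for `τ` in the inertia group at `A`;
* (P-ii)  `r (σ • P) = gF • r P` for Frobenius elements `σ` at `A`;
* (P-iii) `r_* (T_ℓ P) = [gF • r P] + ℓ [gF⁻¹ • r P]` as divisors, `T_ℓ = α_* β^*`.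
Output: the additive automorphism `φ := gF • ·` of `JZeroC k N` and the three clauses of `hES`.
-/
import Mathlib
import Fermat.Prelude.Def_ModularCurve_ReductionModL
import Fermat.Prelude.Def_ModularCurve_HeckeModule
import Fermat.Agent.S37x.HeckeUnfold

set_option autoImplicit false

noncomputable section

namespace Fermat.Agent.S37x

open ModularCurve AlgebraicCurve ValuationSubring

local notation "Q̄" => AlgebraicClosure ℚ

section Abstract

variable {K F k Fb : Type*} [Field K] [Field F] [Algebra K F] [Field k] [Field Fb] [Algebra k Fb]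

/-- `r_*` intertwines two place maps `a` (upstairs) and `b` (downstairs). -/
theorem es7_mapDomain_comm (r : Place K F → Place k Fb) (a : Place K F → Place K F)
    (b : Place k Fb → Place k Fb) (hab : ∀ P, r (a P) = b (r P)) (D : Divisor K F) :
    Finsupp.mapDomain r (Finsupp.mapDomain a D) = Finsupp.mapDomain b (Finsupp.mapDomain r D) := by
  rw [← Finsupp.mapDomain_comp, ← Finsupp.mapDomain_comp]
  congr 1
  funext P
  exact hab P

/-- additive extension of a divisor identity from single places. -/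
theorem es7_ext_single {M : Type*} [AddCommGroup M] (f g : Divisor K F →+ M)
    (h : ∀ P : Place K F, f (Finsupp.single P 1) = g (Finsupp.single P 1)) : f = g := by
  refine Finsupp.addHom_ext fun P n => ?_
  have hn : (Finsupp.single P n : Divisor K F) = n • Finsupp.single P (1 : ℤ) := by
    rw [Finsupp.smul_single, smul_eq_mul, mul_one]
  rw [hn, map_zsmul, map_zsmul, h P]

end Abstract

section Modular

variable (N : ℕ) [NeZero N] (ℓ : Nat.Primes) (A : ValuationSubring Q̄)

local notation "kA" => IsLocalRing.ResidueField A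
local notation "FbA" => modularFunctionFieldFullC (IsLocalRing.ResidueField A) N

/-- the automorphism of `JZeroC k N` induced by a semilinear automorphism of `Fb`. -/
def es7_phi (gF : SemilinearAut kA FbA) : JZeroC kA N ≃+ JZeroC kA N :=
  DistribMulAction.toAddEquiv (JZeroC kA N) gF

@[simp] theorem es7_phi_apply (gF : SemilinearAut kA FbA) (x : JZeroC kA N) :
    es7_phi N A gF x = gF • x := rfl

@[simp] theorem es7_phi_symm_apply (gF : SemilinearAut kA FbA) (x : JZeroC kA N) :
    (es7_phi N A gF).symm x = gF⁻¹ • x := rfl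

variable {N A}

/-- reduction of a Galois translate, divisor level. -/
theorem es7_red_galois (h : ReductionInputsModL A N) (σ : Q̄ ≃ₐ[ℚ] Q̄)
    (b : Place kA FbA → Place kA FbA)
    (hσ : ∀ P, placeReductionModL h (arithmeticGalois (modularFunctionFieldFull N) σ • P) =
      b (placeReductionModL h P))
    (D : Divisor Q̄ (modularFunctionFieldBar N)) :
    Finsupp.mapDomain (placeReductionModL h)
        (arithmeticGalois (modularFunctionFieldFull N) σ • D) =
      Finsupp.mapDomain b (Finsupp.mapDomain (placeReductionModL h) D) := by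
  rw [SemilinearAut.divisor_smul_def]
  exact es7_mapDomain_comm _ _ b hσ D

/-- clause (b): inertia acts trivially after reduction. -/
theorem es7_clause_b (h : ReductionInputsModL A N) (τ : Q̄ ≃ₐ[ℚ] Q̄)
    (hτ : ∀ P, placeReductionModL h (arithmeticGalois (modularFunctionFieldFull N) τ • P) =
      placeReductionModL h P) (x : JZero N) :
    reductionModL A N (τ • x) = reductionModL A N x := by
  obtain ⟨D, rfl⟩ := Pic0.mk_surjective x
  rw [galois_smul_pic0_def, SemilinearAut.pic0_smul_mk, reductionModL_mk h, reductionModL_mk h]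
  congr 1
  apply Subtype.ext
  rw [coe_reductionDegZeroAlong, coe_reductionDegZeroAlong, SemilinearAut.coe_degZeroSMulHom,
    es7_red_galois h τ id hτ, Finsupp.mapDomain_id]

/-- clause (c): Frobenius elements go to `gF` after reduction. -/
theorem es7_clause_c (h : ReductionInputsModL A N) (gF : SemilinearAut kA FbA) (σ : Q̄ ≃ₐ[ℚ] Q̄)
    (hσ : ∀ P, placeReductionModL h (arithmeticGalois (modularFunctionFieldFull N) σ • P) =
      gF • placeReductionModL h P) (x : JZero N) :
    reductionModL A N (σ • x) = es7_phi N A gF (reductionModL A N x) := by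
  obtain ⟨D, rfl⟩ := Pic0.mk_surjective x
  rw [galois_smul_pic0_def, SemilinearAut.pic0_smul_mk, reductionModL_mk h, reductionModL_mk h,
    es7_phi_apply, SemilinearAut.pic0_smul_mk]
  congr 1
  apply Subtype.ext
  rw [coe_reductionDegZeroAlong, SemilinearAut.coe_degZeroSMulHom,
    SemilinearAut.coe_degZeroSMulHom, coe_reductionDegZeroAlong,
    es7_red_galois h σ (gF • ·) hσ, SemilinearAut.divisor_smul_def]

/-- divisor-level Eichler–Shimura from the single-place identity. -/
theorem es7_red_correspondence (h : ReductionInputsModL A N) (gF : SemilinearAut kA FbA)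
    (T : Divisor Q̄ (modularFunctionFieldBar N) →+ Divisor Q̄ (modularFunctionFieldBar N))
    (hT : ∀ P, Finsupp.mapDomain (placeReductionModL h) (T (Finsupp.single P 1)) =
      Finsupp.single (gF • placeReductionModL h P) (1 : ℤ) +
        Finsupp.single (gF⁻¹ • placeReductionModL h P) ((ℓ : ℕ) : ℤ))
    (D : Divisor Q̄ (modularFunctionFieldBar N)) :
    Finsupp.mapDomain (placeReductionModL h) (T D) =
      gF • Finsupp.mapDomain (placeReductionModL h) D +
        ((ℓ : ℕ) : ℤ) • (gF⁻¹ • Finsupp.mapDomain (placeReductionModL h) D) := by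
  let r := placeReductionModL h
  let f : Divisor Q̄ (modularFunctionFieldBar N) →+ Divisor kA FbA :=
    (Finsupp.mapDomain.addMonoidHom r).comp T
  let g1 : Divisor Q̄ (modularFunctionFieldBar N) →+ Divisor kA FbA :=
    (DistribSMul.toAddMonoidHom (Divisor kA FbA) gF).comp (Finsupp.mapDomain.addMonoidHom r)
  let g2 : Divisor Q̄ (modularFunctionFieldBar N) →+ Divisor kA FbA :=
    (DistribSMul.toAddMonoidHom (Divisor kA FbA) gF⁻¹).comp (Finsupp.mapDomain.addMonoidHom r)
  have key : f = g1 + ((ℓ : ℕ) : ℤ) • g2 := by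
    refine es7_ext_single f _ fun P => ?_
    show Finsupp.mapDomain r (T (Finsupp.single P 1)) =
      gF • Finsupp.mapDomain r (Finsupp.single P 1) +
        ((ℓ : ℕ) : ℤ) • (gF⁻¹ • Finsupp.mapDomain r (Finsupp.single P 1))
    rw [hT P, Finsupp.mapDomain_single, SemilinearAut.smul_single, SemilinearAut.smul_single,
      Finsupp.smul_single, smul_eq_mul, mul_one]
  exact DFunLike.congr_fun key D

/-- clause (e): the Eichler–Shimura congruence on `Pic0`. -/
theorem es7_clause_e (h : ReductionInputsModL A N) (gF : SemilinearAut kA FbA)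
    (hα : haveI := hku_neZero ℓ; HeckeAlphaBarIntegral Q̄ N ℓ)
    (hβ : haveI := hku_neZero ℓ; HeckeBetaBarIntegral Q̄ N ℓ)
    (hP : haveI := hku_neZero ℓ;
      HasPrincipalDivisors Q̄ (laurentBaseChange Q̄ (modularFunctionFieldFull (N * ℓ))))
    (hFI : haveI := hku_neZero ℓ; FundamentalIdentityAlong Q̄ (heckeBetaBar Q̄ N ℓ) hβ)
    (hfin : haveI := hku_neZero ℓ; FiniteAlong Q̄ (heckeAlphaBar Q̄ N ℓ))
    (hN : haveI := hku_neZero ℓ; NormFormulaAlong Q̄ (heckeAlphaBar Q̄ N ℓ) hfin)
    (hT : haveI := hku_neZero ℓ; ∀ P,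
      Finsupp.mapDomain (placeReductionModL h)
          (Divisor.correspondence (heckeBetaBar Q̄ N ℓ) (heckeAlphaBar Q̄ N ℓ) hβ hα
            (Finsupp.single P 1)) =
        Finsupp.single (gF • placeReductionModL h P) (1 : ℤ) +
          Finsupp.single (gF⁻¹ • placeReductionModL h P) ((ℓ : ℕ) : ℤ))
    (x : JZero N) :
    reductionModL A N (heckeOperatorBar N ℓ x) =
      es7_phi N A gF (reductionModL A N x) +
        (ℓ : ℕ) • (es7_phi N A gF).symm (reductionModL A N x) := by
  haveI := hku_neZero ℓ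
  obtain ⟨D, rfl⟩ := Pic0.mk_surjective x
  rw [hku_heckeOperatorBar_mk N ℓ hα hβ hP hFI hfin hN D, reductionModL_mk h, reductionModL_mk h,
    es7_phi_apply, es7_phi_symm_apply, SemilinearAut.pic0_smul_mk, SemilinearAut.pic0_smul_mk]
  have hmk : ∀ (n : ℕ) (E : Divisor.degZero (K := kA) (F := FbA)),
      n • Pic0.mk E = Pic0.mk (n • E) := fun n E => rfl
  rw [hmk, ← Pic0.mk_add]
  congr 1
  apply Subtype.ext
  show Finsupp.mapDomain (placeReductionModL h)
      (Divisor.correspondence (heckeBetaBar Q̄ N ℓ) (heckeAlphaBar Q̄ N ℓ) hβ hα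
        (D : Divisor Q̄ (modularFunctionFieldBar N))) =
    gF • Finsupp.mapDomain (placeReductionModL h) (D : Divisor Q̄ (modularFunctionFieldBar N)) +
      (ℓ : ℕ) • (gF⁻¹ •
        Finsupp.mapDomain (placeReductionModL h) (D : Divisor Q̄ (modularFunctionFieldBar N)))
  rw [es7_red_correspondence ℓ h gF _ hT (D : Divisor Q̄ (modularFunctionFieldBar N)),
    natCast_zsmul]

/-- **STEP 7**: the `hES` input of `spw_S37_of_inputs` at `(ℓ, A)` from place-level identities. -/
theorem es7_hES (h : ReductionInputsModL A N) (gF : SemilinearAut kA FbA)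
    (hα : haveI := hku_neZero ℓ; HeckeAlphaBarIntegral Q̄ N ℓ)
    (hβ : haveI := hku_neZero ℓ; HeckeBetaBarIntegral Q̄ N ℓ)
    (hP : haveI := hku_neZero ℓ;
      HasPrincipalDivisors Q̄ (laurentBaseChange Q̄ (modularFunctionFieldFull (N * ℓ))))
    (hFI : haveI := hku_neZero ℓ; FundamentalIdentityAlong Q̄ (heckeBetaBar Q̄ N ℓ) hβ)
    (hfin : haveI := hku_neZero ℓ; FiniteAlong Q̄ (heckeAlphaBar Q̄ N ℓ))
    (hN : haveI := hku_neZero ℓ; NormFormulaAlong Q̄ (heckeAlphaBar Q̄ N ℓ) hfin)
    (hI : ∀ τ ∈ A.inertiaSubgroupIn ℚ, ∀ P,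
      placeReductionModL h (arithmeticGalois (modularFunctionFieldFull N) τ • P) =
        placeReductionModL h P)
    (hF : ∀ σ : Q̄ ≃ₐ[ℚ] Q̄, A.IsFrobeniusAt σ ℓ → ∀ P,
      placeReductionModL h (arithmeticGalois (modularFunctionFieldFull N) σ • P) =
        gF • placeReductionModL h P)
    (hT : haveI := hku_neZero ℓ; ∀ P,
      Finsupp.mapDomain (placeReductionModL h)
          (Divisor.correspondence (heckeBetaBar Q̄ N ℓ) (heckeAlphaBar Q̄ N ℓ) hβ hα
            (Finsupp.single P 1)) =
        Finsupp.single (gF • placeReductionModL h P) (1 : ℤ) +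
          Finsupp.single (gF⁻¹ • placeReductionModL h P) ((ℓ : ℕ) : ℤ)) :
    ∃ φ : JZeroC kA N ≃+ JZeroC kA N,
      (∀ τ ∈ A.inertiaSubgroupIn ℚ, ∀ x : JZero N,
        reductionModL A N (τ • x) = reductionModL A N x) ∧
      (∀ σ : Q̄ ≃ₐ[ℚ] Q̄, A.IsFrobeniusAt σ ℓ →
        ∀ x : JZero N, reductionModL A N (σ • x) = φ (reductionModL A N x)) ∧
      (∀ x : JZero N, reductionModL A N (heckeOperatorBar N ℓ x) =
        φ (reductionModL A N x) + (ℓ : ℕ) • φ.symm (reductionModL A N x)) :=
  ⟨es7_phi N A gF, fun τ hτ x => es7_clause_b h τ (hI τ hτ) x,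
    fun σ hσ x => es7_clause_c h gF σ (hF σ hσ) x,
    fun x => es7_clause_e ℓ h gF hα hβ hP hFI hfin hN hT x⟩

end Modular

end Fermat.Agent.S37x
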