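import Mathlib
import Fermat.Agent.S54x.ValSubring
import Fermat.Agent.S54x.ProfiniteFrob

/-!
# Frobenius elements at a GIVEN valuation subring of `ℚ̄` (helper14, for S37)

`fag_exists_isFrobeniusAt`: every valuation subring `A` of `AlgebraicClosure ℚ` lying over a
prime `ℓ` admits a Frobenius element `σ` (`A.IsFrobeniusAt σ ℓ`).
(S54x only produced *some* `A` with a Frobenius element.)
-/

set_option autoImplicit false
open scoped Pointwise

noncomputable section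

namespace Fermat.Agent.S37x

open Fermat.Agent.S54x Fermat.Agent.S54x.ProfiniteFrob

attribute [local instance] isAlgClosure_Qb actBz isInvariant_Bz topBz discreteTopology_Bz
  continuousSMul_Bz

/-- Frobenius modulo a GIVEN prime `Q ∋ ℓ` of the ring of all algebraic integers. -/
theorem fag_exists_frob_mod (ℓ : ℕ) (hℓ : ℓ.Prime) (Q : Ideal Bz) [hQ : Q.IsPrime]
    (hℓQ : (ℓ : Bz) ∈ Q) :
    ∃ σ : Gq, ∀ b : Bz, ∃ c ∈ Q, σ (b : Qb) = (b : Qb) ^ ℓ + (c : Qb) := by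
  let P : Ideal ℤ := Ideal.span {(ℓ : ℤ)}
  have hPmax : P.IsMaximal :=
    PrincipalIdealRing.isMaximal_of_irreducible (Nat.prime_iff_prime_int.mp hℓ).irreducible
  have hQP : Q.comap (algebraMap ℤ Bz) = P := by
    symm
    apply hPmax.eq_of_le (Ideal.comap_ne_top _ hQ.ne_top)
    rw [Ideal.span_le]
    intro x hx
    rw [Set.mem_singleton_iff] at hx
    subst hx
    show algebraMap ℤ Bz (ℓ : ℤ) ∈ Q
    simpa using hℓQ
  have : Q.LiesOver P := ⟨hQP.symm⟩
  have hQmax : Q.IsMaximal :=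
    Ideal.isMaximal_of_isIntegral_of_isMaximal_comap Q (by rw [hQP]; exact hPmax)
  let _ : Field (Bz ⧸ Q) := Ideal.Quotient.field Q
  have : CharP (Bz ⧸ Q) ℓ := by
    rw [CharP.charP_iff_prime_eq_zero hℓ]
    have := (Ideal.Quotient.eq_zero_iff_mem (I := Q)).mpr hℓQ
    simpa using this
  have : Fact ℓ.Prime := ⟨hℓ⟩
  have : PerfectRing (Bz ⧸ Q) ℓ :=
    PerfectRing.ofSurjective (Bz ⧸ Q) ℓ (frobenius_surjective_quot Q ℓ hℓ.pos)
  let F : (Bz ⧸ Q) ≃+* (Bz ⧸ Q) := frobeniusEquiv (Bz ⧸ Q) ℓ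
  have hcomm : ∀ x : ℤ ⧸ P, F (algebraMap (ℤ ⧸ P) (Bz ⧸ Q) x) = algebraMap (ℤ ⧸ P) (Bz ⧸ Q) x := by
    intro x
    have : (F : (Bz ⧸ Q) →+* (Bz ⧸ Q)).comp (algebraMap (ℤ ⧸ P) (Bz ⧸ Q)) =
        algebraMap (ℤ ⧸ P) (Bz ⧸ Q) := by
      apply Ideal.Quotient.ringHom_ext
      exact RingHom.ext_int _ _
    exact congrArg (fun f : (ℤ ⧸ P) →+* (Bz ⧸ Q) => f x) this
  let Fa : (Bz ⧸ Q) ≃ₐ[ℤ ⧸ P] (Bz ⧸ Q) := AlgEquiv.ofRingEquiv (f := F) hcomm
  obtain ⟨g, hg⟩ := Ideal.Quotient.stabilizerHom_surjective_of_profinite (G := Gq) P Q Fa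
  refine ⟨g.1, fun b => ?_⟩
  have h1 : Ideal.Quotient.mk Q (g • b) = Ideal.Quotient.mk Q (b ^ ℓ) := by
    rw [← Ideal.Quotient.stabilizerHom_apply Q P Gq g b, hg]
    simp [Fa, F, frobeniusEquiv_apply, frobenius_def, map_pow]
  rw [Ideal.Quotient.eq] at h1
  refine ⟨_, h1, ?_⟩
  have : ((g • b : Bz) : Qb) = g.1 (b : Qb) := coe_smul_Bz g.1 b
  rw [← this]
  simp

/-- Algebraic integers lie in every valuation subring of `ℚ̄`. -/
theorem fag_zbar_mem (A : ValuationSubring (AlgebraicClosure ℚ)) (b : Bz) :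
    (b : AlgebraicClosure ℚ) ∈ A := by
  have hb : IsIntegral ℤ (b : AlgebraicClosure ℚ) := b.2
  have hb' : IsIntegral A (b : AlgebraicClosure ℚ) := hb.tower_top
  obtain ⟨y, hy⟩ := IsIntegrallyClosed.algebraMap_eq_of_integral hb'
  rw [← hy]
  exact y.2

/-- **Existence of a Frobenius element at any given valuation subring over `ℓ`.** -/
theorem fag_exists_isFrobeniusAt (ℓ : ℕ) (hℓ : ℓ.Prime)
    (A : ValuationSubring (AlgebraicClosure ℚ)) (hA : A.LiesOverPrime ℓ) :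
    ∃ σ : AlgebraicClosure ℚ ≃ₐ[ℚ] AlgebraicClosure ℚ, A.IsFrobeniusAt σ ℓ := by
  -- the inclusion of the algebraic integers into `A`
  let ι : Bz →+* A :=
    { toFun := fun b => ⟨(b : Qb), fag_zbar_mem A b⟩
      map_one' := rfl
      map_mul' := fun _ _ => rfl
      map_zero' := rfl
      map_add' := fun _ _ => rfl }
  let Q : Ideal Bz := (IsLocalRing.maximalIdeal A).comap ι
  have hQprime : Q.IsPrime := Ideal.comap_isPrime ι _
  have hmemQ : ∀ b : Bz, b ∈ Q ↔ (b : Qb) ∈ A.nonunits := by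
    intro b
    show ι b ∈ IsLocalRing.maximalIdeal A ↔ _
    exact (ValuationSubring.coe_mem_nonunits_iff (a := ι b)).symm
  have hℓQ : (ℓ : Bz) ∈ Q := by
    rw [hmemQ]
    have : (((ℓ : Bz) : Bz) : Qb) = (ℓ : Qb) := by simp
    rw [this]
    exact hA
  obtain ⟨σ, hσ⟩ := fag_exists_frob_mod ℓ hℓ Q hℓQ
  refine ⟨σ, ?_⟩
  set A' : ValuationSubring Qb :=
    locValuationSubring zbar_inj zbar_closed Q (zbar_alg ℓ hℓ Q hℓQ) with hA'
  have hF : A'.IsFrobeniusAt σ ℓ :=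
    isFrobeniusAt_locValuationSubring zbar_inj zbar_closed (zbar_alg ℓ hℓ Q hℓQ) ℓ hℓ.ne_zero σ hσ
  have hle : A' ≤ A := by
    intro x hx
    obtain ⟨b, s, hs, hxs⟩ := hx
    have hsA : (s : Qb) ∈ A := fag_zbar_mem A s
    have hs' : (s : Qb) ∉ A.nonunits := fun h => hs ((hmemQ s).mpr h)
    have hs0 : (s : Qb) ≠ 0 := by
      intro h0
      apply hs'
      rw [h0]
      exact A.nonunits.zero_mem
    have hsinv : (s : Qb)⁻¹ ∈ A := by
      by_contra hcon
      apply hs'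
      have := (A.inv_mem_nonunits_iff (x := (s : Qb)⁻¹)).mpr (Or.inr hcon)
      rwa [inv_inv] at this
    have hx' : x = (b : Qb) * (s : Qb)⁻¹ := by
      have e : x * (s : Qb) = (b : Qb) := hxs
      rw [← e, mul_assoc, mul_inv_cancel₀ hs0, mul_one]
    rw [hx']
    exact A.mul_mem _ _ (fag_zbar_mem A b) hsinv
  have hge : A ≤ A' := by
    intro x hx
    rcases A'.mem_or_inv_mem x with h | h
    · exact h
    · obtain ⟨b, s, hs, hxs⟩ := h
      have hxs' : x⁻¹ * (s : Qb) = (b : Qb) := hxs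
      by_cases hx0 : x = 0
      · rw [hx0]; exact A'.zero_mem
      by_cases hb : b ∈ Q
      · exfalso
        apply hs
        rw [hmemQ]
        have e : (s : Qb) = x * (b : Qb) := by
          rw [← hxs', ← mul_assoc, mul_inv_cancel₀ hx0, one_mul]
        rw [e]
        have hb' : ι b ∈ IsLocalRing.maximalIdeal A := hb
        have h2 : (⟨x, hx⟩ : A) * ι b ∈ IsLocalRing.maximalIdeal A := Ideal.mul_mem_left _ _ hb'
        exact (ValuationSubring.coe_mem_nonunits_iff (a := (⟨x, hx⟩ : A) * ι b)).mpr h2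
      · refine ⟨s, b, hb, ?_⟩
        show x * (b : Qb) = (s : Qb)
        rw [← hxs', ← mul_assoc, mul_inv_cancel₀ hx0, one_mul]
  have hAA' : A' = A := le_antisymm hle hge
  rw [← hAA']
  exact hF

end Fermat.Agent.S37x

end
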