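import Mathlib
import Fermat.Prelude.Def_HeckeGalois_EichlerShimura

/-!
# S37 assembly: the `K'`-quotient trick (helper14)

Given a "reduction" homomorphism `red : J →+ Jb` out of a Hecke–Galois module `J`, a bijective
endomorphism `φ` of `Jb` (the Frobenius push-forward) and one Frobenius element `s0` at `A`,
such that

* (b) `red (τ • x) = red x` for `τ` in the inertia group of `A`,
* (c) `red (s0 • x) = φ (red x)`,
* (d) `red` is injective on `p`-power torsion,
* (e) `red (T_ℓ • x) = φ (red x) + ℓ • φ⁻¹ (red x)`,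

we build `J' := J ⧸ K'`, where `K'` is the largest Hecke submodule inside `ker red`, and obtain
the data required by `ModularCurve.SpecializationExists` at `(ℓ, A)`.
No compatibility of `red` with the Hecke operators other than `T_ℓ` is needed.
-/

set_option autoImplicit false

noncomputable section

namespace Fermat.Agent.S37x

open ModularCurve ValuationSubring
open scoped Pointwise

section Frob

variable {K L : Type*} [Field K] [Field L] [Algebra K L]

/-- Two Frobenius elements at `A` differ by an element of the inertia group. -/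
theorem spa_inv_mul_mem_inertia (A : ValuationSubring L) (ℓ : ℕ) (s0 σ : L ≃ₐ[K] L)
    (hs0 : A.IsFrobeniusAt s0 ℓ) (hσ : A.IsFrobeniusAt σ ℓ) :
    s0⁻¹ * σ ∈ A.inertiaSubgroupIn K := by
  obtain ⟨h0, h0'⟩ := hs0
  obtain ⟨h1, h1'⟩ := hσ
  have hmem : s0⁻¹ * σ ∈ A.decompositionSubgroup K :=
    (A.decompositionSubgroup K).mul_mem ((A.decompositionSubgroup K).inv_mem h0) h1
  refine ⟨⟨s0⁻¹ * σ, hmem⟩, ?_, rfl⟩
  show MulSemiringAction.toRingAut (A.decompositionSubgroup K)
      (IsLocalRing.ResidueField A) ⟨s0⁻¹ * σ, hmem⟩ = 1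
  ext r
  show (⟨s0⁻¹ * σ, hmem⟩ : A.decompositionSubgroup K) • r = r
  have e : (⟨s0⁻¹ * σ, hmem⟩ : A.decompositionSubgroup K) =
      (⟨s0, h0⟩ : A.decompositionSubgroup K)⁻¹ * ⟨σ, h1⟩ := rfl
  rw [e, mul_smul, h1' r, inv_smul_eq_iff, h0' r]

end Frob

section Main

variable {K L : Type*} [Field K] [Field L] [Algebra K L]
variable (p : ℕ) (J : Type) [AddCommGroup J] [Module HeckeAlg J]
  [DistribMulAction (L ≃ₐ[K] L) J] [SMulCommClass (L ≃ₐ[K] L) HeckeAlg J]
variable {Jb : Type*} [AddCommGroup Jb] (red : J →+ Jb)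

/-- The largest Hecke submodule contained in the kernel of `red`. -/
def spa_K : Submodule HeckeAlg J where
  carrier := {x | ∀ t : HeckeAlg, red (t • x) = 0}
  zero_mem' := fun t => by rw [smul_zero, map_zero]
  add_mem' := fun {x y} hx hy t => by rw [smul_add, map_add, hx t, hy t, add_zero]
  smul_mem' := fun c x hx t => by rw [smul_smul]; exact hx (t * c)

variable {J red}

theorem spa_mem_K {x : J} : x ∈ spa_K J red ↔ ∀ t : HeckeAlg, red (t • x) = 0 := Iff.rfl

theorem spa_red_eq_zero_of_mem {x : J} (hx : x ∈ spa_K J red) : red x = 0 := by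
  have := hx 1
  rwa [one_smul] at this

variable (J red)

/-- The quotient `J' = J ⧸ K'`. -/
abbrev spa_J' : Type := J ⧸ spa_K J red

/-- The specialization map `J → J'`. -/
def spa_sp : J →+ spa_J' J red := (spa_K J red).mkQ.toAddMonoidHom

variable {J red}

@[simp] theorem spa_sp_apply (x : J) : spa_sp J red x = (spa_K J red).mkQ x := rfl

theorem spa_sp_eq_zero_iff {x : J} : spa_sp J red x = 0 ↔ x ∈ spa_K J red := by
  rw [spa_sp_apply, Submodule.mkQ_apply, Submodule.Quotient.mk_eq_zero]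

theorem spa_sp_eq_iff {x y : J} : spa_sp J red x = spa_sp J red y ↔ x - y ∈ spa_K J red := by
  rw [spa_sp_apply, spa_sp_apply, Submodule.mkQ_apply, Submodule.mkQ_apply,
    Submodule.Quotient.eq]

theorem spa_sp_surjective : Function.Surjective (spa_sp J red) :=
  (spa_K J red).mkQ_surjective

/-- If `g` commutes with `red` up to an additive map `φ`, then `g` preserves `K'`. -/
theorem spa_smul_mem_K (g : L ≃ₐ[K] L) (φ : Jb →+ Jb)
    (hg : ∀ x : J, red (g • x) = φ (red x)) {x : J} (hx : x ∈ spa_K J red) :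
    g • x ∈ spa_K J red := by
  intro t
  rw [← smul_comm g t x, hg, hx t, map_zero]

/-- The endomorphism of `J'` induced by a Galois element preserving `K'`. -/
def spa_F (g : L ≃ₐ[K] L) (hg : ∀ x : J, x ∈ spa_K J red → g • x ∈ spa_K J red) :
    spa_J' J red →+ spa_J' J red :=
  ((spa_K J red).mapQ (spa_K J red) (DistribSMul.toLinearMap HeckeAlg J g)
    (fun x hx => hg x hx)).toAddMonoidHom

theorem spa_F_sp (g : L ≃ₐ[K] L) (hg : ∀ x : J, x ∈ spa_K J red → g • x ∈ spa_K J red) (x : J) :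
    spa_F g hg (spa_sp J red x) = spa_sp J red (g • x) := rfl

/-- **The assembly theorem.** -/
theorem spa_main (A : ValuationSubring L) (ℓ : ℕ) (hℓ : ℓ.Prime)
    (φ : Jb ≃+ Jb) (s0 : L ≃ₐ[K] L) (hs0 : A.IsFrobeniusAt s0 ℓ)
    (hb : ∀ τ ∈ A.inertiaSubgroupIn K, ∀ x : J, red (τ • x) = red x)
    (hc : ∀ x : J, red (s0 • x) = φ (red x))
    (hd : ∀ x : J, (∃ n : ℕ, p ^ n • x = 0) → red x = 0 → x = 0)
    (he : ∀ x : J, red (heckeGen ⟨ℓ, hℓ⟩ • x) = φ (red x) + ℓ • φ.symm (red x)) :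
    ∃ (J' : Type) (_ : AddCommGroup J') (_ : Module HeckeAlg J') (sp : J →+ J')
      (F : J' →+ J'),
      IsSpecialization (K := K) p J J' A ℓ sp F ∧ SpecialFibreRelation J' ℓ hℓ F := by
  have hs0K : ∀ x : J, x ∈ spa_K J red → s0 • x ∈ spa_K J red := fun x hx =>
    spa_smul_mem_K s0 φ.toAddMonoidHom hc hx
  have hinK : ∀ τ ∈ A.inertiaSubgroupIn K, ∀ x : J, τ • x - x ∈ spa_K J red := by
    intro τ hτ x t
    rw [smul_sub, map_sub, ← smul_comm τ t x, hb τ hτ, sub_self]
  refine ⟨spa_J' J red, inferInstance, inferInstance, spa_sp J red, spa_F s0 hs0K, ⟨?_, ?_, ?_, ?_⟩, ?_⟩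
  · intro T x
    rfl
  · intro σ hσ x
    rw [spa_sp_eq_iff]
    exact hinK σ hσ x
  · intro σ hσ x
    rw [spa_F_sp, spa_sp_eq_iff]
    have hτ := spa_inv_mul_mem_inertia A ℓ s0 σ hs0 hσ
    have h1 := hs0K _ (hinK _ hτ x)
    have e : s0 • ((s0⁻¹ * σ) • x - x) = σ • x - s0 • x := by
      rw [smul_sub, smul_smul, mul_inv_cancel_left]
    rwa [e] at h1
  · intro x hx hsp
    rw [spa_sp_eq_zero_iff] at hsp
    exact hd x hx (spa_red_eq_zero_of_mem hsp)
  · intro y
    obtain ⟨x, rfl⟩ := spa_sp_surjective (red := red) y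
    rw [spa_F_sp, spa_F_sp]
    have e1 : heckeGen ⟨ℓ, hℓ⟩ • spa_sp J red (s0 • x) =
        spa_sp J red (heckeGen ⟨ℓ, hℓ⟩ • (s0 • x)) := rfl
    rw [e1, ← map_nsmul, ← map_sub, ← map_add, spa_sp_eq_zero_iff]
    intro t
    have key : ∀ z : J, red (s0 • s0 • z - heckeGen ⟨ℓ, hℓ⟩ • (s0 • z) + ℓ • z) = 0 := by
      intro z
      rw [map_add, map_sub, hc, hc, he, hc, map_nsmul, AddEquiv.symm_apply_apply]
      abel
    have e2 : t • (s0 • s0 • x - heckeGen ⟨ℓ, hℓ⟩ • (s0 • x) + ℓ • x) =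
        s0 • s0 • (t • x) - heckeGen ⟨ℓ, hℓ⟩ • (s0 • (t • x)) + ℓ • (t • x) := by
      rw [smul_add, smul_sub, smul_comm t (heckeGen ⟨ℓ, hℓ⟩), ← smul_comm s0 t (s0 • x),
        ← smul_comm s0 t x, smul_comm t ℓ x]
    rw [e2]
    exact key (t • x)

end Main

end Fermat.Agent.S37x

end
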