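import Mathlib
import Fermat.Statements.S37
import Fermat.Prelude.Def_ModularCurve_ReductionModL
import Fermat.Prelude.Def_ModularCurve_HeckeModule
import Fermat.Agent.S37x.SpecAssembly
import Fermat.Agent.S37x.FrobAt

/-!
# S37 from explicit inputs (helper14)

`spw_specializationExists`: abstract wrapper (any Hecke–Galois module `J : Type` over `ℚ̄/ℚ`).

`spw_S37_of_inputs`: the FROZEN S37 conclusion from
* `hS18`  : the frozen S18 statement (torsion injectivity of `reductionModL`),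
* `hR`    : `ReductionInputsModL A N` for every `A` over a prime `ℓ ∤ N`   (block R: construct `r`),
* for every such `(ℓ, A)` an additive automorphism `φ` of `JZeroC k N` with
  (b) `red ∘ τ = red` on inertia, (c) `red ∘ σ = φ ∘ red` for Frobenius elements `σ`,
  (e) `red ∘ T_ℓ = (φ + ℓ φ⁻¹) ∘ red`, where `red = reductionModL A N`.
-/

set_option autoImplicit false

noncomputable section

namespace Fermat.Agent.S37x

open ModularCurve ValuationSubring

theorem spw_specializationExists (N p : ℕ)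
    (J : Type) [AddCommGroup J] [Module HeckeAlg J]
    [DistribMulAction (AlgebraicClosure ℚ ≃ₐ[ℚ] AlgebraicClosure ℚ) J]
    [SMulCommClass (AlgebraicClosure ℚ ≃ₐ[ℚ] AlgebraicClosure ℚ) HeckeAlg J]
    (hdata : ∀ (ℓ : ℕ) (hℓ : ℓ.Prime), ¬ ℓ ∣ N * p →
      ∀ A : ValuationSubring (AlgebraicClosure ℚ), A.LiesOverPrime ℓ →
        ∃ (Jb : Type) (_ : AddCommGroup Jb) (red : J →+ Jb) (φ : Jb ≃+ Jb),
          (∀ τ ∈ A.inertiaSubgroupIn ℚ, ∀ x : J, red (τ • x) = red x) ∧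
          (∀ σ : AlgebraicClosure ℚ ≃ₐ[ℚ] AlgebraicClosure ℚ, A.IsFrobeniusAt σ ℓ →
            ∀ x : J, red (σ • x) = φ (red x)) ∧
          (∀ x : J, (∃ n : ℕ, p ^ n • x = 0) → red x = 0 → x = 0) ∧
          (∀ x : J, red (heckeGen ⟨ℓ, hℓ⟩ • x) = φ (red x) + ℓ • φ.symm (red x))) :
    SpecializationExists (K := ℚ) (L := AlgebraicClosure ℚ) N p J := by
  intro ℓ hℓ hℓNp A hA
  obtain ⟨Jb, _, red, φ, hb, hc, hd, he⟩ := hdata ℓ hℓ hℓNp A hA
  obtain ⟨s0, hs0⟩ := fag_exists_isFrobeniusAt ℓ hℓ A hA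
  exact spa_main p A ℓ hℓ φ s0 hs0 hb (hc s0 hs0) hd he

/-- The frozen S37 statement from explicit inputs. -/
theorem spw_S37_of_inputs (N p : ℕ) [NeZero N]
    (hS18 : ∀ {ℓ : ℕ} [Fact ℓ.Prime], ¬ ℓ ∣ N →
      ∀ (A : ValuationSubring (AlgebraicClosure ℚ)), A.LiesOverPrime ℓ →
        ModularCurve.ReductionInputsModL A N → ∀ (m : ℕ), ¬ ℓ ∣ m → ∀ z : ModularCurve.JZero N,
          m • z = 0 → ModularCurve.reductionModL A N z = 0 → z = 0)
    (hR : ∀ (ℓ : ℕ), ℓ.Prime → ¬ ℓ ∣ N →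
      ∀ A : ValuationSubring (AlgebraicClosure ℚ), A.LiesOverPrime ℓ →
        ModularCurve.ReductionInputsModL A N)
    (hcomm : ModularCurve.HeckeOperatorsCommuteBar N)
    (hES : ∀ (ℓ : ℕ) (hℓ : ℓ.Prime), ¬ ℓ ∣ N →
      ∀ A : ValuationSubring (AlgebraicClosure ℚ), A.LiesOverPrime ℓ →
        ∃ φ : JZeroC (IsLocalRing.ResidueField A) N ≃+ JZeroC (IsLocalRing.ResidueField A) N,
          (∀ τ ∈ A.inertiaSubgroupIn ℚ, ∀ x : JZero N,
            reductionModL A N (τ • x) = reductionModL A N x) ∧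
          (∀ σ : AlgebraicClosure ℚ ≃ₐ[ℚ] AlgebraicClosure ℚ, A.IsFrobeniusAt σ ℓ →
            ∀ x : JZero N, reductionModL A N (σ • x) = φ (reductionModL A N x)) ∧
          (∀ x : JZero N, reductionModL A N (heckeOperatorBar N ⟨ℓ, hℓ⟩ x) =
            φ (reductionModL A N x) + ℓ • φ.symm (reductionModL A N x))) :
    letI := ModularCurve.heckeModuleBar N
    ∀ (_ : SMulCommClass (AlgebraicClosure ℚ ≃ₐ[ℚ] AlgebraicClosure ℚ) ModularCurve.HeckeAlg
      (ModularCurve.JZero N)),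
      ModularCurve.SpecializationExists (K := ℚ) (L := AlgebraicClosure ℚ) N p
        (ModularCurve.JZero N) := by
  intro hsmul
  refine @spw_specializationExists N p (JZero N) _ (heckeModuleBar N) _ hsmul ?_
  intro ℓ hℓ hℓNp A hA
  have hℓN : ¬ ℓ ∣ N := fun h => hℓNp (Dvd.dvd.mul_right h p)
  have hℓp : ¬ ℓ ∣ p := fun h => hℓNp (Dvd.dvd.mul_left h N)
  obtain ⟨φ, hb, hc, he⟩ := hES ℓ hℓ hℓN A hA
  refine ⟨JZeroC (IsLocalRing.ResidueField A) N, inferInstance, reductionModL A N, φ, hb, hc,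
    ?_, ?_⟩
  · rintro x ⟨n, hn⟩ hx
    have : Fact ℓ.Prime := ⟨hℓ⟩
    exact hS18 hℓN A hA (hR ℓ hℓ hℓN A hA) (p ^ n) (fun h => hℓp (hℓ.dvd_of_dvd_pow h)) x hn hx
  · intro x
    have h := heckeModuleBar_heckeGen_smul hcomm ⟨ℓ, hℓ⟩ x
    exact (congrArg (reductionModL A N) h).trans (he x)

end Fermat.Agent.S37x

end
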