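/-
S37 TOP wiring in hypothesis form (helper44).

`s37t_result_of_places`: the FROZEN S37 conclusion from
* `hS18` : the frozen S18 statement,
* `hR`   : `ReductionInputsModL A N` for every `A` over a prime `ℓ ∤ N`        (block [B1]),
* `hH`   : `HeckeInputsAlong Q̄ N ℓ` for the primes `ℓ ∤ N`                     (block [B2]),
* three PLACE-level statements for `r := placeReductionModL (hR ..)` and the coefficientwise
  Frobenius `gF := cfb_frob k N ℓ` of `Fb = modularFunctionFieldFullC k N`     (block [B3]):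
  (hI) `r (τ • P) = r P` for `τ` in the inertia group at `A`,
  (hF) `r (σ • P) = gF • r P` for Frobenius elements `σ` at `A`,
  (hT) `r_* (T_ℓ P) = [gF • r P] + ℓ [gF⁻¹ • r P]`, `T_ℓ = α_* β^*`.
Glue: `spw_S37_of_inputs` (helper14) + `es7_hES` (STEP 7) + `cfb_frob` (helper48).
-/
import Mathlib
import Fermat.Agent.S37x.SpecWrap
import Fermat.Agent.S37x.EsPic0
import Fermat.Agent.S37x.CoeffFrob
import Fermat.Agent.S37x.BetaIntegral
import Fermat.Agent.S18x.GlueChar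

set_option autoImplicit false

noncomputable section

namespace Fermat.Agent.S37x

open ModularCurve AlgebraicCurve ValuationSubring Fermat.Agent.S18x

local notation "Q̄" => AlgebraicClosure ℚ

/-- the residue field of a valuation subring of an algebraically closed field is perfect
(every element is an `ℓ`-th power). -/
theorem s37t_perfectRing (A : ValuationSubring Q̄) (ℓ : ℕ) [Fact ℓ.Prime]
    [CharP (IsLocalRing.ResidueField A) ℓ] : PerfectRing (IsLocalRing.ResidueField A) ℓ := by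
  refine PerfectRing.ofSurjective _ ℓ fun x => ?_
  obtain ⟨a, rfl⟩ := IsLocalRing.residue_surjective x
  -- an `ℓ`-th root of `a` in `Q̄` is integral over `A`, hence in `A`
  obtain ⟨b, hb⟩ := IsAlgClosed.exists_pow_nat_eq (a : Q̄) (Fact.out : ℓ.Prime).pos
  have hbA : b ∈ A := by
    have hint : IsIntegral A b := by
      refine ⟨Polynomial.X ^ ℓ - Polynomial.C a,
        Polynomial.monic_X_pow_sub_C a (Fact.out : ℓ.Prime).ne_zero, ?_⟩
      rw [Polynomial.eval₂_sub, Polynomial.eval₂_pow, Polynomial.eval₂_X, Polynomial.eval₂_C, hb]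
      exact sub_self _
    obtain ⟨y, hy⟩ := IsIntegrallyClosed.isIntegral_iff.mp hint
    rw [← hy]
    exact y.2
  refine ⟨IsLocalRing.residue A ⟨b, hbA⟩, ?_⟩
  rw [frobenius_def, ← map_pow]
  congr 1
  exact Subtype.ext hb

/-- **S37 from [B1] + [B2] + three place-level [B3] statements** (exact frozen conclusion). -/
theorem s37t_result_of_places (N p : ℕ) [NeZero N]
    (hS18 : ∀ {ℓ : ℕ} [Fact ℓ.Prime], ¬ ℓ ∣ N →
      ∀ (A : ValuationSubring Q̄), A.LiesOverPrime ℓ →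
        ReductionInputsModL A N → ∀ (m : ℕ), ¬ ℓ ∣ m → ∀ z : JZero N,
          m • z = 0 → reductionModL A N z = 0 → z = 0)
    (hR : ∀ (ℓ : ℕ), ℓ.Prime → ¬ ℓ ∣ N →
      ∀ A : ValuationSubring Q̄, A.LiesOverPrime ℓ → ReductionInputsModL A N)
    (hcomm : HeckeOperatorsCommuteBar N)
    (hH : ∀ ℓ : Nat.Primes, ¬ (ℓ : ℕ) ∣ N →
      haveI := hku_neZero ℓ; HeckeInputsAlong Q̄ N ℓ)
    (hI : ∀ (ℓ : ℕ) (hℓ : ℓ.Prime) (hℓN : ¬ ℓ ∣ N) (A : ValuationSubring Q̄)
      (hA : A.LiesOverPrime ℓ), ∀ τ ∈ A.inertiaSubgroupIn ℚ, ∀ P,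
        placeReductionModL (hR ℓ hℓ hℓN A hA)
            (arithmeticGalois (modularFunctionFieldFull N) τ • P) =
          placeReductionModL (hR ℓ hℓ hℓN A hA) P)
    (hF : ∀ (ℓ : ℕ) (hℓ : ℓ.Prime) (hℓN : ¬ ℓ ∣ N) (A : ValuationSubring Q̄)
      (hA : A.LiesOverPrime ℓ),
      haveI : Fact ℓ.Prime := ⟨hℓ⟩
      haveI := glu_charP A hℓ hA
      haveI := s37t_perfectRing A ℓ
      ∀ σ : Q̄ ≃ₐ[ℚ] Q̄, A.IsFrobeniusAt σ ℓ → ∀ P,
        placeReductionModL (hR ℓ hℓ hℓN A hA)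
            (arithmeticGalois (modularFunctionFieldFull N) σ • P) =
          cfb_frob (IsLocalRing.ResidueField A) N ℓ • placeReductionModL (hR ℓ hℓ hℓN A hA) P)
    (hT : ∀ (ℓ : ℕ) (hℓ : ℓ.Prime) (hℓN : ¬ ℓ ∣ N) (A : ValuationSubring Q̄)
      (hA : A.LiesOverPrime ℓ),
      haveI : Fact ℓ.Prime := ⟨hℓ⟩
      haveI : NeZero ℓ := ⟨hℓ.ne_zero⟩
      haveI := glu_charP A hℓ hA
      haveI := s37t_perfectRing A ℓ
      ∀ [HasPrincipalDivisors Q̄
          (laurentBaseChange Q̄ (modularFunctionFieldFull (N * ℓ)))] P,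
        Finsupp.mapDomain (placeReductionModL (hR ℓ hℓ hℓN A hA))
            (Divisor.correspondence (heckeBetaBar Q̄ N ℓ) (heckeAlphaBar Q̄ N ℓ)
              (bt37_betaIntegral N ℓ) (bt37_alphaIntegral N ℓ) (Finsupp.single P 1)) =
          Finsupp.single (cfb_frob (IsLocalRing.ResidueField A) N ℓ •
              placeReductionModL (hR ℓ hℓ hℓN A hA) P) (1 : ℤ) +
            Finsupp.single ((cfb_frob (IsLocalRing.ResidueField A) N ℓ)⁻¹ •
              placeReductionModL (hR ℓ hℓ hℓN A hA) P) (ℓ : ℤ)) :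
    letI := heckeModuleBar N
    ∀ (_ : SMulCommClass (Q̄ ≃ₐ[ℚ] Q̄) HeckeAlg (JZero N)),
      SpecializationExists (K := ℚ) (L := Q̄) N p (JZero N) := by
  refine spw_S37_of_inputs N p hS18 hR hcomm ?_
  intro ℓ hℓ hℓN A hA
  haveI : Fact ℓ.Prime := ⟨hℓ⟩
  haveI : NeZero ℓ := ⟨hℓ.ne_zero⟩
  haveI := glu_charP A hℓ hA
  haveI := s37t_perfectRing A ℓ
  obtain ⟨hα, hβ, hP, hfin, hFI, hN⟩ := hH ⟨ℓ, hℓ⟩ hℓN
  haveI := hP
  exact es7_hES ⟨ℓ, hℓ⟩ (hR ℓ hℓ hℓN A hA) (cfb_frob (IsLocalRing.ResidueField A) N ℓ)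
    hα hβ hP hFI hfin hN (hI ℓ hℓ hℓN A hA) (hF ℓ hℓ hℓN A hA) (hT ℓ hℓ hℓN A hA)

end Fermat.Agent.S37x

end
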