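/-
S37 FINAL ASSEMBLY in hypothesis form (helper66, S37 integration dry-run seat; prefix `s37f_`).

`s37f_result_of_tops` : the FROZEN S37 conclusion from
* `hS18` : the frozen S18 statement (shape of `s37t_result_of_places.hS18`), and
* `hTwo`, `hOdd` : the two `h`-free S18 tops `nrmt_HY (9N) A 2` / `nrmt_HY (4N) A ℓ` (`ℓ` odd)
  (shapes of `cthf_hR_of_tops.hTwo/hOdd`),
and NOTHING else: every other input of `s37t_result_of_places` (helper44) is discharged from main:

* [B2] `hH`      : `hif_heckeInputsAlong` (helper25);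
* [B1] `hR`      : `cthf_hR_of_tops` (helper63; `ctm_main` helper4, `cspn_hCo_free` helper35,
                   `ctmg_principalGeneratedByIntegral_modL` helper67);
* [GAL] `hI/hF`  : `gcf_hI` / `gcf_hF` (helper55) with two-chart normality `gpb_normality`
                   (`nrmt_HY N` by descent `cthf_HY_of_dvd` + `cspn_hCo_free`);
* [ES] `hT`      : VALUE route `esvc_mapDomain_correspondence` (helper5) at level `N` for
                   `r := placeReductionModL h` (`s37f_hT`), with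
    `H`, `hnc`, `hpol`, `hσJ`  := `s18f_hyp`, `gci_Jnc`, `gcf_polarLe`, `gci_smul_rho_J` (helper55),
    `hST`                      := `ecs_hST_levelN` (helper95),
    `hKR`                      := `eski_hKR` at the S18 pair (helper55),
    `hsep0`, `hsepInf`         := `esvs_hsep0` / `esvs_hsepInf` (helper27) fed by the `h`-free package
                                  `cthf_coord`, `cthf_int0_of_HY`, `cthf_intInf` (helper63), moved
                                  from the `nrmt_` pair to the S18 pair by `gpb_`,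
    `hfin`, `hF`, `hF'`, `hres` := `bt37_finiteAlong_beta`, `hif_deg_eq_one`,
                                  `hki_residue_surjective`.

The final `Fermat/Agent/S37.lean` is `s37f_result_of_tops N p S18.result <top ℓ=2> <top ℓ odd> hcomm`.
-/
import Mathlib
import Fermat.Agent.S37x.TopOfPlaces
import Fermat.Agent.S37x.HeckeInputsFinal
import Fermat.Agent.S37x.GaloisCompatFinal
import Fermat.Agent.S37x.CtmHRFinal
import Fermat.Agent.S37x.GaussPairBridge
import Fermat.Agent.S37x.EsValueCharts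
import Fermat.Agent.S37x.EsValueSep
import Fermat.Agent.S37x.EsChartStabInst
import Fermat.Agent.S37x.EsKronInst

set_option autoImplicit false
set_option synthInstance.maxHeartbeats 400000
set_option linter.style.haveILetI false

namespace Fermat.Agent.S37x

open ModularCurve AlgebraicCurve ValuationSubring
open Fermat.Agent.S18x Fermat.Agent.S24x Fermat.Agent.S28x

local notation "Q̄" => AlgebraicClosure ℚ

noncomputable section

/-! ### [ES] `hT` at level `N` (VALUE route), from finite-chart normality at level `N` -/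

section ES

variable (N : ℕ) [NeZero N] (A : ValuationSubring Q̄) (h : ReductionInputsModL A N)
variable (ℓ : ℕ) [Fact ℓ.Prime] (hℓN : ¬ ℓ ∣ N) (hA : A.LiesOverPrime ℓ)

local notation "kA" => IsLocalRing.ResidueField A
local notation "FbA" => modularFunctionFieldFullC (IsLocalRing.ResidueField A) N

include hℓN in
/-- **(I3)** Kronecker congruence at the S18 pair (`eski_hKR`, helper55). -/
theorem s37f_hKR [NeZero ℓ] [CharP kA ℓ] [PerfectRing kA ℓ]
    [HasPrincipalDivisors Q̄ (FBar (N * ℓ))] :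
    ∀ (y : s18f_W N A h) (c : A), ∃ n : s18f_W N A h,
      (letI := algebraAlong (heckeBetaBar Q̄ N ℓ)
       haveI : Module.Finite (FBar N) (FBar (N * ℓ)) := bt37_finiteAlong_beta N ℓ
       (n : FBar N) = Algebra.norm (FBar N)
          (algebraMap Q̄ (FBar (N * ℓ)) (c : Q̄) - heckeAlphaBar Q̄ N ℓ (y : FBar N))) ∧
      s18f_rho N A h n =
        (algebraMap kA FbA (IsLocalRing.residue A c) -
            ((cfb_frob kA N ℓ)⁻¹ • s18f_rho N A h y) ^ ℓ) *
          (algebraMap kA FbA (IsLocalRing.residue A c ^ ℓ) - cfb_frob kA N ℓ • s18f_rho N A h y) :=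
  fun y c => eski_hKR hℓN A (IsLocalRing.residue A) (s18f_W N A h) (s18f_rho N A h)
    (fun x => gi_mem_W_iff _ x) (fun x => gi_rho_coe _ x) y c

/-- **(I4), finite chart**, at the S18 pair, from the `h`-free `ctm_` package. -/
theorem s37f_hsep0 (hY : nrmt_HY N A ℓ hℓN hA) :
    ∀ T : Finset (Place kA FbA), (∀ Q ∈ T, 0 ≤ Q.ord (s18f_rho N A h (s18f_J N A h))) →
      ∃ y : s18f_W N A h, (∀ P ∈ esvc_S0 A ((s18f_J N A h : s18f_W N A h) : FBar N),
          P.adicValuation (y : FBar N) ≤ 1) ∧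
        ∃ v : Place kA FbA → kA, Set.InjOn v (T : Set (Place kA FbA)) ∧
          ∀ Q ∈ T, Q.adicValuation (s18f_rho N A h y - algebraMap kA FbA (v Q)) < 1 := by
  haveI hk : IsAlgClosed kA := s18a_isAlgClosed_residue A
  intro T hT
  have hJeq : s18f_rho N A h (s18f_J N A h) = nrmt_rho N A ℓ hℓN hA (nrmt_J N A) :=
    gpb_rho_eq N A h hℓN hA _ _ _
  obtain ⟨y, hy, v, hv, hval⟩ := esvs_hsep0 (A := A) (cthf_coord N A ℓ hℓN hA)
    (cthf_int0_of_HY N A ℓ hℓN hA hY) T (fun Q hQ => by rw [← hJeq]; exact hT Q hQ)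
  refine ⟨gpb_toS18 N A h y, hy, v, hv, fun Q hQ => ?_⟩
  rw [gpb_rho_toS18 N A h hℓN hA]
  exact hval Q hQ

/-- **(I4), chart at infinity**, at the S18 pair, from the `h`-free `ctm_` package and the
`h`-free OUT-C-onto `cspn_hCo_free`. -/
theorem s37f_hsepInf (hY : nrmt_HY N A ℓ hℓN hA) :
    ∀ T : Finset (Place kA FbA), (∀ Q ∈ T, Q.ord (s18f_rho N A h (s18f_J N A h)) < 0) →
      ∃ y : s18f_W N A h, (∀ P ∈ (esvc_S0 A ((s18f_J N A h : s18f_W N A h) : FBar N))ᶜ,
          P.adicValuation (y : FBar N) ≤ 1) ∧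
        ∃ v : Place kA FbA → kA, Set.InjOn v (T : Set (Place kA FbA)) ∧
          ∀ Q ∈ T, Q.adicValuation (s18f_rho N A h y - algebraMap kA FbA (v Q)) < 1 := by
  haveI hk : IsAlgClosed kA := s18a_isAlgClosed_residue A
  intro T hT
  have hJeq : s18f_rho N A h (s18f_J N A h) = nrmt_rho N A ℓ hℓN hA (nrmt_J N A) :=
    gpb_rho_eq N A h hℓN hA _ _ _
  obtain ⟨y, hy, v, hv, hval⟩ := esvs_hsepInf (A := A) (cthf_J_mul_Jinv N A ℓ hℓN hA)
    (cthf_coord N A ℓ hℓN hA)
    (cthf_intInf N A ℓ hℓN hA hY (cspn_hCo_free N A hℓN hA)) T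
    (fun Q hQ => by rw [← hJeq]; exact hT Q hQ)
  refine ⟨gpb_toS18 N A h y, hy, v, hv, fun Q hQ => ?_⟩
  rw [gpb_rho_toS18 N A h hℓN hA]
  exact hval Q hQ

/-- **(P-iii), Eichler–Shimura on places at level `N`** for `r := placeReductionModL h`: the literal
`hT` binder of `s37t_result_of_places`, from finite-chart normality at level `N` alone. -/
theorem s37f_hT [NeZero ℓ] [CharP kA ℓ] [PerfectRing kA ℓ]
    [HasPrincipalDivisors Q̄ (FBar (N * ℓ))] (hY : nrmt_HY N A ℓ hℓN hA)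
    (P : Place Q̄ (FBar N)) :
    Finsupp.mapDomain (placeReductionModL h)
        (Divisor.correspondence (heckeBetaBar Q̄ N ℓ) (heckeAlphaBar Q̄ N ℓ)
          (bt37_betaIntegral N ℓ) (bt37_alphaIntegral N ℓ) (Finsupp.single P 1)) =
      Finsupp.single (cfb_frob kA N ℓ • placeReductionModL h P) (1 : ℤ) +
        Finsupp.single ((cfb_frob kA N ℓ)⁻¹ • placeReductionModL h P) (ℓ : ℤ) := by
  haveI hk : IsAlgClosed kA := s18a_isAlgClosed_residue A
  haveI : Infinite kA := IsAlgClosed.instInfinite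
  exact esvc_mapDomain_correspondence (heckeBetaBar Q̄ N ℓ) (heckeAlphaBar Q̄ N ℓ)
    (bt37_betaIntegral N ℓ) (bt37_alphaIntegral N ℓ) (bt37_finiteAlong_beta N ℓ)
    (hif_deg_eq_one N) (hif_deg_eq_one (N * ℓ)) (hki_residue_surjective N)
    (s18f_hyp N A h) (s18f_J N A h) (gci_Jnc h) (gcf_polarLe h hℓN hA)
    (cfb_frob kA N ℓ) ℓ (cfb_baseAut_frob_apply kA N ℓ) (gci_smul_rho_J h _)
    (ecs_hST_levelN N ℓ A (bt37_betaIntegral N ℓ) (bt37_alphaIntegral N ℓ))
    (s37f_hKR N A h ℓ hℓN)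
    (s37f_hsep0 N A h ℓ hℓN hA hY) (s37f_hsepInf N A h ℓ hℓN hA hY) P

end ES

/-! ### The assembly from the two S18 tops -/

section Top

variable (N : ℕ) [NeZero N]
  (hTwo : ∀ (A : ValuationSubring Q̄) (hA : A.LiesOverPrime 2) (h29 : ¬ 2 ∣ 9 * N),
    haveI : Fact (Nat.Prime 2) := ⟨Nat.prime_two⟩
    nrmt_HY (9 * N) A 2 h29 hA)
  (hOdd : ∀ (ℓ : ℕ) [Fact ℓ.Prime], ℓ ≠ 2 →
    ∀ (A : ValuationSubring Q̄) (hA : A.LiesOverPrime ℓ) (h4 : ¬ ℓ ∣ 4 * N),
      nrmt_HY (4 * N) A ℓ h4 hA)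

include hTwo hOdd

/-- [B1] `hR` from the two tops (`cthf_hR_of_tops`, helper63). -/
theorem s37f_hR (ℓ : ℕ) (hℓ : ℓ.Prime) (hℓN : ¬ ℓ ∣ N)
    (A : ValuationSubring Q̄) (hA : A.LiesOverPrime ℓ) : ReductionInputsModL A N :=
  cthf_hR_of_tops N hTwo hOdd ℓ hℓ hℓN A hA

/-- finite-chart normality at level `N` (`h`-free), from the tops by descent. -/
theorem s37f_HY (ℓ : ℕ) [Fact ℓ.Prime] (hℓN : ¬ ℓ ∣ N)
    (A : ValuationSubring Q̄) (hA : A.LiesOverPrime ℓ) : nrmt_HY N A ℓ hℓN hA := by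
  rcases eq_or_ne ℓ 2 with rfl | hl
  · exact cthf_HY_of_dvd N A 2 hℓN hA (9 * N) (Dvd.intro_left 9 rfl) (cthf_not_dvd_nine hℓN)
      (hTwo A hA (cthf_not_dvd_nine hℓN))
  · exact cthf_HY_of_dvd N A ℓ hℓN hA (4 * N) (Dvd.intro_left 4 rfl)
      (cthf_not_dvd_four (Fact.out : ℓ.Prime) hl hℓN)
      (hOdd ℓ hl A hA (cthf_not_dvd_four (Fact.out : ℓ.Prime) hl hℓN))

/-- two-chart normality of the S18 assembly, for EVERY `h`. -/
theorem s37f_normality (ℓ : ℕ) [Fact ℓ.Prime] (hℓN : ¬ ℓ ∣ N)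
    (A : ValuationSubring Q̄) (hA : A.LiesOverPrime ℓ) (h : ReductionInputsModL A N) :
    s18f_Normality N A h :=
  gpb_normality N A h hℓN hA (s37f_HY N hTwo hOdd ℓ hℓN A hA) (cspn_hCo_free N A hℓN hA)

/-- **S37 from S18 and the two S18 tops** (exact frozen conclusion). -/
theorem s37f_result_of_tops (p : ℕ)
    (hS18 : ∀ {ℓ : ℕ} [Fact ℓ.Prime], ¬ ℓ ∣ N →
      ∀ (A : ValuationSubring Q̄), A.LiesOverPrime ℓ →
        ReductionInputsModL A N → ∀ (m : ℕ), ¬ ℓ ∣ m → ∀ z : JZero N,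
          m • z = 0 → reductionModL A N z = 0 → z = 0)
    (hcomm : HeckeOperatorsCommuteBar N) :
    letI := heckeModuleBar N
    ∀ (_ : SMulCommClass (Q̄ ≃ₐ[ℚ] Q̄) HeckeAlg (JZero N)),
      SpecializationExists (K := ℚ) (L := Q̄) N p (JZero N) :=
  s37t_result_of_places N p hS18 (s37f_hR N hTwo hOdd) hcomm
    (fun ℓ _ => haveI := hku_neZero ℓ; hif_heckeInputsAlong N ℓ)
    (fun ℓ hℓ hℓN A hA =>
      haveI : Fact ℓ.Prime := ⟨hℓ⟩
      gcf_hI _ hℓN hA (s37f_normality N hTwo hOdd ℓ hℓN A hA _))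
    (fun ℓ hℓ hℓN A hA =>
      haveI : Fact ℓ.Prime := ⟨hℓ⟩
      haveI := glu_charP A hℓ hA
      haveI := s37t_perfectRing A ℓ
      gcf_hF _ hℓN hA (s37f_normality N hTwo hOdd ℓ hℓN A hA _))
    (fun ℓ hℓ hℓN A hA =>
      haveI : Fact ℓ.Prime := ⟨hℓ⟩
      haveI : NeZero ℓ := ⟨hℓ.ne_zero⟩
      haveI := glu_charP A hℓ hA
      haveI := s37t_perfectRing A ℓ
      fun P => s37f_hT N A _ ℓ hℓN hA (s37f_HY N hTwo hOdd ℓ hℓN A hA) P)

end Top

end

end Fermat.Agent.S37x
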