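/-
S37 prep, block [B1] (helper32): the **disc-fibre sum** for a good coordinate, in hypothesis form against
the exact leaf statements of helper4's plan (docs `S37_B1_leaves_helper4`).

Setting: `ctm_Gauss A π W ρ`, `g ∈ W` a good coordinate (`ctm_Coord`), `y ∈ W` with `ρ y ≠ 0`.  For `c̄ ∈ k`:
`∑_{P : g(P) ∈ A, g(P) ↦ c̄} ord_P y = ∑_{Q : (ρ g)(Q) = c̄} ord_Q (ρ y)`.

Proof: `N := Norm_{F/L(g)} y` reduces to `Norm_{Fb/k(ρ g)} (ρ y)` (`nd_RedPair.norm_reduction`); write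
`N = c · p(g)/q(g)` with `p, q ∈ A[X]` of nonzero reduction (normal form), then `c ∈ Aˣ`; the fibre sums
upstairs/downstairs are `rootMultiplicity` differences of `p, q` resp. `p̄, q̄` (norm/ord formula), and the
`ℙ¹` lemma compares them.

All names carry the prefix `ctfs`.
-/
import Mathlib
import Fermat.Agent.S37x.CtmDefs
import Fermat.Agent.S37x.CtmPone
import Fermat.Agent.S37x.CtmRedPairCoe
import Fermat.Agent.S37x.CtmNormOrdAdapter
import Fermat.Agent.S18x.NdNorm
import Fermat.Agent.S24x.GenusCount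
import Fermat.Agent.S24x.PrincipalDegree

set_option autoImplicit false

namespace Fermat.Agent.S37x

open AlgebraicCurve Fermat.Agent.S18x Fermat.Agent.S24x IntermediateField Polynomial

section Layer1

variable {K F : Type*} [Field K] [Field F] [Algebra K F]

theorem ctfs_sub_ne_zero {g : F} (hg : Transcendental K g) (a : K) : g - algebraMap K F a ≠ 0 := by
  intro h
  apply hg
  rw [sub_eq_zero] at h
  rw [h]
  exact isAlgebraic_algebraMap a

theorem ctfs_aeval_ne_zero {g : F} (hg : Transcendental K g) {p : K[X]} (hp : p ≠ 0) :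
    aeval g p ≠ 0 := fun h => hg ⟨p, hp, h⟩

variable [IsAlgClosed K]

/-- the fibre of a separating coordinate `g` over `a`, as a `Finset`. -/
noncomputable def ctfsFibre {g : F} (hg : pls_IsSepCoordinate K F g) (a : K) : Finset (Place K F) :=
  (pls_sum_ord_placesOver hg a).choose.toFinset

theorem ctfs_mem_fibre {g : F} (hg : pls_IsSepCoordinate K F g) (a : K) (P : Place K F) :
    P ∈ ctfsFibre hg a ↔ P.adicValuation (g - algebraMap K F a) < 1 := by
  rw [ctfsFibre, Set.Finite.mem_toFinset, mem_placesOver,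
    gc_ord_pos_iff P (ctfs_sub_ne_zero hg.coord.transcendental a)]

theorem ctfs_fibre_nonempty {g : F} (hg : pls_IsSepCoordinate K F g) (a : K) :
    (ctfsFibre hg a).Nonempty := by
  obtain ⟨v, hv⟩ := pls_exists_place_over hg a
  refine ⟨v, ?_⟩
  rw [ctfs_mem_fibre, ← gc_ord_pos_iff v (ctfs_sub_ne_zero hg.coord.transcendental a)]
  exact hv

/-- fibres over distinct points are disjoint. -/
theorem ctfs_fibre_disjoint {g : F} (hg : pls_IsSepCoordinate K F g) {a b : K} (hab : a ≠ b) :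
    Disjoint (ctfsFibre hg a) (ctfsFibre hg b) := by
  rw [Finset.disjoint_left]
  intro P ha hb
  rw [ctfs_mem_fibre] at ha hb
  have h1 : P.adicValuation (algebraMap K F (b - a)) < 1 := by
    have : algebraMap K F (b - a) = (g - algebraMap K F a) - (g - algebraMap K F b) := by
      rw [map_sub]; ring
    rw [this]
    exact lt_of_le_of_lt (Valuation.map_sub _ _ _) (max_lt ha hb)
  have hne : b - a ≠ 0 := sub_ne_zero.mpr (Ne.symm hab)
  have hne' : algebraMap K F (b - a) ≠ 0 :=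
    (map_ne_zero_iff _ (algebraMap K F).injective).mpr hne
  have h2 := (gc_ord_pos_iff P hne').mpr h1
  rw [pd_ord_algebraMap] at h2
  exact lt_irrefl _ h2

/-- **Layer 1**: the fibre sum of `ord y` over `g = a` in terms of a rational expression
`z q(g) = c p(g)` of (the image of) the norm `z` of `y`. -/
theorem ctfs_fibre_eq {g : F} (hg : pls_IsSepCoordinate K F g) (y z : F)
    (hNorm : ∀ (a : K) (S : Finset (Place K F)),
      (∀ P : Place K F, P ∈ S ↔ P.adicValuation (g - algebraMap K F a) < 1) →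
        ∀ P₀ ∈ S, P₀.ord z = P₀.ord (g - algebraMap K F a) * ∑ P ∈ S, P.ord y)
    (hAe : ∀ p : K[X], p ≠ 0 → ∀ (a : K) (P : Place K F),
      P.adicValuation (g - algebraMap K F a) < 1 →
        P.ord (aeval g p) = (p.rootMultiplicity a : ℤ) * P.ord (g - algebraMap K F a))
    (p q : K[X]) (hp : p ≠ 0) (hq : q ≠ 0) (c : K) (hc : c ≠ 0)
    (hz : z * aeval g q = algebraMap K F c * aeval g p) (a : K) :
    ∑ P ∈ ctfsFibre hg a, P.ord y = (p.rootMultiplicity a : ℤ) - (q.rootMultiplicity a : ℤ) := by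
  have htr := hg.coord.transcendental
  obtain ⟨P₀, hP₀⟩ := ctfs_fibre_nonempty hg a
  have hP₀' := (ctfs_mem_fibre hg a P₀).mp hP₀
  have hpg := ctfs_aeval_ne_zero htr hp
  have hqg := ctfs_aeval_ne_zero htr hq
  have hcF : algebraMap K F c ≠ 0 := by simpa using hc
  have hz0 : z ≠ 0 := by
    rintro rfl
    rw [zero_mul] at hz
    exact mul_ne_zero hcF hpg hz.symm
  have he : 0 < P₀.ord (g - algebraMap K F a) :=
    (gc_ord_pos_iff P₀ (ctfs_sub_ne_zero htr a)).mpr hP₀'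
  have h1 := congrArg P₀.ord hz
  rw [P₀.ord_mul hz0 hqg, P₀.ord_mul hcF hpg, pd_ord_algebraMap, zero_add,
    hNorm a _ (ctfs_mem_fibre hg a) P₀ hP₀, hAe p hp a P₀ hP₀', hAe q hq a P₀ hP₀'] at h1
  have h2 : P₀.ord (g - algebraMap K F a) * (∑ P ∈ ctfsFibre hg a, P.ord y) =
      P₀.ord (g - algebraMap K F a) * ((p.rootMultiplicity a : ℤ) - (q.rootMultiplicity a : ℤ)) := by
    linarith
  exact mul_left_cancel₀ (ne_of_gt he) h2

open Classical in
/-- **Layer 2**: regroup the sum of `ord y` over the points of a finset `S` (containing the support of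
`div y`) whose `g`-value satisfies `Φ` as a sum of full fibre sums. -/
theorem ctfs_sum_filter_eq_sum_fibres {g : F} (hg : pls_IsSepCoordinate K F g) (y : F)
    (S : Finset (Place K F)) (hS : ∀ P : Place K F, P.ord y ≠ 0 → P ∈ S) (Φ : K → Prop)
    (T : Finset K)
    (hT : ∀ P ∈ S, ∀ a : K, P.adicValuation (g - algebraMap K F a) < 1 → a ∈ T) :
    ∑ P ∈ S.filter
        (fun P => ∃ a, Φ a ∧ P.adicValuation (g - algebraMap K F a) < 1), P.ord y
      = ∑ a ∈ T.filter Φ, ∑ P ∈ ctfsFibre hg a, P.ord y := by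
  have hinner : ∀ a : K, ∑ P ∈ ctfsFibre hg a, P.ord y =
      ∑ P ∈ (ctfsFibre hg a).filter (fun P => P ∈ S), P.ord y := by
    intro a
    rw [Finset.sum_filter_of_ne]
    intro P _ hne
    exact hS P hne
  simp_rw [hinner]
  rw [← Finset.sum_biUnion]
  · refine Finset.sum_congr ?_ fun _ _ => rfl
    ext P
    simp only [Finset.mem_filter, Finset.mem_biUnion, ctfs_mem_fibre]
    constructor
    · rintro ⟨hP, a, hΦ, hv⟩
      exact ⟨a, ⟨hT P hP a hv, hΦ⟩, hv, hP⟩
    · rintro ⟨a, ⟨-, hΦ⟩, hv, hP⟩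
      exact ⟨hP, a, hΦ, hv⟩
  · intro a _ b _ hab
    exact (ctfs_fibre_disjoint hg hab).mono (Finset.filter_subset _ _) (Finset.filter_subset _ _)

open Classical in
/-- a single fibre: the sum over the points of `S` in the fibre is the full fibre sum. -/
theorem ctfs_sum_filter_eq_fibre {g : F} (hg : pls_IsSepCoordinate K F g) (y : F)
    (S : Finset (Place K F)) (hS : ∀ P : Place K F, P.ord y ≠ 0 → P ∈ S) (a : K) :
    ∑ P ∈ S.filter (fun P => P.adicValuation (g - algebraMap K F a) < 1), P.ord y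
      = ∑ P ∈ ctfsFibre hg a, P.ord y := by
  have h1 : ∑ P ∈ ctfsFibre hg a, P.ord y =
      ∑ P ∈ (ctfsFibre hg a).filter (fun P => P ∈ S), P.ord y := by
    rw [Finset.sum_filter_of_ne]
    intro P _ hne
    exact hS P hne
  rw [h1]
  refine Finset.sum_congr ?_ fun _ _ => rfl
  ext P
  simp only [Finset.mem_filter, ctfs_mem_fibre]
  exact And.comm

open Classical in
/-- a finset containing the `g`-values of all points of `S`. -/
theorem ctfs_exists_values {g : F} (hg : pls_IsSepCoordinate K F g) (S : Finset (Place K F)) :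
    ∃ T : Finset K, ∀ P ∈ S, ∀ a : K, P.adicValuation (g - algebraMap K F a) < 1 → a ∈ T := by
  refine ⟨S.image (fun P => if h : ∃ a : K, P.adicValuation (g - algebraMap K F a) < 1
    then h.choose else 0), ?_⟩
  intro P hP a ha
  rw [Finset.mem_image]
  refine ⟨P, hP, ?_⟩
  have h : ∃ a : K, P.adicValuation (g - algebraMap K F a) < 1 := ⟨a, ha⟩
  rw [dif_pos h]
  by_contra hne
  have hd := ctfs_fibre_disjoint hg hne
  rw [Finset.disjoint_left] at hd
  exact hd ((ctfs_mem_fibre hg _ P).mpr h.choose_spec) ((ctfs_mem_fibre hg a P).mpr ha)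

end Layer1

section Main

variable {L k F Fb : Type*} [Field L] [Field k] [Field F] [Field Fb] [Algebra L F] [Algebra k Fb]
variable {A : ValuationSubring L} {π : A →+* k} {W : ValuationSubring F} {ρ : W →+* Fb}

/-- the norm of `y ∈ W` to `L(g)`, as an element of `W`, reduces to the norm of `ρ y` to `k(ρ g)`. -/
theorem ctfs_norm_red (G : ctm_Gauss A π W ρ) {g : W} (hg : ctm_Coord L k W ρ g) (y : W) :
    ∃ hz : algebraMap L⟮(g : F)⟯ F (Algebra.norm L⟮(g : F)⟯ (y : F)) ∈ W,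
      ρ ⟨_, hz⟩ = algebraMap k⟮ρ g⟯ Fb (Algebra.norm k⟮ρ g⟯ (ρ y)) := by
  obtain ⟨hN, hρN⟩ := (ctr_redPair G hg).norm_reduction y
  refine ⟨hN, ?_⟩
  rw [← hρN]
  rfl

/-- **the normal form of the norm with a unit constant**: `N(y) q(g) = c p(g)` with `p, q ∈ A[X]` of
nonzero reduction and `c ∈ Aˣ`, and the reduced relation downstairs. -/
theorem ctfs_normal_form (G : ctm_Gauss A π W ρ) {g : W} (hg : ctm_Coord L k W ρ g) (y : W)
    (hy : ρ y ≠ 0) :
    ∃ (c : A) (p q : Polynomial A), π c ≠ 0 ∧ p.map π ≠ 0 ∧ q.map π ≠ 0 ∧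
      algebraMap L⟮(g : F)⟯ F (Algebra.norm L⟮(g : F)⟯ (y : F)) * aeval (g : F) (q.map A.subtype)
        = algebraMap L F (c : L) * aeval (g : F) (p.map A.subtype) ∧
      algebraMap k⟮ρ g⟯ Fb (Algebra.norm k⟮ρ g⟯ (ρ y)) * aeval (ρ g) (q.map π)
        = algebraMap k Fb (π c) * aeval (ρ g) (p.map π) := by
  have htrb : Transcendental k (ρ g) := hg.sepb.coord.transcendental
  obtain ⟨hzW, hρz⟩ := ctfs_norm_red G hg y
  set z : F := algebraMap L⟮(g : F)⟯ F (Algebra.norm L⟮(g : F)⟯ (y : F)) with hzdef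
  set zb : Fb := algebraMap k⟮ρ g⟯ Fb (Algebra.norm k⟮ρ g⟯ (ρ y)) with hzbdef
  have hfinb : FiniteDimensional k⟮ρ g⟯ Fb := hg.sepb.coord.finite
  have hzb0 : zb ≠ 0 := by
    rw [hzbdef, Ne, map_eq_zero_iff _ (algebraMap k⟮ρ g⟯ Fb).injective, Algebra.norm_eq_zero_iff]
    exact hy
  have hz0 : z ≠ 0 := by
    intro h0
    apply hzb0
    rw [← hρz]
    have : (⟨z, hzW⟩ : W) = 0 := Subtype.ext h0
    rw [this, map_zero]
  have hzmem : z ∈ L⟮(g : F)⟯ := (Algebra.norm L⟮(g : F)⟯ (y : F)).2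
  obtain ⟨c, p, q, hc0, hp, hq, hrel⟩ := ctr_normal_form G g htrb z hzmem hz0
  -- p(g), q(g) are units of W
  have hρp := ctr_rho_aeval G g p
  have hρq := ctr_rho_aeval G g q
  have hpb0 : aeval (ρ g) (p.map π) ≠ 0 := fun h0 => htrb ⟨_, hp, h0⟩
  have hqb0 : aeval (ρ g) (q.map π) ≠ 0 := fun h0 => htrb ⟨_, hq, h0⟩
  have hpinv : (aeval (g : F) (p.map A.subtype))⁻¹ ∈ W :=
    G.inv_mem_of_rho_ne_zero (x := ⟨_, ctr_aeval_mem G g p⟩) (by rw [hρp]; exact hpb0)
  have hpg0 : aeval (g : F) (p.map A.subtype) ≠ 0 := by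
    intro h0
    apply hpb0
    rw [← hρp]
    have : (⟨aeval (g : F) (p.map A.subtype), ctr_aeval_mem G g p⟩ : W) = 0 := Subtype.ext h0
    rw [this, map_zero]
  -- c ∈ A
  have hcW : algebraMap L F c ∈ W := by
    have : algebraMap L F c = z * aeval (g : F) (q.map A.subtype) *
        (aeval (g : F) (p.map A.subtype))⁻¹ := by
      rw [hrel, mul_assoc, mul_inv_cancel₀ hpg0, mul_one]
    rw [this]
    exact W.mul_mem _ _ (W.mul_mem _ _ hzW (ctr_aeval_mem G g q)) hpinv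
  have hcA : c ∈ A := (G.mem_iff c).mp hcW
  -- the relation in W, then reduce
  have hrelW : (⟨z, hzW⟩ : W) * ⟨_, ctr_aeval_mem G g q⟩ =
      G.cW ⟨c, hcA⟩ * ⟨_, ctr_aeval_mem G g p⟩ := Subtype.ext hrel
  have hrelb := congrArg ρ hrelW
  rw [map_mul, map_mul, hρz, hρp, hρq, G.rho_cW] at hrelb
  refine ⟨⟨c, hcA⟩, p, q, ?_, hp, hq, hrel, hrelb⟩
  intro h0
  rw [h0, map_zero, zero_mul] at hrelb
  exact mul_ne_zero hzb0 hqb0 hrelb

open Classical in
/-- **DISC-FIBRE SUM**, with LEAF N (order of a norm along a fibre, order of `p(g)`) as hypotheses in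
the exact shapes of `ctno_ord_norm` / `ctno_ord_aeval`, upstairs and downstairs. -/
theorem ctfs_fibre_sum_of [IsAlgClosed L] [IsAlgClosed k] (G : ctm_Gauss A π W ρ) {g : W}
    (hg : ctm_Coord L k W ρ g)
    (hNormL : ∀ y : F, y ≠ 0 → ∀ (a : L) (S : Finset (Place L F)),
      (∀ P : Place L F, P ∈ S ↔ P.adicValuation ((g : F) - algebraMap L F a) < 1) →
        ∀ P₀ ∈ S, P₀.ord (algebraMap L⟮(g : F)⟯ F (Algebra.norm L⟮(g : F)⟯ y))
          = P₀.ord ((g : F) - algebraMap L F a) * ∑ P ∈ S, P.ord y)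
    (hAeL : ∀ p : L[X], p ≠ 0 → ∀ (a : L) (P : Place L F),
      P.adicValuation ((g : F) - algebraMap L F a) < 1 →
        P.ord (aeval (g : F) p) = (p.rootMultiplicity a : ℤ) * P.ord ((g : F) - algebraMap L F a))
    (hNormk : ∀ y : Fb, y ≠ 0 → ∀ (a : k) (S : Finset (Place k Fb)),
      (∀ P : Place k Fb, P ∈ S ↔ P.adicValuation (ρ g - algebraMap k Fb a) < 1) →
        ∀ P₀ ∈ S, P₀.ord (algebraMap k⟮ρ g⟯ Fb (Algebra.norm k⟮ρ g⟯ y))
          = P₀.ord (ρ g - algebraMap k Fb a) * ∑ P ∈ S, P.ord y)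
    (hAek : ∀ p : k[X], p ≠ 0 → ∀ (a : k) (P : Place k Fb),
      P.adicValuation (ρ g - algebraMap k Fb a) < 1 →
        P.ord (aeval (ρ g) p) = (p.rootMultiplicity a : ℤ) * P.ord (ρ g - algebraMap k Fb a))
    (y : W) (hy : ρ y ≠ 0) (cb : k)
    (S : Finset (Place L F)) (hS : ∀ P : Place L F, P.ord (y : F) ≠ 0 → P ∈ S)
    (Sb : Finset (Place k Fb)) (hSb : ∀ Q : Place k Fb, Q.ord (ρ y) ≠ 0 → Q ∈ Sb) :
    ∑ P ∈ S.filter (fun P => ctm_valRed A π P (g : F) cb), P.ord (y : F)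
      = ∑ Q ∈ Sb.filter (fun Q => Q.adicValuation (ρ g - algebraMap k Fb cb) < 1),
          Q.ord (ρ y) := by
  obtain ⟨c, p, q, hc, hp, hq, hrel, hrelb⟩ := ctfs_normal_form G hg y hy
  have hy0 : (y : F) ≠ 0 := by
    intro h0
    apply hy
    have : y = 0 := Subtype.ext h0
    rw [this, map_zero]
  have hinj : Function.Injective (A.subtype : A →+* L) := Subtype.val_injective
  have hp0 : p ≠ 0 := by rintro rfl; exact hp (Polynomial.map_zero π)
  have hq0 : q ≠ 0 := by rintro rfl; exact hq (Polynomial.map_zero π)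
  have hpL : p.map A.subtype ≠ 0 := (Polynomial.map_ne_zero_iff hinj).mpr hp0
  have hqL : q.map A.subtype ≠ 0 := (Polynomial.map_ne_zero_iff hinj).mpr hq0
  have hcL : (c : L) ≠ 0 := by
    intro h0
    apply hc
    have : c = 0 := Subtype.ext h0
    rw [this, map_zero]
  -- the fibre sums upstairs and downstairs
  have hup : ∀ a : L, ∑ P ∈ ctfsFibre hg.sep a, P.ord (y : F) =
      ((p.map A.subtype).rootMultiplicity a : ℤ) - ((q.map A.subtype).rootMultiplicity a : ℤ) :=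
    fun a => ctfs_fibre_eq hg.sep (y : F) _ (hNormL (y : F) hy0) hAeL _ _ hpL hqL (c : L) hcL hrel a
  have hdown : ∑ Q ∈ ctfsFibre hg.sepb cb, Q.ord (ρ y) =
      ((p.map π).rootMultiplicity cb : ℤ) - ((q.map π).rootMultiplicity cb : ℤ) :=
    ctfs_fibre_eq hg.sepb (ρ y) _ (hNormk (ρ y) hy) hAek _ _ hp hq (π c) hc hrelb cb
  -- regroup
  obtain ⟨T₀, hT₀⟩ := ctfs_exists_values hg.sep S
  set T : Finset L := T₀ ∪ (p.map A.subtype).roots.toFinset ∪ (q.map A.subtype).roots.toFinset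
    with hTdef
  have hTS : ∀ P ∈ S, ∀ a : L, P.adicValuation ((g : F) - algebraMap L F a) < 1 → a ∈ T := by
    intro P hP a ha
    rw [hTdef, Finset.mem_union, Finset.mem_union]
    exact Or.inl (Or.inl (hT₀ P hP a ha))
  have hTp : ∀ a : L, (p.map A.subtype).IsRoot a → a ∈ T := by
    intro a ha
    rw [hTdef, Finset.mem_union, Finset.mem_union]
    exact Or.inl (Or.inr (Multiset.mem_toFinset.mpr ((Polynomial.mem_roots hpL).mpr ha)))
  have hTq : ∀ a : L, (q.map A.subtype).IsRoot a → a ∈ T := by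
    intro a ha
    rw [hTdef, Finset.mem_union]
    exact Or.inr (Multiset.mem_toFinset.mpr ((Polynomial.mem_roots hqL).mpr ha))
  have hfilter : S.filter (fun P => ctm_valRed A π P (g : F) cb) =
      S.filter (fun P => ∃ a, (∃ ha : a ∈ A, π ⟨a, ha⟩ = cb) ∧
        P.adicValuation ((g : F) - algebraMap L F a) < 1) := by
    apply Finset.filter_congr
    intro P _
    constructor
    · rintro ⟨a, ha, h1, h2⟩
      exact ⟨a, ⟨ha, h1⟩, h2⟩
    · rintro ⟨a, ⟨ha, h1⟩, h2⟩
      exact ⟨a, ha, h1, h2⟩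
  rw [hfilter, ctfs_sum_filter_eq_sum_fibres hg.sep (y : F) S hS _ T hTS,
    ctfs_sum_filter_eq_fibre hg.sepb (ρ y) Sb hSb cb, hdown]
  have h1 := ctp_rootMultiplicity_sum A π G.pi_eq_zero_iff p hp cb T hTp
  have h2 := ctp_rootMultiplicity_sum A π G.pi_eq_zero_iff q hq cb T hTq
  rw [← h1, ← h2, ← Finset.sum_sub_distrib]
  exact Finset.sum_congr (by congr) (fun a _ => hup a)

/-- the same statement for arbitrary decidability instances on the two filters. -/
theorem ctfs_fibre_sum_of' [IsAlgClosed L] [IsAlgClosed k] (G : ctm_Gauss A π W ρ) {g : W}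
    (hg : ctm_Coord L k W ρ g)
    (hNormL : ∀ y : F, y ≠ 0 → ∀ (a : L) (S : Finset (Place L F)),
      (∀ P : Place L F, P ∈ S ↔ P.adicValuation ((g : F) - algebraMap L F a) < 1) →
        ∀ P₀ ∈ S, P₀.ord (algebraMap L⟮(g : F)⟯ F (Algebra.norm L⟮(g : F)⟯ y))
          = P₀.ord ((g : F) - algebraMap L F a) * ∑ P ∈ S, P.ord y)
    (hAeL : ∀ p : L[X], p ≠ 0 → ∀ (a : L) (P : Place L F),
      P.adicValuation ((g : F) - algebraMap L F a) < 1 →
        P.ord (aeval (g : F) p) = (p.rootMultiplicity a : ℤ) * P.ord ((g : F) - algebraMap L F a))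
    (hNormk : ∀ y : Fb, y ≠ 0 → ∀ (a : k) (S : Finset (Place k Fb)),
      (∀ P : Place k Fb, P ∈ S ↔ P.adicValuation (ρ g - algebraMap k Fb a) < 1) →
        ∀ P₀ ∈ S, P₀.ord (algebraMap k⟮ρ g⟯ Fb (Algebra.norm k⟮ρ g⟯ y))
          = P₀.ord (ρ g - algebraMap k Fb a) * ∑ P ∈ S, P.ord y)
    (hAek : ∀ p : k[X], p ≠ 0 → ∀ (a : k) (P : Place k Fb),
      P.adicValuation (ρ g - algebraMap k Fb a) < 1 →
        P.ord (aeval (ρ g) p) = (p.rootMultiplicity a : ℤ) * P.ord (ρ g - algebraMap k Fb a))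
    (y : W) (hy : ρ y ≠ 0) (cb : k)
    (S : Finset (Place L F)) (hS : ∀ P : Place L F, P.ord (y : F) ≠ 0 → P ∈ S)
    (Sb : Finset (Place k Fb)) (hSb : ∀ Q : Place k Fb, Q.ord (ρ y) ≠ 0 → Q ∈ Sb)
    [DecidablePred fun P : Place L F => ctm_valRed A π P (g : F) cb]
    [DecidablePred fun Q : Place k Fb => Q.adicValuation (ρ g - algebraMap k Fb cb) < 1] :
    ∑ P ∈ S.filter (fun P => ctm_valRed A π P (g : F) cb), P.ord (y : F)
      = ∑ Q ∈ Sb.filter (fun Q => Q.adicValuation (ρ g - algebraMap k Fb cb) < 1),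
          Q.ord (ρ y) := by
  have h := ctfs_fibre_sum_of G hg hNormL hAeL hNormk hAek y hy cb S hS Sb hSb
  convert h using 2 <;> congr

open Classical in
/-- **DISC-FIBRE SUM** (helper4's exact target): for a good coordinate `g` and `y ∈ W` with `ρ y ≠ 0`,
the sum of `ord_P y` over the points `P` (of a finset containing the support of `div y`) with
`g(P) ∈ A` reducing to `cb` equals the sum of `ord_Q (ρ y)` over the points `Q` with `(ρ g)(Q) = cb`. -/
theorem ctfs_fibre_sum [IsAlgClosed L] [IsAlgClosed k] (G : ctm_Gauss A π W ρ) {g : W}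
    (hg : ctm_Coord L k W ρ g) (y : W) (hy : ρ y ≠ 0) (cb : k)
    (S : Finset (Place L F)) (hS : ∀ P : Place L F, P.ord (y : F) ≠ 0 → P ∈ S)
    (Sb : Finset (Place k Fb)) (hSb : ∀ Q : Place k Fb, Q.ord (ρ y) ≠ 0 → Q ∈ Sb) :
    ∑ P ∈ S.filter (fun P => ctm_valRed A π P (g : F) cb), P.ord (y : F)
      = ∑ Q ∈ Sb.filter (fun Q => Q.adicValuation (ρ g - algebraMap k Fb cb) < 1),
          Q.ord (ρ y) :=
  ctfs_fibre_sum_of G hg
    (fun y hy a S hS P₀ hP₀ => ctno_ord_norm hg.sep y hy a S hS P₀ hP₀)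
    (fun p hp a P hP => ctno_ord_aeval (g : F) p hp a P hP)
    (fun y hy a S hS P₀ hP₀ => ctno_ord_norm hg.sepb y hy a S hS P₀ hP₀)
    (fun p hp a P hP => ctno_ord_aeval (ρ g) p hp a P hP)
    y hy cb S hS Sb hSb

/-- `ctfs_fibre_sum` for arbitrary decidability instances on the two filters. -/
theorem ctfs_fibre_sum' [IsAlgClosed L] [IsAlgClosed k] (G : ctm_Gauss A π W ρ) {g : W}
    (hg : ctm_Coord L k W ρ g) (y : W) (hy : ρ y ≠ 0) (cb : k)
    (S : Finset (Place L F)) (hS : ∀ P : Place L F, P.ord (y : F) ≠ 0 → P ∈ S)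
    (Sb : Finset (Place k Fb)) (hSb : ∀ Q : Place k Fb, Q.ord (ρ y) ≠ 0 → Q ∈ Sb)
    [DecidablePred fun P : Place L F => ctm_valRed A π P (g : F) cb]
    [DecidablePred fun Q : Place k Fb => Q.adicValuation (ρ g - algebraMap k Fb cb) < 1] :
    ∑ P ∈ S.filter (fun P => ctm_valRed A π P (g : F) cb), P.ord (y : F)
      = ∑ Q ∈ Sb.filter (fun Q => Q.adicValuation (ρ g - algebraMap k Fb cb) < 1),
          Q.ord (ρ y) :=
  ctfs_fibre_sum_of' G hg
    (fun y hy a S hS P₀ hP₀ => ctno_ord_norm hg.sep y hy a S hS P₀ hP₀)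
    (fun p hp a P hP => ctno_ord_aeval (g : F) p hp a P hP)
    (fun y hy a S hS P₀ hP₀ => ctno_ord_norm hg.sepb y hy a S hS P₀ hP₀)
    (fun p hp a P hP => ctno_ord_aeval (ρ g) p hp a P hP)
    y hy cb S hS Sb hSb

end Main




end Fermat.Agent.S37x
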