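/-
S37 project, block R = [B1], TWIN of LEAF D = C4 (helper90, prefix `ctgb_`; insurance twin of helper27's
`ctg_good`, assigned by helper4).

For `u ∈ W` integral over `L[J]` and `T` large, `g = J^T + c·u` (`c ∈ A`, `π c` outside a finite set) is a GOOD
coordinate: a `ctm_Coord` (separating upstairs and downstairs, same degree), places outside the chart `J` stay
outside the chart `g`, and poles of `ρ J` are poles of `ρ g`.

Self-contained: the two generic sub-leaves (degree of a function with polar divisor `T·(t)_∞`, separability of the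
pencil `t^T + c·u`) are proved here as `ctgb_cdeg_pow`, `ctgb_sep_family`.
-/
import Mathlib
import Fermat.Agent.S37x.CtmGlue
import Fermat.Agent.S18x.PlsKaehler

set_option autoImplicit false

namespace Fermat.Agent.S37x

open AlgebraicCurve IsDedekindDomain IntermediateField Fermat.Agent.S18x Fermat.Agent.S24x
open KaehlerDifferential

section Generic

variable {K E : Type*} [Field K] [Field E] [Algebra K E]

/-- `val < 1 ↔ ord > 0` for nonzero functions. -/
theorem ctgb_val_lt_one_iff (P : Place K E) {f : E} (hf : f ≠ 0) :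
    P.adicValuation f < 1 ↔ 0 < P.ord f := by
  rw [P.adicValuation_eq_exp_neg_ord hf, ← WithZero.exp_zero, WithZero.exp_lt_exp]
  omega

/-- `val = 1 → ord = 0`. -/
theorem ctgb_ord_eq_zero_of_val (P : Place K E) {f : E} (h : P.adicValuation f = 1) :
    P.ord f = 0 := by
  unfold Place.ord
  rw [h]
  simp

/-- **(C4c)** a separating coordinate `g` whose polar divisor is `T` times that of `t` has degree
`T · deg t`. -/
theorem ctgb_cdeg_pow [IsAlgClosed K] {t g : E} (ht : pls_IsSepCoordinate K E t)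
    (hg : pls_IsSepCoordinate K E g) (T : ℕ) (hT : 1 ≤ T)
    (hpole : ∀ P : Place K E, P.ord t < 0 → P.ord g = T * P.ord t)
    (hreg : ∀ P : Place K E, 0 ≤ P.ord t → 0 ≤ P.ord g) :
    cdeg K E g = T * cdeg K E t := by
  classical
  obtain ⟨hft, hst⟩ := pls_sum_ord_polePlaces ht
  obtain ⟨hfg, hsg⟩ := pls_sum_ord_polePlaces hg
  have hset : polePlaces K E g = polePlaces K E t := by
    ext P
    simp only [polePlaces, Set.mem_ofPred_eq]
    constructor
    · intro h
      by_contra h'
      rw [not_lt] at h'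
      have := hreg P h'
      omega
    · intro h
      rw [hpole P h]
      have hT' : (1 : ℤ) ≤ T := by exact_mod_cast hT
      nlinarith
  have hfin : hfg.toFinset = hft.toFinset := by
    ext P
    rw [Set.Finite.mem_toFinset, Set.Finite.mem_toFinset, hset]
  have key : (cdeg K E g : ℤ) = T * cdeg K E t := by
    rw [← hsg, ← hst, Finset.mul_sum, hfin]
    apply Finset.sum_congr rfl
    intro P hP
    rw [Set.Finite.mem_toFinset] at hP
    rw [hpole P hP]
    ring
  exact_mod_cast key

/-- **(C4d)** all but finitely many members of the pencil `t^T + c·u` are separating coordinates. -/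
theorem ctgb_sep_family [IsAlgClosed K] {t : E} (ht : pls_IsSepCoordinate K E t) (u : E) (T : ℕ)
    (hT : (T : K) ≠ 0) :
    ∃ S : Finset K, ∀ c ∉ S, pls_IsSepCoordinate K E (t ^ T + algebraMap K E c * u) := by
  classical
  have ht0 : t ≠ 0 := by
    rintro rfl
    exact ht.coord.transcendental isAlgebraic_zero
  have hTE : (T : E) ≠ 0 := by
    have : (T : E) = algebraMap K E (T : K) := (map_natCast (algebraMap K E) T).symm
    rw [this]
    exact (map_ne_zero_iff _ (algebraMap K E).injective).mpr hT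
  have hDform : ∀ c : K, D K E (t ^ T + algebraMap K E c * u)
      = D K E (t ^ T) + algebraMap K E c • D K E u := by
    intro c
    rw [map_add, Derivation.leibniz, Derivation.map_algebraMap, smul_zero, add_zero]
  have hDpow : D K E (t ^ T) ≠ 0 := by
    rw [Derivation.leibniz_pow]
    intro h
    have hT1 : T ≠ 0 := by
      rintro rfl
      simp at hT
    rw [← Nat.cast_smul_eq_nsmul E, smul_smul] at h
    rcases smul_eq_zero.mp h with h | h
    · exact mul_ne_zero hTE (pow_ne_zero _ ht0) h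
    · exact pls_kd_D_ne_zero t ht h
  by_cases hex : ∃ c0 : K, D K E (t ^ T + algebraMap K E c0 * u) = 0
  · obtain ⟨c0, hc0⟩ := hex
    refine ⟨{c0}, fun c hc => pls_isSepCoordinate_of_D_ne_zero ht ?_⟩
    rw [Finset.mem_singleton] at hc
    intro h
    rw [hDform] at h hc0
    have hsub : algebraMap K E (c - c0) • D K E u = 0 := by
      rw [map_sub, sub_smul]
      have := congrArg₂ (· - ·) h hc0
      simpa using this
    have hcc : algebraMap K E (c - c0) ≠ 0 :=
      (map_ne_zero_iff _ (algebraMap K E).injective).mpr (sub_ne_zero.mpr hc)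
    have hDu : D K E u = 0 := (smul_eq_zero.mp hsub).resolve_left hcc
    rw [hDu, smul_zero, add_zero] at h
    exact hDpow h
  · refine ⟨∅, fun c _ => pls_isSepCoordinate_of_D_ne_zero ht ?_⟩
    intro h
    exact hex ⟨c, h⟩

/-- value of a sum -/
theorem ctgb_value_add (P : Place K E) {u v : E} {a c : K}
    (hu : P.adicValuation (u - algebraMap K E a) < 1)
    (hv : P.adicValuation (v - algebraMap K E c) < 1) :
    P.adicValuation (u + v - algebraMap K E (a + c)) < 1 := by
  have h : u + v - algebraMap K E (a + c) = (u - algebraMap K E a) + (v - algebraMap K E c) := by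
    rw [map_add]; ring
  rw [h]
  exact lt_of_le_of_lt (Valuation.map_add _ _ _) (max_lt hu hv)

/-- value of a constant -/
theorem ctgb_value_const (P : Place K E) (a : K) :
    P.adicValuation (algebraMap K E a - algebraMap K E a) < 1 := by
  rw [sub_self, map_zero]
  exact zero_lt_one

/-- **pole orders**: if `g·x^T = 1 + c·w·x` with `x = j⁻¹` and `w` integral over `K[x]`, then at every pole of `j`
`ord g = T · ord j`. -/
theorem ctgb_ord_at_pole (P : Place K E) {j x g w : E} {T : ℕ} (c : K) (hjx : j * x = 1)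
    (hid : g * x ^ T = 1 + algebraMap K E c * w * x)
    (hw : IsIntegral (Algebra.adjoin K {x}) w) (hP : P.ord j < 0) :
    P.ord g = T * P.ord j := by
  have hj0 : j ≠ 0 := left_ne_zero_of_mul_eq_one hjx
  have hx0 : x ≠ 0 := right_ne_zero_of_mul_eq_one hjx
  have hx : x = j⁻¹ := eq_inv_of_mul_eq_one_right hjx
  have hordx : P.ord x = -P.ord j := by rw [hx, P.ord_inv]
  have hxpos : 0 < P.ord x := by omega
  have hvx : P.adicValuation x < 1 := (ctgb_val_lt_one_iff P hx0).mpr hxpos
  have hwreg : 0 ≤ P.ord w := ged_ord_of_isIntegral hw P hxpos.le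
  have hvw : P.adicValuation w ≤ 1 := (ged_ord_nonneg_iff P w).mp hwreg
  have hsmall : P.adicValuation (g * x ^ T - algebraMap K E 1) < 1 := by
    rw [hid, map_one, add_sub_cancel_left, map_mul, map_mul]
    calc P.adicValuation (algebraMap K E c) * P.adicValuation w * P.adicValuation x
        ≤ 1 * 1 * P.adicValuation x :=
          mul_le_mul' (mul_le_mul' (P.adicValuation_algebraMap_le_one c) hvw) le_rfl
      _ < 1 := by rw [one_mul, one_mul]; exact hvx
  have hval1 : P.adicValuation (g * x ^ T) = 1 := ctm_val_eq_one_of_value P one_ne_zero hsmall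
  have hg0 : g ≠ 0 := by
    rintro rfl
    rw [zero_mul, map_zero] at hval1
    exact zero_ne_one hval1
  have hord0 : P.ord (g * x ^ T) = 0 := ctgb_ord_eq_zero_of_val P hval1
  rw [P.ord_mul hg0 (pow_ne_zero _ hx0), ctm_ord_pow, hordx] at hord0
  linarith

/-- regular part: `g = j^T + c·u` with `u` integral over `K[j]` is regular where `j` is. -/
theorem ctgb_ord_regular (P : Place K E) {j g u : E} {T : ℕ} (c : K)
    (hg : g = j ^ T + algebraMap K E c * u) (hu : IsIntegral (Algebra.adjoin K {j}) u)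
    (hP : 0 ≤ P.ord j) : 0 ≤ P.ord g := by
  have hj : j ∈ P.toValuationSubring := fid_mem_of_ord_nonneg P hP
  have hu' : u ∈ P.toValuationSubring := ctm_mem_of_isIntegral P hj hu
  have hgm : g ∈ P.toValuationSubring := by
    rw [hg]
    exact P.toValuationSubring.add_mem _ _ (pow_mem hj T)
      (P.toValuationSubring.mul_mem _ _ (P.algebraMap_mem' c) hu')
  exact fid_ord_nonneg_of_mem P hgm

end Generic

section Main

variable {L k F Fb : Type*} [Field L] [Field k] [Field F] [Field Fb] [Algebra L F] [Algebra k Fb]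
variable {A : ValuationSubring L} {π : A →+* k} {W : ValuationSubring F} {ρ : W →+* Fb}

/-- **LEAF D = (C4), twin**: `g = J^T + c·u` is a good coordinate for `T` large and `π c` outside a finite set. -/
theorem ctgb_good [IsAlgClosed L] [IsAlgClosed k] [CharZero L] (G : ctm_Gauss A π W ρ) (J Jinv : W)
    (hJJ : J * Jinv = 1) (hJ : ctm_Coord L k W ρ J)
    (hF0 : ctm_Fact0 k A ρ J) (hFinf : ctm_Fact0 k A ρ Jinv) (u : W)
    (hu : IsIntegral (Algebra.adjoin L {(J : F)}) (u : F)) :
    ∃ T₀ : ℕ, ∀ T : ℕ, T₀ ≤ T → (T : k) ≠ 0 → ∃ E : Finset k, ∀ c : A, π c ∉ E →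
      ctm_Coord L k W ρ (J ^ T + G.cW c * u) ∧
      (∀ P : Place L F, ¬ ctm_valIn A P (J : F) →
        ¬ ctm_valIn A P ((J ^ T + G.cW c * u : W) : F)) ∧
      (∀ Q : Place k Fb, Q.ord (ρ J) < 0 → Q.ord (ρ (J ^ T + G.cW c * u)) < 0) := by
  classical
  have h1 : (J : F) * (Jinv : F) = 1 := by
    have := congrArg Subtype.val hJJ
    simpa using this
  have hx : (Jinv : F) = ((J : F))⁻¹ := eq_inv_of_mul_eq_one_right h1
  have hxinv : ((Jinv : F))⁻¹ = (J : F) := by rw [hx, inv_inv]
  have h1b : ρ J * ρ Jinv = 1 := by rw [← map_mul, hJJ, map_one]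
  have hsepinv : pls_IsSepCoordinate L F (Jinv : F) := by
    rw [hx]; exact pls_isSepCoordinate_inv hJ.sep
  obtain ⟨M, hM⟩ := ctm_exists_pow_integral (J := (Jinv : F)) hsepinv (u' := (u : F))
    (by rw [hxinv]; exact hu)
  refine ⟨M + 1, fun T hT hTk => ?_⟩
  have hT1 : 1 ≤ T := by omega
  have hTL : (T : L) ≠ 0 := by
    have : T ≠ 0 := by omega
    exact_mod_cast this
  -- `w = u · Jinv^(T-1)` is integral over `L[Jinv]`
  set w : W := u * Jinv ^ (T - 1) with hw
  have hwF : (w : F) = (u : F) * (Jinv : F) ^ (T - 1) := by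
    rw [hw]; push_cast; rfl
  have hwint : IsIntegral (Algebra.adjoin L {(Jinv : F)}) (w : F) := by
    have : (w : F) = ((u : F) * (Jinv : F) ^ M) * (Jinv : F) ^ (T - 1 - M) := by
      rw [hwF, mul_assoc, ← pow_add]
      congr 2
      omega
    rw [this]
    refine IsIntegral.mul hM (IsIntegral.pow ?_ _)
    exact isIntegral_algebraMap
      (x := (⟨(Jinv : F), Algebra.self_mem_adjoin_singleton L _⟩ : Algebra.adjoin L {(Jinv : F)}))
  obtain ⟨EL, hEL⟩ := ctgb_sep_family hJ.sep (u : F) T hTL
  obtain ⟨Ek, hEk⟩ := ctgb_sep_family hJ.sepb (ρ u) T hTk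
  refine ⟨Ek ∪ (EL.subtype (fun a => a ∈ A)).image π, fun c hc => ?_⟩
  have hcL : (c : L) ∉ EL := by
    intro h
    apply hc
    apply Finset.mem_union_right
    rw [Finset.mem_image]
    exact ⟨⟨(c : L), c.2⟩, Finset.mem_subtype.mpr h, rfl⟩
  have hck : π c ∉ Ek := fun h => hc (Finset.mem_union_left _ h)
  set g : W := J ^ T + G.cW c * u with hg
  have hgF : (g : F) = (J : F) ^ T + algebraMap L F (c : L) * (u : F) := by
    rw [hg]; push_cast; rfl
  have hgb : ρ g = (ρ J) ^ T + algebraMap k Fb (π c) * ρ u := by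
    rw [hg, map_add, map_pow, map_mul, G.rho_cW]
  have hsepU : pls_IsSepCoordinate L F (g : F) := by rw [hgF]; exact hEL _ hcL
  have hsepD : pls_IsSepCoordinate k Fb (ρ g) := by rw [hgb]; exact hEk _ hck
  have hpowT : (Jinv : F) ^ T = (Jinv : F) ^ (T - 1) * (Jinv : F) := by
    rw [← pow_succ]; congr 1; omega
  have hidU : (g : F) * (Jinv : F) ^ T = 1 + algebraMap L F (c : L) * (w : F) * (Jinv : F) := by
    rw [hgF, hwF, add_mul, ← mul_pow, h1, one_pow, hpowT]
    ring
  have hidW : g * Jinv ^ T = 1 + G.cW c * w * Jinv := by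
    apply Subtype.ext
    push_cast
    exact hidU
  have hidD : ρ g * (ρ Jinv) ^ T = 1 + algebraMap k Fb (π c) * ρ w * ρ Jinv := by
    rw [← map_pow, ← map_mul, hidW, map_add, map_one, map_mul, map_mul, G.rho_cW]
  have hwintD : IsIntegral (Algebra.adjoin k {ρ Jinv}) (ρ w) := hFinf.rho w hwint
  have huD : IsIntegral (Algebra.adjoin k {ρ J}) (ρ u) := hF0.rho u hu
  have hpoleU : ∀ P : Place L F, P.ord (J : F) < 0 → P.ord (g : F) = T * P.ord (J : F) :=
    fun P hP => ctgb_ord_at_pole P (c : L) h1 hidU hwint hP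
  have hregU : ∀ P : Place L F, 0 ≤ P.ord (J : F) → 0 ≤ P.ord (g : F) :=
    fun P hP => ctgb_ord_regular P (c : L) hgF hu hP
  have hpoleD : ∀ Q : Place k Fb, Q.ord (ρ J) < 0 → Q.ord (ρ g) = T * Q.ord (ρ J) :=
    fun Q hQ => ctgb_ord_at_pole Q (π c) h1b hidD hwintD hQ
  have hregD : ∀ Q : Place k Fb, 0 ≤ Q.ord (ρ J) → 0 ≤ Q.ord (ρ g) :=
    fun Q hQ => ctgb_ord_regular Q (π c) hgb huD hQ
  have hdegU := ctgb_cdeg_pow hJ.sep hsepU T hT1 hpoleU hregU
  have hdegD := ctgb_cdeg_pow hJ.sepb hsepD T hT1 hpoleD hregD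
  refine ⟨⟨hsepU, hsepD, by rw [hdegU, hdegD, hJ.deg]⟩, ?_, ?_⟩
  · intro P hnot hval
    rcases ctm_valIn_or G hJJ hJ.sep P with h | h
    · exact hnot h
    obtain ⟨ξ, hξA, hπξ, hvξ⟩ := h
    obtain ⟨b, hbA, hvb⟩ := hFinf.val w hwint P ⟨ξ, hξA, hvξ⟩
    obtain ⟨a, haA, hva⟩ := hval
    have hv1 := ctm_value_mul P hva (ctm_value_pow P hvξ T)
    have hone : P.adicValuation ((1 : F) - algebraMap L F 1) < 1 := by
      rw [map_one, sub_self, map_zero]; exact zero_lt_one
    have hv2 := ctgb_value_add P hone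
      (ctm_value_mul P (ctm_value_mul P (ctgb_value_const P (c : L)) hvb) hvξ)
    rw [hidU] at hv1
    have heq : a * ξ ^ T = 1 + (c : L) * b * ξ := ctm_value_unique P hv1 hv2
    have heqA : (⟨a, haA⟩ : A) * (⟨ξ, hξA⟩ : A) ^ T = 1 + c * ⟨b, hbA⟩ * ⟨ξ, hξA⟩ := by
      apply Subtype.ext
      push_cast
      exact heq
    have := congrArg π heqA
    rw [map_mul, map_pow, map_add, map_one, map_mul, map_mul, hπξ, zero_pow (by omega), mul_zero,
      mul_zero, add_zero] at this
    exact zero_ne_one this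
  · intro Q hQ
    rw [hpoleD Q hQ]
    have hT' : (1 : ℤ) ≤ T := by exact_mod_cast hT1
    nlinarith

end Main

end Fermat.Agent.S37x
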