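/-
S37 prep, block [B1] (captain helper4), sub-leaf C4c (helper21, prefix `ctgd_`):
**degree of a function whose polar divisor is `T` times the polar divisor of a coordinate.**

`K` algebraically closed, `t g : F` separating coordinates of the function field `F / K`.  If
`ord_P g = T * ord_P t` at every pole `P` of `t` and `g` is regular wherever `t` is, then
`[F : K(g)] = T * [F : K(t)]`.

Proof: the polar divisor of `g` is `T •` the polar divisor of `t` and the degree of the polar
divisor of a separating coordinate is its degree (`glu_degree_polar_eq_cdeg`, S18x/GlueNrm).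
-/
import Mathlib
import Fermat.Agent.S18x.GlueNrm

set_option autoImplicit false

namespace Fermat.Agent.S37x

open AlgebraicCurve Fermat.Agent.S18x Fermat.Agent.S24x

variable {K F : Type*} [Field K] [Field F] [Algebra K F]

/-- a separating coordinate is nonzero. -/
theorem ctgd_ne_zero {t : F} (ht : pls_IsSepCoordinate K F t) : t ≠ 0 := by
  intro h0
  exact ht.coord.transcendental (h0 ▸ isAlgebraic_zero)

/-- the polar divisor of `g` is `T •` the polar divisor of `t`. -/
theorem ctgd_polar_nsmul {t g : F} (T : ℕ)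
    (hpole : ∀ P : Place K F, P.ord t < 0 → P.ord g = T * P.ord t)
    (hreg : ∀ P : Place K F, 0 ≤ P.ord t → 0 ≤ P.ord g)
    {Bt : Divisor K F} (hBt : nl_IsPolar t Bt) : nl_IsPolar g (T • Bt) := by
  intro P
  rw [nl_nsmul_apply, hBt P]
  rcases lt_or_ge (P.ord t) 0 with h | h
  · rw [hpole P h, max_eq_left (by omega)]
    have hT : (0 : ℤ) ≤ T := Int.natCast_nonneg T
    rw [max_eq_left (by nlinarith)]
    ring
  · have hg := hreg P h
    rw [max_eq_right (by omega), max_eq_right (by omega), mul_zero]

/-- **C4c**: `[F : K(g)] = T * [F : K(t)]`. -/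
theorem ctgd_cdeg_pow [IsAlgClosed K] {t g : F} (ht : pls_IsSepCoordinate K F t)
    (hg : pls_IsSepCoordinate K F g) (T : ℕ)
    (hpole : ∀ P : Place K F, P.ord t < 0 → P.ord g = T * P.ord t)
    (hreg : ∀ P : Place K F, 0 ≤ P.ord t → 0 ≤ P.ord g) :
    cdeg K F g = T * cdeg K F t := by
  obtain ⟨Dt, hDt⟩ := pls_hpd ht t (ctgd_ne_zero ht)
  obtain ⟨Bt, hBt⟩ := nl_exists_polar t Dt hDt
  have hBg : nl_IsPolar g (T • Bt) := ctgd_polar_nsmul T hpole hreg hBt
  have h1 := glu_degree_polar_eq_cdeg ht Bt hBt
  have h2 := glu_degree_polar_eq_cdeg hg (T • Bt) hBg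
  rw [map_nsmul, h1, nsmul_eq_mul] at h2
  exact_mod_cast h2.symm

end Fermat.Agent.S37x
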