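/-
S37 project, block R = [B1], LEAF D = (C4), final form (helper27, prefix `ctg_`): goodness of
`g = J ^ T + c * u` with the FACT 0 inputs as the hypothesis bundles `ctm_Fact0 k A ρ J`,
`ctm_Fact0 k A ρ Jinv` of `CtmCentre.lean` (the shape requested by the [B1] captain helper4).
Same proof as `ctg_good_of_fact0` (`CtmGood.lean`), which quantifies the FACT 0 statements over all charts.
-/
import Mathlib
import Fermat.Agent.S37x.CtmGood
import Fermat.Agent.S37x.CtmCentre

set_option autoImplicit false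

namespace Fermat.Agent.S37x

open AlgebraicCurve Fermat.Agent.S18x Fermat.Agent.S24x IntermediateField Polynomial

section Main

open KaehlerDifferential

variable {L k F Fb : Type*} [Field L] [Field k] [Field F] [Field Fb] [Algebra L F] [Algebra k Fb]
variable {A : ValuationSubring L} {π : A →+* k} {W : ValuationSubring F} {ρ : W →+* Fb}

theorem ctg_good_of_bundle [IsAlgClosed L] [IsAlgClosed k] [CharZero L] (G : ctm_Gauss A π W ρ)
    (J Jinv : W) (hJJ : J * Jinv = 1) (hJ : ctm_Coord L k W ρ J)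
    (hF0 : ctm_Fact0 k A ρ J) (hFinf : ctm_Fact0 k A ρ Jinv) (u : W)
    (hu : IsIntegral (Algebra.adjoin L {(J : F)}) (u : F)) :
    ∃ T₀ : ℕ, ∀ T : ℕ, T₀ ≤ T → (T : k) ≠ 0 → ∃ E : Finset k, ∀ c : A, π c ∉ E →
      ctm_Coord L k W ρ (J ^ T + G.cW c * u) ∧
      (∀ P : Place L F, ¬ ctm_valIn A P (J : F) →
        ¬ ctm_valIn A P ((J ^ T + G.cW c * u : W) : F)) ∧
      (∀ Q : Place k Fb, Q.ord (ρ J) < 0 → Q.ord (ρ (J ^ T + G.cW c * u)) < 0) := by
  classical
  -- notation
  have hx : ctm_Coord L k W ρ Jinv := hJ.inv hJJ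
  have hJxF : (J : F) * (Jinv : F) = 1 := by
    have := congrArg Subtype.val hJJ
    simpa using this
  have hJxb : ρ J * ρ Jinv = 1 := by rw [← map_mul, hJJ, map_one]
  obtain ⟨T₀', hT₀'⟩ := ctg_exists_T0 hJxF hJ.sep hu
  refine ⟨T₀' + 1, fun T hT hTk => ?_⟩
  have hT1 : 1 ≤ T := by omega
  -- `w = u x^(T-1)` is integral over `L[x]`
  set w : W := u * Jinv ^ (T - 1) with hw
  have hwF : (w : F) = (u : F) * (Jinv : F) ^ (T - 1) := by
    rw [hw]; push_cast; rfl
  have hwint : IsIntegral (Algebra.adjoin L {(Jinv : F)}) (w : F) := by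
    rw [hwF]; exact hT₀' (T - 1) (by omega)
  -- downstairs
  have hub : IsIntegral (Algebra.adjoin k {ρ J}) (ρ u) := hF0.rho u hu
  have hwb : IsIntegral (Algebra.adjoin k {ρ Jinv}) (ρ u * ρ Jinv ^ (T - 1)) := by
    have := hFinf.rho w hwint
    rwa [hw, map_mul, map_pow] at this
  have hjb0 : ρ J ≠ 0 := left_ne_zero_of_mul_eq_one hJxb
  -- differentials downstairs
  have hDj : D k Fb (ρ J) ≠ 0 := pls_kd_D_ne_zero (ρ J) hJ.sepb
  obtain ⟨h, hh⟩ := pls_kd_span_of_ne_zero (ρ J) hJ.sepb hDj (D k Fb (ρ u))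
  have hTFb : (T : Fb) ≠ 0 := by
    rw [← map_natCast (algebraMap k Fb)]
    exact (map_ne_zero_iff _ (algebraMap k Fb).injective).mpr hTk
  have hTjb : (T : Fb) * ρ J ^ (T - 1) ≠ 0 := mul_ne_zero hTFb (pow_ne_zero _ hjb0)
  -- the bad set
  set S : Set k := {cb : k | (T : Fb) * ρ J ^ (T - 1) + algebraMap k Fb cb * h = 0} with hS
  have hSsub : S.Subsingleton := by
    intro c₁ h₁ c₂ h₂
    rw [hS] at h₁ h₂
    change _ = _ at h₁
    change _ = _ at h₂
    have h0 : h ≠ 0 := by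
      intro h0
      rw [h0, mul_zero, add_zero] at h₁
      exact hTjb h₁
    have h3 : (algebraMap k Fb c₁ - algebraMap k Fb c₂) * h = 0 := by
      have : algebraMap k Fb c₁ * h = algebraMap k Fb c₂ * h := by
        rw [← add_right_inj ((T : Fb) * ρ J ^ (T - 1)), h₁, h₂]
      rw [sub_mul, this, sub_self]
    have h4 : algebraMap k Fb c₁ - algebraMap k Fb c₂ = 0 :=
      (mul_eq_zero.mp h3).resolve_right h0
    exact (algebraMap k Fb).injective (sub_eq_zero.mp h4)
  refine ⟨hSsub.finite.toFinset, fun c hc => ?_⟩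
  rw [Set.Finite.mem_toFinset] at hc
  -- the function `g`
  set g : W := J ^ T + G.cW c * u with hg
  have hgF : (g : F) = (J : F) ^ T + algebraMap L F (c : L) * (u : F) := by
    rw [hg]; push_cast; rfl
  have hgb : ρ g = ρ J ^ T + algebraMap k Fb (π c) * ρ u := by
    rw [hg, map_add, map_pow, map_mul, G.rho_cW]
  -- upstairs: poles
  have hureg := (nrd_regular_iff hJ.sep (u : F)).mpr hu
  have hwreg := (nrd_regular_iff hx.sep (w : F)).mpr hwint
  have hpoleU : ∀ P : Place L F, P.ord (J : F) < 0 → P.ord (g : F) = T * P.ord (J : F) := by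
    intro P hP
    rw [hgF]
    refine ctg_ord_pole P hJxF hT1 (c : L) ?_ hP
    rw [← hwF]
    refine hwreg P ?_
    have : (Jinv : F) = ((J : F))⁻¹ := eq_inv_of_mul_eq_one_right hJxF
    rw [this, P.ord_inv]; omega
  have hregU : ∀ P : Place L F, 0 ≤ P.ord (J : F) → 0 ≤ P.ord (g : F) := by
    intro P hP
    rw [hgF]
    exact ctg_ord_reg P T (c : L) (hureg P hP) hP
  -- downstairs: poles
  have hubreg := (nrd_regular_iff hJ.sepb (ρ u)).mpr hub
  have hwbreg := (nrd_regular_iff hx.sepb (ρ u * ρ Jinv ^ (T - 1))).mpr hwb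
  have hpoleD : ∀ Q : Place k Fb, Q.ord (ρ J) < 0 → Q.ord (ρ g) = T * Q.ord (ρ J) := by
    intro Q hQ
    rw [hgb]
    refine ctg_ord_pole Q hJxb hT1 (π c) ?_ hQ
    refine hwbreg Q ?_
    have : ρ Jinv = (ρ J)⁻¹ := eq_inv_of_mul_eq_one_right hJxb
    rw [this, Q.ord_inv]; omega
  have hregD : ∀ Q : Place k Fb, 0 ≤ Q.ord (ρ J) → 0 ≤ Q.ord (ρ g) := by
    intro Q hQ
    rw [hgb]
    exact ctg_ord_reg Q T (π c) (hubreg Q hQ) hQ
  -- upstairs: `g` is a separating coordinate
  have hgsep : pls_IsSepCoordinate L F (g : F) := by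
    obtain ⟨P, hP⟩ := pls_exists_pole hJ.sep
    have hPg : P.ord (g : F) < 0 := by
      rw [hpoleU P hP]
      have hT' : (0 : ℤ) < (T : ℤ) := by exact_mod_cast hT1
      exact mul_neg_of_pos_of_neg hT' hP
    exact pls_isSepCoordinate_of_charZero
      (isCoordinate_of_transcendental hJ.sep.coord (ctg_transcendental_of_pole P hPg))
  -- downstairs: `ρ g` is a separating coordinate
  have hgbsep : pls_IsSepCoordinate k Fb (ρ g) := by
    refine pls_isSepCoordinate_of_D_ne_zero hJ.sepb ?_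
    have hD : D k Fb (ρ g) = ((T : Fb) * ρ J ^ (T - 1) + algebraMap k Fb (π c) * h) • D k Fb (ρ J) := by
      have e1 : (T : ℕ) • (ρ J ^ (T - 1) • D k Fb (ρ J)) =
          ((T : Fb) * ρ J ^ (T - 1)) • D k Fb (ρ J) := by
        rw [← Nat.cast_smul_eq_nsmul Fb, smul_smul]
      have e2 : (π c) • (h • D k Fb (ρ J)) = (algebraMap k Fb (π c) * h) • D k Fb (ρ J) := by
        rw [← algebraMap_smul Fb (π c), smul_smul]
      rw [hgb, map_add, Derivation.leibniz_pow, ← Algebra.smul_def, Derivation.map_smul, hh, e1, e2,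
        add_smul]
    rw [hD]
    intro h0
    rcases smul_eq_zero.mp h0 with h1 | h1
    · exact hc h1
    · exact hDj h1
  refine ⟨⟨hgsep, hgbsep, ?_⟩, ?_, ?_⟩
  · rw [ctg_cdeg_eq hJ.sep hgsep hT1 hpoleU hregU, ctg_cdeg_eq hJ.sepb hgbsep hT1 hpoleD hregD,
      hJ.deg]
  · -- values
    intro P hPJ hPg
    obtain ⟨a, ha, hva⟩ := hPg
    have hg1 : P.adicValuation (g : F) ≤ 1 := ctg_val_le_one P hva
    have hgord : 0 ≤ P.ord (g : F) := by
      rcases (P.adicValuation_le_one_iff).mp hg1 with h0 | h0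
      · rw [h0, P.ord_zero]
      · exact h0
    rcases lt_or_ge (P.ord (J : F)) 0 with hpole | hreg
    · have := hpoleU P hpole
      have hT' : (0 : ℤ) < (T : ℤ) := by exact_mod_cast hT1
      have : P.ord (g : F) < 0 := by rw [this]; exact mul_neg_of_pos_of_neg hT' hpole
      omega
    · -- `J(P) = b ∉ A`
      have hJ1 : P.adicValuation (J : F) ≤ 1 :=
        (P.adicValuation_le_one_iff).mpr (Or.inr hreg)
      obtain ⟨b, hb⟩ := pls_eval hJ.sep P (J : F) hJ1
      have hbA : b ∉ A := fun hbA => hPJ ⟨b, hbA, hb⟩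
      have hb0 : b ≠ 0 := fun h0 => hbA (h0 ▸ A.zero_mem)
      have hbinv : b⁻¹ ∈ A := (A.mem_or_inv_mem b).resolve_left hbA
      have hxval : P.adicValuation ((Jinv : F) - algebraMap L F b⁻¹) < 1 := by
        have : (Jinv : F) = ((J : F))⁻¹ := eq_inv_of_mul_eq_one_right hJxF
        rw [this]
        exact ctg_val_inv P hb0 hb
      obtain ⟨e, he, hve⟩ := hFinf.val w hwint P ⟨b⁻¹, hbinv, hxval⟩
      -- value of `g = J^T + c u`, with `u = w J^(T-1)`
      have huw : (u : F) = (w : F) * (J : F) ^ (T - 1) := by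
        rw [hwF, mul_assoc, ← mul_pow, mul_comm (Jinv : F), hJxF, one_pow, mul_one]
      have hval : P.adicValuation ((g : F) - algebraMap L F (b ^ T + (c : L) * (e * b ^ (T - 1)))) < 1 := by
        rw [hgF, huw]
        exact ctg_val_add P (ctg_val_pow P hb T)
          (ctg_val_mul P (ctg_val_const P (c : L)) (ctg_val_mul P hve (ctg_val_pow P hb (T - 1))))
      have hEq : a = b ^ T + (c : L) * (e * b ^ (T - 1)) := ctg_val_unique P hva hval
      have hnot := ctg_not_mem_of_pow A hbA hT1 (A.mul_mem _ _ c.2 he)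
      apply hnot
      rw [mul_assoc, ← hEq]
      exact ha
  · intro Q hQ
    rw [hpoleD Q hQ]
    have hT' : (0 : ℤ) < (T : ℤ) := by exact_mod_cast hT1
    exact mul_neg_of_pos_of_neg hT' hQ


/-- the FACT 0 bundle from statements quantified over all charts -/
theorem ctg_fact0_bundle_of_forall (g : W) (hg : ctm_Coord L k W ρ g)
    (hF0rho : ∀ g : W, ctm_Coord L k W ρ g → ∀ u' : W,
      IsIntegral (Algebra.adjoin L {(g : F)}) (u' : F) → IsIntegral (Algebra.adjoin k {ρ g}) (ρ u'))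
    (hF0val : ∀ g : W, ctm_Coord L k W ρ g → ∀ u' : W,
      IsIntegral (Algebra.adjoin L {(g : F)}) (u' : F) → ∀ P : Place L F,
        ctm_valIn A P (g : F) → ctm_valIn A P (u' : F)) : ctm_Fact0 k A ρ g :=
  ⟨fun u hu => hF0rho g hg u hu, fun u hu P hP => hF0val g hg u hu P hP⟩

end Main

end Fermat.Agent.S37x
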