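/-
S37x/CtmGoodMain.lean (helper27, S37 prep [B1], LEAF D = C4): the EXACT statement `ctg_good` of
helper4's leaf document (no FACT 0 hypotheses), obtained from the bundle form
`ctg_good_of_bundle` (`S37x/CtmGoodFinal`) and helper85's `ctr_fact0_bundle` (`S37x/CtmFact0`).
-/
import Mathlib
import Fermat.Agent.S37x.CtmGoodFinal
import Fermat.Agent.S37x.CtmFact0

set_option autoImplicit false

namespace Fermat.Agent.S37x

open AlgebraicCurve Fermat.Agent.S18x Fermat.Agent.S24x IntermediateField Polynomial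

variable {L k F Fb : Type*} [Field L] [Field k] [Field F] [Field Fb] [Algebra L F] [Algebra k Fb]
variable {A : ValuationSubring L} {π : A →+* k} {W : ValuationSubring F} {ρ : W →+* Fb}

/-- **LEAF D = C4** (exact target statement): for `T` large and prime to the residue
characteristic, and all `c ∈ A` outside finitely many residue classes, the perturbed chart
`J ^ T + c • u` is again a coordinate chart, it has no new `A`-integral values, and its reduction
keeps the poles of `ρ J`. -/
theorem ctg_good [IsAlgClosed L] [IsAlgClosed k] [CharZero L] (G : ctm_Gauss A π W ρ) (J Jinv : W)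
    (hJJ : J * Jinv = 1) (hJ : ctm_Coord L k W ρ J) (u : W)
    (hu : IsIntegral (Algebra.adjoin L {(J : F)}) (u : F)) :
    ∃ T₀ : ℕ, ∀ T : ℕ, T₀ ≤ T → (T : k) ≠ 0 → ∃ E : Finset k, ∀ c : A, π c ∉ E →
      ctm_Coord L k W ρ (J ^ T + G.cW c * u) ∧
      (∀ P : Place L F, ¬ ctm_valIn A P (J : F) → ¬ ctm_valIn A P ((J ^ T + G.cW c * u : W) : F)) ∧
      (∀ Q : Place k Fb, Q.ord (ρ J) < 0 → Q.ord (ρ (J ^ T + G.cW c * u)) < 0) :=
  ctg_good_of_bundle G J Jinv hJJ hJ (ctr_fact0_bundle G hJ) (ctr_fact0_bundle G (hJ.inv hJJ)) u hu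

end Fermat.Agent.S37x
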