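/-
S37 prep, block [B1] (captain helper4), sub-leaf C4d (helper89): in a function field `F/K` with a
separating coordinate `t` (`K` algebraically closed), for every `u : F` and every `T` prime to the
characteristic, all but finitely many members of the pencil `t ^ T + c • u` (`c : K`) are again
separating coordinates.  Consumer: `ctg_good` (C4, goodness of `J ^ T + c u`).
Prefix `ctgs_`.
-/
import Fermat.Agent.S18x.PlsKaehler

set_option autoImplicit false

open KaehlerDifferential

namespace Fermat.Agent.S37x

open Fermat.Agent.S18x Fermat.Agent.S24x AlgebraicCurve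

variable {K F : Type*} [Field K] [Field F] [Algebra K F]

/-- the differential of a member of the pencil -/
theorem ctgs_D_pencil (t u : F) (T : ℕ) (c : K) :
    D K F (t ^ T + algebraMap K F c * u) =
      ((T : F) * t ^ (T - 1)) • D K F t + algebraMap K F c • D K F u := by
  rw [map_add, Derivation.leibniz_pow, Derivation.leibniz, Derivation.map_algebraMap, smul_zero,
    add_zero]
  congr 1
  rw [← Nat.cast_smul_eq_nsmul F, smul_smul]

/-- the coefficient `T t^(T-1)` is nonzero -/
theorem ctgs_coeff_ne_zero {t : F} (ht : Transcendental K t) (T : ℕ) (hT : (T : K) ≠ 0) :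
    (T : F) * t ^ (T - 1) ≠ 0 := by
  have h1 : (T : F) ≠ 0 := by
    have := (algebraMap K F).injective.ne hT
    rwa [map_natCast, map_zero] at this
  have h2 : t ≠ 0 := by
    rintro rfl
    exact ht (isAlgebraic_zero)
  exact mul_ne_zero h1 (pow_ne_zero _ h2)

/-- **C4d**: all but finitely many members of the pencil `t ^ T + c u` are separating
coordinates. -/
theorem ctgs_sep_family [IsAlgClosed K] {t : F} (ht : pls_IsSepCoordinate K F t) (u : F) (T : ℕ)
    (hT : (T : K) ≠ 0) :
    ∃ E : Finset K, ∀ c : K, c ∉ E →
      pls_IsSepCoordinate K F (t ^ T + algebraMap K F c * u) := by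
  classical
  have htr : Transcendental K t := ht.coord.transcendental
  have hcoef : (T : F) * t ^ (T - 1) ≠ 0 := ctgs_coeff_ne_zero htr T hT
  have hDt : D K F t ≠ 0 := pls_kd_D_ne_zero t ht
  by_cases hu : D K F u = 0
  · refine ⟨∅, fun c _ => pls_isSepCoordinate_of_D_ne_zero ht ?_⟩
    rw [ctgs_D_pencil, hu, smul_zero, add_zero]
    exact smul_ne_zero hcoef hDt
  · obtain ⟨f, hf⟩ := pls_kd_span_of_ne_zero t ht hu (((T : F) * t ^ (T - 1)) • D K F t)
    have hsub : ({c : K | algebraMap K F c = -f} : Set K).Subsingleton := by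
      intro a ha b hb
      exact (algebraMap K F).injective (ha.trans hb.symm)
    refine ⟨hsub.finite.toFinset, fun c hc => pls_isSepCoordinate_of_D_ne_zero ht ?_⟩
    have hc' : algebraMap K F c ≠ -f := by
      intro h
      exact hc (by simpa using h)
    rw [ctgs_D_pencil, hf, ← add_smul]
    refine smul_ne_zero ?_ hu
    intro h
    exact hc' (eq_neg_of_add_eq_zero_right h)

/-- the same with the exceptional set as a `Set.Finite` and `c • u` written with `•`. -/
theorem ctgs_sep_family_smul [IsAlgClosed K] {t : F} (ht : pls_IsSepCoordinate K F t) (u : F)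
    (T : ℕ) (hT : (T : K) ≠ 0) :
    {c : K | ¬ pls_IsSepCoordinate K F (t ^ T + c • u)}.Finite := by
  obtain ⟨E, hE⟩ := ctgs_sep_family ht u T hT
  refine E.finite_toSet.subset ?_
  intro c hc
  by_contra hcE
  apply hc
  have := hE c hcE
  rwa [← Algebra.smul_def] at this

/-- over an infinite (e.g. algebraically closed) constant field, a good `c` exists outside any
given finite set. -/
theorem ctgs_exists_sep [IsAlgClosed K] {t : F} (ht : pls_IsSepCoordinate K F t) (u : F) (T : ℕ)
    (hT : (T : K) ≠ 0) (S : Finset K) :
    ∃ c : K, c ∉ S ∧ pls_IsSepCoordinate K F (t ^ T + algebraMap K F c * u) := by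
  classical
  obtain ⟨E, hE⟩ := ctgs_sep_family ht u T hT
  haveI : Infinite K := IsAlgClosed.instInfinite
  obtain ⟨c, hc⟩ := Infinite.exists_notMem_finset (S ∪ E)
  rw [Finset.mem_union, not_or] at hc
  exact ⟨c, hc.1, hE c hc.2⟩

end Fermat.Agent.S37x
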