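/-
S37 project, block [B1], C7 ASSEMBLY (helper4, prefix `ctmi_`): the closed form of
`ReductionInputsModL A N` from the only two remaining inputs

* `hY   : nrmt_HY N A ℓ hℓN hA`  (finite-chart normality at level `N`, `h`-free; S18 NRM chain), or
          `nrmt_HY M A ℓ hℓM hA` at any multiple `M` of `N` prime to `ℓ` (e.g. `4 N`, `9 N`);
* `hgen : PrincipalGeneratedByIntegral A (residue A) N` (helper67, `ctmg_`).

Everything else is on main: `ctm_main` (abstract [B1], helper4), the `cthf_` package (helper63),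
`cspn_hCo_free` (cusp chart, helper35).  The place map `r` additionally satisfies the centre/value
lemma on both charts (`ctmi_exists_r`).
-/
import Mathlib
import Fermat.Agent.S37x.CtmMain
import Fermat.Agent.S37x.CtmHFree
import Fermat.Agent.S18x.CspnLevelNGen

set_option autoImplicit false
set_option synthInstance.maxHeartbeats 400000
set_option linter.style.haveILetI false

namespace Fermat.Agent.S37x

open ModularCurve HahnSeries AlgebraicCurve IntermediateField Polynomial
open Fermat.Agent.S18x Fermat.Agent.S24x Fermat.Agent.S28x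

noncomputable section

variable (N : ℕ) [NeZero N] (A : ValuationSubring (AlgebraicClosure ℚ))
  (ℓ : ℕ) [Fact ℓ.Prime] (hℓN : ¬ ℓ ∣ N) (hA : A.LiesOverPrime ℓ)

/-- **C7, place-map form**: from finite-chart normality at level `N` alone, a degree-preserving,
COMPATIBLE place map `r : Place Q̄ (FBar N) → Place k (Fb_N)` which is a centre map on both charts
(`ctm_main` at the canonical `h`-free Gauss pair). -/
theorem ctmi_exists_r (hY : nrmt_HY N A ℓ hℓN hA) :
    ∃ r : Place (AlgebraicClosure ℚ) (FBar N) →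
        Place (IsLocalRing.ResidueField A)
          (modularFunctionFieldFullC (IsLocalRing.ResidueField A) N),
      (∀ P, (r P).deg = P.deg) ∧
      (∀ u : nrmt_W N A, nrmt_rho N A ℓ hℓN hA u ≠ 0 →
        ∀ D : Divisor (AlgebraicClosure ℚ) (FBar N), (∀ P, D P = P.ord (u : FBar N)) →
          ∀ Q, Finsupp.mapDomain r D Q = Q.ord (nrmt_rho N A ℓ hℓN hA u)) ∧
      (∀ P, ctm_valIn A P ((nrmt_J N A : nrmt_W N A) : FBar N) →
        ctm_Centre A (IsLocalRing.residue A) (nrmt_rho N A ℓ hℓN hA) P (r P) (nrmt_J N A)) ∧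
      (∀ P, ctm_valIn A P ((cthf_Jinv N A ℓ hℓN hA : nrmt_W N A) : FBar N) →
        ctm_Centre A (IsLocalRing.residue A) (nrmt_rho N A ℓ hℓN hA) P (r P)
          (cthf_Jinv N A ℓ hℓN hA)) := by
  haveI hk : IsAlgClosed (IsLocalRing.ResidueField A) := s18a_isAlgClosed_residue A
  exact ctm_main (cthf_gauss N A ℓ hℓN hA) (cthf_J_mul_Jinv N A ℓ hℓN hA)
    (cthf_coord N A ℓ hℓN hA) (cthf_int0_of_HY N A ℓ hℓN hA hY)
    (cthf_intInf N A ℓ hℓN hA hY (cspn_hCo_free N A hℓN hA))

/-- **C7, Prelude form**: `ReductionInputsModL A N` from finite-chart normality at level `N` and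
`PrincipalGeneratedByIntegral`. -/
theorem ctmi_reductionInputs_of_HY (hY : nrmt_HY N A ℓ hℓN hA)
    (hgen : PrincipalGeneratedByIntegral A (IsLocalRing.residue A) N) :
    ReductionInputsModL A N := by
  obtain ⟨r, h1, h2, _, _⟩ := ctmi_exists_r N A ℓ hℓN hA hY
  exact cthf_reductionInputs N A ℓ hℓN hA ⟨r, h1, h2⟩ hgen

/-- **C7 from a multiple**: the same from finite-chart normality at ANY level `M` with `N ∣ M`,
`ℓ ∤ M` (the S18 NRM chain produces `M = 4 N` for odd `ℓ`, `M = 9 N` for `ℓ = 2`). -/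
theorem ctmi_reductionInputs_of_HY_dvd (hN : ¬ ℓ ∣ N) (M : ℕ) [NeZero M] (hNM : N ∣ M)
    (hℓM : ¬ ℓ ∣ M) (hY : nrmt_HY M A ℓ hℓM hA)
    (hgen : PrincipalGeneratedByIntegral A (IsLocalRing.residue A) N) :
    ReductionInputsModL A N :=
  ctmi_reductionInputs_of_HY N A ℓ hN hA (cthf_HY_of_dvd N A ℓ hN hA M hNM hℓM hY) hgen

end

end Fermat.Agent.S37x
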