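/-
S37 prep, block [B2], rows (c) + ASSEMBLY (helper13, prefix `hia_`).

* `hia_hasPrincipalDivisors M` : `HasPrincipalDivisors Q̄ (F_M · Q̄)` for every level `M`
  (from the S18x `pls_` layer: `j` is a separating coordinate in characteristic zero);
* `hia_residue_surjective M` : every place of `F_M · Q̄` has residue field `Q̄`;
* `hia_fundamentalIdentityAlong_beta N ℓ` : `FundamentalIdentityAlong Q̄ β` (via helper32's `fia_`);
* `hia_heckeInputsAlong_of_normFormula N ℓ` : `HeckeInputsAlong Q̄ N ℓ` from the norm formula
  along `α` (the one missing leaf; it is generic function-field theory).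
-/
import Mathlib
import Fermat.Prelude.Def_ModularCurve_HeckeOperatorTotal
import Fermat.Agent.S24x.PlaceCenter
import Fermat.Agent.S18x.PlsTsFields
import Fermat.Agent.S37x.BetaIntegral
import Fermat.Agent.S37x.FundIdAlong

set_option autoImplicit false
set_option linter.style.haveILetI false

namespace Fermat.Agent.S37x

open AlgebraicCurve ModularCurve IntermediateField Fermat.Agent.S24x Fermat.Agent.S18x

section Level

variable (M : ℕ) [NeZero M]

/-- **[B2](c)** principal divisors exist (and have degree zero) at every level. -/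
theorem hia_hasPrincipalDivisors :
    HasPrincipalDivisors (AlgebraicClosure ℚ)
      (laurentBaseChange (AlgebraicClosure ℚ) (modularFunctionFieldFull M)) :=
  pls_hasPrincipalDivisors (pls_isSepCoordinate_jBar M)

/-- every place of `F_M · Q̄` has residue field `Q̄`. -/
theorem hia_residue_surjective
    (v : Place (AlgebraicClosure ℚ)
      (laurentBaseChange (AlgebraicClosure ℚ) (modularFunctionFieldFull M))) :
    Function.Surjective (algebraMap (AlgebraicClosure ℚ) v.ResidueField) :=
  pc_place_residue_surjective (fbf_isCoordinate_jBar M) v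

end Level

section Hecke

variable (N ℓ : ℕ) [NeZero N] [NeZero ℓ]

/-- **[B2]** the fundamental identity along `β : F_N → F_{Nℓ}`. -/
theorem hia_fundamentalIdentityAlong_beta :
    haveI := hia_hasPrincipalDivisors (N * ℓ)
    FundamentalIdentityAlong (AlgebraicClosure ℚ) (heckeBetaBar (AlgebraicClosure ℚ) N ℓ)
      (bt37_betaIntegral N ℓ) := by
  haveI := hia_hasPrincipalDivisors (N * ℓ)
  exact fia_fundamentalIdentityAlong (heckeBetaBar (AlgebraicClosure ℚ) N ℓ)
    (bt37_betaIntegral N ℓ) (bt37_finiteAlong_beta N ℓ)
    (hia_residue_surjective N) (hia_residue_surjective (N * ℓ))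

/-- **[B2] assembly**: `HeckeInputsAlong Q̄ N ℓ` from the norm formula along `α`. -/
theorem hia_heckeInputsAlong_of_normFormula
    (hNF : NormFormulaAlong (AlgebraicClosure ℚ) (heckeAlphaBar (AlgebraicClosure ℚ) N ℓ)
      (bt37_finiteAlong_alpha N ℓ)) :
    HeckeInputsAlong (AlgebraicClosure ℚ) N ℓ :=
  haveI := hia_hasPrincipalDivisors (N * ℓ)
  heckeInputsAlong_intro (bt37_alphaIntegral N ℓ) (bt37_betaIntegral N ℓ)
    (hia_fundamentalIdentityAlong_beta N ℓ) (bt37_finiteAlong_alpha N ℓ) hNF

end Hecke

end Fermat.Agent.S37x
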