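/-
S37 prep, block [B1] (construction of the reduction inputs), leaf C7b (helper67, prefix `ctmg_`):
the HYPOTHESIS-FREE `PrincipalGeneratedByIntegral A (residue A) N` for a prime `ℓ ∤ N` and a
valuation subring `A` of `ℚ̄` lying over `ℓ`.

Every `f ≠ 0` of `F_N(ℚ̄) = ℚ̄(j(q^d) : d ∣ N)` is a quotient `r / s` of two elements of the
`ℚ̄`-ALGEBRA generated by the `j(q^d)` (`IntermediateField.mem_adjoin_iff_div`).  Such `r` lies in
helper97's `gnf_P`, hence (Gauss normalisation `gnf_normalise`) `r = c · ι a` with `c ∈ ℚ̄ˣ`,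
`a ∈ A((q))`, `a mod 𝔪_A ≠ 0`.  Then `ι a = c⁻¹ r ∈ F_N(ℚ̄)`, and its coefficientwise reduction lies
in `F̄_N(k)` by the INTO theorem (`nrmt_rho_of_iota`, i.e. helper81/helper87's `gwmi_`, which rests
on the S28 degree theorem mod `ℓ`).  So `div r` and `div s` are integral principal divisors and
`div f = div r - div s`.
-/
import Mathlib
import Fermat.Prelude.Def_ModularCurve_ReductionModL
import Fermat.Agent.S18x.NrmTopDefs
import Fermat.Agent.S24x.FBarFinite
import Fermat.Agent.S37x.HeckeInputsAsm

set_option autoImplicit false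
set_option synthInstance.maxHeartbeats 400000
set_option linter.style.haveILetI false

namespace Fermat.Agent.S37x

open ModularCurve HahnSeries AlgebraicCurve IntermediateField Fermat.Agent.S18x Fermat.Agent.S24x

noncomputable section

local notation "Qbar" => AlgebraicClosure ℚ

/-- the `ℚ̄`-algebra generated by the `j(q^d)`, `d ∣ N`, lies in helper97's `gnf_P`. -/
theorem ctmg_adjoin_le_P (N : ℕ) :
    Algebra.adjoin Qbar (⇑(coeffEmb Qbar) '' divisorExpansions N) ≤ gnf_P Qbar := by
  apply Algebra.adjoin_mono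
  rintro _ ⟨s, hs, rfl⟩
  obtain ⟨m, rfl⟩ := gnf_divisorExpansions_int N s hs
  refine ⟨m, ?_⟩
  rw [coeffEmb, coeffMap_coeffMap]
  have h1 : (algebraMap ℚ Qbar).comp (Int.castRingHom ℚ) = Int.castRingHom Qbar :=
    RingHom.ext_int _ _
  rw [coeffMap_congr h1]

/-- the `ℚ̄`-algebra generated by the `j(q^d)`, `d ∣ N`, lies in `F_N(ℚ̄)`. -/
theorem ctmg_adjoin_le_F (N : ℕ) {x : LaurentSeries Qbar}
    (hx : x ∈ Algebra.adjoin Qbar (⇑(coeffEmb Qbar) '' divisorExpansions N)) :
    x ∈ laurentBaseChange Qbar (modularFunctionFieldFull N) := by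
  have h1 : laurentBaseChange Qbar (modularFunctionFieldFull N) =
      IntermediateField.adjoin Qbar (⇑(coeffEmb Qbar) '' divisorExpansions N) :=
    fbf_laurentBaseChange_adjoin Qbar (divisorExpansions N)
  rw [h1]
  exact IntermediateField.algebra_adjoin_le_adjoin Qbar _ hx

/-- every element of `F_N(ℚ̄)` is a quotient of two elements of the algebra generated by the
`j(q^d)`. -/
theorem ctmg_exists_div (N : ℕ) {x : LaurentSeries Qbar}
    (hx : x ∈ laurentBaseChange Qbar (modularFunctionFieldFull N)) :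
    ∃ r ∈ Algebra.adjoin Qbar (⇑(coeffEmb Qbar) '' divisorExpansions N),
      ∃ s ∈ Algebra.adjoin Qbar (⇑(coeffEmb Qbar) '' divisorExpansions N), x = r / s := by
  have h1 : laurentBaseChange Qbar (modularFunctionFieldFull N) =
      IntermediateField.adjoin Qbar (⇑(coeffEmb Qbar) '' divisorExpansions N) :=
    fbf_laurentBaseChange_adjoin Qbar (divisorExpansions N)
  rw [h1] at hx
  exact IntermediateField.mem_adjoin_iff_div.mp hx

section Main

variable (ℓ : ℕ) [Fact ℓ.Prime] (N : ℕ) [NeZero N] (hℓN : ¬ ℓ ∣ N)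
variable (A : ValuationSubring Qbar) (hA : A.LiesOverPrime ℓ)

include hℓN hA in
/-- a non-zero element of the algebra generated by the `j(q^d)` has an integral principal
divisor. -/
theorem ctmg_integral_of_adjoin {r : LaurentSeries Qbar}
    (hr : r ∈ Algebra.adjoin Qbar (⇑(coeffEmb Qbar) '' divisorExpansions N)) (hr0 : r ≠ 0)
    (D : Divisor Qbar (laurentBaseChange Qbar (modularFunctionFieldFull N)))
    (hD : ∀ P : Place Qbar (laurentBaseChange Qbar (modularFunctionFieldFull N)),
      D P = P.ord (⟨r, ctmg_adjoin_le_F N hr⟩ :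
        laurentBaseChange Qbar (modularFunctionFieldFull N))) :
    D ∈ integralPrincipalDivisors A (IsLocalRing.residue A) N := by
  obtain ⟨c, hc, a, ha, hra⟩ :=
    gnf_normalise A (IsLocalRing.residue A) (ctmg_adjoin_le_P N hr) hr0
  have hCc : (HahnSeries.C c : LaurentSeries Qbar) =
      algebraMap Qbar (LaurentSeries Qbar) c := by
    rw [algebraMap_laurentSeries_eq_single, HahnSeries.C_apply]
  -- `ι a = c⁻¹ r ∈ F_N(ℚ̄)`
  have hia : coeffMap A.subtype a = algebraMap Qbar (LaurentSeries Qbar) c⁻¹ * r := by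
    rw [hra, hCc, ← mul_assoc, ← map_mul, inv_mul_cancel₀ hc, map_one, one_mul]
    rfl
  have hmemF : coeffMap A.subtype a ∈ laurentBaseChange Qbar (modularFunctionFieldFull N) := by
    rw [hia]
    exact mul_mem (IntermediateField.algebraMap_mem _ _) (ctmg_adjoin_le_F N hr)
  -- the reduction lies in `F̄_N(k)`
  have hW : (⟨coeffMap A.subtype a, hmemF⟩ : FBar N) ∈ nrmt_W N A :=
    nrmt_mem_of_iota N A (x := ⟨coeffMap A.subtype a, hmemF⟩) (a := a) rfl
  have hred := nrmt_rho_of_iota N A ℓ hℓN hA (x := ⟨coeffMap A.subtype a, hmemF⟩) (a := a) rfl hW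
  have hmemk : coeffMap (IsLocalRing.residue A) a ∈
      modularFunctionFieldFullC (IsLocalRing.ResidueField A) N := by
    rw [← hred]
    exact SetLike.coe_mem _
  refine ⟨a, hmemF, hmemk, ha, fun P => ?_⟩
  rw [hD P]
  -- `r = c · ι a` in the field `F_N(ℚ̄)`, and constants have order zero
  have heq : (⟨r, ctmg_adjoin_le_F N hr⟩ : laurentBaseChange Qbar (modularFunctionFieldFull N)) =
      algebraMap Qbar (laurentBaseChange Qbar (modularFunctionFieldFull N)) c *
        ⟨coeffMap A.subtype a, hmemF⟩ := by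
    apply Subtype.ext
    show r = algebraMap Qbar (LaurentSeries Qbar) c * coeffMap A.subtype a
    rw [hra, hCc]
    rfl
  have ha0 : (⟨coeffMap A.subtype a, hmemF⟩ :
      laurentBaseChange Qbar (modularFunctionFieldFull N)) ≠ 0 := by
    intro h0
    apply hr0
    have := congrArg Subtype.val heq
    simp only [h0, mul_zero] at this
    exact this
  have hc0 : algebraMap Qbar (laurentBaseChange Qbar (modularFunctionFieldFull N)) c ≠ 0 := by
    rw [Ne, map_eq_zero]; exact hc
  rw [heq, P.ord_mul hc0 ha0, pb_ord_algebraMap P c, zero_add]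

include hℓN hA in
/-- **[B1] C7b**: principal divisors of `F_N(ℚ̄)` are generated by the integral ones
(hypothesis-free, `ℓ ∤ N`, `A` over `ℓ`). -/
theorem ctmg_principalGeneratedByIntegral :
    PrincipalGeneratedByIntegral A (IsLocalRing.residue A) N := by
  haveI := hia_hasPrincipalDivisors N
  intro D hD
  obtain ⟨f, hf0, hDf⟩ := hD
  obtain ⟨r, hr, s, hs, hfrs⟩ := ctmg_exists_div N f.2
  have hf0' : (f : LaurentSeries Qbar) ≠ 0 := fun h => hf0 (Subtype.ext h)
  have hr0 : r ≠ 0 := by
    rintro rfl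
    rw [zero_div] at hfrs
    exact hf0' hfrs
  have hs0 : s ≠ 0 := by
    rintro rfl
    rw [div_zero] at hfrs
    exact hf0' hfrs
  set r' : laurentBaseChange Qbar (modularFunctionFieldFull N) := ⟨r, ctmg_adjoin_le_F N hr⟩
    with hr'
  set s' : laurentBaseChange Qbar (modularFunctionFieldFull N) := ⟨s, ctmg_adjoin_le_F N hs⟩
    with hs'
  have hr'0 : r' ≠ 0 := fun h => hr0 (congrArg Subtype.val h)
  have hs'0 : s' ≠ 0 := fun h => hs0 (congrArg Subtype.val h)
  obtain ⟨Dr, hDr, -⟩ := HasPrincipalDivisors.exists_divisor (K := Qbar) r' hr'0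
  obtain ⟨Ds, hDs, -⟩ := HasPrincipalDivisors.exists_divisor (K := Qbar) s' hs'0
  have hfe : f = r' * s'⁻¹ := by
    apply Subtype.ext
    show (f : LaurentSeries Qbar) = r * s⁻¹
    rw [hfrs, div_eq_mul_inv]
  have hDeq : D = Dr - Ds := by
    ext P
    rw [Finsupp.sub_apply, hDf P, hDr P, hDs P, hfe, P.ord_mul hr'0 (inv_ne_zero hs'0), P.ord_inv]
    ring
  rw [hDeq]
  exact sub_mem
    (AddSubgroup.subset_closure (ctmg_integral_of_adjoin ℓ N hℓN A hA hr hr0 Dr hDr))
    (AddSubgroup.subset_closure (ctmg_integral_of_adjoin ℓ N hℓN A hA hs hs0 Ds hDs))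

include hℓN hA in
/-- consequently `ReductionInputsModL A N` follows from the existence of ANY place map `r` with
`IsPlaceReductionModL A N r`. -/
theorem ctmg_reductionInputsModL_of_place
    (r : Place Qbar (modularFunctionFieldBar N) →
      Place (IsLocalRing.ResidueField A)
        (modularFunctionFieldFullC (IsLocalRing.ResidueField A) N))
    (hr : IsPlaceReductionModL A N r) : ReductionInputsModL A N :=
  ⟨r, hr, ctmg_principalGeneratedByIntegral ℓ N hℓN A hA⟩

include hℓN hA in
/-- the same statement under the name announced to the [B1] squad. -/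
theorem ctmg_principalGeneratedByIntegral_modL :
    PrincipalGeneratedByIntegral A (IsLocalRing.residue A) N :=
  ctmg_principalGeneratedByIntegral ℓ N hℓN A hA

end Main

end

end Fermat.Agent.S37x
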