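/-
S37 block [B3], row 28 (ES-hL), helper3: the ATKIN–LEHNER INVOLUTION of `F_{Nℓ}` (q-expansion side), any field `K`.

`E = F_{Nℓ} = modularFunctionFieldFullC K (N*ℓ) ⊂ K((q))`, `E₀ = β(F_N)` the image of `F_N` under `q ↦ q^ℓ`.
Assume (hgen) `E ⊆ E₀(j)` and (hdeg) `ℓ + 1 ≤ deg minpoly_{E₀}(j)` (both hold over `Q̄`, see `Es3ALBar`), `ℓ ∤ N` prime.
* `es3a_exists_algHom`  : abstract: extension of `id_{E₀}` to `E ⊆ E₀(x)` sending `x` to a prescribed root of its minimal polynomial;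
* `es3a_exists_sigma`   : the embedding `σ_∞ : E → K((q))`, identity on `E₀`, `j ↦ j(q^{ℓ²})`, values in `K((q^ℓ))`,
                          `j(q^d) ↦ j(q^{ℓ² d})` for `d ∣ N` (the rotated roots `j(ζ^b q^d)` are excluded because they do not lie in
                          `K((q^ℓ))`);
* `es3a_exists_w1`      : `w₁ = β⁻¹ ∘ σ_∞ : E → K((q))` with `w₁(β f) = f`, `w₁(α f) = β f` (`f ∈ F_N`);
* `es3a_exists_w`       : the involution `w : E ≃ₐ[K] E` with `w(β f) = α f`, `w(α f) = β f`.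
-/
import Mathlib
import Fermat.Prelude.Def_ModularCurve_X0
import Fermat.Prelude.Def_ModularCurve_X0ModL
import Fermat.Agent.S18x.PuiseuxSubst
import Fermat.Agent.S18x.CuspConjXFactor
import Fermat.Agent.S28x.ModPolyConsFinal

set_option autoImplicit false

namespace Fermat.Agent.S37x

open IntermediateField Polynomial ModularCurve Fermat.Agent.S18x Fermat.Agent.S28x

section Abstract

variable {K Ω : Type*} [Field K] [Field Ω] [Algebra K Ω]

/-- extension of the identity of `E0` to `E ⊆ E0(x)` sending `x` to a prescribed root `y` of the minimal polynomial -/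
theorem es3a_exists_algHom (E0 E : IntermediateField K Ω) (x y : Ω)
    (hx : IsIntegral (↥E0) x)
    (hEE' : ∀ e ∈ E, e ∈ IntermediateField.adjoin (↥E0) ({x} : Set Ω))
    (hy : Polynomial.aeval y (minpoly (↥E0) x) = 0) :
    ∃ σ : ↥E →ₐ[K] Ω, (∀ (e : Ω) (_ : e ∈ E0) (he : e ∈ E), σ ⟨e, he⟩ = e) ∧
      (∀ hxE : x ∈ E, σ ⟨x, hxE⟩ = y) ∧
      ∀ R : IntermediateField K Ω, E0 ≤ R → y ∈ R → ∀ e : ↥E, σ e ∈ R := by
  classical
  have hyroot : y ∈ (minpoly (↥E0) x).aroots Ω := by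
    rw [Polynomial.mem_aroots]
    exact ⟨minpoly.ne_zero hx, hy⟩
  set φ : ↥((↥E0)⟮x⟯) →ₐ[↥E0] Ω :=
    (IntermediateField.algHomAdjoinIntegralEquiv (↥E0) hx).symm ⟨y, hyroot⟩ with hφ
  have hφgen : φ (AdjoinSimple.gen (↥E0) x) = y :=
    IntermediateField.algHomAdjoinIntegralEquiv_symm_apply_gen (↥E0) hx ⟨y, hyroot⟩
  have hle : E ≤ ((↥E0)⟮x⟯).restrictScalars K := fun e he => hEE' e he
  set σ : ↥E →ₐ[K] Ω := (φ.restrictScalars K).comp (IntermediateField.inclusion hle) with hσ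
  have hσapp : ∀ (e : Ω) (he : e ∈ E), σ ⟨e, he⟩ = φ ⟨e, hEE' e he⟩ := fun e he => rfl
  refine ⟨σ, ?_, ?_, ?_⟩
  · intro e he0 he
    rw [hσapp]
    have : (⟨e, hEE' e he⟩ : ↥((↥E0)⟮x⟯)) = algebraMap (↥E0) (↥((↥E0)⟮x⟯)) ⟨e, he0⟩ := rfl
    rw [this, φ.commutes]
    rfl
  · intro hxE
    rw [hσapp]
    exact hφgen
  · intro R hR hyR e
    obtain ⟨e, he⟩ := e
    rw [hσapp]
    have key : ∀ z (hz : z ∈ (↥E0)⟮x⟯), φ ⟨z, hz⟩ ∈ R := by
      intro z hz
      induction hz using IntermediateField.adjoin_induction with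
      | mem z hz =>
        rw [Set.mem_singleton_iff] at hz
        subst hz
        have : (⟨z, subset_adjoin _ _ (Set.mem_singleton z)⟩ : ↥((↥E0)⟮z⟯)) =
            AdjoinSimple.gen (↥E0) z := rfl
        rw [this, hφgen]
        exact hyR
      | algebraMap z =>
        have : (⟨algebraMap (↥E0) Ω z, IntermediateField.algebraMap_mem _ _⟩ : ↥((↥E0)⟮x⟯)) =
            algebraMap (↥E0) (↥((↥E0)⟮x⟯)) z := rfl
        rw [this, φ.commutes]
        exact hR z.2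
      | add a b ha hb iha ihb =>
        have : (⟨a + b, add_mem ha hb⟩ : ↥((↥E0)⟮x⟯)) = ⟨a, ha⟩ + ⟨b, hb⟩ := rfl
        rw [this, map_add]
        exact add_mem iha ihb
      | inv a ha iha =>
        have : (⟨a⁻¹, inv_mem ha⟩ : ↥((↥E0)⟮x⟯)) = (⟨a, ha⟩ : ↥((↥E0)⟮x⟯))⁻¹ := rfl
        rw [this, map_inv₀]
        exact inv_mem iha
      | mul a b ha hb iha ihb =>
        have : (⟨a * b, mul_mem ha hb⟩ : ↥((↥E0)⟮x⟯)) = ⟨a, ha⟩ * ⟨b, hb⟩ := rfl
        rw [this, map_mul]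
        exact mul_mem iha ihb
    exact key e _

end Abstract

section Concrete

variable (K : Type*) [Field K] (N ℓ : ℕ) [Fact ℓ.Prime]

/-- `E₀ = β(F_N)`, the image of `F_N` under `q ↦ q^ℓ` -/
noncomputable def es3a_E0 : IntermediateField K (LaurentSeries K) :=
  (modularFunctionFieldFullC K N).map (qExpandAlgHomC K ℓ)

theorem es3a_E0_le : es3a_E0 K N ℓ ≤ modularFunctionFieldFullC K (N * ℓ) :=
  full_degeneracyC_map_le K N ℓ

theorem es3a_mem_E0 {f : LaurentSeries K} (hf : f ∈ modularFunctionFieldFullC K N) :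
    qExpand K ℓ f ∈ es3a_E0 K N ℓ :=
  ⟨f, hf, rfl⟩

theorem es3a_E0_le_range : es3a_E0 K N ℓ ≤ (qExpandAlgHomC K ℓ).fieldRange := by
  rintro x ⟨f, _, rfl⟩
  exact ⟨f, rfl⟩

/-- the modular relation `Φ(j(q^ℓ); j) = 0` transported by `q ↦ q^d` -/
theorem es3a_rel_d (Φ : Polynomial (Polynomial K)) (d : ℕ) [NeZero d]
    (h2 : Φ.eval₂ (Polynomial.aeval (qExpand K ℓ (jqModC K))).toRingHom (jqModC K) = 0) :
    Φ.eval₂ (Polynomial.aeval (qExpand K (ℓ * d) (jqModC K))).toRingHom (qExpand K d (jqModC K)) = 0 := by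
  have h := ccx_hom_eval₂ (RingHom.id _) (qExpand K d) (fun a => (qExpandAlgHomC K d).commutes a) Φ
    (qExpand K ℓ (jqModC K)) (jqModC K)
  rw [h2, map_zero, RingHom.id_comp, RingHom.id_apply, qExpand_qExpand] at h
  rw [qExpand_congr (mul_comm ℓ d)]
  exact h.symm

/-- an element of the range of `q ↦ q^ℓ` has no coefficient at exponents prime to `ℓ` -/
theorem es3a_coeff_of_mem_range {x : LaurentSeries K} (hx : x ∈ (qExpandAlgHomC K ℓ).fieldRange)
    {n : ℤ} (hn : ¬ (ℓ : ℤ) ∣ n) : x.coeff n = 0 := by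
  obtain ⟨g, rfl⟩ := hx
  exact qExpand_coeff_of_not_dvd ℓ g hn

/-- **the embedding `σ_∞`**: identity on `E₀`, `j ↦ j(q^{ℓ²})`, with values in `K((q^ℓ))`, and `j(q^d) ↦ j(q^{ℓ² d})`. -/
theorem es3a_exists_sigma (ξ : Kˣ) (hξ : IsPrimitiveRoot ξ ℓ) (hℓN : ¬ ℓ ∣ N) [NeZero N]
    (hgen : ∀ e ∈ modularFunctionFieldFullC K (N * ℓ),
      e ∈ IntermediateField.adjoin (↥(es3a_E0 K N ℓ)) ({jqModC K} : Set (LaurentSeries K)))
    (hdeg : ℓ + 1 ≤ (minpoly (↥(es3a_E0 K N ℓ)) (jqModC K)).natDegree) :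
    ∃ σ : ↥(modularFunctionFieldFullC K (N * ℓ)) →ₐ[K] LaurentSeries K,
      (∀ (e : LaurentSeries K) (_ : e ∈ es3a_E0 K N ℓ) (he : e ∈ modularFunctionFieldFullC K (N * ℓ)),
        σ ⟨e, he⟩ = e) ∧
      (∀ e, σ e ∈ (qExpandAlgHomC K ℓ).fieldRange) ∧
      ∀ (d : ℕ) [NeZero d] (hd : d ∣ N),
        σ ⟨qExpand K d (jqModC K), jqModCd_mem_full K (N * ℓ) (hd.trans (dvd_mul_right N ℓ))⟩ =
          qExpand K (ℓ * (ℓ * d)) (jqModC K) := by
  classical
  obtain ⟨Φ, hΦm, hΦd, h1, h2⟩ := mpcf_exists_modPoly_ring K ℓ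
  set E0 := es3a_E0 K N ℓ with hE0
  set E := modularFunctionFieldFullC K (N * ℓ) with hE
  set J := jqModC K with hJ
  have hJℓ : qExpand K ℓ J ∈ E0 := es3a_mem_E0 K N ℓ (jqModC_mem_full K N)
  set φ0 : Polynomial K →+* ↥E0 := (Polynomial.aeval (⟨qExpand K ℓ J, hJℓ⟩ : ↥E0)).toRingHom with hφ0
  have hcomp : (algebraMap (↥E0) (LaurentSeries K)).comp φ0 =
      (Polynomial.aeval (qExpand K ℓ J)).toRingHom := by
    apply Polynomial.ringHom_ext
    · intro a
      simp [hφ0]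
    · simp [hφ0]
  set Φ' : Polynomial (↥E0) := Φ.map φ0 with hΦ'
  have hΦ'm : Φ'.Monic := hΦm.map φ0
  have hΦ'd : Φ'.natDegree = ℓ + 1 := by rw [hΦ', hΦm.natDegree_map, hΦd]
  have haeval : ∀ z : LaurentSeries K, Polynomial.aeval z Φ' =
      Φ.eval₂ (Polynomial.aeval (qExpand K ℓ J)).toRingHom z := by
    intro z
    rw [Polynomial.aeval_def, hΦ', Polynomial.eval₂_map, hcomp]
  have hJroot : Polynomial.aeval J Φ' = 0 := by rw [haeval, h2]
  have hint : IsIntegral (↥E0) J := ⟨Φ', hΦ'm, by rw [← Polynomial.aeval_def]; exact hJroot⟩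
  have hdvd : minpoly (↥E0) J ∣ Φ' := minpoly.dvd _ _ hJroot
  have hmin : Φ' = minpoly (↥E0) J :=
    Polynomial.eq_of_monic_of_dvd_of_natDegree_le (minpoly.monic hint) hΦ'm hdvd (by rw [hΦ'd]; exact hdeg)
  -- the new root
  have hy : Polynomial.aeval (qExpand K ℓ (qExpand K ℓ J)) (minpoly (↥E0) J) = 0 := by
    rw [← hmin, haeval]
    have h := ccx_hom_eval₂ (RingHom.id _) (qExpand K ℓ) (fun a => (qExpandAlgHomC K ℓ).commutes a) Φ
      J (qExpand K ℓ J)
    rw [h1, map_zero, RingHom.id_comp, RingHom.id_apply] at h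
    exact h.symm
  obtain ⟨σ, hσ0, hσJ, hσR⟩ := es3a_exists_algHom E0 E J
    (qExpand K ℓ (qExpand K ℓ J)) hint hgen hy
  have hrange : ∀ e, σ e ∈ (qExpandAlgHomC K ℓ).fieldRange :=
    hσR _ (es3a_E0_le_range K N ℓ) ⟨qExpand K ℓ J, rfl⟩
  refine ⟨σ, hσ0, hrange, ?_⟩
  intro d _ hd
  have hdN : d ∣ N * ℓ := hd.trans (dvd_mul_right N ℓ)
  have hℓdN : ℓ * d ∣ N * ℓ := by rw [mul_comm ℓ d]; exact mul_dvd_mul_right hd ℓ
  set zE : ↥E := ⟨qExpand K d J, jqModCd_mem_full K (N * ℓ) hdN⟩ with hzE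
  set cE : ↥E := ⟨qExpand K (ℓ * d) J, jqModCd_mem_full K (N * ℓ) hℓdN⟩ with hcE
  have hcE0 : qExpand K (ℓ * d) J ∈ E0 := by
    have := es3a_mem_E0 K N ℓ (jqModCd_mem_full K N hd)
    rwa [qExpand_qExpand] at this
  have hσc : σ cE = qExpand K (ℓ * d) J := hσ0 _ hcE0 _
  -- the relation inside `E`
  have hrelE : Φ.eval₂ (Polynomial.aeval (R := K) cE).toRingHom zE = 0 := by
    apply (algebraMap (↥E) (LaurentSeries K)).injective
    rw [map_zero, Polynomial.hom_eval₂]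
    have hc : (algebraMap (↥E) (LaurentSeries K)).comp (Polynomial.aeval (R := K) cE).toRingHom =
        (Polynomial.aeval (qExpand K (ℓ * d) J)).toRingHom := by
      apply Polynomial.ringHom_ext
      · intro a
        simp
      · simp [hcE]
    rw [hc]
    exact es3a_rel_d K ℓ Φ d h2
  have hrelσ : Φ.eval₂ ((RingHom.id _).comp
      (Polynomial.aeval (pxs_subst K 1 (ℓ * d) J)).toRingHom) (σ zE) = 0 := by
    have := Polynomial.hom_eval₂ Φ (Polynomial.aeval (R := K) cE).toRingHom (σ : ↥E →+* LaurentSeries K) zE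
    rw [hrelE, map_zero] at this
    rw [RingHom.id_comp, pxs_subst_one_left]
    have hc : (σ : ↥E →+* LaurentSeries K).comp (Polynomial.aeval (R := K) cE).toRingHom =
        (Polynomial.aeval (qExpand K (ℓ * d) J)).toRingHom := by
      apply Polynomial.ringHom_ext
      · intro a
        simp
      · simp [hσc]
    rw [hc] at this
    exact this.symm
  rcases ccx_root_cases ℓ ξ hξ Φ hΦm hΦd h1 h2 1 1 (one_pow ℓ) d (RingHom.id _) (σ zE) hrelσ with
    h | ⟨b, _, h⟩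
  · rw [h, RingHom.id_apply, one_pow, pxs_subst_one_left]
  · exfalso
    have hcoeff := es3a_coeff_of_mem_range K ℓ (hrange zE) (n := -(d : ℤ)) (by
      rw [dvd_neg]
      intro hdvd
      exact hℓN ((Int.natCast_dvd_natCast.mp hdvd).trans hd))
    rw [h, RingHom.id_apply, pxs_subst_jq_coeff] at hcoeff
    exact (Units.ne_zero _) hcoeff


/-- membership: `α f = f ∈ F_{Nℓ}` -/
theorem es3a_alpha_mem [NeZero N] {f : LaurentSeries K} (hf : f ∈ modularFunctionFieldFullC K N) :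
    f ∈ modularFunctionFieldFullC K (N * ℓ) :=
  full_degeneracyC_le K (dvd_mul_right N ℓ) hf

/-- membership: `β f = f(q^ℓ) ∈ F_{Nℓ}` -/
theorem es3a_beta_mem {f : LaurentSeries K} (hf : f ∈ modularFunctionFieldFullC K N) :
    qExpand K ℓ f ∈ modularFunctionFieldFullC K (N * ℓ) :=
  es3a_E0_le K N ℓ (es3a_mem_E0 K N ℓ hf)

/-- a `K`-algebra hom out of `adjoin K s` whose values on `s` lie in `R` has all its values in `R` -/
theorem es3a_algHom_mem_of_gen' {Ω Ω' : Type*} [Field Ω] [Field Ω'] [Algebra K Ω] [Algebra K Ω']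
    (s : Set Ω) (R : IntermediateField K Ω') (φ : ↥(IntermediateField.adjoin K s) →ₐ[K] Ω')
    (h : ∀ x (hx : x ∈ s), φ ⟨x, subset_adjoin K s hx⟩ ∈ R) : ∀ e, φ e ∈ R := by
  rintro ⟨e, he⟩
  induction he using IntermediateField.adjoin_induction with
  | mem z hz => exact h z hz
  | algebraMap z =>
    have : (⟨algebraMap K Ω z, IntermediateField.algebraMap_mem _ _⟩ : ↥(IntermediateField.adjoin K s)) =
        algebraMap K (↥(IntermediateField.adjoin K s)) z := rfl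
    rw [this, φ.commutes]
    exact R.algebraMap_mem z
  | add a b ha hb iha ihb =>
    have : (⟨a + b, add_mem ha hb⟩ : ↥(IntermediateField.adjoin K s)) = ⟨a, ha⟩ + ⟨b, hb⟩ := rfl
    rw [this, map_add]
    exact add_mem iha ihb
  | inv a ha iha =>
    have : (⟨a⁻¹, inv_mem ha⟩ : ↥(IntermediateField.adjoin K s)) =
        (⟨a, ha⟩ : ↥(IntermediateField.adjoin K s))⁻¹ := rfl
    rw [this, map_inv₀]
    exact inv_mem iha
  | mul a b ha hb iha ihb =>
    have : (⟨a * b, mul_mem ha hb⟩ : ↥(IntermediateField.adjoin K s)) = ⟨a, ha⟩ * ⟨b, hb⟩ := rfl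
    rw [this, map_mul]
    exact mul_mem iha ihb

theorem es3a_algHom_mem_of_gen {Ω Ω' : Type*} [Field Ω] [Field Ω'] [Algebra K Ω] [Algebra K Ω']
    {S : IntermediateField K Ω} {s : Set Ω} (hS : S = IntermediateField.adjoin K s)
    (R : IntermediateField K Ω') (φ : ↥S →ₐ[K] Ω')
    (h : ∀ x (hx : x ∈ s), φ ⟨x, hS.ge (subset_adjoin K s hx)⟩ ∈ R) : ∀ e, φ e ∈ R := by
  subst hS
  exact es3a_algHom_mem_of_gen' K s R φ h

/-- **the map `w₁ = β⁻¹ ∘ σ_∞ : F_{Nℓ} → K((q))`**: it sends `β f ↦ f` and `α f ↦ β f`. -/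
theorem es3a_exists_w1 (ξ : Kˣ) (hξ : IsPrimitiveRoot ξ ℓ) (hℓN : ¬ ℓ ∣ N) [NeZero N]
    (hgen : ∀ e ∈ modularFunctionFieldFullC K (N * ℓ),
      e ∈ IntermediateField.adjoin (↥(es3a_E0 K N ℓ)) ({jqModC K} : Set (LaurentSeries K)))
    (hdeg : ℓ + 1 ≤ (minpoly (↥(es3a_E0 K N ℓ)) (jqModC K)).natDegree) :
    ∃ w1 : ↥(modularFunctionFieldFullC K (N * ℓ)) →ₐ[K] LaurentSeries K,
      (∀ (f : LaurentSeries K) (hf : f ∈ modularFunctionFieldFullC K N),
        w1 ⟨qExpand K ℓ f, es3a_beta_mem K N ℓ hf⟩ = f) ∧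
      (∀ (f : LaurentSeries K) (hf : f ∈ modularFunctionFieldFullC K N),
        w1 ⟨f, es3a_alpha_mem K N ℓ hf⟩ = qExpand K ℓ f) := by
  classical
  obtain ⟨σ, hσ0, hσR, hσd⟩ := es3a_exists_sigma K N ℓ ξ hξ hℓN hgen hdeg
  set β : LaurentSeries K →ₐ[K] LaurentSeries K := qExpandAlgHomC K ℓ with hβ
  have hβapp : ∀ x, β x = qExpand K ℓ x := fun x => rfl
  have hβinj : Function.Injective β := β.toRingHom.injective
  set eβ : LaurentSeries K ≃ₐ[K] β.range := AlgEquiv.ofInjective β hβinj with heβ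
  have hmem : ∀ e, σ e ∈ β.range := fun e => by
    obtain ⟨g, hg⟩ := hσR e
    exact ⟨g, hg⟩
  set σ' : ↥(modularFunctionFieldFullC K (N * ℓ)) →ₐ[K] β.range := σ.codRestrict β.range hmem with hσ'
  set w1 : ↥(modularFunctionFieldFullC K (N * ℓ)) →ₐ[K] LaurentSeries K :=
    (eβ.symm : β.range →ₐ[K] LaurentSeries K).comp σ' with hw1
  have hw1β : ∀ e, qExpand K ℓ (w1 e) = σ e := by
    intro e
    have h1 : eβ (w1 e) = σ' e := eβ.apply_symm_apply (σ' e)
    have h2 := congrArg Subtype.val h1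
    rw [← hβapp]
    exact h2
  have hqinj : Function.Injective (qExpand K ℓ) := hβinj
  have hw1beta : ∀ (f : LaurentSeries K) (hf : f ∈ modularFunctionFieldFullC K N),
      w1 ⟨qExpand K ℓ f, es3a_beta_mem K N ℓ hf⟩ = f := by
    intro f hf
    apply hqinj
    rw [hw1β]
    exact hσ0 _ (es3a_mem_E0 K N ℓ hf) _
  refine ⟨w1, hw1beta, ?_⟩
  -- on the generators `j(q^d)`, `d ∣ N`
  have hgenN : ∀ (d : ℕ) [NeZero d] (hd : d ∣ N),
      w1 ⟨qExpand K d (jqModC K), jqModCd_mem_full K (N * ℓ) (hd.trans (dvd_mul_right N ℓ))⟩ =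
        qExpand K ℓ (qExpand K d (jqModC K)) := by
    intro d _ hd
    apply hqinj
    rw [hw1β, hσd d hd, qExpand_qExpand, qExpand_qExpand]
    exact qExpand_congr (mul_assoc ℓ ℓ d).symm _
  -- two `K`-algebra homs out of `F_N`
  set φ1 : ↥(modularFunctionFieldFullC K N) →ₐ[K] LaurentSeries K :=
    w1.comp (IntermediateField.inclusion (full_degeneracyC_le K (dvd_mul_right N ℓ))) with hφ1
  set φ2 : ↥(modularFunctionFieldFullC K N) →ₐ[K] LaurentSeries K :=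
    β.comp (modularFunctionFieldFullC K N).val with hφ2
  have heq : φ1 = φ2 := by
    refine IntermediateField.algHom_ext_of_eq_adjoin K
      (rfl : modularFunctionFieldFullC K N = IntermediateField.adjoin K (divisorExpansionsC K N)) ?_
    rintro x ⟨d, hne, hd, rfl⟩
    exact hgenN d hd
  intro f hf
  exact congrArg (fun φ => φ ⟨f, hf⟩) heq

/-- **the Atkin–Lehner involution** `w` of `F_{Nℓ}`: a `K`-algebra automorphism exchanging `α` and `β`. -/
theorem es3a_exists_w (ξ : Kˣ) (hξ : IsPrimitiveRoot ξ ℓ) (hℓN : ¬ ℓ ∣ N) [NeZero N]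
    (hgen : ∀ e ∈ modularFunctionFieldFullC K (N * ℓ),
      e ∈ IntermediateField.adjoin (↥(es3a_E0 K N ℓ)) ({jqModC K} : Set (LaurentSeries K)))
    (hdeg : ℓ + 1 ≤ (minpoly (↥(es3a_E0 K N ℓ)) (jqModC K)).natDegree) :
    ∃ w : ↥(modularFunctionFieldFullC K (N * ℓ)) ≃ₐ[K] ↥(modularFunctionFieldFullC K (N * ℓ)),
      (∀ (f : LaurentSeries K) (hf : f ∈ modularFunctionFieldFullC K N),
        w ⟨qExpand K ℓ f, es3a_beta_mem K N ℓ hf⟩ = ⟨f, es3a_alpha_mem K N ℓ hf⟩) ∧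
      (∀ (f : LaurentSeries K) (hf : f ∈ modularFunctionFieldFullC K N),
        w ⟨f, es3a_alpha_mem K N ℓ hf⟩ = ⟨qExpand K ℓ f, es3a_beta_mem K N ℓ hf⟩) := by
  classical
  obtain ⟨w1, hb, ha⟩ := es3a_exists_w1 K N ℓ ξ hξ hℓN hgen hdeg
  -- values on the generators of `F_{Nℓ}`
  have hD : ∀ (D : ℕ) [NeZero D] (hD : D ∣ N * ℓ),
      (∃ (hd : D ∣ N), w1 ⟨qExpand K D (jqModC K), jqModCd_mem_full K (N * ℓ) hD⟩ =
        qExpand K ℓ (qExpand K D (jqModC K))) ∨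
      (∃ (d : ℕ) (_ : NeZero d) (hd : d ∣ N), D = ℓ * d ∧
        w1 ⟨qExpand K D (jqModC K), jqModCd_mem_full K (N * ℓ) hD⟩ = qExpand K d (jqModC K)) := by
    intro D _ hDdvd
    by_cases hDN : D ∣ N
    · left
      exact ⟨hDN, ha _ (jqModCd_mem_full K N hDN)⟩
    · right
      have hℓD : ℓ ∣ D := by
        by_contra hnot
        have hcop : Nat.Coprime D ℓ := (Nat.Coprime.symm ((Nat.Prime.coprime_iff_not_dvd Fact.out).mpr hnot))
        exact hDN (hcop.dvd_of_dvd_mul_right hDdvd)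
      obtain ⟨d, rfl⟩ := hℓD
      have hd0 : d ≠ 0 := by
        rintro rfl
        exact (NeZero.ne (ℓ * 0)) (mul_zero ℓ)
      haveI : NeZero d := ⟨hd0⟩
      have hdN : d ∣ N := by
        rw [mul_comm N ℓ] at hDdvd
        exact Nat.dvd_of_mul_dvd_mul_left (Nat.Prime.pos Fact.out) hDdvd
      refine ⟨d, inferInstance, hdN, rfl, ?_⟩
      have := hb _ (jqModCd_mem_full K N hdN)
      have hcongr : (⟨qExpand K (ℓ * d) (jqModC K), jqModCd_mem_full K (N * ℓ) hDdvd⟩ :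
          ↥(modularFunctionFieldFullC K (N * ℓ))) =
          ⟨qExpand K ℓ (qExpand K d (jqModC K)), es3a_beta_mem K N ℓ (jqModCd_mem_full K N hdN)⟩ :=
        Subtype.ext (qExpand_qExpand d ℓ (jqModC K)).symm
      rw [hcongr]
      exact this
  have hrange : ∀ e, w1 e ∈ modularFunctionFieldFullC K (N * ℓ) := by
    refine es3a_algHom_mem_of_gen K (rfl : modularFunctionFieldFullC K (N * ℓ) =
      IntermediateField.adjoin K (divisorExpansionsC K (N * ℓ))) (modularFunctionFieldFullC K (N * ℓ)) w1 ?_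
    rintro x ⟨D, hne, hDdvd, rfl⟩
    rcases hD D hDdvd with ⟨hd, h⟩ | ⟨d, hne', hd, rfl, h⟩
    · rw [h]
      exact es3a_beta_mem K N ℓ (jqModCd_mem_full K N hd)
    · rw [h]
      exact jqModCd_mem_full K (N * ℓ) (hd.trans (dvd_mul_right N ℓ))
  set w : ↥(modularFunctionFieldFullC K (N * ℓ)) →ₐ[K] ↥(modularFunctionFieldFullC K (N * ℓ)) :=
    w1.codRestrict (modularFunctionFieldFullC K (N * ℓ)).toSubalgebra hrange with hw
  have hwval : ∀ e, ((w e : ↥(modularFunctionFieldFullC K (N * ℓ))) : LaurentSeries K) = w1 e := fun e => rfl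
  have hwb : ∀ (f : LaurentSeries K) (hf : f ∈ modularFunctionFieldFullC K N),
      w ⟨qExpand K ℓ f, es3a_beta_mem K N ℓ hf⟩ = ⟨f, es3a_alpha_mem K N ℓ hf⟩ :=
    fun f hf => Subtype.ext (hb f hf)
  have hwa : ∀ (f : LaurentSeries K) (hf : f ∈ modularFunctionFieldFullC K N),
      w ⟨f, es3a_alpha_mem K N ℓ hf⟩ = ⟨qExpand K ℓ f, es3a_beta_mem K N ℓ hf⟩ :=
    fun f hf => Subtype.ext (ha f hf)
  have hww : w.comp w = AlgHom.id K _ := by
    refine IntermediateField.algHom_ext_of_eq_adjoin K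
      (rfl : modularFunctionFieldFullC K (N * ℓ) =
        IntermediateField.adjoin K (divisorExpansionsC K (N * ℓ))) ?_
    rintro x ⟨D, hne, hDdvd, rfl⟩
    by_cases hDN : D ∣ N
    · have h1 := hwa _ (jqModCd_mem_full K N hDN)
      have h2 := hwb _ (jqModCd_mem_full K N hDN)
      show w (w _) = _
      rw [h1, h2]
      rfl
    · have hℓD : ℓ ∣ D := by
        by_contra hnot
        have hcop : Nat.Coprime D ℓ := (Nat.Coprime.symm ((Nat.Prime.coprime_iff_not_dvd Fact.out).mpr hnot))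
        exact hDN (hcop.dvd_of_dvd_mul_right hDdvd)
      obtain ⟨d, rfl⟩ := hℓD
      have hd0 : d ≠ 0 := by
        rintro rfl
        exact (NeZero.ne (ℓ * 0)) (mul_zero ℓ)
      haveI : NeZero d := ⟨hd0⟩
      have hdN : d ∣ N := by
        rw [mul_comm N ℓ] at hDdvd
        exact Nat.dvd_of_mul_dvd_mul_left (Nat.Prime.pos Fact.out) hDdvd
      have hcongr : (⟨qExpand K (ℓ * d) (jqModC K), jqModCd_mem_full K (N * ℓ) hDdvd⟩ :
          ↥(modularFunctionFieldFullC K (N * ℓ))) =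
          ⟨qExpand K ℓ (qExpand K d (jqModC K)), es3a_beta_mem K N ℓ (jqModCd_mem_full K N hdN)⟩ :=
        Subtype.ext (qExpand_qExpand d ℓ (jqModC K)).symm
      have h1 := hwb _ (jqModCd_mem_full K N hdN)
      have h2 := hwa _ (jqModCd_mem_full K N hdN)
      show w (w _) = _
      rw [hcongr, h1, h2]
      rfl
  exact ⟨AlgEquiv.ofAlgHom w w hww hww, hwb, hwa⟩

end Concrete

end Fermat.Agent.S37x
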