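/-
S37 block [B3], row 28 (ES-hL), helper3: the ATKIN–LEHNER INVOLUTION of `F̄_{Nℓ}` over `Q̄` and the HARD-NORM TRANSPORT.

* `es3a_isIntegral_J`     : `j` is integral over `E₀ = β(F_N)` (any field);
* `es3a_hgen_bar`, `es3a_hdeg_bar` : the two hypotheses of `Es3AL` over `Q̄` (primitivity `F_{Nℓ} = Q̄(j, j_{Nℓ})` from
                            `ccp_fullC_eq_adjoin_pair`, degree `[F_{Nℓ} : β F_N] = ℓ + 1` from `bdg37_relfinrank_beta`);
* `es3a_exists_wBar`      : `w : FBar (N*ℓ) ≃ₐ[Q̄] FBar (N*ℓ)` with `w ∘ β = α` and `w ∘ α = β`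
                            (`α = heckeAlphaBar`, `β = heckeBetaBar`);
* `es3a_norm_transport`   : `N_α(x) = N_β(w x)` (norms of `F̄_{Nℓ}` down to `F̄_N` along `α` resp. `β`);
* `es3a_norm_alpha_beta`  : `N_α(β u) = N_β(α u)`: the function `h = N_α(β u)` with `div h = T_ℓ (div u)` is the norm computed by
                            `esc_norm_eq` (helper60): `h(q) = u(q^ℓ) · ∏_b u(ζ^b q^{1/ℓ})`.
-/
import Mathlib
import Fermat.Prelude.Def_ModularCurve_HeckeOperator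
import Fermat.Agent.S18x.CuspConjPrim
import Fermat.Agent.S37x.BetaDegree
import Fermat.Agent.S37x.Es3AL

set_option autoImplicit false
set_option linter.style.haveILetI false

namespace Fermat.Agent.S37x

open IntermediateField Polynomial AlgebraicCurve ModularCurve Fermat.Agent.S18x Fermat.Agent.S24x
  Fermat.Agent.S28x

section Integral

variable (K : Type*) [Field K] (N ℓ : ℕ) [Fact ℓ.Prime]

/-- `j` is integral over `E₀ = β(F_N)` (it is a root of `Φ_ℓ(X; j(q^ℓ))`) -/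
theorem es3a_isIntegral_J : IsIntegral (↥(es3a_E0 K N ℓ)) (jqModC K) := by
  classical
  obtain ⟨Φ, hΦm, hΦd, h1, h2⟩ := mpcf_exists_modPoly_ring K ℓ
  set E0 := es3a_E0 K N ℓ with hE0
  set J := jqModC K with hJ
  have hJℓ : qExpand K ℓ J ∈ E0 := es3a_mem_E0 K N ℓ (jqModC_mem_full K N)
  set φ0 : Polynomial K →+* ↥E0 := (Polynomial.aeval (⟨qExpand K ℓ J, hJℓ⟩ : ↥E0)).toRingHom with hφ0
  have hcomp : (algebraMap (↥E0) (LaurentSeries K)).comp φ0 =
      (Polynomial.aeval (qExpand K ℓ J)).toRingHom := by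
    apply Polynomial.ringHom_ext
    · intro a
      simp [hφ0]
    · simp [hφ0]
  refine ⟨Φ.map φ0, hΦm.map φ0, ?_⟩
  rw [Polynomial.eval₂_map, hcomp]
  exact h2

end Integral

section Bar

variable (N ℓ : ℕ) [NeZero N] [Fact ℓ.Prime]

/-- (hgen) over `Q̄`: `F_{Nℓ} ⊆ E₀(j)` -/
theorem es3a_hgen_bar : ∀ e ∈ modularFunctionFieldFullC Qbar (N * ℓ),
    e ∈ IntermediateField.adjoin (↥(es3a_E0 Qbar N ℓ)) ({jqModC Qbar} : Set (LaurentSeries Qbar)) := by
  intro e he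
  rw [ccp_fullC_eq_adjoin_pair (N * ℓ)] at he
  have h1 : jqModC Qbar ∈ IntermediateField.adjoin (↥(es3a_E0 Qbar N ℓ))
      ({jqModC Qbar} : Set (LaurentSeries Qbar)) :=
    IntermediateField.subset_adjoin (↥(es3a_E0 Qbar N ℓ)) ({jqModC Qbar} : Set (LaurentSeries Qbar))
      (Set.mem_singleton (jqModC Qbar))
  have hmem : jqNModC Qbar (N * ℓ) ∈ es3a_E0 Qbar N ℓ := by
    have h := es3a_mem_E0 Qbar N ℓ (jqModCd_mem_full Qbar N (dvd_refl N))
    rw [qExpand_qExpand] at h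
    rw [jqNModC, qExpand_congr (mul_comm N ℓ)]
    exact h
  have h2 : jqNModC Qbar (N * ℓ) ∈ IntermediateField.adjoin (↥(es3a_E0 Qbar N ℓ))
      ({jqModC Qbar} : Set (LaurentSeries Qbar)) :=
    (IntermediateField.adjoin (↥(es3a_E0 Qbar N ℓ))
      ({jqModC Qbar} : Set (LaurentSeries Qbar))).algebraMap_mem ⟨_, hmem⟩
  have hle : IntermediateField.adjoin Qbar ({jqModC Qbar, jqNModC Qbar (N * ℓ)} : Set (LaurentSeries Qbar)) ≤
      (IntermediateField.adjoin (↥(es3a_E0 Qbar N ℓ))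
        ({jqModC Qbar} : Set (LaurentSeries Qbar))).restrictScalars Qbar := by
    rw [IntermediateField.adjoin_le_iff]
    intro x hx
    rw [Set.mem_insert_iff, Set.mem_singleton_iff] at hx
    rcases hx with hx | hx
    · rw [hx]
      exact h1
    · rw [hx]
      exact h2
  exact hle he

/-- (hdeg) over `Q̄`: `deg minpoly_{E₀}(j) ≥ ℓ + 1` for `ℓ ∤ N` -/
theorem es3a_hdeg_bar (hℓN : ¬ ℓ ∣ N) :
    ℓ + 1 ≤ (minpoly (↥(es3a_E0 Qbar N ℓ)) (jqModC Qbar)).natDegree := by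
  have hint := es3a_isIntegral_J Qbar N ℓ
  have hrel : relfinrank (es3a_E0 Qbar N ℓ) (modularFunctionFieldFullC Qbar (N * ℓ)) = ℓ + 1 :=
    bdg37_relfinrank_beta N ℓ Fact.out hℓN
  have hle : es3a_E0 Qbar N ℓ ≤ modularFunctionFieldFullC Qbar (N * ℓ) := es3a_E0_le Qbar N ℓ
  rw [relfinrank_eq_finrank_of_le hle] at hrel
  have heq : extendScalars hle =
      IntermediateField.adjoin (↥(es3a_E0 Qbar N ℓ)) ({jqModC Qbar} : Set (LaurentSeries Qbar)) := by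
    apply le_antisymm
    · intro e he
      exact es3a_hgen_bar N ℓ e he
    · rw [IntermediateField.adjoin_le_iff]
      rintro x hx
      rw [Set.mem_singleton_iff] at hx
      subst hx
      exact jqModC_mem_full Qbar (N * ℓ)
  rw [heq, IntermediateField.adjoin.finrank hint] at hrel
  exact hrel.ge

/-- **the Atkin–Lehner involution over `Q̄`** in `modularFunctionFieldFullC` language -/
theorem es3a_exists_w_bar (hℓN : ¬ ℓ ∣ N) :
    ∃ w : ↥(modularFunctionFieldFullC Qbar (N * ℓ)) ≃ₐ[Qbar] ↥(modularFunctionFieldFullC Qbar (N * ℓ)),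
      (∀ (f : LaurentSeries Qbar) (hf : f ∈ modularFunctionFieldFullC Qbar N),
        w ⟨qExpand Qbar ℓ f, es3a_beta_mem Qbar N ℓ hf⟩ = ⟨f, es3a_alpha_mem Qbar N ℓ hf⟩) ∧
      (∀ (f : LaurentSeries Qbar) (hf : f ∈ modularFunctionFieldFullC Qbar N),
        w ⟨f, es3a_alpha_mem Qbar N ℓ hf⟩ = ⟨qExpand Qbar ℓ f, es3a_beta_mem Qbar N ℓ hf⟩) := by
  obtain ⟨z, hz⟩ := HasEnoughRootsOfUnity.exists_primitiveRoot Qbar ℓ
  have hzu : IsUnit z := hz.isUnit (NeZero.ne ℓ)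
  obtain ⟨ξ, rfl⟩ := hzu
  have hξ : IsPrimitiveRoot ξ ℓ := IsPrimitiveRoot.coe_units_iff.mp hz
  exact es3a_exists_w Qbar N ℓ ξ hξ hℓN (es3a_hgen_bar N ℓ) (es3a_hdeg_bar N ℓ hℓN)

/-- transport of an automorphism along an equality of intermediate fields -/
theorem es3a_transport {K Ω : Type*} [Field K] [Field Ω] [Algebra K Ω] (E E' : IntermediateField K Ω)
    (h : E = E') (w : ↥E ≃ₐ[K] ↥E) :
    ∃ w' : ↥E' ≃ₐ[K] ↥E', ∀ (x : Ω) (hx : x ∈ E) (hx' : x ∈ E'),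
      ((w' ⟨x, hx'⟩ : ↥E') : Ω) = ((w ⟨x, hx⟩ : ↥E) : Ω) := by
  subst h
  exact ⟨w, fun x hx hx' => rfl⟩

/-- **the Atkin–Lehner involution of `F̄_{Nℓ}`** exchanging the two degeneracy maps -/
theorem es3a_exists_wBar (hℓN : ¬ ℓ ∣ N) :
    ∃ w : FBar (N * ℓ) ≃ₐ[Qbar] FBar (N * ℓ),
      (∀ u : FBar N, w (heckeBetaBar Qbar N ℓ u) = heckeAlphaBar Qbar N ℓ u) ∧
      (∀ u : FBar N, w (heckeAlphaBar Qbar N ℓ u) = heckeBetaBar Qbar N ℓ u) := by
  obtain ⟨w, hwb, hwa⟩ := es3a_exists_w_bar N ℓ hℓN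
  have hN : modularFunctionFieldFullC Qbar N = modularFunctionFieldBar N := ccp_fullC_eq_bar N
  have hNl : modularFunctionFieldFullC Qbar (N * ℓ) = modularFunctionFieldBar (N * ℓ) :=
    ccp_fullC_eq_bar (N * ℓ)
  obtain ⟨w', hw'⟩ := es3a_transport _ _ hNl w
  refine ⟨w', ?_, ?_⟩
  · intro u
    have hu : (u : LaurentSeries Qbar) ∈ modularFunctionFieldFullC Qbar N := by
      rw [hN]
      exact u.2
    have hx' : qExpand Qbar ℓ (u : LaurentSeries Qbar) ∈ modularFunctionFieldBar (N * ℓ) := by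
      rw [← coe_heckeBetaBar (L := Qbar) N ℓ u]
      exact (heckeBetaBar Qbar N ℓ u).2
    have h1 : heckeBetaBar Qbar N ℓ u = ⟨qExpand Qbar ℓ (u : LaurentSeries Qbar), hx'⟩ :=
      Subtype.ext (coe_heckeBetaBar (L := Qbar) N ℓ u)
    apply Subtype.ext
    rw [h1, hw' _ (es3a_beta_mem Qbar N ℓ hu) hx', hwb _ hu, coe_heckeAlphaBar]
  · intro u
    have hu : (u : LaurentSeries Qbar) ∈ modularFunctionFieldFullC Qbar N := by
      rw [hN]
      exact u.2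
    have hx' : (u : LaurentSeries Qbar) ∈ modularFunctionFieldBar (N * ℓ) := by
      rw [← coe_heckeAlphaBar (L := Qbar) N ℓ u]
      exact (heckeAlphaBar Qbar N ℓ u).2
    have h1 : heckeAlphaBar Qbar N ℓ u = ⟨(u : LaurentSeries Qbar), hx'⟩ :=
      Subtype.ext (coe_heckeAlphaBar (L := Qbar) N ℓ u)
    apply Subtype.ext
    rw [h1, hw' _ (es3a_alpha_mem Qbar N ℓ hu) hx', hwa _ hu, coe_heckeBetaBar]

/-- **norm transport**: `N_α(x) = N_β(w x)` -/
theorem es3a_norm_transport (w : FBar (N * ℓ) ≃ₐ[Qbar] FBar (N * ℓ))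
    (hwa : ∀ u : FBar N, w (heckeAlphaBar Qbar N ℓ u) = heckeBetaBar Qbar N ℓ u) (x : FBar (N * ℓ)) :
    @Algebra.norm (FBar N) (FBar (N * ℓ)) _ _ (algebraAlong (heckeAlphaBar Qbar N ℓ)) x =
      @Algebra.norm (FBar N) (FBar (N * ℓ)) _ _ (algebraAlong (heckeBetaBar Qbar N ℓ)) (w x) := by
  have h := @Algebra.norm_eq_of_equiv_equiv (FBar N) (FBar (N * ℓ)) (FBar N) (FBar (N * ℓ)) _ _ _ _
    (algebraAlong (heckeAlphaBar Qbar N ℓ)) (algebraAlong (heckeBetaBar Qbar N ℓ))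
    (RingEquiv.refl (FBar N)) w.toRingEquiv (RingHom.ext fun u => (hwa u).symm) x
  exact h

/-- **the hard-norm transport**: `N_{F_{Nℓ}/α F_N}(β u) = N_{F_{Nℓ}/β F_N}(α u)` -/
theorem es3a_norm_alpha_beta (hℓN : ¬ ℓ ∣ N) (u : FBar N) :
    @Algebra.norm (FBar N) (FBar (N * ℓ)) _ _ (algebraAlong (heckeAlphaBar Qbar N ℓ))
        (heckeBetaBar Qbar N ℓ u) =
      @Algebra.norm (FBar N) (FBar (N * ℓ)) _ _ (algebraAlong (heckeBetaBar Qbar N ℓ))
        (heckeAlphaBar Qbar N ℓ u) := by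
  obtain ⟨w, hwb, hwa⟩ := es3a_exists_wBar N ℓ hℓN
  rw [es3a_norm_transport N ℓ w hwa, hwb]

end Bar

end Fermat.Agent.S37x
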