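import Mathlib
import Fermat.Agent.S18x.TsBasic
import Fermat.Agent.S18x.GaussA
import Fermat.Agent.S37x.CoeffFrob
import Fermat.Prelude.Def_ModularCurve_ReductionModL
import Fermat.Prelude.Def_HeckeGalois_EichlerShimura

/-!
# S37 [B3] leaf GAL: Galois compatibility of ANY place reduction `r` satisfying the SPEC

Setting of `S18x/TsBasic`: `H : ts_Hyp A π W ρ r` (Gauss ring `W ⊂ F`, residue map `ρ : W → Fb`,
place map `r` with conservation of number).  Let `s` be a semilinear automorphism of `F / L` and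
`σ` one of `Fb / k` such that `W` is `s⁻¹`-stable and `ρ (s⁻¹ u) = σ⁻¹ (ρ u)`.

* `es3g_place`: given separating functions (the hypotheses `hsep`, `hsep'` of `es3_global`, row
  ES-hsep) and invariance of the chart `𝒮` under `s`, we get `r (s • P) = σ • r P` for EVERY
  place `P`.  (Direct argument: a function vanishing at `s • P`, whose reduction vanishes simply at
  `r (s • P)` and not at `σ • r P`, pulled back by `s`, vanishes at `P`, so its reduction `σ⁻¹ ρ u`
  vanishes at `r P`.)
* `es3g_divisor`, `es3g_pic0`: the same on divisors and on `Pic0`: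
  `red (s • x) = σ • red x`.
* `es3g_chart_invariant`: invariance of the chart from a coordinate `J = s • J`.
* `es3g_coeffMap_mem_W`, `es3g_rho_coeffMap`: the ambient facts (G1), (G2) for the Gauss ring
  `ga_W A π ⊂ L((q))`: a coefficientwise ring endomorphism of `L` preserving `A` preserves `ga_W`
  and commutes with `ga_rho`.
-/

set_option autoImplicit false

noncomputable section

namespace Fermat.Agent.S37x

open AlgebraicCurve ModularCurve Fermat.Agent.S18x

/-! ### The abstract statement -/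

section Abstract

variable {L k F Fb : Type*} [Field L] [Field k] [Field F] [Field Fb] [Algebra L F] [Algebra k Fb]
variable {A : ValuationSubring L} {π : A →+* k} {W : ValuationSubring F} {ρ : W →+* Fb}
  {r : Place L F → Place k Fb}

/-- One chart: if `r (s • P) ∉ 𝒮` then `r (s • P) = σ • r P`. -/
theorem es3g_place_of_not_mem (H : ts_Hyp A π W ρ r) (s : SemilinearAut L F)
    (σ : SemilinearAut k Fb)
    (hW : ∀ u : F, u ∈ W → s⁻¹ • u ∈ W)
    (hρ : ∀ u : W, ρ ⟨s⁻¹ • (u : F), hW u u.2⟩ = σ⁻¹ • ρ u)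
    (𝒮 : Set (Place k Fb))
    (hc : ∀ P' : Place L F, r (s • P') ∈ 𝒮 ↔ r P' ∈ 𝒮)
    (hsep : ∀ P, r P ∉ 𝒮 → ∀ S : Finset (Place k Fb), r P ∉ S →
      ∃ u : W, ρ u ≠ 0 ∧ 0 < P.ord (u : F) ∧ (r P).ord (ρ u) = 1 ∧
        (∀ P'', P''.ord (u : F) < 0 → r P'' ∈ 𝒮) ∧ ∀ Q ∈ S, Q.ord (ρ u) = 0)
    (P : Place L F) (hP : r (s • P) ∉ 𝒮) : r (s • P) = σ • r P := by
  classical
  by_contra hne
  obtain ⟨u, hu, huP, -, hupole, huS⟩ :=
    hsep (s • P) hP {σ • r P} (by rw [Finset.mem_singleton]; exact hne)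
  have hQ1 : (σ • r P).ord (ρ u) = 0 := huS _ (Finset.mem_singleton_self _)
  set u' : W := ⟨s⁻¹ • (u : F), hW u u.2⟩ with hu'
  have hord : ∀ P' : Place L F, P'.ord (u' : F) = (s • P').ord (u : F) := by
    intro P'
    have h := SemilinearAut.ord_smul s P' (s⁻¹ • (u : F))
    rw [smul_inv_smul] at h
    exact h.symm
  -- `u'` has no pole in the disc of `r P`
  have hreg : ∀ P', r P' = r P → P'.adicValuation (u' : F) ≤ 1 := by
    intro P' hP'
    rw [P'.adicValuation_le_one_iff]
    right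
    by_contra hlt
    rw [not_le, hord] at hlt
    have h1 : r (s • P') ∈ 𝒮 := hupole _ hlt
    have h2 : r P' ∈ 𝒮 := (hc P').mp h1
    rw [hP'] at h2
    exact hP ((hc P).mpr h2)
  have hvan : (r P).adicValuation (ρ u') < 1 := by
    refine H.van_of_disc u' (r P) hreg P rfl ?_
    rw [ts_val_lt_one_iff]
    right
    rw [hord]
    omega
  rw [hu', hρ u, ← cfb_adicValuation_smul_place, ts_val_lt_one_iff] at hvan
  rcases hvan with h0 | h1
  · exact hu h0
  · omega

/-- **Galois compatibility of the place reduction**: `r (s • P) = σ • r P` for every place. -/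
theorem es3g_place (H : ts_Hyp A π W ρ r) (s : SemilinearAut L F) (σ : SemilinearAut k Fb)
    (hW : ∀ u : F, u ∈ W → s⁻¹ • u ∈ W)
    (hρ : ∀ u : W, ρ ⟨s⁻¹ • (u : F), hW u u.2⟩ = σ⁻¹ • ρ u)
    (𝒮 : Set (Place k Fb))
    (hc : ∀ P' : Place L F, r (s • P') ∈ 𝒮 ↔ r P' ∈ 𝒮)
    (hsep : ∀ P, r P ∉ 𝒮 → ∀ S : Finset (Place k Fb), r P ∉ S →
      ∃ u : W, ρ u ≠ 0 ∧ 0 < P.ord (u : F) ∧ (r P).ord (ρ u) = 1 ∧
        (∀ P'', P''.ord (u : F) < 0 → r P'' ∈ 𝒮) ∧ ∀ Q ∈ S, Q.ord (ρ u) = 0)
    (hsep' : ∀ P, r P ∈ 𝒮 → ∀ S : Finset (Place k Fb), r P ∉ S →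
      ∃ u : W, ρ u ≠ 0 ∧ 0 < P.ord (u : F) ∧ (r P).ord (ρ u) = 1 ∧
        (∀ P'', P''.ord (u : F) < 0 → r P'' ∉ 𝒮) ∧ ∀ Q ∈ S, Q.ord (ρ u) = 0)
    (P : Place L F) : r (s • P) = σ • r P := by
  by_cases hP : r (s • P) ∈ 𝒮
  · refine es3g_place_of_not_mem H s σ hW hρ 𝒮ᶜ ?_ ?_ P (fun h => h hP)
    · intro P'
      rw [Set.mem_compl_iff, Set.mem_compl_iff, hc P']
    · intro P₁ hP₁ S hS
      have hP₁' : r P₁ ∈ 𝒮 := by
        by_contra h
        exact hP₁ h
      obtain ⟨u, h1, h2, h3, h4, h5⟩ := hsep' P₁ hP₁' S hS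
      exact ⟨u, h1, h2, h3, fun P'' hP'' => h4 P'' hP'', h5⟩
  · exact es3g_place_of_not_mem H s σ hW hρ 𝒮 hc hsep P hP

/-- Divisor form: `r_* (s • D) = σ • r_* D`. -/
theorem es3g_divisor (s : SemilinearAut L F) (σ : SemilinearAut k Fb)
    (hpl : ∀ P : Place L F, r (s • P) = σ • r P) (D : Divisor L F) :
    Finsupp.mapDomain r (s • D) = σ • Finsupp.mapDomain r D := by
  induction D using Finsupp.induction with
  | zero => simp
  | single_add P n D _ _ ih =>
    rw [smul_add, Finsupp.mapDomain_add, Finsupp.mapDomain_add, smul_add, ih,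
      SemilinearAut.smul_single, Finsupp.mapDomain_single, Finsupp.mapDomain_single,
      SemilinearAut.smul_single, hpl]

end Abstract

/-! ### `Pic0` form for the modular reduction map -/

section Pic0Form

variable {L : Type*} [Field L] [Algebra ℚ L] {A : ValuationSubring L}
variable {k : Type*} [Field k] {π : A →+* k} {N : ℕ}
variable {r : Place L (laurentBaseChange L (modularFunctionFieldFull N)) →
  Place k (modularFunctionFieldFullC k N)}

/-- If `r (s • P) = σ • r P` on places then `red (s • x) = σ • red x` on `Pic0`. -/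
theorem es3g_pic0 (hr : IsPlaceReductionAlong A π N r) (hgen : PrincipalGeneratedByIntegral A π N)
    (s : SemilinearAut L (laurentBaseChange L (modularFunctionFieldFull N)))
    (σ : SemilinearAut k (modularFunctionFieldFullC k N))
    (hpl : ∀ P, r (s • P) = σ • r P)
    (x : Pic0 L (laurentBaseChange L (modularFunctionFieldFull N))) :
    reductionPic0Along r hr hgen (s • x) = σ • reductionPic0Along r hr hgen x := by
  obtain ⟨D, rfl⟩ := Pic0.mk_surjective x
  rw [SemilinearAut.pic0_smul_mk, reductionPic0Along_mk, reductionPic0Along_mk,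
    SemilinearAut.pic0_smul_mk]
  refine congrArg Pic0.mk (Subtype.ext ?_)
  rw [coe_reductionDegZeroAlong, SemilinearAut.coe_degZeroSMulHom,
    SemilinearAut.coe_degZeroSMulHom, coe_reductionDegZeroAlong]
  exact es3g_divisor s σ hpl _

end Pic0Form

/-! ### Invariance of the chart -/

section Chart

variable {L k F Fb : Type*} [Field L] [Field k] [Field F] [Field Fb] [Algebra L F] [Algebra k Fb]
variable {A : ValuationSubring L} {r : Place L F → Place k Fb}

/-- If the chart `𝒮` is "the places where the coordinate `J` has no value in `A`", `J` is fixed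
by `s` and the base automorphism of `s` preserves `A`, then the chart is `s`-invariant. -/
theorem es3g_chart_invariant (s : SemilinearAut L F) (J : F) (hJ : s • J = J)
    (hsA : ∀ a : L, a ∈ A → SemilinearAut.baseAut s a ∈ A)
    (hsA' : ∀ a : L, a ∈ A → SemilinearAut.baseAut s⁻¹ a ∈ A)
    (𝒮 : Set (Place k Fb))
    (hS : ∀ P : Place L F, r P ∈ 𝒮 ↔
      ¬ ∃ a : L, a ∈ A ∧ P.adicValuation (J - algebraMap L F a) < 1)
    (P' : Place L F) : r (s • P') ∈ 𝒮 ↔ r P' ∈ 𝒮 := by
  rw [hS, hS, not_iff_not]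
  constructor
  · rintro ⟨a, ha, hv⟩
    refine ⟨SemilinearAut.baseAut s⁻¹ a, hsA' a ha, ?_⟩
    have hJ' : s⁻¹ • J = J := by
      conv_lhs => rw [← hJ]
      exact inv_smul_smul s J
    have h := cfb_value_smul s⁻¹ (s • P') J a hv
    rwa [inv_smul_smul, hJ'] at h
  · rintro ⟨a, ha, hv⟩
    refine ⟨SemilinearAut.baseAut s a, hsA a ha, ?_⟩
    have h := cfb_value_smul s P' J a hv
    rwa [hJ] at h

end Chart

/-! ### The ambient facts (G1), (G2) for the Gauss ring `ga_W A π ⊂ L((q))` -/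

section Ambient

variable {L : Type*} [Field L] (A : ValuationSubring L) {k : Type*} [Field k] (π : A →+* k)
variable (s : L →+* L) (hsA : ∀ a : A, s a ∈ A) (sb : k →+* k)

/-- the restriction of `s` to `A` -/
def es3g_resA : A →+* A :=
  (s.comp A.subtype).codRestrict A.toSubring hsA

omit [Field k] in
theorem es3g_iota_resA (a : LaurentSeries A) :
    ga_iota A (coeffMap (es3g_resA A s hsA) a) = coeffMap s (ga_iota A a) := by
  rw [ga_iota, coeffMap_coeffMap, coeffMap_coeffMap]
  exact coeffMap_congr (RingHom.ext fun _ => rfl) a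

variable {π} in
theorem es3g_red_resA (hsb : ∀ a : A, π ⟨s a, hsA a⟩ = sb (π a)) (a : LaurentSeries A) :
    ga_red A π (coeffMap (es3g_resA A s hsA) a) = coeffMap sb (ga_red A π a) := by
  rw [ga_red, coeffMap_coeffMap, coeffMap_coeffMap]
  exact coeffMap_congr (RingHom.ext fun a => hsb a) a

theorem es3g_coeffMap_injective : Function.Injective (coeffMap sb) := by
  intro u v h
  ext n
  have := congrArg (fun x => x.coeff n) h
  simp only [coeffMap_coeff] at this
  exact sb.injective this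

variable {A π} in
/-- **(G1)** a coefficientwise endomorphism preserving `A` preserves the Gauss ring. -/
theorem es3g_coeffMap_mem_W (hsb : ∀ a : A, π ⟨s a, hsA a⟩ = sb (π a)) {x : LaurentSeries L}
    (hx : x ∈ ga_W A π) : coeffMap s x ∈ ga_W A π := by
  obtain ⟨a, b, hb, h⟩ := hx
  refine ⟨coeffMap (es3g_resA A s hsA) a, coeffMap (es3g_resA A s hsA) b, ?_, ?_⟩
  · rw [es3g_red_resA A s hsA sb hsb]
    intro h0
    apply hb
    apply es3g_coeffMap_injective sb
    rw [h0, map_zero]
  · rw [es3g_iota_resA, es3g_iota_resA, ← map_mul, h]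

variable {A π} in
/-- **(G2)** `ρ (s x) = s̄ (ρ x)`. -/
theorem es3g_rho_coeffMap (hsb : ∀ a : A, π ⟨s a, hsA a⟩ = sb (π a)) {x : LaurentSeries L}
    (hx : x ∈ ga_W A π) :
    ga_rho A π ⟨coeffMap s x, es3g_coeffMap_mem_W s hsA sb hsb hx⟩ =
      coeffMap sb (ga_rho A π ⟨x, hx⟩) := by
  have hx' := hx
  obtain ⟨a, b, hb, h⟩ := hx'
  have hb' : ga_red A π (coeffMap (es3g_resA A s hsA) b) ≠ 0 := by
    rw [es3g_red_resA A s hsA sb hsb]
    intro h0
    apply hb
    apply es3g_coeffMap_injective sb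
    rw [h0, map_zero]
  have h' : coeffMap s x * ga_iota A (coeffMap (es3g_resA A s hsA) b) =
      ga_iota A (coeffMap (es3g_resA A s hsA) a) := by
    rw [es3g_iota_resA, es3g_iota_resA, ← map_mul, h]
  have e1 := ga_rho_eq A π ⟨coeffMap s x, es3g_coeffMap_mem_W s hsA sb hsb hx⟩ hb' h'
  have e2 := ga_rho_eq A π ⟨x, hx⟩ hb h
  rw [e1, e2, es3g_red_resA A s hsA sb hsb, es3g_red_resA A s hsA sb hsb, map_div₀]

end Ambient

/-! ### The modular instance: the arithmetic Galois action -/

section Modular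

variable {L : Type*} [Field L] [Algebra ℚ L] {A : ValuationSubring L}
variable {k : Type*} [Field k] {π : A →+* k} {N : ℕ}
variable {W : ValuationSubring (laurentBaseChange L (modularFunctionFieldFull N))}
variable {ρ : W →+* modularFunctionFieldFullC k N}
variable {r : Place L (laurentBaseChange L (modularFunctionFieldFull N)) →
  Place k (modularFunctionFieldFullC k N)}

set_option maxHeartbeats 800000 in
/-- **Galois compatibility, modular form.**  `W` is the trace on `F_N` of the ambient Gauss ring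
`ga_W A π` and `ρ` the restriction of `ga_rho` (as for `gi_W`/`gi_rho` and `gwm_W`/`gwm_rho` of
S18x); `τ` is an automorphism of `L/ℚ` with `τ⁻¹ A ⊆ A` inducing `τb⁻¹` on the residue field.
Then `r (τ • P) = τb • r P`, where `τ` acts through the Prelude's `arithmeticGalois` and `τb`
through the coefficientwise action `cfb_coeffAut`. -/
theorem es3g_modular_place (H : ts_Hyp A π W ρ r)
    (hWmem : ∀ x : laurentBaseChange L (modularFunctionFieldFull N),
      x ∈ W ↔ (x : LaurentSeries L) ∈ ga_W A π)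
    (hρcoe : ∀ x : W, ((ρ x : modularFunctionFieldFullC k N) : LaurentSeries k) =
      ga_rho A π ⟨((x : laurentBaseChange L (modularFunctionFieldFull N)) : LaurentSeries L),
        (hWmem x).mp x.2⟩)
    (τ : L ≃ₐ[ℚ] L) (hτA : ∀ a : A, τ.symm (a : L) ∈ A) (τb : k ≃+* k)
    (hτb : ∀ a : A, π ⟨τ.symm (a : L), hτA a⟩ = τb.symm (π a))
    (𝒮 : Set (Place k (modularFunctionFieldFullC k N)))
    (hc : ∀ P', r (arithmeticGalois (modularFunctionFieldFull N) τ • P') ∈ 𝒮 ↔ r P' ∈ 𝒮)
    (hsep : ∀ P, r P ∉ 𝒮 → ∀ S : Finset (Place k (modularFunctionFieldFullC k N)), r P ∉ S →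
      ∃ u : W, ρ u ≠ 0 ∧ 0 < P.ord (u : laurentBaseChange L (modularFunctionFieldFull N)) ∧
        (r P).ord (ρ u) = 1 ∧
        (∀ P'', P''.ord (u : laurentBaseChange L (modularFunctionFieldFull N)) < 0 → r P'' ∈ 𝒮) ∧
        ∀ Q ∈ S, Q.ord (ρ u) = 0)
    (hsep' : ∀ P, r P ∈ 𝒮 → ∀ S : Finset (Place k (modularFunctionFieldFullC k N)), r P ∉ S →
      ∃ u : W, ρ u ≠ 0 ∧ 0 < P.ord (u : laurentBaseChange L (modularFunctionFieldFull N)) ∧
        (r P).ord (ρ u) = 1 ∧
        (∀ P'', P''.ord (u : laurentBaseChange L (modularFunctionFieldFull N)) < 0 → r P'' ∉ 𝒮) ∧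
        ∀ Q ∈ S, Q.ord (ρ u) = 0)
    (P : Place L (laurentBaseChange L (modularFunctionFieldFull N))) :
    r (arithmeticGalois (modularFunctionFieldFull N) τ • P) = cfb_coeffAut k N τb • r P := by
  set s := arithmeticGalois (modularFunctionFieldFull N) τ with hs
  set σ := cfb_coeffAut k N τb with hσ
  have hcoe : ∀ u : laurentBaseChange L (modularFunctionFieldFull N),
      ((s⁻¹ • u : laurentBaseChange L (modularFunctionFieldFull N)) : LaurentSeries L) =
        coeffMap ((τ.symm : L ≃ₐ[ℚ] L) : L →+* L) (u : LaurentSeries L) := by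
    intro u
    rw [hs, ← map_inv]
    exact coe_arithmeticGalois_smul (modularFunctionFieldFull N) τ⁻¹ u
  have hcoeσ : ∀ v : modularFunctionFieldFullC k N,
      ((σ⁻¹ • v : modularFunctionFieldFullC k N) : LaurentSeries k) =
        coeffMap ((τb.symm : k ≃+* k) : k →+* k) (v : LaurentSeries k) := by
    intro v
    rw [hσ, ← map_inv]
    exact cfb_coe_coeffAut_smul k N τb⁻¹ v
  have hW : ∀ u : laurentBaseChange L (modularFunctionFieldFull N), u ∈ W → s⁻¹ • u ∈ W := by
    intro u hu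
    rw [hWmem, hcoe]
    exact es3g_coeffMap_mem_W ((τ.symm : L ≃ₐ[ℚ] L) : L →+* L) hτA
      ((τb.symm : k ≃+* k) : k →+* k) hτb ((hWmem u).mp hu)
  have hρ : ∀ u : W, ρ ⟨s⁻¹ • (u : laurentBaseChange L (modularFunctionFieldFull N)), hW u u.2⟩ =
      σ⁻¹ • ρ u := by
    intro u
    apply Subtype.ext
    have h1 := es3g_rho_coeffMap ((τ.symm : L ≃ₐ[ℚ] L) : L →+* L) hτA
      ((τb.symm : k ≃+* k) : k →+* k) hτb ((hWmem u).mp u.2)
    have h2 := hρcoe ⟨s⁻¹ • (u : laurentBaseChange L (modularFunctionFieldFull N)), hW u u.2⟩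
    have h3 := hρcoe u
    rw [h2, hcoeσ, h3, ← h1]
    exact ga_rho_congr A π (hcoe u) _ _
  exact es3g_place H s σ hW hρ 𝒮 hc hsep hsep' P

/-- `Pic0` form of `es3g_modular_place`, for the Prelude's Galois action on
`Pic0 L (laurentBaseChange L F₀)`. -/
theorem es3g_modular_pic0 (hr : IsPlaceReductionAlong A π N r)
    (hgen : PrincipalGeneratedByIntegral A π N) (τ : L ≃ₐ[ℚ] L) (τb : k ≃+* k)
    (hpl : ∀ P, r (arithmeticGalois (modularFunctionFieldFull N) τ • P) =
      cfb_coeffAut k N τb • r P)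
    (x : Pic0 L (laurentBaseChange L (modularFunctionFieldFull N))) :
    reductionPic0Along r hr hgen (τ • x) = cfb_coeffAut k N τb • reductionPic0Along r hr hgen x := by
  rw [galois_smul_pic0_def]
  exact es3g_pic0 hr hgen _ _ hpl x

end Modular

/-! ### Decomposition group, inertia, Frobenius -/

section Decomposition

variable {L : Type*} [Field L] [Algebra ℚ L] (A : ValuationSubring L)

/-- the automorphism of the residue field induced by an element of the decomposition group -/
def es3g_resAut (g : A.decompositionSubgroup ℚ) :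
    IsLocalRing.ResidueField A ≃+* IsLocalRing.ResidueField A :=
  MulSemiringAction.toRingAut (A.decompositionSubgroup ℚ) (IsLocalRing.ResidueField A) g

theorem es3g_resAut_apply (g : A.decompositionSubgroup ℚ) (x : IsLocalRing.ResidueField A) :
    es3g_resAut A g x = g • x := rfl

theorem es3g_resAut_symm (g : A.decompositionSubgroup ℚ) :
    (es3g_resAut A g).symm = es3g_resAut A g⁻¹ := by
  rw [es3g_resAut, es3g_resAut, map_inv]
  rfl

theorem es3g_apply_mem (g : A.decompositionSubgroup ℚ) (a : A) :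
    (g : L ≃ₐ[ℚ] L) (a : L) ∈ A :=
  (g • a).2

theorem es3g_symm_apply_mem (g : A.decompositionSubgroup ℚ) (a : A) :
    (g : L ≃ₐ[ℚ] L).symm (a : L) ∈ A :=
  es3g_apply_mem A g⁻¹ a

theorem es3g_residue_apply (g : A.decompositionSubgroup ℚ) (a : A) :
    IsLocalRing.residue A ⟨(g : L ≃ₐ[ℚ] L) (a : L), es3g_apply_mem A g a⟩ =
      es3g_resAut A g (IsLocalRing.residue A a) :=
  rfl

theorem es3g_residue_symm_apply (g : A.decompositionSubgroup ℚ) (a : A) :
    IsLocalRing.residue A ⟨(g : L ≃ₐ[ℚ] L).symm (a : L), es3g_symm_apply_mem A g a⟩ =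
      (es3g_resAut A g).symm (IsLocalRing.residue A a) := by
  rw [es3g_resAut_symm]
  exact es3g_residue_apply A g⁻¹ a

/-- elements of the inertia group act trivially on the residue field -/
theorem es3g_resAut_of_mem_inertia {τ : L ≃ₐ[ℚ] L} (hτ : τ ∈ A.inertiaSubgroupIn ℚ) :
    ∃ g : A.decompositionSubgroup ℚ, (g : L ≃ₐ[ℚ] L) = τ ∧ es3g_resAut A g = 1 := by
  obtain ⟨g, hg, rfl⟩ := hτ
  exact ⟨g, rfl, MonoidHom.mem_ker.mp hg⟩

/-- a Frobenius element induces the Frobenius of the residue field -/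
theorem es3g_resAut_of_isFrobeniusAt {σ : L ≃ₐ[ℚ] L} {ℓ : ℕ} (hσ : A.IsFrobeniusAt σ ℓ)
    [Fact ℓ.Prime] [CharP (IsLocalRing.ResidueField A) ℓ]
    [PerfectRing (IsLocalRing.ResidueField A) ℓ] :
    es3g_resAut A ⟨σ, hσ.mem_decompositionSubgroup⟩ =
      frobeniusEquiv (IsLocalRing.ResidueField A) ℓ := by
  ext x
  rw [es3g_resAut_apply, hσ.smul_residue_eq x, frobeniusEquiv_apply, frobenius_def]

end Decomposition

/-! ### Final form: the decomposition group -/

section Final

variable {L : Type*} [Field L] [Algebra ℚ L] {A : ValuationSubring L} {N : ℕ}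
variable {k : Type*} [Field k] {π : A →+* k}
variable {W : ValuationSubring (laurentBaseChange L (modularFunctionFieldFull N))}
variable {ρ : W →+* modularFunctionFieldFullC k N}
variable {r : Place L (laurentBaseChange L (modularFunctionFieldFull N)) →
  Place k (modularFunctionFieldFullC k N)}

set_option maxHeartbeats 800000 in
/-- **Decomposition group**: `r (g • P) = ḡ • r P` for every `g` in the decomposition group of
`A` inducing `τb` on the residue field `k` (for `π = IsLocalRing.residue A` take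
`τb = es3g_resAut A g`, `hτb = es3g_residue_symm_apply A g`), for ANY `r` satisfying the SPEC,
given the separation hypotheses of `es3_global` (row ES-hsep) for the chart
`𝒮 = {places where J has no value in A}`. -/
theorem es3g_final_place (H : ts_Hyp A π W ρ r)
    (hWmem : ∀ x : laurentBaseChange L (modularFunctionFieldFull N),
      x ∈ W ↔ (x : LaurentSeries L) ∈ ga_W A π)
    (hρcoe : ∀ x : W, ((ρ x : modularFunctionFieldFullC k N) : LaurentSeries k) =
      ga_rho A π ⟨((x : laurentBaseChange L (modularFunctionFieldFull N)) : LaurentSeries L),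
        (hWmem x).mp x.2⟩)
    (J : laurentBaseChange L (modularFunctionFieldFull N))
    (hJ : ∀ τ : L ≃ₐ[ℚ] L, coeffMap (τ : L →+* L) (J : LaurentSeries L) = (J : LaurentSeries L))
    (𝒮 : Set (Place k (modularFunctionFieldFullC k N)))
    (hS : ∀ P : Place L (laurentBaseChange L (modularFunctionFieldFull N)), r P ∈ 𝒮 ↔
      ¬ ∃ a : L, a ∈ A ∧ P.adicValuation (J - algebraMap L _ a) < 1)
    (hsep : ∀ P, r P ∉ 𝒮 → ∀ S : Finset (Place k (modularFunctionFieldFullC k N)), r P ∉ S →
      ∃ u : W, ρ u ≠ 0 ∧ 0 < P.ord (u : laurentBaseChange L (modularFunctionFieldFull N)) ∧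
        (r P).ord (ρ u) = 1 ∧
        (∀ P'', P''.ord (u : laurentBaseChange L (modularFunctionFieldFull N)) < 0 → r P'' ∈ 𝒮) ∧
        ∀ Q ∈ S, Q.ord (ρ u) = 0)
    (hsep' : ∀ P, r P ∈ 𝒮 → ∀ S : Finset (Place k (modularFunctionFieldFullC k N)), r P ∉ S →
      ∃ u : W, ρ u ≠ 0 ∧ 0 < P.ord (u : laurentBaseChange L (modularFunctionFieldFull N)) ∧
        (r P).ord (ρ u) = 1 ∧
        (∀ P'', P''.ord (u : laurentBaseChange L (modularFunctionFieldFull N)) < 0 → r P'' ∉ 𝒮) ∧
        ∀ Q ∈ S, Q.ord (ρ u) = 0)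
    (g : A.decompositionSubgroup ℚ) (τb : k ≃+* k)
    (hτb : ∀ a : A, π ⟨(g : L ≃ₐ[ℚ] L).symm (a : L), es3g_symm_apply_mem A g a⟩ = τb.symm (π a))
    (P : Place L (laurentBaseChange L (modularFunctionFieldFull N))) :
    r (arithmeticGalois (modularFunctionFieldFull N) (g : L ≃ₐ[ℚ] L) • P) =
      cfb_coeffAut k N τb • r P := by
  have hJs : arithmeticGalois (modularFunctionFieldFull N) (g : L ≃ₐ[ℚ] L) • J = J :=
    Subtype.ext (by rw [coe_arithmeticGalois_smul]; exact hJ _)
  have hc := es3g_chart_invariant (A := A) (r := r)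
    (arithmeticGalois (modularFunctionFieldFull N) (g : L ≃ₐ[ℚ] L)) J hJs
    (fun a ha => es3g_apply_mem A g ⟨a, ha⟩)
    (fun a ha => es3g_symm_apply_mem A g ⟨a, ha⟩) 𝒮 hS
  exact es3g_modular_place H hWmem hρcoe (g : L ≃ₐ[ℚ] L) (es3g_symm_apply_mem A g)
    τb hτb 𝒮 hc hsep hsep' P

end Final

end Fermat.Agent.S37x
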