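import Fermat.Agent.S37x.Es3Galois

/-!
# S37 [B3] leaf GAL, corrected hypotheses (companion of `Es3Galois.lean`)

`Es3Galois.lean` was written against the separation hypotheses `hsep`, `hsep'` of the first
`es3_global`, which quantify over ALL finite sets `S` and are not satisfiable (see
`Es3Local2.lean`).  Here the same results are proved with the corrected shape of `es3_global2`:
`hsep : ∀ P, r P ∉ 𝒮 → ∀ S, (∀ Q ∈ S, Q ∉ 𝒮) → r P ∉ S → ∃ u, ...` (and `hsep'` with `Q ∈ 𝒮`),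
which is exactly the output shape of `es3p_hsep`, `es3p_hsep'` (`Es3Sep.lean`).

* `es3g2_place`: `r (s • P) = σ • r P` for every place (abstract `ts_Hyp` form); extra input:
  the chart `𝒮` of `Fb` is `σ`-invariant.
* `es3g2_modular_place`: the modular instance (`arithmeticGalois τ`, `cfb_coeffAut τb`).
* `es3g2_final_place`: for `g` in the decomposition group, with `𝒮 = {poles of ρ J}` and the chart
  invariances DERIVED from `J` being fixed by Galois and from the SPEC consequences `hF1`, `hF2`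
  (row 22).
-/

set_option autoImplicit false

noncomputable section

namespace Fermat.Agent.S37x

open AlgebraicCurve ModularCurve Fermat.Agent.S18x

section Abstract

variable {L k F Fb : Type*} [Field L] [Field k] [Field F] [Field Fb] [Algebra L F] [Algebra k Fb]
variable {A : ValuationSubring L} {π : A →+* k} {W : ValuationSubring F} {ρ : W →+* Fb}
  {r : Place L F → Place k Fb}

/-- One chart: if `r (s • P) ∉ 𝒮` then `r (s • P) = σ • r P`. -/
theorem es3g2_place_of_not_mem (H : ts_Hyp A π W ρ r) (s : SemilinearAut L F)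
    (σ : SemilinearAut k Fb)
    (hW : ∀ u : F, u ∈ W → s⁻¹ • u ∈ W)
    (hρ : ∀ u : W, ρ ⟨s⁻¹ • (u : F), hW u u.2⟩ = σ⁻¹ • ρ u)
    (𝒮 : Set (Place k Fb))
    (hc : ∀ P' : Place L F, r (s • P') ∈ 𝒮 ↔ r P' ∈ 𝒮)
    (hcb : ∀ Q : Place k Fb, σ • Q ∈ 𝒮 ↔ Q ∈ 𝒮)
    (hsep : ∀ P, r P ∉ 𝒮 → ∀ S : Finset (Place k Fb), (∀ Q ∈ S, Q ∉ 𝒮) → r P ∉ S →
      ∃ u : W, ρ u ≠ 0 ∧ 0 < P.ord (u : F) ∧ (r P).ord (ρ u) = 1 ∧
        (∀ P'', P''.ord (u : F) < 0 → r P'' ∈ 𝒮) ∧ ∀ Q ∈ S, Q.ord (ρ u) = 0)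
    (P : Place L F) (hP : r (s • P) ∉ 𝒮) : r (s • P) = σ • r P := by
  classical
  by_contra hne
  have hσP : σ • r P ∉ 𝒮 := fun h => hP ((hc P).mpr ((hcb (r P)).mp h))
  obtain ⟨u, hu, huP, -, hupole, huS⟩ :=
    hsep (s • P) hP {σ • r P}
      (fun Q hQ => by rw [Finset.mem_singleton] at hQ; rw [hQ]; exact hσP)
      (by rw [Finset.mem_singleton]; exact hne)
  have hQ1 : (σ • r P).ord (ρ u) = 0 := huS _ (Finset.mem_singleton_self _)
  set u' : W := ⟨s⁻¹ • (u : F), hW u u.2⟩ with hu'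
  have hord : ∀ P' : Place L F, P'.ord (u' : F) = (s • P').ord (u : F) := by
    intro P'
    have h := SemilinearAut.ord_smul s P' (s⁻¹ • (u : F))
    rw [smul_inv_smul] at h
    exact h.symm
  have hreg : ∀ P', r P' = r P → P'.adicValuation (u' : F) ≤ 1 := by
    intro P' hP'
    rw [P'.adicValuation_le_one_iff]
    right
    by_contra hlt
    rw [not_le, hord] at hlt
    have h1 : r (s • P') ∈ 𝒮 := hupole _ hlt
    have h2 : r P' ∈ 𝒮 := (hc P').mp h1
    rw [hP'] at h2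
    exact hP ((hc P).mpr h2)
  have hvan : (r P).adicValuation (ρ u') < 1 := by
    refine H.van_of_disc u' (r P) hreg P rfl ?_
    rw [ts_val_lt_one_iff]
    right
    rw [hord]
    omega
  rw [hu', hρ u, ← cfb_adicValuation_smul_place, ts_val_lt_one_iff] at hvan
  rcases hvan with h0 | h1
  · exact hu h0
  · omega

/-- **Galois compatibility of the place reduction** (corrected hypotheses):
`r (s • P) = σ • r P` for every place. -/
theorem es3g2_place (H : ts_Hyp A π W ρ r) (s : SemilinearAut L F) (σ : SemilinearAut k Fb)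
    (hW : ∀ u : F, u ∈ W → s⁻¹ • u ∈ W)
    (hρ : ∀ u : W, ρ ⟨s⁻¹ • (u : F), hW u u.2⟩ = σ⁻¹ • ρ u)
    (𝒮 : Set (Place k Fb))
    (hc : ∀ P' : Place L F, r (s • P') ∈ 𝒮 ↔ r P' ∈ 𝒮)
    (hcb : ∀ Q : Place k Fb, σ • Q ∈ 𝒮 ↔ Q ∈ 𝒮)
    (hsep : ∀ P, r P ∉ 𝒮 → ∀ S : Finset (Place k Fb), (∀ Q ∈ S, Q ∉ 𝒮) → r P ∉ S →
      ∃ u : W, ρ u ≠ 0 ∧ 0 < P.ord (u : F) ∧ (r P).ord (ρ u) = 1 ∧
        (∀ P'', P''.ord (u : F) < 0 → r P'' ∈ 𝒮) ∧ ∀ Q ∈ S, Q.ord (ρ u) = 0)
    (hsep' : ∀ P, r P ∈ 𝒮 → ∀ S : Finset (Place k Fb), (∀ Q ∈ S, Q ∈ 𝒮) → r P ∉ S →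
      ∃ u : W, ρ u ≠ 0 ∧ 0 < P.ord (u : F) ∧ (r P).ord (ρ u) = 1 ∧
        (∀ P'', P''.ord (u : F) < 0 → r P'' ∉ 𝒮) ∧ ∀ Q ∈ S, Q.ord (ρ u) = 0)
    (P : Place L F) : r (s • P) = σ • r P := by
  by_cases hP : r (s • P) ∈ 𝒮
  · refine es3g2_place_of_not_mem H s σ hW hρ 𝒮ᶜ ?_ ?_ ?_ P (fun h => h hP)
    · intro P'
      rw [Set.mem_compl_iff, Set.mem_compl_iff, hc P']
    · intro Q
      rw [Set.mem_compl_iff, Set.mem_compl_iff, hcb Q]
    · intro P₁ hP₁ S hSS hS
      have hP₁' : r P₁ ∈ 𝒮 := by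
        by_contra h
        exact hP₁ h
      have hSS' : ∀ Q ∈ S, Q ∈ 𝒮 := by
        intro Q hQ
        by_contra h
        exact hSS Q hQ h
      obtain ⟨u, h1, h2, h3, h4, h5⟩ := hsep' P₁ hP₁' S hSS' hS
      exact ⟨u, h1, h2, h3, fun P'' hP'' => h4 P'' hP'', h5⟩
  · exact es3g2_place_of_not_mem H s σ hW hρ 𝒮 hc hcb hsep P hP

/-- The set of poles of a `σ`-fixed function is `σ`-invariant. -/
theorem es3g2_poles_invariant (σ : SemilinearAut k Fb) (y : Fb) (hy : σ • y = y)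
    (Q : Place k Fb) :
    σ • Q ∈ {Q : Place k Fb | Q.ord y < 0} ↔ Q ∈ {Q : Place k Fb | Q.ord y < 0} := by
  simp only [Set.mem_ofPred_eq]
  have h := SemilinearAut.ord_smul σ Q y
  rw [hy] at h
  rw [h]

/-- A function with a value at `Q` has non-negative order at `Q`. -/
theorem es3g2_ord_nonneg_of_value (Q : Place k Fb) (y : Fb) (a : k)
    (h : Q.adicValuation (y - algebraMap k Fb a) < 1) : 0 ≤ Q.ord y := by
  rcases eq_or_ne y 0 with rfl | hy
  · simp
  have h1 : Q.adicValuation y ≤ 1 := by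
    have h2 : y = (y - algebraMap k Fb a) + algebraMap k Fb a := by ring
    rw [h2]
    exact le_trans (Valuation.map_add _ _ _)
      (max_le (le_of_lt h) (Q.adicValuation_algebraMap_le_one a))
  exact ((Q.adicValuation_le_one_iff).mp h1).resolve_left hy

end Abstract

/-! ### Modular instance -/

section Modular

variable {L : Type*} [Field L] [Algebra ℚ L] {A : ValuationSubring L}
variable {k : Type*} [Field k] {π : A →+* k} {N : ℕ}
variable {W : ValuationSubring (laurentBaseChange L (modularFunctionFieldFull N))}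
variable {ρ : W →+* modularFunctionFieldFullC k N}
variable {r : Place L (laurentBaseChange L (modularFunctionFieldFull N)) →
  Place k (modularFunctionFieldFullC k N)}

set_option maxHeartbeats 800000 in
/-- **Galois compatibility, modular form, corrected hypotheses.** -/
theorem es3g2_modular_place (H : ts_Hyp A π W ρ r)
    (hWmem : ∀ x : laurentBaseChange L (modularFunctionFieldFull N),
      x ∈ W ↔ (x : LaurentSeries L) ∈ ga_W A π)
    (hρcoe : ∀ x : W, ((ρ x : modularFunctionFieldFullC k N) : LaurentSeries k) =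
      ga_rho A π ⟨((x : laurentBaseChange L (modularFunctionFieldFull N)) : LaurentSeries L),
        (hWmem x).mp x.2⟩)
    (τ : L ≃ₐ[ℚ] L) (hτA : ∀ a : A, τ.symm (a : L) ∈ A) (τb : k ≃+* k)
    (hτb : ∀ a : A, π ⟨τ.symm (a : L), hτA a⟩ = τb.symm (π a))
    (𝒮 : Set (Place k (modularFunctionFieldFullC k N)))
    (hc : ∀ P', r (arithmeticGalois (modularFunctionFieldFull N) τ • P') ∈ 𝒮 ↔ r P' ∈ 𝒮)
    (hcb : ∀ Q : Place k (modularFunctionFieldFullC k N), cfb_coeffAut k N τb • Q ∈ 𝒮 ↔ Q ∈ 𝒮)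
    (hsep : ∀ P, r P ∉ 𝒮 → ∀ S : Finset (Place k (modularFunctionFieldFullC k N)),
      (∀ Q ∈ S, Q ∉ 𝒮) → r P ∉ S →
      ∃ u : W, ρ u ≠ 0 ∧ 0 < P.ord (u : laurentBaseChange L (modularFunctionFieldFull N)) ∧
        (r P).ord (ρ u) = 1 ∧
        (∀ P'', P''.ord (u : laurentBaseChange L (modularFunctionFieldFull N)) < 0 → r P'' ∈ 𝒮) ∧
        ∀ Q ∈ S, Q.ord (ρ u) = 0)
    (hsep' : ∀ P, r P ∈ 𝒮 → ∀ S : Finset (Place k (modularFunctionFieldFullC k N)),
      (∀ Q ∈ S, Q ∈ 𝒮) → r P ∉ S →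
      ∃ u : W, ρ u ≠ 0 ∧ 0 < P.ord (u : laurentBaseChange L (modularFunctionFieldFull N)) ∧
        (r P).ord (ρ u) = 1 ∧
        (∀ P'', P''.ord (u : laurentBaseChange L (modularFunctionFieldFull N)) < 0 → r P'' ∉ 𝒮) ∧
        ∀ Q ∈ S, Q.ord (ρ u) = 0)
    (P : Place L (laurentBaseChange L (modularFunctionFieldFull N))) :
    r (arithmeticGalois (modularFunctionFieldFull N) τ • P) = cfb_coeffAut k N τb • r P := by
  set s := arithmeticGalois (modularFunctionFieldFull N) τ with hs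
  set σ := cfb_coeffAut k N τb with hσ
  have hcoe : ∀ u : laurentBaseChange L (modularFunctionFieldFull N),
      ((s⁻¹ • u : laurentBaseChange L (modularFunctionFieldFull N)) : LaurentSeries L) =
        coeffMap ((τ.symm : L ≃ₐ[ℚ] L) : L →+* L) (u : LaurentSeries L) := by
    intro u
    rw [hs, ← map_inv]
    exact coe_arithmeticGalois_smul (modularFunctionFieldFull N) τ⁻¹ u
  have hcoeσ : ∀ v : modularFunctionFieldFullC k N,
      ((σ⁻¹ • v : modularFunctionFieldFullC k N) : LaurentSeries k) =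
        coeffMap ((τb.symm : k ≃+* k) : k →+* k) (v : LaurentSeries k) := by
    intro v
    rw [hσ, ← map_inv]
    exact cfb_coe_coeffAut_smul k N τb⁻¹ v
  have hW : ∀ u : laurentBaseChange L (modularFunctionFieldFull N), u ∈ W → s⁻¹ • u ∈ W := by
    intro u hu
    rw [hWmem, hcoe]
    exact es3g_coeffMap_mem_W ((τ.symm : L ≃ₐ[ℚ] L) : L →+* L) hτA
      ((τb.symm : k ≃+* k) : k →+* k) hτb ((hWmem u).mp hu)
  have hρ : ∀ u : W, ρ ⟨s⁻¹ • (u : laurentBaseChange L (modularFunctionFieldFull N)), hW u u.2⟩ =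
      σ⁻¹ • ρ u := by
    intro u
    apply Subtype.ext
    have h1 := es3g_rho_coeffMap ((τ.symm : L ≃ₐ[ℚ] L) : L →+* L) hτA
      ((τb.symm : k ≃+* k) : k →+* k) hτb ((hWmem u).mp u.2)
    have h2 := hρcoe ⟨s⁻¹ • (u : laurentBaseChange L (modularFunctionFieldFull N)), hW u u.2⟩
    have h3 := hρcoe u
    rw [h2, hcoeσ, h3, ← h1]
    exact ga_rho_congr A π (hcoe u) _ _
  exact es3g2_place H s σ hW hρ 𝒮 hc hcb hsep hsep' P

set_option maxHeartbeats 800000 in
/-- **Decomposition group, final form** for `𝒮 = {poles of ρ J}`: for `g` in the decomposition group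
of `A` inducing `τb` on `k`, `r (g • P) = τb • r P`, for ANY `r` with the SPEC.  Inputs: `J ∈ W` with
Galois-fixed expansion on both sides, the SPEC consequences `hF1`, `hF2` (row 22), and `hsep`,
`hsep'` in the exact output shape of `es3p_hsep`, `es3p_hsep'` (row 26). -/
theorem es3g2_final_place (H : ts_Hyp A π W ρ r)
    (hWmem : ∀ x : laurentBaseChange L (modularFunctionFieldFull N),
      x ∈ W ↔ (x : LaurentSeries L) ∈ ga_W A π)
    (hρcoe : ∀ x : W, ((ρ x : modularFunctionFieldFullC k N) : LaurentSeries k) =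
      ga_rho A π ⟨((x : laurentBaseChange L (modularFunctionFieldFull N)) : LaurentSeries L),
        (hWmem x).mp x.2⟩)
    (J : W)
    (hJ : ∀ τ : L ≃ₐ[ℚ] L,
      coeffMap (τ : L →+* L)
        ((J : laurentBaseChange L (modularFunctionFieldFull N)) : LaurentSeries L) =
        ((J : laurentBaseChange L (modularFunctionFieldFull N)) : LaurentSeries L))
    (hJb : ∀ φ : k ≃+* k,
      coeffMap (φ : k →+* k) ((ρ J : modularFunctionFieldFullC k N) : LaurentSeries k) =
        ((ρ J : modularFunctionFieldFullC k N) : LaurentSeries k))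
    (hF1 : ∀ (P : Place L (laurentBaseChange L (modularFunctionFieldFull N))) (c : L) (hc : c ∈ A),
      P.adicValuation ((J : laurentBaseChange L (modularFunctionFieldFull N)) -
        algebraMap L _ c) < 1 →
      (r P).adicValuation (ρ J - algebraMap k _ (π ⟨c, hc⟩)) < 1)
    (hF2 : ∀ P : Place L (laurentBaseChange L (modularFunctionFieldFull N)),
      (¬ ∃ c : L, c ∈ A ∧ P.adicValuation
        ((J : laurentBaseChange L (modularFunctionFieldFull N)) - algebraMap L _ c) < 1) →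
      (r P).ord (ρ J) < 0)
    (hsep : ∀ P, r P ∉ {Q : Place k (modularFunctionFieldFullC k N) | Q.ord (ρ J) < 0} →
      ∀ S : Finset (Place k (modularFunctionFieldFullC k N)),
      (∀ Q ∈ S, Q ∉ {Q : Place k (modularFunctionFieldFullC k N) | Q.ord (ρ J) < 0}) → r P ∉ S →
      ∃ u : W, ρ u ≠ 0 ∧ 0 < P.ord (u : laurentBaseChange L (modularFunctionFieldFull N)) ∧
        (r P).ord (ρ u) = 1 ∧
        (∀ P'', P''.ord (u : laurentBaseChange L (modularFunctionFieldFull N)) < 0 →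
          r P'' ∈ {Q : Place k (modularFunctionFieldFullC k N) | Q.ord (ρ J) < 0}) ∧
        ∀ Q ∈ S, Q.ord (ρ u) = 0)
    (hsep' : ∀ P, r P ∈ {Q : Place k (modularFunctionFieldFullC k N) | Q.ord (ρ J) < 0} →
      ∀ S : Finset (Place k (modularFunctionFieldFullC k N)),
      (∀ Q ∈ S, Q ∈ {Q : Place k (modularFunctionFieldFullC k N) | Q.ord (ρ J) < 0}) → r P ∉ S →
      ∃ u : W, ρ u ≠ 0 ∧ 0 < P.ord (u : laurentBaseChange L (modularFunctionFieldFull N)) ∧
        (r P).ord (ρ u) = 1 ∧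
        (∀ P'', P''.ord (u : laurentBaseChange L (modularFunctionFieldFull N)) < 0 →
          r P'' ∉ {Q : Place k (modularFunctionFieldFullC k N) | Q.ord (ρ J) < 0}) ∧
        ∀ Q ∈ S, Q.ord (ρ u) = 0)
    (g : A.decompositionSubgroup ℚ) (τb : k ≃+* k)
    (hτb : ∀ a : A, π ⟨(g : L ≃ₐ[ℚ] L).symm (a : L), es3g_symm_apply_mem A g a⟩ = τb.symm (π a))
    (P : Place L (laurentBaseChange L (modularFunctionFieldFull N))) :
    r (arithmeticGalois (modularFunctionFieldFull N) (g : L ≃ₐ[ℚ] L) • P) =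
      cfb_coeffAut k N τb • r P := by
  have hJs : arithmeticGalois (modularFunctionFieldFull N) (g : L ≃ₐ[ℚ] L) •
      (J : laurentBaseChange L (modularFunctionFieldFull N)) = J :=
    Subtype.ext (by rw [coe_arithmeticGalois_smul]; exact hJ _)
  have hJbs : cfb_coeffAut k N τb • ρ J = ρ J :=
    Subtype.ext (by rw [cfb_coe_coeffAut_smul]; exact hJb _)
  have hS : ∀ P : Place L (laurentBaseChange L (modularFunctionFieldFull N)),
      r P ∈ {Q : Place k (modularFunctionFieldFullC k N) | Q.ord (ρ J) < 0} ↔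
      ¬ ∃ a : L, a ∈ A ∧ P.adicValuation
        ((J : laurentBaseChange L (modularFunctionFieldFull N)) - algebraMap L _ a) < 1 := by
    intro P
    constructor
    · rintro hP ⟨c, hc, hv⟩
      have h1 := es3g2_ord_nonneg_of_value (r P) (ρ J) _ (hF1 P c hc hv)
      simp only [Set.mem_ofPred_eq] at hP
      omega
    · exact hF2 P
  have hc := es3g_chart_invariant (A := A) (r := r)
    (arithmeticGalois (modularFunctionFieldFull N) (g : L ≃ₐ[ℚ] L))
    (J : laurentBaseChange L (modularFunctionFieldFull N)) hJs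
    (fun a ha => es3g_apply_mem A g ⟨a, ha⟩)
    (fun a ha => es3g_symm_apply_mem A g ⟨a, ha⟩) _ hS
  exact es3g2_modular_place H hWmem hρcoe (g : L ≃ₐ[ℚ] L) (es3g_symm_apply_mem A g)
    τb hτb _ hc (es3g2_poles_invariant _ _ hJbs) hsep hsep' P

end Modular

end Fermat.Agent.S37x
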