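import Fermat.Agent.S37x.Es3Galois2
import Fermat.Agent.S18x.AssemblyFinal

/-!
# S37 [GAL]: the literal place-level targets (hI), (hF) of `s37t_result_of_places`

Thin wrap of `es3g2_final_place` (`Es3Galois2.lean`), prefix `es3gt_`.

* GENERIC pair `(W, ρ, J)` over `π = IsLocalRing.residue A`, ANY `r` with the SPEC:
  `es3gt_decomposition` (`r (g • P) = ḡ • r P` with `ḡ = es3g_resAut A g`),
  `es3gt_inertia`  : `∀ τ ∈ A.inertiaSubgroupIn ℚ, ∀ P, r (τ • P) = r P`,
  `es3gt_frobenius`: `∀ σ, A.IsFrobeniusAt σ ℓ → ∀ P, r (σ • P) = cfb_frob k N ℓ • r P`.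
* CANONICAL pair of the S18 assembly `(s18f_W N A h, s18f_rho N A h, s18f_J N A h)`,
  `r = placeReductionModL h`: `es3gt_hI`, `es3gt_hF`, where the only remaining hypotheses are the
  SPEC consequences `hF1`, `hF2` (row 22) and the separation statements `hsep`, `hsep'` (row 26).
-/

set_option autoImplicit false
set_option synthInstance.maxHeartbeats 400000

noncomputable section

namespace Fermat.Agent.S37x

open AlgebraicCurve ModularCurve Fermat.Agent.S18x Fermat.Agent.S24x

section Generic

variable {L : Type*} [Field L] [Algebra ℚ L] {A : ValuationSubring L} {N : ℕ}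
variable {W : ValuationSubring (laurentBaseChange L (modularFunctionFieldFull N))}
variable {ρ : W →+* modularFunctionFieldFullC (IsLocalRing.ResidueField A) N}
variable {r : Place L (laurentBaseChange L (modularFunctionFieldFull N)) →
  Place (IsLocalRing.ResidueField A) (modularFunctionFieldFullC (IsLocalRing.ResidueField A) N)}

set_option maxHeartbeats 1600000 in
/-- the standing inputs of `es3g2_final_place` over `π = IsLocalRing.residue A`, bundled -/
structure es3gt_Inputs (A : ValuationSubring L) (N : ℕ)
    (W : ValuationSubring (laurentBaseChange L (modularFunctionFieldFull N)))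
    (ρ : W →+* modularFunctionFieldFullC (IsLocalRing.ResidueField A) N)
    (r : Place L (laurentBaseChange L (modularFunctionFieldFull N)) →
      Place (IsLocalRing.ResidueField A)
        (modularFunctionFieldFullC (IsLocalRing.ResidueField A) N))
    (J : W) : Prop where
  hyp : ts_Hyp A (IsLocalRing.residue A) W ρ r
  hWmem : ∀ x : laurentBaseChange L (modularFunctionFieldFull N),
      x ∈ W ↔ (x : LaurentSeries L) ∈ ga_W A (IsLocalRing.residue A)
  hρcoe : ∀ x : W, ((ρ x : modularFunctionFieldFullC (IsLocalRing.ResidueField A) N) :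
        LaurentSeries (IsLocalRing.ResidueField A)) =
      ga_rho A (IsLocalRing.residue A)
        ⟨((x : laurentBaseChange L (modularFunctionFieldFull N)) : LaurentSeries L),
          (hWmem x).mp x.2⟩
  hJ : ∀ τ : L ≃ₐ[ℚ] L,
      coeffMap (τ : L →+* L)
        ((J : laurentBaseChange L (modularFunctionFieldFull N)) : LaurentSeries L) =
        ((J : laurentBaseChange L (modularFunctionFieldFull N)) : LaurentSeries L)
  hJb : ∀ φ : IsLocalRing.ResidueField A ≃+* IsLocalRing.ResidueField A,
      coeffMap (φ : IsLocalRing.ResidueField A →+* IsLocalRing.ResidueField A)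
        ((ρ J : modularFunctionFieldFullC (IsLocalRing.ResidueField A) N) :
          LaurentSeries (IsLocalRing.ResidueField A)) =
        ((ρ J : modularFunctionFieldFullC (IsLocalRing.ResidueField A) N) :
          LaurentSeries (IsLocalRing.ResidueField A))
  hF1 : ∀ (P : Place L (laurentBaseChange L (modularFunctionFieldFull N))) (c : L) (hc : c ∈ A),
      P.adicValuation ((J : laurentBaseChange L (modularFunctionFieldFull N)) -
        algebraMap L _ c) < 1 →
      (r P).adicValuation (ρ J - algebraMap (IsLocalRing.ResidueField A) _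
        (IsLocalRing.residue A ⟨c, hc⟩)) < 1
  hF2 : ∀ P : Place L (laurentBaseChange L (modularFunctionFieldFull N)),
      (¬ ∃ c : L, c ∈ A ∧ P.adicValuation
        ((J : laurentBaseChange L (modularFunctionFieldFull N)) - algebraMap L _ c) < 1) →
      (r P).ord (ρ J) < 0
  hsep : ∀ P, r P ∉ {Q : Place (IsLocalRing.ResidueField A)
        (modularFunctionFieldFullC (IsLocalRing.ResidueField A) N) | Q.ord (ρ J) < 0} →
      ∀ S : Finset (Place (IsLocalRing.ResidueField A)
        (modularFunctionFieldFullC (IsLocalRing.ResidueField A) N)),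
      (∀ Q ∈ S, Q ∉ {Q : Place (IsLocalRing.ResidueField A)
        (modularFunctionFieldFullC (IsLocalRing.ResidueField A) N) | Q.ord (ρ J) < 0}) →
      r P ∉ S →
      ∃ u : W, ρ u ≠ 0 ∧ 0 < P.ord (u : laurentBaseChange L (modularFunctionFieldFull N)) ∧
        (r P).ord (ρ u) = 1 ∧
        (∀ P'', P''.ord (u : laurentBaseChange L (modularFunctionFieldFull N)) < 0 →
          r P'' ∈ {Q : Place (IsLocalRing.ResidueField A)
            (modularFunctionFieldFullC (IsLocalRing.ResidueField A) N) | Q.ord (ρ J) < 0}) ∧
        ∀ Q ∈ S, Q.ord (ρ u) = 0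
  hsep' : ∀ P, r P ∈ {Q : Place (IsLocalRing.ResidueField A)
        (modularFunctionFieldFullC (IsLocalRing.ResidueField A) N) | Q.ord (ρ J) < 0} →
      ∀ S : Finset (Place (IsLocalRing.ResidueField A)
        (modularFunctionFieldFullC (IsLocalRing.ResidueField A) N)),
      (∀ Q ∈ S, Q ∈ {Q : Place (IsLocalRing.ResidueField A)
        (modularFunctionFieldFullC (IsLocalRing.ResidueField A) N) | Q.ord (ρ J) < 0}) →
      r P ∉ S →
      ∃ u : W, ρ u ≠ 0 ∧ 0 < P.ord (u : laurentBaseChange L (modularFunctionFieldFull N)) ∧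
        (r P).ord (ρ u) = 1 ∧
        (∀ P'', P''.ord (u : laurentBaseChange L (modularFunctionFieldFull N)) < 0 →
          r P'' ∉ {Q : Place (IsLocalRing.ResidueField A)
            (modularFunctionFieldFullC (IsLocalRing.ResidueField A) N) | Q.ord (ρ J) < 0}) ∧
        ∀ Q ∈ S, Q.ord (ρ u) = 0

variable {J : W}

set_option maxHeartbeats 800000 in
/-- **decomposition group**: `r (g • P) = ḡ • r P`, `ḡ` the induced residue automorphism. -/
theorem es3gt_decomposition (I : es3gt_Inputs A N W ρ r J) (g : A.decompositionSubgroup ℚ)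
    (P : Place L (laurentBaseChange L (modularFunctionFieldFull N))) :
    r (arithmeticGalois (modularFunctionFieldFull N) (g : L ≃ₐ[ℚ] L) • P) =
      cfb_coeffAut (IsLocalRing.ResidueField A) N (es3g_resAut A g) • r P :=
  es3g2_final_place I.hyp I.hWmem I.hρcoe J I.hJ I.hJb I.hF1 I.hF2 I.hsep I.hsep' g
    (es3g_resAut A g) (es3g_residue_symm_apply A g) P

/-- **(hI)**: the inertia group acts trivially after reduction (literal binder shape of
`s37t_result_of_places`). -/
theorem es3gt_inertia (I : es3gt_Inputs A N W ρ r J) :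
    ∀ τ ∈ A.inertiaSubgroupIn ℚ, ∀ P,
      r (arithmeticGalois (modularFunctionFieldFull N) τ • P) = r P := by
  intro τ hτ P
  obtain ⟨g, rfl, hg⟩ := es3g_resAut_of_mem_inertia A hτ
  rw [es3gt_decomposition I g P, hg, map_one, one_smul]

/-- **(hF)**: a Frobenius element acts after reduction as the coefficientwise Frobenius `cfb_frob`
(literal binder shape of `s37t_result_of_places`). -/
theorem es3gt_frobenius (I : es3gt_Inputs A N W ρ r J) (ℓ : ℕ) [Fact ℓ.Prime]
    [CharP (IsLocalRing.ResidueField A) ℓ] [PerfectRing (IsLocalRing.ResidueField A) ℓ] :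
    ∀ σ : L ≃ₐ[ℚ] L, A.IsFrobeniusAt σ ℓ → ∀ P,
      r (arithmeticGalois (modularFunctionFieldFull N) σ • P) =
        cfb_frob (IsLocalRing.ResidueField A) N ℓ • r P := by
  intro σ hσ P
  have h := es3gt_decomposition I ⟨σ, hσ.mem_decompositionSubgroup⟩ P
  rw [es3g_resAut_of_isFrobeniusAt A hσ] at h
  exact h

end Generic

/-! ### The canonical pair of the S18 assembly -/

section Canonical

local notation "Q̄" => AlgebraicClosure ℚ

variable (N : ℕ) [NeZero N] (A : ValuationSubring Q̄) (h : ReductionInputsModL A N)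

omit [NeZero N] in
/-- the `q`-expansion of `j` has rational coefficients, hence is Galois-fixed -/
theorem es3gt_hJ (τ : Q̄ ≃ₐ[ℚ] Q̄) :
    coeffMap (τ : Q̄ →+* Q̄) ((jBar N : FBar N) : LaurentSeries Q̄) =
      ((jBar N : FBar N) : LaurentSeries Q̄) := by
  rw [coe_jBar]
  exact coeffMap_coeffEmb τ jq

set_option maxHeartbeats 1600000 in
/-- the standing inputs for the canonical pair, from the four open ones -/
theorem es3gt_inputs_canonical
    (hF1 : ∀ (P : Place Q̄ (modularFunctionFieldBar N)) (c : Q̄) (hc : c ∈ A),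
      P.adicValuation ((jBar N : modularFunctionFieldBar N) - algebraMap Q̄ _ c) < 1 →
      (placeReductionModL h P).adicValuation
        (pls_jb (IsLocalRing.ResidueField A) N - algebraMap (IsLocalRing.ResidueField A) _
          (IsLocalRing.residue A ⟨c, hc⟩)) < 1)
    (hF2 : ∀ P : Place Q̄ (modularFunctionFieldBar N),
      (¬ ∃ c : Q̄, c ∈ A ∧ P.adicValuation
        ((jBar N : modularFunctionFieldBar N) - algebraMap Q̄ _ c) < 1) →
      (placeReductionModL h P).ord (pls_jb (IsLocalRing.ResidueField A) N) < 0)
    (hsep : ∀ P, placeReductionModL h P ∉ {Q : Place (IsLocalRing.ResidueField A)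
        (modularFunctionFieldFullC (IsLocalRing.ResidueField A) N) |
          Q.ord (s18f_rho N A h (s18f_J N A h)) < 0} →
      ∀ S : Finset (Place (IsLocalRing.ResidueField A)
        (modularFunctionFieldFullC (IsLocalRing.ResidueField A) N)),
      (∀ Q ∈ S, Q ∉ {Q : Place (IsLocalRing.ResidueField A)
        (modularFunctionFieldFullC (IsLocalRing.ResidueField A) N) |
          Q.ord (s18f_rho N A h (s18f_J N A h)) < 0}) →
      placeReductionModL h P ∉ S →
      ∃ u : s18f_W N A h, s18f_rho N A h u ≠ 0 ∧
        0 < P.ord (u : modularFunctionFieldBar N) ∧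
        (placeReductionModL h P).ord (s18f_rho N A h u) = 1 ∧
        (∀ P'', P''.ord (u : modularFunctionFieldBar N) < 0 →
          placeReductionModL h P'' ∈ {Q : Place (IsLocalRing.ResidueField A)
            (modularFunctionFieldFullC (IsLocalRing.ResidueField A) N) |
              Q.ord (s18f_rho N A h (s18f_J N A h)) < 0}) ∧
        ∀ Q ∈ S, Q.ord (s18f_rho N A h u) = 0)
    (hsep' : ∀ P, placeReductionModL h P ∈ {Q : Place (IsLocalRing.ResidueField A)
        (modularFunctionFieldFullC (IsLocalRing.ResidueField A) N) |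
          Q.ord (s18f_rho N A h (s18f_J N A h)) < 0} →
      ∀ S : Finset (Place (IsLocalRing.ResidueField A)
        (modularFunctionFieldFullC (IsLocalRing.ResidueField A) N)),
      (∀ Q ∈ S, Q ∈ {Q : Place (IsLocalRing.ResidueField A)
        (modularFunctionFieldFullC (IsLocalRing.ResidueField A) N) |
          Q.ord (s18f_rho N A h (s18f_J N A h)) < 0}) →
      placeReductionModL h P ∉ S →
      ∃ u : s18f_W N A h, s18f_rho N A h u ≠ 0 ∧
        0 < P.ord (u : modularFunctionFieldBar N) ∧
        (placeReductionModL h P).ord (s18f_rho N A h u) = 1 ∧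
        (∀ P'', P''.ord (u : modularFunctionFieldBar N) < 0 →
          placeReductionModL h P'' ∉ {Q : Place (IsLocalRing.ResidueField A)
            (modularFunctionFieldFullC (IsLocalRing.ResidueField A) N) |
              Q.ord (s18f_rho N A h (s18f_J N A h)) < 0}) ∧
        ∀ Q ∈ S, Q.ord (s18f_rho N A h u) = 0) :
    es3gt_Inputs A N (s18f_W N A h) (s18f_rho N A h) (placeReductionModL h) (s18f_J N A h) where
  hyp := s18f_hyp N A h
  hWmem := fun _ => Iff.rfl
  hρcoe := fun x => gi_rho_coe (s18f_inputs N A h) x
  hJ := fun τ => es3gt_hJ N τ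
  hJb := fun φ => by
    rw [s18f_rho_J N A h, pls_coe_jb]
    exact coeffMap_jqModC _
  hF1 := fun P c hc hv => by
    rw [s18f_rho_J N A h]
    exact hF1 P c hc hv
  hF2 := fun P hP => by
    rw [s18f_rho_J N A h]
    exact hF2 P hP
  hsep := hsep
  hsep' := hsep'

end Canonical

end Fermat.Agent.S37x

end
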