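/-
S37 block [B3], COMPAT route, row 28/54 (helper54), prefix `es3lc_`: the CLOSED form of
`es3lb_lifts` at the canonical Gauss pair `(s18f_W N A h, s18f_rho N A h)` of the frozen setting,
stated EXACTLY as the `hL` binder of helper3's `es3t_hT_of_lifts` (S37x/Es3TopInst.lean):

`es3lc_lifts : es3_Lifts (s18f_rho N A h) (Divisor.correspondence (heckeBetaBar Q̄ N ℓ)
  (heckeAlphaBar Q̄ N ℓ) (bt37_betaIntegral N ℓ) (bt37_alphaIntegral N ℓ))
  (es3s_Phi (cfb_frob kA N ℓ) ℓ)`,  `kA = IsLocalRing.ResidueField A`.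

The two shape hypotheses of `es3lb_lifts` are `Iff.rfl` / `rfl` for `gi_W` / `gi_rho`.
-/
import Mathlib
import Fermat.Agent.S37x.Es3LiftsBar
import Fermat.Agent.S18x.AssemblyFinal

set_option autoImplicit false
set_option linter.unusedSectionVars false
set_option linter.style.haveILetI false

namespace Fermat.Agent.S37x

open ModularCurve AlgebraicCurve
open Fermat.Agent.S24x Fermat.Agent.S28x Fermat.Agent.S18x

noncomputable section

/-- **row 28 (ES-hL), closed form** at the canonical Gauss pair of the frozen setting. -/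
theorem es3lc_lifts (N ℓ : ℕ) [NeZero N] [NeZero ℓ] (A : ValuationSubring (AlgebraicClosure ℚ))
    (h : ModularCurve.ReductionInputsModL A N) [Fact ℓ.Prime]
    [CharP (IsLocalRing.ResidueField A) ℓ] [PerfectRing (IsLocalRing.ResidueField A) ℓ]
    (hℓN : ¬ ℓ ∣ N)
    [HasPrincipalDivisors (AlgebraicClosure ℚ)
      (laurentBaseChange (AlgebraicClosure ℚ) (modularFunctionFieldFull (N * ℓ)))] :
    es3_Lifts (s18f_rho N A h)
      (Divisor.correspondence (heckeBetaBar (AlgebraicClosure ℚ) N ℓ)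
        (heckeAlphaBar (AlgebraicClosure ℚ) N ℓ) (bt37_betaIntegral N ℓ) (bt37_alphaIntegral N ℓ))
      (es3s_Phi (cfb_frob (IsLocalRing.ResidueField A) N ℓ) ℓ) :=
  es3lb_lifts N ℓ (A := A) (π := IsLocalRing.residue A) (W := s18f_W N A h)
    (ρ := s18f_rho N A h) hℓN (fun _ => Iff.rfl) (fun _ => rfl)

end

end Fermat.Agent.S37x
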