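/-
S37x/Es3ModPolyInst.lean (helper27, S37 prep [B3], row 25 sub-leaf, prefix `es3m_`):
the MODULAR-POLYNOMIAL input of `S37x/Es3Supp` (helper56) at level `N`, in `es3s_` vocabulary.

* `es3m_exists_modPoly` : one monic `Ψ = Φ_ℓ ∈ ℤ[Y][X]` with
  `es3s_rel Ψ (α j) (β j)` and `es3s_rel Ψ (β j) (α j)` in `F_{Nℓ}(Q̄)`
  (`α = heckeAlphaBar`, `β = heckeBetaBar`, `j = jBar N`): exactly `h1`, `h2` of
  `es3s_TRel_of_correspondence`.
* `es3m_TRel` : `es3s_TRel Ψ (Divisor.correspondence β α ..) (jBar N)` for that `Ψ`.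

Thin wrapper over helper95's `ecs_modPoly_rel` (`S37x/EsChartStabInst`), which transports S28x
`exists_modPoly` to `F_{Nℓ}(Q̄)`.
-/
import Mathlib
import Fermat.Agent.S37x.EsChartStabInst
import Fermat.Agent.S37x.Es3Supp
import Fermat.Agent.S37x.BetaIntegral

set_option autoImplicit false

namespace Fermat.Agent.S37x

open AlgebraicCurve Polynomial ModularCurve Fermat.Agent.S24x

local notation "Q̄" => AlgebraicClosure ℚ

/-- **modular polynomial at level `N`** (`es3s_` shape). -/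
theorem es3m_exists_modPoly (N ℓ : ℕ) [NeZero N] [NeZero ℓ] (hℓ : ℓ.Prime) :
    ∃ Ψ : Polynomial (Polynomial ℤ), Ψ.Monic ∧
      es3s_rel Ψ (heckeAlphaBar Q̄ N ℓ (jBar N)) (heckeBetaBar Q̄ N ℓ (jBar N)) ∧
      es3s_rel Ψ (heckeBetaBar Q̄ N ℓ (jBar N)) (heckeAlphaBar Q̄ N ℓ (jBar N)) := by
  haveI : Fact ℓ.Prime := ⟨hℓ⟩
  obtain ⟨Φ, hΦ, h1, h2⟩ := ecs_modPoly_rel N ℓ
  exact ⟨Φ, hΦ, h2, h1⟩

/-- the `es3s_TRel` hypothesis for the Hecke correspondence `α_* β^*` at level `N`. -/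
theorem es3m_TRel (N ℓ : ℕ) [NeZero N] [NeZero ℓ] (hℓ : ℓ.Prime)
    [HasPrincipalDivisors Q̄ (FBar (N * ℓ))] :
    ∃ Ψ : Polynomial (Polynomial ℤ), Ψ.Monic ∧
      es3s_TRel Ψ (Divisor.correspondence (heckeBetaBar Q̄ N ℓ) (heckeAlphaBar Q̄ N ℓ)
        (bt37_betaIntegral N ℓ) (bt37_alphaIntegral N ℓ)) (jBar N) := by
  obtain ⟨Ψ, hΨ, h1, h2⟩ := es3m_exists_modPoly N ℓ hℓ
  exact ⟨Ψ, hΨ, es3s_TRel_of_correspondence (heckeBetaBar Q̄ N ℓ) (heckeAlphaBar Q̄ N ℓ)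
    (bt37_betaIntegral N ℓ) (bt37_alphaIntegral N ℓ) hΨ (jBar N) h1 h2⟩

end Fermat.Agent.S37x
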