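/-
S37 block B3, helper3 route, row 26 (ES-hsep), helper47: INSTANTIATION of `es3p_hsep` / `es3p_hsep'`
(S37x/Es3Sep) for the canonical S18 Gauss pair `(s18f_W, s18f_rho)` with `r := placeReductionModL h`,
`J := s18f_J`, `𝒮 := {Q | Q.ord j̄ < 0}` (the cusps of the reduced curve), from
* `hnorm : s18f_Normality N A h` (two-chart normality = the one remaining S18 input),
* `glu_hpol_assembly` (polar degrees), `wap_exists_simple_zero(_inf)` (helper90), `pls_isSepCoordinate_jb_perfect`.
These are literally the `hsep`, `hsep'` arguments of `es3_global2 (s18f_hyp N A h) T Φ hL Θ 𝒮 ...`.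
-/
import Fermat.Agent.S18x.AssemblyFinal
import Fermat.Agent.S18x.PlsFbarFinal
import Fermat.Agent.S37x.WeakApprox
import Fermat.Agent.S37x.Es3Sep

set_option autoImplicit false
set_option synthInstance.maxHeartbeats 400000

namespace Fermat.Agent.S37x

open AlgebraicCurve WithZero ModularCurve Fermat.Agent.S18x Fermat.Agent.S24x

variable (N : ℕ) [NeZero N] (A : ValuationSubring (AlgebraicClosure ℚ))
  (h : ModularCurve.ReductionInputsModL A N)

/-- the cusps of the reduced curve: the poles of `j̄` -/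
def es3p_cusps : Set (Place (IsLocalRing.ResidueField A)
    (modularFunctionFieldFullC (IsLocalRing.ResidueField A) N)) :=
  {Q | Q.ord (pls_jb (IsLocalRing.ResidueField A) N) < 0}

variable {N A}

omit [NeZero N] in
theorem es3p_mem_cusps (Q : Place (IsLocalRing.ResidueField A)
    (modularFunctionFieldFullC (IsLocalRing.ResidueField A) N)) :
    Q ∈ es3p_cusps N A ↔ Q.ord (pls_jb (IsLocalRing.ResidueField A) N) < 0 := Iff.rfl

variable (N A)

/-- poles of `j` reduce to poles of `j̄`, zeros of `j` to zeros of `j̄` (canonical pair). -/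
theorem es3p_inst_pole_zero {ℓ : ℕ} [Fact ℓ.Prime] (hℓN : ¬ ℓ ∣ N) (hA : A.LiesOverPrime ℓ) :
    (∀ P : Place (AlgebraicClosure ℚ) (modularFunctionFieldBar N),
      P.ord (jBar N) < 0 →
        (placeReductionModL h P).ord (pls_jb (IsLocalRing.ResidueField A) N) < 0) ∧
    (∀ P : Place (AlgebraicClosure ℚ) (modularFunctionFieldBar N),
      0 < P.ord (jBar N) →
        0 < (placeReductionModL h P).ord (pls_jb (IsLocalRing.ResidueField A) N)) := by
  classical
  have hAC : IsAlgClosed (IsLocalRing.ResidueField A) := s18a_isAlgClosed_residue A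
  have H := s18f_hyp N A h
  have HF := rmn_hyp_FBar N
  have Hb := rmn_hyp_fb (IsLocalRing.ResidueField A) N
  have hρJ := s18f_rho_J N A h
  have hρJ0 : s18f_rho N A h (s18f_J N A h) ≠ 0 := by
    rw [hρJ]
    intro h0
    exact unr_fb_nonconst (IsLocalRing.ResidueField A) N 0 (by rw [h0, map_zero])
  have hJ0 : ((s18f_J N A h : s18f_W N A h) : modularFunctionFieldBar N) ≠ 0 :=
    ts_ne_zero_of_rho_ne_zero hρJ0
  obtain ⟨DJ, hDJ⟩ := HF.hpd _ hJ0
  obtain ⟨DJb, hDJb⟩ := Hb.hpd _ hρJ0
  have hpol := glu_hpol_assembly N hℓN A hA (s18f_W N A h) (s18f_rho N A h) (s18f_J N A h)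
    (s18f_J_coe N A h) (by rw [hρJ]; rfl) DJ hDJ DJb hDJb
  have heq : Finsupp.mapDomain (placeReductionModL h) DJ = DJb := by
    ext Q
    rw [H.compat (s18f_J N A h) hρJ0 DJ hDJ Q, hDJb Q]
  have hpol' : ∑ P ∈ DJ.support, max (-(DJ P)) 0 ≤
      ∑ Q ∈ (Finsupp.mapDomain (placeReductionModL h) DJ).support,
        max (-(Finsupp.mapDomain (placeReductionModL h) DJ Q)) 0 := by
    rw [heq]; exact hpol
  constructor
  · intro P hP
    have := s18a_pole_of_pole H (s18f_J N A h) hρJ0 DJ hDJ DJb hDJb hpol P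
      (by rw [s18f_J_coe]; exact hP)
    rwa [hρJ] at this
  · intro P hP
    have := es3p_zero_of_zero H (s18f_J N A h) hρJ0 DJ hDJ hpol' P
      (by rw [s18f_J_coe]; exact hP)
    rwa [hρJ] at this

/-- **`hsep` for the canonical S18 pair** (finite places). -/
theorem es3p_inst_hsep {ℓ : ℕ} [Fact ℓ.Prime] (hℓN : ¬ ℓ ∣ N) (hA : A.LiesOverPrime ℓ)
    (hnorm : s18f_Normality N A h) :
    ∀ P, placeReductionModL h P ∉ es3p_cusps N A →
      ∀ S : Finset (Place (IsLocalRing.ResidueField A)
          (modularFunctionFieldFullC (IsLocalRing.ResidueField A) N)),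
      (∀ Q ∈ S, Q ∉ es3p_cusps N A) → placeReductionModL h P ∉ S →
      ∃ u : s18f_W N A h, s18f_rho N A h u ≠ 0 ∧
        0 < P.ord (u : modularFunctionFieldBar N) ∧
        (placeReductionModL h P).ord (s18f_rho N A h u) = 1 ∧
        (∀ P'' : Place (AlgebraicClosure ℚ) (modularFunctionFieldBar N),
          P''.ord (u : modularFunctionFieldBar N) < 0 →
            placeReductionModL h P'' ∈ es3p_cusps N A) ∧
        ∀ Q ∈ S, Q.ord (s18f_rho N A h u) = 0 := by
  have hAC : IsAlgClosed (IsLocalRing.ResidueField A) := s18a_isAlgClosed_residue A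
  have H := s18f_hyp N A h
  have hρJ := s18f_rho_J N A h
  obtain ⟨hpole, -⟩ := es3p_inst_pole_zero N A h hℓN hA
  have hsepc := pls_isSepCoordinate_jb_perfect (IsLocalRing.ResidueField A) N
  have key := es3p_hsep H (s18f_J N A h)
    (fun P hP => by rw [hρJ]; exact hpole P (by rw [← s18f_J_coe N A h]; exact hP))
    (fun yb hyb => by
      obtain ⟨u, hu1, hu2⟩ := hnorm.1 yb (fun Q hQ => hyb Q (by rw [hρJ]; exact hQ))
      exact ⟨u, hu1, fun P hP => hu2 P (by rw [← s18f_J_coe N A h]; exact hP)⟩)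
    (fun Q0 hQ0 S hS hQ0S => by
      rw [hρJ] at hQ0
      obtain ⟨g, hg1, hg2, hg3⟩ := wap_exists_simple_zero hsepc Q0 hQ0 S
        (fun Q hQ => by have := hS Q hQ; rwa [hρJ] at this) hQ0S
      exact ⟨g, fun v hv => hg1 v (by rwa [hρJ] at hv), hg2, hg3⟩)
  intro P hP S hS hPS
  have hset : {Q : Place (IsLocalRing.ResidueField A)
      (modularFunctionFieldFullC (IsLocalRing.ResidueField A) N) |
      Q.ord (s18f_rho N A h (s18f_J N A h)) < 0} = es3p_cusps N A := by
    rw [hρJ]; rfl
  rw [hset] at key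
  exact key P hP S hS hPS

/-- **`hsep'` for the canonical S18 pair** (places reducing to cusps). -/
theorem es3p_inst_hsep' {ℓ : ℕ} [Fact ℓ.Prime] (hℓN : ¬ ℓ ∣ N) (hA : A.LiesOverPrime ℓ)
    (hnorm : s18f_Normality N A h) :
    ∀ P, placeReductionModL h P ∈ es3p_cusps N A →
      ∀ S : Finset (Place (IsLocalRing.ResidueField A)
          (modularFunctionFieldFullC (IsLocalRing.ResidueField A) N)),
      (∀ Q ∈ S, Q ∈ es3p_cusps N A) → placeReductionModL h P ∉ S →
      ∃ u : s18f_W N A h, s18f_rho N A h u ≠ 0 ∧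
        0 < P.ord (u : modularFunctionFieldBar N) ∧
        (placeReductionModL h P).ord (s18f_rho N A h u) = 1 ∧
        (∀ P'' : Place (AlgebraicClosure ℚ) (modularFunctionFieldBar N),
          P''.ord (u : modularFunctionFieldBar N) < 0 →
            placeReductionModL h P'' ∉ es3p_cusps N A) ∧
        ∀ Q ∈ S, Q.ord (s18f_rho N A h u) = 0 := by
  have hAC : IsAlgClosed (IsLocalRing.ResidueField A) := s18a_isAlgClosed_residue A
  have H := s18f_hyp N A h
  have hρJ := s18f_rho_J N A h
  obtain ⟨-, hzero⟩ := es3p_inst_pole_zero N A h hℓN hA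
  have hsepc := pls_isSepCoordinate_jb_perfect (IsLocalRing.ResidueField A) N
  have key := es3p_hsep' H (s18f_J N A h)
    (fun P hP => by rw [hρJ]; exact hzero P (by rw [← s18f_J_coe N A h]; exact hP))
    (fun yb hyb => by
      obtain ⟨u, hu1, hu2⟩ := hnorm.2 yb (fun Q hQ => hyb Q (by rw [hρJ]; exact hQ))
      exact ⟨u, hu1, fun P hP => hu2 P (by rw [← s18f_J_coe N A h]; exact hP)⟩)
    (fun Q0 hQ0 S hS hQ0S => by
      rw [hρJ] at hQ0
      obtain ⟨g, hg1, hg2, hg3⟩ := wap_exists_simple_zero_inf hsepc Q0 hQ0 S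
        (fun Q hQ => by have := hS Q hQ; rwa [hρJ] at this) hQ0S
      exact ⟨g, fun v hv => hg1 v (by rwa [hρJ] at hv), hg2, hg3⟩)
  intro P hP S hS hPS
  have hset : {Q : Place (IsLocalRing.ResidueField A)
      (modularFunctionFieldFullC (IsLocalRing.ResidueField A) N) |
      Q.ord (s18f_rho N A h (s18f_J N A h)) < 0} = es3p_cusps N A := by
    rw [hρJ]; rfl
  rw [hset] at key
  exact key P hP S hS hPS

end Fermat.Agent.S37x
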