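/-
S37 block B3, helper3 route, leaf ES-hE (row 25 of `s37_plan`, helper56), second part: the DICHOTOMY
`es3s_Dich` (input `hdich` of `es3s_hE`, S37x/Es3Supp) from the SPEC `ts_Hyp` and the polar-degree inequality
`hpol` of `s18a_pole_of_pole` (S18x/AsmPoles) for `J`:
* a place `P` with `J(P) = c ∈ A` reduces to a place with `(ρ J)(r P) = π c`                     (3a),
* a place `P` with `J(P) ∉ A` (or a pole of `J`) reduces to a pole of `ρ J`                      (3b).
-/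
import Mathlib
import Fermat.Agent.S18x.AsmPoles
import Fermat.Agent.S37x.Es3Supp

set_option autoImplicit false

namespace Fermat.Agent.S37x

open AlgebraicCurve Fermat.Agent.S18x

section Bookkeeping

/-- no mixing of zeros and poles in a fibre over a point where the push-forward is negative, as
soon as the polar degree does not drop. -/
theorem es3d_nonpos_of_neg {α β : Type*} (r : α → β) (D : α →₀ ℤ)
    (hpol : ∑ a ∈ D.support, max (-(D a)) 0 ≤
      ∑ b ∈ (Finsupp.mapDomain r D).support, max (-(Finsupp.mapDomain r D b)) 0)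
    (a₀ : α) (ha₀ : Finsupp.mapDomain r D (r a₀) < 0) : D a₀ ≤ 0 := by
  classical
  set Db := Finsupp.mapDomain r D with hDb
  set S := D.support with hS
  set T := S.image r with hT
  have hsub : Db.support ⊆ T := Finsupp.mapDomain_support
  have hR : ∑ b ∈ Db.support, max (-(Db b)) 0 = ∑ b ∈ T, max (-(Db b)) 0 := by
    apply Finset.sum_subset hsub
    intro b _ hb
    rw [Finsupp.notMem_support_iff] at hb
    rw [hb]; simp
  have hLf : ∑ a ∈ S, max (-(D a)) 0 =
      ∑ b ∈ T, ∑ a ∈ S.filter (fun a => r a = b), max (-(D a)) 0 := by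
    rw [Finset.sum_fiberwise_of_maps_to (fun a ha => Finset.mem_image_of_mem r ha)]
  have hterm : ∀ b ∈ T, max (-(Db b)) 0 ≤ ∑ a ∈ S.filter (fun a => r a = b), max (-(D a)) 0 := by
    intro b _
    have hval : Db b = ∑ a ∈ S.filter (fun a => r a = b), D a := ts_mapDomain_apply r D b
    rw [hval]
    apply max_le
    · rw [← Finset.sum_neg_distrib]
      exact Finset.sum_le_sum fun a _ => le_max_left _ _
    · exact Finset.sum_nonneg fun a _ => le_max_right _ _
  have hle : ∑ b ∈ T, max (-(Db b)) 0 ≤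
      ∑ b ∈ T, ∑ a ∈ S.filter (fun a => r a = b), max (-(D a)) 0 := Finset.sum_le_sum hterm
  have heq : ∑ b ∈ T, max (-(Db b)) 0 =
      ∑ b ∈ T, ∑ a ∈ S.filter (fun a => r a = b), max (-(D a)) 0 := by
    apply le_antisymm hle
    rw [← hLf, ← hR]
    exact hpol
  have hall := (Finset.sum_eq_sum_iff_of_le hterm).mp heq
  by_cases ha₀S : a₀ ∈ S
  · have hb₀ : r a₀ ∈ T := Finset.mem_image_of_mem r ha₀S
    have h1 := hall (r a₀) hb₀
    have hval : Db (r a₀) = ∑ a ∈ S.filter (fun a => r a = r a₀), D a :=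
      ts_mapDomain_apply r D (r a₀)
    rw [max_eq_left (by omega), hval, ← Finset.sum_neg_distrib] at h1
    -- termwise `-(D a) ≤ max (-(D a)) 0`, with equality of the sums
    have h2 := (Finset.sum_eq_sum_iff_of_le
      (f := fun a => -(D a)) (g := fun a => max (-(D a)) 0)
      (s := S.filter (fun a => r a = r a₀)) (fun a _ => le_max_left _ _)).mp h1
    have hmem : a₀ ∈ S.filter (fun a => r a = r a₀) := by
      rw [Finset.mem_filter]; exact ⟨ha₀S, rfl⟩
    have h3 := h2 a₀ hmem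
    have h4 : (0 : ℤ) ≤ max (-(D a₀)) 0 := le_max_right _ _
    have h5 : -(D a₀) = max (-(D a₀)) 0 := h3
    omega
  · rw [hS, Finsupp.notMem_support_iff] at ha₀S
    rw [ha₀S]

end Bookkeeping

section Dich

variable {L k F Fb : Type*} [Field L] [Field k] [Field F] [Field Fb] [Algebra L F] [Algebra k Fb]
variable {A : ValuationSubring L} {π : A →+* k} {W : ValuationSubring F} {ρ : W →+* Fb}
  {r : Place L F → Place k Fb}

/-- `J` is a unit of `W` as soon as `ρ J ≠ 0`; its inverse as an element of `W`. -/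
theorem es3d_inv_mem (H : ts_Hyp A π W ρ r) (J : W) (hJ : ρ J ≠ 0) : (J : F)⁻¹ ∈ W := by
  have hu : IsUnit J := by
    by_contra hnu
    exact hJ ((H.ker J).mpr hnu)
  exact ts_inv_mem_of_isUnit J hu

theorem es3d_rho_inv (H : ts_Hyp A π W ρ r) (J : W) (hJ : ρ J ≠ 0) :
    ρ ⟨(J : F)⁻¹, es3d_inv_mem H J hJ⟩ = (ρ J)⁻¹ := by
  have hJ0 : (J : F) ≠ 0 := by
    intro h
    apply hJ
    have : J = 0 := Subtype.ext h
    rw [this, map_zero]
  have h1 : J * ⟨(J : F)⁻¹, es3d_inv_mem H J hJ⟩ = 1 := Subtype.ext (mul_inv_cancel₀ hJ0)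
  have h2 : ρ J * ρ ⟨(J : F)⁻¹, es3d_inv_mem H J hJ⟩ = 1 := by rw [← map_mul, h1, map_one]
  exact (inv_eq_of_mul_eq_one_right h2).symm

/-- **no zero/pole mixing for `J`**: over a pole of `ρ J` all places have `ord J ≤ 0`. -/
theorem es3d_ord_nonpos (H : ts_Hyp A π W ρ r) (J : W) (hJ : ρ J ≠ 0)
    (DJ : Divisor L F) (hDJ : ∀ P, DJ P = P.ord (J : F))
    (DJb : Divisor k Fb) (hDJb : ∀ Q, DJb Q = Q.ord (ρ J))
    (hpol : ∑ P ∈ DJ.support, max (-(DJ P)) 0 ≤ ∑ Q ∈ DJb.support, max (-(DJb Q)) 0)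
    (P : Place L F) (hP : (r P).ord (ρ J) < 0) : P.ord (J : F) ≤ 0 := by
  have heq : Finsupp.mapDomain r DJ = DJb := by
    ext Q
    rw [H.compat J hJ DJ hDJ Q, hDJb Q]
  have := es3d_nonpos_of_neg r DJ (by rw [heq]; exact hpol) P (by rw [heq, hDJb]; exact hP)
  rwa [hDJ P] at this

/-- (3a'), regularity: a place `P` with `J(P) = c ∈ A` does not reduce to a pole of `ρ J`. -/
theorem es3d_reg_of_value (H : ts_Hyp A π W ρ r) (J : W) (hJ : ρ J ≠ 0)
    (DJ : Divisor L F) (hDJ : ∀ P, DJ P = P.ord (J : F))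
    (DJb : Divisor k Fb) (hDJb : ∀ Q, DJb Q = Q.ord (ρ J))
    (hpol : ∑ P ∈ DJ.support, max (-(DJ P)) 0 ≤ ∑ Q ∈ DJb.support, max (-(DJb Q)) 0)
    (P : Place L F) (c : L) (hc : c ∈ A)
    (hPc : P.adicValuation ((J : F) - algebraMap L F c) < 1) : 0 ≤ (r P).ord (ρ J) := by
  by_contra hneg
  rw [not_le] at hneg
  have hJ0 : (J : F) ≠ 0 := by
    intro h
    apply hJ
    have : J = 0 := Subtype.ext h
    rw [this, map_zero]
  have hJinv := es3d_inv_mem H J hJ
  let Ji : W := ⟨(J : F)⁻¹, hJinv⟩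
  let cW : W := ⟨algebraMap L F c, H.algW hc⟩
  let u : W := 1 - cW * Ji
  have huF : (u : F) = 1 - algebraMap L F c * (J : F)⁻¹ := rfl
  have hinv : ∀ P₁, r P₁ = r P → P₁.adicValuation ((J : F)⁻¹) ≤ 1 := by
    intro P₁ hP₁
    have h1 : P₁.ord (J : F) ≤ 0 :=
      es3d_ord_nonpos H J hJ DJ hDJ DJb hDJb hpol P₁ (by rw [hP₁]; exact hneg)
    rw [P₁.adicValuation_le_one_iff]
    right
    rw [Place.ord_inv]
    omega
  have hreg : ∀ P₁, r P₁ = r P → P₁.adicValuation (u : F) ≤ 1 := by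
    intro P₁ hP₁
    rw [huF]
    refine (Valuation.map_sub _ _ _).trans (max_le ?_ ?_)
    · rw [map_one]
    · rw [map_mul]
      exact mul_le_one' (P₁.adicValuation_algebraMap_le_one c) (hinv P₁ hP₁)
  have hvan : P.adicValuation (u : F) < 1 := by
    have h1 : (u : F) = ((J : F) - algebraMap L F c) * (J : F)⁻¹ := by
      rw [huF]
      field_simp
    rw [h1, map_mul]
    calc P.adicValuation ((J : F) - algebraMap L F c) * P.adicValuation ((J : F)⁻¹)
        ≤ P.adicValuation ((J : F) - algebraMap L F c) * 1 :=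
          mul_le_mul_right (hinv P rfl) _
      _ = P.adicValuation ((J : F) - algebraMap L F c) := mul_one _
      _ < 1 := hPc
  have hlt := H.van_of_disc u (r P) hreg P rfl hvan
  have hρu : ρ u = 1 - algebraMap k Fb (π ⟨c, hc⟩) * (ρ J)⁻¹ := by
    show ρ (1 - cW * Ji) = _
    rw [map_sub, map_one, map_mul, H.rho_alg c hc, es3d_rho_inv H J hJ]
  have hsmall : (r P).adicValuation (algebraMap k Fb (π ⟨c, hc⟩) * (ρ J)⁻¹) < 1 := by
    have h2 : (r P).adicValuation ((ρ J)⁻¹) < 1 := by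
      rw [ts_val_lt_one_iff]
      right
      rw [Place.ord_inv]
      omega
    rw [map_mul]
    calc (r P).adicValuation (algebraMap k Fb (π ⟨c, hc⟩)) * (r P).adicValuation ((ρ J)⁻¹)
        ≤ 1 * (r P).adicValuation ((ρ J)⁻¹) :=
          mul_le_mul_left ((r P).adicValuation_algebraMap_le_one _) _
      _ = (r P).adicValuation ((ρ J)⁻¹) := one_mul _
      _ < 1 := h2
  rw [hρu, Valuation.map_one_sub_of_lt _ hsmall] at hlt
  exact lt_irrefl _ hlt

/-- (3a): a place `P` with `J(P) = c ∈ A` reduces to a place with `(ρ J)(r P) = π c`. -/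
theorem es3d_value (H : ts_Hyp A π W ρ r) (J : W) (hJ : ρ J ≠ 0)
    (DJ : Divisor L F) (hDJ : ∀ P, DJ P = P.ord (J : F))
    (DJb : Divisor k Fb) (hDJb : ∀ Q, DJb Q = Q.ord (ρ J))
    (hpol : ∑ P ∈ DJ.support, max (-(DJ P)) 0 ≤ ∑ Q ∈ DJb.support, max (-(DJb Q)) 0)
    (P : Place L F) (c : L) (hc : c ∈ A)
    (hPc : P.adicValuation ((J : F) - algebraMap L F c) < 1) :
    (r P).adicValuation (ρ J - algebraMap k Fb (π ⟨c, hc⟩)) < 1 := by
  have h0 := es3d_reg_of_value H J hJ DJ hDJ DJb hDJb hpol P c hc hPc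
  have hpoleJ := s18a_pole_of_pole H J hJ DJ hDJ DJb hDJb hpol
  have hreg : ∀ P₁, r P₁ = r P → P₁.adicValuation (J : F) ≤ 1 := by
    intro P₁ hP₁
    by_contra hcon
    have := hpoleJ P₁ ((P₁.not_adicValuation_le_one_iff).mp hcon)
    rw [hP₁] at this
    omega
  obtain ⟨c₁, hc₁, hP₁, hQ₁⟩ := H.value J (r P) hreg P rfl
  have hcc : c₁ = c := es3s_value_unique P hP₁ hPc
  subst hcc
  exact hQ₁

/-- (3b): a place `P` with `J(P) = c ∉ A` reduces to a pole of `ρ J`. -/
theorem es3d_pole_of_value_notMem (H : ts_Hyp A π W ρ r) (J : W) (hJ : ρ J ≠ 0)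
    (DJ : Divisor L F) (hDJ : ∀ P, DJ P = P.ord (J : F))
    (DJb : Divisor k Fb) (hDJb : ∀ Q, DJb Q = Q.ord (ρ J))
    (hpol : ∑ P ∈ DJ.support, max (-(DJ P)) 0 ≤ ∑ Q ∈ DJb.support, max (-(DJb Q)) 0)
    (P : Place L F) (c : L) (hc : c ∉ A)
    (hPc : P.adicValuation ((J : F) - algebraMap L F c) < 1) : (r P).ord (ρ J) < 0 := by
  by_contra hnn
  rw [not_lt] at hnn
  have hpoleJ := s18a_pole_of_pole H J hJ DJ hDJ DJb hDJb hpol
  have hc0 : c ≠ 0 := fun h => hc (h ▸ A.zero_mem)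
  have hci : c⁻¹ ∈ A := (A.mem_or_inv_mem c).resolve_left hc
  have hπ : π ⟨c⁻¹, hci⟩ = 0 := H.pi_eq_zero hci (by rwa [inv_inv])
  let ci : W := ⟨algebraMap L F c⁻¹, H.algW hci⟩
  let u : W := 1 - ci * J
  have huF : (u : F) = 1 - algebraMap L F c⁻¹ * (J : F) := rfl
  have hρu : ρ u = 1 := by
    show ρ (1 - ci * J) = 1
    rw [map_sub, map_one, map_mul, H.rho_alg c⁻¹ hci, hπ, map_zero, zero_mul, sub_zero]
  have hreg : ∀ P₁, r P₁ = r P → P₁.adicValuation (u : F) ≤ 1 := by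
    intro P₁ hP₁
    have hJ₁ : P₁.adicValuation (J : F) ≤ 1 := by
      by_contra hcon
      have := hpoleJ P₁ ((P₁.not_adicValuation_le_one_iff).mp hcon)
      rw [hP₁] at this
      omega
    rw [huF]
    refine (Valuation.map_sub _ _ _).trans (max_le ?_ ?_)
    · rw [map_one]
    · rw [map_mul]
      exact mul_le_one' (P₁.adicValuation_algebraMap_le_one _) hJ₁
  have hvan : P.adicValuation (u : F) < 1 := by
    have h1 : (u : F) = -(algebraMap L F c⁻¹ * ((J : F) - algebraMap L F c)) := by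
      rw [huF, mul_sub, ← map_mul, inv_mul_cancel₀ hc0, map_one]
      ring
    rw [h1, Valuation.map_neg, map_mul, ts_val_algebraMap P (inv_ne_zero hc0), one_mul]
    exact hPc
  have hlt := H.van_of_disc u (r P) hreg P rfl hvan
  rw [hρu, map_one] at hlt
  exact lt_irrefl _ hlt

/-- **the dichotomy** `es3s_Dich` from the SPEC and the polar-degree inequality for `J`. -/
theorem es3d_dich (H : ts_Hyp A π W ρ r) (J : W) (hJ : ρ J ≠ 0)
    (DJ : Divisor L F) (hDJ : ∀ P, DJ P = P.ord (J : F))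
    (DJb : Divisor k Fb) (hDJb : ∀ Q, DJb Q = Q.ord (ρ J))
    (hpol : ∑ P ∈ DJ.support, max (-(DJ P)) 0 ≤ ∑ Q ∈ DJb.support, max (-(DJb Q)) 0) :
    es3s_Dich π ρ r J := by
  intro P
  by_cases hpole : P.ord (J : F) < 0
  · right
    refine ⟨s18a_pole_of_pole H J hJ DJ hDJ DJb hDJb hpol P hpole, fun c _ hval => ?_⟩
    have := es3s_ord_nonneg_of_value P hval
    omega
  · have hle : P.adicValuation (J : F) ≤ 1 := by
      by_contra hcon
      exact hpole ((P.not_adicValuation_le_one_iff).mp hcon)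
    obtain ⟨c, hPc⟩ := H.eval P (J : F) hle
    by_cases hc : c ∈ A
    · left
      exact ⟨c, hc, hPc, es3d_value H J hJ DJ hDJ DJb hDJb hpol P c hc hPc⟩
    · right
      refine ⟨es3d_pole_of_value_notMem H J hJ DJ hDJ DJb hDJb hpol P c hc hPc,
        fun c' hc' hval => ?_⟩
      have hcc : c' = c := es3s_value_unique P hval hPc
      exact hc (hcc ▸ hc')

end Dich

end Fermat.Agent.S37x
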