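/-
S37 block B3, helper3 route, leaf ES-hE (row 25 of `s37_plan`, helper56), third part: INSTANTIATION for the canonical
Gauss pair of S18 (`s18f_W`, `s18f_rho`, `s18f_J`, `placeReductionModL h`), `T = heckeDivBar` (`= α_* β^*`) and
`Φ = Frob_* + ℓ (Frob⁻¹)_*` (`cfb_frob`), `Ψ = Φ_ℓ` (S28x `exists_modPoly`).
-/
import Mathlib
import Fermat.Agent.S18x.AssemblyFinal
import Fermat.Agent.S28x.ModPoly
import Fermat.Agent.S37x.Es3SuppDich

set_option autoImplicit false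
set_option synthInstance.maxHeartbeats 400000

namespace Fermat.Agent.S37x

open AlgebraicCurve ModularCurve Fermat.Agent.S18x Fermat.Agent.S24x Fermat.Agent.S28x

local notation "Q̄" => AlgebraicClosure ℚ

section ModEq

/-- the relation `es3s_rel` does not depend on the `ℤ`-algebra instance used in `aeval`. -/
theorem es3i_rel_of_algebra {R : Type*} [CommRing R] (inst : Algebra ℤ R)
    (Ψ : Polynomial (Polynomial ℤ)) (x y : R)
    (h : Ψ.eval₂ (@Polynomial.aeval ℤ R _ _ inst x).toRingHom y = 0) : es3s_rel Ψ x y := by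
  have : inst = Ring.toIntAlgebra R := Subsingleton.elim _ _
  subst this
  exact h

variable (N ℓ : ℕ) [NeZero N] [hℓ : Fact ℓ.Prime]

theorem es3i_neZero : NeZero ℓ := ⟨hℓ.out.ne_zero⟩

/-- **the modular equation in `F_{Nℓ}`**: `Φ_ℓ(α j; β j) = 0 = Φ_ℓ(β j; α j)`. -/
theorem es3i_exists_modPoly :
    haveI := es3i_neZero ℓ
    ∃ Ψ : Polynomial (Polynomial ℤ), Ψ.Monic ∧
      es3s_rel Ψ (heckeAlphaBar Q̄ N ℓ (jBar N)) (heckeBetaBar Q̄ N ℓ (jBar N)) ∧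
      es3s_rel Ψ (heckeBetaBar Q̄ N ℓ (jBar N)) (heckeAlphaBar Q̄ N ℓ (jBar N)) := by
  haveI := es3i_neZero ℓ
  obtain ⟨Ψ, hm, -, h1, h2⟩ := exists_modPoly ℓ
  have h1' : es3s_rel Ψ jq (qExpand ℚ ℓ jq) := es3i_rel_of_algebra _ Ψ _ _ h1
  have h2' : es3s_rel Ψ (qExpand ℚ ℓ jq) jq := es3i_rel_of_algebra _ Ψ _ _ h2
  have e1 := es3s_rel_map (coeffEmb Q̄) h1'
  have e2 := es3s_rel_map (coeffEmb Q̄) h2'
  have hq : coeffEmb Q̄ (qExpand ℚ ℓ jq) = qExpand Q̄ ℓ (coeffEmb Q̄ jq) := coeffMap_qExpand _ ℓ jq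
  rw [hq] at e1 e2
  have hα : ((heckeAlphaBar Q̄ N ℓ (jBar N) : FBar (N * ℓ)) : LaurentSeries Q̄) = coeffEmb Q̄ jq := by
    rw [coe_heckeAlphaBar]
    exact coe_jBar N
  have hβ : ((heckeBetaBar Q̄ N ℓ (jBar N) : FBar (N * ℓ)) : LaurentSeries Q̄) =
      qExpand Q̄ ℓ (coeffEmb Q̄ jq) := by
    rw [coe_heckeBetaBar, coe_jBar]
  refine ⟨Ψ, hm, ?_, ?_⟩
  · apply es3s_rel_of_map (modularFunctionFieldBar (N * ℓ)).val.toRingHom Subtype.val_injective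
    show es3s_rel Ψ ((heckeAlphaBar Q̄ N ℓ (jBar N) : FBar (N * ℓ)) : LaurentSeries Q̄)
      ((heckeBetaBar Q̄ N ℓ (jBar N) : FBar (N * ℓ)) : LaurentSeries Q̄)
    rw [hα, hβ]
    exact e1
  · apply es3s_rel_of_map (modularFunctionFieldBar (N * ℓ)).val.toRingHom Subtype.val_injective
    show es3s_rel Ψ ((heckeBetaBar Q̄ N ℓ (jBar N) : FBar (N * ℓ)) : LaurentSeries Q̄)
      ((heckeAlphaBar Q̄ N ℓ (jBar N) : FBar (N * ℓ)) : LaurentSeries Q̄)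
    rw [hα, hβ]
    exact e2

/-- the hypothesis `es3s_TRel` for `T_ℓ = heckeDivBar` and `J = j`. -/
theorem es3i_TRel
    (hα : haveI := es3i_neZero ℓ; HeckeAlphaBarIntegral Q̄ N ℓ)
    (hβ : haveI := es3i_neZero ℓ; HeckeBetaBarIntegral Q̄ N ℓ)
    [HasPrincipalDivisors Q̄ (laurentBaseChange Q̄ (modularFunctionFieldFull (N * ℓ)))] :
    haveI := es3i_neZero ℓ
    ∃ Ψ : Polynomial (Polynomial ℤ), Ψ.Monic ∧ es3s_TRel Ψ (heckeDivBar hα hβ) (jBar N) := by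
  haveI := es3i_neZero ℓ
  obtain ⟨Ψ, hm, h1, h2⟩ := es3i_exists_modPoly N ℓ
  exact ⟨Ψ, hm, es3s_TRel_of_correspondence (heckeBetaBar Q̄ N ℓ) (heckeAlphaBar Q̄ N ℓ) hβ hα hm
    (jBar N) h1 h2⟩

end ModEq

section Level

variable (N : ℕ) [NeZero N] (A : ValuationSubring (AlgebraicClosure ℚ))
  (h : ModularCurve.ReductionInputsModL A N)

/-- **the dichotomy at level `N`** for the canonical Gauss pair of S18. -/
theorem es3i_dich {ℓ : ℕ} [Fact ℓ.Prime] (hℓN : ¬ ℓ ∣ N) (hA : A.LiesOverPrime ℓ) :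
    es3s_Dich (IsLocalRing.residue A) (s18f_rho N A h) (placeReductionModL h) (s18f_J N A h) := by
  have hAC : IsAlgClosed (IsLocalRing.ResidueField A) := s18a_isAlgClosed_residue A
  have H := s18f_hyp N A h
  have HF := rmn_hyp_FBar N
  have Hb := rmn_hyp_fb (IsLocalRing.ResidueField A) N
  have hρJ := s18f_rho_J N A h
  have hρJ0 : s18f_rho N A h (s18f_J N A h) ≠ 0 := by
    rw [hρJ]
    intro h0
    exact unr_fb_nonconst (IsLocalRing.ResidueField A) N 0 (by rw [h0, map_zero])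
  have hJ0 : ((s18f_J N A h : s18f_W N A h) : modularFunctionFieldBar N) ≠ 0 :=
    ts_ne_zero_of_rho_ne_zero hρJ0
  obtain ⟨DJ, hDJ⟩ := HF.hpd _ hJ0
  obtain ⟨DJb, hDJb⟩ := Hb.hpd _ hρJ0
  have hpol := glu_hpol_assembly N hℓN A hA (s18f_W N A h) (s18f_rho N A h) (s18f_J N A h)
    (s18f_J_coe N A h) (by rw [hρJ]; rfl) DJ hDJ DJb hDJb
  exact es3d_dich H (s18f_J N A h) hρJ0 DJ hDJ DJb hDJb hpol

end Level

section Reduced

variable (k : Type*) [Field k] [IsAlgClosed k] (N : ℕ) [NeZero N] (ℓ : ℕ) [hℓ : Fact ℓ.Prime]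

/-- `hfin` for `jb = pls_jb k N` -/
theorem es3i_hfin {Ψ : Polynomial (Polynomial ℤ)} (hΨ : Ψ.Monic)
    (Q' : Place k (modularFunctionFieldFullC k N)) :
    {Q | Q' ∈ es3s_Theta Ψ ℓ (pls_jb k N) Q}.Finite :=
  es3s_hfin hΨ hℓ.out.ne_zero (pls_jb k N) (unr_fb_nonconst k N) (rmn_hyp_fb k N).hpd Q'

variable [CharP k ℓ] [PerfectRing k ℓ]

/-- `hΦ` for `Φ = Frob_* + ℓ (Frob⁻¹)_*`, `Frob = cfb_frob k N ℓ`. -/
theorem es3i_hΦ (Ψ : Polynomial (Polynomial ℤ))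
    (Q Q' : Place k (modularFunctionFieldFullC k N))
    (hne : es3s_Phi (cfb_frob k N ℓ) ℓ (Finsupp.single Q 1) Q' ≠ 0) :
    Q' ∈ es3s_Theta Ψ ℓ (pls_jb k N) Q :=
  es3s_hΦ Ψ ℓ (pls_jb k N) (rmn_hyp_fb k N).eval (cfb_frob k N ℓ) (cfb_frob_smul_j k N ℓ)
    (cfb_baseAut_frob_apply k N ℓ) Q Q' hne

end Reduced

section Final

variable (N : ℕ) [NeZero N] (A : ValuationSubring (AlgebraicClosure ℚ))
  (h : ModularCurve.ReductionInputsModL A N)

/-- **ES-hE at level `N`**: the three inputs `hΘ𝒮`, `hfin`, `hE` of `es3_global2` for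
`r = placeReductionModL h`, `T = T_ℓ = heckeDivBar`, `Φ = Frob_* + ℓ (Frob⁻¹)_*`,
`Θ = es3s_Theta Ψ ℓ j̄`, `𝒮 = es3s_poles j̄`, with `Ψ = Φ_ℓ` the modular polynomial. -/
theorem es3i_inputs {ℓ : ℕ} [hℓ : Fact ℓ.Prime] (hℓN : ¬ ℓ ∣ N) (hA : A.LiesOverPrime ℓ)
    [CharP (IsLocalRing.ResidueField A) ℓ] [PerfectRing (IsLocalRing.ResidueField A) ℓ]
    (hα : haveI := es3i_neZero ℓ; HeckeAlphaBarIntegral Q̄ N ℓ)
    (hβ : haveI := es3i_neZero ℓ; HeckeBetaBarIntegral Q̄ N ℓ)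
    [HasPrincipalDivisors Q̄ (laurentBaseChange Q̄ (modularFunctionFieldFull (N * ℓ)))] :
    haveI := es3i_neZero ℓ
    ∃ Ψ : Polynomial (Polynomial ℤ),
      (∀ Q Q' : Place (IsLocalRing.ResidueField A) (modularFunctionFieldFullC (IsLocalRing.ResidueField A) N),
        Q' ∈ es3s_Theta Ψ ℓ (pls_jb (IsLocalRing.ResidueField A) N) Q →
        (Q' ∈ es3s_poles (k := IsLocalRing.ResidueField A) (pls_jb (IsLocalRing.ResidueField A) N) ↔
          Q ∈ es3s_poles (k := IsLocalRing.ResidueField A) (pls_jb (IsLocalRing.ResidueField A) N))) ∧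
      (∀ Q' : Place (IsLocalRing.ResidueField A) (modularFunctionFieldFullC (IsLocalRing.ResidueField A) N),
        {Q : Place (IsLocalRing.ResidueField A) (modularFunctionFieldFullC (IsLocalRing.ResidueField A) N) |
          Q' ∈ es3s_Theta Ψ ℓ (pls_jb (IsLocalRing.ResidueField A) N) Q}.Finite) ∧
      (∀ P Q', es3_defect (placeReductionModL h) (heckeDivBar hα hβ)
          (es3s_Phi (cfb_frob (IsLocalRing.ResidueField A) N ℓ) ℓ) (Finsupp.single P 1) Q' ≠ 0 →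
        Q' ∈ es3s_Theta Ψ ℓ (pls_jb (IsLocalRing.ResidueField A) N) (placeReductionModL h P)) := by
  haveI := es3i_neZero ℓ
  have hAC : IsAlgClosed (IsLocalRing.ResidueField A) := s18a_isAlgClosed_residue A
  obtain ⟨Ψ, hm, hT⟩ := es3i_TRel N ℓ hα hβ
  refine ⟨Ψ, fun Q Q' hQ => es3s_hΘ𝒮 Ψ ℓ _ Q Q' hQ,
    fun Q' => es3i_hfin (IsLocalRing.ResidueField A) N ℓ hm Q', fun P Q' hne => ?_⟩
  have H := s18f_hyp N A h
  have hρJ := s18f_rho_J N A h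
  have hE := es3s_hE H (s18f_J N A h) hm ℓ (es3i_dich N A h hℓN hA) (heckeDivBar hα hβ)
    (es3s_Phi (cfb_frob (IsLocalRing.ResidueField A) N ℓ) ℓ) hT
    (fun Q Q' hne' => by
      rw [hρJ]
      exact es3i_hΦ (IsLocalRing.ResidueField A) N ℓ Ψ Q Q' hne') P Q' hne
  rw [hρJ] at hE
  exact hE

end Final

end Fermat.Agent.S37x
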