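/-
S37 block [B3], COMPAT route (docs `S37_B3_ES_from_COMPAT_helper3`), row 56 (helper3): the ABSTRACT TOP of the Eichler–Shimura
congruence ON PLACES.

From
* `H : ts_Hyp A π W ρ r` (the SPEC of `r`: COMPAT + principal divisors + evaluation),
* `hdich : es3s_Dich π ρ r J` (finite-type places reduce to finite-type places with the reduced `J`-value, others to poles of `ρ J`),
* a monic `Ψ ∈ ℤ[Y][X]` with `Ψ(αJ; βJ) = 0 = Ψ(βJ; αJ)` (the modular polynomial),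
* `g : SemilinearAut k Fb` fixing `ρ J` with base automorphism `x ↦ x ^ ℓ` (the coefficientwise Frobenius),
* `hL : es3_Lifts ρ (α_* β^*) (g_* + ℓ (g⁻¹)_*)` (function-level lift `h = N_α(β u)`, row 28/54),
* the separation hypotheses `hsep`, `hsep'` (row 26) for `𝒮 = {poles of ρ J}`,
the identity  `r_* (T_ℓ P) = [g • r P] + ℓ [g⁻¹ • r P]`  holds for EVERY place `P`.
This is `es3_global2` with `Θ := es3s_Theta Ψ ℓ (ρ J)`, `𝒮 := es3s_poles (ρ J)`.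
-/
import Mathlib
import Fermat.Agent.S37x.Es3Local2
import Fermat.Agent.S37x.Es3Supp

set_option autoImplicit false

namespace Fermat.Agent.S37x

open AlgebraicCurve Fermat.Agent.S18x

variable {L k F Fb F' : Type*} [Field L] [Field k] [Field F] [Field Fb] [Field F']
  [Algebra L F] [Algebra k Fb] [Algebra L F'] [HasPrincipalDivisors L F']
variable {A : ValuationSubring L} {π : A →+* k} {W : ValuationSubring F} {ρ : W →+* Fb}
  {r : Place L F → Place k Fb}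

/-- **Eichler–Shimura on places, abstract form** (divisor version). -/
theorem es3t_hT_divisor (H : ts_Hyp A π W ρ r) (J : W)
    {Ψ : Polynomial (Polynomial ℤ)} (hΨ : Ψ.Monic) {ℓ : ℕ} (hℓ : ℓ ≠ 0)
    (β α : F →ₐ[L] F') (hβ : β.toRingHom.IsIntegral) (hα : α.toRingHom.IsIntegral)
    (h1 : es3s_rel Ψ (α (J : F)) (β (J : F))) (h2 : es3s_rel Ψ (β (J : F)) (α (J : F)))
    (hdich : es3s_Dich π ρ r J)
    (g : SemilinearAut k Fb) (hg : g • ρ J = ρ J)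
    (hbase : ∀ x : k, SemilinearAut.baseAut g x = x ^ ℓ)
    (hevalb : ∀ (Q : Place k Fb) (x : Fb), Q.adicValuation x ≤ 1 →
      ∃ c : k, Q.adicValuation (x - algebraMap k Fb c) < 1)
    (hpdb : ∀ f : Fb, f ≠ 0 → ∃ D : Divisor k Fb, ∀ Q, D Q = Q.ord f)
    (hjb : ∀ x : k, ρ J ≠ algebraMap k Fb x)
    (hL : es3_Lifts ρ (Divisor.correspondence β α hβ hα) (es3s_Phi g ℓ))
    (hsep : ∀ P, r P ∉ es3s_poles (ρ J) → ∀ S : Finset (Place k Fb),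
      (∀ Q ∈ S, Q ∉ es3s_poles (ρ J)) → r P ∉ S →
      ∃ u : W, ρ u ≠ 0 ∧ 0 < P.ord (u : F) ∧ (r P).ord (ρ u) = 1 ∧
        (∀ P'', P''.ord (u : F) < 0 → r P'' ∈ es3s_poles (ρ J)) ∧ ∀ Q ∈ S, Q.ord (ρ u) = 0)
    (hsep' : ∀ P, r P ∈ es3s_poles (ρ J) → ∀ S : Finset (Place k Fb),
      (∀ Q ∈ S, Q ∈ es3s_poles (ρ J)) → r P ∉ S →
      ∃ u : W, ρ u ≠ 0 ∧ 0 < P.ord (u : F) ∧ (r P).ord (ρ u) = 1 ∧
        (∀ P'', P''.ord (u : F) < 0 → r P'' ∉ es3s_poles (ρ J)) ∧ ∀ Q ∈ S, Q.ord (ρ u) = 0)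
    (D : Divisor L F) :
    Finsupp.mapDomain r (Divisor.correspondence β α hβ hα D) =
      es3s_Phi g ℓ (Finsupp.mapDomain r D) :=
  es3_global2 H (Divisor.correspondence β α hβ hα) (es3s_Phi g ℓ) hL
    (es3s_Theta Ψ ℓ (ρ J)) (es3s_poles (ρ J))
    (fun Q Q' h => es3s_hΘ𝒮 Ψ ℓ (ρ J) Q Q' h)
    (fun Q' => es3s_hfin hΨ hℓ (ρ J) hjb hpdb Q')
    (fun P Q' hne => es3s_hE H J hΨ ℓ hdich (Divisor.correspondence β α hβ hα) (es3s_Phi g ℓ)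
      (es3s_TRel_of_correspondence β α hβ hα hΨ (J : F) h1 h2)
      (fun Q Q'' h => es3s_hΦ Ψ ℓ (ρ J) hevalb g hg hbase Q Q'' h) P Q' hne)
    hsep hsep' D

/-- **Eichler–Shimura on places, abstract form**: `r_* (T_ℓ P) = [g • r P] + ℓ [g⁻¹ • r P]`. -/
theorem es3t_hT_abstract (H : ts_Hyp A π W ρ r) (J : W)
    {Ψ : Polynomial (Polynomial ℤ)} (hΨ : Ψ.Monic) {ℓ : ℕ} (hℓ : ℓ ≠ 0)
    (β α : F →ₐ[L] F') (hβ : β.toRingHom.IsIntegral) (hα : α.toRingHom.IsIntegral)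
    (h1 : es3s_rel Ψ (α (J : F)) (β (J : F))) (h2 : es3s_rel Ψ (β (J : F)) (α (J : F)))
    (hdich : es3s_Dich π ρ r J)
    (g : SemilinearAut k Fb) (hg : g • ρ J = ρ J)
    (hbase : ∀ x : k, SemilinearAut.baseAut g x = x ^ ℓ)
    (hevalb : ∀ (Q : Place k Fb) (x : Fb), Q.adicValuation x ≤ 1 →
      ∃ c : k, Q.adicValuation (x - algebraMap k Fb c) < 1)
    (hpdb : ∀ f : Fb, f ≠ 0 → ∃ D : Divisor k Fb, ∀ Q, D Q = Q.ord f)
    (hjb : ∀ x : k, ρ J ≠ algebraMap k Fb x)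
    (hL : es3_Lifts ρ (Divisor.correspondence β α hβ hα) (es3s_Phi g ℓ))
    (hsep : ∀ P, r P ∉ es3s_poles (ρ J) → ∀ S : Finset (Place k Fb),
      (∀ Q ∈ S, Q ∉ es3s_poles (ρ J)) → r P ∉ S →
      ∃ u : W, ρ u ≠ 0 ∧ 0 < P.ord (u : F) ∧ (r P).ord (ρ u) = 1 ∧
        (∀ P'', P''.ord (u : F) < 0 → r P'' ∈ es3s_poles (ρ J)) ∧ ∀ Q ∈ S, Q.ord (ρ u) = 0)
    (hsep' : ∀ P, r P ∈ es3s_poles (ρ J) → ∀ S : Finset (Place k Fb),
      (∀ Q ∈ S, Q ∈ es3s_poles (ρ J)) → r P ∉ S →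
      ∃ u : W, ρ u ≠ 0 ∧ 0 < P.ord (u : F) ∧ (r P).ord (ρ u) = 1 ∧
        (∀ P'', P''.ord (u : F) < 0 → r P'' ∉ es3s_poles (ρ J)) ∧ ∀ Q ∈ S, Q.ord (ρ u) = 0)
    (P : Place L F) :
    Finsupp.mapDomain r (Divisor.correspondence β α hβ hα (Finsupp.single P 1)) =
      Finsupp.single (g • r P) (1 : ℤ) + Finsupp.single (g⁻¹ • r P) (ℓ : ℤ) := by
  rw [es3t_hT_divisor H J hΨ hℓ β α hβ hα h1 h2 hdich g hg hbase hevalb hpdb hjb hL hsep hsep',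
    Finsupp.mapDomain_single, es3s_Phi_single]

end Fermat.Agent.S37x
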