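/-
S37 block [B3], COMPAT route, row 56 (helper3): LEVEL `N` INSTANTIATION of the abstract top `es3t_hT_abstract`.

For `h : ReductionInputsModL A N`, `r = placeReductionModL h`, the canonical S18 Gauss pair `(s18f_W, s18f_rho, s18f_J)` and
`g = cfb_frob k N ℓ`:
* `es3t_dich`        : the dichotomy `es3s_Dich` from helper55's `gci_Sep` (`hF1`, `hF2`);
* `es3t_hT_of_lifts` : the place-level Eichler–Shimura identity (the `hT` input of `s37t_result_of_places`) from two-chart
                       normality `s18f_Normality N A h` and the function-level lift `es3_Lifts` (row 54, helper54 `es3lb_lifts`);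
* `es3t_hT`          : the same with the lift discharged by `es3lc_lifts`: **(P-iii) from two-chart normality alone**.
-/
import Mathlib
import Fermat.Agent.S37x.Es3Top
import Fermat.Agent.S37x.GaloisCompatFinal
import Fermat.Agent.S37x.EsChartStabInst
import Fermat.Agent.S37x.BetaIntegral
import Fermat.Agent.S37x.Es3LiftsClosed

set_option autoImplicit false
set_option synthInstance.maxHeartbeats 400000

namespace Fermat.Agent.S37x

open ModularCurve AlgebraicCurve ValuationSubring HahnSeries Fermat.Agent.S18x Fermat.Agent.S24x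

noncomputable section

local notation "Q̄" => AlgebraicClosure ℚ

variable {N : ℕ} [NeZero N] {A : ValuationSubring Q̄} (h : ReductionInputsModL A N)
variable {ℓ : ℕ} [NeZero ℓ] [Fact ℓ.Prime] (hℓN : ¬ ℓ ∣ N) (hA : A.LiesOverPrime ℓ)

local notation "kA" => IsLocalRing.ResidueField A
local notation "FbA" => modularFunctionFieldFullC (IsLocalRing.ResidueField A) N

/-- the dichotomy for the canonical pair, from the value lemmas `hF1`, `hF2` -/
theorem es3t_dich (hS : gci_Sep h) :
    es3s_Dich (IsLocalRing.residue A) (s18f_rho N A h) (placeReductionModL h) (s18f_J N A h) := by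
  intro P
  by_cases hP : ∃ c ∈ A, P.adicValuation
      (((s18f_J N A h : s18f_W N A h) : FBar N) - algebraMap Q̄ (FBar N) c) < 1
  · obtain ⟨c, hc, hPc⟩ := hP
    exact Or.inl ⟨c, hc, hPc, hS.hF1 P c hc hPc⟩
  · refine Or.inr ⟨hS.hF2 P hP, ?_⟩
    intro c hc hPc
    exact hP ⟨c, hc, hPc⟩

/-- evaluation at the places of the reduced curve -/
theorem es3t_evalb (Q : Place kA FbA) (x : FbA) (hx : Q.adicValuation x ≤ 1) :
    ∃ c : kA, Q.adicValuation (x - algebraMap kA FbA c) < 1 := by
  have : IsAlgClosed kA := s18a_isAlgClosed_residue A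
  exact (rmn_hyp_fb kA N).eval Q x hx

include hℓN hA in
/-- **(P-iii) Eichler–Shimura on places**, from two-chart normality and the function-level lift. -/
theorem es3t_hT_of_lifts (hnorm : s18f_Normality N A h) [CharP kA ℓ] [PerfectRing kA ℓ]
    [HasPrincipalDivisors Q̄ (laurentBaseChange Q̄ (modularFunctionFieldFull (N * ℓ)))]
    (hL : es3_Lifts (s18f_rho N A h)
        (Divisor.correspondence (heckeBetaBar Q̄ N ℓ) (heckeAlphaBar Q̄ N ℓ)
          (bt37_betaIntegral N ℓ) (bt37_alphaIntegral N ℓ))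
        (es3s_Phi (cfb_frob kA N ℓ) ℓ))
    (P : Place Q̄ (FBar N)) :
    Finsupp.mapDomain (placeReductionModL h)
        (Divisor.correspondence (heckeBetaBar Q̄ N ℓ) (heckeAlphaBar Q̄ N ℓ)
          (bt37_betaIntegral N ℓ) (bt37_alphaIntegral N ℓ) (Finsupp.single P 1)) =
      Finsupp.single (cfb_frob kA N ℓ • placeReductionModL h P) (1 : ℤ) +
        Finsupp.single ((cfb_frob kA N ℓ)⁻¹ • placeReductionModL h P) (ℓ : ℤ) := by
  have hAC : IsAlgClosed kA := s18a_isAlgClosed_residue A
  have hS : gci_Sep h := gcf_sep_of_normality h hℓN hA hnorm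
  obtain ⟨Ψ, hΨ, hr1, hr2⟩ := ecs_modPoly_rel N ℓ
  have hJb : s18f_rho N A h (s18f_J N A h) = pls_jb kA N := s18f_rho_J N A h
  have hg : cfb_frob kA N ℓ • s18f_rho N A h (s18f_J N A h) = s18f_rho N A h (s18f_J N A h) := by
    rw [hJb]
    exact cfb_frob_smul_j kA N ℓ
  have h1 : es3s_rel Ψ (heckeAlphaBar Q̄ N ℓ ((s18f_J N A h : s18f_W N A h) : FBar N))
      (heckeBetaBar Q̄ N ℓ ((s18f_J N A h : s18f_W N A h) : FBar N)) := hr2
  have h2 : es3s_rel Ψ (heckeBetaBar Q̄ N ℓ ((s18f_J N A h : s18f_W N A h) : FBar N))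
      (heckeAlphaBar Q̄ N ℓ ((s18f_J N A h : s18f_W N A h) : FBar N)) := hr1
  have hdich := es3t_dich h hS
  have hsep := hS.hsep
  have hsep' := hS.hsep'
  exact es3t_hT_abstract (s18f_hyp N A h) (s18f_J N A h) hΨ (Fact.out : ℓ.Prime).ne_zero
    (heckeBetaBar Q̄ N ℓ) (heckeAlphaBar Q̄ N ℓ) (bt37_betaIntegral N ℓ) (bt37_alphaIntegral N ℓ)
    h1 h2 hdich (cfb_frob kA N ℓ) hg (cfb_baseAut_frob_apply kA N ℓ)
    (es3t_evalb (N := N) (A := A)) (gci_hpdb (N := N) (A := A)) (gci_Jnc h) hL hsep hsep' P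


include hℓN hA in
/-- **(P-iii) Eichler–Shimura on places from two-chart normality** (COMPAT route): for every place `P` of `F̄_N`,
`r_* (T_ℓ P) = [Frob • r P] + ℓ [Frob⁻¹ • r P]`, `r = placeReductionModL h`. -/
theorem es3t_hT (hnorm : s18f_Normality N A h) [CharP kA ℓ] [PerfectRing kA ℓ]
    [HasPrincipalDivisors Q̄ (laurentBaseChange Q̄ (modularFunctionFieldFull (N * ℓ)))]
    (P : Place Q̄ (FBar N)) :
    Finsupp.mapDomain (placeReductionModL h)
        (Divisor.correspondence (heckeBetaBar Q̄ N ℓ) (heckeAlphaBar Q̄ N ℓ)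
          (bt37_betaIntegral N ℓ) (bt37_alphaIntegral N ℓ) (Finsupp.single P 1)) =
      Finsupp.single (cfb_frob kA N ℓ • placeReductionModL h P) (1 : ℤ) +
        Finsupp.single ((cfb_frob kA N ℓ)⁻¹ • placeReductionModL h P) (ℓ : ℤ) :=
  es3t_hT_of_lifts h hℓN hA hnorm (es3lc_lifts N ℓ A h hℓN) P

end

end Fermat.Agent.S37x
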