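/-
S37 block [B3], helper3's COMPAT route, row 26 (ES-hsep) instantiation support (helper85, prefix `es3wi_`):
the WEAK-APPROXIMATION hypotheses `hwap0` / `hwapinf` of `es3p_hsep` / `es3p_hsep'` (S37x/Es3Sep.lean)

* on the reduced modular function field `pls_Fb k N = modularFunctionFieldFullC k N` with the coordinate
  `pls_jb k N` (`k` perfect, any characteristic):  `es3wi_hwap0_jb`, `es3wi_hwapinf_jb`;
* for ANY pair `(W, ρ)` into `pls_Fb k N` and `J : W` with `ρ J = pls_jb k N`: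
  `es3wi_hwap0_of_eq`, `es3wi_hwapinf_of_eq`  (LITERAL shape of the hypotheses of `es3p_hsep(')`);
* for the canonical S18 pair `(s18f_W N A h, s18f_rho N A h, s18f_J N A h)`:
  `es3wi_hwap0`, `es3wi_hwapinf`.

Inputs: `wap_exists_simple_zero(_inf)` (helper90, S37x/WeakApprox.lean), `pls_isSepCoordinate_jb_perfect`
(helper34, S18x/PlsFbarFinal.lean), `s18f_rho_J` (S18x/AssemblyFinal.lean).
-/
import Mathlib
import Fermat.Agent.S37x.WeakApprox
import Fermat.Agent.S18x.PlsFbarFinal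
import Fermat.Agent.S18x.AssemblyFinal

set_option autoImplicit false

namespace Fermat.Agent.S37x

open AlgebraicCurve ModularCurve Fermat.Agent.S18x

section Perfect

variable (k : Type*) [Field k] [PerfectField k] (N : ℕ) [NeZero N]

/-- weak approximation on the chart `j̄ ≠ ∞` of `F̄_N`. -/
theorem es3wi_hwap0_jb :
    ∀ Q0 : Place k (pls_Fb k N), 0 ≤ Q0.ord (pls_jb k N) → ∀ S : Finset (Place k (pls_Fb k N)),
      (∀ Q ∈ S, 0 ≤ Q.ord (pls_jb k N)) → Q0 ∉ S →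
      ∃ g : pls_Fb k N, (∀ v : Place k (pls_Fb k N), 0 ≤ v.ord (pls_jb k N) → 0 ≤ v.ord g) ∧
        Q0.ord g = 1 ∧ ∀ Q ∈ S, Q.ord g = 0 :=
  fun Q0 hQ0 S hS hQ0S =>
    wap_exists_simple_zero (pls_isSepCoordinate_jb_perfect k N) Q0 hQ0 S hS hQ0S

/-- weak approximation on the chart `j̄ ≠ 0` of `F̄_N`. -/
theorem es3wi_hwapinf_jb :
    ∀ Q0 : Place k (pls_Fb k N), Q0.ord (pls_jb k N) ≤ 0 → ∀ S : Finset (Place k (pls_Fb k N)),
      (∀ Q ∈ S, Q.ord (pls_jb k N) ≤ 0) → Q0 ∉ S →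
      ∃ g : pls_Fb k N, (∀ v : Place k (pls_Fb k N), v.ord (pls_jb k N) ≤ 0 → 0 ≤ v.ord g) ∧
        Q0.ord g = 1 ∧ ∀ Q ∈ S, Q.ord g = 0 :=
  fun Q0 hQ0 S hS hQ0S =>
    wap_exists_simple_zero_inf (pls_isSepCoordinate_jb_perfect k N) Q0 hQ0 S hS hQ0S

variable {k N}
variable {F : Type*} [Field F] {W : ValuationSubring F}

/-- `hwap0` of `es3p_hsep` for any Gauss pair whose coordinate reduces to `j̄`. -/
theorem es3wi_hwap0_of_eq {ρ : W →+* pls_Fb k N} {J : W} (hρJ : ρ J = pls_jb k N) :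
    ∀ Q0 : Place k (pls_Fb k N), 0 ≤ Q0.ord (ρ J) → ∀ S : Finset (Place k (pls_Fb k N)),
      (∀ Q ∈ S, 0 ≤ Q.ord (ρ J)) → Q0 ∉ S →
      ∃ g : pls_Fb k N, (∀ v : Place k (pls_Fb k N), 0 ≤ v.ord (ρ J) → 0 ≤ v.ord g) ∧
        Q0.ord g = 1 ∧ ∀ Q ∈ S, Q.ord g = 0 := by
  rw [hρJ]
  exact es3wi_hwap0_jb k N

/-- `hwapinf` of `es3p_hsep'` for any Gauss pair whose coordinate reduces to `j̄`. -/
theorem es3wi_hwapinf_of_eq {ρ : W →+* pls_Fb k N} {J : W} (hρJ : ρ J = pls_jb k N) :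
    ∀ Q0 : Place k (pls_Fb k N), Q0.ord (ρ J) ≤ 0 → ∀ S : Finset (Place k (pls_Fb k N)),
      (∀ Q ∈ S, Q.ord (ρ J) ≤ 0) → Q0 ∉ S →
      ∃ g : pls_Fb k N, (∀ v : Place k (pls_Fb k N), v.ord (ρ J) ≤ 0 → 0 ≤ v.ord g) ∧
        Q0.ord g = 1 ∧ ∀ Q ∈ S, Q.ord g = 0 := by
  rw [hρJ]
  exact es3wi_hwapinf_jb k N

end Perfect

section Canonical

variable (N : ℕ) [NeZero N] (A : ValuationSubring (AlgebraicClosure ℚ))
  (h : ModularCurve.ReductionInputsModL A N)

/-- the residue field of a valuation subring of `Q̄` is perfect (it is algebraically closed). -/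
theorem es3wi_perfectField : PerfectField (IsLocalRing.ResidueField A) := by
  have : IsAlgClosed (IsLocalRing.ResidueField A) := s18a_isAlgClosed_residue A
  infer_instance

/-- `hwap0` of `es3p_hsep` at `(H, J) := (s18f_hyp N A h, s18f_J N A h)`. -/
theorem es3wi_hwap0 :
    ∀ Q0 : Place (IsLocalRing.ResidueField A)
        (modularFunctionFieldFullC (IsLocalRing.ResidueField A) N),
      0 ≤ Q0.ord (s18f_rho N A h (s18f_J N A h)) →
      ∀ S : Finset (Place (IsLocalRing.ResidueField A)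
          (modularFunctionFieldFullC (IsLocalRing.ResidueField A) N)),
      (∀ Q ∈ S, 0 ≤ Q.ord (s18f_rho N A h (s18f_J N A h))) → Q0 ∉ S →
      ∃ g : modularFunctionFieldFullC (IsLocalRing.ResidueField A) N,
        (∀ v : Place (IsLocalRing.ResidueField A)
            (modularFunctionFieldFullC (IsLocalRing.ResidueField A) N),
          0 ≤ v.ord (s18f_rho N A h (s18f_J N A h)) → 0 ≤ v.ord g) ∧
        Q0.ord g = 1 ∧ ∀ Q ∈ S, Q.ord g = 0 := by
  have := es3wi_perfectField A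
  exact es3wi_hwap0_of_eq (s18f_rho_J N A h)

/-- `hwapinf` of `es3p_hsep'` at `(H, J) := (s18f_hyp N A h, s18f_J N A h)`. -/
theorem es3wi_hwapinf :
    ∀ Q0 : Place (IsLocalRing.ResidueField A)
        (modularFunctionFieldFullC (IsLocalRing.ResidueField A) N),
      Q0.ord (s18f_rho N A h (s18f_J N A h)) ≤ 0 →
      ∀ S : Finset (Place (IsLocalRing.ResidueField A)
          (modularFunctionFieldFullC (IsLocalRing.ResidueField A) N)),
      (∀ Q ∈ S, Q.ord (s18f_rho N A h (s18f_J N A h)) ≤ 0) → Q0 ∉ S →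
      ∃ g : modularFunctionFieldFullC (IsLocalRing.ResidueField A) N,
        (∀ v : Place (IsLocalRing.ResidueField A)
            (modularFunctionFieldFullC (IsLocalRing.ResidueField A) N),
          v.ord (s18f_rho N A h (s18f_J N A h)) ≤ 0 → 0 ≤ v.ord g) ∧
        Q0.ord g = 1 ∧ ∀ Q ∈ S, Q.ord g = 0 := by
  have := es3wi_perfectField A
  exact es3wi_hwapinf_of_eq (s18f_rho_J N A h)

end Canonical

end Fermat.Agent.S37x
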