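/-
S37 prep (own risk), block [B3], sub-leaf of row 28 (helper79, prefix `eal_`):
the ATKIN–LEHNER automorphism `w` of `E = F_{Nℓ}` in the abstract setting of helper60's
`esc_norm_eq` (S37x/EsConj.lean).

Setting: `F ≤ E` intermediate fields of `L((q))`, `α = inclusion : F → E`, `β = (q ↦ q^ℓ) : F → E`,
`[E : β F] = ℓ + 1`, `F = L(G)` with the two root conditions of `esc_norm_eq`, and `E` generated by
`F ∪ β F`.  Then:

* `eal_exists_sigma` : the "last" `βF`-embedding `σ_∞ : E → Ω` (`Ω` an algebraic closure of `L((q))`)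
  with `σ_∞ ∘ β = ι ∘ S_ℓ` and `σ_∞ ∘ α = ι ∘ S_ℓ ∘ S_ℓ`;
* `eal_exists_w` : an `L`-algebra automorphism `w` of `E` with `w ∘ α = β`, `w ∘ β = α`, `w ∘ w = id`;
* `eal_norm_swap` : `N_{E/αF}(β u) = N_{E/βF}(α u)` (as elements of `F`).
-/
import Fermat.Agent.S37x.EsConj

set_option autoImplicit false
set_option linter.unusedSectionVars false
set_option linter.style.haveILetI false

namespace Fermat.Agent.S37x

open ModularCurve HahnSeries Module Polynomial
open Fermat.Agent.S18x

noncomputable section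

variable {L : Type*} [Field L] [CharZero L] (ℓ : ℕ) [Fact ℓ.Prime]

section Sigma

variable (ζ : Lˣ)

set_option maxHeartbeats 1600000 in
/-- **The last embedding.**  Under the hypotheses of `esc_norm_eq` there is a ring hom
`σ_∞ : E → Ω = AlgebraicClosure L((q))` which is `ι ∘ S_ℓ` on `β F` and `ι ∘ S_ℓ ∘ S_ℓ` on `F`. -/
theorem eal_exists_sigma (hζ : IsPrimitiveRoot ζ ℓ)
    (F E : IntermediateField L (LaurentSeries L)) (hFE : F ≤ E) (β : F →ₐ[L] E)
    (hβ : ∀ z : F, ((β z : E) : (LaurentSeries L)) = qExpand L ℓ (z : (LaurentSeries L)))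
    (hdeg : letI := β.toRingHom.toAlgebra; finrank F E = ℓ + 1)
    (G : Set (LaurentSeries L)) (hG : IntermediateField.adjoin L G = F) (hGne : G.Nonempty)
    (hGS : ∀ g ∈ G, g ∉ Set.range (qExpand L ℓ))
    (hGP : ∀ g ∈ G, ∃ P : Polynomial F, P.Monic ∧ P.natDegree = ℓ + 1 ∧
      (P.map (esc_SF ℓ F)).eval g = 0 ∧
      (P.map (esc_SF ℓ F)).eval (qExpand L ℓ (qExpand L ℓ g)) = 0) :
    ∃ τ : E →+* AlgebraicClosure (LaurentSeries L),
      (∀ z : F, τ (β z) =
        algebraMap (LaurentSeries L) (AlgebraicClosure (LaurentSeries L))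
          (qExpand L ℓ (z : LaurentSeries L))) ∧
      (∀ y : F, τ (IntermediateField.inclusion hFE y) =
        algebraMap (LaurentSeries L) (AlgebraicClosure (LaurentSeries L))
          (qExpand L ℓ (qExpand L ℓ (y : LaurentSeries L)))) := by
  classical
  letI : Algebra F E := β.toRingHom.toAlgebra
  have halgFE : ∀ z : F, algebraMap F E z = β z := fun _ => rfl
  haveI : IsScalarTower L F E := IsScalarTower.of_algebraMap_eq (fun c => (β.commutes c).symm)
  haveI : FiniteDimensional F E := Module.finite_of_finrank_pos (by rw [hdeg]; omega)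
  haveI : Algebra.IsSeparable F E := Algebra.IsSeparable.of_integral F E
  -- the big field
  let Ω := AlgebraicClosure (LaurentSeries L)
  let ι : (LaurentSeries L) →+* Ω := algebraMap (LaurentSeries L) Ω
  have hι : Function.Injective ι := (algebraMap (LaurentSeries L) Ω).injective
  let toΩ : E →+* Ω := ι.comp (algebraMap E (LaurentSeries L))
  letI : Algebra F Ω := (toΩ.comp (algebraMap F E)).toAlgebra
  have halgFΩ : ∀ z : F, algebraMap F Ω z = ι (qExpand L ℓ (z : (LaurentSeries L))) := fun z => by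
    show ι ((β z : E) : (LaurentSeries L)) = _
    rw [hβ]
  have hζℓ : ζ ^ ℓ = 1 := hζ.pow_eq_one
  -- the `ℓ` explicit embeddings
  let σ : ZMod ℓ → (E →ₐ[F] Ω) := fun i =>
    { toRingHom := ι.comp ((esc_R ℓ ζ i).comp (algebraMap E (LaurentSeries L)))
      commutes' := fun z => by
        show ι (esc_R ℓ ζ i ((β z : E) : (LaurentSeries L))) = algebraMap F Ω z
        rw [hβ, esc_R_fix ℓ ζ hζℓ, halgFΩ] }
  have hσapp : ∀ (i : ZMod ℓ) (x : E), σ i x = ι (esc_R ℓ ζ i (x : (LaurentSeries L))) :=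
    fun _ _ => rfl
  obtain ⟨g₀, hg₀⟩ := hGne
  have hGF : ∀ g ∈ G, g ∈ F := fun g hg => by
    rw [← hG]; exact IntermediateField.subset_adjoin L G hg
  have hσinj : Function.Injective σ := by
    intro i i' h
    by_contra hne
    have h1 := congrArg (fun τ : E →ₐ[F] Ω => τ ⟨g₀, hFE (hGF g₀ hg₀)⟩) h
    simp only [hσapp] at h1
    exact esc_R_ne ℓ ζ hζ (hGS g₀ hg₀) hne (hι h1)
  obtain ⟨σ', -, -, hnorm⟩ := escf_exists_last_embedding σ hσinj
    (by rw [hdeg, ZMod.card])
  -- constants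
  have hσ'C : ∀ c : L, σ' (algebraMap L E c) = ι (HahnSeries.C c) := by
    intro c
    rw [IsScalarTower.algebraMap_apply L F E, AlgHom.commutes, halgFΩ]
    congr 1
    show qExpand L ℓ (algebraMap L (LaurentSeries L) c) = _
    rw [esc_algebraMap_eq_C, esc_qExpand_C]
  -- the product of the `ℓ` explicit conjugates
  have hprodσ : ∀ (c : L) (y : F), ∏ i, σ i (algebraMap L E c - IntermediateField.inclusion hFE y) =
      ι (esc_prod ℓ ζ c (y : (LaurentSeries L))) := by
    intro c y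
    unfold esc_prod
    rw [map_prod]
    refine Finset.prod_congr rfl fun i _ => ?_
    rw [hσapp]
    congr 1
    show esc_R ℓ ζ i (algebraMap L (LaurentSeries L) c - (y : (LaurentSeries L))) = _
    rw [map_sub, esc_algebraMap_eq_C, esc_R_C]
  -- (a) `σ'` maps `F` into (the image of) `L((q^ℓ))`
  have hA : ∀ y : F, ∃ a : LaurentSeries L,
      σ' (IntermediateField.inclusion hFE y) = ι (qExpand L ℓ a) := by
    intro y
    by_cases hy : (y : LaurentSeries L) = HahnSeries.C 0
    · refine ⟨0, ?_⟩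
      have hy0 : y = 0 := Subtype.ext (by rw [hy, map_zero]; rfl)
      rw [hy0, map_zero, map_zero, map_zero, map_zero]
    · have h1 := hnorm (algebraMap L E 0 - IntermediateField.inclusion hFE y)
      obtain ⟨b, hb⟩ := esc_prod_mem_range ℓ ζ hζ 0 (y : LaurentSeries L)
      have hb0 : qExpand L ℓ b ≠ 0 := by
        rw [hb]; exact esc_prod_ne_zero ℓ ζ 0 _ hy
      rw [hprodσ, halgFΩ, ← hb, map_sub σ', hσ'C] at h1
      set n : LaurentSeries L :=
        ((Algebra.norm F (algebraMap L E 0 - IntermediateField.inclusion hFE y) : F) :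
          LaurentSeries L) with hn
      have hιb : ι (qExpand L ℓ b) ≠ 0 := fun h => hb0 (hι (by rw [h, map_zero]))
      refine ⟨HahnSeries.C 0 - n / b, ?_⟩
      rw [map_sub, esc_qExpand_C, map_div₀, map_sub ι, map_div₀ ι]
      have h3 : ι (HahnSeries.C 0) - σ' (IntermediateField.inclusion hFE y) =
          ι (qExpand L ℓ n) / ι (qExpand L ℓ b) := by
        rw [eq_div_iff hιb]; exact h1.symm
      rw [← h3, sub_sub_cancel]
  -- (b) on the generators
  have hcompFE : (algebraMap E (LaurentSeries L)).comp (algebraMap F E) = esc_SF ℓ F :=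
    RingHom.ext fun z => hβ z
  have hcompFΩ : algebraMap F Ω = ι.comp (esc_SF ℓ F) := RingHom.ext fun z => halgFΩ z
  have hB : ∀ g (hg : g ∈ G), σ' ⟨g, hFE (hGF g hg)⟩ = ι (qExpand L ℓ (qExpand L ℓ g)) := by
    intro g hg
    obtain ⟨P, hPm, hPd, hP1, hP2⟩ := hGP g hg
    set x : E := ⟨g, hFE (hGF g hg)⟩ with hx
    -- `x` is a root of `P` over `F`
    have hPx : Polynomial.aeval x P = 0 := by
      apply Subtype.ext
      show algebraMap E (LaurentSeries L) (Polynomial.aeval x P) = 0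
      rw [Polynomial.aeval_def, Polynomial.hom_eval₂, hcompFE, ← Polynomial.eval_map]
      exact hP1
    set Q : Polynomial Ω := P.map (algebraMap F Ω) with hQ
    have hQm : Q.Monic := hPm.map _
    have hQ0 : Q ≠ 0 := hQm.ne_zero
    have hQd : Q.natDegree = ℓ + 1 := by rw [hQ, hPm.natDegree_map, hPd]
    have hroot : ∀ ρ : E →ₐ[F] Ω, Q.IsRoot (ρ x) := by
      intro ρ
      rw [Polynomial.IsRoot.def, hQ, Polynomial.eval_map_algebraMap, Polynomial.aeval_algHom_apply,
        hPx, map_zero]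
    have hroot2 : Q.IsRoot (ι (qExpand L ℓ (qExpand L ℓ g))) := by
      rw [Polynomial.IsRoot.def, hQ, hcompFΩ, ← Polynomial.map_map, Polynomial.eval_map,
        Polynomial.eval₂_at_apply, hP2, map_zero]
    by_contra hne
    -- the `ℓ + 2` distinct roots
    obtain ⟨a, ha⟩ := hA ⟨g, hGF g hg⟩
    have hxincl : IntermediateField.inclusion hFE ⟨g, hGF g hg⟩ = x := rfl
    rw [hxincl] at ha
    have hnotrange : ∀ (i : ZMod ℓ) (a : LaurentSeries L), ι (qExpand L ℓ a) ≠ σ i x := by
      intro i a h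
      rw [hσapp] at h
      have h1 := hι h
      exact escf_rescale_notMem_range ℓ (ζ ^ i.val)
        (by rw [← pow_mul, mul_comm, pow_mul, hζℓ, one_pow]) g (hGS g hg) ⟨a, h1⟩
    let Z : Finset Ω := insert (σ' x) (insert (ι (qExpand L ℓ (qExpand L ℓ g)))
      (Finset.univ.image (fun i => σ i x)))
    have hinj : Function.Injective (fun i => σ i x) := by
      intro i i' h
      by_contra hii
      simp only [hσapp] at h
      exact esc_R_ne ℓ ζ hζ (hGS g hg) hii (hι h)
    have hcardZ : Z.card = ℓ + 2 := by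
      rw [Finset.card_insert_of_notMem, Finset.card_insert_of_notMem,
        Finset.card_image_of_injective _ hinj, Finset.card_univ, ZMod.card]
      · intro h
        obtain ⟨i, -, hi⟩ := Finset.mem_image.mp h
        exact hnotrange i _ hi.symm
      · intro h
        rcases Finset.mem_insert.mp h with h | h
        · exact hne h
        · obtain ⟨i, -, hi⟩ := Finset.mem_image.mp h
          rw [ha] at hi
          exact hnotrange i _ hi.symm
    have hsub : Z.val ⊆ Q.roots := by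
      intro r hr
      rw [Polynomial.mem_roots hQ0]
      have hr' : r ∈ Z := hr
      rcases Finset.mem_insert.mp hr' with h | h
      · rw [h]; exact hroot σ'
      · rcases Finset.mem_insert.mp h with h | h
        · rw [h]; exact hroot2
        · obtain ⟨i, -, hi⟩ := Finset.mem_image.mp h
          rw [← hi]; exact hroot (σ i)
    have := Polynomial.card_le_degree_of_subset_roots hsub
    rw [hcardZ, hQd] at this
    omega
  -- (c) on all of `F`
  have hmemF : ∀ x, x ∈ IntermediateField.adjoin L G → x ∈ F := fun x hx => hG ▸ hx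
  let τ : E →+* Ω := σ'.toRingHom
  have hτ : ∀ x : E, σ' x = τ x := fun _ => rfl
  have key : ∀ x (hx : x ∈ IntermediateField.adjoin L G),
      τ ⟨x, hFE (hmemF x hx)⟩ = ι (qExpand L ℓ (qExpand L ℓ x)) := by
    intro x hx
    induction hx using IntermediateField.adjoin_induction with
    | mem x hx => rw [← hτ]; exact hB x hx
    | algebraMap c =>
      have h1 : (⟨algebraMap L (LaurentSeries L) c, hFE (hmemF _ (algebraMap_mem _ c))⟩ : E) =
          algebraMap L E c := rfl
      rw [h1, ← hτ, hσ'C, esc_algebraMap_eq_C, esc_qExpand_C, esc_qExpand_C]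
    | add x y hx hy ihx ihy =>
      have h1 : (⟨x + y, hFE (hmemF _ (add_mem hx hy))⟩ : E) =
          ⟨x, hFE (hmemF x hx)⟩ + ⟨y, hFE (hmemF y hy)⟩ := rfl
      rw [h1, map_add τ, ihx, ihy, map_add, map_add, map_add]
    | inv x hx ihx =>
      have h1 : (⟨x⁻¹, hFE (hmemF _ (inv_mem hx))⟩ : E) = (⟨x, hFE (hmemF x hx)⟩ : E)⁻¹ := rfl
      rw [h1, map_inv₀ τ, ihx, map_inv₀, map_inv₀, map_inv₀]
    | mul x y hx hy ihx ihy =>
      have h1 : (⟨x * y, hFE (hmemF _ (mul_mem hx hy))⟩ : E) =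
          ⟨x, hFE (hmemF x hx)⟩ * ⟨y, hFE (hmemF y hy)⟩ := rfl
      rw [h1, map_mul τ, ihx, ihy, map_mul, map_mul, map_mul]
  refine ⟨τ, ?_, ?_⟩
  · intro z
    rw [← hτ, ← halgFE, AlgHom.commutes, halgFΩ]
  · intro y
    have hy : (y : LaurentSeries L) ∈ IntermediateField.adjoin L G := by rw [hG]; exact y.2
    exact key (y : LaurentSeries L) hy

end Sigma

section W

local notation "𝓛" => LaurentSeries L

/-- `F ∪ S_ℓ(F)` generates a subfield of `E`. -/
theorem eal_adjoin_le (F E : IntermediateField L 𝓛) (hFE : F ≤ E) (β : F →ₐ[L] E)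
    (hβ : ∀ z : F, ((β z : E) : 𝓛) = qExpand L ℓ (z : 𝓛)) :
    IntermediateField.adjoin L ((F : Set 𝓛) ∪ qExpand L ℓ '' (F : Set 𝓛)) ≤ E := by
  rw [IntermediateField.adjoin_le_iff]
  rintro x (hx | ⟨z, hz, rfl⟩)
  · exact hFE hx
  · have h := (β ⟨z, hz⟩).2
    rwa [hβ] at h

/-- Induction principle for `E = L(F ∪ S_ℓ F)`. -/
theorem eal_induction (F E : IntermediateField L 𝓛) (hFE : F ≤ E) (β : F →ₐ[L] E)
    (hβ : ∀ z : F, ((β z : E) : 𝓛) = qExpand L ℓ (z : 𝓛))
    (hE : E ≤ IntermediateField.adjoin L ((F : Set 𝓛) ∪ qExpand L ℓ '' (F : Set 𝓛)))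
    {P : E → Prop} (hα : ∀ y : F, P (IntermediateField.inclusion hFE y))
    (hβP : ∀ y : F, P (β y)) (hadd : ∀ x y, P x → P y → P (x + y))
    (hmul : ∀ x y, P x → P y → P (x * y)) (hinv : ∀ x, P x → P x⁻¹) : ∀ x : E, P x := by
  have hle := eal_adjoin_le ℓ F E hFE β hβ
  have key : ∀ x (hx : x ∈ IntermediateField.adjoin L
      ((F : Set 𝓛) ∪ qExpand L ℓ '' (F : Set 𝓛))), P ⟨x, hle hx⟩ := by
    intro x hx
    induction hx using IntermediateField.adjoin_induction with
    | mem x hx =>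
      rcases hx with hx | ⟨z, hz, rfl⟩
      · exact hα ⟨x, hx⟩
      · have h1 : (⟨qExpand L ℓ z, hle (IntermediateField.subset_adjoin L _
            (Or.inr ⟨z, hz, rfl⟩))⟩ : E) = β ⟨z, hz⟩ := Subtype.ext (hβ ⟨z, hz⟩).symm
        rw [h1]
        exact hβP _
    | algebraMap c =>
      have h1 : (⟨algebraMap L 𝓛 c, hle (algebraMap_mem _ c)⟩ : E) = algebraMap L E c := rfl
      have h2 : algebraMap L E c = IntermediateField.inclusion hFE (algebraMap L F c) :=
        ((IntermediateField.inclusion hFE).commutes c).symm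
      rw [h1, h2]
      exact hα _
    | add x y hx hy ihx ihy =>
      have h1 : (⟨x + y, hle (add_mem hx hy)⟩ : E) = ⟨x, hle hx⟩ + ⟨y, hle hy⟩ := rfl
      rw [h1]
      exact hadd _ _ ihx ihy
    | inv x hx ihx =>
      have h1 : (⟨x⁻¹, hle (inv_mem hx)⟩ : E) = (⟨x, hle hx⟩ : E)⁻¹ := rfl
      rw [h1]
      exact hinv _ ihx
    | mul x y hx hy ihx ihy =>
      have h1 : (⟨x * y, hle (mul_mem hx hy)⟩ : E) = ⟨x, hle hx⟩ * ⟨y, hle hy⟩ := rfl
      rw [h1]
      exact hmul _ _ ihx ihy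
  intro x
  exact key x.1 (hE x.2)

variable (ζ : Lˣ)

set_option maxHeartbeats 800000 in
/-- **The Atkin–Lehner automorphism.**  Under the hypotheses of `esc_norm_eq`, if `E` is generated
by `F` and `S_ℓ(F)`, there is an `L`-algebra automorphism `w` of `E` swapping `α = inclusion` and
`β = S_ℓ`. -/
theorem eal_exists_w (hζ : IsPrimitiveRoot ζ ℓ)
    (F E : IntermediateField L 𝓛) (hFE : F ≤ E) (β : F →ₐ[L] E)
    (hβ : ∀ z : F, ((β z : E) : 𝓛) = qExpand L ℓ (z : 𝓛))
    (hdeg : letI := β.toRingHom.toAlgebra; finrank F E = ℓ + 1)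
    (G : Set 𝓛) (hG : IntermediateField.adjoin L G = F) (hGne : G.Nonempty)
    (hGS : ∀ g ∈ G, g ∉ Set.range (qExpand L ℓ))
    (hGP : ∀ g ∈ G, ∃ P : Polynomial F, P.Monic ∧ P.natDegree = ℓ + 1 ∧
      (P.map (esc_SF ℓ F)).eval g = 0 ∧
      (P.map (esc_SF ℓ F)).eval (qExpand L ℓ (qExpand L ℓ g)) = 0)
    (hE : E ≤ IntermediateField.adjoin L ((F : Set 𝓛) ∪ qExpand L ℓ '' (F : Set 𝓛))) :
    ∃ w : E ≃ₐ[L] E, (∀ y : F, w (IntermediateField.inclusion hFE y) = β y) ∧
      (∀ y : F, w (β y) = IntermediateField.inclusion hFE y) ∧ ∀ x : E, w (w x) = x := by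
  classical
  obtain ⟨τ, hτβ, hτα⟩ := eal_exists_sigma ℓ ζ hζ F E hFE β hβ hdeg G hG hGne hGS hGP
  let Ω := AlgebraicClosure 𝓛
  let ι : 𝓛 →+* Ω := algebraMap 𝓛 Ω
  have hι : Function.Injective ι := (algebraMap 𝓛 Ω).injective
  let φ : E →+* Ω := ι.comp ((qExpand L ℓ : 𝓛 →+* 𝓛).comp (algebraMap E 𝓛))
  have hφapp : ∀ x : E, φ x = ι (qExpand L ℓ (x : 𝓛)) := fun _ => rfl
  have hφinj : Function.Injective φ := φ.injective
  -- `τ` lands in the range of `φ`
  have hmem : ∀ x : E, τ x ∈ φ.range := by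
    refine eal_induction ℓ F E hFE β hβ hE ?_ ?_ ?_ ?_ ?_
    · intro y
      refine ⟨β y, ?_⟩
      rw [hφapp, hβ, hτα]
    · intro y
      refine ⟨IntermediateField.inclusion hFE y, ?_⟩
      rw [hφapp, hτβ]
      rfl
    · intro x y hx hy
      rw [map_add]
      exact add_mem hx hy
    · intro x y hx hy
      rw [map_mul]
      exact mul_mem hx hy
    · rintro x ⟨e, he⟩
      refine ⟨e⁻¹, ?_⟩
      rw [map_inv₀, map_inv₀, he]
  let e : E ≃+* φ.range := RingEquiv.ofBijective φ.rangeRestrict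
    ⟨fun a b h => hφinj (congrArg Subtype.val h), φ.rangeRestrict_surjective⟩
  let w0 : E →+* E := (e.symm : φ.range →+* E).comp (τ.codRestrict φ.range hmem)
  have hw0 : ∀ x : E, φ (w0 x) = τ x := by
    intro x
    have h1 : e (w0 x) = τ.codRestrict φ.range hmem x := by
      show e (e.symm (τ.codRestrict φ.range hmem x)) = _
      rw [RingEquiv.apply_symm_apply]
    have h2 := congrArg Subtype.val h1
    exact h2
  have hw0α : ∀ y : F, w0 (IntermediateField.inclusion hFE y) = β y := by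
    intro y
    apply hφinj
    rw [hw0, hτα, hφapp, hβ]
  have hw0β : ∀ y : F, w0 (β y) = IntermediateField.inclusion hFE y := by
    intro y
    apply hφinj
    rw [hw0, hτβ, hφapp]
    rfl
  have hww : ∀ x : E, w0 (w0 x) = x := by
    refine eal_induction ℓ F E hFE β hβ hE ?_ ?_ ?_ ?_ ?_
    · intro y; rw [hw0α, hw0β]
    · intro y; rw [hw0β, hw0α]
    · intro x y hx hy; rw [map_add, map_add, hx, hy]
    · intro x y hx hy; rw [map_mul, map_mul, hx, hy]
    · intro x hx; rw [map_inv₀, map_inv₀, hx]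
  let wA : E →ₐ[L] E :=
    { w0 with
      commutes' := fun c => by
        have h1 : algebraMap L E c = IntermediateField.inclusion hFE (algebraMap L F c) :=
          ((IntermediateField.inclusion hFE).commutes c).symm
        have h2 : β (algebraMap L F c) = algebraMap L E c := β.commutes c
        show w0 (algebraMap L E c) = algebraMap L E c
        rw [h1, hw0α, h2, h1] }
  have hwA : ∀ x : E, wA x = w0 x := fun _ => rfl
  refine ⟨AlgEquiv.ofAlgHom wA wA (AlgHom.ext fun x => ?_) (AlgHom.ext fun x => ?_), ?_, ?_, ?_⟩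
  · show wA (wA x) = x
    rw [hwA, hwA, hww]
  · show wA (wA x) = x
    rw [hwA, hwA, hww]
  · intro y
    show wA _ = _
    rw [hwA, hw0α]
  · intro y
    show wA _ = _
    rw [hwA, hw0β]
  · intro x
    show wA (wA x) = x
    rw [hwA, hwA, hww]

/-- **Norm swap** from an automorphism `w` of `E` swapping `α` and `β`:
`N_{E/αF}(β u) = N_{E/βF}(α u)` in `F`. -/
theorem eal_norm_swap_of_w (F E : IntermediateField L 𝓛) (hFE : F ≤ E) (β : F →ₐ[L] E)
    (w : E ≃ₐ[L] E) (hwα : ∀ y : F, w (IntermediateField.inclusion hFE y) = β y) (x : E) :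
    @Algebra.norm F E _ _ (IntermediateField.inclusion hFE).toRingHom.toAlgebra x =
      @Algebra.norm F E _ _ β.toRingHom.toAlgebra (w x) := by
  have h := @Algebra.norm_eq_of_equiv_equiv F E F E _ _ _ _
    (IntermediateField.inclusion hFE).toRingHom.toAlgebra β.toRingHom.toAlgebra
    (RingEquiv.refl F) (w : E ≃+* E) (RingHom.ext fun y => (hwα y).symm) x
  rw [h]
  rfl

/-- **Norm swap**: `N_{E/αF}(β u) = N_{E/βF}(α u)` in `F`, under the hypotheses of `esc_norm_eq`
plus `E = L(F ∪ S_ℓ F)`. -/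
theorem eal_norm_swap (hζ : IsPrimitiveRoot ζ ℓ)
    (F E : IntermediateField L 𝓛) (hFE : F ≤ E) (β : F →ₐ[L] E)
    (hβ : ∀ z : F, ((β z : E) : 𝓛) = qExpand L ℓ (z : 𝓛))
    (hdeg : letI := β.toRingHom.toAlgebra; finrank F E = ℓ + 1)
    (G : Set 𝓛) (hG : IntermediateField.adjoin L G = F) (hGne : G.Nonempty)
    (hGS : ∀ g ∈ G, g ∉ Set.range (qExpand L ℓ))
    (hGP : ∀ g ∈ G, ∃ P : Polynomial F, P.Monic ∧ P.natDegree = ℓ + 1 ∧
      (P.map (esc_SF ℓ F)).eval g = 0 ∧
      (P.map (esc_SF ℓ F)).eval (qExpand L ℓ (qExpand L ℓ g)) = 0)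
    (hE : E ≤ IntermediateField.adjoin L ((F : Set 𝓛) ∪ qExpand L ℓ '' (F : Set 𝓛)))
    (u : F) :
    @Algebra.norm F E _ _ (IntermediateField.inclusion hFE).toRingHom.toAlgebra (β u) =
      @Algebra.norm F E _ _ β.toRingHom.toAlgebra (IntermediateField.inclusion hFE u) := by
  obtain ⟨w, hwα, hwβ, -⟩ := eal_exists_w ℓ ζ hζ F E hFE β hβ hdeg G hG hGne hGS hGP hE
  rw [eal_norm_swap_of_w F E hFE β w hwα (β u), hwβ]

end W

end

end Fermat.Agent.S37x
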