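/-
S37 prep, block [B3] / [ES], VALUE ROUTE leaf (I3) = (KR) (helper60, prefix `eskr_`).

The Kronecker congruence for the norm function `n_c(y) = β⁻¹ N_{F_{Nℓ}/βF_N}(c - α y)` at level `N`
in function-field language = the `hKR` input of helper5's `esvc_mapDomain_correspondence`
(S37x/EsValueCharts) / `esv_mapDomain_correspondence` (S37x/EsValueTs):

for a Gauss pair `(W, ρ)` on `F_N` (carrier `= {x | q-expansion ∈ ga_W A π}`, `ρ =` `ga_rho` on
q-expansions), `y ∈ W`, `c ∈ A`: the norm `N(c - α y)` (along `β`) is an element `n` of `W` with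
`ρ n = (c̄ - (φ⁻¹ • ρ y)^ℓ) · (c̄^ℓ - φ • ρ y)`, `φ = cfb_frob`.

Inputs: `esci_norm_eq_bar` (helper16, = `esc_norm_eq` at level `N`), `esz_nc_eq_prod_zmod`
(helper63), `kra_nc_mem_W` / `kra_rho_nc_charP` (helper12), `cfb_` (helper48).
-/
import Mathlib
import Fermat.Agent.S37x.EsConjInstBar
import Fermat.Agent.S37x.EsZetaFree
import Fermat.Agent.S37x.KraGauss
import Fermat.Agent.S37x.CoeffFrob
import Fermat.Agent.S37x.BetaIntegral
import Fermat.Agent.S37x.TopOfPlaces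
import Fermat.Agent.S18x.InstGaussFinal

set_option autoImplicit false
set_option synthInstance.maxHeartbeats 400000

open ModularCurve AlgebraicCurve ValuationSubring HahnSeries
open Fermat.Agent.S18x Fermat.Agent.S24x Fermat.Agent.S28x

namespace Fermat.Agent.S37x

noncomputable section

local notation "Q̄" => AlgebraicClosure ℚ

/-- a primitive `ℓ`-th root of unity in `Q̄`, as a unit -/
theorem eskr_exists_zeta (ℓ : ℕ) [NeZero ℓ] : ∃ ζ : Q̄ˣ, IsPrimitiveRoot ζ ℓ := by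
  have : NeZero (ℓ : Q̄) := ⟨by exact_mod_cast NeZero.ne ℓ⟩
  obtain ⟨z, hz⟩ := HasEnoughRootsOfUnity.exists_primitiveRoot Q̄ ℓ
  have hu : IsUnit z := hz.isUnit (NeZero.ne ℓ)
  refine ⟨hu.unit, ?_⟩
  rw [← IsPrimitiveRoot.coe_units_iff]
  exact hz

section Generic

variable (N ℓ : ℕ) [NeZero N] [NeZero ℓ] [Fact ℓ.Prime]

/-- the q-expansion of the norm function `N_{F_{Nℓ}/βF_N}(c - α y)` is `kra_nc ℓ c y` -/
theorem eskr_coe_norm (hℓN : ¬ ℓ ∣ N) (y : FBar N) (c : Q̄) :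
    letI := algebraAlong (heckeBetaBar Q̄ N ℓ)
    ((Algebra.norm (FBar N)
        (algebraMap Q̄ (FBar (N * ℓ)) c - heckeAlphaBar Q̄ N ℓ y) : FBar N) : LaurentSeries Q̄) =
      kra_nc ℓ c (y : LaurentSeries Q̄) := by
  obtain ⟨ζ, hζ⟩ := eskr_exists_zeta ℓ
  have h1 := esci_norm_eq_bar N ℓ hℓN ζ hζ y c
  have hζ' : IsPrimitiveRoot ((ζ : Q̄ˣ) : Q̄) ℓ := (IsPrimitiveRoot.coe_units_iff).mpr hζ
  have h2 := esz_nc_eq_prod_zmod ℓ ζ hζ' c (y : LaurentSeries Q̄)
  apply qExpand_injective ℓ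
  rw [h2]
  rw [coe_heckeBetaBar] at h1
  exact h1

variable (A : ValuationSubring Q̄) {k : Type*} [Field k] (π : A →+* k) [CharP k ℓ] [PerfectRing k ℓ]

/-- **(KR), generic Gauss pair.** -/
theorem eskr_generic (hℓN : ¬ ℓ ∣ N)
    (W : ValuationSubring (FBar N)) (ρ : W →+* modularFunctionFieldFullC k N)
    (hWmem : ∀ x : FBar N, x ∈ W ↔ (x : LaurentSeries Q̄) ∈ ga_W A π)
    (hρcoe : ∀ x : W, ((ρ x : modularFunctionFieldFullC k N) : LaurentSeries k) =
      ga_rho A π ⟨((x : FBar N) : LaurentSeries Q̄), (hWmem x).mp x.2⟩)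
    (y : W) (c : A) :
    ∃ n : W,
      (letI := algebraAlong (heckeBetaBar Q̄ N ℓ)
       (n : FBar N) = Algebra.norm (FBar N)
        (algebraMap Q̄ (FBar (N * ℓ)) (c : Q̄) - heckeAlphaBar Q̄ N ℓ (y : FBar N))) ∧
      ρ n = (algebraMap k (modularFunctionFieldFullC k N) (π c) -
            ((cfb_frob k N ℓ)⁻¹ • ρ y) ^ ℓ) *
          (algebraMap k (modularFunctionFieldFullC k N) (π c ^ ℓ) - cfb_frob k N ℓ • ρ y) := by
  letI := algebraAlong (heckeBetaBar Q̄ N ℓ)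
  set nF : FBar N := Algebra.norm (FBar N)
    (algebraMap Q̄ (FBar (N * ℓ)) (c : Q̄) - heckeAlphaBar Q̄ N ℓ (y : FBar N)) with hnF
  have hy : ((y : FBar N) : LaurentSeries Q̄) ∈ ga_W A π := (hWmem y).mp y.2
  have hser : (nF : LaurentSeries Q̄) = kra_nc ℓ (c : Q̄) ((y : FBar N) : LaurentSeries Q̄) :=
    eskr_coe_norm N ℓ hℓN (y : FBar N) (c : Q̄)
  have hnW : (nF : LaurentSeries Q̄) ∈ ga_W A π := by
    rw [hser]; exact kra_nc_mem_W A π ℓ c hy
  refine ⟨⟨nF, (hWmem nF).mpr hnW⟩, rfl, ?_⟩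
  apply Subtype.ext
  rw [hρcoe]
  have h1 : (⟨(nF : LaurentSeries Q̄), hnW⟩ : ga_W A π) =
      ⟨kra_nc ℓ (c : Q̄) ((y : FBar N) : LaurentSeries Q̄), kra_nc_mem_W A π ℓ c hy⟩ :=
    Subtype.ext hser
  show ga_rho A π ⟨(nF : LaurentSeries Q̄), hnW⟩ = _
  rw [h1, kra_rho_nc_charP A π ℓ c hy, ← hρcoe y]
  show _ = (((algebraMap k (modularFunctionFieldFullC k N) (π c) : modularFunctionFieldFullC k N) :
        LaurentSeries k) -
      ((((cfb_frob k N ℓ)⁻¹ • ρ y : modularFunctionFieldFullC k N) : LaurentSeries k)) ^ ℓ) *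
    (((algebraMap k (modularFunctionFieldFullC k N) (π c ^ ℓ) : modularFunctionFieldFullC k N) :
        LaurentSeries k) -
      ((cfb_frob k N ℓ • ρ y : modularFunctionFieldFullC k N) : LaurentSeries k))
  rw [cfb_coe_frob_inv_smul, cfb_coe_frob_smul, ← cfb_qExpand_eq_pow]
  have hC : ∀ a : k, ((algebraMap k (modularFunctionFieldFullC k N) a :
      modularFunctionFieldFullC k N) : LaurentSeries k) = HahnSeries.C a := by
    intro a
    show algebraMap k (LaurentSeries k) a = HahnSeries.C a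
    rw [algebraMap_laurentSeries_eq_single, HahnSeries.C_apply]
  rw [hC, hC]

end Generic

section Gi

/-- **(KR) for the canonical Gauss pair `(gi_W, gi_rho)`** of any place map `r` with the SPEC:
literally the `hKR` hypothesis of `esvc_mapDomain_correspondence` / `esv_mapDomain_correspondence`
at `φ = heckeBetaBar`, `ψ = heckeAlphaBar`, `σ = cfb_frob`. -/
theorem eskr_main (N ℓ : ℕ) [NeZero N] [NeZero ℓ] (hℓ : ℓ.Prime) (hℓN : ¬ ℓ ∣ N)
    (A : ValuationSubring Q̄) (hA : A.LiesOverPrime ℓ)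
    {r : Place Q̄ (gi_F Q̄ N) →
      Place (IsLocalRing.ResidueField A) (gi_Fb (IsLocalRing.ResidueField A) N)}
    (Hi : gi_Inputs (N := N) (IsLocalRing.residue A) r)
    (y : gi_W Hi) (c : A) :
    haveI : Fact ℓ.Prime := ⟨hℓ⟩
    haveI := glu_charP A hℓ hA
    haveI := s37t_perfectRing A ℓ
    ∃ n : gi_W Hi,
      (letI := algebraAlong (heckeBetaBar Q̄ N ℓ)
       haveI : Module.Finite (FBar N) (FBar (N * ℓ)) := bt37_finiteAlong_beta N ℓ
       (n : FBar N) = Algebra.norm (FBar N)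
        (algebraMap Q̄ (FBar (N * ℓ)) (c : Q̄) - heckeAlphaBar Q̄ N ℓ (y : FBar N))) ∧
      gi_rho Hi n =
        (algebraMap _ _ (IsLocalRing.residue A c) -
            ((cfb_frob (IsLocalRing.ResidueField A) N ℓ)⁻¹ • gi_rho Hi y) ^ ℓ) *
          (algebraMap _ _ (IsLocalRing.residue A c ^ ℓ) -
            cfb_frob (IsLocalRing.ResidueField A) N ℓ • gi_rho Hi y) := by
  haveI : Fact ℓ.Prime := ⟨hℓ⟩
  haveI := glu_charP A hℓ hA
  haveI := s37t_perfectRing A ℓ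
  exact eskr_generic N ℓ A (IsLocalRing.residue A) hℓN (gi_W Hi) (gi_rho Hi)
    (fun x => gi_mem_W_iff Hi x) (fun x => gi_rho_coe Hi x) y c

end Gi

end

end Fermat.Agent.S37x
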