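/-
S37x/EsNormTwin (helper41): S37 block [B3], STEP 2 of `S37_B3_blueprint_helper60`, ZETA-FREE twin.

For a prime `ℓ ∤ N`, `F = F_N`, `E = F_{Nℓ}` over `Q̄`, `α` the inclusion and `β : f(q) ↦ f(q^ℓ)`:

  `N_{E/βF}(c - α y) = β (n_c(y))`,   `n_c(y)(q) = (c - y(q^ℓ)) · det (mp_mat ℓ (c - y))`   (`kra_nc`),

i.e. `N_{E/βF}(c - αy)(q) = (c - y(q^{ℓ²})) · ∏_{i<ℓ} (c - y(ζⁱ q))` without ever mentioning `ζ`.

Route: `K₁ = Q̄((q)) ⊇ K₀ = Q̄((q^ℓ))` (helper12's `kra_Top`), `Ω` an algebraic closure of `K₁`.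
The `ℓ` `K₀`-embeddings of `K₁` in `Ω` restrict to `ℓ` distinct `βF`-embeddings of `E` (`j` generates
`K₁/K₀`: prime degree, `j ∉ K₀`); `[E : βF] = ℓ + 1` (`bdg37_`), so there is exactly one more
embedding `s`, and `N(x) = s(x) · N_{K₁/K₀}(x)`.  Hence `s(αy) ∈ K₀` for all `y ∈ F`; `s(α j_d)` is a
root in `K₀` of `Φ_ℓ(X; j_{dℓ}) = (X - j_{dℓ²}) · minpoly_{K₀}(j_d)`, and the second factor
(irreducible of degree `ℓ ≥ 2`) has no root in `K₀`: `s(α j_d) = j_{dℓ²}`.  Two `Q̄`-algebra maps
out of `F_N` agreeing on `j` and `j_N` are equal, so `s ∘ α = (q ↦ q^{ℓ²})`.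
-/
import Mathlib
import Fermat.Agent.S37x.BetaDegree
import Fermat.Agent.S37x.BetaIntegral
import Fermat.Agent.S37x.KraNorm
import Fermat.Agent.S37x.KraGlue

set_option autoImplicit false
set_option linter.style.haveILetI false

noncomputable section

namespace Fermat.Agent.S37x

open HahnSeries ModularCurve Polynomial IntermediateField
open Fermat.Agent.S28x Fermat.Agent.S24x Fermat.Agent.S18x

/-! ## splitting off one embedding -/

section Split

/-- If `ι` indexes `[E:F] - 1` distinct `F`-embeddings of `E` in an algebraically closed `Ω`, there is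
exactly one further embedding `s`, and `N_{E/F}(x) = s(x) · ∏_i f_i(x)`. -/
theorem ent_prod_split {F E Ω : Type*} [Field F] [Field E] [Field Ω] [Algebra F E] [Algebra F Ω]
    [FiniteDimensional F E] [Algebra.IsSeparable F E] [IsAlgClosed Ω] {ι : Type*} [Fintype ι]
    (f : ι → (E →ₐ[F] Ω)) (hf : Function.Injective f)
    (hcard : Fintype.card ι + 1 = Module.finrank F E) :
    ∃ s : E →ₐ[F] Ω, (∀ i, f i ≠ s) ∧
      ∀ x : E, algebraMap F Ω (Algebra.norm F x) = s x * ∏ i, f i x := by
  classical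
  have hc : Fintype.card (E →ₐ[F] Ω) = Fintype.card ι + 1 := by
    rw [hcard, ← AlgHom.card F E Ω]
  have himg : (Finset.univ.image f).card = Fintype.card ι := by
    rw [Finset.card_image_of_injective _ hf, Finset.card_univ]
  have hcompl : ((Finset.univ.image f)ᶜ).card = 1 := by
    rw [Finset.card_compl, himg, hc]
    omega
  obtain ⟨s, hs⟩ := Finset.card_eq_one.mp hcompl
  refine ⟨s, ?_, ?_⟩
  · intro i h
    have hmem : s ∈ (Finset.univ.image f)ᶜ := by
      rw [hs]
      exact Finset.mem_singleton_self s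
    rw [Finset.mem_compl] at hmem
    exact hmem (Finset.mem_image.mpr ⟨i, Finset.mem_univ _, h⟩)
  · intro x
    rw [Algebra.norm_eq_prod_embeddings F Ω x,
      ← Finset.prod_compl_mul_prod (Finset.univ.image f), hs, Finset.prod_singleton,
      Finset.prod_image (fun a _ b _ h => hf h)]

end Split

/-! ## the `ℓ + 1` embeddings -/

section Main

universe u

variable {K : Type u} [Field K] [CharZero K] (l : ℕ) [NeZero l]

/-- an algebraic closure of `K((q))`, viewed over `K((q^ℓ))` -/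
abbrev ent_Ω (K : Type u) [Field K] (l : ℕ) [NeZero l] : Type u := AlgebraicClosure (kra_Top K l)

/-- `K₀ = K((q^ℓ)) → Ω` (the source is `K((q))`, embedded by `q ↦ q^ℓ`) -/
def ent_a0 : LaurentSeries K →+* ent_Ω K l := algebraMap (LaurentSeries K) (ent_Ω K l)

/-- `K₁ = K((q)) → Ω` -/
def ent_a1 : LaurentSeries K →+* ent_Ω K l :=
  (algebraMap (kra_Top K l) (ent_Ω K l)).comp (kra_Top_equiv l).symm.toRingHom

theorem ent_a0_eq (x : LaurentSeries K) : ent_a0 l x = ent_a1 l (qExpand K l x) := by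
  unfold ent_a0 ent_a1
  rw [IsScalarTower.algebraMap_apply (LaurentSeries K) (kra_Top K l) (ent_Ω K l)]
  rfl

theorem ent_a0_injective : Function.Injective (ent_a0 (K := K) l) :=
  RingHom.injective (ent_a0 (K := K) l)

variable {F E : Type*} [Field F] [Field E] [Algebra F E] [FiniteDimensional F E]
variable (ιF : F →+* LaurentSeries K) (ιE : E →+* LaurentSeries K)
variable [Algebra F (ent_Ω K l)]
variable (hβ : ∀ y, ιE (algebraMap F E y) = qExpand K l (ιF y))
variable (hFΩ : ∀ y, algebraMap F (ent_Ω K l) y = ent_a0 l (ιF y))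

/-- restriction to `E` of a `K₀`-embedding of `K₁` -/
def ent_res (τ : kra_Top K l →ₐ[LaurentSeries K] ent_Ω K l) : E →ₐ[F] ent_Ω K l :=
  { toRingHom := τ.toRingHom.comp ((kra_Top_equiv l).symm.toRingHom.comp ιE)
    commutes' := fun y => by
      show τ ((kra_Top_equiv l).symm (ιE (algebraMap F E y))) = algebraMap F (ent_Ω K l) y
      rw [hβ, hFΩ]
      exact τ.commutes (ιF y) }

theorem ent_res_apply (τ : kra_Top K l →ₐ[LaurentSeries K] ent_Ω K l) (x : E) :
    ent_res l ιF ιE hβ hFΩ τ x = τ ((kra_Top_equiv l).symm (ιE x)) := rfl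

/-- an element of `K₁` outside `K₀` generates `K₁` over `K₀` (prime degree) -/
theorem ent_adjoin_eq_top (hl : l.Prime) (z : kra_Top K l)
    (hz : kra_Top_equiv l z ∉ Set.range (qExpand K l)) :
    Algebra.adjoin (LaurentSeries K) {z} = ⊤ := by
  haveI := kra_finiteDimensional (K := K) l
  have hprime : (Module.finrank (LaurentSeries K) (kra_Top K l)).Prime := by
    rw [kra_finrank]
    exact hl
  haveI := IntermediateField.isSimpleOrder_of_finrank_prime (LaurentSeries K) (kra_Top K l) hprime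
  have hne : (LaurentSeries K)⟮z⟯ ≠ ⊥ := by
    rw [Ne, IntermediateField.adjoin_simple_eq_bot_iff, IntermediateField.mem_bot]
    rintro ⟨w, hw⟩
    exact hz ⟨w, by rw [← hw]; rfl⟩
  have htop : (LaurentSeries K)⟮z⟯ = ⊤ := (eq_bot_or_eq_top _).resolve_left hne
  have hint : IsAlgebraic (LaurentSeries K) z := (IsIntegral.of_finite _ z).isAlgebraic
  rw [← IntermediateField.adjoin_simple_toSubalgebra_of_isAlgebraic hint, htop,
    IntermediateField.top_toSubalgebra]

theorem ent_res_injective (hl : l.Prime) (j : E) (hj : ιE j ∉ Set.range (qExpand K l)) :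
    Function.Injective (ent_res l ιF ιE hβ hFΩ) := by
  intro τ τ' h
  refine AlgHom.ext_of_adjoin_eq_top
    (ent_adjoin_eq_top l hl ((kra_Top_equiv l).symm (ιE j)) hj) ?_
  intro z hz
  rw [Set.mem_singleton_iff] at hz
  subst hz
  exact DFunLike.congr_fun h j

include hβ hFΩ in
/-- **the last embedding**: there is an `F`-embedding `s : E → Ω` with
`N_{E/F}(x) = s(x) · N_{K₁/K₀}(x)`. -/
theorem ent_exists_last (hl : l.Prime) (hdeg : Module.finrank F E = l + 1) (j : E)
    (hj : ιE j ∉ Set.range (qExpand K l)) :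
    ∃ s : E →ₐ[F] ent_Ω K l, ∀ x : E,
      algebraMap F (ent_Ω K l) (Algebra.norm F x) = s x * ent_a0 l ((mp_mat l (ιE x)).det) := by
  haveI : CharZero (LaurentSeries K) := kra_charZero_laurent
  haveI : CharZero F := RingHom.charZero ιF
  haveI : Algebra.IsSeparable F E := Algebra.IsSeparable.of_integral F E
  haveI := kra_isSeparable (K := K) l
  haveI := kra_finiteDimensional (K := K) l
  obtain ⟨s, -, hs⟩ := ent_prod_split (ent_res l ιF ιE hβ hFΩ)
    (ent_res_injective l ιF ιE hβ hFΩ hl j hj) (by rw [kra_card_embeddings, hdeg])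
  refine ⟨s, fun x => ?_⟩
  rw [hs x]
  congr 1
  exact kra_prod_embeddings l (ent_Ω K l) ((kra_Top_equiv l).symm (ιE x))

/-! ## identification of the last embedding on `α F` -/

variable (α : F →+* E) (hα : ∀ y, ιE (α y) = ιF y)

include hFΩ hα in
/-- the last embedding maps `α F` into `K₀`. -/
theorem ent_last_mem_range (s : E →ₐ[F] ent_Ω K l)
    (hs : ∀ x : E, algebraMap F (ent_Ω K l) (Algebra.norm F x) =
      s x * ent_a0 l ((mp_mat l (ιE x)).det)) (y : F) :
    ∃ w : LaurentSeries K, s (α y) = ent_a0 l w := by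
  by_cases hy : y = 0
  · exact ⟨0, by rw [hy, map_zero, map_zero, map_zero]⟩
  · have hdet : (mp_mat l (ιE (α y))).det ≠ 0 := by
      rw [hα]
      have hne : ((kra_Top_equiv l).symm (ιF y)) ≠ 0 := by
        intro h0
        apply hy
        apply RingHom.injective ιF
        rw [map_zero]
        exact h0
      have := (Algebra.norm_ne_zero_iff (R := LaurentSeries K)).mpr hne
      rwa [kra_norm_eq] at this
    refine ⟨ιF (Algebra.norm F (α y)) / (mp_mat l (ιE (α y))).det, ?_⟩
    have h1 := hs (α y)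
    rw [hFΩ] at h1
    rw [map_div₀, h1, mul_div_assoc, div_self, mul_one]
    exact fun h0 => hdet (ent_a0_injective l (by rw [h0, map_zero]))

include hβ hFΩ hα in
/-- **root argument**: if `g ∈ F` has `ιF g ∉ K₀` and `Q ∈ F[X]` is monic of degree `ℓ + 1` with
`Q^β(α g) = 0` in `E` and `Q(g(q^ℓ)) = 0` in `K((q))`, then the last embedding sends `α g` to `g(q^{ℓ²})`. -/
theorem ent_last_of_root (hl : l.Prime) (s : E →ₐ[F] ent_Ω K l)
    (hs : ∀ x : E, algebraMap F (ent_Ω K l) (Algebra.norm F x) =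
      s x * ent_a0 l ((mp_mat l (ιE x)).det)) (g : F)
    (hg : ιF g ∉ Set.range (qExpand K l)) (Q : F[X]) (hQm : Q.Monic) (hQd : Q.natDegree = l + 1)
    (h1 : Q.eval₂ (algebraMap F E) (α g) = 0) (h2 : Q.eval₂ ιF (qExpand K l (ιF g)) = 0) :
    s (α g) = ent_a0 l (qExpand K l (ιF g)) := by
  obtain ⟨w, hw⟩ := ent_last_mem_range l ιF ιE hFΩ α hα s hs g
  rw [hw]
  congr 1
  -- `w` is a root of `P = Q.map ιF`
  have hw0 : Q.eval₂ ιF w = 0 := by
    apply ent_a0_injective l
    have h3 := congrArg (s : E →+* ent_Ω K l) h1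
    rw [Polynomial.hom_eval₂, map_zero, RingHom.coe_coe, hw] at h3
    have hcomp : (s : E →+* ent_Ω K l).comp (algebraMap F E) = (ent_a0 l).comp ιF := by
      ext y
      rw [RingHom.comp_apply, RingHom.comp_apply, RingHom.coe_coe, s.commutes, hFΩ]
    rw [hcomp] at h3
    rw [Polynomial.hom_eval₂, map_zero]
    exact h3
  set P : (LaurentSeries K)[X] := Q.map ιF with hP
  set r : LaurentSeries K := qExpand K l (ιF g) with hr
  have hPm : P.Monic := hQm.map _
  have hPd : P.natDegree = l + 1 := by rw [hP, hQm.natDegree_map, hQd]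
  have hPw : P.IsRoot w := by rw [Polynomial.IsRoot, hP, Polynomial.eval_map]; exact hw0
  have hPr : P.IsRoot r := by rw [Polynomial.IsRoot, hP, Polynomial.eval_map]; exact h2
  -- the minimal polynomial of `z = g(q) ∈ K₁` over `K₀`
  haveI := kra_finiteDimensional (K := K) l
  set z : kra_Top K l := (kra_Top_equiv l).symm (ιF g) with hz
  have hzint : IsIntegral (LaurentSeries K) z := IsIntegral.of_finite _ z
  have hzalg : IsAlgebraic (LaurentSeries K) z := hzint.isAlgebraic
  have hmdeg : (minpoly (LaurentSeries K) z).natDegree = l := by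
    have htop : (LaurentSeries K)⟮z⟯ = ⊤ := by
      apply IntermediateField.toSubalgebra_injective
      rw [IntermediateField.adjoin_simple_toSubalgebra_of_isAlgebraic hzalg,
        IntermediateField.top_toSubalgebra]
      exact ent_adjoin_eq_top l hl z hg
    rw [← IntermediateField.adjoin.finrank hzint, htop, IntermediateField.finrank_top',
      kra_finrank]
  have hmirr : Irreducible (minpoly (LaurentSeries K) z) := minpoly.irreducible hzint
  have hmdvd : minpoly (LaurentSeries K) z ∣ P := by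
    apply minpoly.dvd
    rw [Polynomial.aeval_def, hP, Polynomial.eval₂_map]
    have hcomp : (algebraMap (LaurentSeries K) (kra_Top K l)).comp ιF =
        ((kra_Top_equiv l).symm.toRingHom.comp ιE).comp (algebraMap F E) := by
      ext y : 1
      simp only [RingHom.comp_apply]
      rw [hβ]
      rfl
    have hzE : z = ((kra_Top_equiv l).symm.toRingHom.comp ιE) (α g) := by
      rw [RingHom.comp_apply, hα]
      rfl
    rw [hcomp, hzE, ← Polynomial.hom_eval₂, h1, map_zero]
  -- split off the root `r`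
  have hsplit : (X - Polynomial.C r) * (P /ₘ (X - Polynomial.C r)) = P := Polynomial.mul_divByMonic_eq_iff_isRoot.mpr hPr
  set P' := P /ₘ (X - Polynomial.C r) with hP'
  have hl2 : 2 ≤ l := hl.two_le
  have hP'm : P'.Monic := by
    have := hPm
    rw [← hsplit] at this
    exact (Polynomial.monic_X_sub_C r).of_mul_monic_left this
  have hP'd : P'.natDegree = l := by
    have := hPd
    rw [← hsplit, (Polynomial.monic_X_sub_C r).natDegree_mul hP'm,
      Polynomial.natDegree_X_sub_C] at this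
    omega
  have hmP' : minpoly (LaurentSeries K) z ∣ P' := by
    rw [← hsplit] at hmdvd
    rcases hmirr.prime.dvd_or_dvd hmdvd with h | h
    · exfalso
      have := Polynomial.natDegree_le_of_dvd h (Polynomial.X_sub_C_ne_zero r)
      rw [hmdeg, Polynomial.natDegree_X_sub_C] at this
      omega
    · exact h
  have hP'eq : P' = minpoly (LaurentSeries K) z :=
    Polynomial.eq_of_monic_of_dvd_of_natDegree_le (minpoly.monic hzint) hP'm hmP'
      (by rw [hP'd, hmdeg])
  -- `w` is a root of `(X - r) * minpoly`, and `minpoly` has no root in `K₀`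
  have hw' : (X - Polynomial.C r : (LaurentSeries K)[X]).IsRoot w ∨ P'.IsRoot w := by
    rw [← Polynomial.root_mul, hsplit]
    exact hPw
  rcases hw' with h | h
  · rw [Polynomial.IsRoot, Polynomial.eval_sub, Polynomial.eval_X, Polynomial.eval_C,
      sub_eq_zero] at h
    exact h
  · exfalso
    rw [hP'eq] at h
    have hdeg1 := Polynomial.degree_eq_one_of_irreducible_of_root hmirr h
    have : (minpoly (LaurentSeries K) z).natDegree = 1 :=
      Polynomial.natDegree_eq_of_degree_eq_some hdeg1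
    omega

include hβ hFΩ hα in
/-- the last embedding on `α F` is `q ↦ q^{ℓ²}`, as soon as it is so on a generating set. -/
theorem ent_last_comp (hl : l.Prime) (s : E →ₐ[F] ent_Ω K l)
    (hs : ∀ x : E, algebraMap F (ent_Ω K l) (Algebra.norm F x) =
      s x * ent_a0 l ((mp_mat l (ιE x)).det)) (G : Set F)
    (hG : ∀ g ∈ G, (α g = algebraMap F E g ∧ qExpand K l (ιF g) = ιF g) ∨
      (ιF g ∉ Set.range (qExpand K l) ∧ ∃ Q : F[X], Q.Monic ∧ Q.natDegree = l + 1 ∧
        Q.eval₂ (algebraMap F E) (α g) = 0 ∧ Q.eval₂ ιF (qExpand K l (ιF g)) = 0))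
    (hgen : ∀ f f' : F →+* ent_Ω K l, (∀ g ∈ G, f g = f' g) → f = f') (y : F) :
    s (α y) = ent_a0 l (qExpand K l (ιF y)) := by
  have key := hgen ((s : E →+* ent_Ω K l).comp α) ((ent_a0 l).comp ((qExpand K l).comp ιF)) ?_
  · exact RingHom.congr_fun key y
  · intro g hg
    rcases hG g hg with ⟨h1, h2⟩ | ⟨h1, Q, hQm, hQd, h3, h4⟩
    · simp only [RingHom.comp_apply, RingHom.coe_coe]
      rw [h1, s.commutes, hFΩ, h2]
    · exact ent_last_of_root l ιF ιE hβ hFΩ α hα hl s hs g h1 Q hQm hQd h3 h4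

include hβ hFΩ hα in
/-- **the norm formula (abstract form)**:
`N_{E/βF}(c - α y)(q) = (c - y(q^ℓ)) · det (mp_mat ℓ (c - y))`. -/
theorem ent_norm_formula (hl : l.Prime) (hdeg : Module.finrank F E = l + 1) (j : E)
    (hj : ιE j ∉ Set.range (qExpand K l)) (G : Set F)
    (hG : ∀ g ∈ G, (α g = algebraMap F E g ∧ qExpand K l (ιF g) = ιF g) ∨
      (ιF g ∉ Set.range (qExpand K l) ∧ ∃ Q : F[X], Q.Monic ∧ Q.natDegree = l + 1 ∧
        Q.eval₂ (algebraMap F E) (α g) = 0 ∧ Q.eval₂ ιF (qExpand K l (ιF g)) = 0))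
    (hgen : ∀ f f' : F →+* ent_Ω K l, (∀ g ∈ G, f g = f' g) → f = f') (c y : F)
    (hc : α c = algebraMap F E c ∧ qExpand K l (ιF c) = ιF c) :
    ιF (Algebra.norm F (algebraMap F E c - α y)) =
      (ιF c - qExpand K l (ιF y)) * (mp_mat l (ιF c - ιF y)).det := by
  obtain ⟨s, hs⟩ := ent_exists_last l ιF ιE hβ hFΩ hl hdeg j hj
  have hsα := ent_last_comp l ιF ιE hβ hFΩ α hα hl s hs G hG hgen
  apply ent_a0_injective l
  rw [← hFΩ, hs, map_sub, map_sub, s.commutes, hFΩ, hsα, map_mul, map_sub, hβ, hα, hc.2]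

include hβ hFΩ hα in
/-- by-product: the last embedding, with its values on `α F` and `β F`. -/
theorem ent_exists_last_spec (hl : l.Prime) (hdeg : Module.finrank F E = l + 1) (j : E)
    (hj : ιE j ∉ Set.range (qExpand K l)) (G : Set F)
    (hG : ∀ g ∈ G, (α g = algebraMap F E g ∧ qExpand K l (ιF g) = ιF g) ∨
      (ιF g ∉ Set.range (qExpand K l) ∧ ∃ Q : F[X], Q.Monic ∧ Q.natDegree = l + 1 ∧
        Q.eval₂ (algebraMap F E) (α g) = 0 ∧ Q.eval₂ ιF (qExpand K l (ιF g)) = 0))
    (hgen : ∀ f f' : F →+* ent_Ω K l, (∀ g ∈ G, f g = f' g) → f = f') :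
    ∃ s : E →ₐ[F] ent_Ω K l,
      (∀ y : F, s (α y) = ent_a1 l (qExpand K l (qExpand K l (ιF y)))) ∧
      (∀ y : F, s (algebraMap F E y) = ent_a1 l (qExpand K l (ιF y))) ∧
      ∀ x : E, algebraMap F (ent_Ω K l) (Algebra.norm F x) =
        s x * ent_a0 l ((mp_mat l (ιE x)).det) := by
  obtain ⟨s, hs⟩ := ent_exists_last l ιF ιE hβ hFΩ hl hdeg j hj
  refine ⟨s, fun y => ?_, fun y => ?_, hs⟩
  · rw [ent_last_comp l ιF ιE hβ hFΩ α hα hl s hs G hG hgen y, ent_a0_eq]
  · rw [s.commutes, hFΩ, ent_a0_eq]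

end Main

/-! ## the concrete statement for `F_N ⊆ F_{Nℓ}` -/

section Concrete

open AlgebraicCurve

theorem ent_qExpand_congr {R : Type*} [CommRing R] {m n : ℕ} [NeZero m] [NeZero n] (h : m = n)
    (f : LaurentSeries R) : qExpand R m f = qExpand R n f := by
  subst h
  rfl

theorem ent_qExpand_comm {R : Type*} [CommRing R] (m n : ℕ) [NeZero m] [NeZero n]
    (f : LaurentSeries R) : qExpand R m (qExpand R n f) = qExpand R n (qExpand R m f) := by
  rw [qExpand_qExpand, qExpand_qExpand]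
  exact ent_qExpand_congr (mul_comm m n) f

/-- `j(q^d)` is not a series in `q^ℓ` when `ℓ ∤ d`. -/
theorem ent_jd_notMem_range {R : Type*} [CommRing R] [Nontrivial R] (l d : ℕ) [NeZero l] [NeZero d]
    (h : ¬ l ∣ d) : qExpand R d (jqModC R) ∉ Set.range (qExpand R l) := by
  rintro ⟨w, hw⟩
  have h1 : (qExpand R d (jqModC R)).coeff ((d : ℤ) * (-1)) = 1 := by
    rw [qExpand_coeff_mul, coeff_jqModC_neg_one]
  have h2 : (qExpand R l w).coeff ((d : ℤ) * (-1)) = 0 := by
    apply qExpand_coeff_of_not_dvd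
    rw [mul_neg_one, Int.dvd_neg, Int.natCast_dvd_natCast]
    exact h
  rw [hw, h1] at h2
  exact one_ne_zero h2

variable (N l : ℕ) [NeZero N] [NeZero l]

/-- the modular equation `Φ_ℓ(j_d ; j_{dℓ}) = 0` and `Φ_ℓ(j_{dℓ} ; j_d) = 0`, over any field. -/
theorem ent_modPoly_d (K : Type*) [Field K] (hl : l.Prime) (d : ℕ) [NeZero d] :
    ∃ Φ : Polynomial (Polynomial K), Φ.Monic ∧ Φ.natDegree = l + 1 ∧
      Φ.eval₂ (Polynomial.aeval (qExpand K d (jqModC K))).toRingHom
        (qExpand K l (qExpand K d (jqModC K))) = 0 ∧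
      Φ.eval₂ (Polynomial.aeval (qExpand K l (qExpand K d (jqModC K)))).toRingHom
        (qExpand K d (jqModC K)) = 0 := by
  haveI : Fact l.Prime := ⟨hl⟩
  obtain ⟨Φ, hΦm, hΦd, h1, h2⟩ := mpcf_exists_modPoly_ring K l
  refine ⟨Φ, hΦm, hΦd, ?_, ?_⟩
  · have := congrArg (qExpand K d) h1
    rw [Polynomial.hom_eval₂, map_zero, bdg37_qExpand_comp_aeval, ent_qExpand_comm] at this
    exact this
  · have := congrArg (qExpand K d) h2
    rw [Polynomial.hom_eval₂, map_zero, bdg37_qExpand_comp_aeval, ent_qExpand_comm] at this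
    exact this

/-- ring homs out of `K[X]`: `φ ∘ aeval g = aeval (φ g)` for a ring hom `φ` fixing the constants. -/
theorem ent_comp_aeval {K A B : Type*} [Field K] [CommRing A] [CommRing B] [Algebra K A]
    [Algebra K B] (φ : A →+* B) (hφ : ∀ a, φ (algebraMap K A a) = algebraMap K B a) (g : A) :
    φ.comp (Polynomial.aeval (R := K) g).toRingHom = (Polynomial.aeval (R := K) (φ g)).toRingHom := by
  refine Polynomial.ringHom_ext (fun a => ?_) ?_
  · simp only [RingHom.comp_apply, AlgHom.toRingHom_eq_coe, RingHom.coe_coe, Polynomial.aeval_C]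
    exact hφ a
  · simp only [RingHom.comp_apply, AlgHom.toRingHom_eq_coe, RingHom.coe_coe, Polynomial.aeval_X]

/-- ring-hom extensionality on `F_N(Q̄)`: agreement on the constants, on `j` and on `j_N`. -/
theorem ent_ringHom_ext {B : Type*} [CommRing B] (f f' : FBar N →+* B)
    (hc : ∀ c : Qbar, f (algebraMap Qbar (FBar N) c) = f' (algebraMap Qbar (FBar N) c))
    (hj : f (jBar N) = f' (jBar N))
    (hjN : f (jdBar N N dvd_rfl) = f' (jdBar N N dvd_rfl)) : f = f' := by
  letI : Algebra Qbar B := (f.comp (algebraMap Qbar (FBar N))).toAlgebra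
  let σ : FBar N →ₐ[Qbar] B := { f with commutes' := fun c => rfl }
  let σ' : FBar N →ₐ[Qbar] B := { f' with commutes' := fun c => (hc c).symm }
  have h := ccp_algHom_ext_bar N σ σ' hj hjN
  ext x
  exact DFunLike.congr_fun h x

theorem ent_coe_jdBar (d : ℕ) [NeZero d] (hd : d ∣ N) :
    ((jdBar N d hd : FBar N) : LaurentSeries Qbar) = qExpand Qbar d (jqModC Qbar) := by
  rw [coe_jdBar, ccp_coeffEmb_qExpand_jq]

/-- the generator data for `j_d`, `d ∣ N`, `ℓ ∤ d`. -/
theorem ent_hG_jd (hl : l.Prime) (d : ℕ) [NeZero d] (hd : d ∣ N) (hld : ¬ l ∣ d) :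
    letI := algebraAlong (heckeBetaBar Qbar N l)
    (algebraMap (FBar N) (LaurentSeries Qbar) (jdBar N d hd) ∉ Set.range (qExpand Qbar l) ∧
      ∃ Q : (FBar N)[X], Q.Monic ∧ Q.natDegree = l + 1 ∧
        Q.eval₂ (algebraMap (FBar N) (FBar (N * l))) (heckeAlphaBar Qbar N l (jdBar N d hd)) = 0 ∧
        Q.eval₂ (algebraMap (FBar N) (LaurentSeries Qbar))
          (qExpand Qbar l (algebraMap (FBar N) (LaurentSeries Qbar) (jdBar N d hd))) = 0) := by
  letI := algebraAlong (heckeBetaBar Qbar N l)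
  have hcoe : algebraMap (FBar N) (LaurentSeries Qbar) (jdBar N d hd) =
      qExpand Qbar d (jqModC Qbar) := ent_coe_jdBar N d hd
  obtain ⟨Φ, hΦm, hΦd, h1, h2⟩ := ent_modPoly_d l Qbar hl d
  refine ⟨?_, Φ.map (Polynomial.aeval (R := Qbar) (jdBar N d hd)).toRingHom, hΦm.map _, ?_, ?_, ?_⟩
  · rw [hcoe]
    exact ent_jd_notMem_range l d hld
  · rw [hΦm.natDegree_map, hΦd]
  · apply (algebraMap (FBar (N * l)) (LaurentSeries Qbar)).injective
    rw [Polynomial.hom_eval₂, map_zero, Polynomial.eval₂_map]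
    have hφ : ∀ a : Qbar, ((algebraMap (FBar (N * l)) (LaurentSeries Qbar)).comp
        (algebraMap (FBar N) (FBar (N * l)))) (algebraMap Qbar (FBar N) a) =
        algebraMap Qbar (LaurentSeries Qbar) a := by
      intro a
      show qExpand Qbar l (algebraMap Qbar (LaurentSeries Qbar) a) = _
      exact (qExpandAlgHomC Qbar l).commutes a
    rw [ent_comp_aeval _ hφ]
    have e1 : ((algebraMap (FBar (N * l)) (LaurentSeries Qbar)).comp
        (algebraMap (FBar N) (FBar (N * l)))) (jdBar N d hd) =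
        qExpand Qbar l (qExpand Qbar d (jqModC Qbar)) := by
      show qExpand Qbar l (algebraMap (FBar N) (LaurentSeries Qbar) (jdBar N d hd)) = _
      rw [hcoe]
    have e2 : algebraMap (FBar (N * l)) (LaurentSeries Qbar)
        (heckeAlphaBar Qbar N l (jdBar N d hd)) = qExpand Qbar d (jqModC Qbar) := by
      show algebraMap (FBar N) (LaurentSeries Qbar) (jdBar N d hd) = _
      exact hcoe
    rw [e1, e2]
    exact h2
  · have hcoe' : ((jdBar N d hd : FBar N) : LaurentSeries Qbar) = qExpand Qbar d (jqModC Qbar) :=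
      ent_coe_jdBar N d hd
    rw [Polynomial.eval₂_map, bdg37_algebraMap_comp_aeval, hcoe, hcoe']
    exact h1

theorem ent_algebraMap_coe (M : ℕ) (z : FBar M) :
    algebraMap (FBar M) (LaurentSeries Qbar) z = (z : LaurentSeries Qbar) := rfl

theorem ent_coe_ringHom_alpha (z : FBar N) :
    ((heckeAlphaBar Qbar N l : FBar N →+* FBar (N * l)) z) = heckeAlphaBar Qbar N l z := rfl

theorem ent_coe_alpha (z : FBar N) : algebraMap (FBar (N * l)) (LaurentSeries Qbar)
      ((heckeAlphaBar Qbar N l : FBar N →+* FBar (N * l)) z) =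
      algebraMap (FBar N) (LaurentSeries Qbar) z := by
  rw [ent_coe_ringHom_alpha, ent_algebraMap_coe, ent_algebraMap_coe]
  exact coe_heckeAlphaBar N l z

/-- the generating set: constants, `j`, `j_N`. -/
def ent_G : Set (FBar N) :=
  Set.range (algebraMap Qbar (FBar N)) ∪ {jBar N, jdBar N N dvd_rfl}

theorem ent_hconst (a : Qbar) :
    letI := algebraAlong (heckeBetaBar Qbar N l)
    (heckeAlphaBar Qbar N l : FBar N →+* FBar (N * l)) (algebraMap Qbar (FBar N) a) =
        algebraMap (FBar N) (FBar (N * l)) (algebraMap Qbar (FBar N) a) ∧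
      qExpand Qbar l (algebraMap (FBar N) (LaurentSeries Qbar) (algebraMap Qbar (FBar N) a)) =
        algebraMap (FBar N) (LaurentSeries Qbar) (algebraMap Qbar (FBar N) a) := by
  letI := algebraAlong (heckeBetaBar Qbar N l)
  constructor
  · exact ((heckeAlphaBar Qbar N l).commutes a).trans ((heckeBetaBar Qbar N l).commutes a).symm
  · exact (qExpandAlgHomC Qbar l).commutes a

theorem ent_hG (hl : l.Prime) (hlN : ¬ l ∣ N) :
    letI := algebraAlong (heckeBetaBar Qbar N l)
    ∀ g ∈ ent_G N,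
      ((heckeAlphaBar Qbar N l : FBar N →+* FBar (N * l)) g =
          algebraMap (FBar N) (FBar (N * l)) g ∧
        qExpand Qbar l (algebraMap (FBar N) (LaurentSeries Qbar) g) =
          algebraMap (FBar N) (LaurentSeries Qbar) g) ∨
      (algebraMap (FBar N) (LaurentSeries Qbar) g ∉ Set.range (qExpand Qbar l) ∧
        ∃ Q : (FBar N)[X], Q.Monic ∧ Q.natDegree = l + 1 ∧
          Q.eval₂ (algebraMap (FBar N) (FBar (N * l)))
            ((heckeAlphaBar Qbar N l : FBar N →+* FBar (N * l)) g) = 0 ∧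
          Q.eval₂ (algebraMap (FBar N) (LaurentSeries Qbar))
            (qExpand Qbar l (algebraMap (FBar N) (LaurentSeries Qbar) g)) = 0) := by
  letI := algebraAlong (heckeBetaBar Qbar N l)
  have hl1 : ¬ l ∣ 1 := fun h => hl.one_lt.ne' (Nat.dvd_one.mp h)
  rintro g (⟨a, rfl⟩ | hg | hg)
  · exact Or.inl (ent_hconst N l a)
  · rw [hg]
    exact Or.inr (ent_hG_jd N l hl 1 (one_dvd N) hl1)
  · rw [Set.mem_singleton_iff] at hg
    rw [hg]
    exact Or.inr (ent_hG_jd N l hl N dvd_rfl hlN)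

theorem ent_hgen {B : Type*} [CommRing B] (f f' : FBar N →+* B)
    (h : ∀ g ∈ ent_G N, f g = f' g) : f = f' :=
  ent_ringHom_ext N f f' (fun a => h _ (Or.inl ⟨a, rfl⟩)) (h _ (Or.inr (Or.inl rfl)))
    (h _ (Or.inr (Or.inr rfl)))

theorem ent_j_notMem_range (hl : l.Prime) :
    algebraMap (FBar (N * l)) (LaurentSeries Qbar) (jBar (N * l)) ∉
      Set.range (qExpand Qbar l) := by
  have hl1 : ¬ l ∣ 1 := fun h => hl.one_lt.ne' (Nat.dvd_one.mp h)
  have : algebraMap (FBar (N * l)) (LaurentSeries Qbar) (jBar (N * l)) =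
      qExpand Qbar 1 (jqModC Qbar) := ent_coe_jdBar (N * l) 1 (one_dvd _)
  rw [this]
  exact ent_jd_notMem_range l 1 hl1

/-- **STEP 2 (zeta-free)**: for a prime `ℓ ∤ N`, `y ∈ F_N`, `c ∈ Q̄`,
`N_{F_{Nℓ}/βF_N}(c - α y)` has `q`-expansion `kra_nc ℓ c y = (c - y(q^ℓ)) · det (mp_mat ℓ (c - y))`. -/
theorem ent_norm_eq (hl : l.Prime) (hlN : ¬ l ∣ N) (c : Qbar) (y : FBar N) :
    letI := algebraAlong (heckeBetaBar Qbar N l)
    ((Algebra.norm (FBar N) (algebraMap Qbar (FBar (N * l)) c - heckeAlphaBar Qbar N l y) : FBar N) :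
      LaurentSeries Qbar) = kra_nc l c (y : LaurentSeries Qbar) := by
  letI := algebraAlong (heckeBetaBar Qbar N l)
  haveI : FiniteDimensional (FBar N) (FBar (N * l)) := bt37_finiteAlong_beta N l
  letI : Algebra (FBar N) (ent_Ω Qbar l) :=
    ((ent_a0 l).comp (algebraMap (FBar N) (LaurentSeries Qbar))).toAlgebra
  have hβ : ∀ z : FBar N, algebraMap (FBar (N * l)) (LaurentSeries Qbar)
      (algebraMap (FBar N) (FBar (N * l)) z) =
      qExpand Qbar l (algebraMap (FBar N) (LaurentSeries Qbar) z) := fun z => rfl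
  have hFΩ : ∀ z : FBar N, algebraMap (FBar N) (ent_Ω Qbar l) z =
      ent_a0 l (algebraMap (FBar N) (LaurentSeries Qbar) z) := fun z => rfl
  have hdeg : Module.finrank (FBar N) (FBar (N * l)) = l + 1 :=
    bdg37_finrankAlong_beta N l hl hlN
  have key := ent_norm_formula l (algebraMap (FBar N) (LaurentSeries Qbar))
    (algebraMap (FBar (N * l)) (LaurentSeries Qbar)) hβ hFΩ
    (heckeAlphaBar Qbar N l : FBar N →+* FBar (N * l)) (ent_coe_alpha N l) hl hdeg (jBar (N * l))
    (ent_j_notMem_range N l hl) (ent_G N) (ent_hG N l hl hlN) (ent_hgen N)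
    (algebraMap Qbar (FBar N) c) y (ent_hconst N l c)
  have hcE : algebraMap (FBar N) (FBar (N * l)) (algebraMap Qbar (FBar N) c) =
      algebraMap Qbar (FBar (N * l)) c := (heckeBetaBar Qbar N l).commutes c
  have hC : algebraMap (FBar N) (LaurentSeries Qbar) (algebraMap Qbar (FBar N) c) =
      HahnSeries.C c := by
    show algebraMap Qbar (LaurentSeries Qbar) c = _
    rw [algebraMap_laurentSeries_eq_single]
    rfl
  rw [hcE, hC] at key
  exact key

/-- the same, after applying `β`: the `q`-expansion of `β (N(c - α y)) ∈ F_{Nℓ}`. -/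
theorem ent_beta_norm_eq (hl : l.Prime) (hlN : ¬ l ∣ N) (c : Qbar) (y : FBar N) :
    letI := algebraAlong (heckeBetaBar Qbar N l)
    ((heckeBetaBar Qbar N l
        (Algebra.norm (FBar N) (algebraMap Qbar (FBar (N * l)) c - heckeAlphaBar Qbar N l y)) :
          FBar (N * l)) : LaurentSeries Qbar) =
      qExpand Qbar l (kra_nc l c (y : LaurentSeries Qbar)) := by
  letI := algebraAlong (heckeBetaBar Qbar N l)
  rw [coe_heckeBetaBar, ent_norm_eq N l hl hlN c y]

/-- **the last embedding** `σ_∞ : F_{Nℓ} → Ω` over `β F_N`: `σ_∞ ∘ α = (q ↦ q^{ℓ²})`,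
`σ_∞ ∘ β = (q ↦ q^ℓ)`, and `N(x) = σ_∞(x) · N_{K₁/K₀}(x)`. -/
theorem ent_exists_last_concrete (hl : l.Prime) (hlN : ¬ l ∣ N) :
    letI := algebraAlong (heckeBetaBar Qbar N l)
    letI : Algebra (FBar N) (ent_Ω Qbar l) :=
      ((ent_a0 l).comp (algebraMap (FBar N) (LaurentSeries Qbar))).toAlgebra
    ∃ s : FBar (N * l) →ₐ[FBar N] ent_Ω Qbar l,
      (∀ y : FBar N, s (heckeAlphaBar Qbar N l y) =
        ent_a1 l (qExpand Qbar l (qExpand Qbar l (y : LaurentSeries Qbar)))) ∧
      (∀ y : FBar N, s (heckeBetaBar Qbar N l y) =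
        ent_a1 l (qExpand Qbar l (y : LaurentSeries Qbar))) ∧
      ∀ x : FBar (N * l), ent_a0 l ((Algebra.norm (FBar N) x : FBar N) : LaurentSeries Qbar) =
        s x * ent_a0 l ((mp_mat l (x : LaurentSeries Qbar)).det) := by
  letI := algebraAlong (heckeBetaBar Qbar N l)
  haveI : FiniteDimensional (FBar N) (FBar (N * l)) := bt37_finiteAlong_beta N l
  letI : Algebra (FBar N) (ent_Ω Qbar l) :=
    ((ent_a0 l).comp (algebraMap (FBar N) (LaurentSeries Qbar))).toAlgebra
  have hβ : ∀ z : FBar N, algebraMap (FBar (N * l)) (LaurentSeries Qbar)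
      (algebraMap (FBar N) (FBar (N * l)) z) =
      qExpand Qbar l (algebraMap (FBar N) (LaurentSeries Qbar) z) := fun z => rfl
  have hFΩ : ∀ z : FBar N, algebraMap (FBar N) (ent_Ω Qbar l) z =
      ent_a0 l (algebraMap (FBar N) (LaurentSeries Qbar) z) := fun z => rfl
  have hdeg : Module.finrank (FBar N) (FBar (N * l)) = l + 1 :=
    bdg37_finrankAlong_beta N l hl hlN
  obtain ⟨s, h1, h2, h3⟩ := ent_exists_last_spec l (algebraMap (FBar N) (LaurentSeries Qbar))
    (algebraMap (FBar (N * l)) (LaurentSeries Qbar)) hβ hFΩ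
    (heckeAlphaBar Qbar N l : FBar N →+* FBar (N * l)) (ent_coe_alpha N l) hl hdeg (jBar (N * l))
    (ent_j_notMem_range N l hl) (ent_G N) (ent_hG N l hl hlN) (ent_hgen N)
  exact ⟨s, h1, h2, h3⟩


end Concrete

end Fermat.Agent.S37x
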