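/-
S37 prep, block [B3] / [ES], VALUE ROUTE integrator file 3 (helper5, prefix `esvi_`):
LEVEL-`N` INSTANTIATION of `esvc_mapDomain_correspondence` for helper40's canonical `h`-free Gauss
pair `(nrmt_W N A, nrmt_rho N A ℓ hℓN hA)`, `J = nrmt_J N A`, `σ = cfb_frob k N ℓ`,
`φ = heckeBetaBar`, `ψ = heckeAlphaBar`, and ANY place map `r` with `ts_Hyp`.

* `esvi_hKR` : the Kronecker hypothesis `hKR` of `esvc_` from the `q`-expansion of the norm
  (`hexp : (N_{F'/βF}(c - α y) : Q̄((q))) = kra_nc ℓ c y`, i.e. helper60's `esc_norm_eq`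
  instantiated + helper12's `kra_nc_eq_prod`), via helper12's `kra_nc_mem_W`, `kra_rho_nc_charP`
  and helper48's `cfb_coe_frob_smul`, `cfb_qPow_apply`.
* `esvi_hT` : the literal `hT` binder of `s37t_result_of_places` for such an `r`.
-/
import Mathlib
import Fermat.Agent.S37x.EsValueCharts
import Fermat.Agent.S37x.KraGauss
import Fermat.Agent.S37x.HeckeInputsFinal
import Fermat.Agent.S37x.BetaIntegral
import Fermat.Agent.S37x.HeckeInputsAsm
import Fermat.Agent.S18x.NrmTopDefs
import Fermat.Agent.S18x.Assembly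

set_option autoImplicit false
set_option synthInstance.maxHeartbeats 400000
set_option linter.style.haveILetI false

namespace Fermat.Agent.S37x

open ModularCurve HahnSeries AlgebraicCurve
open Fermat.Agent.S18x Fermat.Agent.S24x Fermat.Agent.S28x

noncomputable section

local notation "Q̄" => AlgebraicClosure ℚ

variable (N : ℕ) [NeZero N] (A : ValuationSubring Q̄)
  (ℓ : ℕ) [Fact ℓ.Prime] [NeZero ℓ] (hℓN : ¬ ℓ ∣ N) (hA : A.LiesOverPrime ℓ)
  [CharP (IsLocalRing.ResidueField A) ℓ] [PerfectRing (IsLocalRing.ResidueField A) ℓ]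

set_option maxHeartbeats 2000000 in
/-- **(I3) Kronecker at level `N`** from the `q`-expansion of the norm. -/
theorem esvi_hKR
    (hexp : ∀ (y : FBar N) (c : Q̄),
      letI := algebraAlong (heckeBetaBar Q̄ N ℓ)
      haveI : Module.Finite (FBar N) (laurentBaseChange Q̄ (modularFunctionFieldFull (N * ℓ))) :=
        bt37_finiteAlong_beta N ℓ
      ((Algebra.norm (FBar N)
          (algebraMap Q̄ (laurentBaseChange Q̄ (modularFunctionFieldFull (N * ℓ))) c -
            heckeAlphaBar Q̄ N ℓ y) : FBar N) : LaurentSeries Q̄) =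
        kra_nc ℓ c (y : LaurentSeries Q̄))
    (y : nrmt_W N A) (c : A) :
    ∃ n : nrmt_W N A,
      (letI := algebraAlong (heckeBetaBar Q̄ N ℓ)
       haveI : Module.Finite (FBar N) (laurentBaseChange Q̄ (modularFunctionFieldFull (N * ℓ))) :=
        bt37_finiteAlong_beta N ℓ
       (n : FBar N) = Algebra.norm (FBar N)
          (algebraMap Q̄ (laurentBaseChange Q̄ (modularFunctionFieldFull (N * ℓ))) (c : Q̄) -
            heckeAlphaBar Q̄ N ℓ (y : FBar N))) ∧
      nrmt_rho N A ℓ hℓN hA n =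
        (algebraMap (IsLocalRing.ResidueField A) _ (IsLocalRing.residue A c) -
            ((cfb_frob (IsLocalRing.ResidueField A) N ℓ)⁻¹ • nrmt_rho N A ℓ hℓN hA y) ^ ℓ) *
          (algebraMap (IsLocalRing.ResidueField A) _ (IsLocalRing.residue A c ^ ℓ) -
            cfb_frob (IsLocalRing.ResidueField A) N ℓ • nrmt_rho N A ℓ hℓN hA y) := by
  letI := algebraAlong (heckeBetaBar Q̄ N ℓ)
  haveI : Module.Finite (FBar N) (laurentBaseChange Q̄ (modularFunctionFieldFull (N * ℓ))) :=
    bt37_finiteAlong_beta N ℓ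
  set nF : FBar N := Algebra.norm (FBar N)
    (algebraMap Q̄ (laurentBaseChange Q̄ (modularFunctionFieldFull (N * ℓ))) (c : Q̄) -
      heckeAlphaBar Q̄ N ℓ (y : FBar N)) with hnF
  have he : (nF : LaurentSeries Q̄) = kra_nc ℓ (c : Q̄) ((y : FBar N) : LaurentSeries Q̄) :=
    hexp (y : FBar N) (c : Q̄)
  have hyW : ((y : FBar N) : LaurentSeries Q̄) ∈ ga_W A (IsLocalRing.residue A) := y.2
  have hncW : kra_nc ℓ (c : Q̄) ((y : FBar N) : LaurentSeries Q̄) ∈
      ga_W A (IsLocalRing.residue A) := kra_nc_mem_W A (IsLocalRing.residue A) ℓ c hyW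
  have hnW : nF ∈ nrmt_W N A := by
    rw [nrmt_mem_W_iff, he]
    exact hncW
  refine ⟨⟨nF, hnW⟩, rfl, ?_⟩
  apply Subtype.ext
  have h1 : ga_rho A (IsLocalRing.residue A) ⟨(nF : LaurentSeries Q̄), hnW⟩ =
      ga_rho A (IsLocalRing.residue A)
        ⟨kra_nc ℓ (c : Q̄) ((y : FBar N) : LaurentSeries Q̄), hncW⟩ :=
    ga_rho_congr A (IsLocalRing.residue A) he _ _
  have h2 : ga_rho A (IsLocalRing.residue A) ⟨((y : FBar N) : LaurentSeries Q̄), hyW⟩ =
      ((nrmt_rho N A ℓ hℓN hA y : modularFunctionFieldFullC (IsLocalRing.ResidueField A) N) :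
        LaurentSeries (IsLocalRing.ResidueField A)) := rfl
  show ga_rho A (IsLocalRing.residue A) ⟨(nF : LaurentSeries Q̄), hnW⟩ = _
  rw [h1, kra_rho_nc_charP A (IsLocalRing.residue A) ℓ c hyW, h2]
  -- the right-hand side
  have h3 : (((cfb_frob (IsLocalRing.ResidueField A) N ℓ)⁻¹ • nrmt_rho N A ℓ hℓN hA y :
      modularFunctionFieldFullC (IsLocalRing.ResidueField A) N) :
        LaurentSeries (IsLocalRing.ResidueField A)) ^ ℓ =
      qExpand (IsLocalRing.ResidueField A) ℓ
        ((nrmt_rho N A ℓ hℓN hA y : modularFunctionFieldFullC (IsLocalRing.ResidueField A) N) :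
          LaurentSeries (IsLocalRing.ResidueField A)) := by
    rw [← cfb_coe_qPow, cfb_qPow_apply]
    rfl
  have h4 : ((cfb_frob (IsLocalRing.ResidueField A) N ℓ • nrmt_rho N A ℓ hℓN hA y :
      modularFunctionFieldFullC (IsLocalRing.ResidueField A) N) :
        LaurentSeries (IsLocalRing.ResidueField A)) =
      coeffMap (frobenius (IsLocalRing.ResidueField A) ℓ)
        ((nrmt_rho N A ℓ hℓN hA y : modularFunctionFieldFullC (IsLocalRing.ResidueField A) N) :
          LaurentSeries (IsLocalRing.ResidueField A)) :=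
    cfb_coe_frob_smul _ N ℓ _
  have h5 : ∀ a : IsLocalRing.ResidueField A,
      ((algebraMap (IsLocalRing.ResidueField A)
        (modularFunctionFieldFullC (IsLocalRing.ResidueField A) N) a :
          modularFunctionFieldFullC (IsLocalRing.ResidueField A) N) :
        LaurentSeries (IsLocalRing.ResidueField A)) = HahnSeries.C a := by
    intro a
    show algebraMap (IsLocalRing.ResidueField A) (LaurentSeries (IsLocalRing.ResidueField A)) a = _
    rw [algebraMap_laurentSeries_eq_single]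
    rfl
  rw [← h3, ← h4, ← h5, ← h5]
  rfl

set_option maxHeartbeats 4000000 in
/-- **the literal `hT` binder of `s37t_result_of_places`** for any place map `r` with `ts_Hyp` for
the canonical level-`N` Gauss pair, from (I1) `H`, `hpol`, (I2) `hST`, (I3) `hexp`,
(I4) `hsep0`, `hsepInf`. -/
theorem esvi_hT
    (r : Place Q̄ (FBar N) → Place (IsLocalRing.ResidueField A)
      (modularFunctionFieldFullC (IsLocalRing.ResidueField A) N))
    (H : ts_Hyp A (IsLocalRing.residue A) (nrmt_W N A) (nrmt_rho N A ℓ hℓN hA) r)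
    (hpol : spv_PolarLe r (jBar N : FBar N))
    (hST : ∀ w : Place Q̄ (laurentBaseChange Q̄ (modularFunctionFieldFull (N * ℓ))),
      w.restrictAlong (heckeBetaBar Q̄ N ℓ) (bt37_betaIntegral N ℓ) ∈ esvc_S0 A (jBar N : FBar N) ↔
        w.restrictAlong (heckeAlphaBar Q̄ N ℓ) (bt37_alphaIntegral N ℓ) ∈
          esvc_S0 A (jBar N : FBar N))
    (hexp : ∀ (y : FBar N) (c : Q̄),
      letI := algebraAlong (heckeBetaBar Q̄ N ℓ)
      haveI : Module.Finite (FBar N) (laurentBaseChange Q̄ (modularFunctionFieldFull (N * ℓ))) :=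
        bt37_finiteAlong_beta N ℓ
      ((Algebra.norm (FBar N)
          (algebraMap Q̄ (laurentBaseChange Q̄ (modularFunctionFieldFull (N * ℓ))) c -
            heckeAlphaBar Q̄ N ℓ y) : FBar N) : LaurentSeries Q̄) =
        kra_nc ℓ c (y : LaurentSeries Q̄))
    (hsep0 : ∀ T : Finset (Place (IsLocalRing.ResidueField A)
        (modularFunctionFieldFullC (IsLocalRing.ResidueField A) N)),
      (∀ Q ∈ T, 0 ≤ Q.ord (pls_jb (IsLocalRing.ResidueField A) N)) →
      ∃ y : nrmt_W N A, (∀ P ∈ esvc_S0 A (jBar N : FBar N), P.adicValuation (y : FBar N) ≤ 1) ∧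
        ∃ v : Place (IsLocalRing.ResidueField A)
            (modularFunctionFieldFullC (IsLocalRing.ResidueField A) N) → IsLocalRing.ResidueField A,
          Set.InjOn v (T : Set _) ∧
          ∀ Q ∈ T, Q.adicValuation (nrmt_rho N A ℓ hℓN hA y - algebraMap _ _ (v Q)) < 1)
    (hsepInf : ∀ T : Finset (Place (IsLocalRing.ResidueField A)
        (modularFunctionFieldFullC (IsLocalRing.ResidueField A) N)),
      (∀ Q ∈ T, Q.ord (pls_jb (IsLocalRing.ResidueField A) N) < 0) →
      ∃ y : nrmt_W N A, (∀ P ∈ (esvc_S0 A (jBar N : FBar N))ᶜ, P.adicValuation (y : FBar N) ≤ 1) ∧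
        ∃ v : Place (IsLocalRing.ResidueField A)
            (modularFunctionFieldFullC (IsLocalRing.ResidueField A) N) → IsLocalRing.ResidueField A,
          Set.InjOn v (T : Set _) ∧
          ∀ Q ∈ T, Q.adicValuation (nrmt_rho N A ℓ hℓN hA y - algebraMap _ _ (v Q)) < 1)
    [HasPrincipalDivisors Q̄ (laurentBaseChange Q̄ (modularFunctionFieldFull (N * ℓ)))]
    (P : Place Q̄ (FBar N)) :
    Finsupp.mapDomain r
        (Divisor.correspondence (heckeBetaBar Q̄ N ℓ) (heckeAlphaBar Q̄ N ℓ)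
          (bt37_betaIntegral N ℓ) (bt37_alphaIntegral N ℓ) (Finsupp.single P 1)) =
      Finsupp.single (cfb_frob (IsLocalRing.ResidueField A) N ℓ • r P) (1 : ℤ) +
        Finsupp.single ((cfb_frob (IsLocalRing.ResidueField A) N ℓ)⁻¹ • r P) (ℓ : ℤ) := by
  haveI hk : IsAlgClosed (IsLocalRing.ResidueField A) := s18a_isAlgClosed_residue A
  haveI : Infinite (IsLocalRing.ResidueField A) := IsAlgClosed.instInfinite
  have hρJ := nrmt_rho_J N A ℓ hℓN hA
  have hnc : ∀ a : IsLocalRing.ResidueField A,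
      nrmt_rho N A ℓ hℓN hA (nrmt_J N A) ≠ algebraMap _ _ a := by
    intro a h
    rw [hρJ] at h
    exact (pls_transcendental_jb (IsLocalRing.ResidueField A) N) (h ▸ isAlgebraic_algebraMap a)
  have hσJ : cfb_frob (IsLocalRing.ResidueField A) N ℓ • nrmt_rho N A ℓ hℓN hA (nrmt_J N A) =
      nrmt_rho N A ℓ hℓN hA (nrmt_J N A) := by
    rw [hρJ]
    exact cfb_frob_smul_j (IsLocalRing.ResidueField A) N ℓ
  have hF' : ∀ w : Place Q̄ (laurentBaseChange Q̄ (modularFunctionFieldFull (N * ℓ))), w.deg = 1 :=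
    fun w => hif_deg_eq_one (N * ℓ) w
  exact esvc_mapDomain_correspondence (heckeBetaBar Q̄ N ℓ) (heckeAlphaBar Q̄ N ℓ)
    (bt37_betaIntegral N ℓ) (bt37_alphaIntegral N ℓ) (bt37_finiteAlong_beta N ℓ)
    (hif_deg_eq_one N) hF' (fun v => hia_residue_surjective N v) H (nrmt_J N A) hnc hpol
    (cfb_frob (IsLocalRing.ResidueField A) N ℓ) ℓ
    (cfb_baseAut_frob_apply (IsLocalRing.ResidueField A) N ℓ) hσJ hST
    (esvi_hKR N A ℓ hℓN hA hexp)
    (fun T hT => hsep0 T (fun Q hQ => by rw [← hρJ]; exact hT Q hQ))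
    (fun T hT => hsepInf T (fun Q hQ => by rw [← hρJ]; exact hT Q hQ)) P

end

end Fermat.Agent.S37x
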