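/-
S37x/EsValueSepPlace.lean (helper27, S37 prep [B3], VALUE route input (I4), prefix `esvp_`):
PLACE-FORM twin of `S37x/EsValueSep`: the separation hypotheses `hsep0` / `hsepInf` of
`esvc_mapDomain_correspondence` (helper5) directly from two-chart normality in the PLACE form of
`s18f_Normality` (S18x/AssemblyFinal):

  (N0)   every `yb` regular off the poles of `jb` lifts to `u ∈ W` regular off the poles of `j`;
  (Ninf) every `yb` regular off the zeros of `jb` lifts to `u ∈ W` regular off the zeros of `j`.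

`j`, `jb` are arbitrary spellings of `(J : F)`, `ρ J` (`hJ`, `hρJ`), so that `hnorm.1`, `hnorm.2`
of `s18f_Normality N A h` can be fed literally (`j = jBar N`, `jb = pls_jb k N`).
-/
import Mathlib
import Fermat.Agent.S37x.EsValueSep

set_option autoImplicit false

namespace Fermat.Agent.S37x

open AlgebraicCurve IsDedekindDomain IntermediateField Fermat.Agent.S18x Fermat.Agent.S24x
open scoped IntermediateField.algebraAdjoinAdjoin

variable {L k F Fb : Type*} [Field L] [Field k] [Field F] [Field Fb] [Algebra L F] [Algebra k Fb]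
variable {A : ValuationSubring L} {W : ValuationSubring F} {ρ : W →+* Fb}

/-- a separating function in the chart ring `ringB k g` of a separating coordinate `g`. -/
theorem esvp_exists_separating [Infinite k] {g : Fb} (hg : pls_IsSepCoordinate k Fb g)
    (T : Finset (Place k Fb)) (hT : ∀ Q ∈ T, g ∈ Q.toValuationSubring) :
    ∃ yb : Fb, IsIntegral (Algebra.adjoin k {g}) yb ∧
      ∃ v : Place k Fb → k, Set.InjOn v (T : Set (Place k Fb)) ∧
        ∀ Q ∈ T, Q.adicValuation (yb - algebraMap k Fb (v Q)) < 1 := by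
  classical
  have : FFData k Fb g := ⟨hg.coord.transcendental, hg.coord.finite⟩
  have := hg.sep
  have : IsDedekindDomain (ringB k g) :=
    integralClosure.isDedekindDomain (ringA k g) k⟮g⟯ Fb
  have hS : ∀ Q ∈ T, ∀ b : ringB k g, algebraMap (ringB k g) Fb b ∈ Q.toValuationSubring := by
    intro Q hQ b
    exact vtp_ringB_mem Q.toValuationSubring Q.algebraMap_mem' (hT Q hQ) b
  obtain ⟨ub, v, hv, hub⟩ := pcrt_exists_separating (K := k) (F := Fb) (ringB k g) T hS
  refine ⟨(ub : Fb), ub.2, v, hv, fun Q hQ => ?_⟩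
  rw [← ctm_nonunits_iff]
  exact hub Q hQ

/-- **(I4), finite chart, place form.** -/
theorem esvp_hsep0 [Infinite k] {J : W} {j : F} {jb : Fb} (hJ : (J : F) = j) (hρJ : ρ J = jb)
    (hjb : pls_IsSepCoordinate k Fb jb)
    (hN0 : ∀ yb : Fb, (∀ Q : Place k Fb, 0 ≤ Q.ord jb → 0 ≤ Q.ord yb) →
      ∃ u : W, ρ u = yb ∧ ∀ P : Place L F, 0 ≤ P.ord j → 0 ≤ P.ord (u : F)) :
    ∀ T : Finset (Place k Fb), (∀ Q ∈ T, 0 ≤ Q.ord (ρ J)) →
      ∃ y : W, (∀ P ∈ esvc_S0 A (J : F), P.adicValuation (y : F) ≤ 1) ∧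
        ∃ v : Place k Fb → k, Set.InjOn v (T : Set (Place k Fb)) ∧
          ∀ Q ∈ T, Q.adicValuation (ρ y - algebraMap k Fb (v Q)) < 1 := by
  subst hJ hρJ
  intro T hT
  obtain ⟨yb, hyb, v, hv, hval⟩ := esvp_exists_separating hjb T
    (fun Q hQ => (nrd_mem_iff Q (ρ J)).mpr (hT Q hQ))
  obtain ⟨u, hu, hreg⟩ := hN0 yb ((nrd_regular_iff hjb yb).mpr hyb)
  refine ⟨u, fun P hP => ?_, v, hv, fun Q hQ => by rw [hu]; exact hval Q hQ⟩
  obtain ⟨c, hc⟩ := hP
  have hJP : (J : F) ∈ P.toValuationSubring := by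
    have h1 : (J : F) - algebraMap L F (c : L) ∈ P.toValuationSubring :=
      ctm_mem_of_val_le_one P hc.le
    have h2 := P.toValuationSubring.add_mem _ _ h1 (P.algebraMap_mem' (c : L))
    simpa using h2
  exact P.adicValuation_le_one_of_mem
    ((nrd_mem_iff P (u : F)).mpr (hreg P ((nrd_mem_iff P (J : F)).mp hJP)))

/-- **(I4), chart at infinity, place form.** -/
theorem esvp_hsepInf [Infinite k] {J : W} {j : F} {jb : Fb} (hJ : (J : F) = j) (hρJ : ρ J = jb)
    (hjb : pls_IsSepCoordinate k Fb jb)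
    (hNinf : ∀ yb : Fb, (∀ Q : Place k Fb, Q.ord jb ≤ 0 → 0 ≤ Q.ord yb) →
      ∃ u : W, ρ u = yb ∧ ∀ P : Place L F, P.ord j ≤ 0 → 0 ≤ P.ord (u : F)) :
    ∀ T : Finset (Place k Fb), (∀ Q ∈ T, Q.ord (ρ J) < 0) →
      ∃ y : W, (∀ P ∈ (esvc_S0 A (J : F))ᶜ, P.adicValuation (y : F) ≤ 1) ∧
        ∃ v : Place k Fb → k, Set.InjOn v (T : Set (Place k Fb)) ∧
          ∀ Q ∈ T, Q.adicValuation (ρ y - algebraMap k Fb (v Q)) < 1 := by
  subst hJ hρJ
  intro T hT
  obtain ⟨yb, hyb, v, hv, hval⟩ := esvp_exists_separating (pls_isSepCoordinate_inv hjb) T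
    (fun Q hQ => by
      rw [nrd_mem_iff, Q.ord_inv]
      have := hT Q hQ
      omega)
  obtain ⟨u, hu, hreg⟩ := hNinf yb ((nrd_regular_inv_iff hjb yb).mpr hyb)
  refine ⟨u, fun P hP => ?_, v, hv, fun Q hQ => by rw [hu]; exact hval Q hQ⟩
  have hord : P.ord (J : F) ≤ 0 := by
    by_contra hpos
    rw [not_le] at hpos
    apply hP
    refine ⟨0, ?_⟩
    rw [ZeroMemClass.coe_zero, map_zero, sub_zero]
    have hne : (J : F) ≠ 0 := by
      intro h0
      rw [h0, P.ord_zero] at hpos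
      exact lt_irrefl _ hpos
    rw [P.adicValuation_eq_exp_neg_ord hne, ← WithZero.exp_zero]
    exact WithZero.exp_lt_exp.mpr (by omega)
  exact P.adicValuation_le_one_of_mem ((nrd_mem_iff P (u : F)).mpr (hreg P hord))

end Fermat.Agent.S37x
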