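/-
S37 prep (helper32): **every** valuation subring `A` of `ℚ̄` lying over a prime `ℓ` admits a Frobenius
element (`S54x` only provides one such `A`).

Route: `Q := {b ∈ ℤ̄ | b ∈ A.nonunits}` is a prime of the ring `ℤ̄` of all algebraic integers containing
`ℓ`; Mathlib's `Ideal.Quotient.stabilizerHom_surjective_of_profinite` gives `σ` with `σ b ≡ b ^ ℓ` modulo
`Q`; `A` is the localisation `S54x.locValuationSubring` of `ℤ̄` at `Q`, for which such a `σ` is a Frobenius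
element (`S54x.isFrobeniusAt_locValuationSubring`).

All names carry the prefix `fra_`.
-/
import Mathlib
import Fermat.Agent.S54x.ProfiniteFrob
import Fermat.Agent.S54x.ValSubring

set_option autoImplicit false
open scoped Pointwise

noncomputable section

namespace Fermat.Agent.S37x

open Fermat.Agent.S54x Fermat.Agent.S54x.ProfiniteFrob

attribute [local instance] isAlgClosure_Qb actBz isInvariant_Bz topBz discreteTopology_Bz
  continuousSMul_Bz

/-- For **every** prime `Q ∋ ℓ` of the ring of all algebraic integers there is `σ ∈ Gal(ℚ̄/ℚ)` with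
`σ b ≡ b ^ ℓ (mod Q)` for all algebraic integers `b`. -/
theorem fra_frob_of_prime (ℓ : ℕ) (hℓ : ℓ.Prime) (Q : Ideal Bz) [Q.IsPrime] (hℓQ : (ℓ : Bz) ∈ Q) :
    ∃ σ : Gq, ∀ b : Bz, ∃ c ∈ Q, σ (b : Qb) = (b : Qb) ^ ℓ + (c : Qb) := by
  let P : Ideal ℤ := Ideal.span {(ℓ : ℤ)}
  have hPmax : P.IsMaximal :=
    PrincipalIdealRing.isMaximal_of_irreducible (Nat.prime_iff_prime_int.mp hℓ).irreducible
  have hQP : Q.comap (algebraMap ℤ Bz) = P := by
    symm
    refine hPmax.eq_of_le (Ideal.comap_ne_top _ (Ideal.IsPrime.ne_top inferInstance)) ?_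
    rw [Ideal.span_le, Set.singleton_subset_iff]
    show algebraMap ℤ Bz (ℓ : ℤ) ∈ Q
    simpa using hℓQ
  have : Q.LiesOver P := ⟨hQP.symm⟩
  have hQmax : Q.IsMaximal :=
    Ideal.isMaximal_of_isIntegral_of_isMaximal_comap Q (by rw [hQP]; exact hPmax)
  let _ : Field (Bz ⧸ Q) := Ideal.Quotient.field Q
  have : CharP (Bz ⧸ Q) ℓ := by
    rw [CharP.charP_iff_prime_eq_zero hℓ]
    have := (Ideal.Quotient.eq_zero_iff_mem (I := Q)).mpr hℓQ
    simpa using this
  have : Fact ℓ.Prime := ⟨hℓ⟩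
  have : PerfectRing (Bz ⧸ Q) ℓ :=
    PerfectRing.ofSurjective (Bz ⧸ Q) ℓ (frobenius_surjective_quot Q ℓ hℓ.pos)
  let F : (Bz ⧸ Q) ≃+* (Bz ⧸ Q) := frobeniusEquiv (Bz ⧸ Q) ℓ
  have hcomm : ∀ x : ℤ ⧸ P, F (algebraMap (ℤ ⧸ P) (Bz ⧸ Q) x) = algebraMap (ℤ ⧸ P) (Bz ⧸ Q) x := by
    intro x
    have : (F : (Bz ⧸ Q) →+* (Bz ⧸ Q)).comp (algebraMap (ℤ ⧸ P) (Bz ⧸ Q)) =
        algebraMap (ℤ ⧸ P) (Bz ⧸ Q) := by
      apply Ideal.Quotient.ringHom_ext
      exact RingHom.ext_int _ _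
    exact congrArg (fun f : (ℤ ⧸ P) →+* (Bz ⧸ Q) => f x) this
  let Fa : (Bz ⧸ Q) ≃ₐ[ℤ ⧸ P] (Bz ⧸ Q) := AlgEquiv.ofRingEquiv (f := F) hcomm
  obtain ⟨g, hg⟩ := Ideal.Quotient.stabilizerHom_surjective_of_profinite (G := Gq) P Q Fa
  refine ⟨g.1, fun b => ?_⟩
  have h1 : Ideal.Quotient.mk Q (g • b) = Ideal.Quotient.mk Q (b ^ ℓ) := by
    rw [← Ideal.Quotient.stabilizerHom_apply Q P Gq g b, hg]
    simp [Fa, F, frobeniusEquiv_apply, frobenius_def, map_pow]
  rw [Ideal.Quotient.eq] at h1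
  refine ⟨_, h1, ?_⟩
  have : ((g • b : Bz) : Qb) = g.1 (b : Qb) := coe_smul_Bz g.1 b
  rw [← this]
  simp

/-- the algebraic integers lie in every valuation subring of `ℚ̄`. -/
theorem fra_zbar_le (A : ValuationSubring Qb) (b : Bz) : (b : Qb) ∈ A := by
  have hint : IsIntegral A (b : Qb) := b.2.tower_top
  obtain ⟨y, hy⟩ := IsIntegrallyClosed.isIntegral_iff.mp hint
  rw [← hy]
  exact y.2

/-- the inclusion `ℤ̄ → A`. -/
def fraIncl (A : ValuationSubring Qb) : Bz →+* A :=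
  (algebraMap Bz Qb).codRestrict A.toSubring (fra_zbar_le A)

/-- the centre of `A` on `ℤ̄`. -/
def fraPrime (A : ValuationSubring Qb) : Ideal Bz :=
  (IsLocalRing.maximalIdeal A).comap (fraIncl A)

theorem fraPrime_isPrime (A : ValuationSubring Qb) : (fraPrime A).IsPrime :=
  Ideal.comap_isPrime _ _

theorem fra_mem_prime_iff (A : ValuationSubring Qb) (b : Bz) :
    b ∈ fraPrime A ↔ (b : Qb) ∈ A.nonunits := by
  rw [fraPrime, Ideal.mem_comap, ← ValuationSubring.coe_mem_nonunits_iff]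
  rfl

theorem fra_natCast_mem_prime {A : ValuationSubring Qb} {ℓ : ℕ} (hA : A.LiesOverPrime ℓ) :
    (ℓ : Bz) ∈ fraPrime A := by
  rw [fra_mem_prime_iff]
  have : (((ℓ : Bz) : Bz) : Qb) = (ℓ : Qb) := by simp
  rw [this]
  exact hA

/-- `A` is the localisation of `ℤ̄` at its centre. -/
theorem fra_eq_loc (A : ValuationSubring Qb) (ℓ : ℕ) (hℓ : ℓ.Prime)
    (hℓQ : (ℓ : ZBar) ∈ fraPrime A) :
    haveI := fraPrime_isPrime A
    A = locValuationSubring zbar_inj zbar_closed (fraPrime A) (zbar_alg ℓ hℓ (fraPrime A) hℓQ) := by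
  have := fraPrime_isPrime A
  set B := locValuationSubring zbar_inj zbar_closed (fraPrime A) (zbar_alg ℓ hℓ (fraPrime A) hℓQ)
    with hB
  have hBA : ∀ x : Qb, x ∈ B → x ∈ A := by
    rintro x ⟨b, s, hs, hx⟩
    rw [fra_mem_prime_iff, ValuationSubring.mem_nonunits_iff_or, not_or, not_not] at hs
    have hs0 : algebraMap ZBar Qb s ≠ 0 := hs.1
    have hx' : x = algebraMap ZBar Qb b * (algebraMap ZBar Qb s)⁻¹ := by
      rw [← hx]; field_simp
    rw [hx']
    exact A.mul_mem _ _ (fra_zbar_le A b) hs.2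
  ext x
  constructor
  · intro hxA
    rcases B.mem_or_inv_mem x with h | h
    · exact h
    · by_contra hxB
      have hx0 : x ≠ 0 := fun h0 => hxB (h0 ▸ B.zero_mem)
      have hnon : x⁻¹ ∈ B.nonunits := by
        rw [ValuationSubring.inv_mem_nonunits_iff]; exact Or.inr hxB
      obtain ⟨b, s, hs, hxs⟩ := h
      have hb : b ∈ fraPrime A :=
        mem_of_mem_nonunits_locValuationSubring zbar_inj zbar_closed (fraPrime A)
          (zbar_alg ℓ hℓ (fraPrime A) hℓQ) hs hxs hnon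
      apply hs
      rw [fra_mem_prime_iff] at hb ⊢
      have hsx : algebraMap ZBar Qb s = x * algebraMap ZBar Qb b := by
        rw [← hxs]; field_simp
      show algebraMap ZBar Qb s ∈ A.nonunits
      rw [hsx, ValuationSubring.mem_nonunits_iff, map_mul]
      have h1 : A.valuation x ≤ 1 := (A.valuation_le_one_iff x).mpr hxA
      have h2 : A.valuation (algebraMap ZBar Qb b) < 1 := (ValuationSubring.mem_nonunits_iff A).mp hb
      calc A.valuation x * A.valuation (algebraMap ZBar Qb b)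
          ≤ 1 * A.valuation (algebraMap ZBar Qb b) := by gcongr
        _ = A.valuation (algebraMap ZBar Qb b) := one_mul _
        _ < 1 := h2
  · exact hBA x

/-- **Every** valuation subring of `ℚ̄` lying over a prime `ℓ` has a Frobenius element. -/
theorem fra_exists_isFrobeniusAt (ℓ : ℕ) (hℓ : ℓ.Prime)
    (A : ValuationSubring (AlgebraicClosure ℚ)) (hA : A.LiesOverPrime ℓ) :
    ∃ σ : AlgebraicClosure ℚ ≃ₐ[ℚ] AlgebraicClosure ℚ, A.IsFrobeniusAt σ ℓ := by
  have := fraPrime_isPrime A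
  have hℓQ : (ℓ : ZBar) ∈ fraPrime A := fra_natCast_mem_prime hA
  obtain ⟨σ, hσ⟩ := fra_frob_of_prime ℓ hℓ (fraPrime A) hℓQ
  refine ⟨σ, ?_⟩
  have h := isFrobeniusAt_locValuationSubring zbar_inj zbar_closed
    (zbar_alg ℓ hℓ (fraPrime A) hℓQ) ℓ hℓ.ne_zero σ hσ
  rwa [← fra_eq_loc A ℓ hℓ hℓQ] at h

end Fermat.Agent.S37x
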