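import Mathlib
import Fermat.Agent.S54x.ValSubring
import Fermat.Agent.S54x.FrobExists

/-!
# A Frobenius element exists at EVERY valuation subring of `ℚ̄` lying over `ℓ`

`S54x` proves the existence of a Frobenius element at *some* valuation subring over `ℓ`.  Here we
show: every valuation subring `A` of `AlgebraicClosure ℚ` with `ℓ ∈ A.nonunits` is the localisation
of the ring of algebraic integers at the prime `Q = 𝔪_A ∩ ZBar`, and the profinite Frobenius lifting
theorem gives `σ` stabilising `Q` and congruent to `x ↦ x ^ ℓ` modulo `Q`; such a `σ` is a Frobenius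
element at `A`.
-/

set_option autoImplicit false

namespace Fermat.Agent.S37x

open Fermat.Agent.S54x Polynomial

open scoped Pointwise

local notation "K̄" => AlgebraicClosure ℚ
local notation "Γ" => (AlgebraicClosure ℚ ≃ₐ[ℚ] AlgebraicClosure ℚ)

/-- Algebraic integers lie in every valuation subring. -/
theorem fe37_zbar_mem (A : ValuationSubring K̄) (b : ZBar) : (b : K̄) ∈ A := by
  have hb : IsIntegral ℤ (b : K̄) := b.2
  have hb' : IsIntegral A (b : K̄) := hb.tower_top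
  obtain ⟨y, hy⟩ := (IsIntegrallyClosed.isIntegral_iff (R := A) (K := K̄)).mp hb'
  rw [← hy]
  exact y.2

/-- The inclusion of the ring of algebraic integers into a valuation subring. -/
noncomputable def fe37_incl (A : ValuationSubring K̄) : ZBar →+* A where
  toFun b := ⟨(b : K̄), fe37_zbar_mem A b⟩
  map_one' := rfl
  map_mul' _ _ := rfl
  map_zero' := rfl
  map_add' _ _ := rfl

/-- The contraction of the maximal ideal of `A` to the ring of algebraic integers. -/
noncomputable def fe37_Q (A : ValuationSubring K̄) : Ideal ZBar :=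
  (IsLocalRing.maximalIdeal A).comap (fe37_incl A)

instance fe37_Q_isPrime (A : ValuationSubring K̄) : (fe37_Q A).IsPrime :=
  Ideal.comap_isPrime _ _

theorem fe37_mem_Q (A : ValuationSubring K̄) (b : ZBar) :
    b ∈ fe37_Q A ↔ (b : K̄) ∈ A.nonunits := by
  rw [fe37_Q, Ideal.mem_comap, IsLocalRing.mem_maximalIdeal, mem_nonunits_iff]
  exact (ValuationSubring.coe_mem_nonunits_iff (A := A) (a := fe37_incl A b)).symm

theorem fe37_natCast_mem_Q (A : ValuationSubring K̄) (ℓ : ℕ) (hA : A.LiesOverPrime ℓ) :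
    (ℓ : ZBar) ∈ fe37_Q A := by
  rw [fe37_mem_Q]
  have : (((ℓ : ZBar) : ZBar) : K̄) = (ℓ : K̄) := by simp
  rw [this]
  exact hA

theorem fe37_Q_under (A : ValuationSubring K̄) (ℓ : ℕ) (hℓ : ℓ.Prime) (hA : A.LiesOverPrime ℓ) :
    (fe37_Q A).comap (algebraMap ℤ ZBar) = Ideal.span {(ℓ : ℤ)} := by
  have hℓ' : Prime (ℓ : ℤ) := Nat.prime_iff_prime_int.mp hℓ
  have hmax : (Ideal.span {(ℓ : ℤ)}).IsMaximal :=
    PrincipalIdealRing.isMaximal_of_irreducible hℓ'.irreducible
  have hle : Ideal.span {(ℓ : ℤ)} ≤ (fe37_Q A).comap (algebraMap ℤ ZBar) := by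
    rw [Ideal.span_le, Set.singleton_subset_iff]
    show algebraMap ℤ ZBar (ℓ : ℤ) ∈ fe37_Q A
    have : algebraMap ℤ ZBar (ℓ : ℤ) = (ℓ : ZBar) := by simp
    rw [this]
    exact fe37_natCast_mem_Q A ℓ hA
  have hne : (fe37_Q A).comap (algebraMap ℤ ZBar) ≠ ⊤ :=
    (Ideal.comap_isPrime (algebraMap ℤ ZBar) (fe37_Q A)).ne_top
  exact (hmax.eq_of_le hne hle).symm

/-- Existence of a Frobenius element at ANY prime `Q` of the ring of algebraic integers
lying over `ℓ` (the proof of `S54x.exists_frob_B` with `Q` given). -/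
theorem fe37_exists_frob (ℓ : ℕ) (hℓ : ℓ.Prime) (Q : Ideal ZBar) [hQprime : Q.IsPrime]
    (hQP : Q.comap (algebraMap ℤ ZBar) = Ideal.span {(ℓ : ℤ)}) :
    ∃ σ : Γ, σ • Q = Q ∧ ∀ b : ZBar, σ • b - b ^ ℓ ∈ Q := by
  have := isGalois_Qbar
  have := isInvariant_B
  have : Fact ℓ.Prime := ⟨hℓ⟩
  have hℓ' : Prime (ℓ : ℤ) := Nat.prime_iff_prime_int.mp hℓ
  let P : Ideal ℤ := Ideal.span {(ℓ : ℤ)}
  have hPmax : P.IsMaximal := PrincipalIdealRing.isMaximal_of_irreducible hℓ'.irreducible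
  have hQlies : Q.LiesOver P := ⟨hQP.symm⟩
  have hQmax : Q.IsMaximal :=
    Ideal.isMaximal_of_isIntegral_of_isMaximal_comap Q (by rw [hQP]; exact hPmax)
  let _ : TopologicalSpace ZBar := ⊥
  have : DiscreteTopology ZBar := ⟨rfl⟩
  have : ContinuousSMul Γ ZBar := continuousSMul_iff_stabilizer_isOpen.mpr stabilizer_isOpen_B
  have hsurj := Ideal.Quotient.stabilizerHom_surjective_of_profinite (G := Γ) P Q
  let _ : Field (ZBar ⧸ Q) := Ideal.Quotient.field Q
  let _ : Field (ℤ ⧸ P) := Ideal.Quotient.field P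
  have hℓQ : (ℓ : ZBar) ∈ Q := by
    have : (ℓ : ℤ) ∈ Q.comap (algebraMap ℤ ZBar) := by
      rw [hQP]; exact Ideal.mem_span_singleton_self _
    simpa using this
  have : CharP (ZBar ⧸ Q) ℓ := by
    rw [CharP.charP_iff_prime_eq_zero hℓ]
    have : ((ℓ : ZBar) : ZBar ⧸ Q) = 0 := Ideal.Quotient.eq_zero_iff_mem.mpr hℓQ
    simpa using this
  let frobHom : (ZBar ⧸ Q) →ₐ[ℤ ⧸ P] (ZBar ⧸ Q) :=
    { frobenius (ZBar ⧸ Q) ℓ with
      commutes' := by
        intro r
        have : (frobenius (ZBar ⧸ Q) ℓ).comp (algebraMap (ℤ ⧸ P) (ZBar ⧸ Q)) =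
            algebraMap (ℤ ⧸ P) (ZBar ⧸ Q) := by
          apply Ideal.Quotient.ringHom_ext
          exact RingHom.ext_int _ _
        exact RingHom.congr_fun this r }
  have : Algebra.IsAlgebraic (ℤ ⧸ P) (ZBar ⧸ Q) := Algebra.IsIntegral.isAlgebraic
  have hbij : Function.Bijective frobHom := Algebra.IsAlgebraic.algHom_bijective frobHom
  obtain ⟨⟨σ, hσQ⟩, hσ⟩ := hsurj (AlgEquiv.ofBijective frobHom hbij)
  refine ⟨σ, hσQ, fun b => ?_⟩
  have h1 := DFunLike.congr_fun hσ (Ideal.Quotient.mk Q b)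
  rw [Ideal.Quotient.stabilizerHom_apply] at h1
  rw [← Ideal.Quotient.eq]
  have h2 : (⟨σ, hσQ⟩ : MulAction.stabilizer Γ Q) • b = σ • b := rfl
  rw [← h2, h1]
  simp [frobHom, frobenius_def]

/-- Every valuation subring of `ℚ̄` over `ℓ` is the localisation of `ZBar` at its centre. -/
theorem fe37_eq_loc (A : ValuationSubring K̄) (ℓ : ℕ) (hℓ : ℓ.Prime) (hA : A.LiesOverPrime ℓ) :
    A = locValuationSubring zbar_inj zbar_closed (fe37_Q A)
      (zbar_alg ℓ hℓ (fe37_Q A) (fe37_natCast_mem_Q A ℓ hA)) := by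
  set B := locValuationSubring zbar_inj zbar_closed (fe37_Q A)
      (zbar_alg ℓ hℓ (fe37_Q A) (fe37_natCast_mem_Q A ℓ hA)) with hB
  have hBA : ∀ x : K̄, x ∈ B → x ∈ A := by
    rintro x ⟨b, s, hs, hx⟩
    have hs' : (s : K̄) ∉ A.nonunits := fun h => hs ((fe37_mem_Q A s).mpr h)
    have hsA : (s : K̄) ∈ A := fe37_zbar_mem A s
    have hs0 : (s : K̄) ≠ 0 := by
      intro h0
      apply hs'
      rw [ValuationSubring.mem_nonunits_iff_or]
      exact Or.inl h0
    have hsinv : (s : K̄)⁻¹ ∈ A := by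
      by_contra hcon
      apply hs'
      rw [ValuationSubring.mem_nonunits_iff_or]
      exact Or.inr hcon
    have hxeq : x = (b : K̄) * (s : K̄)⁻¹ := by
      have : x * (s : K̄) = (b : K̄) := hx
      rw [← this, mul_assoc, mul_inv_cancel₀ hs0, mul_one]
    rw [hxeq]
    exact A.mul_mem _ _ (fe37_zbar_mem A b) hsinv
  ext x
  constructor
  · intro hxA
    by_cases hx0 : x = 0
    · rw [hx0]
      exact B.zero_mem
    rcases B.mem_or_inv_mem x with h | h
    · exact h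
    · -- `x⁻¹ ∈ B`, write `x⁻¹ = b / s`
      obtain ⟨b, s, hs, hx⟩ := h
      have hx' : x⁻¹ * (s : K̄) = (b : K̄) := hx
      have hs' : (s : K̄) ∉ A.nonunits := fun h => hs ((fe37_mem_Q A s).mpr h)
      have hs0 : (s : K̄) ≠ 0 := by
        intro h0
        apply hs'
        rw [ValuationSubring.mem_nonunits_iff_or]
        exact Or.inl h0
      have hsinv : (s : K̄)⁻¹ ∈ A := by
        by_contra hcon
        apply hs'
        rw [ValuationSubring.mem_nonunits_iff_or]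
        exact Or.inr hcon
      have hb0 : (b : K̄) ≠ 0 := by
        rw [← hx']
        exact mul_ne_zero (inv_ne_zero hx0) hs0
      by_cases hb : b ∈ fe37_Q A
      · exfalso
        -- then `b = x⁻¹ * s` is a nonunit of `A`, but `b⁻¹ = x * s⁻¹ ∈ A`
        have hbn : (b : K̄) ∈ A.nonunits := (fe37_mem_Q A b).mp hb
        rw [ValuationSubring.mem_nonunits_iff_or] at hbn
        rcases hbn with hb00 | hbinv
        · exact hb0 hb00
        · apply hbinv
          have : (b : K̄)⁻¹ = x * (s : K̄)⁻¹ := by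
            rw [← hx', mul_inv, inv_inv]
          rw [this]
          exact A.mul_mem _ _ hxA hsinv
      · -- `b ∉ Q`: then `x = s / b ∈ B`
        refine ⟨s, b, hb, ?_⟩
        show x * (b : K̄) = (s : K̄)
        rw [← hx', ← mul_assoc, mul_inv_cancel₀ hx0, one_mul]
  · exact hBA x

/-- **A Frobenius element exists at every valuation subring of `ℚ̄` over `ℓ`.** -/
theorem fe37_exists_isFrobeniusAt (ℓ : ℕ) (hℓ : ℓ.Prime) (A : ValuationSubring K̄)
    (hA : A.LiesOverPrime ℓ) : ∃ σ : Γ, A.IsFrobeniusAt σ ℓ := by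
  obtain ⟨σ, -, hσ⟩ := fe37_exists_frob ℓ hℓ (fe37_Q A) (fe37_Q_under A ℓ hℓ hA)
  refine ⟨σ, ?_⟩
  rw [fe37_eq_loc A ℓ hℓ hA]
  refine isFrobeniusAt_locValuationSubring zbar_inj zbar_closed
    (zbar_alg ℓ hℓ (fe37_Q A) (fe37_natCast_mem_Q A ℓ hA)) ℓ hℓ.ne_zero σ ?_
  intro b
  refine ⟨σ • b - b ^ ℓ, hσ b, ?_⟩
  show σ (b : K̄) = (b : K̄) ^ ℓ + ((σ • b - b ^ ℓ : ZBar) : K̄)
  have h1 : ((σ • b - b ^ ℓ : ZBar) : K̄) = σ (b : K̄) - (b : K̄) ^ ℓ := by
    push_cast
    rfl
  rw [h1]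
  ring

end Fermat.Agent.S37x
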