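/-
S37 prep, block [B2] CLOSED (helper79, prefix `hic_`).

`hic_heckeInputsAlong N ℓ : HeckeInputsAlong Q̄ N ℓ`, UNCONDITIONAL: plugs helper25's norm formula
`nfa_normFormulaAlong` (S37x/NormFormula.lean) into helper13's assembly
`hia_heckeInputsAlong_of_normFormula` (S37x/HeckeInputsAsm.lean); the degree-one hypotheses come
from `hia_residue_surjective`.
-/
import Mathlib
import Fermat.Agent.S37x.HeckeInputsAsm
import Fermat.Agent.S37x.NormFormula

set_option autoImplicit false
set_option linter.style.haveILetI false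

namespace Fermat.Agent.S37x

open AlgebraicCurve ModularCurve

/-- a place whose residue field is `K` has degree one. -/
theorem hic_deg_eq_one_of_surjective {K F : Type*} [Field K] [Field F] [Algebra K F]
    (v : Place K F) (h : Function.Surjective (algebraMap K v.ResidueField)) : v.deg = 1 := by
  show Module.finrank K v.ResidueField = 1
  refine (finrank_eq_one_iff_of_nonzero' (K := K) (V := v.ResidueField) 1 one_ne_zero).mpr ?_
  intro x
  obtain ⟨c, hc⟩ := h x
  exact ⟨c, by rw [← hc, Algebra.smul_def, mul_one]⟩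

/-- every place of `F_M · Q̄` has degree one. -/
theorem hic_deg_eq_one (M : ℕ) [NeZero M]
    (v : Place (AlgebraicClosure ℚ)
      (laurentBaseChange (AlgebraicClosure ℚ) (modularFunctionFieldFull M))) : v.deg = 1 :=
  hic_deg_eq_one_of_surjective v (hia_residue_surjective M v)

variable (N ℓ : ℕ) [NeZero N] [NeZero ℓ]

/-- the norm formula along `α : F_N → F_{Nℓ}`. -/
theorem hic_normFormulaAlong_alpha :
    NormFormulaAlong (AlgebraicClosure ℚ) (heckeAlphaBar (AlgebraicClosure ℚ) N ℓ)
      (bt37_finiteAlong_alpha N ℓ) :=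
  nfa_normFormulaAlong (heckeAlphaBar (AlgebraicClosure ℚ) N ℓ) (bt37_finiteAlong_alpha N ℓ)
    (hic_deg_eq_one N) (hic_deg_eq_one (N * ℓ))

/-- **[B2] closed**: `HeckeInputsAlong Q̄ N ℓ`, unconditionally. -/
theorem hic_heckeInputsAlong : HeckeInputsAlong (AlgebraicClosure ℚ) N ℓ :=
  hia_heckeInputsAlong_of_normFormula N ℓ (hic_normFormulaAlong_alpha N ℓ)

end Fermat.Agent.S37x
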