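/-
S37 prep, block [B3] (helper54): **value of a norm / characteristic polynomial at a prime**, abstract
core (Mathlib only).  All names carry the prefix `nvc_`.

Setting: `A` a domain, `B` a Dedekind domain which is a finite free `A`-algebra, `p` a nonzero maximal
ideal of `A` such that every prime `Q` of `B` over `p` has residue field `A ⧸ p`; `b : B` and `a Q : A`
with `b ≡ a Q (mod Q)`.  Then

* `nvc_charpoly_map_primesOver` : `charpoly_A(b) mod p = ∏_Q (X - a Q) ^ e(Q|p)`;
* `nvc_norm_primesOver`        : `N_{B/A}(b) ≡ ∏_Q (a Q) ^ e(Q|p)  (mod p)`;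

(`Finset` forms `nvc_charpoly_map_finset`, `nvc_norm_finset` over `IsDedekindDomain.primesOverFinset p B`).

Route: reduce modulo `p` (`nvc_charpoly_map_quotient`, via `LinearMap.charpoly_baseChange`), split
`B ⧸ pB` by the Chinese remainder theorem (`nvc_charpoly_prod`), on each block `b - a Q` is nilpotent
(`nvc_charpoly_of_nilpotent`), and `dim (B ⧸ Q ^ e) = e` by a chain argument (`nvc_le_finrank_of_chain`)
plus `∑ e f = n` (`Ideal.sum_ramification_inertia_eq_finrank`).
-/
import Mathlib

set_option autoImplicit false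

namespace Fermat.Agent.S37x

open Polynomial Module TensorProduct

section PartI

variable (k : Type*) {R : Type*} [Field k] [CommRing R] [Algebra k R] [Module.Finite k R]

/-- multiplication by (the class of) `c` on `R ⧸ I`, as a `k`-linear endomorphism. -/
noncomputable def nvc_mulQ (I : Ideal R) (c : R) : Module.End k (R ⧸ I) :=
  Algebra.lmul k (R ⧸ I) (Ideal.Quotient.mk I c)

omit [Module.Finite k R] in
theorem nvc_mulQ_apply (I : Ideal R) (c : R) (x : R ⧸ I) :
    nvc_mulQ k I c x = Ideal.Quotient.mk I c * x := rfl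

/-- a `k`-linear equivalence intertwining the multiplications preserves the characteristic
polynomial. -/
theorem nvc_charpoly_congr {I J : Ideal R} (e : (R ⧸ I) ≃ₗ[k] (R ⧸ J)) (c : R)
    (h : ∀ x, e (nvc_mulQ k I c x) = nvc_mulQ k J c (e x)) :
    (nvc_mulQ k I c).charpoly = (nvc_mulQ k J c).charpoly := by
  have h1 : e.conj (nvc_mulQ k I c) = nvc_mulQ k J c := by
    apply LinearMap.ext
    intro x
    obtain ⟨y, rfl⟩ := e.surjective x
    rw [LinearEquiv.conj_apply_apply, LinearEquiv.symm_apply_apply, h]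
  rw [← h1, LinearEquiv.charpoly_conj]

theorem nvc_charpoly_of_eq {I J : Ideal R} (hIJ : I = J) (c : R) :
    (nvc_mulQ k I c).charpoly = (nvc_mulQ k J c).charpoly := by
  subst hIJ; rfl

/-- the CRT isomorphism as a `k`-linear equivalence. -/
noncomputable def nvc_crt {I J : Ideal R} (hIJ : IsCoprime I J) :
    (R ⧸ I * J) ≃ₗ[k] ((R ⧸ I) × (R ⧸ J)) :=
  { Ideal.quotientMulEquivQuotientProd I J hIJ with
    map_smul' := by
      intro a x
      obtain ⟨x, rfl⟩ := Ideal.Quotient.mk_surjective x
      have h1 : a • (Ideal.Quotient.mk (I * J) x) = Ideal.Quotient.mk (I * J) (a • x) := rfl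
      simp only [RingHom.id_apply]
      ext
      · show ((Ideal.quotientMulEquivQuotientProd I J hIJ) (a • (Ideal.Quotient.mk (I * J)) x)).1
          = a • ((Ideal.quotientMulEquivQuotientProd I J hIJ) ((Ideal.Quotient.mk (I * J)) x)).1
        rw [h1, Ideal.quotientMulEquivQuotientProd_fst, Ideal.quotientMulEquivQuotientProd_fst,
          Ideal.Quotient.factor_mk, Ideal.Quotient.factor_mk]
        rfl
      · show ((Ideal.quotientMulEquivQuotientProd I J hIJ) (a • (Ideal.Quotient.mk (I * J)) x)).2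
          = a • ((Ideal.quotientMulEquivQuotientProd I J hIJ) ((Ideal.Quotient.mk (I * J)) x)).2
        rw [h1, Ideal.quotientMulEquivQuotientProd_snd, Ideal.quotientMulEquivQuotientProd_snd,
          Ideal.Quotient.factor_mk, Ideal.Quotient.factor_mk]
        rfl }

omit [Module.Finite k R] in
theorem nvc_crt_mk {I J : Ideal R} (hIJ : IsCoprime I J) (x : R) :
    nvc_crt k hIJ (Ideal.Quotient.mk (I * J) x) = (Ideal.Quotient.mk I x, Ideal.Quotient.mk J x) := by
  show (Ideal.quotientMulEquivQuotientProd I J hIJ) (Ideal.Quotient.mk (I * J) x) = _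
  ext
  · rw [Ideal.quotientMulEquivQuotientProd_fst, Ideal.Quotient.factor_mk]
  · rw [Ideal.quotientMulEquivQuotientProd_snd, Ideal.Quotient.factor_mk]

/-- Lemma A: CRT for two coprime ideals. -/
theorem nvc_charpoly_mul {I J : Ideal R} (hIJ : IsCoprime I J) (c : R) :
    (nvc_mulQ k (I * J) c).charpoly
      = (nvc_mulQ k I c).charpoly * (nvc_mulQ k J c).charpoly := by
  have h1 : (nvc_crt k hIJ).conj (nvc_mulQ k (I * J) c)
      = (nvc_mulQ k I c).prodMap (nvc_mulQ k J c) := by
    apply LinearMap.ext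
    intro x
    obtain ⟨y, rfl⟩ := (nvc_crt k hIJ).surjective x
    obtain ⟨y, rfl⟩ := Ideal.Quotient.mk_surjective y
    rw [LinearEquiv.conj_apply_apply, LinearEquiv.symm_apply_apply, nvc_mulQ_apply, ← map_mul,
      nvc_crt_mk, nvc_crt_mk, LinearMap.prodMap_apply, nvc_mulQ_apply, nvc_mulQ_apply, map_mul,
      map_mul]
  rw [← LinearMap.charpoly_prodMap, ← h1, LinearEquiv.charpoly_conj]

/-- Lemma B: if `c - a` is nilpotent modulo `I`, the characteristic polynomial of `c` on `R ⧸ I`
is `(X - a) ^ dim`. -/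
theorem nvc_charpoly_of_nilpotent (I : Ideal R) (c : R) (a : k) (m : ℕ)
    (h : (c - algebraMap k R a) ^ m ∈ I) :
    (nvc_mulQ k I c).charpoly = (X - C a) ^ finrank k (R ⧸ I) := by
  have hsub : nvc_mulQ k I c - a • (1 : Module.End k (R ⧸ I)) = nvc_mulQ k I (c - algebraMap k R a) := by
    apply LinearMap.ext
    intro x
    rw [LinearMap.sub_apply, LinearMap.smul_apply, Module.End.one_apply, nvc_mulQ_apply,
      nvc_mulQ_apply, map_sub, sub_mul, Algebra.smul_def]
    rfl
  have hnil : IsNilpotent (nvc_mulQ k I (c - algebraMap k R a)) := by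
    refine ⟨m, ?_⟩
    apply LinearMap.ext
    intro x
    have hpow : ∀ n : ℕ, ∀ y : R ⧸ I, (nvc_mulQ k I (c - algebraMap k R a) ^ n) y
        = Ideal.Quotient.mk I ((c - algebraMap k R a) ^ n) * y := by
      intro n
      induction n with
      | zero => intro y; simp
      | succ n ih =>
        intro y
        rw [pow_succ', Module.End.mul_apply, ih, nvc_mulQ_apply, ← mul_assoc, ← map_mul, ← pow_succ']
    rw [hpow, Ideal.Quotient.eq_zero_iff_mem.mpr h, zero_mul, LinearMap.zero_apply]
  have h1 := LinearMap.charpoly_sub_smul (nvc_mulQ k I c) a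
  rw [hsub, hnil.charpoly_eq_X_pow_finrank] at h1
  have h2 : (nvc_mulQ k I c).charpoly
      = ((nvc_mulQ k I c).charpoly.comp (X + C a)).comp (X - C a) := by
    rw [Polynomial.comp_assoc]
    simp
  rw [h2, ← h1]
  simp

theorem nvc_charpoly_top (c : R) : (nvc_mulQ k (⊤ : Ideal R) c).charpoly = 1 := by
  have hsub : Subsingleton (R ⧸ (⊤ : Ideal R)) := Ideal.Quotient.subsingleton_iff.mpr rfl
  have h0 : finrank k (R ⧸ (⊤ : Ideal R)) = 0 := finrank_zero_of_subsingleton
  have hm := (nvc_mulQ k (⊤ : Ideal R) c).charpoly_monic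
  have hd := (nvc_mulQ k (⊤ : Ideal R) c).charpoly_natDegree
  rw [h0] at hd
  exact hm.natDegree_eq_zero.mp hd

/-- Lemma C: CRT for a finite family of pairwise coprime ideals. -/
theorem nvc_charpoly_prod {ι : Type*} (s : Finset ι) (I : ι → Ideal R)
    (hI : (s : Set ι).Pairwise (fun i j => IsCoprime (I i) (I j))) (c : R) :
    (nvc_mulQ k (∏ i ∈ s, I i) c).charpoly = ∏ i ∈ s, (nvc_mulQ k (I i) c).charpoly := by
  classical
  induction s using Finset.induction_on with
  | empty =>
    rw [Finset.prod_empty, Finset.prod_empty, Ideal.one_eq_top]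
    exact nvc_charpoly_top k c
  | insert i t hit ih =>
    rw [Finset.prod_insert hit, Finset.prod_insert hit]
    have hcop : IsCoprime (I i) (∏ j ∈ t, I j) := by
      apply IsCoprime.prod_right
      intro j hj
      exact hI (by simp) (by simp [hj]) (fun h => hit (h ▸ hj))
    rw [nvc_charpoly_mul k hcop, ih]
    intro a ha b hb hab
    exact hI (by simp [Finset.mem_coe.mp ha]) (by simp [Finset.mem_coe.mp hb]) hab

theorem nvc_charpoly_bot (c : R) :
    (nvc_mulQ k (⊥ : Ideal R) c).charpoly = (Algebra.lmul k R c).charpoly := by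
  have h1 : (AlgEquiv.quotientBot k R).toLinearEquiv.conj (nvc_mulQ k (⊥ : Ideal R) c)
      = Algebra.lmul k R c := by
    apply LinearMap.ext
    intro x
    rw [LinearEquiv.conj_apply_apply, nvc_mulQ_apply]
    simp
  rw [← h1, LinearEquiv.charpoly_conj]

/-- Part I, main statement. -/
theorem nvc_charpoly_eq_prod {ι : Type*} (s : Finset ι) (I : ι → Ideal R)
    (hI : (s : Set ι).Pairwise (fun i j => IsCoprime (I i) (I j)))
    (hbot : ∏ i ∈ s, I i = ⊥) (c : R) (a : ι → k) (m : ι → ℕ)
    (h : ∀ i ∈ s, (c - algebraMap k R (a i)) ^ (m i) ∈ I i) :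
    (Algebra.lmul k R c).charpoly = ∏ i ∈ s, (X - C (a i)) ^ finrank k (R ⧸ I i) := by
  rw [← nvc_charpoly_bot, ← nvc_charpoly_of_eq k hbot, nvc_charpoly_prod k s I hI]
  exact Finset.prod_congr rfl fun i hi => nvc_charpoly_of_nilpotent k (I i) c (a i) (m i) (h i hi)

/-- dimension count: `∑ dim (R ⧸ I i) = dim R`. -/
theorem nvc_sum_finrank {ι : Type*} (s : Finset ι) (I : ι → Ideal R)
    (hI : (s : Set ι).Pairwise (fun i j => IsCoprime (I i) (I j)))
    (hbot : ∏ i ∈ s, I i = ⊥) :
    ∑ i ∈ s, finrank k (R ⧸ I i) = finrank k R := by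
  have h := nvc_charpoly_prod k s I hI (0 : R)
  rw [nvc_charpoly_of_eq k hbot, nvc_charpoly_bot] at h
  have h2 := congrArg Polynomial.natDegree h
  rw [LinearMap.charpoly_natDegree, Polynomial.natDegree_prod_of_monic _ _
    (fun i _ => LinearMap.charpoly_monic _)] at h2
  rw [h2]
  exact Finset.sum_congr rfl fun i _ => (LinearMap.charpoly_natDegree _).symm

/-- a strictly decreasing chain of ideals `J 0 > J 1 > ... > J e` forces `dim (R ⧸ J e) ≥ e`. -/
theorem nvc_le_finrank_of_chain (J : ℕ → Ideal R) (e : ℕ) (hJ : ∀ j < e, J (j + 1) < J j) :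
    e ≤ finrank k (R ⧸ J e) := by
  have key : ∀ j ≤ e, finrank k ((J j).restrictScalars k) + j ≤ finrank k ((J 0).restrictScalars k) := by
    intro j
    induction j with
    | zero => intro _; simp
    | succ j ih =>
      intro hj
      have h1 := ih (by omega)
      have h2 : (J (j + 1)).restrictScalars k < (J j).restrictScalars k := by
        have := hJ j (by omega)
        exact this
      have h3 := Submodule.finrank_lt_finrank_of_lt h2
      omega
  have h1 := key e le_rfl
  have h2 := Submodule.finrank_quotient_add_finrank ((J e).restrictScalars k)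
  have h3 : finrank k (R ⧸ (J e).restrictScalars k) = finrank k (R ⧸ J e) := rfl
  have h4 := Submodule.finrank_le ((J 0).restrictScalars k)
  omega

end PartI

section PartII

variable {A B : Type*} [CommRing A] [CommRing B] [Algebra A B] [Module.Finite A B] [Module.Free A B]
  (p : Ideal A) [p.IsMaximal]

attribute [local instance] Ideal.Quotient.field

instance nvc_finite_quot : Module.Finite (A ⧸ p) (B ⧸ p.map (algebraMap A B)) :=
  Module.Finite.of_restrictScalars_finite A _ _

/-- reduction of the characteristic polynomial modulo `p`. -/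
theorem nvc_charpoly_map_quotient (b : B) :
    ((Algebra.lmul A B b).charpoly).map (Ideal.Quotient.mk p)
      = (Algebra.lmul (A ⧸ p) (B ⧸ p.map (algebraMap A B))
          (Ideal.Quotient.mk (p.map (algebraMap A B)) b)).charpoly := by
  have h0 : Ideal.Quotient.mk p = algebraMap A (A ⧸ p) := rfl
  rw [h0, ← LinearMap.charpoly_baseChange]
  let e := (Algebra.TensorProduct.quotIdealMapEquivQuotTensor B p).symm
  have h1 : e.toLinearEquiv.conj ((Algebra.lmul A B b).baseChange (A ⧸ p))
      = Algebra.lmul (A ⧸ p) (B ⧸ p.map (algebraMap A B))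
          (Ideal.Quotient.mk (p.map (algebraMap A B)) b) := by
    apply LinearMap.ext
    intro x
    obtain ⟨y, rfl⟩ := e.toLinearEquiv.surjective x
    rw [LinearEquiv.conj_apply_apply, Algebra.baseChange_lmul, LinearEquiv.symm_apply_apply]
    show e ((1 ⊗ₜ[A] b : (A ⧸ p) ⊗[A] B) * y) = Ideal.Quotient.mk (p.map (algebraMap A B)) b * e y
    rw [map_mul]
    congr 1
    show (Algebra.TensorProduct.quotIdealMapEquivQuotTensor B p).symm (1 ⊗ₜ[A] b) = _
    rw [AlgEquiv.symm_apply_eq, Algebra.TensorProduct.quotIdealMapEquivQuotTensor_mk]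
  rw [← h1, LinearEquiv.charpoly_conj]

end PartII

section PartIII

variable {A B : Type*} [CommRing A] [IsDomain A] [CommRing B] [IsDedekindDomain B] [Algebra A B]
  [Module.Finite A B] [Module.Free A B] [FaithfulSMul A B] (p : Ideal A) [p.IsMaximal]

attribute [local instance] Ideal.Quotient.field

omit [Module.Finite A B] [IsDomain A] [IsDedekindDomain B] [Module.Free A B] [p.IsMaximal] in
theorem nvc_map_ne_bot (hp0 : p ≠ ⊥) : p.map (algebraMap A B) ≠ ⊥ :=
  Ideal.map_ne_bot_of_ne_bot hp0

omit [Module.Finite A B] in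
/-- factorisation of `pB`. -/
theorem nvc_map_eq_prod (hp0 : p ≠ ⊥) :
    p.map (algebraMap A B)
      = ∏ Q ∈ IsDedekindDomain.primesOverFinset p B, Q ^ (Q.ramificationIdx A) := by
  classical
  have hpB := nvc_map_ne_bot (B := B) p hp0
  have h1 : (UniqueFactorizationMonoid.factors (p.map (algebraMap A B))).prod
      = p.map (algebraMap A B) :=
    associated_iff_eq.mp (UniqueFactorizationMonoid.factors_prod hpB)
  conv_lhs => rw [← h1, Finset.prod_multiset_count]
  refine (Finset.prod_congr rfl fun Q hQ => ?_)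
  have hQ' := (IsDedekindDomain.mem_primesOverFinset_iff hp0 B).mp hQ
  have : Q.LiesOver p := hQ'.2
  rw [Ideal.IsDedekindDomain.ramificationIdx_eq_factors_count p Q hpB]

end PartIII

section PartIV

variable {A B : Type*} [CommRing A] [IsDomain A] [CommRing B] [IsDedekindDomain B] [Algebra A B]
  [Module.Finite A B] [Module.Free A B] [FaithfulSMul A B] (p : Ideal A) [p.IsMaximal]

attribute [local instance] Ideal.Quotient.field

/-- the ideals of `B ⧸ pB` used in the CRT decomposition. -/
noncomputable def nvc_I (Q : Ideal B) : Ideal (B ⧸ p.map (algebraMap A B)) :=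
  (Q ^ (Q.ramificationIdx A)).map (Ideal.Quotient.mk (p.map (algebraMap A B)))

omit [Module.Finite A B] in
theorem nvc_prod_I (hp0 : p ≠ ⊥) :
    ∏ Q ∈ IsDedekindDomain.primesOverFinset p B, nvc_I p Q = ⊥ := by
  unfold nvc_I
  have h := map_prod (Ideal.mapHom (Ideal.Quotient.mk (p.map (algebraMap A B))))
    (fun Q : Ideal B => Q ^ Q.ramificationIdx A) (IsDedekindDomain.primesOverFinset p B)
  simp only [Ideal.mapHom_apply] at h
  rw [← h, ← nvc_map_eq_prod p hp0, Ideal.map_quotient_self]

omit [Module.Finite A B] in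
theorem nvc_isMaximal_of_mem (hp0 : p ≠ ⊥) {Q : Ideal B}
    (hQ : Q ∈ IsDedekindDomain.primesOverFinset p B) : Q.IsMaximal := by
  have hQ' := (IsDedekindDomain.mem_primesOverFinset_iff hp0 B).mp hQ
  have : Q.IsPrime := hQ'.1
  have : Q.LiesOver p := hQ'.2
  exact hQ'.1.isMaximal (Ideal.ne_bot_of_liesOver_of_ne_bot hp0 Q)

omit [Module.Finite A B] in
theorem nvc_coprime_I (hp0 : p ≠ ⊥) :
    ((IsDedekindDomain.primesOverFinset p B : Finset (Ideal B)) : Set (Ideal B)).Pairwise
      (fun Q Q' => IsCoprime (nvc_I p Q) (nvc_I p Q')) := by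
  intro Q hQ Q' hQ' hne
  have hm := nvc_isMaximal_of_mem p hp0 (Finset.mem_coe.mp hQ)
  have hm' := nvc_isMaximal_of_mem p hp0 (Finset.mem_coe.mp hQ')
  have h1 : IsCoprime Q Q' := Ideal.isCoprime_of_isMaximal hne
  have h2 : IsCoprime (Q ^ (Q.ramificationIdx A)) (Q' ^ (Q'.ramificationIdx A)) := h1.pow
  rw [Ideal.isCoprime_iff_sup_eq] at h2 ⊢
  unfold nvc_I
  rw [← Ideal.map_sup, h2, Ideal.map_top]

omit [Module.Finite A B] in
theorem nvc_map_le_pow (hp0 : p ≠ ⊥) {Q : Ideal B}
    (hQ : Q ∈ IsDedekindDomain.primesOverFinset p B) {j : ℕ} (hj : j ≤ Q.ramificationIdx A) :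
    p.map (algebraMap A B) ≤ Q ^ j := by
  refine le_trans ?_ (Ideal.pow_le_pow_right hj)
  rw [nvc_map_eq_prod p hp0]
  exact Ideal.le_of_dvd (Finset.dvd_prod_of_mem _ hQ)

omit [Module.Finite A B] in
theorem nvc_chain (hp0 : p ≠ ⊥) {Q : Ideal B}
    (hQ : Q ∈ IsDedekindDomain.primesOverFinset p B) {j : ℕ} (hj : j < Q.ramificationIdx A) :
    (Q ^ (j + 1)).map (Ideal.Quotient.mk (p.map (algebraMap A B)))
      < (Q ^ j).map (Ideal.Quotient.mk (p.map (algebraMap A B))) := by
  have hQ' := (IsDedekindDomain.mem_primesOverFinset_iff hp0 B).mp hQ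
  have : Q.IsPrime := hQ'.1
  have : Q.LiesOver p := hQ'.2
  have hQ0 : Q ≠ ⊥ := Ideal.ne_bot_of_liesOver_of_ne_bot hp0 Q
  refine lt_of_le_of_ne (Ideal.map_mono (Ideal.pow_le_pow_right (Nat.le_succ j))) ?_
  intro heq
  have h1 := congrArg (Ideal.comap (Ideal.Quotient.mk (p.map (algebraMap A B)))) heq
  rw [Ideal.comap_map_of_surjective _ Ideal.Quotient.mk_surjective,
    Ideal.comap_map_of_surjective _ Ideal.Quotient.mk_surjective, ← RingHom.ker_eq_comap_bot,
    Ideal.mk_ker, sup_of_le_left (nvc_map_le_pow p hp0 hQ (by omega)),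
    sup_of_le_left (nvc_map_le_pow p hp0 hQ (le_of_lt hj))] at h1
  exact (Ideal.pow_succ_lt_pow hQ0 j).ne h1

end PartIV

section PartV

variable {A B : Type*} [CommRing A] [IsDomain A] [CommRing B] [IsDedekindDomain B] [Algebra A B]
  [Module.Finite A B] [Module.Free A B] [FaithfulSMul A B] (p : Ideal A) [p.IsMaximal]

attribute [local instance] Ideal.Quotient.field

omit [IsDedekindDomain B] [FaithfulSMul A B] in
/-- `dim_{A/p} (B/pB) = rank_A B`. -/
theorem nvc_finrank_quot :
    finrank (A ⧸ p) (B ⧸ p.map (algebraMap A B)) = finrank A B := by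
  have h := congrArg Polynomial.natDegree (nvc_charpoly_map_quotient p (1 : B))
  rw [LinearMap.charpoly_natDegree, (LinearMap.charpoly_monic _).natDegree_map,
    LinearMap.charpoly_natDegree] at h
  exact h.symm

omit [Module.Finite A B] in
/-- residue degree one. -/
theorem nvc_inertiaDeg_eq_one (hp0 : p ≠ ⊥) {Q : Ideal B}
    (hQ : Q ∈ IsDedekindDomain.primesOverFinset p B)
    (hres : Function.Surjective (algebraMap A (B ⧸ Q))) : Q.inertiaDeg A = 1 := by
  have hQ' := (IsDedekindDomain.mem_primesOverFinset_iff hp0 B).mp hQ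
  have : Q.IsPrime := hQ'.1
  have : Q.LiesOver p := hQ'.2
  have : Q.IsMaximal := nvc_isMaximal_of_mem p hp0 hQ
  rw [Ideal.inertiaDeg_eq_of_isMaximal p Q]
  rw [finrank_eq_one_iff_of_nonzero' (1 : B ⧸ Q) one_ne_zero]
  intro w
  obtain ⟨c, hc⟩ := hres w
  refine ⟨Ideal.Quotient.mk p c, ?_⟩
  rw [Algebra.smul_def, mul_one, ← hc]
  rfl

/-- `∑ e(Q|p) = rank_A B` when all residue degrees are one. -/
theorem nvc_sum_ramificationIdx (hp0 : p ≠ ⊥)
    (hres : ∀ Q ∈ IsDedekindDomain.primesOverFinset p B,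
      Function.Surjective (algebraMap A (B ⧸ Q))) :
    ∑ Q ∈ IsDedekindDomain.primesOverFinset p B, Q.ramificationIdx A = finrank A B := by
  classical
  let _ : Fintype (p.primesOver B) :=
    Fintype.ofFinset (IsDedekindDomain.primesOverFinset p B)
      (fun Q => IsDedekindDomain.mem_primesOverFinset_iff hp0 B)
  rw [← Ideal.sum_ramification_inertia_eq_finrank p B]
  rw [Finset.sum_subtype (IsDedekindDomain.primesOverFinset p B)
    (fun Q => IsDedekindDomain.mem_primesOverFinset_iff hp0 B)]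
  refine Finset.sum_congr rfl fun Q _ => ?_
  rw [nvc_inertiaDeg_eq_one p hp0
    ((IsDedekindDomain.mem_primesOverFinset_iff hp0 B).mpr Q.2) (hres _
    ((IsDedekindDomain.mem_primesOverFinset_iff hp0 B).mpr Q.2)), mul_one]

end PartV

section PartVI

variable {A B : Type*} [CommRing A] [IsDomain A] [CommRing B] [IsDedekindDomain B] [Algebra A B]
  [Module.Finite A B] [Module.Free A B] [FaithfulSMul A B] (p : Ideal A) [p.IsMaximal]

attribute [local instance] Ideal.Quotient.field

/-- `e(Q|p) ≤ dim (B/pB)/I_Q`. -/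
theorem nvc_le_finrank (hp0 : p ≠ ⊥) {Q : Ideal B}
    (hQ : Q ∈ IsDedekindDomain.primesOverFinset p B) :
    Q.ramificationIdx A ≤ finrank (A ⧸ p) ((B ⧸ p.map (algebraMap A B)) ⧸ nvc_I p Q) := by
  have h := nvc_le_finrank_of_chain (A ⧸ p)
    (fun j => (Q ^ j).map (Ideal.Quotient.mk (p.map (algebraMap A B)))) (Q.ramificationIdx A)
    (fun j hj => nvc_chain p hp0 hQ hj)
  exact h

/-- `dim (B/pB)/I_Q = e(Q|p)` when all residue degrees are one. -/
theorem nvc_finrank_eq (hp0 : p ≠ ⊥)
    (hres : ∀ Q ∈ IsDedekindDomain.primesOverFinset p B,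
      Function.Surjective (algebraMap A (B ⧸ Q))) {Q : Ideal B}
    (hQ : Q ∈ IsDedekindDomain.primesOverFinset p B) :
    finrank (A ⧸ p) ((B ⧸ p.map (algebraMap A B)) ⧸ nvc_I p Q) = Q.ramificationIdx A := by
  have h1 := nvc_sum_finrank (A ⧸ p) (IsDedekindDomain.primesOverFinset p B) (nvc_I p)
    (nvc_coprime_I p hp0) (nvc_prod_I p hp0)
  rw [nvc_finrank_quot, ← nvc_sum_ramificationIdx p hp0 hres] at h1
  have h2 := (Finset.sum_eq_sum_iff_of_le (fun Q hQ => nvc_le_finrank p hp0 hQ)).mp h1.symm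
  exact (h2 Q hQ).symm

/-- **Core statement, `Finset` form.** -/
theorem nvc_charpoly_map_finset (hp0 : p ≠ ⊥)
    (hres : ∀ Q ∈ IsDedekindDomain.primesOverFinset p B,
      Function.Surjective (algebraMap A (B ⧸ Q)))
    (b : B) (a : Ideal B → A)
    (ha : ∀ Q ∈ IsDedekindDomain.primesOverFinset p B, b - algebraMap A B (a Q) ∈ Q) :
    ((Algebra.lmul A B b).charpoly).map (Ideal.Quotient.mk p)
      = ∏ Q ∈ IsDedekindDomain.primesOverFinset p B,
          (X - C (Ideal.Quotient.mk p (a Q))) ^ (Q.ramificationIdx A) := by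
  rw [nvc_charpoly_map_quotient,
    nvc_charpoly_eq_prod (A ⧸ p) (IsDedekindDomain.primesOverFinset p B) (nvc_I p)
      (nvc_coprime_I p hp0) (nvc_prod_I p hp0) _ (fun Q => Ideal.Quotient.mk p (a Q))
      (fun Q => Q.ramificationIdx A)]
  · exact Finset.prod_congr rfl fun Q hQ => by rw [nvc_finrank_eq p hp0 hres hQ]
  · intro Q hQ
    have h1 : Ideal.Quotient.mk (p.map (algebraMap A B)) b
        - algebraMap (A ⧸ p) (B ⧸ p.map (algebraMap A B)) (Ideal.Quotient.mk p (a Q))
        = Ideal.Quotient.mk (p.map (algebraMap A B)) (b - algebraMap A B (a Q)) := by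
      rw [map_sub]; rfl
    rw [h1, ← map_pow]
    exact Ideal.mem_map_of_mem _ (Ideal.pow_mem_pow (ha Q hQ) _)

end PartVI

section PartVII

variable {A B : Type*} [CommRing A] [IsDomain A] [CommRing B] [IsDedekindDomain B] [Algebra A B]
  [Module.Finite A B] [Module.Free A B] [FaithfulSMul A B] (p : Ideal A) [p.IsMaximal]

/-- **Core statement, norm, `Finset` form.** -/
theorem nvc_norm_finset (hp0 : p ≠ ⊥)
    (hres : ∀ Q ∈ IsDedekindDomain.primesOverFinset p B,
      Function.Surjective (algebraMap A (B ⧸ Q)))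
    (b : B) (a : Ideal B → A)
    (ha : ∀ Q ∈ IsDedekindDomain.primesOverFinset p B, b - algebraMap A B (a Q) ∈ Q) :
    Algebra.norm A b
      - ∏ Q ∈ IsDedekindDomain.primesOverFinset p B, a Q ^ (Q.ramificationIdx A) ∈ p := by
  have h := nvc_charpoly_map_finset p hp0 hres b a ha
  have h0 := congrArg (fun f => Polynomial.eval 0 f) h
  simp only [Polynomial.eval_map, Polynomial.eval_prod, Polynomial.eval_pow, Polynomial.eval_sub,
    Polynomial.eval_X, Polynomial.eval_C, zero_sub] at h0
  rw [Polynomial.eval₂_at_zero] at h0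
  rw [← Ideal.Quotient.eq_zero_iff_mem, map_sub, sub_eq_zero, Algebra.norm_apply,
    LinearMap.det_eq_sign_charpoly_coeff, map_mul, map_pow, map_neg, map_one,
    h0, map_prod]
  have h1 : ∀ Q ∈ IsDedekindDomain.primesOverFinset p B,
      (-(Ideal.Quotient.mk p) (a Q)) ^ Q.ramificationIdx A
        = (-1) ^ Q.ramificationIdx A * (Ideal.Quotient.mk p) (a Q ^ Q.ramificationIdx A) := by
    intro Q _
    rw [neg_pow, map_pow]
  rw [Finset.prod_congr rfl h1, Finset.prod_mul_distrib, Finset.prod_pow_eq_pow_sum,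
    nvc_sum_ramificationIdx p hp0 hres, ← mul_assoc, ← mul_pow, neg_one_mul, neg_neg, one_pow,
    one_mul]

end PartVII

section PartVIII

variable {A B : Type*} [CommRing A] [IsDomain A] [CommRing B] [IsDedekindDomain B] [Algebra A B]
  [Module.Finite A B] [Module.Free A B] [FaithfulSMul A B] (p : Ideal A) [p.IsMaximal]

/-- **CORE (Mathlib only).** `A` a domain, `B` a Dedekind domain, finite free over `A`, `p` a nonzero
maximal ideal of `A` such that every prime `Q` of `B` over `p` has residue field `A ⧸ p`; `b : B` with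
`b ≡ a Q (mod Q)` for every such `Q`.  Then the characteristic polynomial of multiplication by `b`
reduces modulo `p` to `∏_Q (X - a Q) ^ e(Q|p)`. -/
theorem nvc_charpoly_map_primesOver (hp0 : p ≠ ⊥) [Fintype (p.primesOver B)]
    (hres : ∀ Q : p.primesOver B, Function.Surjective (algebraMap A (B ⧸ Q.1)))
    (b : B) (a : p.primesOver B → A)
    (ha : ∀ Q : p.primesOver B, b - algebraMap A B (a Q) ∈ Q.1) :
    ((Algebra.lmul A B b).charpoly).map (Ideal.Quotient.mk p)
      = ∏ Q : p.primesOver B, (X - C (Ideal.Quotient.mk p (a Q))) ^ (Q.1.ramificationIdx A) := by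
  classical
  have hmem := fun Q : Ideal B => IsDedekindDomain.mem_primesOverFinset_iff hp0 B (P := Q)
  let a' : Ideal B → A := fun Q => if h : Q ∈ p.primesOver B then a ⟨Q, h⟩ else 0
  have h := nvc_charpoly_map_finset p hp0 (fun Q hQ => hres ⟨Q, (hmem Q).mp hQ⟩) b a'
    (fun Q hQ => by
      have hQ' := (hmem Q).mp hQ
      simp only [a', dif_pos hQ']
      exact ha ⟨Q, hQ'⟩)
  rw [h, Finset.prod_subtype (IsDedekindDomain.primesOverFinset p B) hmem]
  refine Finset.prod_congr rfl fun Q _ => ?_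
  simp only [a', dif_pos Q.2]

/-- **CORE, norm form.** -/
theorem nvc_norm_primesOver (hp0 : p ≠ ⊥) [Fintype (p.primesOver B)]
    (hres : ∀ Q : p.primesOver B, Function.Surjective (algebraMap A (B ⧸ Q.1)))
    (b : B) (a : p.primesOver B → A)
    (ha : ∀ Q : p.primesOver B, b - algebraMap A B (a Q) ∈ Q.1) :
    Algebra.norm A b - ∏ Q : p.primesOver B, a Q ^ (Q.1.ramificationIdx A) ∈ p := by
  classical
  have hmem := fun Q : Ideal B => IsDedekindDomain.mem_primesOverFinset_iff hp0 B (P := Q)
  let a' : Ideal B → A := fun Q => if h : Q ∈ p.primesOver B then a ⟨Q, h⟩ else 0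
  have h := nvc_norm_finset p hp0 (fun Q hQ => hres ⟨Q, (hmem Q).mp hQ⟩) b a'
    (fun Q hQ => by
      have hQ' := (hmem Q).mp hQ
      simp only [a', dif_pos hQ']
      exact ha ⟨Q, hQ'⟩)
  have h2 : ∏ Q ∈ IsDedekindDomain.primesOverFinset p B, a' Q ^ (Q.ramificationIdx A)
      = ∏ Q : p.primesOver B, a Q ^ (Q.1.ramificationIdx A) := by
    rw [Finset.prod_subtype (IsDedekindDomain.primesOverFinset p B) hmem]
    refine Finset.prod_congr rfl fun Q _ => ?_
    simp only [a', dif_pos Q.2]
  rw [h2] at h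
  exact h

end PartVIII

end Fermat.Agent.S37x
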