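/-
S37 prep, block [B1], leaf C2 (helper32): the **`ℙ¹` lemma**.  `L` an algebraically closed field with a
valuation subring `A`, residue field `k`; `f ∈ A[X]` with nonzero reduction `f̄ ∈ k[X]`.  Then the roots
of `f̄` (with multiplicities) are exactly the residues of the roots of `f` (in `L`) which lie in `A`; the
other roots `b` of `f` satisfy `b⁻¹ ∈ 𝔪_A` ("reduce to `∞`"), and `deg f̄` is the number of roots in `A`.
Mathlib only.  All names carry the prefix `ctmp`.
-/
import Mathlib

set_option autoImplicit false

namespace Fermat.Agent.S37x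

open Polynomial

section

variable {L k : Type*} [Field L] [Field k] (A : ValuationSubring L) (π : A →+* k)

/-- the residue of an element of `L` if it lies in `A`. -/
noncomputable def ctmpRes (a : L) : Option k := by
  classical
  exact if h : a ∈ A then some (π ⟨a, h⟩) else none

theorem ctmpRes_of_mem {a : L} (h : a ∈ A) : ctmpRes A π a = some (π ⟨a, h⟩) := by
  classical
  rw [ctmpRes, dif_pos h]

theorem ctmpRes_of_not_mem {a : L} (h : a ∉ A) : ctmpRes A π a = none := by
  classical
  rw [ctmpRes, dif_neg h]

/-- the residues of those roots (in `L`) of `f ∈ A[X]` which lie in `A`. -/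
noncomputable def ctmpResRoots (f : A[X]) : Multiset k :=
  (f.map (algebraMap A L)).roots.filterMap (ctmpRes A π)

/-- division of `f ∈ A[X]` by `1 - s X`, `s ∈ A`, inside `A[X]` when it is possible over `L`. -/
theorem ctmp_lifts_of_one_sub_mul {f : A[X]} {s : A} {G : L[X]}
    (h : f.map (algebraMap A L) = (1 - C (s : L) * X) * G) :
    ∃ g : A[X], g.map (algebraMap A L) = G := by
  have hcoeff : ∀ n : ℕ, G.coeff n ∈ A := by
    intro n
    induction n with
    | zero =>
      have h0 := congrArg (fun p => p.coeff 0) h
      simp only [coeff_map] at h0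
      have : ((1 - C (s : L) * X) * G).coeff 0 = G.coeff 0 := by
        rw [mul_coeff_zero]; simp
      rw [this] at h0
      rw [← h0]
      exact (f.coeff 0).2
    | succ n ih =>
      have h1 := congrArg (fun p => p.coeff (n + 1)) h
      simp only [coeff_map] at h1
      have : ((1 - C (s : L) * X) * G).coeff (n + 1) = G.coeff (n + 1) - (s : L) * G.coeff n := by
        rw [sub_mul, one_mul, coeff_sub, mul_assoc, coeff_C_mul, coeff_X_mul]
      rw [this] at h1
      have h2 : G.coeff (n + 1) = (f.coeff (n + 1) : L) + (s : L) * G.coeff n := by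
        rw [← sub_eq_iff_eq_add]; exact h1.symm
      rw [h2]
      exact A.add_mem _ _ (f.coeff (n + 1)).2 (A.mul_mem _ _ s.2 ih)
  have : G ∈ Polynomial.lifts (algebraMap A L) := by
    rw [Polynomial.lifts_iff_coeff_lifts]
    intro n
    exact ⟨⟨G.coeff n, hcoeff n⟩, rfl⟩
  obtain ⟨g, hg⟩ := this
  exact ⟨g, hg⟩

theorem ctmp_map_injective :
    Function.Injective (Polynomial.map (algebraMap A L) : A[X] → L[X]) :=
  Polynomial.map_injective _ (FaithfulSMul.algebraMap_injective A L)

theorem ctmp_natDegree_map (f : A[X]) : (f.map (algebraMap A L)).natDegree = f.natDegree :=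
  natDegree_map_eq_of_injective (FaithfulSMul.algebraMap_injective A L) f

/-- the two assertions of the `ℙ¹` lemma, by induction on the degree. -/
theorem ctmp_main [IsAlgClosed L] (hπk : ∀ a : A, π a = 0 ↔ ¬ IsUnit a) (n : ℕ) :
    ∀ f : A[X], f.natDegree = n →
    f.map (π) ≠ 0 →
    (f.map (π)).roots = ctmpResRoots A π f ∧
      (f.map (π)).natDegree = (ctmpResRoots A π f).card := by
  classical
  induction n with
  | zero =>
    intro f hf _
    obtain ⟨a, rfl⟩ := natDegree_eq_zero.mp hf
    simp [ctmpResRoots]
  | succ n ih =>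
    intro f hf hfb
    have hf0 : f ≠ 0 := by
      rintro rfl; simp at hf
    have hF0 : f.map (algebraMap A L) ≠ 0 := by
      intro h
      exact hf0 (ctmp_map_injective A (by rw [h, Polynomial.map_zero]))
    have hFdeg : (f.map (algebraMap A L)).degree ≠ 0 := by
      rw [degree_eq_natDegree hF0, ctmp_natDegree_map, hf]
      exact_mod_cast Nat.succ_ne_zero n
    obtain ⟨r, hr⟩ := IsAlgClosed.exists_root (f.map (algebraMap A L)) hFdeg
    by_cases hrA : r ∈ A
    · -- a root in `A`: split off `X - a`
      set a : A := ⟨r, hrA⟩ with ha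
      have hroot : f.IsRoot a := by
        have h1 : (f.map (algebraMap A L)).eval (algebraMap A L a) = algebraMap A L (f.eval a) := by
          rw [eval_map, eval₂_hom]
        have h2 : algebraMap A L (f.eval a) = 0 := by rw [← h1]; exact hr
        exact (map_eq_zero_iff _ (FaithfulSMul.algebraMap_injective A L)).mp h2
      set g : A[X] := f /ₘ (X - C a) with hg
      have hfg : (X - C a) * g = f := mul_divByMonic_eq_iff_isRoot.mpr hroot
      have hg0 : g ≠ 0 := by
        rintro h0; rw [h0, mul_zero] at hfg; exact hf0 hfg.symm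
      have hgdeg : g.natDegree = n := by
        have := congrArg natDegree hfg
        rw [natDegree_mul (X_sub_C_ne_zero a) hg0, natDegree_X_sub_C, hf] at this
        omega
      have hfb' : f.map (π) =
          (X - C (π a)) * g.map (π) := by
        rw [← hfg, Polynomial.map_mul, Polynomial.map_sub, map_X, map_C]
      have hgb : g.map (π) ≠ 0 := by
        intro h0; rw [hfb', h0, mul_zero] at hfb; exact hfb rfl
      obtain ⟨ih1, ih2⟩ := ih g hgdeg hgb
      have hFL : f.map (algebraMap A L) = (X - C r) * g.map (algebraMap A L) := by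
        rw [← hfg, Polynomial.map_mul, Polynomial.map_sub, map_X, map_C]; rfl
      have hres : ctmpResRoots A π f = π a ::ₘ ctmpResRoots A π g := by
        rw [ctmpResRoots, hFL, roots_mul (by rw [← hFL]; exact hF0), roots_X_sub_C,
          Multiset.singleton_add, Multiset.filterMap_cons_some _ _ _ (ctmpRes_of_mem A π hrA)]
        rfl
      constructor
      · rw [hfb', roots_mul (by rw [← hfb']; exact hfb), roots_X_sub_C, Multiset.singleton_add,
          ih1, hres]
      · rw [hfb', natDegree_mul (X_sub_C_ne_zero _) hgb, natDegree_X_sub_C, ih2, hres,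
          Multiset.card_cons, add_comm]
    · -- a root outside `A`: split off `1 - r⁻¹ X`, which reduces to `1`
      have hr0 : r ≠ 0 := fun h => hrA (h ▸ A.zero_mem)
      have hsA : r⁻¹ ∈ A := (A.mem_or_inv_mem r).resolve_left hrA
      set s : A := ⟨r⁻¹, hsA⟩ with hs
      have hsnon : ¬ IsUnit s := by
        intro hu
        obtain ⟨t, ht⟩ := hu.exists_right_inv
        have h1 : (r⁻¹ : L) * (t : L) = 1 := by
          have := congrArg Subtype.val ht
          simpa [hs] using this
        have h2 : (t : L) = r := by
          field_simp at h1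
          exact h1.symm ▸ rfl
        exact hrA (h2 ▸ t.2)
      have hsres : π s = 0 := (hπk s).mpr hsnon
      set G1 : L[X] := f.map (algebraMap A L) /ₘ (X - C r) with hG1
      have hFG1 : (X - C r) * G1 = f.map (algebraMap A L) := mul_divByMonic_eq_iff_isRoot.mpr hr
      have hXr : (X - C r : L[X]) = C (-r) * (1 - C ((s : A) : L) * X) := by
        have : ((s : A) : L) = r⁻¹ := rfl
        rw [this, mul_sub, mul_one, ← mul_assoc, ← C_mul, neg_mul, mul_inv_cancel₀ hr0, C_neg, C_neg,
          C_1]
        ring
      have hF' : f.map (algebraMap A L) = (1 - C ((s : A) : L) * X) * (C (-r) * G1) := by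
        rw [← hFG1, hXr]; ring
      obtain ⟨g, hgmap⟩ := ctmp_lifts_of_one_sub_mul A hF'
      have hfg : f = (1 - C s * X) * g := by
        apply ctmp_map_injective A
        rw [Polynomial.map_mul, Polynomial.map_sub, Polynomial.map_one, Polynomial.map_mul, map_C,
          map_X, hgmap]
        exact hF'
      have hG10 : G1 ≠ 0 := by
        rintro h0; rw [h0, mul_zero] at hFG1; exact hF0 hFG1.symm
      have hg0 : g ≠ 0 := by
        rintro h0; rw [h0, mul_zero] at hfg; exact hf0 hfg
      have hgdeg : g.natDegree = n := by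
        have h1 : (f.map (algebraMap A L)).natDegree = 1 + G1.natDegree := by
          rw [← hFG1, natDegree_mul (X_sub_C_ne_zero r) hG10, natDegree_X_sub_C]
        have h2 : g.natDegree = G1.natDegree := by
          rw [← ctmp_natDegree_map A g, hgmap, natDegree_C_mul (neg_ne_zero.mpr hr0)]
        rw [ctmp_natDegree_map, hf] at h1
        omega
      have hfb' : f.map (π) = g.map (π) := by
        rw [hfg, Polynomial.map_mul, Polynomial.map_sub, Polynomial.map_one, Polynomial.map_mul,
          map_C, map_X, hsres, C_0, zero_mul, sub_zero, one_mul]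
      have hgb : g.map (π) ≠ 0 := by rw [← hfb']; exact hfb
      obtain ⟨ih1, ih2⟩ := ih g hgdeg hgb
      have hres : ctmpResRoots A π f = ctmpResRoots A π g := by
        rw [ctmpResRoots, ctmpResRoots, ← hFG1, roots_mul (by rw [hFG1]; exact hF0), roots_X_sub_C,
          Multiset.singleton_add, Multiset.filterMap_cons_none _ _ (ctmpRes_of_not_mem A π hrA),
          hgmap, roots_C_mul _ (neg_ne_zero.mpr hr0)]
      exact ⟨by rw [hfb', ih1, hres], by rw [hfb', ih2, hres]⟩

/-- **`ℙ¹` lemma**: the roots of the reduction are the residues of the roots lying in `A`. -/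
theorem ctmp_roots_map_residue [IsAlgClosed L] (hπk : ∀ a : A, π a = 0 ↔ ¬ IsUnit a) (f : A[X])
    (hf : f.map (π) ≠ 0) :
    (f.map (π)).roots = ctmpResRoots A π f :=
  (ctmp_main A π hπk f.natDegree f rfl hf).1

/-- the degree of the reduction is the number of roots lying in `A`. -/
theorem ctmp_natDegree_map_residue [IsAlgClosed L] (hπk : ∀ a : A, π a = 0 ↔ ¬ IsUnit a)
    (f : A[X])
    (hf : f.map (π) ≠ 0) :
    (f.map (π)).natDegree = (ctmpResRoots A π f).card :=
  (ctmp_main A π hπk f.natDegree f rfl hf).2

theorem ctmp_count_filterMap {α β : Type*} [DecidableEq β] (g : α → Option β) (c : β)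
    [DecidablePred fun a => g a = some c] (m : Multiset α) :
    (m.filterMap g).count c = (m.filter fun a => g a = some c).card := by
  induction m using Multiset.induction_on with
  | empty => simp
  | cons a m ih =>
    rcases hga : g a with _ | b
    · rw [Multiset.filterMap_cons_none _ _ hga, ih,
        Multiset.filter_cons_of_neg (p := fun a => g a = some c) m (by rw [hga]; simp)]
    · rw [Multiset.filterMap_cons_some _ _ _ hga, Multiset.count_cons, ih]
      by_cases hbc : b = c
      · subst hbc
        rw [if_pos rfl, Multiset.filter_cons_of_pos (p := fun a => g a = some b) m hga,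
          Multiset.card_cons]
      · rw [if_neg (Ne.symm hbc), add_zero,
          Multiset.filter_cons_of_neg (p := fun a => g a = some c) m (by rw [hga]; simpa using hbc)]

/-- multiplicity form: the multiplicity of `c̄` as a root of the reduction is the number of roots of `f`
(with multiplicity) lying in `A` and reducing to `c̄`. -/
theorem ctmp_rootMultiplicity_residue [IsAlgClosed L] (hπk : ∀ a : A, π a = 0 ↔ ¬ IsUnit a)
    (f : A[X])
    (hf : f.map (π) ≠ 0) (c : k) :
    (f.map (π)).rootMultiplicity c =
      by classical exact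
        ((f.map (algebraMap A L)).roots.filter fun a => ctmpRes A π a = some c).card := by
  classical
  rw [← count_roots, ctmp_roots_map_residue A π hπk f hf, ctmpResRoots, ctmp_count_filterMap]

/-- the roots not in `A`: their number is `deg f - deg f̄`. -/
theorem ctmp_card_roots_not_mem [IsAlgClosed L] (hπk : ∀ a : A, π a = 0 ↔ ¬ IsUnit a)
    (f : A[X])
    (hf : f.map (π) ≠ 0) :
    by classical exact
      ((f.map (algebraMap A L)).roots.filter fun a => a ∉ A).card +
        (f.map (π)).natDegree = f.natDegree := by
  classical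
  have hsplit : (f.map (algebraMap A L)).roots.card = f.natDegree := by
    rw [← ctmp_natDegree_map A f]
    exact IsAlgClosed.card_roots_eq_natDegree
  rw [ctmp_natDegree_map_residue A π hπk f hf, ctmpResRoots, ← hsplit]
  generalize (f.map (algebraMap A L)).roots = m
  induction m using Multiset.induction_on with
  | empty => simp
  | cons a m ih =>
    by_cases ha : a ∈ A
    · rw [Multiset.filter_cons_of_neg (p := fun a => a ∉ A) m (by simpa using ha),
        Multiset.filterMap_cons_some _ _ _ (ctmpRes_of_mem A π ha), Multiset.card_cons,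
        Multiset.card_cons, ← ih]
      ring
    · rw [Multiset.filter_cons_of_pos (p := fun a => a ∉ A) m ha, Multiset.filterMap_cons_none _ _ (ctmpRes_of_not_mem A π ha),
        Multiset.card_cons, Multiset.card_cons, ← ih]
      ring

theorem ctmpRes_eq_some_iff {a : L} {c : k} :
    ctmpRes A π a = some c ↔ ∃ ha : a ∈ A, π ⟨a, ha⟩ = c := by
  by_cases ha : a ∈ A
  · rw [ctmpRes_of_mem A π ha, Option.some_inj]
    exact ⟨fun h => ⟨ha, h⟩, fun ⟨_, h⟩ => h⟩
  · rw [ctmpRes_of_not_mem A π ha]
    exact ⟨fun h => by simp at h, fun ⟨h, _⟩ => absurd h ha⟩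

open Classical in
/-- **LEAF P** of helper4's [B1] plan, exact target shape (`ctp_rootMultiplicity_sum`): the roots of `p`
in `A` reducing to `c̄`, counted with multiplicity, are as many as the multiplicity of `c̄` in `p̄`. -/
theorem ctmp_rootMultiplicity_sum [IsAlgClosed L] (hπk : ∀ a : A, π a = 0 ↔ ¬ IsUnit a)
    (p : Polynomial A) (hp : p.map π ≠ 0) (cb : k)
    (T : Finset L) (hT : ∀ a : L, (p.map A.subtype).IsRoot a → a ∈ T) :
    ∑ a ∈ T.filter (fun a => ∃ ha : a ∈ A, π ⟨a, ha⟩ = cb),
        ((p.map A.subtype).rootMultiplicity a : ℤ)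
      = ((p.map π).rootMultiplicity cb : ℤ) := by
  have hsub : (A.subtype : A →+* L) = algebraMap A L := rfl
  rw [hsub] at hT ⊢
  have hp0 : p ≠ 0 := by
    rintro rfl; simp at hp
  have hF0 : p.map (algebraMap A L) ≠ 0 := by
    intro h
    exact hp0 (ctmp_map_injective A (by rw [h, Polynomial.map_zero]))
  rw [ctmp_rootMultiplicity_residue A π hπk p hp cb, ← Multiset.toFinset_sum_count_eq]
  push_cast
  symm
  refine Finset.sum_subset_zero_on_sdiff ?_ ?_ ?_
  · intro a ha
    rw [Multiset.mem_toFinset, Multiset.mem_filter] at ha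
    rw [Finset.mem_filter]
    exact ⟨hT a ((mem_roots hF0).mp ha.1), (ctmpRes_eq_some_iff A π).mp ha.2⟩
  · intro a ha
    rw [Finset.mem_sdiff, Finset.mem_filter, Multiset.mem_toFinset, Multiset.mem_filter] at ha
    obtain ⟨⟨-, hP⟩, hnot⟩ := ha
    have hnr : a ∉ (p.map (algebraMap A L)).roots := fun h =>
      hnot ⟨h, (ctmpRes_eq_some_iff A π).mpr hP⟩
    rw [← count_roots, Multiset.count_eq_zero_of_notMem hnr, Nat.cast_zero]
  · intro a ha
    rw [Multiset.mem_toFinset, Multiset.mem_filter] at ha
    rw [Multiset.count_filter_of_pos (p := fun a => ctmpRes A π a = some cb) ha.2, count_roots]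

/-- a root outside `A` "reduces to `∞`": its inverse lies in the maximal ideal. -/
theorem ctmp_inv_mem_nonunits {a : L} (ha : a ∉ A) : a⁻¹ ∈ A.nonunits := by
  rw [ValuationSubring.inv_mem_nonunits_iff]
  exact Or.inr ha

end

end Fermat.Agent.S37x
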