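/-
S37 preparation, box [B2] (general function-field part), helper90, prefix `s37b_`.

**Relative fundamental identity** `∑_{w | v} e(w|v) f(w|v) = [F' : F]` for a finite separable extension `F'/F`
of function fields over an algebraically closed field `K` (all residue fields `= K`), in the Prelude form
`AlgebraicCurve.SumRamificationInertia K F F'` (hence `FundamentalIdentity K F F'`).

Route: `S24x.fid_sum_abstract` with `A := O_v` (the valuation ring of `v`, a DVR), `a :=` a uniformiser,
`S :=` the integral closure of `O_v` in `F'`: the zeros of `a` containing `O_v` are exactly the places over `v`,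
and `ord_w a = e(w|v)`.
-/
import Mathlib
import Fermat.Agent.S24x.FundIdentity
import Fermat.Prelude.Def_AlgebraicCurve_DivisorPushPull

set_option autoImplicit false
set_option linter.unusedSectionVars false

namespace Fermat.Agent.S37x

open AlgebraicCurve IsDedekindDomain Fermat.Agent.S24x

noncomputable section

variable {K F F' : Type*} [Field K] [Field F] [Field F'] [Algebra K F] [Algebra K F'] [Algebra F F']
  [IsScalarTower K F F']

/-- `O_v → F → F'` -/
@[reducible] def s37b_algebraOF' (v : Place K F) : Algebra v.toValuationSubring F' :=
  ((algebraMap F F').comp v.toValuationSubring.subtype).toAlgebra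

attribute [local instance 10] s37b_algebraOF'

theorem s37b_algebraMap_apply (v : Place K F) (x : v.toValuationSubring) :
    algebraMap v.toValuationSubring F' x = algebraMap F F' (x : F) := rfl

instance s37b_isScalarTower_OFF' (v : Place K F) : IsScalarTower v.toValuationSubring F F' :=
  IsScalarTower.of_algebraMap_eq fun _ => rfl

/-- `K`-algebra structure on the integral closure of `O_v` in `F'`. -/
@[reducible] def s37b_algebraKS (v : Place K F) : Algebra K (integralClosure v.toValuationSubring F') :=
  ((algebraMap v.toValuationSubring (integralClosure v.toValuationSubring F')).comp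
    (algebraMap K v.toValuationSubring)).toAlgebra

attribute [local instance 10] s37b_algebraKS

instance s37b_isScalarTower_KAS (v : Place K F) :
    IsScalarTower K v.toValuationSubring (integralClosure v.toValuationSubring F') :=
  IsScalarTower.of_algebraMap_eq fun _ => rfl

instance s37b_isScalarTower_KSF' (v : Place K F) :
    IsScalarTower K (integralClosure v.toValuationSubring F') F' :=
  IsScalarTower.of_algebraMap_eq fun k => by
    show algebraMap K F' k = algebraMap F F' (algebraMap K F k)
    exact IsScalarTower.algebraMap_apply K F F' k

instance s37b_faithfulSMul (v : Place K F) :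
    FaithfulSMul v.toValuationSubring (integralClosure v.toValuationSubring F') := by
  rw [faithfulSMul_iff_algebraMap_injective]
  intro x y h
  have h' := congrArg (algebraMap (integralClosure v.toValuationSubring F') F') h
  have h'' : algebraMap F F' (x : F) = algebraMap F F' (y : F) := h'
  exact Subtype.ext ((algebraMap F F').injective h'')

/-- the integral closure of `O_v` lies in every valuation ring of `F'` containing `O_v`. -/
theorem s37b_icl_le (v : Place K F) (w : Place K F')
    (hA : ∀ x : v.toValuationSubring, algebraMap v.toValuationSubring F' x ∈ w.toValuationSubring)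
    (s : integralClosure v.toValuationSubring F') :
    algebraMap (integralClosure v.toValuationSubring F') F' s ∈ w.toValuationSubring := by
  obtain ⟨p, hp, hps⟩ := s.2
  let φ : v.toValuationSubring →+* w.toValuationSubring :=
    (algebraMap v.toValuationSubring F').codRestrict w.toValuationSubring.toSubring hA
  have hint : IsIntegral w.toValuationSubring (s : F') := by
    refine ⟨p.map φ, hp.map φ, ?_⟩
    rw [Polynomial.eval₂_map]
    exact hps
  obtain ⟨y, hy⟩ := IsIntegrallyClosed.isIntegral_iff.mp hint
  show (s : F') ∈ w.toValuationSubring
  rw [← hy]
  exact y.2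

/-- a place `w` of `F'` whose valuation ring contains `O_v` and in which a uniformiser of `v` is not a unit
restricts to `v` (a DVR is a maximal proper subring of its fraction field). -/
theorem s37b_restrict_eq [Algebra.IsIntegral F F'] (v : Place K F) (w : Place K F')
    (hA : ∀ x : v.toValuationSubring, algebraMap F F' (x : F) ∈ w.toValuationSubring)
    {π : v.toValuationSubring} (hπ : Irreducible π) (hpos : 0 < w.ord (algebraMap F F' (π : F))) :
    w.restrict F = v := by
  apply Place.ext
  apply le_antisymm
  · intro x hx
    by_contra hxv
    have hx0 : x ≠ 0 := fun h => hxv (h ▸ zero_mem _)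
    obtain ⟨u, hu⟩ := v.exists_unit_mul_zpow hx0 hπ
    have hord : v.ord x < 0 := by
      by_contra hnn
      push Not at hnn
      exact hxv (fid_mem_of_ord_nonneg v hnn)
    have hu1 : 0 ≤ w.ord (algebraMap F F' ((u : v.toValuationSubring) : F)) :=
      fid_ord_nonneg_of_mem w (hA u)
    have hu2 : 0 ≤ w.ord (algebraMap F F' (((u⁻¹ : v.toValuationSubringˣ) : v.toValuationSubring) : F)) :=
      fid_ord_nonneg_of_mem w (hA _)
    have hinv : algebraMap F F' (((u⁻¹ : v.toValuationSubringˣ) : v.toValuationSubring) : F)
        = (algebraMap F F' ((u : v.toValuationSubring) : F))⁻¹ := by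
      rw [← map_inv₀]
      congr 1
      have h1 : ((u : v.toValuationSubring) : F) * (((u⁻¹ : v.toValuationSubringˣ) : v.toValuationSubring) : F) = 1 := by
        exact_mod_cast congrArg (Subtype.val) u.mul_inv
      exact eq_inv_of_mul_eq_one_right h1
    rw [hinv, w.ord_inv] at hu2
    have hu0 : w.ord (algebraMap F F' ((u : v.toValuationSubring) : F)) = 0 := by omega
    have hune : algebraMap F F' ((u : v.toValuationSubring) : F) ≠ 0 := by
      intro h0
      rw [map_eq_zero] at h0
      have h1 : ((u : v.toValuationSubring) : F) * (((u⁻¹ : v.toValuationSubringˣ) : v.toValuationSubring) : F) = 1 := by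
        exact_mod_cast congrArg (Subtype.val) u.mul_inv
      rw [h0, zero_mul] at h1
      exact zero_ne_one h1
    have hπ0 : algebraMap F F' (π : F) ≠ 0 := by
      intro h0
      rw [h0, w.ord_zero] at hpos
      exact lt_irrefl _ hpos
    have hx' : 0 ≤ w.ord (algebraMap F F' x) := fid_ord_nonneg_of_mem w hx
    rw [hu, map_mul, map_zpow₀, w.ord_mul hune (zpow_ne_zero _ hπ0), hu0, w.ord_zpow, zero_add] at hx'
    nlinarith
  · intro x hx
    exact hA ⟨x, hx⟩

/-- **Relative fundamental identity** (all residue fields equal to the algebraically closed constant field). -/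
theorem s37b_sumRamificationInertia [IsAlgClosed K] [FiniteDimensional F F'] [Algebra.IsSeparable F F']
    [HasPrincipalDivisors K F']
    (hF : ∀ v : Place K F, Function.Surjective (algebraMap K v.ResidueField))
    (hF' : ∀ w : Place K F', Function.Surjective (algebraMap K w.ResidueField)) :
    SumRamificationInertia K F F' := by
  classical
  refine ⟨fun v => ?_⟩
  obtain ⟨π, hπ⟩ := IsDiscreteValuationRing.exists_irreducible v.toValuationSubring
  have hπ0 : π ≠ 0 := hπ.ne_zero
  have hspan : Ideal.span {π} = IsLocalRing.maximalIdeal v.toValuationSubring := hπ.maximalIdeal_eq.symm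
  have hmax : (Ideal.span {π}).IsMaximal := by
    rw [hspan]; infer_instance
  have hres : Function.Surjective (algebraMap K (v.toValuationSubring ⧸ Ideal.span {π})) := by
    intro y
    obtain ⟨x, rfl⟩ := Ideal.Quotient.mk_surjective y
    obtain ⟨c, hc⟩ := hF v (IsLocalRing.residue _ x)
    refine ⟨c, ?_⟩
    have h1 : IsLocalRing.residue v.toValuationSubring (algebraMap K v.toValuationSubring c - x) = 0 := by
      rw [map_sub, ← hc]
      exact sub_self _
    rw [IsLocalRing.residue_eq_zero_iff, ← hspan] at h1
    rw [← sub_eq_zero]
    show Ideal.Quotient.mk _ (algebraMap K v.toValuationSubring c) - Ideal.Quotient.mk _ x = 0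
    rw [← map_sub, Ideal.Quotient.eq_zero_iff_mem]
    exact h1
  have : IsDedekindDomain (integralClosure v.toValuationSubring F') :=
    integralClosure.isDedekindDomain v.toValuationSubring F F'
  have : IsFractionRing (integralClosure v.toValuationSubring F') F' :=
    integralClosure.isFractionRing_of_finite_extension F F'
  have : Module.Finite v.toValuationSubring (integralClosure v.toValuationSubring F') :=
    IsIntegralClosure.finite v.toValuationSubring F F' _
  have hTF : Module.IsTorsionFree v.toValuationSubring (integralClosure v.toValuationSubring F') := inferInstance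
  have hDD : IsDedekindDomain v.toValuationSubring := inferInstance
  have : Module.Flat v.toValuationSubring (integralClosure v.toValuationSubring F') := inferInstance
  obtain ⟨hfin, hsum⟩ := fid_sum_abstract (K := K) (F := F') (A := v.toValuationSubring)
    (S := integralClosure v.toValuationSubring F')
    (fun w hw s => s37b_icl_le v w hw s) π hπ0 hmax hres
  rw [IsFractionRing.finrank_eq v.toValuationSubring F (integralClosure v.toValuationSubring F') F', ← hsum]
  -- identify the index sets
  have hset : hfin.toFinset = v.fiber F' := by
    ext w
    rw [Set.Finite.mem_toFinset, Place.mem_fiber]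
    constructor
    · rintro ⟨hA, hpos⟩
      exact s37b_restrict_eq v w hA hπ hpos
    · intro hw
      refine ⟨fun x => ?_, ?_⟩
      · have : (x : F) ∈ (w.restrict F).toValuationSubring := by rw [hw]; exact x.2
        exact (Place.mem_restrict_iff w).mp this
      · show 0 < w.ord (algebraMap F F' (π : F))
        rw [w.ord_restrict, hw, v.ord_coe_irreducible hπ, mul_one]
        exact_mod_cast w.ramificationIndex_pos (F := F)
  rw [hset]
  refine Finset.sum_congr rfl fun w hw => ?_
  rw [Place.mem_fiber] at hw
  have hord : w.ord (algebraMap v.toValuationSubring F' π) = (w.ramificationIndex F : ℤ) := by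
    show w.ord (algebraMap F F' (π : F)) = _
    rw [w.ord_restrict, hw, v.ord_coe_irreducible hπ, mul_one]
  have hin : w.inertiaDeg F = 1 := by
    unfold Place.inertiaDeg
    rw [finrank_eq_one_iff_of_nonzero' (1 : w.ResidueField) one_ne_zero]
    intro y
    obtain ⟨c, hc⟩ := hF' w y
    refine ⟨algebraMap K (w.restrict F).ResidueField c, ?_⟩
    rw [Algebra.smul_def, mul_one, ← IsScalarTower.algebraMap_apply, hc]
  rw [hord, hin]
  simp

end

end Fermat.Agent.S37x
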