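/-
S37x/S37Dry (helper12, s37_plan row 40): DRY RUN of the S37 assembly, one level below
`s37t_result_of_places` (helper44).  Prefix `sdry_` (`s37d_` is used by my earlier `S37Top.lean`).

`sdry_main`: the FROZEN S37 conclusion from
* `hS18` : the frozen S18 statement,
* `hB1`  : `sdry_B1Inputs N A`  = inputs of `ctm_main` (helper4) at level `N` + coefficient clause
           + `PrincipalGeneratedByIntegral`            ==> `sdry_hR : ReductionInputsModL A N`;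
* `hGal` : `sdry_GalInputs N A r` = inputs of `es3g2_final_place` (helper48) for ANY `r` with the
           SPEC                                        ==> `sdry_hI`, `sdry_hF`  ((P-i), (P-ii));
* `hEs`  : `sdry_EsInputs N A ℓ r` = inputs of `es3_global2` (helper3) + `es3s_*` (helper56) for ANY
           `r` with the SPEC                           ==> `sdry_hT`  ((P-iii), COMPAT route).
[B2] is discharged by `hif_heckeInputsAlong` (helper25).  Purpose: expose shape mismatches between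
the blocks NOW.  All four parts compile against main@04:35Z.
-/
import Mathlib
import Fermat.Agent.S37x.TopOfPlaces
import Fermat.Agent.S37x.Es3Galois2
import Fermat.Agent.S37x.Es3Local2
import Fermat.Agent.S37x.Es3Supp
import Fermat.Agent.S37x.CtmMain
import Fermat.Agent.S18x.Assembly
import Fermat.Agent.S37x.HeckeInputsFinal

set_option autoImplicit false
set_option synthInstance.maxHeartbeats 400000
set_option maxHeartbeats 1600000

noncomputable section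

namespace Fermat.Agent.S37x

open ModularCurve AlgebraicCurve ValuationSubring Fermat.Agent.S18x

local notation "Q̄" => AlgebraicClosure ℚ

section Gal

variable (N : ℕ) [NeZero N] (A : ValuationSubring Q̄)

local notation "kA" => IsLocalRing.ResidueField A
local notation "FN" => laurentBaseChange Q̄ (modularFunctionFieldFull N)
local notation "FbA" => modularFunctionFieldFullC (IsLocalRing.ResidueField A) N

/-- **[INST] → [GAL]**: the level-`N` SPEC layer needed by `es3g2_final_place`, for a place map `r`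
(announced shapes: `ts_Hyp` (helper82 `spvl_`), `hF1`/`hF2` (row 22 `spv_`), `hsep`/`hsep'`
(row 26 `es3p_`), `hWmem`/`hρcoe` (`gwm_W`/`gwm_rho` are of this form)). -/
def sdry_GalInputs (r : Place Q̄ FN → Place kA FbA) : Prop :=
  ∃ (W : ValuationSubring FN) (ρ : W →+* FbA) (J : W)
    (hWmem : ∀ x : FN, x ∈ W ↔ (x : LaurentSeries Q̄) ∈ ga_W A (IsLocalRing.residue A)),
    ts_Hyp A (IsLocalRing.residue A) W ρ r ∧
    (∀ x : W, ((ρ x : FbA) : LaurentSeries kA) =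
      ga_rho A (IsLocalRing.residue A) ⟨((x : FN) : LaurentSeries Q̄), (hWmem x).mp x.2⟩) ∧
    (∀ τ : Q̄ ≃ₐ[ℚ] Q̄, coeffMap (τ : Q̄ →+* Q̄) ((J : FN) : LaurentSeries Q̄) =
      ((J : FN) : LaurentSeries Q̄)) ∧
    (∀ φ : kA ≃+* kA, coeffMap (φ : kA →+* kA) ((ρ J : FbA) : LaurentSeries kA) =
      ((ρ J : FbA) : LaurentSeries kA)) ∧
    (∀ (P : Place Q̄ FN) (c : Q̄) (hc : c ∈ A),
      P.adicValuation ((J : FN) - algebraMap Q̄ _ c) < 1 →
      (r P).adicValuation (ρ J - algebraMap kA _ (IsLocalRing.residue A ⟨c, hc⟩)) < 1) ∧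
    (∀ P : Place Q̄ FN,
      (¬ ∃ c : Q̄, c ∈ A ∧ P.adicValuation ((J : FN) - algebraMap Q̄ _ c) < 1) →
      (r P).ord (ρ J) < 0) ∧
    (∀ P, r P ∉ {Q : Place kA FbA | Q.ord (ρ J) < 0} →
      ∀ S : Finset (Place kA FbA),
      (∀ Q ∈ S, Q ∉ {Q : Place kA FbA | Q.ord (ρ J) < 0}) → r P ∉ S →
      ∃ u : W, ρ u ≠ 0 ∧ 0 < P.ord (u : FN) ∧ (r P).ord (ρ u) = 1 ∧
        (∀ P'', P''.ord (u : FN) < 0 → r P'' ∈ {Q : Place kA FbA | Q.ord (ρ J) < 0}) ∧
        ∀ Q ∈ S, Q.ord (ρ u) = 0) ∧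
    (∀ P, r P ∈ {Q : Place kA FbA | Q.ord (ρ J) < 0} →
      ∀ S : Finset (Place kA FbA),
      (∀ Q ∈ S, Q ∈ {Q : Place kA FbA | Q.ord (ρ J) < 0}) → r P ∉ S →
      ∃ u : W, ρ u ≠ 0 ∧ 0 < P.ord (u : FN) ∧ (r P).ord (ρ u) = 1 ∧
        (∀ P'', P''.ord (u : FN) < 0 → r P'' ∉ {Q : Place kA FbA | Q.ord (ρ J) < 0}) ∧
        ∀ Q ∈ S, Q.ord (ρ u) = 0)

variable {N A}

/-- decomposition group form -/
theorem sdry_gal_place {r : Place Q̄ FN → Place kA FbA} (hG : sdry_GalInputs N A r)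
    (g : A.decompositionSubgroup ℚ) (P : Place Q̄ FN) :
    r (arithmeticGalois (modularFunctionFieldFull N) (g : Q̄ ≃ₐ[ℚ] Q̄) • P) =
      cfb_coeffAut kA N (es3g_resAut A g) • r P := by
  obtain ⟨W, ρ, J, hWmem, H, hρcoe, hJ, hJb, hF1, hF2, hsep, hsep'⟩ := hG
  exact es3g2_final_place H hWmem hρcoe J hJ hJb hF1 hF2 hsep hsep' g (es3g_resAut A g)
    (es3g_residue_symm_apply A g) P

/-- (P-i): inertia acts trivially after `r`. -/
theorem sdry_hI {r : Place Q̄ FN → Place kA FbA} (hG : sdry_GalInputs N A r)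
    (τ : Q̄ ≃ₐ[ℚ] Q̄) (hτ : τ ∈ A.inertiaSubgroupIn ℚ) (P : Place Q̄ FN) :
    r (arithmeticGalois (modularFunctionFieldFull N) τ • P) = r P := by
  obtain ⟨g, rfl, hg⟩ := es3g_resAut_of_mem_inertia A hτ
  rw [sdry_gal_place hG g P, hg, map_one, one_smul]

/-- (P-ii): Frobenius elements act as `cfb_frob` after `r`. -/
theorem sdry_hF {r : Place Q̄ FN → Place kA FbA} (hG : sdry_GalInputs N A r)
    {ℓ : ℕ} [Fact ℓ.Prime] [CharP kA ℓ] [PerfectRing kA ℓ]
    (σ : Q̄ ≃ₐ[ℚ] Q̄) (hσ : A.IsFrobeniusAt σ ℓ) (P : Place Q̄ FN) :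
    r (arithmeticGalois (modularFunctionFieldFull N) σ • P) = cfb_frob kA N ℓ • r P := by
  have h := sdry_gal_place hG ⟨σ, hσ.mem_decompositionSubgroup⟩ P
  rw [es3g_resAut_of_isFrobeniusAt A hσ] at h
  exact h

end Gal


section ES

variable (N : ℕ) [NeZero N] (A : ValuationSubring Q̄) (ℓ : ℕ) [NeZero ℓ]

local notation "kA" => IsLocalRing.ResidueField A
local notation "FN" => laurentBaseChange Q̄ (modularFunctionFieldFull N)
local notation "FNl" => laurentBaseChange Q̄ (modularFunctionFieldFull (N * ℓ))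
local notation "FbA" => modularFunctionFieldFullC (IsLocalRing.ResidueField A) N

/-- **[INST] + [ES/COMPAT] → (P-iii)**: the inputs of `es3_global2` at level `N` for the
correspondence `T_ℓ = α_* β^*` and `Φ = gF_* + ℓ gF⁻¹_*` (announced shapes: `hL` = row 28
`Es3Norm`, modular equation for `J` = `es3s_TRel_of_correspondence` inputs, `Fb`-side facts). -/
def sdry_EsInputs [Fact ℓ.Prime] [CharP kA ℓ] [PerfectRing kA ℓ]
    [HasPrincipalDivisors Q̄ FNl] (r : Place Q̄ FN → Place kA FbA) : Prop :=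
  ∃ (W : ValuationSubring FN) (ρ : W →+* FbA) (J : W),
    ts_Hyp A (IsLocalRing.residue A) W ρ r ∧
    -- (ES-hL), row 28
    es3_Lifts ρ (Divisor.correspondence (heckeBetaBar Q̄ N ℓ) (heckeAlphaBar Q̄ N ℓ)
      (bt37_betaIntegral N ℓ) (bt37_alphaIntegral N ℓ)) (es3s_Phi (cfb_frob kA N ℓ) ℓ) ∧
    -- the modular equation between `α J` and `β J`
    (∃ Ψ : Polynomial (Polynomial ℤ), Ψ.Monic ∧
      es3s_rel Ψ (heckeAlphaBar Q̄ N ℓ (J : FN)) (heckeBetaBar Q̄ N ℓ (J : FN)) ∧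
      es3s_rel Ψ (heckeBetaBar Q̄ N ℓ (J : FN)) (heckeAlphaBar Q̄ N ℓ (J : FN))) ∧
    -- `ρ J` is fixed by the coefficientwise Frobenius and is not constant
    (cfb_frob kA N ℓ • ρ J = ρ J) ∧ (∀ x : kA, ρ J ≠ algebraMap kA FbA x) ∧
    -- `Fb`-side place theory
    (∀ (Q : Place kA FbA) (x : FbA), Q.adicValuation x ≤ 1 →
      ∃ c : kA, Q.adicValuation (x - algebraMap kA FbA c) < 1) ∧
    (∀ f : FbA, f ≠ 0 → ∃ D : Divisor kA FbA, ∀ Q, D Q = Q.ord f) ∧
    -- SPEC consequences (row 22)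
    (∀ (P : Place Q̄ FN) (c : Q̄) (hc : c ∈ A),
      P.adicValuation ((J : FN) - algebraMap Q̄ _ c) < 1 →
      (r P).adicValuation (ρ J - algebraMap kA _ (IsLocalRing.residue A ⟨c, hc⟩)) < 1) ∧
    (∀ P : Place Q̄ FN,
      (¬ ∃ c : Q̄, c ∈ A ∧ P.adicValuation ((J : FN) - algebraMap Q̄ _ c) < 1) →
      (r P).ord (ρ J) < 0) ∧
    -- separation (row 26)
    (∀ P, r P ∉ es3s_poles (ρ J) →
      ∀ S : Finset (Place kA FbA), (∀ Q ∈ S, Q ∉ es3s_poles (ρ J)) → r P ∉ S →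
      ∃ u : W, ρ u ≠ 0 ∧ 0 < P.ord (u : FN) ∧ (r P).ord (ρ u) = 1 ∧
        (∀ P'', P''.ord (u : FN) < 0 → r P'' ∈ es3s_poles (ρ J)) ∧
        ∀ Q ∈ S, Q.ord (ρ u) = 0) ∧
    (∀ P, r P ∈ es3s_poles (ρ J) →
      ∀ S : Finset (Place kA FbA), (∀ Q ∈ S, Q ∈ es3s_poles (ρ J)) → r P ∉ S →
      ∃ u : W, ρ u ≠ 0 ∧ 0 < P.ord (u : FN) ∧ (r P).ord (ρ u) = 1 ∧
        (∀ P'', P''.ord (u : FN) < 0 → r P'' ∉ es3s_poles (ρ J)) ∧
        ∀ Q ∈ S, Q.ord (ρ u) = 0)

variable {N A ℓ}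

/-- (P-iii): Eichler–Shimura on places, COMPAT route. -/
theorem sdry_hT [hℓ : Fact ℓ.Prime] [CharP kA ℓ] [PerfectRing kA ℓ]
    [HasPrincipalDivisors Q̄ FNl] {r : Place Q̄ FN → Place kA FbA}
    (hE : sdry_EsInputs N A ℓ r) (P : Place Q̄ FN) :
    Finsupp.mapDomain r
        (Divisor.correspondence (heckeBetaBar Q̄ N ℓ) (heckeAlphaBar Q̄ N ℓ)
          (bt37_betaIntegral N ℓ) (bt37_alphaIntegral N ℓ) (Finsupp.single P 1)) =
      Finsupp.single (cfb_frob kA N ℓ • r P) (1 : ℤ) +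
        Finsupp.single ((cfb_frob kA N ℓ)⁻¹ • r P) (ℓ : ℤ) := by
  obtain ⟨W, ρ, J, H, hL, ⟨Ψ, hΨ, h1, h2⟩, hgJ, hjb, heval, hpd, hF1, hF2, hsep, hsep'⟩ := hE
  have hbase : ∀ x : kA, SemilinearAut.baseAut (cfb_frob kA N ℓ) x = x ^ ℓ :=
    cfb_baseAut_frob_apply kA N ℓ
  -- the dichotomy
  have hdich : es3s_Dich (IsLocalRing.residue A) ρ r J := by
    intro P
    by_cases h : ∃ c : Q̄, c ∈ A ∧ P.adicValuation ((J : FN) - algebraMap Q̄ _ c) < 1
    · obtain ⟨c, hc, hv⟩ := h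
      exact Or.inl ⟨c, hc, hv, hF1 P c hc hv⟩
    · exact Or.inr ⟨hF2 P h, fun c hc hv => h ⟨c, hc, hv⟩⟩
  have hTRel := es3s_TRel_of_correspondence (heckeBetaBar Q̄ N ℓ) (heckeAlphaBar Q̄ N ℓ)
    (bt37_betaIntegral N ℓ) (bt37_alphaIntegral N ℓ) hΨ (J : FN) h1 h2
  have key := es3_global2 H _ (es3s_Phi (cfb_frob kA N ℓ) ℓ) hL
    (es3s_Theta Ψ ℓ (ρ J)) (es3s_poles (ρ J)) (es3s_hΘ𝒮 Ψ ℓ (ρ J))
    (es3s_hfin hΨ hℓ.out.ne_zero (ρ J) hjb hpd)
    (es3s_hE H J hΨ ℓ hdich _ _ hTRel (es3s_hΦ Ψ ℓ (ρ J) heval _ hgJ hbase))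
    hsep hsep' (Finsupp.single P 1)
  rw [key, Finsupp.mapDomain_single, es3s_Phi_single]

end ES


section B1

variable (N : ℕ) [NeZero N] (A : ValuationSubring Q̄)

local notation "kA" => IsLocalRing.ResidueField A
local notation "FN" => laurentBaseChange Q̄ (modularFunctionFieldFull N)
local notation "FbA" => modularFunctionFieldFullC (IsLocalRing.ResidueField A) N

/-- **[B1] C7**: the inputs of `ctm_main` at level `N` plus the two wrapper clauses
(announced shapes: (a) `ctm_Gauss` for the `h`-free Gauss pair, (b) `ctm_Coord` for `J`,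
(c)/(d) `ctm_Int` for `J`, `J⁻¹`, (e) `PrincipalGeneratedByIntegral`, (f) the coefficient
clause). -/
def sdry_B1Inputs : Prop :=
  ∃ (W : ValuationSubring FN) (ρ : W →+* FbA) (J Jinv : W),
    ctm_Gauss A (IsLocalRing.residue A) W ρ ∧ J * Jinv = 1 ∧
    ctm_Coord Q̄ kA W ρ J ∧ ctm_Int Q̄ kA W ρ J ∧ ctm_Int Q̄ kA W ρ Jinv ∧
    -- (f) the coefficient clause: honest `A`-integral expansions lie in `W` and reduce
    -- coefficientwise
    (∀ (y : LaurentSeries A) (hy : coeffMap A.subtype y ∈ FN)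
        (hyk : coeffMap (IsLocalRing.residue A) y ∈ FbA),
      ∃ u : W, (u : FN) = ⟨coeffMap A.subtype y, hy⟩ ∧
        ρ u = ⟨coeffMap (IsLocalRing.residue A) y, hyk⟩) ∧
    -- (e)
    PrincipalGeneratedByIntegral A (IsLocalRing.residue A) N

variable {N A}

/-- `ReductionInputsModL A N` from the level-`N` inputs of `ctm_main`. -/
theorem sdry_hR (h : sdry_B1Inputs N A) : ReductionInputsModL A N := by
  obtain ⟨W, ρ, J, Jinv, G, hJJ, hJ, hint0, hintInf, hcoef, hgen⟩ := h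
  haveI : IsAlgClosed kA := s18a_isAlgClosed_residue A
  obtain ⟨r, hdeg, hcompat, -, -⟩ := ctm_main G hJJ hJ hint0 hintInf
  refine ⟨r, ⟨hdeg, ?_⟩, hgen⟩
  intro y hy hyk hne D hD Q
  obtain ⟨u, hu1, hu2⟩ := hcoef y hy hyk
  have hρu : ρ u ≠ 0 := by
    rw [hu2]
    intro h0
    exact hne (congrArg Subtype.val h0)
  have := hcompat u hρu D (fun P => by rw [hD P, hu1]) Q
  rw [this, hu2]

end B1


section Top

/-- **DRY RUN (row 40)**: the frozen S37 conclusion from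
* `hS18`  : the frozen S18 statement,
* `hB1`   : the level-`N` inputs of `ctm_main` (`sdry_B1Inputs`),
* `hGal`  : the level-`N` inputs of `es3g2_final_place` (`sdry_GalInputs`) for ANY `r` with the SPEC,
* `hEs`   : the level-`N` inputs of `es3_global2` (`sdry_EsInputs`) for ANY `r` with the SPEC.
Everything else is discharged from main (`s37t_result_of_places`, `hif_heckeInputsAlong`, …). -/
theorem sdry_main (N p : ℕ) [NeZero N]
    (hS18 : ∀ {ℓ : ℕ} [Fact ℓ.Prime], ¬ ℓ ∣ N →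
      ∀ (A : ValuationSubring Q̄), A.LiesOverPrime ℓ →
        ReductionInputsModL A N → ∀ (m : ℕ), ¬ ℓ ∣ m → ∀ z : JZero N,
          m • z = 0 → reductionModL A N z = 0 → z = 0)
    (hcomm : HeckeOperatorsCommuteBar N)
    (hB1 : ∀ (ℓ : ℕ), ℓ.Prime → ¬ ℓ ∣ N →
      ∀ A : ValuationSubring Q̄, A.LiesOverPrime ℓ → sdry_B1Inputs N A)
    (hGal : ∀ (ℓ : ℕ), ℓ.Prime → ¬ ℓ ∣ N →
      ∀ A : ValuationSubring Q̄, A.LiesOverPrime ℓ →
        ∀ r, IsPlaceReductionModL A N r → sdry_GalInputs N A r)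
    (hEs : ∀ (ℓ : ℕ) (hℓ : ℓ.Prime), ¬ ℓ ∣ N →
      ∀ (A : ValuationSubring Q̄) (hA : A.LiesOverPrime ℓ),
        haveI : Fact ℓ.Prime := ⟨hℓ⟩
        haveI : NeZero ℓ := ⟨hℓ.ne_zero⟩
        haveI := glu_charP A hℓ hA
        haveI := s37t_perfectRing A ℓ
        ∀ [HasPrincipalDivisors Q̄ (laurentBaseChange Q̄ (modularFunctionFieldFull (N * ℓ)))],
        ∀ r, IsPlaceReductionModL A N r → sdry_EsInputs N A ℓ r) :
    letI := heckeModuleBar N
    ∀ (_ : SMulCommClass (Q̄ ≃ₐ[ℚ] Q̄) HeckeAlg (JZero N)),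
      SpecializationExists (K := ℚ) (L := Q̄) N p (JZero N) := by
  have hR : ∀ (ℓ : ℕ), ℓ.Prime → ¬ ℓ ∣ N →
      ∀ A : ValuationSubring Q̄, A.LiesOverPrime ℓ → ReductionInputsModL A N :=
    fun ℓ hℓ hℓN A hA => sdry_hR (hB1 ℓ hℓ hℓN A hA)
  refine s37t_result_of_places N p hS18 hR hcomm ?_ ?_ ?_ ?_
  · intro ℓ _
    haveI := hku_neZero ℓ
    exact hif_heckeInputsAlong N ℓ
  · intro ℓ hℓ hℓN A hA τ hτ P
    exact sdry_hI (hGal ℓ hℓ hℓN A hA _ (isPlaceReductionModL_placeReductionModL _)) τ hτ P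
  · intro ℓ hℓ hℓN A hA
    haveI : Fact ℓ.Prime := ⟨hℓ⟩
    haveI := glu_charP A hℓ hA
    haveI := s37t_perfectRing A ℓ
    intro σ hσ P
    exact sdry_hF (hGal ℓ hℓ hℓN A hA _ (isPlaceReductionModL_placeReductionModL _)) σ hσ P
  · intro ℓ hℓ hℓN A hA
    haveI : Fact ℓ.Prime := ⟨hℓ⟩
    haveI : NeZero ℓ := ⟨hℓ.ne_zero⟩
    haveI := glu_charP A hℓ hA
    haveI := s37t_perfectRing A ℓ
    intro _ P
    exact sdry_hT (hEs ℓ hℓ hℓN A hA _ (isPlaceReductionModL_placeReductionModL _)) P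

end Top

end Fermat.Agent.S37x

end
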