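/-
S37x/S37Top (helper12): DRY-RUN INTEGRATION of S37 (s37_plan row TOP).

`s37d_main`: the FROZEN S37 conclusion from the inputs that are still open:
* `hS18`  : the frozen S18 statement                                   (S18 project);
* `hR`    : `ReductionInputsModL A N` for `ℓ ∤ N`                      (s37_plan block B1, row 37);
* `hNF`   : the norm formula along `α` at `(N, ℓ)`                     (s37_plan row 5);
* `hPl`   : the three PLACE-level identities for `r = placeReductionModL (hR …)` and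
            `gF = cfb_frob`: inertia invariance (P-i), Frobenius equivariance (P-ii)  (row 27),
            Eichler–Shimura on places (P-iii)                                        (row 17).
Everything else (`HeckeAlphaBarIntegral`, `HeckeBetaBarIntegral`, `FiniteAlong`,
`HasPrincipalDivisors` at level `N ℓ`, `FundamentalIdentityAlong`, existence of Frobenius elements,
the formal glue, STEP 7) is discharged from main.
-/
import Mathlib
import Fermat.Agent.S37x.SpecWrap
import Fermat.Agent.S37x.EsPic0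
import Fermat.Agent.S37x.HeckeInputs
import Fermat.Agent.S37x.CoeffFrob
import Fermat.Agent.S18x.GlueChar
import Fermat.Agent.S18x.Assembly

set_option autoImplicit false
set_option synthInstance.maxHeartbeats 400000
set_option maxHeartbeats 1000000

noncomputable section

namespace Fermat.Agent.S37x

open ModularCurve AlgebraicCurve ValuationSubring Fermat.Agent.S18x

local notation "Q̄" => AlgebraicClosure ℚ

/-- the residue field of `A` over `ℓ` is perfect of characteristic `ℓ` -/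
theorem s37d_perfectRing (A : ValuationSubring Q̄) {ℓ : ℕ} (hℓ : ℓ.Prime)
    (hA : A.LiesOverPrime ℓ) :
    haveI : Fact ℓ.Prime := ⟨hℓ⟩
    haveI := glu_charP A hℓ hA
    PerfectRing (IsLocalRing.ResidueField A) ℓ := by
  haveI : Fact ℓ.Prime := ⟨hℓ⟩
  haveI := glu_charP A hℓ hA
  haveI := s18a_isAlgClosed_residue A
  infer_instance

/-- the Frobenius semilinear automorphism of `Fb_N` over the residue field of `A` -/
def s37d_gF (N : ℕ) (A : ValuationSubring Q̄) {ℓ : ℕ} (hℓ : ℓ.Prime) (hA : A.LiesOverPrime ℓ) :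
    SemilinearAut (IsLocalRing.ResidueField A)
      (modularFunctionFieldFullC (IsLocalRing.ResidueField A) N) :=
  haveI : Fact ℓ.Prime := ⟨hℓ⟩
  haveI := glu_charP A hℓ hA
  haveI := s37d_perfectRing A hℓ hA
  cfb_frob (IsLocalRing.ResidueField A) N ℓ

/-- the three place-level identities (P-i), (P-ii), (P-iii) at `(ℓ, A)` -/
def s37d_PlaceInputs (N : ℕ) [NeZero N] (ℓ : ℕ) (hℓ : ℓ.Prime) (A : ValuationSubring Q̄)
    (hA : A.LiesOverPrime ℓ) (h : ReductionInputsModL A N) : Prop :=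
  haveI : NeZero ℓ := ⟨hℓ.ne_zero⟩
  haveI := hki_hasPrincipalDivisors (N * ℓ)
  (∀ τ ∈ A.inertiaSubgroupIn ℚ, ∀ P,
      placeReductionModL h (arithmeticGalois (modularFunctionFieldFull N) τ • P) =
        placeReductionModL h P) ∧
  (∀ σ : Q̄ ≃ₐ[ℚ] Q̄, A.IsFrobeniusAt σ ℓ → ∀ P,
      placeReductionModL h (arithmeticGalois (modularFunctionFieldFull N) σ • P) =
        s37d_gF N A hℓ hA • placeReductionModL h P) ∧
  (∀ P, Finsupp.mapDomain (placeReductionModL h)
      (Divisor.correspondence (heckeBetaBar Q̄ N ℓ) (heckeAlphaBar Q̄ N ℓ)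
        (bt37_betaIntegral N ℓ) (bt37_alphaIntegral N ℓ) (Finsupp.single P 1)) =
    Finsupp.single (s37d_gF N A hℓ hA • placeReductionModL h P) (1 : ℤ) +
      Finsupp.single ((s37d_gF N A hℓ hA)⁻¹ • placeReductionModL h P) ((ℓ : ℕ) : ℤ))

/-- **DRY RUN**: the frozen S37 conclusion from the open inputs. -/
theorem s37d_main (N p : ℕ) [NeZero N]
    (hS18 : ∀ {ℓ : ℕ} [Fact ℓ.Prime], ¬ ℓ ∣ N →
      ∀ (A : ValuationSubring Q̄), A.LiesOverPrime ℓ →
        ModularCurve.ReductionInputsModL A N → ∀ (m : ℕ), ¬ ℓ ∣ m → ∀ z : ModularCurve.JZero N,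
          m • z = 0 → ModularCurve.reductionModL A N z = 0 → z = 0)
    (hR : ∀ (ℓ : ℕ), ℓ.Prime → ¬ ℓ ∣ N →
      ∀ A : ValuationSubring Q̄, A.LiesOverPrime ℓ → ModularCurve.ReductionInputsModL A N)
    (hcomm : ModularCurve.HeckeOperatorsCommuteBar N)
    (hNF : ∀ (ℓ : ℕ) (hℓ : ℓ.Prime), ¬ ℓ ∣ N →
      haveI : NeZero ℓ := ⟨hℓ.ne_zero⟩
      NormFormulaAlong Q̄ (heckeAlphaBar Q̄ N ℓ) (bt37_finiteAlong_alpha N ℓ))
    (hPl : ∀ (ℓ : ℕ) (hℓ : ℓ.Prime) (hℓN : ¬ ℓ ∣ N) (A : ValuationSubring Q̄)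
      (hA : A.LiesOverPrime ℓ), s37d_PlaceInputs N ℓ hℓ A hA (hR ℓ hℓ hℓN A hA)) :
    letI := ModularCurve.heckeModuleBar N
    ∀ (_ : SMulCommClass (Q̄ ≃ₐ[ℚ] Q̄) ModularCurve.HeckeAlg (ModularCurve.JZero N)),
      ModularCurve.SpecializationExists (K := ℚ) (L := Q̄) N p (ModularCurve.JZero N) := by
  refine spw_S37_of_inputs N p hS18 hR hcomm ?_
  intro ℓ hℓ hℓN A hA
  haveI : NeZero ℓ := ⟨hℓ.ne_zero⟩
  haveI := hki_hasPrincipalDivisors (N * ℓ)
  obtain ⟨hI, hF, hT⟩ := hPl ℓ hℓ hℓN A hA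
  exact es7_hES ⟨ℓ, hℓ⟩ (hR ℓ hℓ hℓN A hA) (s37d_gF N A hℓ hA) (bt37_alphaIntegral N ℓ)
    (bt37_betaIntegral N ℓ) (hki_hasPrincipalDivisors (N * ℓ))
    (hki_fundamentalIdentityAlong_beta N ℓ) (bt37_finiteAlong_alpha N ℓ) (hNF ℓ hℓ hℓN) hI hF hT

end Fermat.Agent.S37x

end
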