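/-
S37 formal leaf F0 (helper44): `SpecializationExists` from a "kernel of reduction".

If `Kred ≤ J` is an additive subgroup containing `(τ - 1) x` for `τ` in the inertia group at `A`,
containing `(s0² - T_ℓ s0 + ℓ) x` for ONE Frobenius `s0` at `A`, and meeting the `p`-power torsion
trivially, then the data `J', sp, F` of `ModularCurve.SpecializationExists` exist:
`J' := J ⧸ H'`, `H'` the Hecke-submodule generated by the two families above, `sp := mk`,
`F :=` the map induced by `s0`.  Everything is formal.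
-/
import Fermat.Prelude.Def_HeckeGalois_EichlerShimura

set_option autoImplicit false

namespace Fermat.Agent.S37x

open ModularCurve

section Ramification

variable {K L : Type*} [Field K] [Field L] [Algebra K L]

/-- conjugating an inertia element by a decomposition element stays in inertia. -/
theorem spf_conj_mem_inertia (A : ValuationSubring L) {σ τ : L ≃ₐ[K] L}
    (hσ : σ ∈ A.decompositionSubgroup K) (hτ : τ ∈ A.inertiaSubgroupIn K) :
    σ * τ * σ⁻¹ ∈ A.inertiaSubgroupIn K := by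
  obtain ⟨t, ht, rfl⟩ := hτ
  refine ⟨⟨σ, hσ⟩ * t * ⟨σ, hσ⟩⁻¹, ?_, rfl⟩
  have hn : (A.inertiaSubgroup K).Normal := by
    unfold ValuationSubring.inertiaSubgroup
    infer_instance
  exact hn.conj_mem t ht ⟨σ, hσ⟩

/-- two Frobenius elements at `A` differ by an inertia element. -/
theorem spf_frob_inv_mul_mem_inertia (A : ValuationSubring L) {ℓ : ℕ} {s0 σ : L ≃ₐ[K] L}
    (hs0 : A.IsFrobeniusAt s0 ℓ) (hσ : A.IsFrobeniusAt σ ℓ) :
    s0⁻¹ * σ ∈ A.inertiaSubgroupIn K := by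
  refine ⟨⟨s0, hs0.mem_decompositionSubgroup⟩⁻¹ * ⟨σ, hσ.mem_decompositionSubgroup⟩, ?_, rfl⟩
  unfold ValuationSubring.inertiaSubgroup
  rw [SetLike.mem_coe, MonoidHom.mem_ker]
  ext x
  show (⟨s0, hs0.mem_decompositionSubgroup⟩⁻¹ * ⟨σ, hσ.mem_decompositionSubgroup⟩ :
    A.decompositionSubgroup K) • x = x
  rw [mul_smul, hσ.smul_residue_eq, ← hs0.smul_residue_eq, inv_smul_smul]

end Ramification

section Formal

variable {K L : Type*} [Field K] [Field L] [Algebra K L]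
variable (p : ℕ) (J : Type) [AddCommGroup J] [Module HeckeAlg J]
  [DistribMulAction (L ≃ₐ[K] L) J] [SMulCommClass (L ≃ₐ[K] L) HeckeAlg J]

/-- the generating set of the formal subgroup. -/
def spf_gens (A : ValuationSubring L) (ℓ : ℕ) (hℓ : ℓ.Prime) (s0 : L ≃ₐ[K] L) : Set J :=
  {y | ∃ τ ∈ A.inertiaSubgroupIn K, ∃ x : J, y = τ • x - x} ∪
    {y | ∃ x : J, y = s0 • s0 • x - heckeGen ⟨ℓ, hℓ⟩ • (s0 • x) + ℓ • x}

variable {J}

theorem spf_smul_mem_gens (A : ValuationSubring L) (ℓ : ℕ) (hℓ : ℓ.Prime) (s0 : L ≃ₐ[K] L)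
    (T : HeckeAlg) {y : J} (hy : y ∈ spf_gens (K := K) J A ℓ hℓ s0) :
    T • y ∈ spf_gens (K := K) J A ℓ hℓ s0 := by
  have : SMulCommClass HeckeAlg (L ≃ₐ[K] L) J := SMulCommClass.symm _ _ _
  rcases hy with ⟨τ, hτ, x, rfl⟩ | ⟨x, rfl⟩
  · left
    refine ⟨τ, hτ, T • x, ?_⟩
    rw [smul_sub, smul_comm T τ x]
  · right
    refine ⟨T • x, ?_⟩
    rw [smul_add, smul_sub, smul_comm T s0 (s0 • x), smul_comm T s0 x,
      smul_comm T (heckeGen ⟨ℓ, hℓ⟩) (s0 • x), smul_comm T s0 x, smul_comm T ℓ x]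

theorem spf_frob_smul_mem_closure (A : ValuationSubring L) (ℓ : ℕ) (hℓ : ℓ.Prime)
    (s0 : L ≃ₐ[K] L) (hs0 : s0 ∈ A.decompositionSubgroup K) {y : J}
    (hy : y ∈ spf_gens (K := K) J A ℓ hℓ s0) :
    s0 • y ∈ spf_gens (K := K) J A ℓ hℓ s0 := by
  rcases hy with ⟨τ, hτ, x, rfl⟩ | ⟨x, rfl⟩
  · left
    refine ⟨s0 * τ * s0⁻¹, spf_conj_mem_inertia A hs0 hτ, s0 • x, ?_⟩
    rw [smul_sub, mul_smul, mul_smul, inv_smul_smul]
  · right
    refine ⟨s0 • x, ?_⟩
    rw [smul_add, smul_sub, smul_comm s0 (heckeGen ⟨ℓ, hℓ⟩) (s0 • x), smul_comm s0 ℓ x]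

variable (J)

/-- the formal Hecke-submodule `H'`. -/
def spf_H (A : ValuationSubring L) (ℓ : ℕ) (hℓ : ℓ.Prime) (s0 : L ≃ₐ[K] L) :
    Submodule HeckeAlg J where
  carrier := AddSubgroup.closure (spf_gens (K := K) J A ℓ hℓ s0)
  zero_mem' := AddSubgroup.zero_mem _
  add_mem' := AddSubgroup.add_mem _
  smul_mem' := by
    intro T y hy
    induction hy using AddSubgroup.closure_induction with
    | mem y hy => exact AddSubgroup.subset_closure (spf_smul_mem_gens A ℓ hℓ s0 T hy)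
    | zero => rw [smul_zero]; exact AddSubgroup.zero_mem _
    | add y z _ _ hy hz => rw [smul_add]; exact AddSubgroup.add_mem _ hy hz
    | neg y _ hy => rw [smul_neg]; exact AddSubgroup.neg_mem _ hy

variable {J}

theorem spf_mem_H_iff (A : ValuationSubring L) (ℓ : ℕ) (hℓ : ℓ.Prime) (s0 : L ≃ₐ[K] L) (y : J) :
    y ∈ spf_H (K := K) J A ℓ hℓ s0 ↔
      y ∈ AddSubgroup.closure (spf_gens (K := K) J A ℓ hℓ s0) := Iff.rfl

theorem spf_H_le (A : ValuationSubring L) (ℓ : ℕ) (hℓ : ℓ.Prime) (s0 : L ≃ₐ[K] L)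
    (Kred : AddSubgroup J)
    (hI : ∀ τ ∈ A.inertiaSubgroupIn K, ∀ x : J, τ • x - x ∈ Kred)
    (hES : ∀ x : J, s0 • s0 • x - heckeGen ⟨ℓ, hℓ⟩ • (s0 • x) + ℓ • x ∈ Kred)
    {y : J} (hy : y ∈ spf_H (K := K) J A ℓ hℓ s0) : y ∈ Kred := by
  rw [spf_mem_H_iff] at hy
  refine (AddSubgroup.closure_le Kred).mpr ?_ hy
  rintro y (⟨τ, hτ, x, rfl⟩ | ⟨x, rfl⟩)
  · exact hI τ hτ x
  · exact hES x

theorem spf_frob_smul_mem_H (A : ValuationSubring L) (ℓ : ℕ) (hℓ : ℓ.Prime)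
    (s0 : L ≃ₐ[K] L) (hs0 : s0 ∈ A.decompositionSubgroup K) {y : J}
    (hy : y ∈ spf_H (K := K) J A ℓ hℓ s0) : s0 • y ∈ spf_H (K := K) J A ℓ hℓ s0 := by
  rw [spf_mem_H_iff] at hy ⊢
  induction hy using AddSubgroup.closure_induction with
  | mem y hy => exact AddSubgroup.subset_closure (spf_frob_smul_mem_closure A ℓ hℓ s0 hs0 hy)
  | zero => rw [smul_zero]; exact AddSubgroup.zero_mem _
  | add y z _ _ hy hz => rw [smul_add]; exact AddSubgroup.add_mem _ hy hz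
  | neg y _ hy => rw [smul_neg]; exact AddSubgroup.neg_mem _ hy

/-- **Formal part of S37.**  From a subgroup `Kred` ("kernel of reduction") containing the
inertia-augmentation and the Eichler–Shimura elements for ONE Frobenius `s0`, and meeting the
`p`-power torsion trivially, the specialization data exist. -/
theorem spf_exists_specialization (A : ValuationSubring L) (ℓ : ℕ) (hℓ : ℓ.Prime)
    (s0 : L ≃ₐ[K] L) (hs0 : A.IsFrobeniusAt s0 ℓ)
    (Kred : AddSubgroup J)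
    (hI : ∀ τ ∈ A.inertiaSubgroupIn K, ∀ x : J, τ • x - x ∈ Kred)
    (hES : ∀ x : J, s0 • s0 • x - heckeGen ⟨ℓ, hℓ⟩ • (s0 • x) + ℓ • x ∈ Kred)
    (htors : ∀ x : J, (∃ n : ℕ, p ^ n • x = 0) → x ∈ Kred → x = 0) :
    ∃ (J' : Type) (_ : AddCommGroup J') (_ : Module HeckeAlg J') (sp : J →+ J')
      (F : J' →+ J'),
      IsSpecialization (K := K) p J J' A ℓ sp F ∧ SpecialFibreRelation J' ℓ hℓ F := by
  classical
  set H : Submodule HeckeAlg J := spf_H (K := K) J A ℓ hℓ s0 with hH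
  have hs0D : s0 ∈ A.decompositionSubgroup K := hs0.mem_decompositionSubgroup
  let s0lin : J →ₗ[HeckeAlg] J := DistribSMul.toLinearMap HeckeAlg J s0
  have hle : H ≤ H.comap s0lin := fun y hy => spf_frob_smul_mem_H A ℓ hℓ s0 hs0D hy
  let Flin : (J ⧸ H) →ₗ[HeckeAlg] (J ⧸ H) := H.mapQ H s0lin hle
  have hFmk : ∀ x : J, Flin (H.mkQ x) = H.mkQ (s0 • x) := fun x => rfl
  have hmk0 : ∀ y : J, y ∈ H → H.mkQ y = 0 := fun y hy => by
    rw [Submodule.mkQ_apply, Submodule.Quotient.mk_eq_zero]; exact hy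
  have hmkeq : ∀ x y : J, x - y ∈ H → H.mkQ x = H.mkQ y := fun x y h => by
    rw [← sub_eq_zero, ← map_sub]; exact hmk0 _ h
  refine ⟨J ⧸ H, inferInstance, inferInstance, H.mkQ.toAddMonoidHom, Flin.toAddMonoidHom,
    ⟨?_, ?_, ?_, ?_⟩, ?_⟩
  · -- hecke_comm
    intro T x
    exact map_smul H.mkQ T x
  · -- inertia_comm
    intro σ hσ x
    refine hmkeq _ _ ?_
    exact AddSubgroup.subset_closure (Or.inl ⟨σ, hσ, x, rfl⟩)
  · -- frobenius_comm
    intro σ hσ x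
    show H.mkQ (σ • x) = Flin (H.mkQ x)
    rw [hFmk]
    refine hmkeq _ _ ?_
    have hτ := spf_frob_inv_mul_mem_inertia A hs0 hσ
    have hgen : (s0⁻¹ * σ) • x - x ∈ H :=
      AddSubgroup.subset_closure (Or.inl ⟨s0⁻¹ * σ, hτ, x, rfl⟩)
    have h2 := spf_frob_smul_mem_H A ℓ hℓ s0 hs0D hgen
    rwa [smul_sub, mul_smul, smul_inv_smul] at h2
  · -- injective_torsion
    intro x hx hsp
    have hxH : x ∈ H := by
      have : H.mkQ x = 0 := hsp
      rwa [Submodule.mkQ_apply, Submodule.Quotient.mk_eq_zero] at this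
    exact htors x hx (spf_H_le A ℓ hℓ s0 Kred hI hES hxH)
  · -- SpecialFibreRelation
    intro y
    obtain ⟨x, rfl⟩ := H.mkQ_surjective y
    show Flin (Flin (H.mkQ x)) - heckeGen ⟨ℓ, hℓ⟩ • Flin (H.mkQ x) + ℓ • H.mkQ x = 0
    rw [hFmk, hFmk, ← map_smul, ← map_nsmul, ← map_sub, ← map_add]
    exact hmk0 _ (AddSubgroup.subset_closure (Or.inr ⟨x, rfl⟩))

/-- `SpecializationExists` from kernels of reduction at every good prime. -/
theorem spf_specializationExists (N : ℕ)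
    (h : ∀ ℓ : ℕ, (hℓ : ℓ.Prime) → ¬ ℓ ∣ N * p →
      ∀ A : ValuationSubring L, A.LiesOverPrime ℓ →
        ∃ (s0 : L ≃ₐ[K] L) (_ : A.IsFrobeniusAt s0 ℓ) (Kred : AddSubgroup J),
          (∀ τ ∈ A.inertiaSubgroupIn K, ∀ x : J, τ • x - x ∈ Kred) ∧
          (∀ x : J, s0 • s0 • x - heckeGen ⟨ℓ, hℓ⟩ • (s0 • x) + ℓ • x ∈ Kred) ∧
          (∀ x : J, (∃ n : ℕ, p ^ n • x = 0) → x ∈ Kred → x = 0)) :
    SpecializationExists (K := K) (L := L) N p J := by
  intro ℓ hℓ hℓN A hA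
  obtain ⟨s0, hs0, Kred, hI, hES, htors⟩ := h ℓ hℓ hℓN A hA
  exact spf_exists_specialization p A ℓ hℓ s0 hs0 Kred hI hES htors

end Formal

end Fermat.Agent.S37x
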