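/-
S37 formal leaf F0' (helper44): the frozen S37 conclusion from "kernels of reduction" on `JZero N`,
with the Hecke action spelled out through `heckeOperatorBar`.
-/
import Fermat.Prelude.Def_ModularCurve_HeckeModule
import Fermat.Agent.S37x.SpecFormal

set_option autoImplicit false

namespace Fermat.Agent.S37x

open ModularCurve

/-- **S37 from kernels of reduction** (exact frozen conclusion).  For every good prime `ℓ` and
every `A` over `ℓ` one needs: one Frobenius `s0` at `A` and a subgroup `Kred ≤ JZero N` with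
`(τ - 1) x ∈ Kred` (`τ` inertia), `(s0² - T_ℓ s0 + ℓ) x ∈ Kred`, and `Kred ∩ J[p^∞] = 0`. -/
theorem spf_S37_of_kernels (N p : ℕ) [NeZero N] (hcomm : HeckeOperatorsCommuteBar N)
    (h : ∀ ℓ : ℕ, (hℓ : ℓ.Prime) → ¬ ℓ ∣ N * p →
      ∀ A : ValuationSubring (AlgebraicClosure ℚ), A.LiesOverPrime ℓ →
        ∃ (s0 : AlgebraicClosure ℚ ≃ₐ[ℚ] AlgebraicClosure ℚ) (_ : A.IsFrobeniusAt s0 ℓ)
          (Kred : AddSubgroup (JZero N)),
          (∀ τ ∈ A.inertiaSubgroupIn ℚ, ∀ x : JZero N, τ • x - x ∈ Kred) ∧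
          (∀ x : JZero N,
            s0 • s0 • x - heckeOperatorBar N ⟨ℓ, hℓ⟩ (s0 • x) + ℓ • x ∈ Kred) ∧
          (∀ x : JZero N, (∃ n : ℕ, p ^ n • x = 0) → x ∈ Kred → x = 0)) :
    letI := heckeModuleBar N
    ∀ (_ : SMulCommClass (AlgebraicClosure ℚ ≃ₐ[ℚ] AlgebraicClosure ℚ) HeckeAlg (JZero N)),
      SpecializationExists (K := ℚ) (L := AlgebraicClosure ℚ) N p (JZero N) := by
  letI := heckeModuleBar N
  intro _
  refine spf_specializationExists p N ?_
  intro ℓ hℓ hℓN A hA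
  obtain ⟨s0, hs0, Kred, hI, hES, htors⟩ := h ℓ hℓ hℓN A hA
  refine ⟨s0, hs0, Kred, hI, ?_, htors⟩
  intro x
  rw [heckeModuleBar_heckeGen_smul hcomm]
  exact hES x

end Fermat.Agent.S37x
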