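/-
S37 prep (helper32): the abstract **glue** from a "reduction map" to the prelude's
`ModularCurve.IsSpecialization ∧ SpecialFibreRelation` clause of `SpecializationExists`.

Given `red : J →+ R` (any additive map, e.g. reduction of `Pic⁰` modulo `ℓ`) we put
`M := {x | ∀ T : HeckeAlg, red (T • x) = 0}` (the largest Hecke-stable subgroup of `ker red`) and
`J' := J ⧸ M`.  Then Hecke-equivariance of `sp := mk` is free, and the remaining clauses follow from
* `red (τ • y) = red y` for `τ` in the inertia group,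
* `red y = 0 → red (σ₀ • y) = 0` for one Frobenius element `σ₀`,
* injectivity of `red` on `p`-power torsion,
* the Eichler–Shimura relation `red (σ₀² y - T_ℓ σ₀ y + ℓ y) = 0`.
In particular nothing is needed about `T_q`, `q ≠ ℓ`, beyond commutation with the Galois action.

All names carry the prefix `sgl`.
-/
import Mathlib
import Fermat.Prelude.Def_HeckeGalois_EichlerShimura

set_option autoImplicit false

namespace Fermat.Agent.S37x

open ModularCurve

section Frob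

variable {K L : Type*} [Field K] [Field L] [Algebra K L]

/-- two Frobenius elements at `A` differ by an element of the inertia group. -/
theorem sgl_inv_mul_mem_inertia {A : ValuationSubring L} {σ σ₀ : L ≃ₐ[K] L} {ℓ : ℕ}
    (h : A.IsFrobeniusAt σ ℓ) (h₀ : A.IsFrobeniusAt σ₀ ℓ) :
    σ₀⁻¹ * σ ∈ A.inertiaSubgroupIn K := by
  obtain ⟨hσ, hx⟩ := h
  obtain ⟨hσ₀, hx₀⟩ := h₀
  refine ⟨(⟨σ₀, hσ₀⟩ : A.decompositionSubgroup K)⁻¹ * ⟨σ, hσ⟩, ?_, rfl⟩
  show MulSemiringAction.toRingAut (A.decompositionSubgroup K) (IsLocalRing.ResidueField A)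
    ((⟨σ₀, hσ₀⟩ : A.decompositionSubgroup K)⁻¹ * ⟨σ, hσ⟩) = 1
  ext x
  show ((⟨σ₀, hσ₀⟩ : A.decompositionSubgroup K)⁻¹ * ⟨σ, hσ⟩) • x = x
  rw [mul_smul, hx, ← hx₀, inv_smul_smul]

end Frob

section Glue

variable {K L : Type*} [Field K] [Field L] [Algebra K L]
variable {J : Type} [AddCommGroup J] [Module HeckeAlg J]
  [DistribMulAction (L ≃ₐ[K] L) J] [SMulCommClass (L ≃ₐ[K] L) HeckeAlg J]
variable {R : Type*} [AddCommGroup R] (red : J →+ R)

/-- the largest Hecke-stable subgroup of `ker red`. -/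
def sglM : Submodule HeckeAlg J where
  carrier := {x | ∀ T : HeckeAlg, red (T • x) = 0}
  zero_mem' := fun T => by rw [smul_zero, map_zero]
  add_mem' := fun {x y} hx hy T => by rw [smul_add, map_add, hx T, hy T, add_zero]
  smul_mem' := fun c x hx T => by rw [← mul_smul]; exact hx _

theorem sgl_mem_M {x : J} : x ∈ sglM red ↔ ∀ T : HeckeAlg, red (T • x) = 0 := Iff.rfl

theorem sgl_red_eq_zero_of_mem {x : J} (hx : x ∈ sglM red) : red x = 0 := by
  have := hx 1
  rwa [one_smul] at this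

/-- a Galois element as a `HeckeAlg`-linear endomorphism of `J`. -/
def sglSigma (σ : L ≃ₐ[K] L) : J →ₗ[HeckeAlg] J where
  toFun x := σ • x
  map_add' := smul_add σ
  map_smul' T x := smul_comm σ T x

@[simp] theorem sglSigma_apply (σ : L ≃ₐ[K] L) (x : J) : sglSigma (K := K) σ x = σ • x := rfl

theorem sgl_smul_sub_mem_of_inertia {A : ValuationSubring L}
    (hI : ∀ τ ∈ A.inertiaSubgroupIn K, ∀ y : J, red (τ • y) = red y)
    {τ : L ≃ₐ[K] L} (hτ : τ ∈ A.inertiaSubgroupIn K) (x : J) : τ • x - x ∈ sglM red := by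
  intro T
  rw [smul_sub, ← smul_comm τ T x, map_sub, hI τ hτ, sub_self]

theorem sgl_sigma_mem {σ₀ : L ≃ₐ[K] L} (hF : ∀ y : J, red y = 0 → red (σ₀ • y) = 0)
    {x : J} (hx : x ∈ sglM red) : σ₀ • x ∈ sglM red := by
  intro T
  rw [← smul_comm σ₀ T x]
  exact hF _ (hx T)

/-- **Glue**: the `IsSpecialization ∧ SpecialFibreRelation` clause from a reduction map. -/
theorem sgl_exists_specialization (p : ℕ) (A : ValuationSubring L) (ℓ : ℕ) (hℓ : ℓ.Prime)
    (σ₀ : L ≃ₐ[K] L) (hσ₀ : A.IsFrobeniusAt σ₀ ℓ)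
    (hI : ∀ τ ∈ A.inertiaSubgroupIn K, ∀ y : J, red (τ • y) = red y)
    (hF : ∀ y : J, red y = 0 → red (σ₀ • y) = 0)
    (hinj : ∀ x : J, (∃ n : ℕ, p ^ n • x = 0) → red x = 0 → x = 0)
    (hES : ∀ y : J, red (σ₀ • σ₀ • y - heckeGen ⟨ℓ, hℓ⟩ • (σ₀ • y) + ℓ • y) = 0) :
    ∃ (J' : Type) (_ : AddCommGroup J') (_ : Module HeckeAlg J') (sp : J →+ J') (F : J' →+ J'),
      IsSpecialization (K := K) p J J' A ℓ sp F ∧ SpecialFibreRelation J' ℓ hℓ F := by
  have hle : sglM red ≤ (sglM red).comap (sglSigma (K := K) σ₀) := fun x hx =>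
    sgl_sigma_mem red hF hx
  refine ⟨J ⧸ sglM red, inferInstance, inferInstance, (sglM red).mkQ.toAddMonoidHom,
    ((sglM red).mapQ (sglM red) (sglSigma (K := K) σ₀) hle).toAddMonoidHom, ⟨?_, ?_, ?_, ?_⟩, ?_⟩
  · intro T x
    exact map_smul (sglM red).mkQ T x
  · intro τ hτ x
    show (sglM red).mkQ (τ • x) = (sglM red).mkQ x
    rw [← sub_eq_zero, ← map_sub, Submodule.mkQ_apply, Submodule.Quotient.mk_eq_zero]
    exact sgl_smul_sub_mem_of_inertia red hI hτ x
  · intro σ hσ x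
    show (sglM red).mkQ (σ • x) = (sglM red).mapQ (sglM red) (sglSigma (K := K) σ₀) hle
      ((sglM red).mkQ x)
    rw [Submodule.mkQ_apply, Submodule.mkQ_apply, Submodule.mapQ_apply, sglSigma_apply,
      ← sub_eq_zero, ← Submodule.Quotient.mk_sub, Submodule.Quotient.mk_eq_zero]
    have hτ := sgl_inv_mul_mem_inertia hσ hσ₀
    have h1 := sgl_sigma_mem red hF (sgl_smul_sub_mem_of_inertia red hI hτ x)
    rwa [smul_sub, ← mul_smul, mul_inv_cancel_left] at h1
  · intro x hx hx0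
    refine hinj x hx (sgl_red_eq_zero_of_mem red ?_)
    have : (sglM red).mkQ x = 0 := hx0
    rwa [Submodule.mkQ_apply, Submodule.Quotient.mk_eq_zero] at this
  · intro y
    obtain ⟨x, rfl⟩ := (sglM red).mkQ_surjective y
    show (sglM red).mapQ (sglM red) (sglSigma (K := K) σ₀) hle
        ((sglM red).mapQ (sglM red) (sglSigma (K := K) σ₀) hle ((sglM red).mkQ x)) -
        heckeGen ⟨ℓ, hℓ⟩ • (sglM red).mapQ (sglM red) (sglSigma (K := K) σ₀) hle
          ((sglM red).mkQ x) + ℓ • (sglM red).mkQ x = 0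
    simp only [Submodule.mkQ_apply, Submodule.mapQ_apply, sglSigma_apply]
    rw [← Submodule.Quotient.mk_smul, ← Submodule.Quotient.mk_smul, ← Submodule.Quotient.mk_sub,
      ← Submodule.Quotient.mk_add, Submodule.Quotient.mk_eq_zero]
    intro T
    have h2 : T • (σ₀ • σ₀ • x - heckeGen ⟨ℓ, hℓ⟩ • σ₀ • x + ℓ • x) =
        σ₀ • σ₀ • (T • x) - heckeGen ⟨ℓ, hℓ⟩ • σ₀ • (T • x) + ℓ • (T • x) := by
      rw [smul_add, smul_sub, smul_comm T (heckeGen ⟨ℓ, hℓ⟩), smul_comm T ℓ,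
        ← smul_comm σ₀ T (σ₀ • x), ← smul_comm σ₀ T x]
    rw [h2]
    exact hES (T • x)

/-- the packaged form: `SpecializationExists` from reduction data at every good prime. -/
theorem sgl_specializationExists (N p : ℕ)
    (h : ∀ ℓ : ℕ, (hℓ : ℓ.Prime) → ¬ ℓ ∣ N * p →
      ∀ A : ValuationSubring L, A.LiesOverPrime ℓ →
        ∃ (R : Type) (_ : AddCommGroup R) (red : J →+ R) (σ₀ : L ≃ₐ[K] L),
          A.IsFrobeniusAt σ₀ ℓ ∧
          (∀ τ ∈ A.inertiaSubgroupIn K, ∀ y : J, red (τ • y) = red y) ∧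
          (∀ y : J, red y = 0 → red (σ₀ • y) = 0) ∧
          (∀ x : J, (∃ n : ℕ, p ^ n • x = 0) → red x = 0 → x = 0) ∧
          (∀ y : J, red (σ₀ • σ₀ • y - heckeGen ⟨ℓ, hℓ⟩ • (σ₀ • y) + ℓ • y) = 0)) :
    SpecializationExists (K := K) (L := L) N p J := by
  intro ℓ hℓ hℓN A hA
  obtain ⟨R, _, red, σ₀, hσ₀, hI, hF, hinj, hES⟩ := h ℓ hℓ hℓN A hA
  exact sgl_exists_specialization red p A ℓ hℓ σ₀ hσ₀ hI hF hinj hES

end Glue

end Fermat.Agent.S37x
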