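import Mathlib
import Fermat.Prelude.Def_HeckeGalois_EichlerShimura

/-!
# S37 glue: `SpecializationExists` from a "reduction map" with Eichler–Shimura at `ℓ`

Abstract and independent of modular curves.  `J` is an abelian group with commuting actions of the
formal Hecke algebra `HeckeAlg` and of a Galois group.  For a valuation subring `A` over `ℓ`
suppose we are given an additive map `red : J →+ Jb` such that

* `red` is invariant under inertia at `A`,
* `ker red` is stable under Frobenius elements at `A` (and at least one exists),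
* `red` is injective on `p`-power torsion,
* the Eichler–Shimura relation holds after `red`:
  `red (σ • σ • y) - red (T_ℓ • σ • y) + ℓ • red y = 0` for a Frobenius `σ`.

No compatibility of `red` with the Hecke operators is assumed: we quotient `J` by the largest
`HeckeAlg`-submodule `sg37_K0` contained in `ker red`.
-/

set_option autoImplicit false

namespace Fermat.Agent.S37x

open ModularCurve

section TwoFrobenii

variable {K L : Type*} [Field K] [Field L] [Algebra K L]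

/-- Two Frobenius elements at `A` differ by an element of the inertia group. -/
theorem sg37_inv_mul_mem_inertia (A : ValuationSubring L) (ℓ : ℕ)
    {σ τ : L ≃ₐ[K] L} (hσ : A.IsFrobeniusAt σ ℓ) (hτ : A.IsFrobeniusAt τ ℓ) :
    σ⁻¹ * τ ∈ A.inertiaSubgroupIn K := by
  obtain ⟨hσD, hσx⟩ := hσ
  obtain ⟨hτD, hτx⟩ := hτ
  refine ⟨(⟨σ, hσD⟩ : A.decompositionSubgroup K)⁻¹ * ⟨τ, hτD⟩, ?_, rfl⟩
  show _ ∈ MonoidHom.ker _
  rw [MonoidHom.mem_ker]
  ext x
  show ((⟨σ, hσD⟩ : A.decompositionSubgroup K)⁻¹ * ⟨τ, hτD⟩) • x = x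
  rw [mul_smul, hτx x, ← hσx x, inv_smul_smul]

end TwoFrobenii

section Glue

variable {K L : Type*} [Field K] [Field L] [Algebra K L]
variable {J : Type} [AddCommGroup J] [Module HeckeAlg J]
  [DistribMulAction (L ≃ₐ[K] L) J] [SMulCommClass (L ≃ₐ[K] L) HeckeAlg J]
variable {Jb : Type*} [AddCommGroup Jb]

/-- The largest `HeckeAlg`-submodule of `J` contained in the kernel of `red`. -/
def sg37_K0 (red : J →+ Jb) : Submodule HeckeAlg J where
  carrier := {x | ∀ T : HeckeAlg, red (T • x) = 0}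
  add_mem' := by
    intro x y hx hy T
    rw [smul_add, map_add, hx T, hy T, add_zero]
  zero_mem' := by
    intro T
    rw [smul_zero, map_zero]
  smul_mem' := by
    intro c x hx T
    rw [smul_smul]
    exact hx _

theorem sg37_mem_K0 (red : J →+ Jb) (x : J) :
    x ∈ sg37_K0 red ↔ ∀ T : HeckeAlg, red (T • x) = 0 := Iff.rfl

theorem sg37_red_eq_zero_of_mem_K0 (red : J →+ Jb) {x : J} (hx : x ∈ sg37_K0 red) :
    red x = 0 := by
  have := hx 1
  rwa [one_smul] at this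

/-- The Galois action of a fixed element as a `HeckeAlg`-linear map. -/
def sg37_galLin (σ : L ≃ₐ[K] L) : J →ₗ[HeckeAlg] J where
  toFun x := σ • x
  map_add' x y := smul_add σ x y
  map_smul' T x := by
    simp only [RingHom.id_apply]
    exact smul_comm σ T x

@[simp] theorem sg37_galLin_apply (σ : L ≃ₐ[K] L) (x : J) :
    sg37_galLin (J := J) σ x = σ • x := rfl

theorem sg37_K0_le_comap (red : J →+ Jb) (σ : L ≃ₐ[K] L)
    (hσ : ∀ x : J, red x = 0 → red (σ • x) = 0) :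
    sg37_K0 red ≤ (sg37_K0 red).comap (sg37_galLin (J := J) σ) := by
  intro x hx T
  show red (T • σ • x) = 0
  rw [← smul_comm σ T x]
  exact hσ _ (hx T)

/-- **Glue theorem.**  See the module docstring. -/
theorem sg37_exists_specialization (p : ℕ) (A : ValuationSubring L) (ℓ : ℕ) (hℓ : ℓ.Prime)
    (red : J →+ Jb)
    (hI : ∀ τ ∈ A.inertiaSubgroupIn K, ∀ x : J, red (τ • x) = red x)
    (hF0 : ∃ σ : L ≃ₐ[K] L, A.IsFrobeniusAt σ ℓ)
    (hF1 : ∀ σ : L ≃ₐ[K] L, A.IsFrobeniusAt σ ℓ → ∀ x : J, red x = 0 → red (σ • x) = 0)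
    (hinj : ∀ x : J, (∃ n : ℕ, p ^ n • x = 0) → red x = 0 → x = 0)
    (hES : ∀ σ : L ≃ₐ[K] L, A.IsFrobeniusAt σ ℓ → ∀ y : J,
      red (σ • σ • y) - red (heckeGen ⟨ℓ, hℓ⟩ • σ • y) + ℓ • red y = 0) :
    ∃ (J' : Type) (_ : AddCommGroup J') (_ : Module HeckeAlg J') (sp : J →+ J')
      (F : J' →+ J'),
      IsSpecialization (K := K) p J J' A ℓ sp F ∧ SpecialFibreRelation J' ℓ hℓ F := by
  classical
  obtain ⟨s0, hs0⟩ := hF0
  let K0 : Submodule HeckeAlg J := sg37_K0 red
  have hK0s0 : K0 ≤ K0.comap (sg37_galLin (J := J) s0) :=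
    sg37_K0_le_comap red s0 (hF1 s0 hs0)
  let Fl : (J ⧸ K0) →ₗ[HeckeAlg] (J ⧸ K0) := K0.mapQ K0 (sg37_galLin (J := J) s0) hK0s0
  refine ⟨J ⧸ K0, inferInstance, inferInstance, K0.mkQ.toAddMonoidHom, Fl.toAddMonoidHom, ?_, ?_⟩
  · refine ⟨?_, ?_, ?_, ?_⟩
    · -- Hecke compatibility
      intro T x
      exact map_smul K0.mkQ T x
    · -- inertia
      intro τ hτ x
      show K0.mkQ (τ • x) = K0.mkQ x
      rw [← sub_eq_zero, ← map_sub, Submodule.mkQ_apply, Submodule.Quotient.mk_eq_zero]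
      intro T
      rw [smul_sub, map_sub, ← smul_comm τ T x, hI τ hτ, sub_self]
    · -- Frobenius
      intro σ hσ x
      show K0.mkQ (σ • x) = Fl (K0.mkQ x)
      have hFl : Fl (K0.mkQ x) = K0.mkQ (s0 • x) := by
        show K0.mapQ K0 (sg37_galLin (J := J) s0) hK0s0 (Submodule.Quotient.mk x) = _
        rw [Submodule.mapQ_apply]
        rfl
      rw [hFl, ← sub_eq_zero, ← map_sub, Submodule.mkQ_apply, Submodule.Quotient.mk_eq_zero]
      intro T
      -- `σ = s0 * (s0⁻¹ * σ)` with `s0⁻¹ * σ` in inertia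
      have hτ : s0⁻¹ * σ ∈ A.inertiaSubgroupIn K := sg37_inv_mul_mem_inertia A ℓ hs0 hσ
      have h1 : σ • x - s0 • x = s0 • ((s0⁻¹ * σ) • x - x) := by
        rw [smul_sub, smul_smul, mul_inv_cancel_left]
      rw [h1, ← smul_comm s0 T]
      apply hF1 s0 hs0
      rw [smul_sub, map_sub, ← smul_comm (s0⁻¹ * σ) T x, hI _ hτ, sub_self]
    · -- injectivity on torsion
      intro x hx hsp
      have hmem : x ∈ K0 := by
        have : K0.mkQ x = 0 := hsp
        rwa [Submodule.mkQ_apply, Submodule.Quotient.mk_eq_zero] at this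
      exact hinj x hx (sg37_red_eq_zero_of_mem_K0 red hmem)
  · -- special fibre relation
    intro y
    obtain ⟨x, rfl⟩ := K0.mkQ_surjective y
    have hFl : ∀ z : J, Fl (K0.mkQ z) = K0.mkQ (s0 • z) := by
      intro z
      show K0.mapQ K0 (sg37_galLin (J := J) s0) hK0s0 (Submodule.Quotient.mk z) = _
      rw [Submodule.mapQ_apply]
      rfl
    show Fl (Fl (K0.mkQ x)) - heckeGen ⟨ℓ, hℓ⟩ • Fl (K0.mkQ x) + ℓ • K0.mkQ x = 0
    rw [hFl, hFl, ← map_smul, ← map_nsmul, ← map_sub, ← map_add, Submodule.mkQ_apply,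
      Submodule.Quotient.mk_eq_zero]
    intro T
    have h1 : T • (s0 • s0 • x - heckeGen ⟨ℓ, hℓ⟩ • s0 • x + ℓ • x)
        = s0 • s0 • (T • x) - heckeGen ⟨ℓ, hℓ⟩ • s0 • (T • x) + ℓ • (T • x) := by
      rw [smul_add, smul_sub, ← smul_comm s0 T (s0 • x), ← smul_comm s0 T x,
        smul_comm T (heckeGen ⟨ℓ, hℓ⟩) (s0 • x), ← smul_comm s0 T x, smul_comm T ℓ x]
    rw [h1, map_add, map_sub, map_nsmul]
    exact hES s0 hs0 (T • x)

/-- The packaged form: `SpecializationExists` from reduction data at every `(ℓ, A)`. -/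
theorem sg37_specializationExists (N p : ℕ)
    (H : ∀ (ℓ : ℕ) (hℓ : ℓ.Prime), ¬ ℓ ∣ N * p → ∀ A : ValuationSubring L, A.LiesOverPrime ℓ →
      ∃ (Jb : Type) (_ : AddCommGroup Jb) (red : J →+ Jb),
        (∀ τ ∈ A.inertiaSubgroupIn K, ∀ x : J, red (τ • x) = red x) ∧
        (∃ σ : L ≃ₐ[K] L, A.IsFrobeniusAt σ ℓ) ∧
        (∀ σ : L ≃ₐ[K] L, A.IsFrobeniusAt σ ℓ → ∀ x : J, red x = 0 → red (σ • x) = 0) ∧
        (∀ x : J, (∃ n : ℕ, p ^ n • x = 0) → red x = 0 → x = 0) ∧
        (∀ σ : L ≃ₐ[K] L, A.IsFrobeniusAt σ ℓ → ∀ y : J,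
          red (σ • σ • y) - red (heckeGen ⟨ℓ, hℓ⟩ • σ • y) + ℓ • red y = 0)) :
    SpecializationExists (K := K) (L := L) N p J := by
  intro ℓ hℓ hℓNp A hA
  obtain ⟨Jb, _, red, hI, hF0, hF1, hinj, hES⟩ := H ℓ hℓ hℓNp A hA
  exact sg37_exists_specialization p A ℓ hℓ red hI hF0 hF1 hinj hES

end Glue

end Fermat.Agent.S37x
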