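import Fermat.Prelude.Def_ModularCurve_HeckeModule
import Fermat.Agent.S37x.SpecGlueK0
open ModularCurve
set_option autoImplicit false
namespace Fermat.Agent.S37x

theorem sg37_result_of (N p : ℕ) [NeZero N] (hcomm : ModularCurve.HeckeOperatorsCommuteBar N)
    (H : ∀ (ℓ : ℕ) (hℓ : ℓ.Prime), ¬ ℓ ∣ N * p →
      ∀ A : ValuationSubring (AlgebraicClosure ℚ), A.LiesOverPrime ℓ →
      ∃ (Jb : Type) (_ : AddCommGroup Jb) (red : JZero N →+ Jb),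
        (∀ τ ∈ A.inertiaSubgroupIn ℚ, ∀ x : JZero N, red (τ • x) = red x) ∧
        (∃ σ : AlgebraicClosure ℚ ≃ₐ[ℚ] AlgebraicClosure ℚ, A.IsFrobeniusAt σ ℓ) ∧
        (∀ σ : AlgebraicClosure ℚ ≃ₐ[ℚ] AlgebraicClosure ℚ, A.IsFrobeniusAt σ ℓ →
          ∀ x : JZero N, red x = 0 → red (σ • x) = 0) ∧
        (∀ x : JZero N, (∃ n : ℕ, p ^ n • x = 0) → red x = 0 → x = 0) ∧
        (∀ σ : AlgebraicClosure ℚ ≃ₐ[ℚ] AlgebraicClosure ℚ, A.IsFrobeniusAt σ ℓ → ∀ y : JZero N,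
          red (σ • σ • y) - red (heckeOperatorBar N ⟨ℓ, hℓ⟩ (σ • y)) + ℓ • red y = 0)) :
    letI := ModularCurve.heckeModuleBar N
    ∀ (_ : SMulCommClass (AlgebraicClosure ℚ ≃ₐ[ℚ] AlgebraicClosure ℚ) ModularCurve.HeckeAlg
      (ModularCurve.JZero N)),
      ModularCurve.SpecializationExists (K := ℚ) (L := AlgebraicClosure ℚ) N p
        (ModularCurve.JZero N) := by
  let _ := ModularCurve.heckeModuleBar N
  intro hsc
  apply sg37_specializationExists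
  intro ℓ hℓ hℓNp A hA
  obtain ⟨Jb, i1, red, hI, hF0, hF1, hinj, hES⟩ := H ℓ hℓ hℓNp A hA
  refine ⟨Jb, i1, red, hI, hF0, hF1, hinj, ?_⟩
  intro σ hσ y
  have := hES σ hσ y
  rwa [← heckeModuleBar_heckeGen_smul hcomm ⟨ℓ, hℓ⟩ (σ • y)] at this

end Fermat.Agent.S37x
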