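/-
S37 prep, block B3 (helper82): ADAPTERS from S37x/SpecValue (`spv_`) to the literal hypothesis
shapes consumed by
* helper55's `gcp_place_compat_ts` (S37x/GaloisCompatTs): `hF1`, `hF2`;
* helper56's `es3s_hE` (S37x/Es3Supp): `es3s_Dich π ρ r J`;
* helper47's `es3p_hsep` / `es3p_hsep'` (S37x/Es3Sep): `hpole`, `hzero`.
-/
import Mathlib
import Fermat.Agent.S37x.SpecValue
import Fermat.Agent.S37x.Es3Supp

set_option autoImplicit false

namespace Fermat.Agent.S37x

open AlgebraicCurve WithZero Fermat.Agent.S18x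

section Setup

variable {L k F Fb : Type*} [Field L] [Field k] [Field F] [Field Fb] [Algebra L F] [Algebra k Fb]
variable {A : ValuationSubring L} {π : A →+* k} {W : ValuationSubring F} {ρ : W →+* Fb}
  {r : Place L F → Place k Fb}

variable (H : ts_Hyp A π W ρ r) (J : W) (hnc : ∀ a : k, ρ J ≠ algebraMap k Fb a)
  (hpol : spv_PolarLe r (J : F))

include H hnc hpol

/-- `hF1` of `gcp_place_compat_ts`: `J(P) = c ∈ A ⇒ (ρ J)(r P) = π c`. -/
theorem spva_hF1 : ∀ (P : Place L F) (c : L) (hc : c ∈ A),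
    P.adicValuation ((J : F) - algebraMap L F c) < 1 →
      (r P).adicValuation (ρ J - algebraMap k Fb (π ⟨c, hc⟩)) < 1 :=
  fun P c hc hP => spv_zero_of_zero H J hnc hpol ⟨c, hc⟩ P hP

/-- `hF2` of `gcp_place_compat_ts`: cusp type ⇒ pole of `ρ J`. -/
theorem spva_hF2 : ∀ P : Place L F,
    (¬ ∃ c ∈ A, P.adicValuation ((J : F) - algebraMap L F c) < 1) → (r P).ord (ρ J) < 0 := by
  intro P hP
  refine (spv_pole_iff H J hnc hpol P).mpr ?_
  rintro ⟨c, hc⟩
  exact hP ⟨(c : L), c.2, hc⟩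

/-- converse of `hF2`: a place reducing to a pole of `ρ J` is of cusp type. -/
theorem spva_hF2_conv : ∀ P : Place L F, (r P).ord (ρ J) < 0 →
    ¬ ∃ c ∈ A, P.adicValuation ((J : F) - algebraMap L F c) < 1 := by
  rintro P hP ⟨c, hcA, hc⟩
  exact (spv_pole_iff H J hnc hpol P).mp hP ⟨⟨c, hcA⟩, hc⟩

/-- `hzero` of `es3p_hsep'` (S37x/Es3Sep): zeros of `J` reduce to zeros of `ρ J`. -/
theorem spva_hzero : ∀ P : Place L F, 0 < P.ord (J : F) → 0 < (r P).ord (ρ J) := by
  intro P hP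
  have hJ0 : ρ J ≠ 0 := by simpa using hnc 0
  have h1 : P.adicValuation ((J : F) - algebraMap L F ((0 : A) : L)) < 1 := by
    rw [ZeroMemClass.coe_zero, map_zero, sub_zero, ts_val_lt_one_iff]
    right; omega
  have h2 := spv_zero_of_zero H J hnc hpol 0 P h1
  rw [map_zero, map_zero, sub_zero, ts_val_lt_one_iff] at h2
  have := h2.resolve_left hJ0
  omega

/-- `hpole` of `es3p_hsep` (S37x/Es3Sep): poles of `J` reduce to poles of `ρ J`. -/
theorem spva_hpole : ∀ P : Place L F, P.ord (J : F) < 0 → (r P).ord (ρ J) < 0 :=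
  fun P hP => spv_pole_of_pole H J hnc hpol P hP

/-- the dichotomy `es3s_Dich` of S37x/Es3Supp. -/
theorem spva_dich : es3s_Dich π ρ r J := by
  intro P
  by_cases h : ∃ c : A, P.adicValuation ((J : F) - algebraMap L F (c : L)) < 1
  · obtain ⟨c, hc⟩ := h
    exact Or.inl ⟨(c : L), c.2, hc, spv_zero_of_zero H J hnc hpol c P hc⟩
  · refine Or.inr ⟨(spv_pole_iff H J hnc hpol P).mpr h, fun c hcA hc => h ⟨⟨c, hcA⟩, hc⟩⟩

end Setup

end Fermat.Agent.S37x
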