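/-
S37 prep, [INST] layer (helper82, prefix `spvl_`): THE COMMON LEVEL-`N` LAYER "for ANY `r` with the
SPEC".  For `ℓ ∤ N`, `A` over `ℓ`, ANY place map `r` with `hr : IsPlaceReductionModL A N r` and the
second clause `hgen : PrincipalGeneratedByIntegral A (residue A) N` of `ReductionInputsModL A N`,
the canonical `h`-free Gauss pair `(nrmt_W N A, nrmt_rho N A ℓ hℓN hA)` of helper40 satisfies

* `spvl_tsHyp`    : `ts_Hyp A (residue A) (nrmt_W N A) (nrmt_rho ..) r`;
* `spvl_gauss`    : `s18a_Gauss A (residue A) (nrmt_W N A) (nrmt_rho ..) r`;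
* `spvl_hnc`      : `ρ J` is not constant (`J = nrmt_J N A`, `(J : FBar N) = jBar N`, `ρ J = j̄`);
* `spvl_polarLe`  : `spv_PolarLe r J` (DEG, from `glu_hpol_assembly`);
and hence all the `spv_` consequences (S37x/SpecValue) in closed form:
`spvl_pole_of_pole`, `spvl_zero_of_zero`, `spvl_pole_iff`, `spvl_value_chart0`,
`spvl_value_chartInf`, `spvl_dich` (= `es3s_Dich`), `spvl_hF1`, `spvl_hF2`;
plus the `Fb`-side place theory `spvl_hyp_fb : rmn_Hyp k (Fb_N)` and `spvl_hevalb`.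
-/
import Mathlib
import Fermat.Agent.S18x.InstGaussExists
import Fermat.Agent.S18x.NrmTopFree
import Fermat.Agent.S18x.GlueHpol
import Fermat.Agent.S18x.RmnFbar
import Fermat.Agent.S37x.CtmHFree
import Fermat.Agent.S37x.SpecValue
import Fermat.Agent.S37x.SpecValueAdapters

set_option autoImplicit false
set_option synthInstance.maxHeartbeats 400000

namespace Fermat.Agent.S37x

open ModularCurve HahnSeries AlgebraicCurve
open Fermat.Agent.S18x Fermat.Agent.S24x

noncomputable section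

variable (N : ℕ) [NeZero N] (A : ValuationSubring (AlgebraicClosure ℚ))
  (ℓ : ℕ) [Fact ℓ.Prime] (hℓN : ¬ ℓ ∣ N) (hA : A.LiesOverPrime ℓ)
variable (r : Place (AlgebraicClosure ℚ) (modularFunctionFieldBar N) →
    Place (IsLocalRing.ResidueField A) (modularFunctionFieldFullC (IsLocalRing.ResidueField A) N))
  (hr : IsPlaceReductionModL A N r)
  (hgen : PrincipalGeneratedByIntegral A (IsLocalRing.residue A) N)

include hr hgen in
/-- the inputs of `InstGaussW` for ANY `r` with the SPEC. -/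
theorem spvl_inputs : gi_Inputs (N := N) (IsLocalRing.residue A) r where
  hr := hr
  hgen := hgen
  hpd := (rmn_hyp_FBar N).hpd
  hconst := fun x hx hord => (rmn_hyp_FBar N).hconst x hx (fun Q => by rw [hord Q])
  hπu := fun a ha => by
    by_contra hnu
    exact ha ((IsLocalRing.residue_eq_zero_iff a).mpr ((IsLocalRing.mem_maximalIdeal a).mpr hnu))
  hπs := IsLocalRing.residue_surjective

include hr hgen in
/-- COMPAT for the canonical pair and ANY `r` with the SPEC. -/
theorem spvl_compat (u : nrmt_W N A) (hρ : nrmt_rho N A ℓ hℓN hA u ≠ 0)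
    (D : Divisor (AlgebraicClosure ℚ) (FBar N)) (hD : ∀ P, D P = P.ord (u : FBar N))
    (Q : Place (IsLocalRing.ResidueField A)
      (modularFunctionFieldFullC (IsLocalRing.ResidueField A) N)) :
    Finsupp.mapDomain r D Q = Q.ord (nrmt_rho N A ℓ hℓN hA u) := by
  have Hin := spvl_inputs N A r hr hgen
  have hρeq : gi_rho Hin ⟨(u : FBar N), u.2⟩ = nrmt_rho N A ℓ hℓN hA u := Subtype.ext rfl
  have h := gi_compat Hin ⟨(u : FBar N), u.2⟩ (by rw [hρeq]; exact hρ) D hD Q
  rw [hρeq] at h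
  exact h

include hr hgen in
/-- the Gauss package of S18x/Assembly for the canonical pair and ANY `r` with the SPEC. -/
theorem spvl_gauss :
    s18a_Gauss A (IsLocalRing.residue A) (nrmt_W N A) (nrmt_rho N A ℓ hℓN hA) r where
  mem_iff := nrtf_mem_iff N A
  rho_alg := nrtf_rho_alg N A ℓ hℓN hA
  pi_surj := IsLocalRing.residue_surjective
  ker := nrmt_rho_eq_zero_iff N A ℓ hℓN hA
  norm := (cthf_gauss N A ℓ hℓN hA).norm
  compat := spvl_compat N A ℓ hℓN hA r hr hgen
  rho_surj := fun y _ => nrmt_rho_surjective N A ℓ hℓN hA y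
  hdegr := hr.1

include hr hgen in
/-- **`ts_Hyp` for the canonical pair and ANY `r` with the SPEC.** -/
theorem spvl_tsHyp :
    ts_Hyp A (IsLocalRing.residue A) (nrmt_W N A) (nrmt_rho N A ℓ hℓN hA) r :=
  (spvl_gauss N A ℓ hℓN hA r hr hgen).toHyp (rmn_hyp_FBar N)

/-- `ρ J = j̄` is not constant. -/
theorem spvl_hnc (a : IsLocalRing.ResidueField A) :
    nrmt_rho N A ℓ hℓN hA (nrmt_J N A) ≠
      algebraMap (IsLocalRing.ResidueField A)
        (modularFunctionFieldFullC (IsLocalRing.ResidueField A) N) a := by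
  intro h
  rw [nrmt_rho_J] at h
  exact (pls_transcendental_jb (IsLocalRing.ResidueField A) N) (h ▸ isAlgebraic_algebraMap a)

include hr hgen hℓN hA in
/-- **(DEG)** the polar degree of `j` does not drop under `r_*`, for ANY `r` with the SPEC. -/
theorem spvl_polarLe : spv_PolarLe r ((nrmt_J N A : nrmt_W N A) : FBar N) := by
  have H := spvl_tsHyp N A ℓ hℓN hA r hr hgen
  have hJ0 : nrmt_rho N A ℓ hℓN hA (nrmt_J N A) ≠ 0 := cthf_rho_J_ne_zero N A ℓ hℓN hA
  obtain ⟨DJ, hDJ⟩ := H.hpd _ (spv_coe_ne_zero hJ0)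
  exact spv_polarLe_of_hpol H (nrmt_J N A) hJ0 DJ hDJ (Finsupp.mapDomain r DJ)
    (fun Q => H.compat _ hJ0 DJ hDJ Q)
    (glu_hpol_assembly N hℓN A hA (nrmt_W N A) (nrmt_rho N A ℓ hℓN hA) (nrmt_J N A)
      (nrmt_J_coe N A) (nrmt_rho_J_coe N A ℓ hℓN hA) DJ hDJ _
      (fun Q => H.compat _ hJ0 DJ hDJ Q))

/-! ### closed forms of the `spv_` consequences -/

include hr hgen hℓN hA in
/-- cusps reduce to cusps. -/
theorem spvl_pole_of_pole (P : Place (AlgebraicClosure ℚ) (FBar N)) (hP : P.ord (jBar N) < 0) :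
    (r P).ord (pls_jb (IsLocalRing.ResidueField A) N) < 0 := by
  have h := spv_pole_of_pole (spvl_tsHyp N A ℓ hℓN hA r hr hgen) (nrmt_J N A)
    (spvl_hnc N A ℓ hℓN hA) (spvl_polarLe N A ℓ hℓN hA r hr hgen) P hP
  rwa [nrmt_rho_J] at h

include hr hgen hℓN hA in
/-- `j(P) = c ∈ A ⇒ j̄(r P) = c̄`. -/
theorem spvl_zero_of_zero (c : A) (P : Place (AlgebraicClosure ℚ) (FBar N))
    (hP : P.adicValuation (jBar N - algebraMap (AlgebraicClosure ℚ) (FBar N) (c : AlgebraicClosure ℚ))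
      < 1) :
    (r P).adicValuation (pls_jb (IsLocalRing.ResidueField A) N -
      algebraMap (IsLocalRing.ResidueField A)
        (modularFunctionFieldFullC (IsLocalRing.ResidueField A) N) (IsLocalRing.residue A c)) < 1 := by
  have h := spv_zero_of_zero (spvl_tsHyp N A ℓ hℓN hA r hr hgen) (nrmt_J N A)
    (spvl_hnc N A ℓ hℓN hA) (spvl_polarLe N A ℓ hℓN hA r hr hgen) c P hP
  rwa [nrmt_rho_J] at h

include hr hgen hℓN hA in
/-- `r P` is a cusp iff `j(P) ∉ A`. -/
theorem spvl_pole_iff (P : Place (AlgebraicClosure ℚ) (FBar N)) :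
    (r P).ord (pls_jb (IsLocalRing.ResidueField A) N) < 0 ↔
      ¬ ∃ c : A, P.adicValuation
        (jBar N - algebraMap (AlgebraicClosure ℚ) (FBar N) (c : AlgebraicClosure ℚ)) < 1 := by
  have h := spv_pole_iff (spvl_tsHyp N A ℓ hℓN hA r hr hgen) (nrmt_J N A)
    (spvl_hnc N A ℓ hℓN hA) (spvl_polarLe N A ℓ hℓN hA r hr hgen) P
  rwa [nrmt_rho_J] at h

include hr hgen in
/-- the dichotomy `es3s_Dich` of S37x/Es3Supp at level `N`, for ANY `r` with the SPEC. -/
theorem spvl_dich :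
    es3s_Dich (IsLocalRing.residue A) (nrmt_rho N A ℓ hℓN hA) r (nrmt_J N A) :=
  spva_dich (spvl_tsHyp N A ℓ hℓN hA r hr hgen) (nrmt_J N A)
    (spvl_hnc N A ℓ hℓN hA) (spvl_polarLe N A ℓ hℓN hA r hr hgen)

include hr hgen in
/-- `hF1` of `gcp_place_compat_ts` at level `N`. -/
theorem spvl_hF1 : ∀ (P : Place (AlgebraicClosure ℚ) (FBar N)) (c : AlgebraicClosure ℚ)
    (hc : c ∈ A),
    P.adicValuation (((nrmt_J N A : nrmt_W N A) : FBar N) -
      algebraMap (AlgebraicClosure ℚ) (FBar N) c) < 1 →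
      (r P).adicValuation (nrmt_rho N A ℓ hℓN hA (nrmt_J N A) -
        algebraMap (IsLocalRing.ResidueField A)
          (modularFunctionFieldFullC (IsLocalRing.ResidueField A) N)
          (IsLocalRing.residue A ⟨c, hc⟩)) < 1 :=
  spva_hF1 (spvl_tsHyp N A ℓ hℓN hA r hr hgen) (nrmt_J N A)
    (spvl_hnc N A ℓ hℓN hA) (spvl_polarLe N A ℓ hℓN hA r hr hgen)

include hr hgen in
/-- `hF2` of `gcp_place_compat_ts` at level `N`. -/
theorem spvl_hF2 : ∀ P : Place (AlgebraicClosure ℚ) (FBar N),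
    (¬ ∃ c ∈ A, P.adicValuation (((nrmt_J N A : nrmt_W N A) : FBar N) -
      algebraMap (AlgebraicClosure ℚ) (FBar N) c) < 1) →
      (r P).ord (nrmt_rho N A ℓ hℓN hA (nrmt_J N A)) < 0 :=
  spva_hF2 (spvl_tsHyp N A ℓ hℓN hA r hr hgen) (nrmt_J N A)
    (spvl_hnc N A ℓ hℓN hA) (spvl_polarLe N A ℓ hℓN hA r hr hgen)

include hr hgen in
/-- VALUE LEMMA at level `N`, chart 0 (`g` regular off the cusps, `j(P₀) ∈ A`). -/
theorem spvl_value_chart0 (g : nrmt_W N A)
    (hg : ∀ P : Place (AlgebraicClosure ℚ) (FBar N), P.adicValuation (jBar N) ≤ 1 →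
      P.adicValuation (g : FBar N) ≤ 1)
    (P₀ : Place (AlgebraicClosure ℚ) (FBar N))
    (hP₀ : ∃ c : A, P₀.adicValuation
      (jBar N - algebraMap (AlgebraicClosure ℚ) (FBar N) (c : AlgebraicClosure ℚ)) < 1) :
    ∃ (c' : AlgebraicClosure ℚ) (hc' : c' ∈ A),
      P₀.adicValuation ((g : FBar N) - algebraMap (AlgebraicClosure ℚ) (FBar N) c') < 1 ∧
      (r P₀).adicValuation (nrmt_rho N A ℓ hℓN hA g -
        algebraMap (IsLocalRing.ResidueField A)
          (modularFunctionFieldFullC (IsLocalRing.ResidueField A) N)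
          (IsLocalRing.residue A ⟨c', hc'⟩)) < 1 :=
  spv_value_chart0 (spvl_tsHyp N A ℓ hℓN hA r hr hgen) (nrmt_J N A)
    (spvl_hnc N A ℓ hℓN hA) (spvl_polarLe N A ℓ hℓN hA r hr hgen) g hg P₀ hP₀

include hr hgen in
/-- VALUE LEMMA at level `N`, chart ∞ (`g` regular off the zeros of `j`, `j(P₀) ∉ A`). -/
theorem spvl_value_chartInf (g : nrmt_W N A)
    (hg : ∀ P : Place (AlgebraicClosure ℚ) (FBar N), ¬ P.adicValuation (jBar N) < 1 →
      P.adicValuation (g : FBar N) ≤ 1)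
    (P₀ : Place (AlgebraicClosure ℚ) (FBar N))
    (hP₀ : ¬ ∃ c : A, P₀.adicValuation
      (jBar N - algebraMap (AlgebraicClosure ℚ) (FBar N) (c : AlgebraicClosure ℚ)) < 1) :
    ∃ (c' : AlgebraicClosure ℚ) (hc' : c' ∈ A),
      P₀.adicValuation ((g : FBar N) - algebraMap (AlgebraicClosure ℚ) (FBar N) c') < 1 ∧
      (r P₀).adicValuation (nrmt_rho N A ℓ hℓN hA g -
        algebraMap (IsLocalRing.ResidueField A)
          (modularFunctionFieldFullC (IsLocalRing.ResidueField A) N)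
          (IsLocalRing.residue A ⟨c', hc'⟩)) < 1 :=
  spv_value_chartInf (spvl_tsHyp N A ℓ hℓN hA r hr hgen) (nrmt_J N A)
    (spvl_hnc N A ℓ hℓN hA) (spvl_polarLe N A ℓ hℓN hA r hr hgen) g hg P₀ hP₀

/-! ### the `Fb`-side place theory -/

/-- place theory of the reduced function field (`k` is algebraically closed). -/
theorem spvl_hyp_fb :
    rmn_Hyp (IsLocalRing.ResidueField A) (pls_Fb (IsLocalRing.ResidueField A) N) :=
  haveI : IsAlgClosed (IsLocalRing.ResidueField A) := s18a_isAlgClosed_residue A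
  rmn_hyp_fb (IsLocalRing.ResidueField A) N

/-- `hevalb` of `gcp_place_compat_ts`: `j̄` has a value at every non-cusp. -/
theorem spvl_hevalb (Q : Place (IsLocalRing.ResidueField A)
      (modularFunctionFieldFullC (IsLocalRing.ResidueField A) N))
    (hQ : ¬ Q.ord (nrmt_rho N A ℓ hℓN hA (nrmt_J N A)) < 0) :
    ∃ a : IsLocalRing.ResidueField A, Q.adicValuation (nrmt_rho N A ℓ hℓN hA (nrmt_J N A) -
      algebraMap (IsLocalRing.ResidueField A)
        (modularFunctionFieldFullC (IsLocalRing.ResidueField A) N) a) < 1 := by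
  refine (spvl_hyp_fb N A).eval Q _ ?_
  rw [Q.adicValuation_le_one_iff]
  right
  omega

end

end Fermat.Agent.S37x
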